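import Mathlib
import Fermat.Prelude.Def_ModularCurve_LaurentCoeff

/-!
# S18 / R0 (helper92): the Gauss valuation ring of a two-generator function field of `q`-expansions

Abstract setting: `A` a valuation subring of a field `L`, `π : A →+* k` a surjection onto a field,
`x y : A((q))` with a monic relation `Φ(x)(y) = 0` of degree `n` over `A[x]`, such that the
reductions `1, ȳ, …, ȳ^(n-1)` are linearly independent over `k[x̄]` inside `k((q))`.

We construct the "unit ball" `{a / b : a, b ∈ A[x,y], b̄ ≠ 0}` inside `L((q))`, the reduction map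
to `k((q))`, and prove the valuation-ring properties on `L(x,y)`.
-/

set_option autoImplicit false

noncomputable section

namespace Fermat.Agent.S18.H92

open ModularCurve Polynomial

section Ev2

variable {R S : Type*} [CommRing R] [CommRing S]

theorem algebraMap_eq_single (r : R) :
    algebraMap R (LaurentSeries R) r = HahnSeries.single 0 r := by
  have h1 : algebraMap R (PowerSeries R) r = PowerSeries.C r := by
    simp
  rw [HahnSeries.algebraMap_apply', h1, HahnSeries.ofPowerSeries_C]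
  rfl

theorem coeffMap_smul (f : R →+* S) (a : R) (x : LaurentSeries R) :
    coeffMap f (a • x) = f a • coeffMap f x := by
  ext n
  simp

theorem coeffMap_injective {f : R →+* S} (hf : Function.Injective f) :
    Function.Injective (coeffMap f) := by
  intro x y h
  ext n
  apply hf
  have := congrArg (fun z => z.coeff n) h
  simpa using this

/-- `P(X)(Y) ↦ P(x)(y)`: evaluation of a two-variable polynomial at a pair of Laurent series. -/
def ev2 (x y : LaurentSeries R) : R[X][X] →+* LaurentSeries R :=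
  Polynomial.eval₂RingHom (Polynomial.aeval x : R[X] →ₐ[R] LaurentSeries R).toRingHom y

theorem ev2_apply (x y : LaurentSeries R) (P : R[X][X]) :
    ev2 x y P = P.eval₂ (Polynomial.aeval x : R[X] →ₐ[R] LaurentSeries R).toRingHom y := rfl

@[simp]
theorem ev2_X (x y : LaurentSeries R) : ev2 x y X = y := by
  simp [ev2_apply]

@[simp]
theorem ev2_C (x y : LaurentSeries R) (p : R[X]) : ev2 x y (C p) = Polynomial.aeval x p := by
  simp [ev2_apply]

theorem ev2_C_X (x y : LaurentSeries R) : ev2 x y (C X) = x := by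
  simp

theorem ev2_C_C (x y : LaurentSeries R) (r : R) :
    ev2 x y (C (C r)) = HahnSeries.C r := by
  simp [algebraMap_eq_single]

theorem coeffMap_aeval (f : R →+* S) (x : LaurentSeries R) (p : R[X]) :
    coeffMap f (Polynomial.aeval x p) = Polynomial.aeval (coeffMap f x) (p.map f) := by
  induction p using Polynomial.induction_on' with
  | add p q hp hq => simp [hp, hq]
  | monomial n a =>
    simp [Polynomial.aeval_monomial, algebraMap_eq_single, coeffMap_smul]

theorem coeffMap_ev2 (f : R →+* S) (x y : LaurentSeries R) (P : R[X][X]) :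
    coeffMap f (ev2 x y P) =
      ev2 (coeffMap f x) (coeffMap f y) (P.map (Polynomial.mapRingHom f)) := by
  induction P using Polynomial.induction_on' with
  | add p q hp hq => simp [hp, hq]
  | monomial n a =>
    simp [ev2, coeffMap_aeval]

/-- `ev2` as an algebra homomorphism. -/
def ev2Alg (x y : LaurentSeries R) : R[X][X] →ₐ[R] LaurentSeries R :=
  { ev2 x y with
    commutes' := fun r => by
      show ev2 x y (algebraMap R R[X][X] r) = algebraMap R (LaurentSeries R) r
      rw [algebraMap_eq_single]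
      have : algebraMap R R[X][X] r = C (C r) := rfl
      rw [this, ev2_C_C]
      rfl }

theorem ev2Alg_apply (x y : LaurentSeries R) (P : R[X][X]) : ev2Alg x y P = ev2 x y P := rfl

theorem adjoin_pair_eq_range (x y : LaurentSeries R) :
    Algebra.adjoin R {x, y} = (ev2Alg x y).range := by
  apply le_antisymm
  · apply Algebra.adjoin_le
    rintro z (rfl | rfl)
    · exact ⟨C X, by simp [ev2Alg_apply]⟩
    · exact ⟨X, by simp [ev2Alg_apply]⟩
  · rintro _ ⟨P, rfl⟩
    show ev2 x y P ∈ _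
    induction P using Polynomial.induction_on' with
    | add p q hp hq => rw [map_add]; exact Subalgebra.add_mem _ hp hq
    | monomial n a =>
      rw [← C_mul_X_pow_eq_monomial, map_mul, map_pow, ev2_X, ev2_C]
      refine Subalgebra.mul_mem _ ?_ (Subalgebra.pow_mem _ (Algebra.subset_adjoin (by simp)) n)
      have : Algebra.adjoin R {x} ≤ Algebra.adjoin R {x, y} :=
        Algebra.adjoin_mono (by simp)
      exact this (Polynomial.aeval_mem_adjoin_singleton R x)

end Ev2

section Scale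

variable {L : Type*} [Field L] (A : ValuationSubring L)

/-- A two-variable polynomial over `L` all of whose coefficients lie in `A` comes from `A`. -/
theorem exists_map_eq_of_coeff_mem (P : L[X][X]) (h : ∀ i j, (P.coeff i).coeff j ∈ A) :
    ∃ Q : A[X][X], Q.map (Polynomial.mapRingHom A.subtype) = P := by
  have h1 : P ∈ (Polynomial.mapRingHom (Polynomial.mapRingHom A.subtype)).rangeS := by
    rw [Polynomial.mem_map_rangeS]
    intro i
    rw [Polynomial.mem_map_rangeS]
    intro j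
    exact ⟨⟨_, h i j⟩, rfl⟩
  obtain ⟨Q, hQ⟩ := h1
  exact ⟨Q, hQ⟩

/-- Among the coefficients of a nonzero two-variable polynomial there is one of maximal
valuation. -/
theorem exists_max_coeff (P : L[X][X]) (hP : P ≠ 0) :
    ∃ i j, (P.coeff i).coeff j ≠ 0 ∧
      ∀ i' j', ((P.coeff i).coeff j)⁻¹ * (P.coeff i').coeff j' ∈ A := by
  classical
  set V : Finset (ℕ × ℕ) :=
    (P.support.sigma fun i => (P.coeff i).support).image fun p => (p.1, p.2) with hV
  have hmem : ∀ i j, (i, j) ∈ V ↔ (P.coeff i).coeff j ≠ 0 := by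
    intro i j
    rw [hV, Finset.mem_image]
    constructor
    · rintro ⟨⟨i', j'⟩, hp, h⟩
      rw [Finset.mem_sigma] at hp
      simp only [Prod.mk.injEq] at h
      obtain ⟨rfl, rfl⟩ := h
      exact Polynomial.mem_support_iff.mp hp.2
    · intro h
      refine ⟨⟨i, j⟩, ?_, rfl⟩
      rw [Finset.mem_sigma]
      refine ⟨?_, Polynomial.mem_support_iff.mpr h⟩
      rw [Polynomial.mem_support_iff]
      intro h0
      rw [h0] at h
      simp at h
  have hne : V.Nonempty := by
    obtain ⟨i, hi⟩ := Polynomial.support_nonempty.mpr hP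
    have hi' := Polynomial.mem_support_iff.mp hi
    obtain ⟨j, hj⟩ := Polynomial.support_nonempty.mpr hi'
    exact ⟨(i, j), (hmem i j).mpr (Polynomial.mem_support_iff.mp hj)⟩
  obtain ⟨⟨i, j⟩, hij, hmax⟩ :=
    Finset.exists_max_image V (fun p => A.valuation ((P.coeff p.1).coeff p.2)) hne
  have hij' := (hmem i j).mp hij
  refine ⟨i, j, hij', fun i' j' => ?_⟩
  by_cases h0 : (P.coeff i').coeff j' = 0
  · rw [h0, mul_zero]; exact A.zero_mem
  · have := hmax (i', j') ((hmem i' j').mpr h0)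
    rw [← A.valuation_le_one_iff, map_mul, map_inv₀]
    have hpos : A.valuation ((P.coeff i).coeff j) ≠ 0 := (Valuation.ne_zero_iff _).mpr hij'
    rw [inv_mul_le_one₀ (zero_lt_iff.mpr hpos)]
    exact this

end Scale

section Model

variable {L : Type*} [Field L] {k : Type*} [Field k]

/-- coefficientwise inclusion `A((q)) → L((q))`. -/
abbrev up (A : ValuationSubring L) : LaurentSeries A →+* LaurentSeries L := coeffMap A.subtype

theorem up_injective (A : ValuationSubring L) : Function.Injective (up A) :=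
  coeffMap_injective Subtype.val_injective

/-- The data of a two-generator field of `q`-expansions with good reduction of the generators. -/
structure TwoGen (A : ValuationSubring L) (π : A →+* k) where
  x : LaurentSeries A
  y : LaurentSeries A
  n : ℕ
  Φ : A[X][X]
  monic : Φ.Monic
  natDegree_eq : Φ.natDegree = n
  root : ev2 x y Φ = 0
  indep : ∀ P : k[X][X], P.degree < n → ev2 (coeffMap π x) (coeffMap π y) P = 0 → P = 0
  surj : Function.Surjective π

namespace TwoGen

variable {A : ValuationSubring L} {π : A →+* k} (T : TwoGen A π)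

/-- the reduction map on `q`-expansions -/
abbrev red (_T : TwoGen A π) : LaurentSeries A →+* LaurentSeries k := coeffMap π

abbrev xL : LaurentSeries L := up A T.x
abbrev yL : LaurentSeries L := up A T.y
abbrev xk : LaurentSeries k := T.red T.x
abbrev yk : LaurentSeries k := T.red T.y

include T in
theorem map_eq_zero_iff (a : A) : π a = 0 ↔ ¬ IsUnit a := by
  have hker : RingHom.ker π = IsLocalRing.maximalIdeal A :=
    IsLocalRing.eq_maximalIdeal (RingHom.ker_isMaximal_of_surjective π T.surj)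
  rw [← RingHom.mem_ker, hker, IsLocalRing.mem_maximalIdeal, mem_nonunits_iff]

theorem up_ev2 (Q : A[X][X]) :
    up A (ev2 T.x T.y Q) = ev2 T.xL T.yL (Q.map (Polynomial.mapRingHom A.subtype)) :=
  coeffMap_ev2 _ _ _ _

theorem red_ev2 (Q : A[X][X]) :
    T.red (ev2 T.x T.y Q) = ev2 T.xk T.yk (Q.map (Polynomial.mapRingHom π)) :=
  coeffMap_ev2 _ _ _ _

theorem exists_scale_poly (P : L[X][X]) (hP : P ≠ 0) (hdeg : P.degree < T.n) :
    ∃ c : L, c ≠ 0 ∧ ∃ Q : A[X][X],
      Q.map (Polynomial.mapRingHom A.subtype) = C (C c) * P ∧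
        T.red (ev2 T.x T.y Q) ≠ 0 := by
  obtain ⟨i, j, hij, hmax⟩ := exists_max_coeff A P hP
  set c := ((P.coeff i).coeff j)⁻¹ with hc
  have hc0 : c ≠ 0 := inv_ne_zero hij
  have hcoeff : ∀ i' j', ((C (C c) * P).coeff i').coeff j' = c * (P.coeff i').coeff j' := by
    intro i' j'
    rw [Polynomial.coeff_C_mul, Polynomial.coeff_C_mul]
  obtain ⟨Q, hQ⟩ := exists_map_eq_of_coeff_mem A (C (C c) * P) (fun i' j' => by
    rw [hcoeff]; exact hmax i' j')
  refine ⟨c, hc0, Q, hQ, ?_⟩
  rw [T.red_ev2]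
  intro h0
  have hinj : Function.Injective (Polynomial.mapRingHom A.subtype) :=
    Polynomial.map_injective _ Subtype.val_injective
  have hdegQ : Q.degree < T.n := by
    have h1 : (Q.map (Polynomial.mapRingHom A.subtype)).degree = Q.degree :=
      Polynomial.degree_map_eq_of_injective hinj Q
    rw [← h1, hQ]
    have hCc : (C (C c) : L[X][X]) ≠ 0 := by
      simpa using hc0
    rw [Polynomial.degree_mul, Polynomial.degree_C (by simpa using hc0), zero_add]
    exact hdeg
  have hdeg' : (Q.map (Polynomial.mapRingHom π)).degree < T.n :=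
    lt_of_le_of_lt (Polynomial.degree_map_le) hdegQ
  have hzero := T.indep _ hdeg' h0
  have h1 : ((Q.map (Polynomial.mapRingHom π)).coeff i).coeff j = 0 := by
    rw [hzero]; simp
  rw [Polynomial.coeff_map, Polynomial.coe_mapRingHom, Polynomial.coeff_map] at h1
  have h2 : (((Q.coeff i).coeff j : A) : L) = 1 := by
    have := congrArg (fun R : L[X][X] => (R.coeff i).coeff j) hQ
    simp only [Polynomial.coeff_map, Polynomial.coe_mapRingHom] at this
    rw [hcoeff] at this
    rw [show A.subtype ((Q.coeff i).coeff j) = (((Q.coeff i).coeff j : A) : L) from rfl] at this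
    rw [this, hc, inv_mul_cancel₀ hij]
  have h3 : (Q.coeff i).coeff j = 1 := Subtype.ext h2
  rw [h3, map_one] at h1
  exact one_ne_zero h1

/-- the image of `Φ` over `L` -/
def ΦL : L[X][X] := T.Φ.map (Polynomial.mapRingHom A.subtype)

theorem ΦL_monic : T.ΦL.Monic := T.monic.map _

theorem ΦL_degree : T.ΦL.degree = T.n := by
  rw [Polynomial.degree_eq_natDegree T.ΦL_monic.ne_zero, ΦL,
    T.monic.natDegree_map, T.natDegree_eq]

theorem ev2_ΦL : ev2 T.xL T.yL T.ΦL = 0 := by
  rw [ΦL, ← T.up_ev2, T.root, map_zero]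

/-- every element of `L[x,y]` is the value of a polynomial of `y`-degree `< n`. -/
theorem exists_poly_of_mem {a : LaurentSeries L} (ha : a ∈ Algebra.adjoin L {T.xL, T.yL}) :
    ∃ P : L[X][X], P.degree < T.n ∧ ev2 T.xL T.yL P = a := by
  rw [adjoin_pair_eq_range] at ha
  obtain ⟨P, rfl⟩ := ha
  refine ⟨P %ₘ T.ΦL, ?_, ?_⟩
  · rw [← T.ΦL_degree]
    exact Polynomial.degree_modByMonic_lt _ T.ΦL_monic
  · show _ = ev2 T.xL T.yL P
    conv_rhs => rw [← Polynomial.modByMonic_add_div P T.ΦL]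
    rw [map_add, map_mul, T.ev2_ΦL, zero_mul, add_zero]

/-- **Scaling.** Every nonzero element of `L[x,y]` has a constant multiple in `A[x,y]` with
nonzero reduction. -/
theorem exists_scale {a : LaurentSeries L} (ha : a ∈ Algebra.adjoin L {T.xL, T.yL})
    (ha0 : a ≠ 0) :
    ∃ c : L, c ≠ 0 ∧ ∃ Q : A[X][X], up A (ev2 T.x T.y Q) = HahnSeries.C c * a ∧
      T.red (ev2 T.x T.y Q) ≠ 0 := by
  obtain ⟨P, hdeg, rfl⟩ := T.exists_poly_of_mem ha
  have hP : P ≠ 0 := by
    rintro rfl
    exact ha0 (map_zero _)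
  obtain ⟨c, hc, Q, hQ, hred⟩ := T.exists_scale_poly P hP hdeg
  refine ⟨c, hc, Q, ?_, hred⟩
  rw [T.up_ev2, hQ, map_mul, ev2_C_C]

/-- the subring `A[x,y]` of `A((q))` -/
def RA : Subring (LaurentSeries A) := (ev2 T.x T.y).range

/-- The unit ball `{a / b : a, b ∈ A[x,y], b̄ ≠ 0}` as a subring of `L((q))`. -/
def ball : Subring (LaurentSeries L) where
  carrier := {f | ∃ a ∈ T.RA, ∃ b ∈ T.RA, T.red b ≠ 0 ∧ f * up A b = up A a}
  mul_mem' := by
    rintro f g ⟨a, ha, b, hb, hb0, hf⟩ ⟨a', ha', b', hb', hb0', hg⟩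
    refine ⟨a * a', T.RA.mul_mem ha ha', b * b', T.RA.mul_mem hb hb', ?_, ?_⟩
    · rw [map_mul]; exact mul_ne_zero hb0 hb0'
    · rw [map_mul, map_mul, ← hf, ← hg]; ring
  one_mem' := ⟨1, T.RA.one_mem, 1, T.RA.one_mem, by simp, by simp⟩
  add_mem' := by
    rintro f g ⟨a, ha, b, hb, hb0, hf⟩ ⟨a', ha', b', hb', hb0', hg⟩
    refine ⟨a * b' + a' * b, T.RA.add_mem (T.RA.mul_mem ha hb') (T.RA.mul_mem ha' hb), b * b',
      T.RA.mul_mem hb hb', ?_, ?_⟩
    · rw [map_mul]; exact mul_ne_zero hb0 hb0'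
    · rw [map_mul, map_add, map_mul, map_mul, ← hf, ← hg]; ring
  zero_mem' := ⟨0, T.RA.zero_mem, 1, T.RA.one_mem, by simp, by simp⟩
  neg_mem' := by
    rintro f ⟨a, ha, b, hb, hb0, hf⟩
    exact ⟨-a, T.RA.neg_mem ha, b, hb, hb0, by rw [map_neg, ← hf]; ring⟩

theorem mem_ball {f : LaurentSeries L} :
    f ∈ T.ball ↔ ∃ a ∈ T.RA, ∃ b ∈ T.RA, T.red b ≠ 0 ∧ f * up A b = up A a := Iff.rfl

theorem up_ne_zero_of_red_ne_zero {b : LaurentSeries A} (hb : T.red b ≠ 0) : up A b ≠ 0 := by
  intro h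
  have : b = 0 := up_injective A (by rw [h, map_zero])
  exact hb (by rw [this, map_zero])

/-- the residue of an element of the ball (junk value outside) -/
def resFun (f : LaurentSeries L) : LaurentSeries k :=
  open Classical in
  if h : f ∈ T.ball then T.red h.choose / T.red h.choose_spec.2.choose else 0

theorem resFun_eq {f : LaurentSeries L} {a b : LaurentSeries A} (hb0 : T.red b ≠ 0)
    (hf : f * up A b = up A a) (hmem : f ∈ T.ball) : T.resFun f = T.red a / T.red b := by
  rw [resFun, dif_pos hmem]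
  obtain ⟨-, hb0', hf'⟩ := hmem.choose_spec.2.choose_spec
  set a' := hmem.choose
  set b' := hmem.choose_spec.2.choose
  rw [div_eq_div_iff hb0' hb0]
  have h1 : up A (a' * b) = up A (a * b') := by
    rw [map_mul, map_mul, ← hf, ← hf']; ring
  have h2 := up_injective A h1
  rw [← map_mul, ← map_mul, h2]

theorem resFun_one : T.resFun 1 = 1 := by
  rw [T.resFun_eq (a := 1) (b := 1) (by simp) (by simp) T.ball.one_mem]
  simp

theorem resFun_zero : T.resFun 0 = 0 := by
  rw [T.resFun_eq (a := 0) (b := 1) (by simp) (by simp) T.ball.zero_mem]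
  simp

theorem resFun_mul {f g : LaurentSeries L} (hf : f ∈ T.ball) (hg : g ∈ T.ball) :
    T.resFun (f * g) = T.resFun f * T.resFun g := by
  obtain ⟨a, ha, b, hb, hb0, hf'⟩ := hf
  obtain ⟨a', ha', b', hb', hb0', hg'⟩ := hg
  have hfm : f ∈ T.ball := ⟨a, ha, b, hb, hb0, hf'⟩
  have hgm : g ∈ T.ball := ⟨a', ha', b', hb', hb0', hg'⟩
  rw [T.resFun_eq hb0 hf' hfm, T.resFun_eq hb0' hg' hgm,
    T.resFun_eq (a := a * a') (b := b * b') (by rw [map_mul]; exact mul_ne_zero hb0 hb0')
      (by rw [map_mul, map_mul, ← hf', ← hg']; ring) (T.ball.mul_mem hfm hgm),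
    map_mul, map_mul, div_mul_div_comm]

theorem resFun_add {f g : LaurentSeries L} (hf : f ∈ T.ball) (hg : g ∈ T.ball) :
    T.resFun (f + g) = T.resFun f + T.resFun g := by
  obtain ⟨a, ha, b, hb, hb0, hf'⟩ := hf
  obtain ⟨a', ha', b', hb', hb0', hg'⟩ := hg
  have hfm : f ∈ T.ball := ⟨a, ha, b, hb, hb0, hf'⟩
  have hgm : g ∈ T.ball := ⟨a', ha', b', hb', hb0', hg'⟩
  rw [T.resFun_eq hb0 hf' hfm, T.resFun_eq hb0' hg' hgm,
    T.resFun_eq (a := a * b' + a' * b) (b := b * b')
      (by rw [map_mul]; exact mul_ne_zero hb0 hb0')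
      (by rw [map_mul, map_add, map_mul, map_mul, ← hf', ← hg']; ring) (T.ball.add_mem hfm hgm),
    map_mul, map_add, map_mul, map_mul, div_add_div _ _ hb0 hb0', mul_comm (T.red a') (T.red b)]

/-- the reduction map on the unit ball -/
def res : T.ball →+* LaurentSeries k where
  toFun f := T.resFun f
  map_one' := T.resFun_one
  map_mul' f g := T.resFun_mul f.2 g.2
  map_zero' := T.resFun_zero
  map_add' f g := T.resFun_add f.2 g.2

theorem res_apply (f : T.ball) : T.res f = T.resFun f := rfl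

/-- elements of `A[x,y]` lie in the ball, and reduce coefficientwise -/
theorem up_mem_ball_of_mem_RA {a : LaurentSeries A} (ha : a ∈ T.RA) : up A a ∈ T.ball :=
  ⟨a, ha, 1, T.RA.one_mem, by simp, by simp⟩

theorem resFun_up_of_mem_RA {a : LaurentSeries A} (ha : a ∈ T.RA) :
    T.resFun (up A a) = T.red a := by
  rw [T.resFun_eq (a := a) (b := 1) (by simp) (by simp) (T.up_mem_ball_of_mem_RA ha)]
  simp

theorem C_mem_RA (a : A) : HahnSeries.C a ∈ T.RA := ⟨C (C a), ev2_C_C _ _ _⟩

theorem up_C (a : A) : up A (HahnSeries.C a) = HahnSeries.C (a : L) := by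
  show coeffMap A.subtype (HahnSeries.single 0 a) = _
  rw [coeffMap_single]; rfl

theorem red_C (a : A) : T.red (HahnSeries.C a) = HahnSeries.C (π a) := by
  show coeffMap π (HahnSeries.single 0 a) = _
  rw [coeffMap_single]; rfl

theorem smul_mem_RA (c : A) {a : LaurentSeries A} (ha : a ∈ T.RA) :
    HahnSeries.C c * a ∈ T.RA := T.RA.mul_mem (T.C_mem_RA c) ha

/-- **(C)** constants of the ball are exactly `A`. -/
theorem C_mem_ball_iff (c : L) : HahnSeries.C c ∈ T.ball ↔ c ∈ A := by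
  constructor
  · rintro ⟨a, ha, b, hb, hb0, h⟩
    by_contra hc
    have hc0 : c ≠ 0 := fun h0 => hc (h0 ▸ A.zero_mem)
    have hci : c⁻¹ ∈ A := (A.mem_or_inv_mem c).resolve_left hc
    have hnu : ¬ IsUnit (⟨c⁻¹, hci⟩ : A) := by
      intro hu
      obtain ⟨u, hu⟩ := hu
      apply hc
      have h1 : ((u⁻¹ : Aˣ) : A) * (⟨c⁻¹, hci⟩ : A) = 1 := by rw [← hu]; simp
      have h2 : (((u⁻¹ : Aˣ) : A) : L) * c⁻¹ = 1 := by
        have := congrArg Subtype.val h1
        simpa using this
      have h3 : (((u⁻¹ : Aˣ) : A) : L) = c := by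
        field_simp at h2
        exact h2
      rw [← h3]; exact ((u⁻¹ : Aˣ) : A).2
    have h1 : up A b = up A (HahnSeries.C ⟨c⁻¹, hci⟩ * a) := by
      rw [map_mul, up_C, ← h, ← mul_assoc, ← map_mul]
      simp [inv_mul_cancel₀ hc0]
    have h2 := up_injective A h1
    apply hb0
    rw [h2, map_mul, T.red_C, (T.map_eq_zero_iff _).mpr hnu]
    simp
  · intro hc
    have := T.up_mem_ball_of_mem_RA (T.C_mem_RA ⟨c, hc⟩)
    rwa [up_C] at this

theorem resFun_C (a : A) : T.resFun (HahnSeries.C (a : L)) = HahnSeries.C (π a) := by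
  rw [← up_C, T.resFun_up_of_mem_RA (T.C_mem_RA a), T.red_C]

/-- the function field `L(x,y)` -/
abbrev FL : IntermediateField L (LaurentSeries L) := IntermediateField.adjoin L {T.xL, T.yL}

/-- the residue function field `k(x̄,ȳ)` -/
abbrev Fk : IntermediateField k (LaurentSeries k) := IntermediateField.adjoin k {T.xk, T.yk}

theorem exists_frac {f : LaurentSeries L} (hf : f ∈ T.FL) (hf0 : f ≠ 0) :
    ∃ c : L, c ≠ 0 ∧ ∃ a ∈ T.RA, ∃ b ∈ T.RA, T.red a ≠ 0 ∧ T.red b ≠ 0 ∧
      HahnSeries.C c * f * up A b = up A a := by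
  obtain ⟨r, hr, s, hs, rfl⟩ := IntermediateField.mem_adjoin_iff_div.mp hf
  have hr0 : r ≠ 0 := fun h => hf0 (by rw [h, zero_div])
  have hs0 : s ≠ 0 := fun h => hf0 (by rw [h, div_zero])
  obtain ⟨cr, hcr, Qr, hQr, hredr⟩ := T.exists_scale hr hr0
  obtain ⟨cs, hcs, Qs, hQs, hreds⟩ := T.exists_scale hs hs0
  refine ⟨cr / cs, div_ne_zero hcr hcs, _, ⟨Qr, rfl⟩, _, ⟨Qs, rfl⟩, hredr, hreds, ?_⟩
  rw [hQr, hQs, map_div₀]
  have : (HahnSeries.C cs : LaurentSeries L) ≠ 0 := by
    rw [Ne, map_eq_zero]; exact hcs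
  field_simp

/-- **(V4)** every nonzero function is a constant times a unit of the ball. -/
theorem exists_const_mul {f : LaurentSeries L} (hf : f ∈ T.FL) (hf0 : f ≠ 0) :
    ∃ c : L, c ≠ 0 ∧ HahnSeries.C c * f ∈ T.ball ∧ T.resFun (HahnSeries.C c * f) ≠ 0 := by
  obtain ⟨c, hc, a, ha, b, hb, ha0, hb0, h⟩ := T.exists_frac hf hf0
  have hmem : HahnSeries.C c * f ∈ T.ball := ⟨a, ha, b, hb, hb0, h⟩
  refine ⟨c, hc, hmem, ?_⟩
  rw [T.resFun_eq hb0 h hmem]
  exact div_ne_zero ha0 hb0

/-- **(V2)** the ball is a valuation ring of `L(x,y)`. -/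
theorem mem_or_inv_mem {f : LaurentSeries L} (hf : f ∈ T.FL) : f ∈ T.ball ∨ f⁻¹ ∈ T.ball := by
  by_cases hf0 : f = 0
  · left; rw [hf0]; exact T.ball.zero_mem
  obtain ⟨c, hc, a, ha, b, hb, ha0, hb0, h⟩ := T.exists_frac hf hf0
  have hCc : (HahnSeries.C c : LaurentSeries L) ≠ 0 := by
    rw [Ne, map_eq_zero]; exact hc
  rcases A.mem_or_inv_mem c with hcA | hcA
  · right
    refine ⟨HahnSeries.C ⟨c, hcA⟩ * b, T.smul_mem_RA _ hb, a, ha, ha0, ?_⟩
    rw [map_mul, up_C, ← h]
    field_simp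
  · left
    refine ⟨HahnSeries.C ⟨c⁻¹, hcA⟩ * a, T.smul_mem_RA _ ha, b, hb, hb0, ?_⟩
    rw [map_mul, up_C, ← h]
    show f * up A b = HahnSeries.C c⁻¹ * (HahnSeries.C c * f * up A b)
    rw [map_inv₀]
    field_simp

theorem inv_mem_ball_of_resFun_ne_zero {f : LaurentSeries L} (hf : f ∈ T.ball)
    (h : T.resFun f ≠ 0) : f⁻¹ ∈ T.ball := by
  obtain ⟨a, ha, b, hb, hb0, hf'⟩ := hf
  have hfm : f ∈ T.ball := ⟨a, ha, b, hb, hb0, hf'⟩
  rw [T.resFun_eq hb0 hf' hfm] at h
  have ha0 : T.red a ≠ 0 := fun h0 => h (by rw [h0, zero_div])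
  have hupa := T.up_ne_zero_of_red_ne_zero ha0
  have hf0 : f ≠ 0 := by
    rintro rfl
    rw [zero_mul] at hf'
    exact hupa hf'.symm
  refine ⟨b, hb, a, ha, ha0, ?_⟩
  rw [← hf']
  field_simp

theorem resFun_ne_zero_of_inv_mem {f : LaurentSeries L} (hf : f ∈ T.ball) (hf0 : f ≠ 0)
    (hinv : f⁻¹ ∈ T.ball) : T.resFun f ≠ 0 := by
  intro h
  have h1 := T.resFun_mul hf hinv
  rw [mul_inv_cancel₀ hf0, T.resFun_one, h, zero_mul] at h1
  exact one_ne_zero h1

theorem red_mem_Fk {a : LaurentSeries A} (ha : a ∈ T.RA) : T.red a ∈ T.Fk := by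
  obtain ⟨Q, rfl⟩ := ha
  rw [T.red_ev2]
  have h1 : ev2 T.xk T.yk (Q.map (Polynomial.mapRingHom π)) ∈ Algebra.adjoin k {T.xk, T.yk} := by
    rw [adjoin_pair_eq_range]
    exact ⟨_, rfl⟩
  exact IntermediateField.algebra_adjoin_le_adjoin k _ h1

theorem up_mem_FL {a : LaurentSeries A} (ha : a ∈ T.RA) : up A a ∈ T.FL := by
  obtain ⟨Q, rfl⟩ := ha
  rw [T.up_ev2]
  have h1 : ev2 T.xL T.yL (Q.map (Polynomial.mapRingHom A.subtype)) ∈
      Algebra.adjoin L {T.xL, T.yL} := by
    rw [adjoin_pair_eq_range]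
    exact ⟨_, rfl⟩
  exact IntermediateField.algebra_adjoin_le_adjoin L _ h1

/-- the residue of an element of the ball lies in `k(x̄,ȳ)`. -/
theorem resFun_mem_Fk (f : LaurentSeries L) : T.resFun f ∈ T.Fk := by
  by_cases hf : f ∈ T.ball
  · obtain ⟨a, ha, b, hb, hb0, hf'⟩ := hf
    rw [T.resFun_eq hb0 hf' ⟨a, ha, b, hb, hb0, hf'⟩]
    exact T.Fk.div_mem (T.red_mem_Fk ha) (T.red_mem_Fk hb)
  · rw [resFun, dif_neg hf]; exact T.Fk.zero_mem

/-- every polynomial expression over `k` lifts. -/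
theorem exists_lift_of_mem_adjoin {β : LaurentSeries k} (hβ : β ∈ Algebra.adjoin k {T.xk, T.yk}) :
    ∃ a ∈ T.RA, T.red a = β := by
  rw [adjoin_pair_eq_range] at hβ
  obtain ⟨P, rfl⟩ := hβ
  obtain ⟨Q, rfl⟩ : ∃ Q : A[X][X], Q.map (Polynomial.mapRingHom π) = P :=
    Polynomial.map_surjective _ (Polynomial.map_surjective _ T.surj) P
  exact ⟨ev2 T.x T.y Q, ⟨Q, rfl⟩, T.red_ev2 Q⟩

/-- **surjectivity of the reduction** onto `k(x̄,ȳ)`. -/
theorem exists_resFun_eq {β : LaurentSeries k} (hβ : β ∈ T.Fk) :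
    ∃ f ∈ T.FL, f ∈ T.ball ∧ T.resFun f = β := by
  obtain ⟨r, hr, s, hs, rfl⟩ := IntermediateField.mem_adjoin_iff_div.mp hβ
  by_cases hs0 : s = 0
  · exact ⟨0, T.FL.zero_mem, T.ball.zero_mem, by rw [hs0, div_zero, T.resFun_zero]⟩
  obtain ⟨a, ha, rfl⟩ := T.exists_lift_of_mem_adjoin hr
  obtain ⟨b, hb, rfl⟩ := T.exists_lift_of_mem_adjoin hs
  have hupb := T.up_ne_zero_of_red_ne_zero hs0
  have hmem : up A a / up A b ∈ T.ball := ⟨a, ha, b, hb, hs0, by field_simp⟩
  refine ⟨up A a / up A b, T.FL.div_mem (T.up_mem_FL ha) (T.up_mem_FL hb), hmem, ?_⟩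
  rw [T.resFun_eq hs0 (by field_simp) hmem]

/-- **(V3)** an `A`-integral `q`-expansion lying in `L(x,y)` lies in the ball, and its residue is
its coefficientwise reduction. -/
theorem up_mem_ball {z : LaurentSeries A} (hz : up A z ∈ T.FL) :
    up A z ∈ T.ball ∧ T.resFun (up A z) = T.red z := by
  by_cases hz0 : z = 0
  · subst hz0
    rw [map_zero, map_zero]
    exact ⟨T.ball.zero_mem, T.resFun_zero⟩
  have hupz : up A z ≠ 0 := fun h => hz0 (up_injective A (by rw [h, map_zero]))
  obtain ⟨c, hc, a, ha, b, hb, ha0, hb0, h⟩ := T.exists_frac hz hupz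
  rcases A.mem_or_inv_mem c with hcA | hcA
  · -- `c ∈ A`: then `c` is a unit since the reduction of `a` is nonzero
    have h1 : up A (HahnSeries.C ⟨c, hcA⟩ * z * b) = up A a := by
      rw [map_mul, map_mul, up_C]; exact h
    have h2 := up_injective A h1
    have hu : IsUnit (⟨c, hcA⟩ : A) := by
      by_contra hnu
      apply ha0
      rw [← h2, map_mul, map_mul, T.red_C, (T.map_eq_zero_iff _).mpr hnu]
      simp
    obtain ⟨u, hu⟩ := hu
    have hcinv : c⁻¹ ∈ A := by
      have h3 : (((u⁻¹ : Aˣ) : A) : L) * c = 1 := by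
        have : ((u⁻¹ : Aˣ) : A) * (⟨c, hcA⟩ : A) = 1 := by rw [← hu]; simp
        have := congrArg Subtype.val this
        simpa using this
      have h4 : c⁻¹ = (((u⁻¹ : Aˣ) : A) : L) := by
        field_simp
        rw [mul_comm]; exact h3.symm
      rw [h4]; exact ((u⁻¹ : Aˣ) : A).2
    have hrel : up A z * up A b = up A (HahnSeries.C ⟨c⁻¹, hcinv⟩ * a) := by
      rw [map_mul, up_C, ← h]
      show _ = HahnSeries.C c⁻¹ * (HahnSeries.C c * up A z * up A b)
      rw [map_inv₀]
      have : (HahnSeries.C c : LaurentSeries L) ≠ 0 := by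
        rw [Ne, map_eq_zero]; exact hc
      field_simp
    have hmem : up A z ∈ T.ball := ⟨_, T.smul_mem_RA _ ha, b, hb, hb0, hrel⟩
    refine ⟨hmem, ?_⟩
    rw [T.resFun_eq hb0 hrel hmem, div_eq_iff hb0]
    have h5 := up_injective A (by rw [map_mul]; exact hrel :
      up A (z * b) = up A (HahnSeries.C ⟨c⁻¹, hcinv⟩ * a))
    rw [← h5, map_mul]
  · -- `c⁻¹ ∈ A`
    have hrel : up A z * up A b = up A (HahnSeries.C ⟨c⁻¹, hcA⟩ * a) := by
      rw [map_mul, up_C, ← h]
      show _ = HahnSeries.C c⁻¹ * (HahnSeries.C c * up A z * up A b)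
      rw [map_inv₀]
      have : (HahnSeries.C c : LaurentSeries L) ≠ 0 := by
        rw [Ne, map_eq_zero]; exact hc
      field_simp
    have hmem : up A z ∈ T.ball := ⟨_, T.smul_mem_RA _ ha, b, hb, hb0, hrel⟩
    refine ⟨hmem, ?_⟩
    rw [T.resFun_eq hb0 hrel hmem, div_eq_iff hb0]
    have h5 := up_injective A (by rw [map_mul]; exact hrel :
      up A (z * b) = up A (HahnSeries.C ⟨c⁻¹, hcA⟩ * a))
    rw [← h5, map_mul]

/-! ### Packaging on subtypes -/

section Package

variable (F : IntermediateField L (LaurentSeries L)) (hF : F = T.FL)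
variable (Fb : IntermediateField k (LaurentSeries k)) (hFb : Fb = T.Fk)

/-- The Gauss valuation ring of the function field `F = L(x,y)`. -/
def unitBall : ValuationSubring F where
  __ := T.ball.comap F.val.toRingHom
  mem_or_inv_mem' := fun f => by
    have hf : (f : LaurentSeries L) ∈ T.FL := hF ▸ f.2
    rcases T.mem_or_inv_mem hf with h | h
    · exact Or.inl h
    · exact Or.inr (by
        show ((f⁻¹ : F) : LaurentSeries L) ∈ T.ball
        simpa using h)

theorem mem_unitBall {f : F} : f ∈ T.unitBall F hF ↔ (f : LaurentSeries L) ∈ T.ball := Iff.rfl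

/-- The reduction map `O_v → F̄`. -/
def resHom : T.unitBall F hF →+* Fb where
  toFun f := ⟨T.resFun ((f : F) : LaurentSeries L), hFb ▸ T.resFun_mem_Fk _⟩
  map_one' := Subtype.ext T.resFun_one
  map_mul' f g := Subtype.ext (T.resFun_mul f.2 g.2)
  map_zero' := Subtype.ext T.resFun_zero
  map_add' f g := Subtype.ext (T.resFun_add f.2 g.2)

theorem coe_resHom (f : T.unitBall F hF) :
    ((T.resHom F hF Fb hFb f : Fb) : LaurentSeries k) = T.resFun ((f : F) : LaurentSeries L) := rfl

theorem resHom_surjective : Function.Surjective (T.resHom F hF Fb hFb) := by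
  rintro ⟨β, hβ⟩
  obtain ⟨f, hf, hfb, hres⟩ := T.exists_resFun_eq (hFb ▸ hβ)
  exact ⟨⟨⟨f, hF ▸ hf⟩, hfb⟩, Subtype.ext hres⟩

theorem coe_algebraMap_F (c : L) :
    ((algebraMap L F c : F) : LaurentSeries L) = HahnSeries.C c := by
  show algebraMap L (LaurentSeries L) c = _
  rw [algebraMap_eq_single]; rfl

/-- **(C)** -/
theorem algebraMap_mem_unitBall_iff (c : L) : algebraMap L F c ∈ T.unitBall F hF ↔ c ∈ A := by
  rw [mem_unitBall, coe_algebraMap_F, T.C_mem_ball_iff]

theorem resHom_algebraMap (a : A) :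
    T.resHom F hF Fb hFb ⟨algebraMap L F a, (T.algebraMap_mem_unitBall_iff F hF a).mpr a.2⟩ =
      algebraMap k Fb (π a) := by
  apply Subtype.ext
  rw [coe_resHom]
  show T.resFun ((algebraMap L F (a : L) : F) : LaurentSeries L) = algebraMap k (LaurentSeries k) (π a)
  rw [coe_algebraMap_F, T.resFun_C, algebraMap_eq_single]; rfl

/-- **(V4)** -/
theorem exists_const_mul_mem (f : F) (hf : f ≠ 0) :
    ∃ c : L, c ≠ 0 ∧ ∃ h : algebraMap L F c * f ∈ T.unitBall F hF,
      T.resHom F hF Fb hFb ⟨_, h⟩ ≠ 0 := by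
  have hf' : (f : LaurentSeries L) ∈ T.FL := hF ▸ f.2
  have hf0 : (f : LaurentSeries L) ≠ 0 := fun h => hf (Subtype.ext h)
  obtain ⟨c, hc, hmem, hres⟩ := T.exists_const_mul hf' hf0
  have hmem' : algebraMap L F c * f ∈ T.unitBall F hF := by
    rw [mem_unitBall]
    show ((algebraMap L F c : F) : LaurentSeries L) * (f : LaurentSeries L) ∈ T.ball
    rw [coe_algebraMap_F]; exact hmem
  refine ⟨c, hc, hmem', fun h0 => hres ?_⟩
  have := congrArg Subtype.val h0
  rw [coe_resHom] at this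
  rw [← coe_algebraMap_F F c]
  exact this

theorem resHom_eq_zero_iff (f : T.unitBall F hF) :
    T.resHom F hF Fb hFb f = 0 ↔ ¬ IsUnit f := by
  constructor
  · intro h hu
    have := hu.map (T.resHom F hF Fb hFb)
    rw [h] at this
    exact not_isUnit_zero this
  · intro hnu
    by_contra h
    apply hnu
    have h' : T.resFun ((f : F) : LaurentSeries L) ≠ 0 := fun h0 => h (Subtype.ext h0)
    have hinv := T.inv_mem_ball_of_resFun_ne_zero f.2 h'
    have hf0 : (f : F) ≠ 0 := by
      intro h0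
      apply h'
      rw [h0]; exact T.resFun_zero
    have hinv' : (f : F)⁻¹ ∈ T.unitBall F hF := by
      rw [mem_unitBall]; simpa using hinv
    refine ⟨⟨f, ⟨(f : F)⁻¹, hinv'⟩, ?_, ?_⟩, rfl⟩
    · apply Subtype.ext; simp [hf0]
    · apply Subtype.ext; simp [hf0]

/-- **(V3)** -/
theorem up_mem_unitBall {z : LaurentSeries A} (hz : up A z ∈ F) :
    ∃ h : (⟨up A z, hz⟩ : F) ∈ T.unitBall F hF,
      ((T.resHom F hF Fb hFb ⟨_, h⟩ : Fb) : LaurentSeries k) = coeffMap π z := by
  obtain ⟨h1, h2⟩ := T.up_mem_ball (hF ▸ hz)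
  exact ⟨h1, h2⟩

include T hF hFb in
/-- **(PGI, algebraic part)** every nonzero function is, up to a nonzero constant, a quotient of two
`A`-integral `q`-expansions lying in `F` whose reductions are nonzero elements of `F̄`. -/
theorem exists_integral_frac (f : F) (hf : f ≠ 0) :
    ∃ (c : L) (a b : LaurentSeries A) (ha : up A a ∈ F) (hb : up A b ∈ F), c ≠ 0 ∧
      coeffMap π a ≠ 0 ∧ coeffMap π b ≠ 0 ∧ coeffMap π a ∈ Fb ∧ coeffMap π b ∈ Fb ∧
        algebraMap L F c * f * ⟨up A b, hb⟩ = ⟨up A a, ha⟩ := by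
  have hf' : (f : LaurentSeries L) ∈ T.FL := hF ▸ f.2
  have hf0 : (f : LaurentSeries L) ≠ 0 := fun h => hf (Subtype.ext h)
  obtain ⟨c, hc, a, ha, b, hb, ha0, hb0, h⟩ := T.exists_frac hf' hf0
  refine ⟨c, a, b, hF ▸ T.up_mem_FL ha, hF ▸ T.up_mem_FL hb, hc, ha0, hb0,
    hFb ▸ T.red_mem_Fk ha, hFb ▸ T.red_mem_Fk hb, ?_⟩
  apply Subtype.ext
  show ((algebraMap L F c : F) : LaurentSeries L) * (f : LaurentSeries L) * up A b = up A a
  rw [coe_algebraMap_F]; exact h

end Package

end TwoGen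

end Model

end Fermat.Agent.S18.H92
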