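import Mathlib
import Fermat.Prelude.Def_ModularCurve_X0ModL
import Fermat.Agent.S28.H16_Wrapper
import Fermat.Agent.S28.H16_HasModPoly
import Fermat.Agent.S28.H16_Transfer
import Fermat.Agent.S28.H16_RatFuncEmb
import Fermat.Agent.S28.H9_DeltaQuot
import Fermat.Agent.S28.H50_Step
import Fermat.Agent.S28.H40_Degree
import Fermat.Agent.S28.H69_Hgen

/-!
S18 / (B5) FBAR-BASICS (helper16): the function field `FK = K(j(q^d) : d ∣ N) ⊆ K((q))` of `X₀(N)`
over a field `K` of characteristic `ℓ ∤ N`.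

* `transcendental_jK`, `jK`, `jNK`
* `exists_modPolyK` : `Φ_N mod ℓ` irreducible + separable over `K(Y)`, `= minpoly K(jK) jNK`
* `adjoin_jNK_eq_top'`, `adjoin_pair_eq_top'`, `fullC_eq_adjoin'` : GENERATION `FK = K(j, j_N)`
* `finrank_fullC`, `finiteDimensional_fullC`, `isSeparable_fullC`, `linearIndependent_pow_jNK`
* series level: `modPoly_root`, `eval_map_iotaJ_ne_zero`, `eval₂_ne_zero_of_degree_lt`,
  `jd_mem_adjoin`, `mem_adjoin_of_int_rel`

Inputs: S28 (W1 `HasModPoly`, W2 `IrredCharL`) and the characteristic-0 generation (S28/W5).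
-/

set_option autoImplicit false
set_option linter.unusedSectionVars false
set_option synthInstance.maxHeartbeats 400000

noncomputable section

namespace Fermat.Agent.S18.H16

open ModularCurve HahnSeries Polynomial Fermat.Agent.S28

/-! ### 1. The modular polynomial and its reduction -/

/-- S28 (W1 + W2) repackaged: a modular polynomial of level `N` with all formal conjugates as
roots, irreducible mod `ℓ` over `K(J)` for every field `K` of characteristic `ℓ ∤ N`. -/
theorem exists_modPoly (N : ℕ) [NeZero N] (ℓ : ℕ) [Fact ℓ.Prime] (hℓN : ¬ ℓ ∣ N) :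
    ∃ D : ModularPolynomialData N,
      (∀ (k : Type) [Field k] (ζ : kˣ), IsPrimitiveRoot ζ N → RootsAt k N ζ D.Φ) ∧
        IrredCharL ℓ D.Φ := by
  obtain ⟨D, hD⟩ := S28.H16.hasModPoly N
  exact ⟨D, hD, S28.H16.irredCharL_of_step
    (fun k _ _ => S28.H50.stepStatement k (fun m _ => S28.H16.hasModPoly m)
      (fun p _ hp => S28.H9.exists_deltaQuotPoly p hp)) N ℓ hℓN D hD⟩

/-- The defining relation `Φ_N(j_N, j) = 0` holds over every commutative ring. -/
theorem modPoly_root (N : ℕ) [NeZero N] (D : ModularPolynomialData N) (R : Type*) [CommRing R] :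
    D.Φ.eval₂ (evalJ (jqModC R)) (qExpand R N (jqModC R)) = 0 := by
  have hQ : D.Φ.eval₂ (evalJ (jqModC ℚ)) (qExpand ℚ N (jqModC ℚ)) = 0 := D.eval_eq_zero
  have hZ : D.Φ.eval₂ (evalJ (jqModC ℤ)) (qExpand ℤ N (jqModC ℤ)) = 0 := by
    apply S28.H16.coeffMap_injective (f := Int.castRingHom ℚ) Int.cast_injective
    rw [S28.H16.coeffMap_eval₂_evalJ, coeffMap_qExpand, coeffMap_jqModC, map_zero]
    exact hQ
  have := congrArg (coeffMap (Int.castRingHom R)) hZ
  rwa [S28.H16.coeffMap_eval₂_evalJ, coeffMap_qExpand, coeffMap_jqModC, map_zero] at this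

section MinDeg

variable {K : Type*} [Field K]

theorem aeval_jqModC_injective : Function.Injective (Polynomial.aeval (R := K) (jqModC K)) :=
  transcendental_iff_injective.1 (S28.H39.transcendental_jqModC (k := K))

/-- `K(Y) → K((q))`, `Y ↦ j`. -/
def iotaJ (K : Type*) [Field K] : RatFunc K →+* LaurentSeries K :=
  S28.H16.ratFuncToLaurent (jqModC K) aeval_jqModC_injective

theorem eval_map_iotaJ (Ψ : Polynomial ℤ[X]) (y : LaurentSeries K) :
    ((redModPoly K Ψ).map (iotaJ K)).eval y = Ψ.eval₂ (evalJ (jqModC K)) y :=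
  S28.H16.eval_redModPoly_map (jqModC K) y aeval_jqModC_injective Ψ

/-- `K(Y)`-level form: a nonzero polynomial over `K(Y)` of degree `< deg Φ` does not vanish (after
`Y ↦ j`) at a root `y` of the irreducible `Φ mod ℓ`; i.e. `1, y, .., y^(deg Φ - 1)` are linearly
independent over `K(j)` inside `K((q))`. -/
theorem eval_map_iotaJ_ne_zero {Φ : Polynomial ℤ[X]} (hΦ : Φ.Monic)
    (hirr : Irreducible (redModPoly K Φ)) {y : LaurentSeries K}
    (hroot : Φ.eval₂ (evalJ (jqModC K)) y = 0)
    {P : Polynomial (RatFunc K)} (hP : P ≠ 0) (hdeg : P.degree < Φ.degree) :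
    (P.map (iotaJ K)).eval y ≠ 0 := by
  intro h0
  have hdegP : P.degree < (redModPoly K Φ).degree := by
    rw [show (redModPoly K Φ).degree = Φ.degree from hΦ.degree_map _]
    exact hdeg
  have hnd : ¬ redModPoly K Φ ∣ P := Polynomial.not_dvd_of_degree_lt hP hdegP
  obtain ⟨a, b, hab⟩ := (hirr.coprime_iff_not_dvd.2 hnd)
  have := congrArg (fun Q : Polynomial (RatFunc K) => (Q.map (iotaJ K)).eval y) hab
  simp only [Polynomial.map_add, Polynomial.map_mul, Polynomial.eval_add, Polynomial.eval_mul,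
    Polynomial.map_one, Polynomial.eval_one] at this
  rw [eval_map_iotaJ, hroot, h0, mul_zero, mul_zero, add_zero] at this
  exact zero_ne_one this

/-- A nonzero (mod `ℓ`) polynomial of smaller degree does not kill a root of an irreducible one. -/
theorem eval₂_ne_zero_of_degree_lt {Φ : Polynomial ℤ[X]} (hΦ : Φ.Monic)
    (hirr : Irreducible (redModPoly K Φ)) {y : LaurentSeries K}
    (hroot : Φ.eval₂ (evalJ (jqModC K)) y = 0)
    {g : Polynomial ℤ[X]} (hdeg : g.degree < Φ.degree) (hg : redModPoly K g ≠ 0) :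
    g.eval₂ (evalJ (jqModC K)) y ≠ 0 := by
  rw [← eval_map_iotaJ]
  exact eval_map_iotaJ_ne_zero hΦ hirr hroot hg
    (lt_of_le_of_lt (Polynomial.degree_map_le) hdeg)

end MinDeg

section Content

variable (K : Type*) [Field K] (ℓ : ℕ) [CharP K ℓ]

theorem map_intCast_eq_zero_iff (c : ℤ[X]) :
    c.map (Int.castRingHom K) = 0 ↔ C (ℓ : ℤ) ∣ c := by
  rw [Polynomial.C_dvd_iff_dvd_coeff, Polynomial.ext_iff]
  refine forall_congr' fun n => ?_
  rw [Polynomial.coeff_map, Polynomial.coeff_zero, eq_intCast, CharP.intCast_eq_zero_iff K ℓ]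

theorem redModPoly_eq_zero_iff (g : Polynomial ℤ[X]) :
    redModPoly K g = 0 ↔ C (C (ℓ : ℤ)) ∣ g := by
  rw [Polynomial.C_dvd_iff_dvd_coeff, Polynomial.ext_iff]
  refine forall_congr' fun n => ?_
  rw [redModPoly, Polynomial.coeff_map, Polynomial.coeff_zero, RingHom.comp_apply,
    map_eq_zero_iff _ (IsFractionRing.injective K[X] (RatFunc K)), Polynomial.coe_mapRingHom,
    map_intCast_eq_zero_iff K ℓ]

variable {K}

theorem evalJ_eq_aeval_map (x : LaurentSeries K) (c : ℤ[X]) :
    evalJ x c = Polynomial.aeval x (c.map (Int.castRingHom K)) := by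
  have h : evalJ x = ((Polynomial.aeval (R := K) x).toRingHom.comp
      (Polynomial.mapRingHom (Int.castRingHom K))) :=
    S28.H50.ringHom_X_ext _ _ (by simp [evalJ])
  rw [h]
  rfl

theorem evalJ_mem {x : LaurentSeries K} (E : IntermediateField K (LaurentSeries K)) (hx : x ∈ E)
    (c : ℤ[X]) : evalJ x c ∈ E := by
  rw [evalJ_eq_aeval_map, Polynomial.aeval_eq_sum_range]
  refine sum_mem fun i _ => ?_
  rw [Algebra.smul_def]
  exact mul_mem (E.algebraMap_mem _) (pow_mem hx _)

theorem eval₂_evalJ_mem {x y : LaurentSeries K} (E : IntermediateField K (LaurentSeries K))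
    (hx : x ∈ E) (hy : y ∈ E) (g : Polynomial ℤ[X]) : g.eval₂ (evalJ x) y ∈ E := by
  rw [Polynomial.eval₂_eq_sum_range]
  exact sum_mem fun i _ => mul_mem (evalJ_mem E hx _) (pow_mem hy _)

end Content


section Generation

theorem not_isUnit_C_ell (ℓ : ℕ) [hℓ : Fact ℓ.Prime] : ¬ IsUnit (C (ℓ : ℤ) : ℤ[X]) := by
  rw [Polynomial.isUnit_C]
  exact (Nat.prime_iff_prime_int.1 hℓ.out).not_isUnit

/-- **Stripping the `ℓ`-content.** A relation `c(j) z = g(j, y)` over `ℤ` with `c ≠ 0` and
`deg g < deg Φ`, where `y` is (mod `ℓ`) a root of the irreducible `Φ mod ℓ`, shows that `z mod ℓ`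
lies in `K(j, y mod ℓ)`. -/
theorem mem_adjoin_of_int_rel {K : Type*} [Field K] (ℓ : ℕ) [hℓ : Fact ℓ.Prime] [CharP K ℓ]
    {Φ : Polynomial ℤ[X]} (hΦ : Φ.Monic)
    (hirr : Irreducible (redModPoly K Φ)) (y0 z0 : LaurentSeries ℤ)
    (hroot : Φ.eval₂ (evalJ (jqModC K)) (coeffMap (Int.castRingHom K) y0) = 0) :
    ∀ c : ℤ[X], c ≠ 0 → ∀ g : Polynomial ℤ[X], g.degree < Φ.degree →
      evalJ (jqModC ℤ) c * z0 = g.eval₂ (evalJ (jqModC ℤ)) y0 →
      coeffMap (Int.castRingHom K) z0 ∈
        IntermediateField.adjoin K {jqModC K, coeffMap (Int.castRingHom K) y0} := by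
  intro c
  induction c using (wellFounded_dvdNotUnit (α := ℤ[X])).induction with
  | _ c ih =>
    intro hc g hdeg hrel
    set E := IntermediateField.adjoin K {jqModC K, coeffMap (Int.castRingHom K) y0} with hE
    have hxE : jqModC K ∈ E := IntermediateField.subset_adjoin K _ (by simp)
    have hyE : coeffMap (Int.castRingHom K) y0 ∈ E := IntermediateField.subset_adjoin K _ (by simp)
    have hrelK := congrArg (coeffMap (Int.castRingHom K)) hrel
    rw [map_mul, S28.H16.coeffMap_evalJ, S28.H16.coeffMap_eval₂_evalJ, coeffMap_jqModC] at hrelK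
    by_cases hdiv : C (ℓ : ℤ) ∣ c
    · obtain ⟨c', rfl⟩ := hdiv
      have hc' : c' ≠ 0 := right_ne_zero_of_mul hc
      by_cases hdivg : C (C (ℓ : ℤ)) ∣ g
      · obtain ⟨g', rfl⟩ := hdivg
        have hℓ0 : ((ℓ : ℤ) : LaurentSeries ℤ) ≠ 0 := by
          have h0 : (ℓ : ℤ) ≠ 0 := by exact_mod_cast hℓ.out.ne_zero
          intro h
          have := congrArg (fun s : LaurentSeries ℤ => s.coeff 0) h
          simp only [HahnSeries.coeff_zero] at this
          apply h0
          have hc0 : (((ℓ : ℤ) : LaurentSeries ℤ)).coeff 0 = (ℓ : ℤ) := by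
            rw [← map_intCast (HahnSeries.C : ℤ →+* LaurentSeries ℤ), HahnSeries.C_apply,
              HahnSeries.coeff_single_same]
            simp
          rw [hc0] at this
          exact this
        have hrel' : evalJ (jqModC ℤ) c' * z0 = g'.eval₂ (evalJ (jqModC ℤ)) y0 := by
          have h1 : evalJ (jqModC ℤ) (C (ℓ : ℤ) * c') * z0 =
              ((ℓ : ℤ) : LaurentSeries ℤ) * (evalJ (jqModC ℤ) c' * z0) := by
            rw [map_mul, mul_assoc]
            congr 1
            simp [evalJ]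
          have h2 : (C (C (ℓ : ℤ)) * g').eval₂ (evalJ (jqModC ℤ)) y0 =
              ((ℓ : ℤ) : LaurentSeries ℤ) * g'.eval₂ (evalJ (jqModC ℤ)) y0 := by
            rw [Polynomial.eval₂_mul, Polynomial.eval₂_C]
            congr 1
            simp [evalJ]
          rw [h1, h2] at hrel
          exact mul_left_cancel₀ hℓ0 hrel
        have hdeg' : g'.degree < Φ.degree := by
          have hCC : (C (C (ℓ : ℤ)) : Polynomial ℤ[X]) ≠ 0 := by
            rw [Ne, Polynomial.C_eq_zero, Polynomial.C_eq_zero]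
            exact_mod_cast hℓ.out.ne_zero
          rwa [Polynomial.degree_C_mul] at hdeg
          rw [Ne, Polynomial.C_eq_zero]
          exact_mod_cast hℓ.out.ne_zero
        exact ih c' ⟨hc', C (ℓ : ℤ), not_isUnit_C_ell ℓ, mul_comm _ _⟩ hc' g' hdeg' hrel'
      · exfalso
        have hg : redModPoly K g ≠ 0 := fun h => hdivg ((redModPoly_eq_zero_iff K ℓ g).1 h)
        have hc0 : evalJ (jqModC K) (C (ℓ : ℤ) * c') = 0 := by
          rw [evalJ_eq_aeval_map, (map_intCast_eq_zero_iff K ℓ _).2 (dvd_mul_right _ _), map_zero]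
        rw [hc0, zero_mul] at hrelK
        exact eval₂_ne_zero_of_degree_lt hΦ hirr hroot hdeg hg hrelK.symm
    · have hcK : c.map (Int.castRingHom K) ≠ 0 := fun h => hdiv ((map_intCast_eq_zero_iff K ℓ c).1 h)
      have hne : evalJ (jqModC K) c ≠ 0 := by
        rw [evalJ_eq_aeval_map]
        intro h
        exact hcK (aeval_jqModC_injective (by rw [h, map_zero]))
      have hz : coeffMap (Int.castRingHom K) z0 =
          g.eval₂ (evalJ (jqModC K)) (coeffMap (Int.castRingHom K) y0) / evalJ (jqModC K) c :=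
        eq_div_of_mul_eq hne (by rw [mul_comm]; exact hrelK)
      rw [hz]
      exact div_mem (eval₂_evalJ_mem E hxE hyE g) (evalJ_mem E hxE c)


/-- Characteristic `0` generation, over `ℤ`, with the `X`-degree reduced below `ψ(N)`. -/
theorem exists_int_rel (N : ℕ) [NeZero N] (D : ModularPolynomialData N) (d : ℕ) [NeZero d]
    (hd : d ∣ N) :
    ∃ c : ℤ[X], c ≠ 0 ∧ ∃ g : Polynomial ℤ[X], g.degree < D.Φ.degree ∧
      evalJ (jqModC ℤ) c * qExpand ℤ d (jqModC ℤ) =
        g.eval₂ (evalJ (jqModC ℤ)) (qExpand ℤ N (jqModC ℤ)) := by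
  have hy : qExpand ℚ d jq ∈ IntermediateField.adjoin ℚ {jq, jqN N} :=
    S28.H40.functionFieldGeneration N d hd inferInstance
  obtain ⟨c, hc, g, h⟩ := S28.H69.isGenFrac_of_mem_adjoin_pair N jq D rfl hy
  refine ⟨c, hc, g %ₘ D.Φ, Polynomial.degree_modByMonic_lt g D.monic, ?_⟩
  apply S28.H16.coeffMap_injective (f := Int.castRingHom ℚ) Int.cast_injective
  rw [map_mul, S28.H16.coeffMap_evalJ, S28.H16.coeffMap_eval₂_evalJ, coeffMap_qExpand,
    coeffMap_qExpand, coeffMap_jqModC]
  have hf : S28.H69.evalAtS jq = evalJ (jqModC ℚ) :=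
    S28.H50.ringHom_X_ext _ _ (by simp [evalJ, jqModC_rat])
  rw [hf] at h
  have hroot : D.Φ.eval₂ (evalJ (jqModC ℚ)) (qExpand ℚ N (jqModC ℚ)) = 0 := D.eval_eq_zero
  have hsplit : g.eval₂ (evalJ (jqModC ℚ)) (qExpand ℚ N (jqModC ℚ)) =
      (g %ₘ D.Φ).eval₂ (evalJ (jqModC ℚ)) (qExpand ℚ N (jqModC ℚ)) := by
    conv_lhs => rw [← Polynomial.modByMonic_add_div g D.Φ]
    rw [Polynomial.eval₂_add, Polynomial.eval₂_mul, hroot, zero_mul, add_zero]
  rw [← hsplit]
  exact h


/-- **Generation in characteristic `ℓ`** (series level): `j(q^d) ∈ K(j, j_N)` for `d ∣ N`. -/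
theorem jd_mem_adjoin (N : ℕ) [NeZero N] (ℓ : ℕ) [Fact ℓ.Prime] {K : Type*} [Field K] [CharP K ℓ]
    (D : ModularPolynomialData N) (hirr : Irreducible (redModPoly K D.Φ))
    (d : ℕ) [NeZero d] (hd : d ∣ N) :
    qExpand K d (jqModC K) ∈ IntermediateField.adjoin K {jqModC K, qExpand K N (jqModC K)} := by
  obtain ⟨c, hc, g, hdeg, hrel⟩ := exists_int_rel N D d hd
  have hy : coeffMap (Int.castRingHom K) (qExpand ℤ N (jqModC ℤ)) = qExpand K N (jqModC K) := by
    rw [coeffMap_qExpand, coeffMap_jqModC]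
  have hz : coeffMap (Int.castRingHom K) (qExpand ℤ d (jqModC ℤ)) = qExpand K d (jqModC K) := by
    rw [coeffMap_qExpand, coeffMap_jqModC]
  have := mem_adjoin_of_int_rel ℓ D.monic hirr (qExpand ℤ N (jqModC ℤ)) (qExpand ℤ d (jqModC ℤ))
    (by rw [hy]; exact modPoly_root N D K) c hc g hdeg hrel
  rwa [hy, hz] at this

theorem fullC_eq_adjoin (N : ℕ) [NeZero N] (ℓ : ℕ) [Fact ℓ.Prime] {K : Type*} [Field K]
    [CharP K ℓ] (D : ModularPolynomialData N) (hirr : Irreducible (redModPoly K D.Φ)) :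
    modularFunctionFieldFullC K N =
      IntermediateField.adjoin K {jqModC K, qExpand K N (jqModC K)} := by
  apply le_antisymm
  · rw [modularFunctionFieldFullC, IntermediateField.adjoin_le_iff]
    rintro x ⟨d, hne, hd, rfl⟩
    have := hne
    exact jd_mem_adjoin N ℓ D hirr d hd
  · rw [IntermediateField.adjoin_le_iff]
    rintro x (rfl | rfl)
    · exact jqModC_mem_full K N
    · exact jqModCd_mem_full K N dvd_rfl

end Generation

/-! ### The function field `FK = K(j(q^d) : d ∣ N)` as a field -/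

section Subtype

open IntermediateField

variable (K : Type*) [Field K] (N : ℕ) [NeZero N]

/-- `j` as an element of the function field. -/
def jK : modularFunctionFieldFullC K N := ⟨jqModC K, jqModC_mem_full K N⟩

/-- `j_N = j(q^N)` as an element of the function field. -/
def jNK : modularFunctionFieldFullC K N :=
  ⟨qExpand K N (jqModC K), jqModCd_mem_full K N dvd_rfl⟩

@[simp] theorem coe_jK : ((jK K N : modularFunctionFieldFullC K N) : LaurentSeries K) = jqModC K :=
  rfl

@[simp] theorem coe_jNK :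
    ((jNK K N : modularFunctionFieldFullC K N) : LaurentSeries K) = qExpand K N (jqModC K) := rfl

theorem transcendental_jK : Transcendental K (jK K N) := by
  have h : Transcendental K (algebraMap (modularFunctionFieldFullC K N) (LaurentSeries K) (jK K N)) :=
    S28.H39.transcendental_jqModC (k := K)
  exact (transcendental_algebraMap_iff
    (algebraMap (modularFunctionFieldFullC K N) (LaurentSeries K)).injective).1 h

variable {K N}

theorem adjoin_pair_eq_top (ℓ : ℕ) [Fact ℓ.Prime] [CharP K ℓ] (D : ModularPolynomialData N)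
    (hirr : Irreducible (redModPoly K D.Φ)) :
    IntermediateField.adjoin K {jK K N, jNK K N} = ⊤ := by
  rw [eq_top_iff]
  intro x _
  have hx : (x : LaurentSeries K) ∈
      (IntermediateField.adjoin K {jK K N, jNK K N}).map (modularFunctionFieldFullC K N).val := by
    rw [IntermediateField.adjoin_map]
    have : (modularFunctionFieldFullC K N).val '' {jK K N, jNK K N} =
        {jqModC K, qExpand K N (jqModC K)} := by
      rw [Set.image_pair]
      rfl
    rw [this, ← fullC_eq_adjoin N ℓ D hirr]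
    exact x.2
  obtain ⟨y, hy, hyx⟩ := hx
  have : y = x := Subtype.ext hyx
  rwa [← this]


theorem exists_primitiveRoot_unit' (k : Type*) [Field k] [IsAlgClosed k] (n : ℕ)
    (hn : ((n : ℕ) : k) ≠ 0) : ∃ ζ : kˣ, IsPrimitiveRoot ζ n := by
  have : NeZero ((n : ℕ) : k) := ⟨hn⟩
  obtain ⟨ζ0, hζ0⟩ := HasEnoughRootsOfUnity.exists_primitiveRoot k n
  have hn0 : n ≠ 0 := by
    rintro rfl
    exact hn Nat.cast_zero
  refine ⟨(hζ0.isUnit hn0).unit, IsPrimitiveRoot.coe_units_iff.mp ?_⟩
  rw [IsUnit.unit_spec]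
  exact hζ0

/-- `Φ_N mod ℓ` is separable over `K(Y)` (it has `ψ(N)` distinct roots among the formal
conjugates over an algebraic closure). -/
theorem separable_redModPoly {K : Type} [Field K] {N : ℕ} [NeZero N] (ℓ : ℕ) [Fact ℓ.Prime]
    (hℓN : ¬ ℓ ∣ N) [CharP K ℓ] (D : ModularPolynomialData N)
    (hD : ∀ (k : Type) [Field k] (ζ : kˣ), IsPrimitiveRoot ζ N → RootsAt k N ζ D.Φ) :
    (redModPoly K D.Φ).Separable := by
  classical
  set K' := AlgebraicClosure K with hK'
  have hN : ((N : ℕ) : K') ≠ 0 := by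
    have : CharP K' ℓ := charP_of_injective_algebraMap (algebraMap K K').injective ℓ
    rw [Ne, CharP.cast_eq_zero_iff K' ℓ]
    exact hℓN
  obtain ⟨ζ, hζ⟩ := exists_primitiveRoot_unit' K' N hN
  have hN0 : 0 < N := Nat.pos_of_ne_zero (NeZero.ne N)
  set x : LaurentSeries K' := qExpand K' N (jqModC K') with hx
  have hxT : Transcendental K' x := S28.H50.transcendental_qExpand_jqModC N
  set S := S28.H50.levelRoots ζ N N with hS
  have hcard : S.card = dedekindPsi N := S28.H50.card_levelRoots hζ hN0 dvd_rfl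
  have hζ' : IsPrimitiveRoot (ζ ^ (N / N)) N := S28.H50.isPrimitiveRoot_pow_div hζ dvd_rfl
  have hroot : ∀ y ∈ S, D.Φ.eval₂ (evalJ x) y = 0 := fun y hy =>
    S28.H50.root_levelRoots dvd_rfl (hD K' _ hζ') hy
  set f := (redModPoly K' D.Φ).map (S28.H50.ratFuncHom x hxT) with hf
  have hfm : f.Monic := (S28.H50.monic_redModPoly D.monic).map _
  have hfd : S.card = f.natDegree := by
    rw [hf, (S28.H50.monic_redModPoly D.monic).natDegree_map, S28.H50.natDegree_redModPoly D.monic,
      hcard, D.natDegree_eq]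
  have hfr : ∀ y ∈ S, f.eval y = 0 := fun y hy => by
    rw [hf, S28.H50.eval_map_redModPoly]
    rw [← hroot y hy]
    exact S28.H50.eval₂_hom_congr (by simp [evalJ]) D.Φ y
  have h1 : f.Separable := S28.H50.separable_of_roots hfm S hfd hfr
  have h2 : (redModPoly K' D.Φ).Separable := (Polynomial.separable_map _).1 h1
  rw [← S28.H16.redModPoly_map K K' D.Φ] at h2
  exact (Polynomial.separable_map _).1 h2

section MinPoly

variable (K : Type*) [Field K] (N : ℕ) [NeZero N]

/-- the isomorphism `K(Y) ≃ K(jK)`, `Y ↦ jK`. -/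
def ratEquiv : RatFunc K ≃ₐ[K] K⟮jK K N⟯ :=
  RatFunc.algEquivOfTranscendental (jK K N) (transcendental_jK K N)

/-- `Φ mod ℓ` as a polynomial over `K(jK)`. -/
def modPolyK (Φ : Polynomial ℤ[X]) : Polynomial K⟮jK K N⟯ :=
  (redModPoly K Φ).map ((ratEquiv K N : RatFunc K ≃+* K⟮jK K N⟯) : RatFunc K →+* K⟮jK K N⟯)

theorem coe_coe_ratEquiv_algebraMap (p : K[X]) :
    (((ratEquiv K N (algebraMap K[X] (RatFunc K) p) : K⟮jK K N⟯) : modularFunctionFieldFullC K N) :
      LaurentSeries K) = Polynomial.aeval (jqModC K) p := by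
  rw [ratEquiv, RatFunc.algEquivOfTranscendental_algebraMap]
  rw [← IntermediateField.aeval_coe, IntermediateField.AdjoinSimple.coe_gen,
    ← IntermediateField.aeval_coe]
  rfl

theorem val_comp_ratEquiv :
    ((modularFunctionFieldFullC K N).val : modularFunctionFieldFullC K N →+* LaurentSeries K).comp
      ((algebraMap K⟮jK K N⟯ (modularFunctionFieldFullC K N)).comp
        ((ratEquiv K N : RatFunc K ≃+* K⟮jK K N⟯) : RatFunc K →+* K⟮jK K N⟯)) = iotaJ K := by
  apply IsLocalization.ringHom_ext (nonZeroDivisors K[X])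
  apply RingHom.ext
  intro p
  simp only [RingHom.comp_apply]
  rw [iotaJ, S28.H16.ratFuncToLaurent_algebraMap]
  exact coe_coe_ratEquiv_algebraMap K N p


theorem monic_modPolyK {Φ : Polynomial ℤ[X]} (hΦ : Φ.Monic) : (modPolyK K N Φ).Monic :=
  (S28.H50.monic_redModPoly hΦ).map _

theorem natDegree_modPolyK {Φ : Polynomial ℤ[X]} (hΦ : Φ.Monic) :
    (modPolyK K N Φ).natDegree = Φ.natDegree := by
  rw [modPolyK, (S28.H50.monic_redModPoly hΦ).natDegree_map, S28.H50.natDegree_redModPoly hΦ]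

theorem irreducible_modPolyK {Φ : Polynomial ℤ[X]} (hirr : Irreducible (redModPoly K Φ)) :
    Irreducible (modPolyK K N Φ) := by
  have h := (MulEquiv.irreducible_iff
    (Polynomial.mapEquiv (ratEquiv K N : RatFunc K ≃+* K⟮jK K N⟯))).2 hirr
  exact h

theorem separable_modPolyK {Φ : Polynomial ℤ[X]} (hsep : (redModPoly K Φ).Separable) :
    (modPolyK K N Φ).Separable :=
  hsep.map

/-- evaluation of `modPolyK Φ` at an element of `FK`, read in `K((q))`. -/
theorem coe_aeval_modPolyK (Φ : Polynomial ℤ[X]) (y : modularFunctionFieldFullC K N) :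
    ((Polynomial.aeval y (modPolyK K N Φ) : modularFunctionFieldFullC K N) : LaurentSeries K) =
      Φ.eval₂ (evalJ (jqModC K)) (y : LaurentSeries K) := by
  rw [← eval_map_iotaJ, ← val_comp_ratEquiv K N, Polynomial.eval_map, modPolyK,
    Polynomial.aeval_def, Polynomial.eval₂_map]
  exact Polynomial.hom_eval₂ _ _ ((modularFunctionFieldFullC K N).val :
    modularFunctionFieldFullC K N →+* LaurentSeries K) y

theorem aeval_jNK_modPolyK (D : ModularPolynomialData N) :
    Polynomial.aeval (jNK K N) (modPolyK K N D.Φ) = 0 := by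
  apply Subtype.ext
  rw [coe_aeval_modPolyK]
  exact modPoly_root N D K

theorem minpoly_jNK (D : ModularPolynomialData N) (hirr : Irreducible (redModPoly K D.Φ)) :
    minpoly K⟮jK K N⟯ (jNK K N) = modPolyK K N D.Φ :=
  (minpoly.eq_of_irreducible_of_monic (irreducible_modPolyK K N hirr) (aeval_jNK_modPolyK K N D)
    (monic_modPolyK K N D.monic)).symm

theorem isIntegral_jNK (D : ModularPolynomialData N) : IsIntegral K⟮jK K N⟯ (jNK K N) :=
  ⟨modPolyK K N D.Φ, monic_modPolyK K N D.monic, aeval_jNK_modPolyK K N D⟩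

theorem natDegree_minpoly_jNK (D : ModularPolynomialData N)
    (hirr : Irreducible (redModPoly K D.Φ)) :
    (minpoly K⟮jK K N⟯ (jNK K N)).natDegree = dedekindPsi N := by
  rw [minpoly_jNK K N D hirr, natDegree_modPolyK K N D.monic, D.natDegree_eq]

variable {K N}

theorem adjoin_jNK_eq_top (ℓ : ℕ) [Fact ℓ.Prime] [CharP K ℓ] (D : ModularPolynomialData N)
    (hirr : Irreducible (redModPoly K D.Φ)) : K⟮jK K N⟯⟮jNK K N⟯ = ⊤ := by
  apply IntermediateField.restrictScalars_injective K
  rw [IntermediateField.adjoin_simple_adjoin_simple, IntermediateField.restrictScalars_top]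
  exact adjoin_pair_eq_top ℓ D hirr

theorem finrank_FK (ℓ : ℕ) [Fact ℓ.Prime] [CharP K ℓ] (D : ModularPolynomialData N)
    (hirr : Irreducible (redModPoly K D.Φ)) :
    Module.finrank K⟮jK K N⟯ (modularFunctionFieldFullC K N) = dedekindPsi N := by
  rw [← IntermediateField.finrank_top', ← adjoin_jNK_eq_top ℓ D hirr,
    IntermediateField.adjoin.finrank (isIntegral_jNK K N D), natDegree_minpoly_jNK K N D hirr]

theorem dedekindPsi_pos' (N : ℕ) [NeZero N] : 0 < dedekindPsi N := by
  unfold dedekindPsi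
  apply Finset.sum_pos' (fun _ _ => Nat.zero_le _)
  refine ⟨1, ?_, ?_⟩
  · simp [NeZero.ne N]
  · simp [Nat.pos_of_ne_zero (NeZero.ne N)]

theorem finiteDimensional_FK (ℓ : ℕ) [Fact ℓ.Prime] [CharP K ℓ] (D : ModularPolynomialData N)
    (hirr : Irreducible (redModPoly K D.Φ)) :
    FiniteDimensional K⟮jK K N⟯ (modularFunctionFieldFullC K N) := by
  apply Module.finite_of_finrank_pos
  rw [finrank_FK ℓ D hirr]
  exact dedekindPsi_pos' N


theorem isSeparable_FK (ℓ : ℕ) [Fact ℓ.Prime] [CharP K ℓ] (D : ModularPolynomialData N)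
    (hirr : Irreducible (redModPoly K D.Φ)) (hsep : (redModPoly K D.Φ).Separable) :
    Algebra.IsSeparable K⟮jK K N⟯ (modularFunctionFieldFullC K N) := by
  have hs : IsSeparable K⟮jK K N⟯ (jNK K N) := by
    unfold IsSeparable
    rw [minpoly_jNK K N D hirr]
    exact separable_modPolyK K N hsep
  have : Algebra.IsSeparable K⟮jK K N⟯ K⟮jK K N⟯⟮jNK K N⟯ :=
    (IntermediateField.isSeparable_adjoin_simple_iff_isSeparable _ _).2 hs
  rw [Algebra.isSeparable_def]
  intro x
  have hx : x ∈ K⟮jK K N⟯⟮jNK K N⟯ := by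
    rw [adjoin_jNK_eq_top ℓ D hirr]
    trivial
  have := Algebra.IsSeparable.isSeparable K⟮jK K N⟯ (⟨x, hx⟩ : K⟮jK K N⟯⟮jNK K N⟯)
  unfold IsSeparable at this ⊢
  rwa [IntermediateField.minpoly_eq] at this

end MinPoly

/-! ### Final (hypothesis-free) statements -/

section Final

variable (N : ℕ) [NeZero N] (ℓ : ℕ) [Fact ℓ.Prime] (hℓN : ¬ ℓ ∣ N) (K : Type) [Field K] [CharP K ℓ]

include hℓN

/-- The modular polynomial mod `ℓ`, with everything one needs about it over `K`. -/
theorem exists_modPolyK :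
    ∃ D : ModularPolynomialData N, Irreducible (redModPoly K D.Φ) ∧ (redModPoly K D.Φ).Separable ∧
      minpoly K⟮jK K N⟯ (jNK K N) = modPolyK K N D.Φ ∧
      (modPolyK K N D.Φ).natDegree = dedekindPsi N := by
  obtain ⟨D, hD, hirr⟩ := exists_modPoly N ℓ hℓN
  exact ⟨D, hirr K, separable_redModPoly ℓ hℓN D hD, minpoly_jNK K N D (hirr K),
    by rw [natDegree_modPolyK K N D.monic, D.natDegree_eq]⟩

theorem adjoin_jNK_eq_top' : K⟮jK K N⟯⟮jNK K N⟯ = ⊤ := by
  obtain ⟨D, _, hirr⟩ := exists_modPoly N ℓ hℓN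
  exact adjoin_jNK_eq_top ℓ D (hirr K)

theorem adjoin_pair_eq_top' : IntermediateField.adjoin K {jK K N, jNK K N} = ⊤ := by
  obtain ⟨D, _, hirr⟩ := exists_modPoly N ℓ hℓN
  exact adjoin_pair_eq_top ℓ D (hirr K)

theorem finrank_fullC :
    Module.finrank K⟮jK K N⟯ (modularFunctionFieldFullC K N) = dedekindPsi N := by
  obtain ⟨D, _, hirr⟩ := exists_modPoly N ℓ hℓN
  exact finrank_FK ℓ D (hirr K)

theorem finiteDimensional_fullC :
    FiniteDimensional K⟮jK K N⟯ (modularFunctionFieldFullC K N) := by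
  obtain ⟨D, _, hirr⟩ := exists_modPoly N ℓ hℓN
  exact finiteDimensional_FK ℓ D (hirr K)

theorem isSeparable_fullC :
    Algebra.IsSeparable K⟮jK K N⟯ (modularFunctionFieldFullC K N) := by
  obtain ⟨D, hD, hirr⟩ := exists_modPoly N ℓ hℓN
  exact isSeparable_FK ℓ D (hirr K) (separable_redModPoly ℓ hℓN D hD)

theorem isIntegral_jNK' : IsIntegral K⟮jK K N⟯ (jNK K N) := by
  obtain ⟨D, _, _⟩ := exists_modPoly N ℓ hℓN
  exact isIntegral_jNK K N D

theorem natDegree_minpoly_jNK' : (minpoly K⟮jK K N⟯ (jNK K N)).natDegree = dedekindPsi N := by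
  obtain ⟨D, _, hirr⟩ := exists_modPoly N ℓ hℓN
  exact natDegree_minpoly_jNK K N D (hirr K)

/-- `1, j_N, .., j_N^(ψ(N)-1)` are linearly independent over `K(j)`. -/
theorem linearIndependent_pow_jNK :
    LinearIndependent K⟮jK K N⟯ (fun i : Fin (dedekindPsi N) => jNK K N ^ (i : ℕ)) := by
  have h := natDegree_minpoly_jNK' N ℓ hℓN K
  have := (linearIndependent_pow (K := K⟮jK K N⟯) (jNK K N)).comp (Fin.cast h.symm)
    (Fin.cast_injective _)
  exact this

/-- series-level form: `K(j(q^d) : d ∣ N) = K(j, j_N)` inside `K((q))`. -/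
theorem fullC_eq_adjoin' :
    modularFunctionFieldFullC K N =
      IntermediateField.adjoin K {jqModC K, qExpand K N (jqModC K)} := by
  obtain ⟨D, _, hirr⟩ := exists_modPoly N ℓ hℓN
  exact fullC_eq_adjoin N ℓ D (hirr K)

end Final

end Subtype

end Fermat.Agent.S18.H16
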