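import Mathlib
import Fermat.Agent.S18.H16_FbarBasics

/-!
# S18 (B5-GEN): function-field basics of `modularFunctionFieldFullC K N` over ANY field with `N ≠ 0`

Characteristic-free twin of `H16_FbarBasics` (which needed `[CharP K ℓ]`, `ℓ ∤ N`).  For every field
`K : Type` with `((N : ℕ) : K) ≠ 0` (e.g. `Qbar`, `ℂ`, `H45.unrCyclo ℓ`, `ResidueField A`):
`Φ_N` is irreducible and separable over `K(Y)`, `K(j, j_N) = modularFunctionFieldFullC K N`,
degree `ψ(N)` over `K(j)`, finite separable, the powers of `j_N` are independent.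
-/

set_option autoImplicit false
set_option linter.unusedSectionVars false
set_option linter.style.haveILetI false
set_option synthInstance.maxHeartbeats 400000

noncomputable section

namespace Fermat.Agent.S18.H16

open ModularCurve HahnSeries Polynomial IntermediateField Fermat.Agent.S28

/-! ### 1. Irreducibility and separability of `Φ_N` over `K(Y)` for every field with `N ≠ 0` -/

/-- S28 (W1 + W2), characteristic free: a modular polynomial of level `N`, irreducible over `K(Y)`
for every field `K` in which `N ≠ 0`. -/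
theorem exists_modPoly_gen (N : ℕ) [NeZero N] :
    ∃ D : ModularPolynomialData N,
      (∀ (k : Type) [Field k] (ζ : kˣ), IsPrimitiveRoot ζ N → RootsAt k N ζ D.Φ) ∧
        ∀ (K : Type) [Field K], ((N : ℕ) : K) ≠ 0 → Irreducible (redModPoly K D.Φ) := by
  obtain ⟨D, hD⟩ := S28.H16.hasModPoly N
  refine ⟨D, hD, fun K _ hNK => ?_⟩
  have hN : ((N : ℕ) : AlgebraicClosure K) ≠ 0 := by
    intro h
    apply hNK
    apply (algebraMap K (AlgebraicClosure K)).injective
    rw [map_natCast, h, map_zero]
  have h1 : S28.H16.IrrAll (AlgebraicClosure K) N :=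
    S28.H16.irrAll_of_step (AlgebraicClosure K)
      (S28.H50.stepStatement (AlgebraicClosure K) (fun m _ => S28.H16.hasModPoly m)
        (fun p _ hp => S28.H9.exists_deltaQuotPoly p hp)) N
      (Nat.pos_of_ne_zero (NeZero.ne N)) hN
  have h2 : Irreducible (redModPoly (AlgebraicClosure K) D.Φ) := h1 inferInstance D hD
  rw [← S28.H16.redModPoly_map K (AlgebraicClosure K)] at h2
  exact Polynomial.Monic.irreducible_of_irreducible_map _ _ (S28.H16.redModPoly_monic K D.monic) h2

/-- `Φ_N` is separable over `K(Y)` whenever `N ≠ 0` in `K`. -/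
theorem separable_redModPoly_gen {K : Type} [Field K] {N : ℕ} [NeZero N]
    (hNK : ((N : ℕ) : K) ≠ 0) (D : ModularPolynomialData N)
    (hD : ∀ (k : Type) [Field k] (ζ : kˣ), IsPrimitiveRoot ζ N → RootsAt k N ζ D.Φ) :
    (redModPoly K D.Φ).Separable := by
  classical
  set K' := AlgebraicClosure K with hK'
  have hN : ((N : ℕ) : K') ≠ 0 := by
    intro h
    apply hNK
    apply (algebraMap K K').injective
    rw [map_natCast, h, map_zero]
  obtain ⟨ζ, hζ⟩ := exists_primitiveRoot_unit' K' N hN
  have hN0 : 0 < N := Nat.pos_of_ne_zero (NeZero.ne N)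
  set x : LaurentSeries K' := qExpand K' N (jqModC K') with hx
  have hxT : Transcendental K' x := S28.H50.transcendental_qExpand_jqModC N
  set S := S28.H50.levelRoots ζ N N with hS
  have hcard : S.card = dedekindPsi N := S28.H50.card_levelRoots hζ hN0 dvd_rfl
  have hζ' : IsPrimitiveRoot (ζ ^ (N / N)) N := S28.H50.isPrimitiveRoot_pow_div hζ dvd_rfl
  have hroot : ∀ y ∈ S, D.Φ.eval₂ (evalJ x) y = 0 := fun y hy =>
    S28.H50.root_levelRoots dvd_rfl (hD K' _ hζ') hy
  set f := (redModPoly K' D.Φ).map (S28.H50.ratFuncHom x hxT) with hf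
  have hfm : f.Monic := (S28.H50.monic_redModPoly D.monic).map _
  have hfd : S.card = f.natDegree := by
    rw [hf, (S28.H50.monic_redModPoly D.monic).natDegree_map, S28.H50.natDegree_redModPoly D.monic,
      hcard, D.natDegree_eq]
  have hfr : ∀ y ∈ S, f.eval y = 0 := fun y hy => by
    rw [hf, S28.H50.eval_map_redModPoly]
    rw [← hroot y hy]
    exact S28.H50.eval₂_hom_congr (by simp [evalJ]) D.Φ y
  have h1 : f.Separable := S28.H50.separable_of_roots hfm S hfd hfr
  have h2 : (redModPoly K' D.Φ).Separable := (Polynomial.separable_map _).1 h1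
  rw [← S28.H16.redModPoly_map K K' D.Φ] at h2
  exact (Polynomial.separable_map _).1 h2

/-! ### 2. Generation in every characteristic not dividing `N` -/

/-- characteristic `0`: the integral relation reduces directly. -/
theorem jd_mem_adjoin_of_charZero (N : ℕ) [NeZero N] {K : Type*} [Field K] [CharZero K]
    (D : ModularPolynomialData N) (d : ℕ) [NeZero d] (hd : d ∣ N) :
    qExpand K d (jqModC K) ∈ IntermediateField.adjoin K {jqModC K, qExpand K N (jqModC K)} := by
  obtain ⟨c, hc, g, -, hrel⟩ := exists_int_rel N D d hd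
  set E := IntermediateField.adjoin K {jqModC K, qExpand K N (jqModC K)} with hE
  have hxE : jqModC K ∈ E := IntermediateField.subset_adjoin K _ (by simp)
  have hyE : qExpand K N (jqModC K) ∈ E := IntermediateField.subset_adjoin K _ (by simp)
  have hrelK := congrArg (coeffMap (Int.castRingHom K)) hrel
  rw [map_mul, S28.H16.coeffMap_evalJ, S28.H16.coeffMap_eval₂_evalJ, coeffMap_jqModC,
    coeffMap_qExpand, coeffMap_qExpand, coeffMap_jqModC] at hrelK
  have hcK : c.map (Int.castRingHom K) ≠ 0 := by
    intro h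
    apply hc
    exact Polynomial.map_injective (Int.castRingHom K) (RingHom.injective_int _)
      (by rw [h, Polynomial.map_zero])
  have hne : evalJ (jqModC K) c ≠ 0 := by
    rw [evalJ_eq_aeval_map]
    intro h
    exact hcK (aeval_jqModC_injective (by rw [h, map_zero]))
  have hz : qExpand K d (jqModC K) =
      g.eval₂ (evalJ (jqModC K)) (qExpand K N (jqModC K)) / evalJ (jqModC K) c :=
    eq_div_of_mul_eq hne (by rw [mul_comm]; exact hrelK)
  rw [hz]
  exact div_mem (eval₂_evalJ_mem E hxE hyE g) (evalJ_mem E hxE c)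

/-- every characteristic: `j(q^d) ∈ K(j, j_N)` for `d ∣ N`, as soon as `Φ_N` is irreducible over
`K(Y)`. -/
theorem jd_mem_adjoin_gen (N : ℕ) [NeZero N] {K : Type*} [Field K]
    (D : ModularPolynomialData N) (hirr : Irreducible (redModPoly K D.Φ))
    (d : ℕ) [NeZero d] (hd : d ∣ N) :
    qExpand K d (jqModC K) ∈ IntermediateField.adjoin K {jqModC K, qExpand K N (jqModC K)} := by
  obtain ⟨p, hp⟩ := CharP.exists K
  rcases CharP.char_is_prime_or_zero K p with hpp | hp0
  · haveI : Fact p.Prime := ⟨hpp⟩
    exact jd_mem_adjoin N p D hirr d hd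
  · subst hp0
    haveI : CharZero K := CharP.charP_to_charZero K
    exact jd_mem_adjoin_of_charZero N D d hd


theorem fullC_eq_adjoin_of_irreducible (N : ℕ) [NeZero N] {K : Type*} [Field K]
    (D : ModularPolynomialData N) (hirr : Irreducible (redModPoly K D.Φ)) :
    modularFunctionFieldFullC K N =
      IntermediateField.adjoin K {jqModC K, qExpand K N (jqModC K)} := by
  apply le_antisymm
  · rw [modularFunctionFieldFullC, IntermediateField.adjoin_le_iff]
    rintro x ⟨d, hne, hd, rfl⟩
    have := hne
    exact jd_mem_adjoin_gen N D hirr d hd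
  · rw [IntermediateField.adjoin_le_iff]
    rintro x (rfl | rfl)
    · exact jqModC_mem_full K N
    · exact jqModCd_mem_full K N dvd_rfl

section SubtypeGen

variable {K : Type*} [Field K] {N : ℕ} [NeZero N]

theorem adjoin_pair_eq_top_of_irreducible (D : ModularPolynomialData N)
    (hirr : Irreducible (redModPoly K D.Φ)) :
    IntermediateField.adjoin K {jK K N, jNK K N} = ⊤ := by
  rw [eq_top_iff]
  intro x _
  have hx : (x : LaurentSeries K) ∈
      (IntermediateField.adjoin K {jK K N, jNK K N}).map (modularFunctionFieldFullC K N).val := by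
    rw [IntermediateField.adjoin_map]
    have : (modularFunctionFieldFullC K N).val '' {jK K N, jNK K N} =
        {jqModC K, qExpand K N (jqModC K)} := by
      rw [Set.image_pair]
      rfl
    rw [this, ← fullC_eq_adjoin_of_irreducible N D hirr]
    exact x.2
  obtain ⟨y, hy, hyx⟩ := hx
  have : y = x := Subtype.ext hyx
  rwa [← this]

theorem adjoin_jNK_eq_top_of_irreducible (D : ModularPolynomialData N)
    (hirr : Irreducible (redModPoly K D.Φ)) : K⟮jK K N⟯⟮jNK K N⟯ = ⊤ := by
  apply IntermediateField.restrictScalars_injective K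
  rw [IntermediateField.adjoin_simple_adjoin_simple, IntermediateField.restrictScalars_top]
  exact adjoin_pair_eq_top_of_irreducible D hirr

theorem finrank_FK_of_irreducible (D : ModularPolynomialData N)
    (hirr : Irreducible (redModPoly K D.Φ)) :
    Module.finrank K⟮jK K N⟯ (modularFunctionFieldFullC K N) = dedekindPsi N := by
  rw [← IntermediateField.finrank_top', ← adjoin_jNK_eq_top_of_irreducible D hirr,
    IntermediateField.adjoin.finrank (isIntegral_jNK K N D), natDegree_minpoly_jNK K N D hirr]

theorem finiteDimensional_FK_of_irreducible (D : ModularPolynomialData N)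
    (hirr : Irreducible (redModPoly K D.Φ)) :
    FiniteDimensional K⟮jK K N⟯ (modularFunctionFieldFullC K N) := by
  apply Module.finite_of_finrank_pos
  rw [finrank_FK_of_irreducible D hirr]
  exact dedekindPsi_pos' N

theorem isSeparable_FK_of_irreducible (D : ModularPolynomialData N)
    (hirr : Irreducible (redModPoly K D.Φ)) (hsep : (redModPoly K D.Φ).Separable) :
    Algebra.IsSeparable K⟮jK K N⟯ (modularFunctionFieldFullC K N) := by
  have hs : IsSeparable K⟮jK K N⟯ (jNK K N) := by
    unfold IsSeparable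
    rw [minpoly_jNK K N D hirr]
    exact separable_modPolyK K N hsep
  haveI : Algebra.IsSeparable K⟮jK K N⟯ K⟮jK K N⟯⟮jNK K N⟯ :=
    (IntermediateField.isSeparable_adjoin_simple_iff_isSeparable _ _).2 hs
  rw [Algebra.isSeparable_def]
  intro x
  have hx : x ∈ K⟮jK K N⟯⟮jNK K N⟯ := by
    rw [adjoin_jNK_eq_top_of_irreducible D hirr]
    trivial
  have := Algebra.IsSeparable.isSeparable K⟮jK K N⟯ (⟨x, hx⟩ : K⟮jK K N⟯⟮jNK K N⟯)
  unfold IsSeparable at this ⊢
  rwa [IntermediateField.minpoly_eq] at this

end SubtypeGen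

/-! ### 3. Final statements: any field `K : Type` with `N ≠ 0` -/

section FinalGen

variable (N : ℕ) [NeZero N] (K : Type) [Field K] (hNK : ((N : ℕ) : K) ≠ 0)

include hNK

theorem exists_modPolyK_gen :
    ∃ D : ModularPolynomialData N, Irreducible (redModPoly K D.Φ) ∧ (redModPoly K D.Φ).Separable ∧
      minpoly K⟮jK K N⟯ (jNK K N) = modPolyK K N D.Φ ∧
      (modPolyK K N D.Φ).natDegree = dedekindPsi N ∧
      D.Φ.eval₂ (evalJ (jqModC K)) (qExpand K N (jqModC K)) = 0 := by
  obtain ⟨D, hD, hirr⟩ := exists_modPoly_gen N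
  exact ⟨D, hirr K hNK, separable_redModPoly_gen hNK D hD, minpoly_jNK K N D (hirr K hNK),
    by rw [natDegree_modPolyK K N D.monic, D.natDegree_eq], modPoly_root N D K⟩

theorem adjoin_jNK_eq_top_gen : K⟮jK K N⟯⟮jNK K N⟯ = ⊤ := by
  obtain ⟨D, _, hirr⟩ := exists_modPoly_gen N
  exact adjoin_jNK_eq_top_of_irreducible D (hirr K hNK)

theorem adjoin_pair_eq_top_gen : IntermediateField.adjoin K {jK K N, jNK K N} = ⊤ := by
  obtain ⟨D, _, hirr⟩ := exists_modPoly_gen N
  exact adjoin_pair_eq_top_of_irreducible D (hirr K hNK)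

theorem fullC_eq_adjoin_gen :
    modularFunctionFieldFullC K N =
      IntermediateField.adjoin K {jqModC K, qExpand K N (jqModC K)} := by
  obtain ⟨D, _, hirr⟩ := exists_modPoly_gen N
  exact fullC_eq_adjoin_of_irreducible N D (hirr K hNK)

theorem finrank_fullC_gen :
    Module.finrank K⟮jK K N⟯ (modularFunctionFieldFullC K N) = dedekindPsi N := by
  obtain ⟨D, _, hirr⟩ := exists_modPoly_gen N
  exact finrank_FK_of_irreducible D (hirr K hNK)

theorem finiteDimensional_fullC_gen :
    FiniteDimensional K⟮jK K N⟯ (modularFunctionFieldFullC K N) := by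
  obtain ⟨D, _, hirr⟩ := exists_modPoly_gen N
  exact finiteDimensional_FK_of_irreducible D (hirr K hNK)

theorem isSeparable_fullC_gen :
    Algebra.IsSeparable K⟮jK K N⟯ (modularFunctionFieldFullC K N) := by
  obtain ⟨D, hD, hirr⟩ := exists_modPoly_gen N
  exact isSeparable_FK_of_irreducible D (hirr K hNK) (separable_redModPoly_gen hNK D hD)

theorem isIntegral_jNK_gen : IsIntegral K⟮jK K N⟯ (jNK K N) := by
  obtain ⟨D, _, _⟩ := exists_modPoly_gen N
  exact isIntegral_jNK K N D

theorem natDegree_minpoly_jNK_gen :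
    (minpoly K⟮jK K N⟯ (jNK K N)).natDegree = dedekindPsi N := by
  obtain ⟨D, _, hirr⟩ := exists_modPoly_gen N
  exact natDegree_minpoly_jNK K N D (hirr K hNK)

theorem linearIndependent_pow_jNK_gen :
    LinearIndependent K⟮jK K N⟯ (fun i : Fin (dedekindPsi N) => jNK K N ^ (i : ℕ)) := by
  have h := natDegree_minpoly_jNK_gen N K hNK
  exact (linearIndependent_pow (K := K⟮jK K N⟯) (jNK K N)).comp (Fin.cast h.symm)
    (Fin.cast_injective _)

/-- series form: the powers `1, j_N, .., j_N^(ψ-1)` are `K(j)`-independent inside `K((q))`. -/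
theorem eval_map_iotaJ_ne_zero_gen {P : Polynomial (RatFunc K)} (hP : P ≠ 0)
    (hdeg : P.natDegree < dedekindPsi N) :
    (P.map (iotaJ K)).eval (qExpand K N (jqModC K)) ≠ 0 := by
  obtain ⟨D, _, hirr⟩ := exists_modPoly_gen N
  refine eval_map_iotaJ_ne_zero D.monic (hirr K hNK) (modPoly_root N D K) hP ?_
  rw [Polynomial.degree_eq_natDegree hP, Polynomial.degree_eq_natDegree D.monic.ne_zero,
    D.natDegree_eq]
  exact_mod_cast hdeg

end FinalGen

/-- characteristic `0` convenience: `N ≠ 0` in `K`. -/
theorem natCast_ne_zero_of_charZero (N : ℕ) [NeZero N] (K : Type*) [Field K] [CharZero K] :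
    ((N : ℕ) : K) ≠ 0 := Nat.cast_ne_zero.2 (NeZero.ne N)

end Fermat.Agent.S18.H16
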