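/-
S18 / DVR foundation (helper45), part 1: generic valuation theory, Mathlib only.

* `eq_valuationSubring_of_dedekind`: a valuation subring `V ≠ ⊤` of the fraction field `L` of a
  Dedekind domain `C` that contains `C` is the valuation subring of a height-one prime of `C`
  (its centre).
* `isDiscreteValuationRing_of_dedekind`: hence `V` is a discrete valuation ring.
* `isDiscreteValuationRing_of_comap`: if `L / K` is finite separable, `V` a valuation subring of
  `L`, `V ≠ ⊤`, and `V ∩ K` is a discrete valuation ring, then `V` is a discrete valuation ring.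
-/
import Mathlib

set_option autoImplicit false
set_option linter.unusedSectionVars false
set_option linter.style.haveILetI false

namespace Fermat.Agent.S18.H45

open IsDedekindDomain

noncomputable section

section Dedekind

variable {C L : Type*} [CommRing C] [IsDedekindDomain C] [Field L] [Algebra C L]
  [IsFractionRing C L]

/-- The ring homomorphism `C → V` for a valuation subring `V` of `L` containing `C`. -/
def toValSubring (V : ValuationSubring L) (hC : ∀ c : C, algebraMap C L c ∈ V) : C →+* V :=
  (algebraMap C L).codRestrict V.toSubring hC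

omit [IsDedekindDomain C] [IsFractionRing C L] in
@[simp] theorem coe_toValSubring (V : ValuationSubring L) (hC : ∀ c : C, algebraMap C L c ∈ V)
    (c : C) : ((toValSubring V hC c : V) : L) = algebraMap C L c := rfl

/-- The centre on `C` of a valuation subring of `L` containing `C`. -/
def centre (V : ValuationSubring L) (hC : ∀ c : C, algebraMap C L c ∈ V) : Ideal C :=
  (IsLocalRing.maximalIdeal V).comap (toValSubring V hC)

theorem mem_centre_iff {V : ValuationSubring L} {hC : ∀ c : C, algebraMap C L c ∈ V} {c : C} :
    c ∈ centre V hC ↔ algebraMap C L c ∈ V.nonunits := by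
  rw [centre, Ideal.mem_comap, ← ValuationSubring.coe_mem_nonunits_iff, coe_toValSubring]

instance centre_isPrime (V : ValuationSubring L) (hC : ∀ c : C, algebraMap C L c ∈ V) :
    (centre V hC).IsPrime :=
  Ideal.comap_isPrime _ _

theorem centre_ne_bot {V : ValuationSubring L} (hC : ∀ c : C, algebraMap C L c ∈ V)
    (hV : V ≠ ⊤) : centre V hC ≠ ⊥ := by
  intro hbot
  apply hV
  rw [eq_top_iff]
  intro x _
  obtain ⟨a, s, hs, rfl⟩ := IsFractionRing.div_surjective (A := C) x
  have hs0 : s ≠ 0 := nonZeroDivisors.ne_zero hs
  have hsL : algebraMap C L s ≠ 0 := by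
    rw [Ne, (map_eq_zero_iff _ (IsFractionRing.injective C L))]
    exact hs0
  -- `s` is not in the centre, hence a unit of `V`
  have hsc : s ∉ centre V hC := by
    rw [hbot, Ideal.mem_bot]
    exact hs0
  rw [mem_centre_iff, ValuationSubring.mem_nonunits_iff_or, not_or, not_not] at hsc
  rw [div_eq_mul_inv]
  exact V.mul_mem _ _ (hC a) hsc.2

/-- The centre as a height-one prime. -/
def centreSpec (V : ValuationSubring L) (hC : ∀ c : C, algebraMap C L c ∈ V) (hV : V ≠ ⊤) :
    HeightOneSpectrum C :=
  ⟨centre V hC, inferInstance, centre_ne_bot hC hV⟩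

/-- A valuation subring `V ≠ ⊤` of the fraction field of a Dedekind domain `C`, containing `C`,
is the valuation subring of its centre. -/
theorem eq_valuationSubring_of_dedekind (V : ValuationSubring L)
    (hC : ∀ c : C, algebraMap C L c ∈ V) (hV : V ≠ ⊤) :
    V = ((centreSpec V hC hV).valuation L).valuationSubring := by
  rw [← HeightOneSpectrum.valuationSubringAtPrime_eq_valuationSubring]
  symm
  refine ValuationSubring.eq_of_le_of_ne_top _ ?_ hV
  rintro x ⟨a, s, hs, rfl⟩
  have hsc : s ∉ centre V hC := hs
  rw [mem_centre_iff, ValuationSubring.mem_nonunits_iff_or, not_or, not_not] at hsc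
  exact V.mul_mem _ _ (hC a) hsc.2

/-- A valuation subring `V ≠ ⊤` of the fraction field of a Dedekind domain `C`, containing `C`,
is a discrete valuation ring. -/
theorem isDiscreteValuationRing_of_dedekind (V : ValuationSubring L)
    (hC : ∀ c : C, algebraMap C L c ∈ V) (hV : V ≠ ⊤) : IsDiscreteValuationRing V := by
  have h := eq_valuationSubring_of_dedekind V hC hV
  have hW : IsDiscreteValuationRing
      (HeightOneSpectrum.valuationSubringAtPrime L (centreSpec V hC hV)) := by
    have : ¬ IsField (HeightOneSpectrum.valuationSubringAtPrime L (centreSpec V hC hV)) := by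
      intro hf
      apply hV
      rw [h, ← HeightOneSpectrum.valuationSubringAtPrime_eq_valuationSubring]
      refine SetLike.ext fun x => ⟨fun _ => ValuationSubring.mem_top x, fun _ => ?_⟩
      by_contra hx
      set W := HeightOneSpectrum.valuationSubringAtPrime L (centreSpec V hC hV) with hWdef
      have hx0 : x ≠ 0 := fun h0 => hx (h0 ▸ W.zero_mem)
      have hxi : x⁻¹ ∈ W := (W.mem_or_inv_mem x).resolve_left hx
      have hxi0 : (⟨x⁻¹, hxi⟩ : W) ≠ 0 := by
        simp only [ne_eq, Subtype.ext_iff]
        exact inv_ne_zero hx0
      obtain ⟨b, hb⟩ := hf.mul_inv_cancel hxi0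
      have hb' : x⁻¹ * (b : L) = 1 := by
        have := congrArg Subtype.val hb
        simpa using this
      have hbx : (b : L) = x := by
        field_simp at hb'
        exact hb'
      exact hx (hbx ▸ b.2)
    exact { not_a_field' := by
              rw [ne_eq, ← IsLocalRing.isField_iff_maximalIdeal_eq]
              exact this }
  rw [HeightOneSpectrum.valuationSubringAtPrime_eq_valuationSubring, ← h] at hW
  exact hW

end Dedekind

section Finite

variable {K L : Type*} [Field K] [Field L] [Algebra K L] [FiniteDimensional K L]
  [Algebra.IsSeparable K L]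

/-- If `L / K` is finite separable, `V ≠ ⊤` is a valuation subring of `L` and `V ∩ K` is a discrete
valuation ring, then `V` is a discrete valuation ring. -/
theorem isDiscreteValuationRing_of_comap (V : ValuationSubring L) (hV : V ≠ ⊤)
    (hR : IsDiscreteValuationRing (V.comap (algebraMap K L))) : IsDiscreteValuationRing V := by
  set R : ValuationSubring K := V.comap (algebraMap K L) with hRdef
  letI : Algebra R L := ((algebraMap K L).comp R.subtype).toAlgebra
  haveI : IsScalarTower R K L := IsScalarTower.of_algebraMap_eq (fun _ => rfl)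
  haveI : IsDedekindDomain (integralClosure R L) := integralClosure.isDedekindDomain R K L
  haveI : IsFractionRing (integralClosure R L) L :=
    integralClosure.isFractionRing_of_finite_extension K L
  have hC : ∀ c : integralClosure R L, algebraMap (integralClosure R L) L c ∈ V := by
    intro c
    have hc : IsIntegral R (c : L) := c.2
    -- the ring hom `R → V`
    let φ : R →+* V := ((algebraMap K L).comp R.subtype).codRestrict V.toSubring (fun r => r.2)
    have hc' : IsIntegral V (c : L) :=
      hc.map_of_comp_eq φ (RingHom.id L) (by ext; rfl)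
    obtain ⟨y, hy⟩ := IsIntegrallyClosed.isIntegral_iff.mp hc'
    have : algebraMap (integralClosure R L) L c = (y : L) := hy.symm
    rw [this]
    exact y.2
  exact isDiscreteValuationRing_of_dedekind V hC hV

end Finite

section UnitMulPow

variable {R : Type*} [CommRing R] [IsDomain R]

/-- In a domain, a nonzero nonunit `p` such that every nonzero element is associated to a power of
`p` is irreducible. -/
theorem irreducible_of_forall_associated_pow (p : R) (hp : ¬ IsUnit p) (hp0 : p ≠ 0)
    (H : ∀ x : R, x ≠ 0 → ∃ n : ℕ, Associated (p ^ n) x) : Irreducible p := by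
  rw [irreducible_iff]
  refine ⟨hp, fun a b hab => ?_⟩
  have ha0 : a ≠ 0 := by
    rintro rfl
    rw [zero_mul] at hab
    exact hp0 hab
  have hb0 : b ≠ 0 := by
    rintro rfl
    rw [mul_zero] at hab
    exact hp0 hab
  obtain ⟨i, hi⟩ := H a ha0
  obtain ⟨j, hj⟩ := H b hb0
  have hij : Associated (p ^ (i + j)) p := by
    rw [pow_add]
    refine (hi.mul_mul hj).trans ?_
    rw [← hab]
    exact Associated.refl p
  rcases Nat.lt_or_ge (i + j) 1 with h0 | h1
  · -- `i + j = 0`
    have : i + j = 0 := by omega
    rw [this, pow_zero] at hij
    exact absurd (hij.isUnit isUnit_one) hp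
  rcases Nat.eq_or_lt_of_le h1 with h1 | h2
  · -- `i + j = 1`
    rcases Nat.eq_zero_or_pos i with hi0 | hipos
    · left
      rw [hi0, pow_zero] at hi
      exact hi.isUnit isUnit_one
    · right
      have hj0 : j = 0 := by omega
      rw [hj0, pow_zero] at hj
      exact hj.isUnit isUnit_one
  · -- `i + j ≥ 2`
    exfalso
    obtain ⟨u, hu⟩ := hij
    obtain ⟨k, hk⟩ : ∃ k, i + j = k + 2 := ⟨i + j - 2, by omega⟩
    rw [hk] at hu
    have h3 : p * (p ^ (k + 1) * ↑u) = p * 1 := by
      rw [mul_one, ← mul_assoc, ← pow_succ']
      exact hu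
    have h4 := mul_left_cancel₀ hp0 h3
    have h5 : p * (p ^ k * ↑u) = 1 := by
      rw [← mul_assoc, ← pow_succ']
      exact h4
    exact hp (.of_mul_eq_one _ h5)

end UnitMulPow

end

end Fermat.Agent.S18.H45
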