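/-
S18 / DVR foundation (helper45), part 2: the valuation subring `A` of `Qbar` over a rational prime
`ℓ`, cut down to number fields and to the maximal prime-to-`ℓ` cyclotomic field.

* `isDiscreteValuationRing_comapRat`, `isDiscreteValuationRing_comap`: `A ∩ ℚ` and `A ∩ E`
  (`E / ℚ` finite) are discrete valuation rings.
* `exists_zpow_of_inertia_le`: if `E / ℚ` is finite Galois and the frozen inertia group at `A`
  fixes `E`, every nonzero `x ∈ E` is `ℓ ^ n` times a unit of `A`.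
-/
import Mathlib
import Fermat.Agent.CFT.H37_UnramDict
import Fermat.Agent.S18.H45_DVRGeneric

set_option autoImplicit false
set_option linter.unusedSectionVars false
set_option linter.style.haveILetI false

namespace Fermat.Agent.S18.H45

open NumberField IsDedekindDomain
open Fermat.Agent.S54 Fermat.Agent.S14.H37 Fermat.Agent.S14.H54 Fermat.Agent.CFT.H37

noncomputable section

local notation "Qbar" => AlgebraicClosure ℚ

variable (A : ValuationSubring Qbar) {ℓ : ℕ} (hℓ : ℓ.Prime) (hA : A.LiesOverPrime ℓ)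

/-- `A` cut down to an intermediate field. -/
def cut (E : IntermediateField ℚ Qbar) : ValuationSubring E :=
  A.comap (algebraMap E Qbar)

theorem mem_cut {E : IntermediateField ℚ Qbar} {x : E} : x ∈ cut A E ↔ (x : Qbar) ∈ A :=
  Iff.rfl

/-- `A ∩ ℚ`. -/
def cutRat : ValuationSubring ℚ := A.comap (algebraMap ℚ Qbar)

theorem mem_cutRat {x : ℚ} : x ∈ cutRat A ↔ algebraMap ℚ Qbar x ∈ A := Iff.rfl

include hℓ hA in
theorem natCast_inv_notMem : ((ℓ : Qbar))⁻¹ ∉ A := by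
  intro h
  have h1 : (ℓ : Qbar) ∈ A.nonunits := hA
  rw [ValuationSubring.mem_nonunits_iff_or] at h1
  rcases h1 with h0 | h1
  · have : (ℓ : Qbar) ≠ 0 := by exact_mod_cast hℓ.ne_zero
    exact this h0
  · exact h1 h

include hℓ hA in
theorem cutRat_ne_top : cutRat A ≠ ⊤ := by
  intro h
  have : ((ℓ : ℚ))⁻¹ ∈ cutRat A := h ▸ ValuationSubring.mem_top _
  rw [mem_cutRat, map_inv₀, map_natCast] at this
  exact natCast_inv_notMem A hℓ hA this

include hℓ hA in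
/-- `A ∩ ℚ` is a discrete valuation ring. -/
theorem isDiscreteValuationRing_cutRat : IsDiscreteValuationRing (cutRat A) := by
  refine isDiscreteValuationRing_of_dedekind (C := ℤ) (cutRat A) ?_ (cutRat_ne_top A hℓ hA)
  intro c
  rw [mem_cutRat]
  have : algebraMap ℚ Qbar (algebraMap ℤ ℚ c) = ((c : ℤ) : Qbar) := by simp
  rw [this]
  exact intCast_mem A c

include hℓ hA in
theorem cut_ne_top (E : IntermediateField ℚ Qbar) : cut A E ≠ ⊤ := by
  intro h
  have : ((ℓ : E))⁻¹ ∈ cut A E := h ▸ ValuationSubring.mem_top _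
  rw [mem_cut] at this
  have h2 : (((ℓ : E))⁻¹ : E) = ((ℓ : Qbar))⁻¹ := by push_cast; rfl
  rw [h2] at this
  exact natCast_inv_notMem A hℓ hA this

include hℓ hA in
/-- `A ∩ E` is a discrete valuation ring for every number field `E ⊆ Qbar`. -/
theorem isDiscreteValuationRing_cut (E : IntermediateField ℚ Qbar) [FiniteDimensional ℚ E] :
    IsDiscreteValuationRing (cut A E) := by
  refine isDiscreteValuationRing_of_comap (K := ℚ) (cut A E) (cut_ne_top A hℓ hA E) ?_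
  have : (cut A E).comap (algebraMap ℚ E) = cutRat A := by
    ext x
    rfl
  rw [this]
  exact isDiscreteValuationRing_cutRat A hℓ hA

/-! ### The valuation bridge (copied from `CFT/H45_TopDivBridge` to keep the closure small) -/

section Bridge

variable {L : Type*} [Field L] [NumberField L] (ι : L →ₐ[ℚ] Qbar)
variable {A}

/-- The place of `L` cut out by `A` (through `ι`), as a height-one prime of `𝓞 L`. -/
def placeOf : HeightOneSpectrum (𝓞 L) :=
  ⟨primeOf ι A, inferInstance, primeOf_ne_bot ι hℓ hA⟩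

@[simp] theorem placeOf_asIdeal : (placeOf hℓ hA ι).asIdeal = primeOf ι A := rfl

theorem map_integer_mem (n : 𝓞 L) : ι (n : L) ∈ A :=
  mem_valuationSubring_of_isIntegral A
    (map_isIntegral_int ι.toRingHom (RingOfIntegers.isIntegral_coe n))

/-- Elements of `L` integral at `P` land in `A`. -/
theorem map_mem_of_valuation_le_one {x : L} (hx : (placeOf hℓ hA ι).valuation L x ≤ 1) :
    ι x ∈ A := by
  obtain ⟨n, d, h⟩ := (placeOf hℓ hA ι).exists_primeCompl_mul_eq_of_integer x hx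
  have hd : ι ((d : 𝓞 L) : L) ∉ A.nonunits := fun hmem => d.2 ((mem_primeOf ι).mpr hmem)
  obtain ⟨hd0, hdinv⟩ := inv_mem_of_not_mem_nonunits A hd
  have hn : ι ((n : 𝓞 L) : L) ∈ A := map_integer_mem ι n
  have h' : ι x * ι ((d : 𝓞 L) : L) = ι ((n : 𝓞 L) : L) := by
    rw [← map_mul]
    exact congrArg ι h
  have h3 : ι x = ι ((n : 𝓞 L) : L) * (ι ((d : 𝓞 L) : L))⁻¹ := by
    rw [← h', mul_assoc, mul_inv_cancel₀ hd0, mul_one]
  rw [h3]
  exact A.mul_mem _ _ hn hdinv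

/-- Units at `P` are units of `A`. -/
theorem valuation_map_eq_one {x : L} (hx : (placeOf hℓ hA ι).valuation L x = 1) :
    A.valuation (ι x) = 1 := by
  have hx0 : x ≠ 0 := by
    rintro rfl
    rw [map_zero] at hx
    exact zero_ne_one hx
  have h1 : ι x ∈ A := map_mem_of_valuation_le_one hℓ hA ι hx.le
  have h2 : ι x⁻¹ ∈ A := by
    apply map_mem_of_valuation_le_one hℓ hA ι
    rw [map_inv₀, hx, inv_one]
  have h1' := (A.valuation_le_one_iff _).mpr h1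
  have h2' := (A.valuation_le_one_iff _).mpr h2
  rw [map_inv₀, map_inv₀] at h2'
  have hpos : 0 < A.valuation (ι x) :=
    zero_lt_iff.mpr ((Valuation.ne_zero_iff _).mpr ((map_ne_zero ι).mpr hx0))
  rw [inv_le_one₀ hpos] at h2'
  exact le_antisymm h1' h2'

/-- The prime `(ℓ)` of `ℤ`. -/
def intPlace : HeightOneSpectrum ℤ :=
  ⟨Ideal.span {(ℓ : ℤ)}, (Ideal.span_singleton_prime (by exact_mod_cast hℓ.ne_zero)).mpr
    (Nat.prime_iff_prime_int.mp hℓ), by
      rw [Ne, Ideal.span_singleton_eq_bot]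
      exact_mod_cast hℓ.ne_zero⟩

include hℓ hA in
theorem primeOf_liesOver_span : (primeOf ι A).LiesOver (Ideal.span {(ℓ : ℤ)}) := by
  constructor
  have hmax : (Ideal.span {(ℓ : ℤ)}).IsMaximal :=
    ((intPlace hℓ).isPrime.isMaximal (intPlace hℓ).ne_bot)
  refine hmax.eq_of_le ?_ ?_
  · exact (Ideal.IsPrime.under ℤ (primeOf ι A)).ne_top
  · rw [Ideal.span_singleton_le_iff_mem, Ideal.under_def, Ideal.mem_comap]
    have : algebraMap ℤ (𝓞 L) (ℓ : ℤ) = ((ℓ : ℕ) : 𝓞 L) := by simp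
    rw [this]
    exact (natCast_mem_primeOf_iff ι).mpr hA

/-- If `P` is unramified over `ℓ`, then `ℓ` is a uniformizer at `P`. -/
theorem valuation_natCast_eq (he : (primeOf ι A).ramificationIdx ℤ = 1) :
    (placeOf hℓ hA ι).valuation L ((ℓ : ℕ) : L) = WithZero.exp (-1 : ℤ) := by
  have : (placeOf hℓ hA ι).asIdeal.LiesOver (intPlace hℓ).asIdeal := primeOf_liesOver_span hℓ hA ι
  have h1 := HeightOneSpectrum.intValuation_liesOver (intPlace hℓ) (placeOf hℓ hA ι) (ℓ : ℤ)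
  have h2 : (intPlace hℓ).asIdeal.ramificationIdx' (placeOf hℓ hA ι).asIdeal = 1 := by
    rw [Ideal.ramificationIdx'_eq_ramificationIdx (intPlace hℓ).asIdeal (placeOf hℓ hA ι).asIdeal
      (intPlace hℓ).ne_bot]
    exact he
  rw [h2, pow_one] at h1
  have h3 : (intPlace hℓ).intValuation (ℓ : ℤ) = WithZero.exp (-1 : ℤ) :=
    HeightOneSpectrum.intValuation_singleton _ (by exact_mod_cast hℓ.ne_zero) rfl
  rw [h3] at h1
  have h4 : ((ℓ : ℕ) : L) = algebraMap (𝓞 L) L (algebraMap ℤ (𝓞 L) (ℓ : ℤ)) := by simp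
  rw [h4, HeightOneSpectrum.valuation_of_algebraMap, ← h1]

end Bridge

/-! ### Unramified Galois number fields -/

section Unram

variable {A}

include hℓ hA in
/-- If `E / ℚ` is finite Galois and the frozen inertia group at `A` fixes `E`, then every nonzero
`x ∈ E` is `ℓ ^ n` times a unit of `A`. -/
theorem exists_zpow_of_inertia_le (E : IntermediateField ℚ Qbar) [NumberField E] [IsGalois ℚ E]
    (hE : A.inertiaSubgroupIn ℚ ≤ E.fixingSubgroup) (x : E) (hx : x ≠ 0) :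
    ∃ n : ℤ, A.valuation ((x : Qbar) * ((ℓ : Qbar) ^ n)⁻¹) = 1 := by
  have he : (primeOf (incl E) A).ramificationIdx ℤ = 1 := by
    rw [ramificationIdx_int_eq]
    refine (forall_fixes_iff_ramificationIdx_eq_one (K := ℚ) (ι := incl E) hℓ hA).mp ?_
    intro σ hσ _ y
    have := hE hσ
    rw [IntermediateField.mem_fixingSubgroup_iff] at this
    exact this y y.2
  set v := placeOf hℓ hA (incl E) with hv
  have hvℓ : v.valuation E ((ℓ : ℕ) : E) = WithZero.exp (-1 : ℤ) :=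
    valuation_natCast_eq hℓ hA (incl E) he
  have hvx0 : v.valuation E x ≠ 0 := (Valuation.ne_zero_iff _).mpr hx
  obtain ⟨n, hn⟩ : ∃ n : ℤ, v.valuation E x = WithZero.exp (-n) :=
    ⟨-WithZero.log (v.valuation E x), by rw [neg_neg, WithZero.exp_log hvx0]⟩
  refine ⟨n, ?_⟩
  have hy : v.valuation E (x * (((ℓ : ℕ) : E) ^ n)⁻¹) = 1 := by
    rw [map_mul, map_inv₀, map_zpow₀, hvℓ, hn, ← WithZero.exp_zsmul, ← WithZero.exp_neg,
      ← WithZero.exp_add]
    simp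
  have h1 := valuation_map_eq_one hℓ hA (incl E) hy
  have h2 : incl E (x * (((ℓ : ℕ) : E) ^ n)⁻¹) = (x : Qbar) * ((ℓ : Qbar) ^ n)⁻¹ := by
    rw [map_mul, map_inv₀, map_zpow₀, map_natCast]
    rfl
  rw [h2] at h1
  exact h1

end Unram

/-! ### Roots of unity of order prime to `ℓ` -/

section Roots

variable {A}

theorem mem_of_pow_eq_one {ζ : Qbar} {m : ℕ} (hm : m ≠ 0) (hζ : ζ ^ m = 1) : ζ ∈ A :=
  mem_valuationSubring_of_isIntegral A
    ⟨Polynomial.X ^ m - 1, Polynomial.monic_X_pow_sub_C (1 : ℤ) hm, by simp [hζ]⟩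

theorem valuation_eq_one_of_pow_eq_one {ζ : Qbar} {m : ℕ} (hm : m ≠ 0) (hζ : ζ ^ m = 1) :
    A.valuation ζ = 1 := by
  have h1 : A.valuation ζ ≤ 1 := (A.valuation_le_one_iff _).mpr (mem_of_pow_eq_one hm hζ)
  have hinv : ζ⁻¹ ^ m = 1 := by rw [inv_pow, hζ, inv_one]
  have h2 : A.valuation ζ⁻¹ ≤ 1 := (A.valuation_le_one_iff _).mpr (mem_of_pow_eq_one hm hinv)
  have hζ0 : ζ ≠ 0 := by
    rintro rfl
    rw [zero_pow hm] at hζ
    exact zero_ne_one hζ
  have hpos : 0 < A.valuation ζ := zero_lt_iff.mpr ((Valuation.ne_zero_iff _).mpr hζ0)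
  rw [map_inv₀, inv_le_one₀ hpos] at h2
  exact le_antisymm h1 h2

include hℓ hA in
/-- A natural number prime to `ℓ` is a unit of `A`. -/
theorem natCast_notMem_nonunits {m : ℕ} (hm : ¬ ℓ ∣ m) : (m : Qbar) ∉ A.nonunits := by
  intro h
  have hcop : Nat.Coprime ℓ m := (Nat.Prime.coprime_iff_not_dvd hℓ).mpr hm
  have hb : ((ℓ.gcdA m : ℤ) : Qbar) * (ℓ : Qbar) + ((ℓ.gcdB m : ℤ) : Qbar) * (m : Qbar) = 1 := by
    have := Nat.gcd_eq_gcd_ab ℓ m
    rw [hcop.gcd_eq_one] at this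
    have h2 : ((1 : ℕ) : ℤ) = (ℓ : ℤ) * ℓ.gcdA m + (m : ℤ) * ℓ.gcdB m := this
    have h3 := congrArg (fun z : ℤ => (z : Qbar)) h2
    simp only [Int.cast_add, Int.cast_mul, Int.cast_natCast, Nat.cast_one, Int.cast_one] at h3
    rw [h3]
    ring
  have h1 : A.valuation (((ℓ.gcdA m : ℤ) : Qbar) * (ℓ : Qbar)) < 1 := by
    rw [map_mul]
    have ha : A.valuation ((ℓ.gcdA m : ℤ) : Qbar) ≤ 1 :=
      (A.valuation_le_one_iff _).mpr (intCast_mem A _)
    have hl : A.valuation (ℓ : Qbar) < 1 := A.mem_nonunits_iff.mp hA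
    calc A.valuation ((ℓ.gcdA m : ℤ) : Qbar) * A.valuation (ℓ : Qbar)
        ≤ 1 * A.valuation (ℓ : Qbar) := by gcongr
      _ < 1 := by rw [one_mul]; exact hl
  have h2 : A.valuation (((ℓ.gcdB m : ℤ) : Qbar) * (m : Qbar)) < 1 := by
    rw [map_mul]
    have ha : A.valuation ((ℓ.gcdB m : ℤ) : Qbar) ≤ 1 :=
      (A.valuation_le_one_iff _).mpr (intCast_mem A _)
    have hl : A.valuation (m : Qbar) < 1 := A.mem_nonunits_iff.mp h
    calc A.valuation ((ℓ.gcdB m : ℤ) : Qbar) * A.valuation (m : Qbar)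
        ≤ 1 * A.valuation (m : Qbar) := by gcongr
      _ < 1 := by rw [one_mul]; exact hl
  have h3 : A.valuation (1 : Qbar) < 1 := by
    rw [← hb]
    exact lt_of_le_of_lt (Valuation.map_add _ _ _) (max_lt h1 h2)
  rw [map_one] at h3
  exact lt_irrefl _ h3

include hℓ hA in
/-- Reduction modulo `A` is injective on roots of unity of order prime to `ℓ`. -/
theorem eq_of_sub_mem_nonunits {ζ ζ' : Qbar} {m : ℕ} (hm0 : m ≠ 0) (hm : ¬ ℓ ∣ m)
    (hζ : ζ ^ m = 1) (hζ' : ζ' ^ m = 1) (h : ζ' - ζ ∈ A.nonunits) : ζ' = ζ := by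
  by_contra hne
  have hζ0 : ζ ≠ 0 := by
    rintro rfl
    rw [zero_pow hm0] at hζ
    exact zero_ne_one hζ
  set ξ : Qbar := ζ' * ζ⁻¹ with hξ
  have hξm : ξ ^ m = 1 := by rw [hξ, mul_pow, inv_pow, hζ, hζ', inv_one, mul_one]
  have hξ1 : ξ ≠ 1 := by
    intro h1
    apply hne
    rw [hξ] at h1
    field_simp at h1
    exact h1
  -- `ξ - 1` is a nonunit
  have hv : A.valuation (ξ - 1) < 1 := by
    have : ξ - 1 = (ζ' - ζ) * ζ⁻¹ := by rw [hξ]; field_simp
    rw [this, map_mul, map_inv₀, valuation_eq_one_of_pow_eq_one hm0 hζ, inv_one, mul_one]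
    exact A.mem_nonunits_iff.mp h
  -- `∑ i < m, ξ ^ i = 0`
  have hsum : ∑ i ∈ Finset.range m, ξ ^ i = 0 := by
    have := mul_geom_sum ξ m
    rw [hξm, sub_self] at this
    rcases mul_eq_zero.mp this with h0 | h0
    · exact absurd (sub_eq_zero.mp h0) hξ1
    · exact h0
  -- hence `m = ∑ (1 - ξ ^ i)` is a nonunit
  have hm' : (m : Qbar) = ∑ i ∈ Finset.range m, (1 - ξ ^ i) := by
    rw [Finset.sum_sub_distrib, hsum, sub_zero]
    simp
  apply natCast_notMem_nonunits hℓ hA hm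
  rw [A.mem_nonunits_iff, hm']
  apply Valuation.map_sum_lt _ one_ne_zero
  intro i _
  have hdiv : (1 - ξ ^ i) = (1 - ξ) * ∑ j ∈ Finset.range i, ξ ^ j := by
    rw [mul_comm, geom_sum_mul_neg]
  rw [hdiv, map_mul]
  have h1 : A.valuation (1 - ξ) < 1 := by rw [Valuation.map_sub_swap]; exact hv
  have h2 : A.valuation (∑ j ∈ Finset.range i, ξ ^ j) ≤ 1 := by
    rw [A.valuation_le_one_iff]
    exact Subring.sum_mem _ (fun j _ => pow_mem (mem_of_pow_eq_one hm0 hξm) j)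
  calc A.valuation (1 - ξ) * A.valuation (∑ j ∈ Finset.range i, ξ ^ j)
      ≤ A.valuation (1 - ξ) * 1 := by gcongr
    _ < 1 := by rw [mul_one]; exact h1

include hℓ hA in
/-- The frozen inertia group at `A` fixes every root of unity of order prime to `ℓ`. -/
theorem inertia_apply_eq_of_pow_eq_one {σ : Qbar ≃ₐ[ℚ] Qbar} (hσ : σ ∈ A.inertiaSubgroupIn ℚ)
    {ζ : Qbar} {m : ℕ} (hm0 : m ≠ 0) (hm : ¬ ℓ ∣ m) (hζ : ζ ^ m = 1) : σ ζ = ζ := by
  have h1 := (mem_inertiaSubgroupIn_iff.mp hσ).2 ζ (mem_of_pow_eq_one hm0 hζ)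
  have h2 : (σ ζ) ^ m = 1 := by rw [← map_pow, hζ, map_one]
  exact eq_of_sub_mem_nonunits hℓ hA hm0 hm hζ h2 h1

end Roots

/-! ### Cyclotomic fields inside `Qbar` -/

section Cyclo

/-- `ℚ(μ_m)` inside `Qbar`, in the shape used by Mathlib's cyclotomic API. -/
def cycloField (m : ℕ) : IntermediateField ℚ Qbar :=
  IntermediateField.adjoin ℚ {b : Qbar | ∃ n ∈ ({m} : Set ℕ), n ≠ 0 ∧ b ^ n = 1}

theorem mem_cycloField_of_pow_eq_one {m : ℕ} (hm : m ≠ 0) {ζ : Qbar} (hζ : ζ ^ m = 1) :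
    ζ ∈ cycloField m :=
  IntermediateField.subset_adjoin _ _ ⟨m, rfl, hm, hζ⟩

theorem cycloField_mono {m m' : ℕ} (h : m ∣ m') (hm' : m' ≠ 0) : cycloField m ≤ cycloField m' := by
  rw [cycloField, IntermediateField.adjoin_le_iff]
  rintro b ⟨n, hn, hn0, hb⟩
  rw [Set.mem_singleton_iff] at hn
  subst hn
  obtain ⟨k, rfl⟩ := h
  exact mem_cycloField_of_pow_eq_one hm' (by rw [pow_mul, hb, one_pow])

instance cycloField_isCyclotomicExtension (m : ℕ) [NeZero m] :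
    IsCyclotomicExtension {m} ℚ (cycloField m) := by
  apply IntermediateField.isCyclotomicExtension_adjoin_of_exists_isPrimitiveRoot
  intro n hn hn0
  rw [Set.mem_singleton_iff] at hn
  subst hn
  exact HasEnoughRootsOfUnity.exists_primitiveRoot Qbar n

instance cycloField_numberField (m : ℕ) [NeZero m] : NumberField (cycloField m) :=
  IsCyclotomicExtension.numberField {m} ℚ _

instance cycloField_isGalois (m : ℕ) [NeZero m] : IsGalois ℚ (cycloField m) :=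
  IsCyclotomicExtension.isGalois {m} ℚ _

variable {A}

include hℓ hA in
theorem inertia_le_fixingSubgroup_cycloField {m : ℕ} (hm0 : m ≠ 0) (hm : ¬ ℓ ∣ m) :
    A.inertiaSubgroupIn ℚ ≤ (cycloField m).fixingSubgroup := by
  intro σ hσ
  rw [IntermediateField.mem_fixingSubgroup_iff]
  intro x hx
  rw [cycloField] at hx
  induction hx using IntermediateField.adjoin_induction with
  | mem b hb =>
    obtain ⟨n, hn, hn0, hb⟩ := hb
    rw [Set.mem_singleton_iff] at hn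
    subst hn
    exact inertia_apply_eq_of_pow_eq_one hℓ hA hσ hm0 hm hb
  | algebraMap r => exact σ.commutes r
  | add x y _ _ hx hy => rw [map_add, hx, hy]
  | inv x _ hx => rw [map_inv₀, hx]
  | mul x y _ _ hx hy => rw [map_mul, hx, hy]

/-- The maximal prime-to-`ℓ` cyclotomic field `ℚ(μ_m : ℓ ∤ m)` inside `Qbar`. -/
def unrCyclo (ℓ : ℕ) : IntermediateField ℚ Qbar :=
  IntermediateField.adjoin ℚ {ζ : Qbar | ∃ m : ℕ, m ≠ 0 ∧ ¬ ℓ ∣ m ∧ ζ ^ m = 1}

theorem mem_unrCyclo_of_pow_eq_one {m : ℕ} (hm0 : m ≠ 0) (hm : ¬ ℓ ∣ m) {ζ : Qbar}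
    (hζ : ζ ^ m = 1) : ζ ∈ unrCyclo ℓ :=
  IntermediateField.subset_adjoin _ _ ⟨m, hm0, hm, hζ⟩

theorem cycloField_le_unrCyclo {m : ℕ} (hm : ¬ ℓ ∣ m) : cycloField m ≤ unrCyclo ℓ := by
  rw [cycloField, IntermediateField.adjoin_le_iff]
  rintro b ⟨n, hn, hn0, hb⟩
  rw [Set.mem_singleton_iff] at hn
  subst hn
  exact mem_unrCyclo_of_pow_eq_one hn0 hm hb

include hℓ in
/-- `unrCyclo ℓ` is the directed union of the `cycloField m`, `ℓ ∤ m`. -/
theorem exists_mem_cycloField {x : Qbar} (hx : x ∈ unrCyclo ℓ) :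
    ∃ m : ℕ, m ≠ 0 ∧ ¬ ℓ ∣ m ∧ x ∈ cycloField m := by
  have key : ∀ {m m' : ℕ}, m ≠ 0 → ¬ ℓ ∣ m → m' ≠ 0 → ¬ ℓ ∣ m' →
      (m * m' ≠ 0 ∧ ¬ ℓ ∣ m * m') := by
    intro m m' h1 h2 h3 h4
    refine ⟨Nat.mul_ne_zero h1 h3, fun h => ?_⟩
    rcases (Nat.Prime.dvd_mul hℓ).mp h with h | h
    · exact h2 h
    · exact h4 h
  rw [unrCyclo] at hx
  induction hx using IntermediateField.adjoin_induction with
  | mem b hb =>
    obtain ⟨m, hm0, hm, hb⟩ := hb
    exact ⟨m, hm0, hm, mem_cycloField_of_pow_eq_one hm0 hb⟩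
  | algebraMap r => exact ⟨1, one_ne_zero, fun h => hℓ.one_lt.ne' (Nat.dvd_one.mp h),
      (cycloField 1).algebraMap_mem r⟩
  | add x y _ _ hx hy =>
    obtain ⟨m, hm0, hm, hxm⟩ := hx
    obtain ⟨m', hm0', hm', hym⟩ := hy
    obtain ⟨h0, h1⟩ := key hm0 hm hm0' hm'
    exact ⟨m * m', h0, h1, add_mem (cycloField_mono (dvd_mul_right m m') h0 hxm)
      (cycloField_mono (dvd_mul_left m' m) h0 hym)⟩
  | inv x _ hx =>
    obtain ⟨m, hm0, hm, hxm⟩ := hx
    exact ⟨m, hm0, hm, inv_mem hxm⟩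
  | mul x y _ _ hx hy =>
    obtain ⟨m, hm0, hm, hxm⟩ := hx
    obtain ⟨m', hm0', hm', hym⟩ := hy
    obtain ⟨h0, h1⟩ := key hm0 hm hm0' hm'
    exact ⟨m * m', h0, h1, mul_mem (cycloField_mono (dvd_mul_right m m') h0 hxm)
      (cycloField_mono (dvd_mul_left m' m) h0 hym)⟩

include hℓ hA in
/-- Every nonzero element of `unrCyclo ℓ` is `ℓ ^ n` times a unit of `A`. -/
theorem exists_zpow_of_mem_unrCyclo {x : Qbar} (hx : x ∈ unrCyclo ℓ) (hx0 : x ≠ 0) :
    ∃ n : ℤ, A.valuation (x * ((ℓ : Qbar) ^ n)⁻¹) = 1 := by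
  obtain ⟨m, hm0, hm, hxm⟩ := exists_mem_cycloField hℓ hx
  haveI : NeZero m := ⟨hm0⟩
  exact exists_zpow_of_inertia_le hℓ hA (cycloField m)
    (inertia_le_fixingSubgroup_cycloField hℓ hA hm0 hm) ⟨x, hxm⟩
    (fun h => hx0 (congrArg Subtype.val h))

include hℓ hA in
theorem inertia_le_fixingSubgroup_unrCyclo :
    A.inertiaSubgroupIn ℚ ≤ (unrCyclo ℓ).fixingSubgroup := by
  intro σ hσ
  rw [IntermediateField.mem_fixingSubgroup_iff]
  intro x hx
  obtain ⟨m, hm0, hm, hxm⟩ := exists_mem_cycloField hℓ hx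
  have := inertia_le_fixingSubgroup_cycloField hℓ hA hm0 hm hσ
  rw [IntermediateField.mem_fixingSubgroup_iff] at this
  exact this x hxm

end Cyclo

/-! ### The discrete valuation ring `A0 = A ∩ ℚ(μ_m : ℓ ∤ m)` -/

section A0

variable (ℓ) in
/-- `A0 = A ∩ ℚ(μ_m : ℓ ∤ m)`: a discrete valuation ring with uniformizer `ℓ` whose residue field
is the full residue field of `A`. -/
def A0 : ValuationSubring (unrCyclo ℓ) := cut A (unrCyclo ℓ)

theorem mem_A0 {x : unrCyclo ℓ} : x ∈ A0 A ℓ ↔ (x : Qbar) ∈ A := Iff.rfl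

variable {A}

theorem isUnit_A0_of_valuation_eq_one (x : A0 A ℓ)
    (h : A.valuation ((x : unrCyclo ℓ) : Qbar) = 1) : IsUnit x := by
  have hx0 : (x : unrCyclo ℓ) ≠ 0 := by
    intro h0
    rw [h0] at h
    simp at h
  have hinv : ((x : unrCyclo ℓ))⁻¹ ∈ A0 A ℓ := by
    rw [mem_A0]
    have : (((x : unrCyclo ℓ)⁻¹ : unrCyclo ℓ) : Qbar) = ((x : unrCyclo ℓ) : Qbar)⁻¹ := rfl
    rw [this, ← A.valuation_le_one_iff, map_inv₀, h, inv_one]
  refine .of_mul_eq_one ⟨_, hinv⟩ ?_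
  apply Subtype.ext
  show (x : unrCyclo ℓ) * (x : unrCyclo ℓ)⁻¹ = 1
  exact mul_inv_cancel₀ hx0

include hℓ hA in
theorem natCast_not_isUnit_A0 : ¬ IsUnit ((ℓ : ℕ) : A0 A ℓ) := by
  intro h
  obtain ⟨b, hb⟩ := h.exists_right_inv
  have h1 : (ℓ : Qbar) * (((b : A0 A ℓ) : unrCyclo ℓ) : Qbar) = 1 := by
    have := congrArg (fun z : A0 A ℓ => ((z : unrCyclo ℓ) : Qbar)) hb
    simpa using this
  have h2 : (((b : A0 A ℓ) : unrCyclo ℓ) : Qbar) = ((ℓ : Qbar))⁻¹ := eq_inv_of_mul_eq_one_right h1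
  exact natCast_inv_notMem A hℓ hA (h2 ▸ b.2)

include hℓ hA in
/-- Every nonzero element of `A0` is a unit times a power of `ℓ`. -/
theorem exists_associated_pow_A0 (x : A0 A ℓ) (hx : x ≠ 0) :
    ∃ n : ℕ, Associated (((ℓ : ℕ) : A0 A ℓ) ^ n) x := by
  have hx0 : ((x : unrCyclo ℓ) : Qbar) ≠ 0 := by
    intro h0
    apply hx
    apply Subtype.ext
    apply Subtype.ext
    exact h0
  obtain ⟨n, hn⟩ := exists_zpow_of_mem_unrCyclo hℓ hA (x : unrCyclo ℓ).2 hx0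
  have hℓ0 : (ℓ : Qbar) ≠ 0 := by exact_mod_cast hℓ.ne_zero
  have hvℓpos : 0 < A.valuation (ℓ : Qbar) :=
    zero_lt_iff.mpr ((Valuation.ne_zero_iff _).mpr hℓ0)
  have hvℓlt : A.valuation (ℓ : Qbar) < 1 := A.mem_nonunits_iff.mp hA
  -- `v x = v ℓ ^ n`
  have hvx : A.valuation ((x : unrCyclo ℓ) : Qbar) = A.valuation (ℓ : Qbar) ^ n := by
    rw [map_mul, map_inv₀, map_zpow₀] at hn
    exact (mul_inv_eq_one₀ (zpow_ne_zero n hvℓpos.ne')).mp hn
  have hn0 : 0 ≤ n := by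
    rw [← zpow_le_one_iff_right_of_lt_one₀ hvℓpos hvℓlt, ← hvx, A.valuation_le_one_iff]
    exact x.2
  obtain ⟨k, rfl⟩ := Int.eq_ofNat_of_zero_le hn0
  rw [zpow_natCast] at hn hvx
  -- the unit
  let u0 : unrCyclo ℓ := (x : unrCyclo ℓ) * (((ℓ : ℕ) : unrCyclo ℓ) ^ k)⁻¹
  have hu0coe : (u0 : Qbar) = ((x : unrCyclo ℓ) : Qbar) * ((ℓ : Qbar) ^ k)⁻¹ := by
    show (((x : unrCyclo ℓ) * (((ℓ : ℕ) : unrCyclo ℓ) ^ k)⁻¹ : unrCyclo ℓ) : Qbar) = _
    push_cast
    rfl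
  have hu0v : A.valuation (u0 : Qbar) = 1 := by rw [hu0coe]; exact hn
  have hu0mem : u0 ∈ A0 A ℓ := by
    rw [mem_A0, ← A.valuation_le_one_iff, hu0v]
  have hunit : IsUnit (⟨u0, hu0mem⟩ : A0 A ℓ) := isUnit_A0_of_valuation_eq_one _ hu0v
  refine ⟨k, hunit.unit, ?_⟩
  apply Subtype.ext
  show (((ℓ : ℕ) : unrCyclo ℓ) ^ k) * u0 = (x : unrCyclo ℓ)
  have hℓ0' : (((ℓ : ℕ) : unrCyclo ℓ) ^ k) ≠ 0 :=
    pow_ne_zero k (by exact_mod_cast hℓ.ne_zero)
  show (((ℓ : ℕ) : unrCyclo ℓ) ^ k) * ((x : unrCyclo ℓ) * (((ℓ : ℕ) : unrCyclo ℓ) ^ k)⁻¹) = _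
  field_simp

include hℓ hA in
/-- `ℓ` is irreducible in `A0`, i.e. a uniformizer. -/
theorem irreducible_natCast_A0 : Irreducible ((ℓ : ℕ) : A0 A ℓ) := by
  refine irreducible_of_forall_associated_pow _ (natCast_not_isUnit_A0 hℓ hA) ?_
    (exists_associated_pow_A0 hℓ hA)
  intro h
  have := congrArg (fun z : A0 A ℓ => ((z : unrCyclo ℓ) : Qbar)) h
  simp only [ZeroMemClass.coe_zero] at this
  have h2 : (ℓ : Qbar) = 0 := by simpa using this
  exact (by exact_mod_cast hℓ.ne_zero : (ℓ : Qbar) ≠ 0) h2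

include hℓ hA in
/-- `A0` is a discrete valuation ring. -/
theorem isDiscreteValuationRing_A0 : IsDiscreteValuationRing (A0 A ℓ) :=
  IsDiscreteValuationRing.ofHasUnitMulPowIrreducibleFactorization
    ⟨_, irreducible_natCast_A0 hℓ hA, fun {x} hx => exists_associated_pow_A0 hℓ hA x hx⟩

end A0

end

end Fermat.Agent.S18.H45
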