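/-
S18 / DVR foundation (helper45), part 3: the residue field of `A0 = A ∩ ℚ(μ_m : ℓ ∤ m)`.

`A : ValuationSubring Qbar` lies over the rational prime `ℓ`, `k := ResidueField A`.

* `isAlgClosed_residueField_of_isAlgClosed`: `k` is algebraically closed.
* `exists_pow_eq_one_of_residue_ne_zero`: every nonzero element of `k` is a root of unity of order
  prime to `ℓ` (`k` is algebraic over `𝔽_ℓ`).
* `exists_rootOfUnity_residue_eq`: every nonzero element of `k` is the reduction of a root of unity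
  of `Qbar` of order prime to `ℓ` (a Teichmüller lift).
* `resA0 : A0 A ℓ →+* k` is surjective with kernel `(ℓ)`; `residueEquivA0 : ResidueField (A0 A ℓ)
  ≃+* k`; hence the residue field of the discrete valuation ring `A0 A ℓ` is algebraically closed.
-/
import Mathlib
import Fermat.Agent.S18.H45_StrictDVR

set_option autoImplicit false
set_option linter.unusedSectionVars false
set_option linter.style.haveILetI false

namespace Fermat.Agent.S18.H45

open IsLocalRing Polynomial IntermediateField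

noncomputable section

local notation "Qbar" => AlgebraicClosure ℚ

/-! ### Generic: the residue field of a valuation subring of an algebraically closed field -/

/-- The residue field of a valuation subring of an algebraically closed field is algebraically
closed. -/
theorem isAlgClosed_residueField_of_isAlgClosed {K : Type*} [Field K] [IsAlgClosed K]
    (V : ValuationSubring K) : IsAlgClosed (ResidueField V) := by
  refine IsAlgClosed.of_exists_root _ fun p hp hirr => ?_
  have hsurj : Function.Surjective (residue V) := residue_surjective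
  have hlift : p ∈ Polynomial.lifts (residue V) := by
    rw [Polynomial.mem_lifts]
    exact Polynomial.map_surjective _ hsurj p
  obtain ⟨q, hq, hdeg, hmonic⟩ := Polynomial.lifts_and_degree_eq_and_monic hlift hp
  have hdegp : p.degree ≠ 0 := (Polynomial.degree_pos_of_irreducible hirr).ne'
  have hdegq : (q.map (algebraMap V K)).degree ≠ 0 := by
    rw [Polynomial.degree_map_eq_of_injective (FaithfulSMul.algebraMap_injective V K), hdeg]
    exact hdegp
  obtain ⟨x, hx⟩ := IsAlgClosed.exists_root _ hdegq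
  have hint : IsIntegral V x := ⟨q, hmonic, by rw [← Polynomial.eval_map]; exact hx⟩
  obtain ⟨y, rfl⟩ := IsIntegrallyClosed.algebraMap_eq_of_integral hint
  refine ⟨residue V y, ?_⟩
  have hy : q.eval y = 0 := by
    apply FaithfulSMul.algebraMap_injective V K
    rw [map_zero, ← Polynomial.eval₂_at_apply, Polynomial.eval₂_eq_eval_map]
    exact hx
  rw [← hq, Polynomial.eval_map, Polynomial.eval₂_at_apply, hy, map_zero]

variable (A : ValuationSubring Qbar) {ℓ : ℕ} (hℓ : ℓ.Prime) (hA : A.LiesOverPrime ℓ)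

instance isAlgClosed_residueField : IsAlgClosed (ResidueField A) :=
  isAlgClosed_residueField_of_isAlgClosed A

/-! ### Characteristic of the residue field -/

variable {A}

theorem residue_eq_zero_iff_mem_nonunits (a : A) : residue A a = 0 ↔ (a : Qbar) ∈ A.nonunits := by
  rw [residue_eq_zero_iff, ValuationSubring.coe_mem_nonunits_iff]

include hA in
theorem residue_natCast_eq_zero : residue A ((ℓ : ℕ) : A) = 0 := by
  rw [residue_eq_zero_iff_mem_nonunits]
  have : (((ℓ : ℕ) : A) : Qbar) = (ℓ : Qbar) := by push_cast; rfl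
  rw [this]
  exact hA

include hℓ hA in
theorem charP_residueField : CharP (ResidueField A) ℓ := by
  rw [CharP.charP_iff_prime_eq_zero hℓ]
  have := residue_natCast_eq_zero hA
  rwa [map_natCast] at this

/-! ### The residue field is algebraic over `𝔽_ℓ` -/

include hℓ hA in
/-- Every nonzero element of the residue field of `A` is a root of unity of order prime to `ℓ`. -/
theorem exists_pow_eq_one_of_residue_ne_zero (c : ResidueField A) (hc : c ≠ 0) :
    ∃ n : ℕ, n ≠ 0 ∧ ¬ ℓ ∣ n ∧ c ^ n = 1 := by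
  haveI : Fact ℓ.Prime := ⟨hℓ⟩
  haveI : CharP (ResidueField A) ℓ := charP_residueField hℓ hA
  letI : Algebra (ZMod ℓ) (ResidueField A) := ZMod.algebra _ ℓ
  obtain ⟨a, rfl⟩ := residue_surjective c
  -- a primitive integer polynomial killing `a`
  have halg : IsAlgebraic ℤ (a : Qbar) :=
    (IsFractionRing.isAlgebraic_iff ℤ ℚ Qbar).mpr ((AlgebraicClosure.isAlgebraic ℚ).isAlgebraic _)
  obtain ⟨g0, hg0, hg0a⟩ := halg
  set g := g0.primPart with hg
  have hga : aeval (a : Qbar) g = 0 := aeval_primPart_eq_zero hg0 hg0a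
  have hprim : g.IsPrimitive := g0.isPrimitive_primPart
  -- its reduction mod `ℓ` is nonzero
  set gbar : (ZMod ℓ)[X] := g.map (Int.castRingHom (ZMod ℓ)) with hgbar
  have hgbar0 : gbar ≠ 0 := by
    intro h0
    have hdvd : C (ℓ : ℤ) ∣ g := by
      rw [Polynomial.C_dvd_iff_dvd_coeff]
      intro i
      have : (gbar.coeff i) = 0 := by rw [h0, coeff_zero]
      rw [hgbar, coeff_map, eq_intCast, ZMod.intCast_zmod_eq_zero_iff_dvd] at this
      exact this
    have hu := hprim _ hdvd
    rw [Int.isUnit_iff] at hu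
    rcases hu with hu | hu
    · have : ℓ = 1 := by exact_mod_cast hu
      exact hℓ.one_lt.ne' this
    · have : (0 : ℤ) ≤ (ℓ : ℤ) := Int.natCast_nonneg ℓ
      omega
  -- and kills the residue class of `a`
  have hroot : aeval (residue A a) gbar = 0 := by
    have h1 : eval₂ (Int.castRingHom A) a g = 0 := by
      apply Subtype.ext
      have h2 : ((eval₂ (Int.castRingHom A) a g : A) : Qbar) = aeval (a : Qbar) g := by
        have h4 := Polynomial.hom_eval₂ g (Int.castRingHom A) A.subtype a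
        rw [show A.subtype.comp (Int.castRingHom A) = algebraMap ℤ Qbar from
          RingHom.ext_int _ _] at h4
        rw [aeval_def]
        exact h4
      rw [h2, hga]
      rfl
    rw [aeval_def, hgbar, eval₂_map]
    have h3 : ((algebraMap (ZMod ℓ) (ResidueField A)).comp (Int.castRingHom (ZMod ℓ))) =
        (residue A).comp (Int.castRingHom A) := RingHom.ext_int _ _
    rw [h3, ← Polynomial.hom_eval₂, h1, map_zero]
  have hint : IsIntegral (ZMod ℓ) (residue A a) :=
    IsAlgebraic.isIntegral ⟨gbar, hgbar0, hroot⟩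
  -- the finite field `𝔽_ℓ(c)`
  haveI : FiniteDimensional (ZMod ℓ) (ZMod ℓ)⟮residue A a⟯ :=
    IntermediateField.adjoin.finiteDimensional hint
  haveI : Finite (ZMod ℓ)⟮residue A a⟯ := Module.finite_of_finite (ZMod ℓ)
  letI : Fintype (ZMod ℓ)⟮residue A a⟯ := Fintype.ofFinite _
  haveI : CharP (ZMod ℓ)⟮residue A a⟯ ℓ :=
    charP_of_injective_algebraMap (algebraMap (ZMod ℓ) (ZMod ℓ)⟮residue A a⟯).injective ℓ
  obtain ⟨f, -, hcard⟩ := FiniteField.card (ZMod ℓ)⟮residue A a⟯ ℓ
  set c' : (ZMod ℓ)⟮residue A a⟯ := ⟨residue A a, IntermediateField.mem_adjoin_simple_self _ _⟩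
    with hc'
  have hc'0 : c' ≠ 0 := by
    intro h0
    apply hc
    have := congrArg Subtype.val h0
    exact this
  have hpow := FiniteField.pow_card_sub_one_eq_one c' hc'0
  rw [hcard] at hpow
  have hf : 1 ≤ (f : ℕ) := f.pos
  have hlt : 1 < ℓ ^ (f : ℕ) := Nat.one_lt_pow (by omega) hℓ.one_lt
  refine ⟨ℓ ^ (f : ℕ) - 1, by omega, ?_, ?_⟩
  · intro hdvd
    have h1 : ℓ ∣ ℓ ^ (f : ℕ) := dvd_pow_self ℓ (by omega)
    have h2 : ℓ ∣ ℓ ^ (f : ℕ) - (ℓ ^ (f : ℕ) - 1) := Nat.dvd_sub h1 hdvd
    have h3 : ℓ ^ (f : ℕ) - (ℓ ^ (f : ℕ) - 1) = 1 := by omega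
    rw [h3] at h2
    exact hℓ.one_lt.ne' (Nat.dvd_one.mp h2)
  · have := congrArg Subtype.val hpow
    simpa using this

/-! ### Teichmüller lifts -/

include hℓ hA in
/-- Every nonzero element of the residue field of `A` is the reduction of a root of unity of
`Qbar` of order prime to `ℓ`. -/
theorem exists_rootOfUnity_residue_eq (c : ResidueField A) (hc : c ≠ 0) :
    ∃ (n : ℕ) (ζ : Qbar) (hζA : ζ ∈ A), n ≠ 0 ∧ ¬ ℓ ∣ n ∧ ζ ^ n = 1 ∧ residue A ⟨ζ, hζA⟩ = c := by
  obtain ⟨n, hn0, hn, hcn⟩ := exists_pow_eq_one_of_residue_ne_zero hℓ hA c hc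
  haveI : NeZero n := ⟨hn0⟩
  obtain ⟨ξ, hξ⟩ := HasEnoughRootsOfUnity.exists_primitiveRoot Qbar n
  have hξA : ξ ∈ A := mem_of_pow_eq_one hn0 hξ.pow_eq_one
  -- the reduction of `ξ` is again a primitive `n`-th root of unity
  have hprim : IsPrimitiveRoot (residue A ⟨ξ, hξA⟩) n := by
    refine IsPrimitiveRoot.mk_of_lt _ (Nat.pos_of_ne_zero hn0) ?_ ?_
    · rw [← map_pow]
      have : (⟨ξ, hξA⟩ : A) ^ n = 1 := Subtype.ext (by simpa using hξ.pow_eq_one)
      rw [this, map_one]
    · intro i hi0 hin h1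
      rw [← map_pow, ← sub_eq_zero, ← map_one (residue A), ← map_sub,
        residue_eq_zero_iff_mem_nonunits] at h1
      have h2 : (((⟨ξ, hξA⟩ : A) ^ i - 1 : A) : Qbar) = ξ ^ i - 1 := by push_cast; rfl
      rw [h2] at h1
      have h3 : ξ ^ i = 1 :=
        eq_of_sub_mem_nonunits hℓ hA hn0 hn (one_pow n)
          (by rw [← pow_mul, mul_comm, pow_mul, hξ.pow_eq_one, one_pow]) h1
      exact hξ.pow_ne_one_of_pos_of_lt hi0.ne' hin h3
  obtain ⟨i, -, hi⟩ := hprim.eq_pow_of_pow_eq_one hcn
  refine ⟨n, ξ ^ i, pow_mem hξA i, hn0, hn, ?_, ?_⟩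
  · rw [← pow_mul, mul_comm, pow_mul, hξ.pow_eq_one, one_pow]
  · rw [← hi, ← map_pow]
    rfl

/-! ### The residue map of `A0` -/

variable (A ℓ) in
/-- The inclusion `A0 = A ∩ ℚ(μ_m : ℓ ∤ m) → A`. -/
def inclA0 : A0 A ℓ →+* A where
  toFun x := ⟨((x : unrCyclo ℓ) : Qbar), x.2⟩
  map_one' := rfl
  map_mul' _ _ := rfl
  map_zero' := rfl
  map_add' _ _ := rfl

@[simp] theorem coe_inclA0 (x : A0 A ℓ) : ((inclA0 A ℓ x : A) : Qbar) = ((x : unrCyclo ℓ) : Qbar) :=
  rfl

theorem inclA0_injective : Function.Injective (inclA0 A ℓ) := by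
  intro x y h
  apply Subtype.ext
  apply Subtype.ext
  exact congrArg (fun z : A => (z : Qbar)) h

instance isLocalHom_inclA0 : IsLocalHom (inclA0 A ℓ) := by
  constructor
  intro x hx
  apply isUnit_A0_of_valuation_eq_one
  exact (A.valuation_eq_one_iff ⟨_, x.2⟩).mp hx

variable (A ℓ) in
/-- The residue map `A0 → ResidueField A`. -/
def resA0 : A0 A ℓ →+* ResidueField A := (residue A).comp (inclA0 A ℓ)

theorem resA0_apply (x : A0 A ℓ) : resA0 A ℓ x = residue A (inclA0 A ℓ x) := rfl

include hℓ hA in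
/-- `A0 → ResidueField A` is surjective: the residue field of `A` is already the residue field of
the discrete valuation ring `A0`. -/
theorem resA0_surjective : Function.Surjective (resA0 A ℓ) := by
  intro c
  by_cases hc : c = 0
  · exact ⟨0, by rw [map_zero, hc]⟩
  · obtain ⟨n, ζ, hζA, hn0, hn, hζn, hζc⟩ := exists_rootOfUnity_residue_eq hℓ hA c hc
    refine ⟨⟨⟨ζ, mem_unrCyclo_of_pow_eq_one hn0 hn hζn⟩, hζA⟩, ?_⟩
    rw [← hζc]
    rfl

theorem resA0_eq_zero_iff (x : A0 A ℓ) : resA0 A ℓ x = 0 ↔ x ∈ maximalIdeal (A0 A ℓ) := by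
  rw [resA0_apply, residue_eq_zero_iff, mem_maximalIdeal, mem_maximalIdeal, mem_nonunits_iff,
    mem_nonunits_iff]
  constructor
  · intro h hx
    exact h (hx.map (inclA0 A ℓ))
  · intro h hx
    exact h (isUnit_of_map_unit (inclA0 A ℓ) x hx)

theorem ker_resA0 : RingHom.ker (resA0 A ℓ) = maximalIdeal (A0 A ℓ) := by
  ext x
  rw [RingHom.mem_ker, resA0_eq_zero_iff]

include hℓ hA in
/-- The maximal ideal of `A0` is generated by `ℓ`. -/
theorem maximalIdeal_A0_eq : maximalIdeal (A0 A ℓ) = Ideal.span {((ℓ : ℕ) : A0 A ℓ)} := by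
  haveI := isDiscreteValuationRing_A0 hℓ hA
  exact (IsDiscreteValuationRing.irreducible_iff_uniformizer _).mp (irreducible_natCast_A0 hℓ hA)

include hℓ hA in
theorem ker_resA0_eq_span : RingHom.ker (resA0 A ℓ) = Ideal.span {((ℓ : ℕ) : A0 A ℓ)} := by
  rw [ker_resA0, maximalIdeal_A0_eq hℓ hA]

variable (A ℓ) in
/-- The map induced on residue fields by `A0 → A`. -/
def residueMapA0 : ResidueField (A0 A ℓ) →+* ResidueField A :=
  ResidueField.map (inclA0 A ℓ)

theorem residueMapA0_residue (x : A0 A ℓ) :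
    residueMapA0 A ℓ (residue (A0 A ℓ) x) = resA0 A ℓ x := rfl

include hℓ hA in
theorem residueMapA0_bijective : Function.Bijective (residueMapA0 A ℓ) := by
  refine ⟨(residueMapA0 A ℓ).injective, fun c => ?_⟩
  obtain ⟨x, hx⟩ := resA0_surjective hℓ hA c
  exact ⟨residue (A0 A ℓ) x, by rw [residueMapA0_residue, hx]⟩

/-- The residue field of the discrete valuation ring `A0` is the residue field of `A`. -/
def residueEquivA0 : ResidueField (A0 A ℓ) ≃+* ResidueField A :=
  RingEquiv.ofBijective (residueMapA0 A ℓ) (residueMapA0_bijective hℓ hA)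

@[simp] theorem residueEquivA0_residue (x : A0 A ℓ) :
    residueEquivA0 hℓ hA (residue (A0 A ℓ) x) = resA0 A ℓ x := rfl

include hℓ hA in
/-- The residue field of `A0` is algebraically closed. -/
theorem isAlgClosed_residueField_A0 : IsAlgClosed (ResidueField (A0 A ℓ)) :=
  IsAlgClosed.of_ringEquiv (ResidueField A) _ (residueEquivA0 hℓ hA).symm

/-! ### Finite extensions of `ℚ(μ_m : ℓ ∤ m)` -/

section Finite

variable (A) in
/-- `A` cut down to a field `E1 ⊇ ℚ(μ_m : ℓ ∤ m)`. -/
def cutOver (E1 : IntermediateField (unrCyclo ℓ) Qbar) : ValuationSubring E1 :=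
  A.comap (algebraMap E1 Qbar)

theorem mem_cutOver {E1 : IntermediateField (unrCyclo ℓ) Qbar} {x : E1} :
    x ∈ cutOver A E1 ↔ (x : Qbar) ∈ A := Iff.rfl

theorem comap_cutOver (E1 : IntermediateField (unrCyclo ℓ) Qbar) :
    (cutOver A E1).comap (algebraMap (unrCyclo ℓ) E1) = A0 A ℓ := by
  ext x
  rfl

include hℓ hA in
theorem cutOver_ne_top (E1 : IntermediateField (unrCyclo ℓ) Qbar) : cutOver A E1 ≠ ⊤ := by
  intro h
  have : ((ℓ : E1))⁻¹ ∈ cutOver A E1 := h ▸ ValuationSubring.mem_top _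
  rw [mem_cutOver] at this
  have h2 : (((ℓ : E1))⁻¹ : E1) = ((ℓ : Qbar))⁻¹ := by push_cast; rfl
  rw [h2] at this
  exact natCast_inv_notMem A hℓ hA this

include hℓ hA in
/-- `A ∩ E1` is a discrete valuation ring for every finite extension `E1 ⊆ Qbar` of
`ℚ(μ_m : ℓ ∤ m)`. -/
theorem isDiscreteValuationRing_cutOver (E1 : IntermediateField (unrCyclo ℓ) Qbar)
    [FiniteDimensional (unrCyclo ℓ) E1] : IsDiscreteValuationRing (cutOver A E1) := by
  refine isDiscreteValuationRing_of_comap (K := unrCyclo ℓ) (cutOver A E1)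
    (cutOver_ne_top hℓ hA E1) ?_
  rw [comap_cutOver]
  exact isDiscreteValuationRing_A0 hℓ hA

variable (A) in
/-- The inclusion `A ∩ E1 → A`. -/
def inclCutOver (E1 : IntermediateField (unrCyclo ℓ) Qbar) : cutOver A E1 →+* A where
  toFun x := ⟨((x : E1) : Qbar), x.2⟩
  map_one' := rfl
  map_mul' _ _ := rfl
  map_zero' := rfl
  map_add' _ _ := rfl

variable (A) in
/-- The inclusion `A0 → A ∩ E1`. -/
def inclA0CutOver (E1 : IntermediateField (unrCyclo ℓ) Qbar) : A0 A ℓ →+* cutOver A E1 where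
  toFun x := ⟨algebraMap (unrCyclo ℓ) E1 (x : unrCyclo ℓ), x.2⟩
  map_one' := Subtype.ext (map_one _)
  map_mul' _ _ := Subtype.ext (map_mul _ _ _)
  map_zero' := Subtype.ext (map_zero _)
  map_add' _ _ := Subtype.ext (map_add _ _ _)

theorem inclCutOver_comp (E1 : IntermediateField (unrCyclo ℓ) Qbar) :
    (inclCutOver A E1).comp (inclA0CutOver A E1) = inclA0 A ℓ := by
  ext x
  rfl

include hℓ hA in
/-- The residue field of `A` is already the residue field of `A ∩ E1`. -/
theorem residue_comp_inclCutOver_surjective (E1 : IntermediateField (unrCyclo ℓ) Qbar) :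
    Function.Surjective ((residue A).comp (inclCutOver A E1)) := by
  intro c
  obtain ⟨x, hx⟩ := resA0_surjective hℓ hA c
  refine ⟨inclA0CutOver A E1 x, ?_⟩
  rw [← hx]
  rfl

end Finite

end

end Fermat.Agent.S18.H45
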