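/-
S18 / DVR foundation (helper45), part 4: integers and roots of unity in `A0 = A ∩ ℚ(μ_m : ℓ ∤ m)`.

* `isUnit_natCast_A0`: a natural number prime to `ℓ` is a unit of `A0`.
* `natCast_eq_pow_mul_unit_A0`: every nonzero natural number is `ℓ ^ a` times a unit of `A0`
  (the replacement of a `ℚ`-algebra structure, which `A0` does not have).
* `exists_isPrimitiveRoot_A0`: `A0` contains a primitive `n`-th root of unity for every `n ≠ 0`
  prime to `ℓ`, and `isPrimitiveRoot_resA0`: its reduction in the residue field of `A` is still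
  a primitive `n`-th root of unity.
-/
import Mathlib
import Fermat.Agent.S18.H45_StrictDVRResidue

set_option autoImplicit false
set_option linter.unusedSectionVars false
set_option linter.style.haveILetI false

namespace Fermat.Agent.S18.H45

open IsLocalRing

noncomputable section

local notation "Qbar" => AlgebraicClosure ℚ

variable {A : ValuationSubring Qbar} {ℓ : ℕ} (hℓ : ℓ.Prime) (hA : A.LiesOverPrime ℓ)

/-- The embedding `A0 → Qbar`. -/
def toQbarA0 (A : ValuationSubring Qbar) (ℓ : ℕ) : A0 A ℓ →+* Qbar :=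
  A.subtype.comp (inclA0 A ℓ)

@[simp] theorem toQbarA0_apply (x : A0 A ℓ) : toQbarA0 A ℓ x = ((x : unrCyclo ℓ) : Qbar) := rfl

theorem toQbarA0_injective : Function.Injective (toQbarA0 A ℓ) := by
  intro x y h
  apply Subtype.ext
  apply Subtype.ext
  exact h

instance charZero_A0 : CharZero (A0 A ℓ) :=
  (toQbarA0 A ℓ).charZero

theorem natCast_ne_zero_A0 {n : ℕ} (hn : n ≠ 0) : ((n : ℕ) : A0 A ℓ) ≠ 0 :=
  Nat.cast_ne_zero.mpr hn

include hℓ hA in
/-- A natural number prime to `ℓ` is a unit of `A0`. -/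
theorem isUnit_natCast_A0 {n : ℕ} (hn : ¬ ℓ ∣ n) : IsUnit ((n : ℕ) : A0 A ℓ) := by
  apply isUnit_A0_of_valuation_eq_one
  have h1 : ((((n : ℕ) : A0 A ℓ) : unrCyclo ℓ) : Qbar) = (n : Qbar) := by
    exact map_natCast (toQbarA0 A ℓ) n
  rw [h1]
  have h2 : (n : Qbar) ∉ A.nonunits := natCast_notMem_nonunits hℓ hA hn
  have h3 : A.valuation (n : Qbar) ≤ 1 := by
    rw [A.valuation_le_one_iff]
    exact natCast_mem A n
  rw [A.mem_nonunits_iff, not_lt] at h2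
  exact le_antisymm h3 h2

include hℓ hA in
/-- Every nonzero natural number is a power of `ℓ` times a unit of `A0`. -/
theorem natCast_eq_pow_mul_unit_A0 (n : ℕ) (hn : n ≠ 0) :
    ∃ (a : ℕ) (u : (A0 A ℓ)ˣ), ((n : ℕ) : A0 A ℓ) = ((ℓ : ℕ) : A0 A ℓ) ^ a * u := by
  obtain ⟨a, m, hm, rfl⟩ := Nat.exists_eq_pow_mul_and_not_dvd hn ℓ hℓ.ne_one
  refine ⟨a, (isUnit_natCast_A0 hℓ hA hm).unit, ?_⟩
  rw [IsUnit.unit_spec]
  push_cast
  rfl

include hℓ hA in
/-- The same statement in any `A0`-algebra. -/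
theorem natCast_eq_pow_mul_unit_of_algebra (R : Type*) [CommRing R] [Algebra (A0 A ℓ) R]
    (n : ℕ) (hn : n ≠ 0) :
    ∃ (a : ℕ) (u : Rˣ), ((n : ℕ) : R) = ((ℓ : ℕ) : R) ^ a * u := by
  obtain ⟨a, u, hu⟩ := natCast_eq_pow_mul_unit_A0 hℓ hA n hn
  refine ⟨a, Units.map (algebraMap (A0 A ℓ) R).toMonoidHom u, ?_⟩
  have := congrArg (algebraMap (A0 A ℓ) R) hu
  rw [map_natCast, map_mul, map_pow, map_natCast] at this
  rw [this]
  rfl

/-! ### Roots of unity -/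

include hℓ hA in
/-- The reduction of a primitive `n`-th root of unity, `ℓ ∤ n`, is a primitive `n`-th root of
unity of the residue field. -/
theorem isPrimitiveRoot_residue {n : ℕ} (hn0 : n ≠ 0) (hn : ¬ ℓ ∣ n) {ξ : Qbar}
    (hξ : IsPrimitiveRoot ξ n) (hξA : ξ ∈ A) : IsPrimitiveRoot (residue A ⟨ξ, hξA⟩) n := by
  refine IsPrimitiveRoot.mk_of_lt _ (Nat.pos_of_ne_zero hn0) ?_ ?_
  · rw [← map_pow]
    have : (⟨ξ, hξA⟩ : A) ^ n = 1 := Subtype.ext (by simpa using hξ.pow_eq_one)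
    rw [this, map_one]
  · intro i hi0 hin h1
    rw [← map_pow, ← sub_eq_zero, ← map_one (residue A), ← map_sub,
      residue_eq_zero_iff_mem_nonunits] at h1
    have h2 : (((⟨ξ, hξA⟩ : A) ^ i - 1 : A) : Qbar) = ξ ^ i - 1 := by push_cast; rfl
    rw [h2] at h1
    have h3 : ξ ^ i = 1 :=
      eq_of_sub_mem_nonunits hℓ hA hn0 hn (one_pow n)
        (by rw [← pow_mul, mul_comm, pow_mul, hξ.pow_eq_one, one_pow]) h1
    exact hξ.pow_ne_one_of_pos_of_lt hi0.ne' hin h3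

include hℓ hA in
/-- The reduction of a primitive `n`-th root of unity of `A0`, `ℓ ∤ n`, is a primitive `n`-th root
of unity of the residue field of `A`. -/
theorem isPrimitiveRoot_resA0 {n : ℕ} (hn0 : n ≠ 0) (hn : ¬ ℓ ∣ n) {ζ : A0 A ℓ}
    (hζ : IsPrimitiveRoot ζ n) : IsPrimitiveRoot (resA0 A ℓ ζ) n := by
  have h1 : IsPrimitiveRoot (toQbarA0 A ℓ ζ) n := hζ.map_of_injective toQbarA0_injective
  exact isPrimitiveRoot_residue hℓ hA hn0 hn h1 ζ.2

/-- `A0` contains a primitive `n`-th root of unity for every `n ≠ 0` prime to `ℓ`. -/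
theorem exists_isPrimitiveRoot_A0 (A : ValuationSubring Qbar) {n : ℕ} (hn0 : n ≠ 0)
    (hn : ¬ ℓ ∣ n) : ∃ ζ : A0 A ℓ, IsPrimitiveRoot ζ n := by
  haveI : NeZero n := ⟨hn0⟩
  obtain ⟨ξ, hξ⟩ := HasEnoughRootsOfUnity.exists_primitiveRoot Qbar n
  have hξA : ξ ∈ A := mem_of_pow_eq_one hn0 hξ.pow_eq_one
  have hξL : ξ ∈ unrCyclo ℓ := mem_unrCyclo_of_pow_eq_one hn0 hn hξ.pow_eq_one
  refine ⟨⟨⟨ξ, hξL⟩, hξA⟩, ?_⟩
  refine IsPrimitiveRoot.of_map_of_injective (f := toQbarA0 A ℓ) ?_ toQbarA0_injective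
  exact hξ

/-- `ℚ(μ_m : ℓ ∤ m)` contains a primitive `n`-th root of unity for every `n ≠ 0` prime to `ℓ`. -/
theorem exists_isPrimitiveRoot_unrCyclo {n : ℕ} (hn0 : n ≠ 0) (hn : ¬ ℓ ∣ n) :
    ∃ ζ : unrCyclo ℓ, IsPrimitiveRoot ζ n := by
  haveI : NeZero n := ⟨hn0⟩
  obtain ⟨ξ, hξ⟩ := HasEnoughRootsOfUnity.exists_primitiveRoot Qbar n
  have hξL : ξ ∈ unrCyclo ℓ := mem_unrCyclo_of_pow_eq_one hn0 hn hξ.pow_eq_one
  refine ⟨⟨ξ, hξL⟩, ?_⟩
  refine IsPrimitiveRoot.of_map_of_injective (f := algebraMap (unrCyclo ℓ) Qbar) ?_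
    (algebraMap (unrCyclo ℓ) Qbar).injective
  exact hξ

end

end Fermat.Agent.S18.H45
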