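/-
S18 / DVR foundation (helper45), part 5: typeclass plumbing for `A₁ := A0 A ℓ`, `L1 := unrCyclo ℓ`.

Several instances that every consumer of `A0 A ℓ` needs are either not found by instance synthesis
(`Algebra.IsAlgebraic (unrCyclo ℓ) Qbar`, `IsAlgClosure (unrCyclo ℓ) Qbar`) or exceed the default
`synthInstance.maxHeartbeats` (`FaithfulSMul (A0 A ℓ) (unrCyclo ℓ)`,
`Module.IsTorsionFree (A0 A ℓ) (unrCyclo ℓ)`, the same over `Qbar`).  They are provided here as
shortcut instances, together with the standard ring-theoretic facts about `ℓ ∈ A0 A ℓ`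
(prime, generates the maximal ideal, `A₁[X] → k[X]` is surjective with kernel `(ℓ)`).
-/
import Mathlib
import Fermat.Agent.S18.H45_StrictDVRRoots

set_option autoImplicit false
set_option linter.unusedSectionVars false
set_option linter.style.haveILetI false

namespace Fermat.Agent.S18.H45

open IsLocalRing Polynomial

noncomputable section

local notation "Qbar" => AlgebraicClosure ℚ

variable {A : ValuationSubring Qbar} {ℓ : ℕ}

/-! ### Shortcut instances -/

theorem algebraMap_A0_unrCyclo_injective :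
    Function.Injective (algebraMap (A0 A ℓ) (unrCyclo ℓ)) := Subtype.val_injective

instance faithfulSMul_A0_unrCyclo : FaithfulSMul (A0 A ℓ) (unrCyclo ℓ) :=
  (faithfulSMul_iff_algebraMap_injective _ _).mpr algebraMap_A0_unrCyclo_injective

instance isTorsionFree_A0_unrCyclo : Module.IsTorsionFree (A0 A ℓ) (unrCyclo ℓ) :=
  Module.isTorsionFree_iff_algebraMap_injective.mpr algebraMap_A0_unrCyclo_injective

theorem algebraMap_A0_Qbar_injective : Function.Injective (algebraMap (A0 A ℓ) Qbar) := by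
  rw [IsScalarTower.algebraMap_eq (A0 A ℓ) (unrCyclo ℓ) Qbar]
  exact (algebraMap (unrCyclo ℓ) Qbar).injective.comp algebraMap_A0_unrCyclo_injective

theorem algebraMap_A0_Qbar_apply (x : A0 A ℓ) :
    algebraMap (A0 A ℓ) Qbar x = ((x : unrCyclo ℓ) : Qbar) := rfl

instance faithfulSMul_A0_Qbar : FaithfulSMul (A0 A ℓ) Qbar :=
  (faithfulSMul_iff_algebraMap_injective _ _).mpr algebraMap_A0_Qbar_injective

instance isTorsionFree_A0_Qbar : Module.IsTorsionFree (A0 A ℓ) Qbar :=
  Module.isTorsionFree_iff_algebraMap_injective.mpr algebraMap_A0_Qbar_injective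

instance isAlgebraic_unrCyclo_Qbar : Algebra.IsAlgebraic (unrCyclo ℓ) Qbar :=
  haveI : Algebra.IsAlgebraic ℚ Qbar := AlgebraicClosure.isAlgebraic ℚ
  Algebra.IsAlgebraic.tower_top (K := ℚ) (unrCyclo ℓ)

instance isAlgClosure_unrCyclo_Qbar : IsAlgClosure (unrCyclo ℓ) Qbar :=
  ⟨inferInstance, inferInstance⟩

instance isAlgebraic_rat_unrCyclo : Algebra.IsAlgebraic ℚ (unrCyclo ℓ) :=
  haveI : Algebra.IsAlgebraic ℚ Qbar := AlgebraicClosure.isAlgebraic ℚ
  Algebra.IsAlgebraic.tower_bot (K := ℚ) (L := unrCyclo ℓ) (A := Qbar)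

/-! ### The prime `ℓ` of `A0` -/

variable (hℓ : ℓ.Prime) (hA : A.LiesOverPrime ℓ)

include hℓ hA in
theorem prime_natCast_A0 : Prime ((ℓ : ℕ) : A0 A ℓ) := by
  haveI := isDiscreteValuationRing_A0 hℓ hA
  exact (irreducible_natCast_A0 hℓ hA).prime

include hℓ hA in
theorem span_natCast_A0_isMaximal : (Ideal.span {((ℓ : ℕ) : A0 A ℓ)}).IsMaximal := by
  rw [← maximalIdeal_A0_eq hℓ hA]
  infer_instance

include hℓ hA in
theorem span_natCast_A0_isPrime : (Ideal.span {((ℓ : ℕ) : A0 A ℓ)}).IsPrime :=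
  (span_natCast_A0_isMaximal hℓ hA).isPrime

include hℓ hA in
theorem resA0_natCast_eq_zero : resA0 A ℓ ((ℓ : ℕ) : A0 A ℓ) = 0 := by
  rw [← RingHom.mem_ker, ker_resA0_eq_span hℓ hA]
  exact Ideal.mem_span_singleton_self _

include hℓ hA in
theorem resA0_eq_zero_iff_dvd (x : A0 A ℓ) : resA0 A ℓ x = 0 ↔ ((ℓ : ℕ) : A0 A ℓ) ∣ x := by
  rw [← RingHom.mem_ker, ker_resA0_eq_span hℓ hA, Ideal.mem_span_singleton]

/-- The `A0`-algebra structure of the residue field of `A` (not an instance: install it with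
`letI := algebraResidueFieldA0 A ℓ`). -/
abbrev algebraResidueFieldA0 (A : ValuationSubring Qbar) (ℓ : ℕ) :
    Algebra (A0 A ℓ) (ResidueField A) := (resA0 A ℓ).toAlgebra

theorem algebraMap_residueField_A0 :
    @algebraMap (A0 A ℓ) (ResidueField A) _ _ (algebraResidueFieldA0 A ℓ) = resA0 A ℓ := rfl

include hℓ hA in
/-- `A0 ⧸ (ℓ) ≃+* ResidueField A`. -/
def quotientSpanEquivResidueField :
    (A0 A ℓ ⧸ Ideal.span {((ℓ : ℕ) : A0 A ℓ)}) ≃+* ResidueField A :=
  (Ideal.quotEquivOfEq (ker_resA0_eq_span hℓ hA).symm).trans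
    (RingHom.quotientKerEquivOfSurjective (resA0_surjective hℓ hA))

theorem quotientSpanEquivResidueField_mk (x : A0 A ℓ) :
    quotientSpanEquivResidueField hℓ hA (Ideal.Quotient.mk _ x) = resA0 A ℓ x := rfl

/-! ### Polynomials -/

include hℓ hA in
theorem mapRingHom_resA0_surjective :
    Function.Surjective (Polynomial.mapRingHom (resA0 A ℓ)) :=
  Polynomial.map_surjective _ (resA0_surjective hℓ hA)

include hℓ hA in
theorem ker_mapRingHom_resA0 :
    RingHom.ker (Polynomial.mapRingHom (resA0 A ℓ)) =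
      Ideal.span {(C ((ℓ : ℕ) : A0 A ℓ) : (A0 A ℓ)[X])} := by
  rw [Polynomial.ker_mapRingHom, ker_resA0_eq_span hℓ hA, Ideal.map_span, Set.image_singleton]

include hℓ hA in
theorem map_resA0_eq_zero_iff (p : (A0 A ℓ)[X]) :
    p.map (resA0 A ℓ) = 0 ↔ C ((ℓ : ℕ) : A0 A ℓ) ∣ p := by
  have := ker_mapRingHom_resA0 hℓ hA
  rw [← Ideal.mem_span_singleton, ← this, RingHom.mem_ker]
  rfl

include hℓ hA in
theorem prime_C_natCast_A0 : Prime (C ((ℓ : ℕ) : A0 A ℓ) : (A0 A ℓ)[X]) :=
  Polynomial.prime_C_iff.mpr (prime_natCast_A0 hℓ hA)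

include hℓ hA in
/-- Every polynomial over the residue field of `A` lifts to `A0[X]` with the same degree. -/
theorem exists_map_resA0_eq (p : (ResidueField A)[X]) :
    ∃ q : (A0 A ℓ)[X], q.map (resA0 A ℓ) = p ∧ q.degree = p.degree := by
  have hp : p ∈ Polynomial.lifts (resA0 A ℓ) := by
    rw [Polynomial.mem_lifts]
    exact mapRingHom_resA0_surjective hℓ hA p
  exact Polynomial.exists_degree_eq_of_mem_lifts hp

include hℓ hA in
/-- Every element of the residue field lifts to `A0`. -/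
theorem exists_resA0_eq (c : ResidueField A) : ∃ a : A0 A ℓ, resA0 A ℓ a = c :=
  resA0_surjective hℓ hA c

end

end Fermat.Agent.S18.H45
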