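/-
S18 / DVR foundation (helper45), part 7 (generic library; prepared for the Stage-4 row (R-a3)):
the base of the inertia action.

`K1 := S18.H45.unrCyclo ℓ = ℚ(μ_m : ℓ ∤ m) ⊆ Qbar`, `A1 := S18.H45.A0 A ℓ = A ∩ K1` (a DVR with
uniformiser `ℓ` and algebraically closed residue field; NOT henselian), `E` a finite (normal)
extension of `K1` inside `Qbar`, `A'' := S18.H45.cutOver A E = A ∩ E`.

* `inertia_apply_unrCyclo`, `inertiaToK1` : every `σ` of the frozen inertia group at `A` fixes `K1`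
  pointwise, hence is a `K1`-automorphism of `Qbar`;
* `exists_finite_galois_ge` : every finite subset of `Qbar` lies in a finite Galois `E / K1`;
* `inertiaActE`, `inertiaActCutOver`, `inertiaActCutOver_sub_mem` : for `E / K1` normal, `σ` acts on
  `E` and on `A ∩ E`, trivially modulo the maximal ideal;
* `residueEquivCutOver` : the residue field of `A ∩ E` is the residue field of `A`;
  `exists_A0_sub_mem` : `A ∩ E = A1 + 𝔪''`;
* `exists_uniformizer_cutOver` : `ℓ = u * π'' ^ e`.
-/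
import Mathlib
import Fermat.Agent.S18.H45_A0Instances

set_option autoImplicit false
set_option linter.unusedSectionVars false
set_option linter.style.haveILetI false

namespace Fermat.Agent.S18.H45

open IsLocalRing
open scoped Pointwise

noncomputable section

local notation "Qbar" => AlgebraicClosure ℚ

variable {A : ValuationSubring Qbar} {ℓ : ℕ} (hℓ : ℓ.Prime) (hA : A.LiesOverPrime ℓ)

/-! ### (a) inertia fixes `K1` -/

include hℓ hA in
/-- The frozen inertia group at `A` fixes `ℚ(μ_m : ℓ ∤ m)` pointwise. -/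
theorem inertia_apply_unrCyclo {σ : Qbar ≃ₐ[ℚ] Qbar} (hσ : σ ∈ A.inertiaSubgroupIn ℚ)
    (x : unrCyclo ℓ) : σ (x : Qbar) = x := by
  have h := inertia_le_fixingSubgroup_unrCyclo hℓ hA hσ
  rw [IntermediateField.mem_fixingSubgroup_iff] at h
  exact h x x.2

/-- An inertia element as a `K1`-algebra automorphism of `Qbar`. -/
def inertiaToK1 (σ : Qbar ≃ₐ[ℚ] Qbar) (hσ : σ ∈ A.inertiaSubgroupIn ℚ) :
    Qbar ≃ₐ[unrCyclo ℓ] Qbar :=
  { σ.toRingEquiv with
    commutes' := fun x => inertia_apply_unrCyclo hℓ hA hσ x }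

@[simp] theorem inertiaToK1_apply (σ : Qbar ≃ₐ[ℚ] Qbar) (hσ : σ ∈ A.inertiaSubgroupIn ℚ)
    (x : Qbar) : inertiaToK1 hℓ hA σ hσ x = σ x := rfl

/-! ### (b) finite Galois extensions of `K1` -/

/-- Every finite subset of `Qbar` lies in a finite Galois extension of `K1` inside `Qbar`. -/
theorem exists_finite_galois_ge (ℓ : ℕ) (S : Finset Qbar) :
    ∃ E : IntermediateField (unrCyclo ℓ) Qbar, FiniteDimensional (unrCyclo ℓ) E ∧
      IsGalois (unrCyclo ℓ) E ∧ ∀ x ∈ S, x ∈ E := by
  let E0 : IntermediateField (unrCyclo ℓ) Qbar :=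
    IntermediateField.adjoin (unrCyclo ℓ) (S : Set Qbar)
  haveI : FiniteDimensional (unrCyclo ℓ) E0 :=
    IntermediateField.finiteDimensional_adjoin
      (fun x _ => (Algebra.IsAlgebraic.isAlgebraic x).isIntegral)
  haveI : Normal (unrCyclo ℓ) Qbar := IsAlgClosure.normal _ _
  refine ⟨IntermediateField.normalClosure (unrCyclo ℓ) E0 Qbar, inferInstance, ?_, ?_⟩
  · haveI : Normal (unrCyclo ℓ) (IntermediateField.normalClosure (unrCyclo ℓ) E0 Qbar) :=
      inferInstance
    exact ⟨⟩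
  · intro x hx
    exact IntermediateField.le_normalClosure E0
      (IntermediateField.subset_adjoin _ _ (Finset.mem_coe.mpr hx))

/-! ### (c) the action on `E` and on `A ∩ E` -/

variable (E : IntermediateField (unrCyclo ℓ) Qbar)

/-- The restriction of an inertia element to a normal extension `E / K1`. -/
def inertiaActE [Normal (unrCyclo ℓ) E] (σ : Qbar ≃ₐ[ℚ] Qbar)
    (hσ : σ ∈ A.inertiaSubgroupIn ℚ) : E ≃ₐ[unrCyclo ℓ] E :=
  (inertiaToK1 hℓ hA σ hσ).restrictNormal E

@[simp] theorem coe_inertiaActE [Normal (unrCyclo ℓ) E] (σ : Qbar ≃ₐ[ℚ] Qbar)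
    (hσ : σ ∈ A.inertiaSubgroupIn ℚ) (x : E) :
    ((inertiaActE hℓ hA E σ hσ x : E) : Qbar) = σ (x : Qbar) :=
  AlgEquiv.restrictNormal_commutes (inertiaToK1 hℓ hA σ hσ) E x

theorem apply_mem_of_mem_inertia {σ : Qbar ≃ₐ[ℚ] Qbar} (hσ : σ ∈ A.inertiaSubgroupIn ℚ)
    {x : Qbar} (hx : x ∈ A) : σ x ∈ A := by
  have hdec : σ ∈ A.decompositionSubgroup ℚ :=
    (Fermat.Agent.S14.H54.mem_inertiaSubgroupIn_iff.mp hσ).1
  have h1 : σ • A = A := hdec
  have h2 : σ • x ∈ σ • A := ValuationSubring.smul_mem_pointwise_smul_iff.mpr hx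
  rw [h1] at h2
  exact h2

theorem valuation_inertia_apply_sub_lt_one {σ : Qbar ≃ₐ[ℚ] Qbar} (hσ : σ ∈ A.inertiaSubgroupIn ℚ)
    {x : Qbar} (hx : x ∈ A) : A.valuation (σ x - x) < 1 :=
  A.mem_nonunits_iff.mp
    ((Fermat.Agent.S14.H54.mem_inertiaSubgroupIn_iff.mp hσ).2 x hx)

/-- An inertia element acts on `A ∩ E` (`E / K1` normal). -/
def inertiaActCutOver [Normal (unrCyclo ℓ) E] (σ : Qbar ≃ₐ[ℚ] Qbar)
    (hσ : σ ∈ A.inertiaSubgroupIn ℚ) : cutOver A E ≃+* cutOver A E where
  toFun x := ⟨inertiaActE hℓ hA E σ hσ x, by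
    rw [mem_cutOver, coe_inertiaActE]
    exact apply_mem_of_mem_inertia hσ (mem_cutOver.mp x.2)⟩
  invFun x := ⟨inertiaActE hℓ hA E σ⁻¹ (inv_mem hσ) x, by
    rw [mem_cutOver, coe_inertiaActE]
    exact apply_mem_of_mem_inertia (inv_mem hσ) (mem_cutOver.mp x.2)⟩
  left_inv x := by
    apply Subtype.ext
    apply Subtype.ext
    show ((inertiaActE hℓ hA E σ⁻¹ (inv_mem hσ) (inertiaActE hℓ hA E σ hσ x) : E) : Qbar) = _
    rw [coe_inertiaActE, coe_inertiaActE]
    show (σ⁻¹ * σ) ((x : E) : Qbar) = _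
    rw [inv_mul_cancel]
    rfl
  right_inv x := by
    apply Subtype.ext
    apply Subtype.ext
    show ((inertiaActE hℓ hA E σ hσ (inertiaActE hℓ hA E σ⁻¹ (inv_mem hσ) x) : E) : Qbar) = _
    rw [coe_inertiaActE, coe_inertiaActE]
    show (σ * σ⁻¹) ((x : E) : Qbar) = _
    rw [mul_inv_cancel]
    rfl
  map_mul' x y := by
    apply Subtype.ext
    exact map_mul (inertiaActE hℓ hA E σ hσ) (x : E) (y : E)
  map_add' x y := by
    apply Subtype.ext
    exact map_add (inertiaActE hℓ hA E σ hσ) (x : E) (y : E)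

@[simp] theorem coe_inertiaActCutOver [Normal (unrCyclo ℓ) E] (σ : Qbar ≃ₐ[ℚ] Qbar)
    (hσ : σ ∈ A.inertiaSubgroupIn ℚ) (x : cutOver A E) :
    (((inertiaActCutOver hℓ hA E σ hσ x : cutOver A E) : E) : Qbar) = σ ((x : E) : Qbar) :=
  coe_inertiaActE hℓ hA E σ hσ x

/-- The action on `A ∩ E` fixes the image of `A1 = A ∩ K1`. -/
theorem inertiaActCutOver_inclA0 [Normal (unrCyclo ℓ) E] (σ : Qbar ≃ₐ[ℚ] Qbar)
    (hσ : σ ∈ A.inertiaSubgroupIn ℚ) (a : A0 A ℓ) :
    inertiaActCutOver hℓ hA E σ hσ (inclA0CutOver A E a) = inclA0CutOver A E a := by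
  apply Subtype.ext
  apply Subtype.ext
  rw [coe_inertiaActCutOver]
  exact inertia_apply_unrCyclo hℓ hA hσ (a : unrCyclo ℓ)

/-! ### units and the maximal ideal of `A ∩ E` -/

theorem isUnit_cutOver_iff (x : cutOver A E) :
    IsUnit x ↔ IsUnit (inclCutOver A E x) := by
  constructor
  · intro h
    exact h.map (inclCutOver A E)
  · intro h
    obtain ⟨u, hu⟩ := h
    have hx0 : (x : E) ≠ 0 := by
      intro h0
      have h1 : ((u : A) : Qbar) = 0 := by
        rw [hu]
        show (((x : E)) : Qbar) = 0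
        rw [h0]
        rfl
      have h2 : (u : A) = 0 := Subtype.ext h1
      exact u.ne_zero h2
    have hinv : ((x : E))⁻¹ ∈ cutOver A E := by
      rw [mem_cutOver]
      have h3 : ((((x : E))⁻¹ : E) : Qbar) = (((u⁻¹ : Aˣ) : A) : Qbar) := by
        have h4 : ((x : E) : Qbar) * (((u⁻¹ : Aˣ) : A) : Qbar) = 1 := by
          have h5 : ((u : A) : Qbar) = ((x : E) : Qbar) := by rw [hu]; rfl
          rw [← h5]
          have h6 : ((u : A) * ((u⁻¹ : Aˣ) : A) : A) = 1 := by simp
          exact congrArg (fun z : A => (z : Qbar)) h6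
        have h7 : ((((x : E))⁻¹ : E) : Qbar) = (((x : E)) : Qbar)⁻¹ := by simp
        rw [h7]
        exact inv_eq_of_mul_eq_one_right h4
      rw [h3]
      exact ((u⁻¹ : Aˣ) : A).2
    refine isUnit_iff_exists_inv.mpr ⟨⟨((x : E))⁻¹, hinv⟩, ?_⟩
    apply Subtype.ext
    show (x : E) * ((x : E))⁻¹ = 1
    exact mul_inv_cancel₀ hx0

instance isLocalHom_inclCutOver : IsLocalHom (inclCutOver A E) :=
  ⟨fun x hx => (isUnit_cutOver_iff E x).mpr hx⟩

theorem mem_maximalIdeal_cutOver_iff (x : cutOver A E) :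
    x ∈ maximalIdeal (cutOver A E) ↔ A.valuation (((x : E)) : Qbar) < 1 := by
  rw [mem_maximalIdeal, mem_nonunits_iff, isUnit_cutOver_iff]
  have h1 : ¬ IsUnit (inclCutOver A E x) ↔ inclCutOver A E x ∈ maximalIdeal A := by
    rw [mem_maximalIdeal, mem_nonunits_iff]
  rw [h1]
  exact A.valuation_lt_one_iff (inclCutOver A E x)

/-- An inertia element acts trivially on `A ∩ E` modulo its maximal ideal. -/
theorem inertiaActCutOver_sub_mem [Normal (unrCyclo ℓ) E] (σ : Qbar ≃ₐ[ℚ] Qbar)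
    (hσ : σ ∈ A.inertiaSubgroupIn ℚ) (x : cutOver A E) :
    inertiaActCutOver hℓ hA E σ hσ x - x ∈ maximalIdeal (cutOver A E) := by
  rw [mem_maximalIdeal_cutOver_iff]
  have h : ((((inertiaActCutOver hℓ hA E σ hσ x - x : cutOver A E) : E)) : Qbar) =
      σ ((x : E) : Qbar) - ((x : E) : Qbar) := by
    rw [← coe_inertiaActCutOver hℓ hA E σ hσ x]
    rfl
  rw [h]
  exact valuation_inertia_apply_sub_lt_one hσ (mem_cutOver.mp x.2)

/-! ### (d) the residue field of `A ∩ E` -/

/-- The map induced on residue fields by `A ∩ E → A`. -/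
def residueMapCutOver : ResidueField (cutOver A E) →+* ResidueField A :=
  ResidueField.map (inclCutOver A E)

theorem residueMapCutOver_residue (x : cutOver A E) :
    residueMapCutOver E (residue (cutOver A E) x) = residue A (inclCutOver A E x) := rfl

include hℓ hA in
theorem residueMapCutOver_bijective : Function.Bijective (residueMapCutOver (A := A) E) := by
  refine ⟨(residueMapCutOver E).injective, fun c => ?_⟩
  obtain ⟨x, hx⟩ := residue_comp_inclCutOver_surjective hℓ hA E c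
  exact ⟨residue (cutOver A E) x, by rw [residueMapCutOver_residue]; exact hx⟩

/-- The residue field of `A ∩ E` is the residue field of `A`. -/
def residueEquivCutOver : ResidueField (cutOver A E) ≃+* ResidueField A :=
  RingEquiv.ofBijective (residueMapCutOver E) (residueMapCutOver_bijective hℓ hA E)

@[simp] theorem residueEquivCutOver_residue (x : cutOver A E) :
    residueEquivCutOver hℓ hA E (residue (cutOver A E) x) = residue A (inclCutOver A E x) := rfl

include hℓ hA in
/-- The residue field of `A ∩ E` is algebraically closed. -/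
theorem isAlgClosed_residueField_cutOver : IsAlgClosed (ResidueField (cutOver A E)) :=
  IsAlgClosed.of_ringEquiv (ResidueField A) _ (residueEquivCutOver hℓ hA E).symm

include hℓ hA in
/-- `A ∩ E = A1 + 𝔪''`: every element of `A ∩ E` is congruent to an element of `A1 = A ∩ K1`. -/
theorem exists_A0_sub_mem (x : cutOver A E) :
    ∃ a : A0 A ℓ, x - inclA0CutOver A E a ∈ maximalIdeal (cutOver A E) := by
  obtain ⟨a, ha⟩ := resA0_surjective hℓ hA (residue A (inclCutOver A E x))
  refine ⟨a, ?_⟩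
  rw [← residue_eq_zero_iff, map_sub, sub_eq_zero]
  apply (residueMapCutOver (A := A) E).injective
  rw [residueMapCutOver_residue, residueMapCutOver_residue, ← ha]
  rfl

/-! ### the uniformiser of `A ∩ E` -/

include hℓ hA in
theorem natCast_mem_maximalIdeal_cutOver :
    ((ℓ : ℕ) : cutOver A E) ∈ maximalIdeal (cutOver A E) := by
  rw [mem_maximalIdeal_cutOver_iff]
  have h : ((((ℓ : ℕ) : cutOver A E) : E) : Qbar) = (ℓ : Qbar) := by
    push_cast
    rfl
  rw [h]
  exact A.mem_nonunits_iff.mp hA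

include hℓ hA in
/-- `ℓ = u * π'' ^ e` in the discrete valuation ring `A ∩ E`. -/
theorem exists_uniformizer_cutOver [FiniteDimensional (unrCyclo ℓ) E] :
    ∃ (π : cutOver A E) (e : ℕ) (u : (cutOver A E)ˣ), Irreducible π ∧ 0 < e ∧
      ((ℓ : ℕ) : cutOver A E) = u * π ^ e ∧
      maximalIdeal (cutOver A E) = Ideal.span {π} := by
  haveI := isDiscreteValuationRing_cutOver hℓ hA E
  obtain ⟨π, hπ⟩ := IsDiscreteValuationRing.exists_irreducible (cutOver A E)
  have hℓ0 : ((ℓ : ℕ) : cutOver A E) ≠ 0 := by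
    intro h0
    have h1 := congrArg (fun z : cutOver A E => ((z : E) : Qbar)) h0
    have h2 : ((((ℓ : ℕ) : cutOver A E) : E) : Qbar) = (ℓ : Qbar) := by
      push_cast
      rfl
    simp only [h2] at h1
    have h3 : ((ℓ : ℕ) : Qbar) ≠ 0 := Nat.cast_ne_zero.mpr hℓ.ne_zero
    exact h3 (by simpa using h1)
  obtain ⟨e, u, hu⟩ := IsDiscreteValuationRing.eq_unit_mul_pow_irreducible hℓ0 hπ
  refine ⟨π, e, u, hπ, ?_, hu, (IsDiscreteValuationRing.irreducible_iff_uniformizer π).mp hπ⟩
  rcases Nat.eq_zero_or_pos e with h0 | h0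
  · exfalso
    rw [h0, pow_zero, mul_one] at hu
    have hm := natCast_mem_maximalIdeal_cutOver hℓ hA E
    rw [hu, mem_maximalIdeal, mem_nonunits_iff] at hm
    exact hm u.isUnit
  · exact h0

end

end Fermat.Agent.S18.H45
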