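import Mathlib
import Fermat.Agent.S18.H16_FbarBasics
import Fermat.Agent.S18.H16_FKGen
import Fermat.Agent.S24.H40_Generation

/-!
S18 / INST-1 (F1-BASICS, helper99): the function field `FK = K(j(q^d) : d ∣ N) ⊆ K((q))` of `X₀(N)`
over a field `K` of CHARACTERISTIC ZERO (the characteristic-`0` twin of helper16's (B5)
`S18/H16_FbarBasics`, which treats characteristic `ℓ ∤ N`), and the coefficientwise comparison maps.

Notation: `jK K N`, `jNK K N`, `modPolyK K N Φ`, `ratEquiv K N` are helper16's (namespace `S18.H16`),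
generic in the field `K`.

* `irreducible_redModPoly_charZero`, `separable_redModPoly_charZero` : `Φ_N` is irreducible and
  separable over `K(Y)` for EVERY field `K` of characteristic `0` (S28's induction over the level
  works over every algebraically closed field in which `N ≠ 0`).
* `exists_modPoly_both` : ONE `D : ModularPolynomialData N` which works in characteristic `0` and in
  characteristic `ℓ ∤ N` simultaneously.
* `fullC_eq_adjoin₀`, `adjoin_pair_eq_top₀`, `adjoin_jNK_eq_top₀` : GENERATION `FK = K(j, j_N)`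
  (one-line corollaries of helper16's characteristic-free `S18/H16_FKGen`).
* `minpoly_jNK₀`, `natDegree_minpoly_jNK₀`, `finrank_fullC₀`, `finiteDimensional_fullC₀`,
  `isSeparable_fullC₀`, `isIntegral_jNK₀`, `linearIndependent_pow_jNK₀`, `exists_modPolyK₀`.
* `fullCMap f N : FK →+* FM` (coefficientwise `f : K →+* M`), injective, `jK ↦ jK`, `jNK ↦ jNK`,
  constants `c ↦ f c`.
* `fullC_eq_laurentBaseChange`, `fullC_Qbar_eq_bar` : `FullC Qbar N = modularFunctionFieldBar N`.
* `toBar L N : FL →+* FN N` for `[Algebra L Qbar]` (e.g. `L = ↥E`, `E : IntermediateField ℚ Qbar`):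
  injective, `jK ↦ jBar N`, `jNK ↦ jd N N _`, `jdK d ↦ jd N d _`, constants ↦ constants.
-/

set_option autoImplicit false
set_option linter.unusedSectionVars false
set_option linter.style.haveILetI false
set_option synthInstance.maxHeartbeats 400000

noncomputable section

namespace Fermat.Agent.S18.H99

open ModularCurve HahnSeries Polynomial IntermediateField Fermat.Agent.S28

/-! ### 0. The modular polynomial over fields of characteristic zero -/

/-- `Φ_N` is irreducible over `K(Y)` for every field `K` of characteristic `0`. -/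
theorem irreducible_redModPoly_charZero (N : ℕ) [NeZero N] (D : ModularPolynomialData N)
    (hD : ∀ (k : Type) [Field k] (ζ : kˣ), IsPrimitiveRoot ζ N → RootsAt k N ζ D.Φ)
    (K : Type) [Field K] [CharZero K] : Irreducible (redModPoly K D.Φ) := by
  have hN : ((N : ℕ) : AlgebraicClosure K) ≠ 0 := Nat.cast_ne_zero.2 (NeZero.ne N)
  have h1 : S28.H16.IrrAll (AlgebraicClosure K) N :=
    S28.H16.irrAll_of_step (AlgebraicClosure K)
      (S28.H50.stepStatement (AlgebraicClosure K) (fun m _ => S28.H16.hasModPoly m)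
        (fun p _ hp => S28.H9.exists_deltaQuotPoly p hp)) N
      (Nat.pos_of_ne_zero (NeZero.ne N)) hN
  have h2 : Irreducible (redModPoly (AlgebraicClosure K) D.Φ) := h1 inferInstance D hD
  rw [← S28.H16.redModPoly_map K (AlgebraicClosure K)] at h2
  exact Polynomial.Monic.irreducible_of_irreducible_map _ _
    (S28.H16.redModPoly_monic K D.monic) h2

/-- `Φ_N` is separable over `K(Y)` for every field `K` of characteristic `0`. -/
theorem separable_redModPoly_charZero (N : ℕ) [NeZero N] (D : ModularPolynomialData N)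
    (hD : ∀ (k : Type) [Field k] (ζ : kˣ), IsPrimitiveRoot ζ N → RootsAt k N ζ D.Φ)
    (K : Type) [Field K] [CharZero K] : (redModPoly K D.Φ).Separable :=
  (irreducible_redModPoly_charZero N D hD K).separable

/-- ONE modular polynomial for all characteristics `0` and `ℓ ∤ N`. -/
theorem exists_modPoly_both (N : ℕ) [NeZero N] :
    ∃ D : ModularPolynomialData N,
      (∀ (k : Type) [Field k] (ζ : kˣ), IsPrimitiveRoot ζ N → RootsAt k N ζ D.Φ) ∧
      (∀ (K : Type) [Field K] [CharZero K], Irreducible (redModPoly K D.Φ)) ∧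
      (∀ (K : Type) [Field K] [CharZero K], (redModPoly K D.Φ).Separable) ∧
      (∀ (ℓ : ℕ) [Fact ℓ.Prime], ¬ ℓ ∣ N → IrredCharL ℓ D.Φ) ∧
      (∀ (ℓ : ℕ) [Fact ℓ.Prime], ¬ ℓ ∣ N → ∀ (K : Type) [Field K] [CharP K ℓ],
        (redModPoly K D.Φ).Separable) := by
  obtain ⟨D, hD⟩ := S28.H16.hasModPoly N
  refine ⟨D, hD, fun K _ _ => irreducible_redModPoly_charZero N D hD K,
    fun K _ _ => separable_redModPoly_charZero N D hD K, fun ℓ _ hℓN => ?_,
    fun ℓ _ hℓN K _ _ => S18.H16.separable_redModPoly ℓ hℓN D hD⟩
  exact S28.H16.irredCharL_of_step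
    (fun k _ _ => S28.H50.stepStatement k (fun m _ => S28.H16.hasModPoly m)
      (fun p _ hp => S28.H9.exists_deltaQuotPoly p hp)) N ℓ hℓN D hD

/-! ### 1. Characteristic-zero forms of helper16's `_gen` statements (`S18/H16_FKGen`) -/

section CharZero

variable (N : ℕ) [NeZero N] (K : Type) [Field K] [CharZero K]

theorem natCast_ne_zero₀ : ((N : ℕ) : K) ≠ 0 := Nat.cast_ne_zero.2 (NeZero.ne N)

/-- series-level form: `K(j(q^d) : d ∣ N) = K(j, j_N)` inside `K((q))`, characteristic `0`. -/
theorem fullC_eq_adjoin₀ :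
    modularFunctionFieldFullC K N =
      IntermediateField.adjoin K {jqModC K, qExpand K N (jqModC K)} :=
  S18.H16.fullC_eq_adjoin_gen N K (natCast_ne_zero₀ N K)

/-- `K(jK, jNK) = FK` in characteristic `0`. -/
theorem adjoin_pair_eq_top₀ :
    IntermediateField.adjoin K {S18.H16.jK K N, S18.H16.jNK K N} = ⊤ :=
  S18.H16.adjoin_pair_eq_top_gen N K (natCast_ne_zero₀ N K)

/-- `K(jK)(jNK) = FK` in characteristic `0`. -/
theorem adjoin_jNK_eq_top₀ : K⟮S18.H16.jK K N⟯⟮S18.H16.jNK K N⟯ = ⊤ :=
  S18.H16.adjoin_jNK_eq_top_gen N K (natCast_ne_zero₀ N K)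

/-- `jNK` is integral over `K(jK)`. -/
theorem isIntegral_jNK₀ : IsIntegral K⟮S18.H16.jK K N⟯ (S18.H16.jNK K N) :=
  S18.H16.isIntegral_jNK_gen N K (natCast_ne_zero₀ N K)

/-- The minimal polynomial of `jNK` over `K(jK)` is `Φ_N(X, jK)`, for EVERY modular polynomial
datum `D` having all formal conjugates as roots. -/
theorem minpoly_jNK₀ (D : ModularPolynomialData N)
    (hD : ∀ (k : Type) [Field k] (ζ : kˣ), IsPrimitiveRoot ζ N → RootsAt k N ζ D.Φ) :
    minpoly K⟮S18.H16.jK K N⟯ (S18.H16.jNK K N) = S18.H16.modPolyK K N D.Φ :=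
  S18.H16.minpoly_jNK K N D (irreducible_redModPoly_charZero N D hD K)

theorem natDegree_minpoly_jNK₀ :
    (minpoly K⟮S18.H16.jK K N⟯ (S18.H16.jNK K N)).natDegree = dedekindPsi N :=
  S18.H16.natDegree_minpoly_jNK_gen N K (natCast_ne_zero₀ N K)

/-- `[FK : K(jK)] = ψ(N)` in characteristic `0`. -/
theorem finrank_fullC₀ :
    Module.finrank K⟮S18.H16.jK K N⟯ (modularFunctionFieldFullC K N) = dedekindPsi N :=
  S18.H16.finrank_fullC_gen N K (natCast_ne_zero₀ N K)

theorem finiteDimensional_fullC₀ :
    FiniteDimensional K⟮S18.H16.jK K N⟯ (modularFunctionFieldFullC K N) :=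
  S18.H16.finiteDimensional_fullC_gen N K (natCast_ne_zero₀ N K)

theorem isSeparable_fullC₀ :
    Algebra.IsSeparable K⟮S18.H16.jK K N⟯ (modularFunctionFieldFullC K N) :=
  S18.H16.isSeparable_fullC_gen N K (natCast_ne_zero₀ N K)

/-- `1, j_N, .., j_N^(ψ(N)-1)` are linearly independent over `K(j)`. -/
theorem linearIndependent_pow_jNK₀ :
    LinearIndependent K⟮S18.H16.jK K N⟯
      (fun i : Fin (dedekindPsi N) => S18.H16.jNK K N ^ (i : ℕ)) :=
  S18.H16.linearIndependent_pow_jNK_gen N K (natCast_ne_zero₀ N K)

/-- The modular polynomial, with everything one needs about it over a field `K` of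
characteristic `0` (same shape as helper16's `exists_modPolyK`, plus the formal-conjugate
property). -/
theorem exists_modPolyK₀ :
    ∃ D : ModularPolynomialData N,
      (∀ (k : Type) [Field k] (ζ : kˣ), IsPrimitiveRoot ζ N → RootsAt k N ζ D.Φ) ∧
      Irreducible (redModPoly K D.Φ) ∧ (redModPoly K D.Φ).Separable ∧
      minpoly K⟮S18.H16.jK K N⟯ (S18.H16.jNK K N) = S18.H16.modPolyK K N D.Φ ∧
      (S18.H16.modPolyK K N D.Φ).natDegree = dedekindPsi N := by
  obtain ⟨D, hD⟩ := S28.H16.hasModPoly N
  exact ⟨D, hD, irreducible_redModPoly_charZero N D hD K, separable_redModPoly_charZero N D hD K,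
    minpoly_jNK₀ N K D hD, by rw [S18.H16.natDegree_modPolyK K N D.monic, D.natDegree_eq]⟩

end CharZero

/-! ### 3. Coefficientwise maps between the function fields -/

section CoeffMapFull

variable {K M : Type*} [Field K] [Field M] (f : K →+* M) (N : ℕ) [NeZero N]

omit [NeZero N] in
theorem coeffMap_algebraMap_field (c : K) :
    coeffMap f (algebraMap K (LaurentSeries K) c) = algebraMap M (LaurentSeries M) (f c) := by
  rw [algebraMap_laurentSeries_eq_single, algebraMap_laurentSeries_eq_single, coeffMap_single]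

omit [NeZero N] in
/-- `coeffMap f` maps `K(j(q^d) : d ∣ N)` into `M(j(q^d) : d ∣ N)`. -/
theorem coeffMap_mem_fullC {x : LaurentSeries K} (hx : x ∈ modularFunctionFieldFullC K N) :
    coeffMap f x ∈ modularFunctionFieldFullC M N := by
  unfold modularFunctionFieldFullC at hx
  induction hx using IntermediateField.adjoin_induction with
  | mem y hy =>
      obtain ⟨d, hne, hd, rfl⟩ := hy
      have := hne
      rw [coeffMap_qExpand, coeffMap_jqModC]
      exact jqModCd_mem_full M N hd
  | algebraMap r =>
      rw [coeffMap_algebraMap_field]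
      exact IntermediateField.algebraMap_mem _ _
  | add y z _ _ hy hz => rw [map_add]; exact add_mem hy hz
  | inv y _ hy => rw [map_inv₀]; exact inv_mem hy
  | mul y z _ _ hy hz => rw [map_mul]; exact mul_mem hy hz

/-- The coefficientwise map `FK → FM` induced by a field homomorphism `f : K → M`. -/
def fullCMap : modularFunctionFieldFullC K N →+* modularFunctionFieldFullC M N :=
  ((coeffMap f).comp (algebraMap (modularFunctionFieldFullC K N) (LaurentSeries K))).codRestrict
    (modularFunctionFieldFullC M N) (fun x => coeffMap_mem_fullC f N x.2)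

omit [NeZero N] in
@[simp] theorem coe_fullCMap (x : modularFunctionFieldFullC K N) :
    ((fullCMap f N x : modularFunctionFieldFullC M N) : LaurentSeries M) =
      coeffMap f (x : LaurentSeries K) := rfl

omit [NeZero N] in
theorem fullCMap_injective : Function.Injective (fullCMap f N) := (fullCMap f N).injective

omit [NeZero N] in
theorem fullCMap_algebraMap (c : K) :
    fullCMap f N (algebraMap K (modularFunctionFieldFullC K N) c) =
      algebraMap M (modularFunctionFieldFullC M N) (f c) := by
  apply Subtype.ext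
  rw [coe_fullCMap]
  exact coeffMap_algebraMap_field f c

/-- `j(q^d)`, `d ∣ N`, as an element of the function field `FK`. -/
def jdK (K : Type*) [Field K] (N : ℕ) [NeZero N] (d : ℕ) [NeZero d] (hd : d ∣ N) :
    modularFunctionFieldFullC K N :=
  ⟨qExpand K d (jqModC K), jqModCd_mem_full K N hd⟩

@[simp] theorem coe_jdK (K : Type*) [Field K] (N : ℕ) [NeZero N] (d : ℕ) [NeZero d] (hd : d ∣ N) :
    ((jdK K N d hd : modularFunctionFieldFullC K N) : LaurentSeries K) = qExpand K d (jqModC K) :=
  rfl

theorem jdK_self (K : Type*) [Field K] (N : ℕ) [NeZero N] :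
    jdK K N N dvd_rfl = S18.H16.jNK K N := rfl

theorem jdK_one (K : Type*) [Field K] (N : ℕ) [NeZero N] :
    jdK K N 1 (one_dvd N) = S18.H16.jK K N := by
  apply Subtype.ext
  exact qExpand_one_apply _

theorem fullCMap_jdK (d : ℕ) [NeZero d] (hd : d ∣ N) :
    fullCMap f N (jdK K N d hd) = jdK M N d hd := by
  apply Subtype.ext
  rw [coe_fullCMap, coe_jdK, coe_jdK, coeffMap_qExpand, coeffMap_jqModC]

theorem fullCMap_jK : fullCMap f N (S18.H16.jK K N) = S18.H16.jK M N := by
  apply Subtype.ext
  rw [coe_fullCMap, S18.H16.coe_jK, S18.H16.coe_jK, coeffMap_jqModC]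

theorem fullCMap_jNK : fullCMap f N (S18.H16.jNK K N) = S18.H16.jNK M N := by
  apply Subtype.ext
  rw [coe_fullCMap, S18.H16.coe_jNK, S18.H16.coe_jNK, coeffMap_qExpand, coeffMap_jqModC]

end CoeffMapFull

/-! ### 4. Comparison with `modularFunctionFieldBar N` -/

section BaseChange

variable (L : Type*) [Field L] [Algebra ℚ L] (N : ℕ) [NeZero N]

omit [NeZero N] in
theorem coeffEmb_image_divisorExpansions :
    ⇑(coeffEmb L) '' divisorExpansions N = divisorExpansionsC L N := by
  ext x
  constructor
  · rintro ⟨y, ⟨d, hne, hd, rfl⟩, rfl⟩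
    have := hne
    refine ⟨d, hne, hd, ?_⟩
    rw [coeffEmb, coeffMap_qExpand, ← jqModC_rat, coeffMap_jqModC]
  · rintro ⟨d, hne, hd, rfl⟩
    have := hne
    refine ⟨qExpand ℚ d jq, ⟨d, hne, hd, rfl⟩, ?_⟩
    rw [coeffEmb, coeffMap_qExpand, ← jqModC_rat, coeffMap_jqModC]

omit [NeZero N] in
/-- The prelude's field over `L` is the base change of the field over `ℚ`. -/
theorem fullC_eq_laurentBaseChange :
    modularFunctionFieldFullC L N = laurentBaseChange L (modularFunctionFieldFull N) := by
  rw [modularFunctionFieldFull, S24.H40.laurentBaseChange_adjoin, coeffEmb_image_divisorExpansions,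
    modularFunctionFieldFullC]

omit [NeZero N] in
/-- Over `Qbar` the generic field is the prelude's `modularFunctionFieldBar N`. -/
theorem fullC_Qbar_eq_bar :
    modularFunctionFieldFullC S24.Qbar N = modularFunctionFieldBar N :=
  fullC_eq_laurentBaseChange S24.Qbar N

end BaseChange

section ToBar

variable (L : Type*) [Field L] [Algebra L S24.Qbar] (N : ℕ) [NeZero N]

theorem coeffMap_mem_bar {x : LaurentSeries L} (hx : x ∈ modularFunctionFieldFullC L N) :
    coeffMap (algebraMap L S24.Qbar) x ∈ modularFunctionFieldBar N := by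
  rw [← fullC_Qbar_eq_bar]
  exact coeffMap_mem_fullC _ N hx

/-- The coefficient embedding `FL → FN N` (coefficientwise `L → Qbar`). -/
def toBar : modularFunctionFieldFullC L N →+* S24.FN N :=
  ((coeffMap (algebraMap L S24.Qbar)).comp
    (algebraMap (modularFunctionFieldFullC L N) (LaurentSeries L))).codRestrict
    (modularFunctionFieldBar N) (fun x => coeffMap_mem_bar L N x.2)

@[simp] theorem coe_toBar (x : modularFunctionFieldFullC L N) :
    ((toBar L N x : S24.FN N) : LaurentSeries S24.Qbar) =
      coeffMap (algebraMap L S24.Qbar) (x : LaurentSeries L) := rfl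

theorem toBar_injective : Function.Injective (toBar L N) := (toBar L N).injective

theorem toBar_algebraMap (c : L) :
    toBar L N (algebraMap L (modularFunctionFieldFullC L N) c) =
      algebraMap S24.Qbar (S24.FN N) (algebraMap L S24.Qbar c) := by
  apply Subtype.ext
  rw [coe_toBar]
  exact coeffMap_algebraMap_field (algebraMap L S24.Qbar) c

theorem toBar_jdK (d : ℕ) [NeZero d] (hd : d ∣ N) :
    toBar L N (jdK L N d hd) = S24.jd N d hd := by
  apply Subtype.ext
  rw [coe_toBar, coe_jdK, coeffMap_qExpand, coeffMap_jqModC]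
  show _ = coeffEmb S24.Qbar (qExpand ℚ d jq)
  rw [coeffEmb, coeffMap_qExpand, ← jqModC_rat, coeffMap_jqModC]

theorem toBar_jK : toBar L N (S18.H16.jK L N) = S24.jBar N := by
  apply Subtype.ext
  rw [coe_toBar, S18.H16.coe_jK, coeffMap_jqModC]
  show _ = coeffEmb S24.Qbar jq
  rw [coeffEmb, ← jqModC_rat, coeffMap_jqModC]

theorem toBar_jNK : toBar L N (S18.H16.jNK L N) = S24.jd N N dvd_rfl :=
  toBar_jdK L N N dvd_rfl

/-- `FN N` is generated over `Qbar` by the image of `FL`. -/
theorem adjoin_range_toBar_eq_top :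
    IntermediateField.adjoin S24.Qbar (Set.range (toBar L N)) = ⊤ := by
  rw [eq_top_iff, ← S24.H40.adjoin_jdSet_eq_top N]
  apply IntermediateField.adjoin.mono
  rintro _ ⟨d, hne, hd, rfl⟩
  exact ⟨@jdK L _ N _ d hne hd, @toBar_jdK L _ _ N _ d hne hd⟩

/-- `toBar` is `fullCMap` followed by the identification `FullC Qbar N = modularFunctionFieldBar N`. -/
theorem coe_toBar_eq_coe_fullCMap (x : modularFunctionFieldFullC L N) :
    ((toBar L N x : S24.FN N) : LaurentSeries S24.Qbar) =
      ((fullCMap (algebraMap L S24.Qbar) N x : modularFunctionFieldFullC S24.Qbar N) :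
        LaurentSeries S24.Qbar) := by
  rw [coe_toBar, coe_fullCMap]

end ToBar

/-! ### 5. `toBar` as an algebra map and the scalar towers

For `L = ↥E`, `E : IntermediateField ℚ Qbar`, the instances `Algebra L Qbar`, `Algebra L (FN N)` and
`IsScalarTower L Qbar (FN N)` are found by instance synthesis (Mathlib's `IntermediateField`
instances), so everything below applies verbatim. -/

section Tower

variable (L : Type*) [Field L] [Algebra L S24.Qbar] (N : ℕ) [NeZero N]
  [Algebra L (S24.FN N)] [IsScalarTower L S24.Qbar (S24.FN N)]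

theorem toBar_algebraMap' (c : L) :
    toBar L N (algebraMap L (modularFunctionFieldFullC L N) c) = algebraMap L (S24.FN N) c := by
  rw [toBar_algebraMap, ← IsScalarTower.algebraMap_apply]

/-- `toBar` as an `L`-algebra homomorphism. -/
def toBarₐ : modularFunctionFieldFullC L N →ₐ[L] S24.FN N :=
  { toBar L N with commutes' := toBar_algebraMap' L N }

@[simp] theorem toBarₐ_apply (x : modularFunctionFieldFullC L N) :
    toBarₐ L N x = toBar L N x := rfl

/-- The `FL`-algebra structure on `FN N` given by `toBar` (to be used as a LOCAL instance: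
`letI := H99.toBarAlgebra L N`). -/
abbrev toBarAlgebra : Algebra (modularFunctionFieldFullC L N) (S24.FN N) :=
  (toBar L N).toAlgebra

theorem algebraMap_toBarAlgebra (x : modularFunctionFieldFullC L N) :
    letI := toBarAlgebra L N
    algebraMap (modularFunctionFieldFullC L N) (S24.FN N) x = toBar L N x := rfl

/-- The tower `L → FL → FN N`. -/
theorem isScalarTower_toBar :
    letI := toBarAlgebra L N
    IsScalarTower L (modularFunctionFieldFullC L N) (S24.FN N) := by
  letI := toBarAlgebra L N
  exact IsScalarTower.of_algebraMap_eq (fun c => (toBar_algebraMap' L N c).symm)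

end Tower

end Fermat.Agent.S18.H99
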