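/-
S18 / DVR foundation (helper45), part 8 (generic library; prepared for the Stage-4 row (R-a3)):
algebra plumbing for `A'' := cutOver A E = A ∩ E` over `A1 := A0 A ℓ`.

* instances `Algebra (A0 A ℓ) (cutOver A E)`, `IsScalarTower (A0 A ℓ) (cutOver A E) E`,
  `FaithfulSMul`, `Module.IsTorsionFree` (hence `Module.Flat` once `A0 A ℓ` is known to be a DVR),
  `IsLocalHom`;
* `inclCutOverLE` : enlarging `E ≤ E'`, compatible with the inertia actions;
* `inertiaActCutOver_eq_self_of_forall` : an element of `A ∩ E` that is congruent to elements of `A1`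
  modulo every power of the maximal ideal is fixed by inertia (no henselian/completeness input).
-/
import Mathlib
import Fermat.Agent.S18.H45_InertiaBase

set_option autoImplicit false
set_option linter.unusedSectionVars false
set_option linter.style.haveILetI false

namespace Fermat.Agent.S18.H45

open IsLocalRing

noncomputable section

local notation "Qbar" => AlgebraicClosure ℚ

variable {A : ValuationSubring Qbar} {ℓ : ℕ} (hℓ : ℓ.Prime) (hA : A.LiesOverPrime ℓ)
variable (E : IntermediateField (unrCyclo ℓ) Qbar)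

/-! ### (i) `A ∩ E` as an `A1`-algebra -/

instance algebraA0CutOver : Algebra (A0 A ℓ) (cutOver A E) := (inclA0CutOver A E).toAlgebra

theorem algebraMap_A0_cutOver_eq :
    algebraMap (A0 A ℓ) (cutOver A E) = inclA0CutOver A E := rfl

theorem coe_algebraMap_A0_cutOver (a : A0 A ℓ) :
    ((algebraMap (A0 A ℓ) (cutOver A E) a : cutOver A E) : E) =
      algebraMap (unrCyclo ℓ) E (a : unrCyclo ℓ) := rfl

theorem algebraMap_A0_cutOver_injective :
    Function.Injective (algebraMap (A0 A ℓ) (cutOver A E)) := by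
  intro a b h
  have h1 := congrArg (fun z : cutOver A E => (z : E)) h
  simp only [coe_algebraMap_A0_cutOver] at h1
  exact Subtype.ext ((algebraMap (unrCyclo ℓ) E).injective h1)

instance faithfulSMul_A0_cutOver : FaithfulSMul (A0 A ℓ) (cutOver A E) :=
  (faithfulSMul_iff_algebraMap_injective _ _).mpr (algebraMap_A0_cutOver_injective E)

instance isTorsionFree_A0_cutOver : Module.IsTorsionFree (A0 A ℓ) (cutOver A E) :=
  Module.isTorsionFree_iff_algebraMap_injective.mpr (algebraMap_A0_cutOver_injective E)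

instance isScalarTower_A0_cutOver_E : IsScalarTower (A0 A ℓ) (cutOver A E) E :=
  IsScalarTower.of_algebraMap_eq fun _ => rfl

instance isScalarTower_A0_unrCyclo_E : IsScalarTower (A0 A ℓ) (unrCyclo ℓ) E :=
  IsScalarTower.of_algebraMap_eq fun _ => rfl

instance isLocalHom_algebraMap_A0_cutOver :
    IsLocalHom (algebraMap (A0 A ℓ) (cutOver A E)) := by
  constructor
  intro a ha
  have h1 : IsUnit (inclCutOver A E (inclA0CutOver A E a)) := ha.map (inclCutOver A E)
  have h2 : inclCutOver A E (inclA0CutOver A E a) = inclA0 A ℓ a := rfl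
  rw [h2] at h1
  exact isUnit_of_map_unit (inclA0 A ℓ) a h1

include hℓ hA in
/-- `A ∩ E` is flat over the discrete valuation ring `A1`. -/
theorem flat_A0_cutOver : Module.Flat (A0 A ℓ) (cutOver A E) := by
  haveI := isDiscreteValuationRing_A0 hℓ hA
  infer_instance

/-! ### (iii) enlarging `E` -/

variable {E} {E' : IntermediateField (unrCyclo ℓ) Qbar}

/-- The inclusion `A ∩ E → A ∩ E'` for `E ≤ E'`. -/
def inclCutOverLE (h : E ≤ E') : cutOver A E →+* cutOver A E' where
  toFun x := ⟨IntermediateField.inclusion h (x : E), x.2⟩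
  map_one' := Subtype.ext (map_one _)
  map_mul' _ _ := Subtype.ext (map_mul _ _ _)
  map_zero' := Subtype.ext (map_zero _)
  map_add' _ _ := Subtype.ext (map_add _ _ _)

theorem coe_inclCutOverLE (h : E ≤ E') (x : cutOver A E) :
    (((inclCutOverLE (A := A) h x : cutOver A E') : E') : Qbar) = ((x : E) : Qbar) := rfl

theorem inclCutOver_comp_inclCutOverLE (h : E ≤ E') :
    (inclCutOver A E').comp (inclCutOverLE h) = inclCutOver A E := rfl

theorem inclCutOverLE_injective (h : E ≤ E') :
    Function.Injective (inclCutOverLE (A := A) h) := by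
  intro x y hxy
  apply Subtype.ext
  apply Subtype.ext
  have := congrArg (fun z : cutOver A E' => ((z : E') : Qbar)) hxy
  simpa only [coe_inclCutOverLE] using this

theorem inclCutOverLE_inclA0CutOver (h : E ≤ E') (a : A0 A ℓ) :
    inclCutOverLE h (inclA0CutOver A E a) = inclA0CutOver A E' a := by
  apply Subtype.ext
  apply Subtype.ext
  rfl

instance isLocalHom_inclCutOverLE (h : E ≤ E') : IsLocalHom (inclCutOverLE (A := A) h) := by
  constructor
  intro x hx
  rw [isUnit_cutOver_iff]
  have h1 : IsUnit (inclCutOver A E' (inclCutOverLE h x)) := hx.map (inclCutOver A E')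
  exact h1

theorem inclCutOverLE_mem_maximalIdeal_iff (h : E ≤ E') (x : cutOver A E) :
    inclCutOverLE h x ∈ maximalIdeal (cutOver A E') ↔ x ∈ maximalIdeal (cutOver A E) := by
  rw [mem_maximalIdeal_cutOver_iff, mem_maximalIdeal_cutOver_iff, coe_inclCutOverLE]

/-- Enlarging `E` is compatible with the inertia actions. -/
theorem inclCutOverLE_inertiaActCutOver (h : E ≤ E') [Normal (unrCyclo ℓ) E]
    [Normal (unrCyclo ℓ) E'] (σ : Qbar ≃ₐ[ℚ] Qbar) (hσ : σ ∈ A.inertiaSubgroupIn ℚ)
    (x : cutOver A E) :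
    inclCutOverLE h (inertiaActCutOver hℓ hA E σ hσ x) =
      inertiaActCutOver hℓ hA E' σ hσ (inclCutOverLE h x) := by
  apply Subtype.ext
  apply Subtype.ext
  rw [coe_inclCutOverLE, coe_inertiaActCutOver, coe_inertiaActCutOver, coe_inclCutOverLE]

/-! ### (iv) limits of elements of `A1` are fixed by inertia -/

variable (E)

theorem inertiaActCutOver_mem_maximalIdeal_pow [Normal (unrCyclo ℓ) E] (σ : Qbar ≃ₐ[ℚ] Qbar)
    (hσ : σ ∈ A.inertiaSubgroupIn ℚ) (N : ℕ) {y : cutOver A E}
    (hy : y ∈ maximalIdeal (cutOver A E) ^ N) :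
    inertiaActCutOver hℓ hA E σ hσ y ∈ maximalIdeal (cutOver A E) ^ N := by
  have hmap : (maximalIdeal (cutOver A E)).map
      (inertiaActCutOver hℓ hA E σ hσ : cutOver A E →+* cutOver A E) ≤
      maximalIdeal (cutOver A E) := by
    rw [Ideal.map_le_iff_le_comap]
    intro z hz
    rw [Ideal.mem_comap, mem_maximalIdeal, mem_nonunits_iff]
    rw [mem_maximalIdeal, mem_nonunits_iff] at hz
    intro hu
    apply hz
    have := hu.map (inertiaActCutOver hℓ hA E σ hσ).symm
    simpa using this
  have h1 : inertiaActCutOver hℓ hA E σ hσ y ∈ ((maximalIdeal (cutOver A E)) ^ N).map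
      (inertiaActCutOver hℓ hA E σ hσ : cutOver A E →+* cutOver A E) :=
    Ideal.mem_map_of_mem _ hy
  rw [Ideal.map_pow] at h1
  exact Ideal.pow_right_mono hmap N h1

include hℓ hA in
/-- An element of `A ∩ E` that is congruent to elements of `A1 = A ∩ K1` modulo every power of the
maximal ideal is fixed by inertia.  (No henselian or completeness input: only the Krull
intersection theorem in the discrete valuation ring `A ∩ E`.) -/
theorem inertiaActCutOver_eq_self_of_forall [FiniteDimensional (unrCyclo ℓ) E]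
    [Normal (unrCyclo ℓ) E] (σ : Qbar ≃ₐ[ℚ] Qbar) (hσ : σ ∈ A.inertiaSubgroupIn ℚ)
    (x : cutOver A E)
    (hx : ∀ N : ℕ, ∃ a : A0 A ℓ, x - inclA0CutOver A E a ∈ maximalIdeal (cutOver A E) ^ N) :
    inertiaActCutOver hℓ hA E σ hσ x = x := by
  haveI := isDiscreteValuationRing_cutOver hℓ hA E
  have key : ∀ N : ℕ, inertiaActCutOver hℓ hA E σ hσ x - x ∈ maximalIdeal (cutOver A E) ^ N := by
    intro N
    obtain ⟨a, ha⟩ := hx N
    have h1 := inertiaActCutOver_mem_maximalIdeal_pow hℓ hA E σ hσ N ha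
    rw [map_sub, inertiaActCutOver_inclA0] at h1
    have h2 : inertiaActCutOver hℓ hA E σ hσ x - x =
        (inertiaActCutOver hℓ hA E σ hσ x - inclA0CutOver A E a) -
          (x - inclA0CutOver A E a) := by ring
    rw [h2]
    exact Ideal.sub_mem _ h1 ha
  have hbot : (⨅ N : ℕ, maximalIdeal (cutOver A E) ^ N) = ⊥ :=
    Ideal.iInf_pow_eq_bot_of_isLocalRing _ (Ideal.IsMaximal.ne_top inferInstance)
  have hmem : inertiaActCutOver hℓ hA E σ hσ x - x ∈ (⨅ N : ℕ, maximalIdeal (cutOver A E) ^ N) :=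
    (Ideal.mem_iInf).mpr key
  rw [hbot, Ideal.mem_bot] at hmem
  exact sub_eq_zero.mp hmem

include hℓ hA in
/-- Variant in terms of powers of `ℓ`. -/
theorem inertiaActCutOver_eq_self_of_forall_natCast_pow [FiniteDimensional (unrCyclo ℓ) E]
    [Normal (unrCyclo ℓ) E] (σ : Qbar ≃ₐ[ℚ] Qbar) (hσ : σ ∈ A.inertiaSubgroupIn ℚ)
    (x : cutOver A E)
    (hx : ∀ N : ℕ, ∃ a : A0 A ℓ, ((ℓ : ℕ) : cutOver A E) ^ N ∣ x - inclA0CutOver A E a) :
    inertiaActCutOver hℓ hA E σ hσ x = x := by
  refine inertiaActCutOver_eq_self_of_forall hℓ hA E σ hσ x fun N => ?_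
  obtain ⟨a, b, hb⟩ := hx N
  refine ⟨a, ?_⟩
  rw [hb]
  exact Ideal.mul_mem_right _ _
    (Ideal.pow_mem_pow (natCast_mem_maximalIdeal_cutOver hℓ hA E) N)

end

end Fermat.Agent.S18.H45
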