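/-
S18 / DVR foundation (helper45), part 10 (generic library; prepared for Stage 4):
the function field `F'' := modularFunctionFieldFullC ↥E N` over a finite (normal) extension
`E / K1` (`K1 = unrCyclo ℓ`) inside `Qbar`.

* instance `IsAlgClosure ↥E Qbar` (not found by instance synthesis);
* `baseChangeE E N : F1 →+* F''` (`F1 = modularFunctionFieldFullC K1 N`), coefficientwise;
* `inertiaActFullC` : the coefficientwise action of an inertia element on `F''` (`E / K1` normal);
  it fixes the image of `F1`, acts on the constants through `inertiaActE`, and is intertwined by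
  `H99.toBar` with the prelude's `arithmeticRingAut` on `modularFunctionFieldBar N`.
-/
import Mathlib
import Fermat.Agent.S18.H45_InertiaBaseAlg
import Fermat.Agent.S18.H99_F1Basics
import Fermat.Agent.S37.H53_Frob

set_option autoImplicit false
set_option linter.unusedSectionVars false
set_option linter.style.haveILetI false
set_option synthInstance.maxHeartbeats 400000

namespace Fermat.Agent.S18.H45

open IsLocalRing ModularCurve HahnSeries

noncomputable section

local notation "Qbar" => AlgebraicClosure ℚ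

variable {A : ValuationSubring Qbar} {ℓ : ℕ} (hℓ : ℓ.Prime) (hA : A.LiesOverPrime ℓ)
variable (E : IntermediateField (unrCyclo ℓ) Qbar) (N : ℕ) [NeZero N]

instance isAlgClosure_cutField_Qbar : IsAlgClosure ↥E Qbar :=
  ⟨inferInstance, inferInstance⟩

/-! ### base change `F1 → F''` -/

/-- The coefficientwise embedding `F1 = K1(j, j_N) → F'' = E(j, j_N)`. -/
def baseChangeE : modularFunctionFieldFullC (unrCyclo ℓ) N →+* modularFunctionFieldFullC ↥E N :=
  H99.fullCMap (algebraMap (unrCyclo ℓ) ↥E) N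

@[simp] theorem coe_baseChangeE (x : modularFunctionFieldFullC (unrCyclo ℓ) N) :
    ((baseChangeE E N x : modularFunctionFieldFullC ↥E N) : LaurentSeries ↥E) =
      coeffMap (algebraMap (unrCyclo ℓ) ↥E) (x : LaurentSeries (unrCyclo ℓ)) := rfl

theorem baseChangeE_injective : Function.Injective (baseChangeE E N) :=
  (baseChangeE E N).injective

theorem baseChangeE_algebraMap (c : unrCyclo ℓ) :
    baseChangeE E N (algebraMap (unrCyclo ℓ) (modularFunctionFieldFullC (unrCyclo ℓ) N) c) =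
      algebraMap ↥E (modularFunctionFieldFullC ↥E N) (algebraMap (unrCyclo ℓ) ↥E c) :=
  H99.fullCMap_algebraMap _ N c

theorem baseChangeE_jK : baseChangeE E N (H16.jK (unrCyclo ℓ) N) = H16.jK ↥E N :=
  H99.fullCMap_jK _ N

theorem baseChangeE_jNK : baseChangeE E N (H16.jNK (unrCyclo ℓ) N) = H16.jNK ↥E N :=
  H99.fullCMap_jNK _ N

/-- `toBar` of `F''` restricted to `F1` is `toBar` of `F1`. -/
theorem toBar_baseChangeE (x : modularFunctionFieldFullC (unrCyclo ℓ) N) :
    H99.toBar ↥E N (baseChangeE E N x) = H99.toBar (unrCyclo ℓ) N x := by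
  apply Subtype.ext
  rw [H99.coe_toBar, H99.coe_toBar, coe_baseChangeE, coeffMap_coeffMap]
  exact coeffMap_congr (RingHom.ext fun _ => rfl) _

/-! ### the inertia action on `F''` -/

/-- The coefficientwise action of an inertia element on `F'' = E(j, j_N)` (`E / K1` normal). -/
def inertiaActFullC [Normal (unrCyclo ℓ) E] (σ : Qbar ≃ₐ[ℚ] Qbar)
    (hσ : σ ∈ A.inertiaSubgroupIn ℚ) :
    modularFunctionFieldFullC ↥E N ≃+* modularFunctionFieldFullC ↥E N :=
  Fermat.Agent.S37.H53.coeffRingAut ↥E N (inertiaActE hℓ hA E σ hσ).toRingEquiv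

@[simp] theorem coe_inertiaActFullC [Normal (unrCyclo ℓ) E] (σ : Qbar ≃ₐ[ℚ] Qbar)
    (hσ : σ ∈ A.inertiaSubgroupIn ℚ) (x : modularFunctionFieldFullC ↥E N) :
    ((inertiaActFullC hℓ hA E N σ hσ x : modularFunctionFieldFullC ↥E N) : LaurentSeries ↥E) =
      coeffMap (((inertiaActE hℓ hA E σ hσ).toRingEquiv : ↥E ≃+* ↥E) : ↥E →+* ↥E)
        (x : LaurentSeries ↥E) := rfl

/-- On constants the action is `inertiaActE`. -/
theorem inertiaActFullC_algebraMap [Normal (unrCyclo ℓ) E] (σ : Qbar ≃ₐ[ℚ] Qbar)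
    (hσ : σ ∈ A.inertiaSubgroupIn ℚ) (c : ↥E) :
    inertiaActFullC hℓ hA E N σ hσ (algebraMap ↥E (modularFunctionFieldFullC ↥E N) c) =
      algebraMap ↥E (modularFunctionFieldFullC ↥E N) (inertiaActE hℓ hA E σ hσ c) :=
  Fermat.Agent.S37.H53.coeffRingAut_algebraMap ↥E N _ c

/-- The action fixes the image of `F1 = K1(j, j_N)`. -/
theorem inertiaActFullC_baseChangeE [Normal (unrCyclo ℓ) E] (σ : Qbar ≃ₐ[ℚ] Qbar)
    (hσ : σ ∈ A.inertiaSubgroupIn ℚ) (x : modularFunctionFieldFullC (unrCyclo ℓ) N) :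
    inertiaActFullC hℓ hA E N σ hσ (baseChangeE E N x) = baseChangeE E N x := by
  apply Subtype.ext
  rw [coe_inertiaActFullC, coe_baseChangeE, coeffMap_coeffMap]
  refine coeffMap_congr (RingHom.ext fun c => ?_) _
  exact (inertiaActE hℓ hA E σ hσ).commutes c

theorem inertiaActFullC_jK [Normal (unrCyclo ℓ) E] (σ : Qbar ≃ₐ[ℚ] Qbar)
    (hσ : σ ∈ A.inertiaSubgroupIn ℚ) :
    inertiaActFullC hℓ hA E N σ hσ (H16.jK ↥E N) = H16.jK ↥E N := by
  rw [← baseChangeE_jK, inertiaActFullC_baseChangeE]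

theorem inertiaActFullC_jNK [Normal (unrCyclo ℓ) E] (σ : Qbar ≃ₐ[ℚ] Qbar)
    (hσ : σ ∈ A.inertiaSubgroupIn ℚ) :
    inertiaActFullC hℓ hA E N σ hσ (H16.jNK ↥E N) = H16.jNK ↥E N := by
  rw [← baseChangeE_jNK, inertiaActFullC_baseChangeE]

/-- `H99.toBar : F'' → modularFunctionFieldBar N` intertwines the coefficientwise inertia action on
`F''` with the prelude's arithmetic Galois action. -/
theorem toBar_inertiaActFullC [Normal (unrCyclo ℓ) E] (σ : Qbar ≃ₐ[ℚ] Qbar)
    (hσ : σ ∈ A.inertiaSubgroupIn ℚ) (x : modularFunctionFieldFullC ↥E N) :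
    H99.toBar ↥E N (inertiaActFullC hℓ hA E N σ hσ x) =
      arithmeticRingAut (modularFunctionFieldFull N) σ (H99.toBar ↥E N x) := by
  apply Subtype.ext
  rw [H99.coe_toBar, coe_inertiaActFullC, coe_arithmeticRingAut_apply, H99.coe_toBar,
    coeffMap_coeffMap, coeffMap_coeffMap]
  refine coeffMap_congr (RingHom.ext fun c => ?_) _
  exact coe_inertiaActE hℓ hA E σ hσ c

/-- The same in `•`-form for the prelude's `arithmeticGalois`. -/
theorem toBar_inertiaActFullC_smul [Normal (unrCyclo ℓ) E] (σ : Qbar ≃ₐ[ℚ] Qbar)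
    (hσ : σ ∈ A.inertiaSubgroupIn ℚ) (x : modularFunctionFieldFullC ↥E N) :
    H99.toBar ↥E N (inertiaActFullC hℓ hA E N σ hσ x) =
      arithmeticGalois (modularFunctionFieldFull N) σ • (H99.toBar ↥E N x) :=
  toBar_inertiaActFullC hℓ hA E N σ hσ x

end

end Fermat.Agent.S18.H45
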