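import Mathlib

/-!
# CECH-GENUS, abstract lattice core (CG1 + CG2)

Mathlib only.  Two charts `C₁ ∋ jj`, `C₂ ∋ jinv` (`jj * jinv = 1`) inside a commutative ring
`C₁₂`; `C₁` is spanned over `A[jj]` by finitely many `β i` with `jinv ^ c * β i ∈ C₂`.

* `laurent_split_ring` / `laurent_split` (CG1): for `c ≤ n`, every `jinv ^ a * b`, `b ∈ C₁`, is
  `x₁ + jj ^ n * x₂` with `x₁ ∈ C₁`, `x₂ ∈ C₂`  (`C₁[1/jj] = C₁ + jj ^ n C₂`).
* `lift_of_split_ring` / `lift_of_saturated` (CG2): if moreover `C₁` is `π`-saturated and the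
  reduction map `red` has kernel `(π)`, then every element of
  `red C₁ ∩ (red jj) ^ n * red C₂` lifts to an element of the lattice `C₁ ∩ jj ^ n C₂`.
-/

namespace Fermat.Agent.S18.H40

open Polynomial

section CG1

variable {A : Type*} [CommRing A] {C₁₂ : Type*} [CommRing C₁₂] [Algebra A C₁₂]
variable (C₁ C₂ : Subalgebra A C₁₂)

/-- **CG1**, ring form (helper83's chart vocabulary). -/
theorem laurent_split_ring {jj jinv : C₁₂} (hj : jj * jinv = 1) (hj1 : jj ∈ C₁) (hj2 : jinv ∈ C₂)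
    {ι : Type*} [Fintype ι] (β : ι → C₁₂) (hβmem : ∀ i, β i ∈ C₁)
    (hβ : ∀ b ∈ C₁, ∃ p : ι → A[X], b = ∑ i, aeval jj (p i) * β i)
    (c : ℕ) (hc : ∀ i, jinv ^ c * β i ∈ C₂) {n : ℕ} (hn : c ≤ n) (a : ℕ) {b : C₁₂}
    (hb : b ∈ C₁) :
    ∃ x₁ ∈ C₁, ∃ x₂ ∈ C₂, jinv ^ a * b = x₁ + jj ^ n * x₂ := by
  classical
  -- the submodule `C₁ + jj ^ n C₂`
  let S : Submodule A C₁₂ :=
    { carrier := {y | ∃ x₁ ∈ C₁, ∃ x₂ ∈ C₂, y = x₁ + jj ^ n * x₂}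
      add_mem' := by
        rintro _ _ ⟨x₁, h₁, x₂, h₂, rfl⟩ ⟨y₁, k₁, y₂, k₂, rfl⟩
        exact ⟨x₁ + y₁, add_mem h₁ k₁, x₂ + y₂, add_mem h₂ k₂, by ring⟩
      zero_mem' := ⟨0, zero_mem _, 0, zero_mem _, by simp⟩
      smul_mem' := by
        rintro r _ ⟨x₁, h₁, x₂, h₂, rfl⟩
        exact ⟨r • x₁, C₁.smul_mem h₁ r, r • x₂, C₂.smul_mem h₂ r, by
          rw [smul_add, mul_smul_comm]⟩ }
  have hS : ∀ y, y ∈ S ↔ ∃ x₁ ∈ C₁, ∃ x₂ ∈ C₂, y = x₁ + jj ^ n * x₂ := fun y => Iff.rfl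
  have hjpow : ∀ m : ℕ, jj ^ m * jinv ^ m = 1 := fun m => by rw [← mul_pow, hj, one_pow]
  have hmono : ∀ (k : ℕ) (i : ι), jinv ^ a * jj ^ k * β i ∈ S := by
    intro k i
    rcases le_or_gt a k with hak | hak
    · obtain ⟨d, rfl⟩ := Nat.exists_eq_add_of_le hak
      have : jinv ^ a * jj ^ (a + d) * β i = jj ^ d * β i := by
        rw [pow_add, ← mul_assoc, mul_comm (jinv ^ a), hjpow, one_mul]
      rw [this]
      exact ⟨jj ^ d * β i, mul_mem (pow_mem hj1 d) (hβmem i), 0, zero_mem _, by simp⟩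
    · obtain ⟨d, rfl⟩ := Nat.exists_eq_add_of_le hak.le
      have h1 : jinv ^ (k + d) * jj ^ k * β i = jinv ^ d * β i := by
        rw [pow_add, mul_comm (jinv ^ k), mul_assoc (jinv ^ d), mul_comm (jinv ^ k), hjpow,
          mul_one]
      rw [h1]
      obtain ⟨e, he⟩ := Nat.exists_eq_add_of_le (le_trans hn (Nat.le_add_right n d))
      refine ⟨0, zero_mem _, jinv ^ e * (jinv ^ c * β i), mul_mem (pow_mem hj2 e) (hc i), ?_⟩
      have h2 : jinv ^ e * (jinv ^ c * β i) = jinv ^ n * (jinv ^ d * β i) := by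
        rw [← mul_assoc, ← pow_add, add_comm e c, ← he, pow_add, mul_assoc]
      rw [h2, zero_add, ← mul_assoc, hjpow, one_mul]
  have hpoly : ∀ (i : ι) (p : A[X]), jinv ^ a * aeval jj p * β i ∈ S := by
    intro i p
    induction p using Polynomial.induction_on' with
    | add p q hp hq =>
      rw [map_add, mul_add, add_mul]
      exact add_mem hp hq
    | monomial k r =>
      rw [aeval_monomial, ← Algebra.smul_def]
      have : jinv ^ a * (r • jj ^ k) * β i = r • (jinv ^ a * jj ^ k * β i) := by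
        rw [mul_smul_comm, smul_mul_assoc]
      rw [this]
      exact S.smul_mem r (hmono k i)
  obtain ⟨p, hp⟩ := hβ b hb
  have hy : jinv ^ a * b = ∑ i, jinv ^ a * aeval jj (p i) * β i := by
    rw [hp, Finset.mul_sum]
    exact Finset.sum_congr rfl fun i _ => by ring
  have : jinv ^ a * b ∈ S := by
    rw [hy]
    exact Submodule.sum_mem _ fun i _ => hpoly i (p i)
  exact (hS _).1 this

/-- **CG1**, ring form, for arbitrary elements of `C₁₂ = C₁[1/jj]`. -/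
theorem laurent_split_ring_of_loc {jj jinv : C₁₂} (hj : jj * jinv = 1) (hj1 : jj ∈ C₁)
    (hj2 : jinv ∈ C₂)
    {ι : Type*} [Fintype ι] (β : ι → C₁₂) (hβmem : ∀ i, β i ∈ C₁)
    (hβ : ∀ b ∈ C₁, ∃ p : ι → A[X], b = ∑ i, aeval jj (p i) * β i)
    (c : ℕ) (hc : ∀ i, jinv ^ c * β i ∈ C₂) {n : ℕ} (hn : c ≤ n) {y : C₁₂}
    (hloc : ∃ a : ℕ, jj ^ a * y ∈ C₁) :
    ∃ x₁ ∈ C₁, ∃ x₂ ∈ C₂, y = x₁ + jj ^ n * x₂ := by
  obtain ⟨a, ha⟩ := hloc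
  obtain ⟨x₁, h₁, x₂, h₂, h⟩ := laurent_split_ring C₁ C₂ hj hj1 hj2 β hβmem hβ c hc hn a ha
  refine ⟨x₁, h₁, x₂, h₂, ?_⟩
  rw [← h, ← mul_assoc, mul_comm (jinv ^ a), ← mul_pow, hj, one_pow, one_mul]

end CG1

section CG1field

variable {R : Type*} [CommRing R] {F : Type*} [Field F] [Algebra R F]

/-- **CG1**, field form: `B[1/j] = B + j ^ n B∞` for `c0 ≤ n`. -/
theorem laurent_split (B Binf : Subalgebra R F) (j : F) (hj : j ≠ 0) (hjB : j ∈ B)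
    (hjinv : j⁻¹ ∈ Binf) {ι : Type*} [Fintype ι] (β : ι → F) (hβmem : ∀ i, β i ∈ B)
    (hβ : ∀ b ∈ B, ∃ p : ι → R[X], b = ∑ i, aeval j (p i) * β i) (c0 : ℕ)
    (hc : ∀ i, j⁻¹ ^ c0 * β i ∈ Binf) :
    ∀ n, c0 ≤ n → ∀ (a : ℕ) (b : F), b ∈ B →
      ∃ x1 ∈ B, ∃ x2 ∈ Binf, j⁻¹ ^ a * b = x1 + j ^ n * x2 :=
  fun _ hn a _ hb =>
    laurent_split_ring B Binf (mul_inv_cancel₀ hj) hjB hjinv β hβmem hβ c0 hc hn a hb

end CG1field

section CG2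

variable {C₁₂ : Type*} [CommRing C₁₂]

/-- **CG2**, core form (subrings, `π : C₁₂`).  `red` has kernel `(π)`, `C₁` is `π`-saturated,
`C₂ ⊆ C₁[1/jj]`, and `C₁[1/jj] = C₁ + jj ^ n C₂` (CG1).  Then every element of
`red C₁ ∩ (red jj) ^ n * red C₂` is the reduction of an element of `C₁ ∩ jj ^ n C₂`. -/
theorem lift_of_split_subring (C₁ C₂ : Subring C₁₂) (π : C₁₂)
    (hπ₁ : ∀ x ∈ C₁, π * x ∈ C₁) (hπ₂ : ∀ x ∈ C₂, π * x ∈ C₂)
    {Fb : Type*} [CommRing Fb] (red : C₁₂ →+* Fb)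
    (hker : ∀ y, red y = 0 → ∃ z, y = π * z) (hπ : red π = 0)
    {jj jinv : C₁₂} (hj : jj * jinv = 1) (hj1 : jj ∈ C₁)
    (hsat : ∀ x : C₁₂, π * x ∈ C₁ → x ∈ C₁)
    (hloc : ∀ y ∈ C₂, ∃ a : ℕ, jj ^ a * y ∈ C₁)
    (n : ℕ)
    (hsplit : ∀ (a : ℕ) (b : C₁₂), b ∈ C₁ →
      ∃ x₁ ∈ C₁, ∃ x₂ ∈ C₂, jinv ^ a * b = x₁ + jj ^ n * x₂)
    {b b' : C₁₂} (hb : b ∈ C₁) (hb' : b' ∈ C₂) (hred : red b = red jj ^ n * red b') :
    ∃ f ∈ C₁, jinv ^ n * f ∈ C₂ ∧ red f = red b := by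
  have hjpow : ∀ m : ℕ, jinv ^ m * jj ^ m = 1 := fun m => by
    rw [← mul_pow, mul_comm, hj, one_pow]
  have h0 : red (b - jj ^ n * b') = 0 := by
    rw [map_sub, map_mul, map_pow, hred, sub_self]
  obtain ⟨x, hx⟩ := hker _ h0
  obtain ⟨a, ha⟩ := hloc b' hb'
  have h1 : π * (jj ^ a * x) ∈ C₁ := by
    have : π * (jj ^ a * x) = jj ^ a * b - jj ^ n * (jj ^ a * b') := by
      rw [mul_left_comm, ← hx]; ring
    rw [this]
    exact sub_mem (mul_mem (pow_mem hj1 a) hb) (mul_mem (pow_mem hj1 n) ha)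
  obtain ⟨x₁, h₁, x₂, h₂, hsp⟩ := hsplit a _ (hsat _ h1)
  have hxsp : x = x₁ + jj ^ n * x₂ := by
    rw [← hsp, ← mul_assoc, hjpow, one_mul]
  have hf : b - π * x₁ = jj ^ n * (b' + π * x₂) := by
    have : b = jj ^ n * b' + π * x := by rw [← hx]; ring
    rw [this, hxsp]; ring
  refine ⟨b - π * x₁, sub_mem hb (hπ₁ _ h₁), ?_, ?_⟩
  · rw [hf, ← mul_assoc, hjpow, one_mul]
    exact add_mem hb' (hπ₂ _ h₂)
  · rw [map_sub, map_mul, hπ, zero_mul, sub_zero]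

/-- The easy converse of `lift_of_split_subring`. -/
theorem red_mem_of_mem_lattice {Fb : Type*} [CommRing Fb] (red : C₁₂ →+* Fb)
    {jj jinv : C₁₂} (hj : jj * jinv = 1) (n : ℕ) (f : C₁₂) :
    red f = red jj ^ n * red (jinv ^ n * f) := by
  rw [← map_pow, ← map_mul, ← mul_assoc, ← mul_pow, hj, one_pow, one_mul]

/-- **CG2**, subalgebra form (`π : R` in the base ring; helper83's chart vocabulary). -/
theorem lift_of_split_ring {R : Type*} [CommRing R] [Algebra R C₁₂] (C₁ C₂ : Subalgebra R C₁₂)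
    (π : R) {Fb : Type*} [CommRing Fb] (red : C₁₂ →+* Fb)
    (hker : ∀ y, red y = 0 → ∃ z, y = π • z) (hπ : red (algebraMap R C₁₂ π) = 0)
    {jj jinv : C₁₂} (hj : jj * jinv = 1) (hj1 : jj ∈ C₁)
    (hsat : ∀ x : C₁₂, π • x ∈ C₁ → x ∈ C₁)
    (hloc : ∀ y ∈ C₂, ∃ a : ℕ, jj ^ a * y ∈ C₁)
    (n : ℕ)
    (hsplit : ∀ (a : ℕ) (b : C₁₂), b ∈ C₁ →
      ∃ x₁ ∈ C₁, ∃ x₂ ∈ C₂, jinv ^ a * b = x₁ + jj ^ n * x₂)
    {b b' : C₁₂} (hb : b ∈ C₁) (hb' : b' ∈ C₂) (hred : red b = red jj ^ n * red b') :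
    ∃ f ∈ C₁, jinv ^ n * f ∈ C₂ ∧ red f = red b := by
  refine lift_of_split_subring C₁.toSubring C₂.toSubring (algebraMap R C₁₂ π)
    (fun x hx => ?_) (fun x hx => ?_) red (fun y hy => ?_) hπ hj hj1 (fun x hx => ?_)
    hloc n hsplit hb hb' hred
  · rw [← Algebra.smul_def]; exact C₁.smul_mem hx π
  · rw [← Algebra.smul_def]; exact C₂.smul_mem hx π
  · obtain ⟨z, hz⟩ := hker y hy
    exact ⟨z, by rw [hz, Algebra.smul_def]⟩
  · refine hsat x ?_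
    rw [Algebra.smul_def]; exact hx

end CG2

section CG2field

variable {F : Type*} [Field F]

/-- **CG2**, field form (helper33's shape of #1768): `O` the Gauss valuation ring of `F`,
`red : O →+* Fk` with kernel `π O`, `B, B∞ ⊆ O` the two charts, `B` saturated in `O`. -/
theorem lift_of_saturated (O B Binf : Subring F) (π j : F) (hj : j ≠ 0)
    {Fk : Type*} [CommRing Fk] (red : O →+* Fk)
    (hBO : B ≤ O) (hBinfO : Binf ≤ O) (hπO : π ∈ O) (hjB : j ∈ B) (hjinv : j⁻¹ ∈ Binf)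
    (hπB : ∀ x ∈ B, π * x ∈ B) (hπBinf : ∀ x ∈ Binf, π * x ∈ Binf)
    (hker : ∀ x : O, red x = 0 → ∃ y : O, (x : F) = π * y) (hπ : red ⟨π, hπO⟩ = 0)
    (hsat : ∀ x ∈ O, π * x ∈ B → x ∈ B)
    (hloc : ∀ y ∈ Binf, ∃ a : ℕ, j ^ a * y ∈ B)
    (n : ℕ)
    (hsplit : ∀ (a : ℕ) (b : F), b ∈ B → ∃ x1 ∈ B, ∃ x2 ∈ Binf, j⁻¹ ^ a * b = x1 + j ^ n * x2)
    (b b' : O) (hb : (b : F) ∈ B) (hb' : (b' : F) ∈ Binf)
    (hred : red b = red ⟨j, hBO hjB⟩ ^ n * red b') :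
    ∃ f : O, (f : F) ∈ B ∧ j⁻¹ ^ n * (f : F) ∈ Binf ∧ red f = red b := by
  obtain ⟨f, hf1, hf2, hf3⟩ := lift_of_split_subring (C₁₂ := O)
    (B.comap O.subtype) (Binf.comap O.subtype) ⟨π, hπO⟩
    (fun x hx => hπB _ hx) (fun x hx => hπBinf _ hx) red
    (fun y hy => by
      obtain ⟨z, hz⟩ := hker y hy
      exact ⟨z, Subtype.ext hz⟩) hπ
    (jj := ⟨j, hBO hjB⟩) (jinv := ⟨j⁻¹, hBinfO hjinv⟩)
    (Subtype.ext (mul_inv_cancel₀ hj)) hjB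
    (fun x hx => hsat _ x.2 hx)
    (fun y hy => by
      obtain ⟨a, ha⟩ := hloc _ hy
      exact ⟨a, ha⟩) n
    (fun a b hb => by
      obtain ⟨x1, h1, x2, h2, h⟩ := hsplit a _ hb
      exact ⟨⟨x1, hBO h1⟩, h1, ⟨x2, hBinfO h2⟩, h2, Subtype.ext h⟩)
    (b := b) (b' := b') hb hb' hred
  exact ⟨f, hf1, hf2, hf3⟩

end CG2field

end Fermat.Agent.S18.H40
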