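import Mathlib
import Fermat.Agent.S18.H40_CechGenusCore

/-!
# CECH-GENUS, input (FG): the chart data of the two affine charts

Mathlib only.  `R` a commutative ring, `F` a field over `R`, `j : F`, `j ≠ 0`.
`chartB R j` is the integral closure of `R[j]` in `F`, as an `R`-subalgebra of `F`.

* `exists_pow_mul_isIntegral` (FG1): `x` integral over `R[j]` ⟹ `j⁻¹ ^ n * x` integral over
  `R[j⁻¹]` for all large `n`.
* `exists_chart_data` (FG2): if the integral closure of `R[j]` is a finitely generated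
  `R[j]`-module, then there are `β`, `c0` as in the hypotheses `hβmem`, `hβ`, `hc` of `laurent_split`;
  `chart_hloc` is the hypothesis `hloc`.
-/

namespace Fermat.Agent.S18.H40

open Polynomial

section Generic

variable {R : Type*} [CommRing R] {F : Type*} [Field F] [Algebra R F]

/-- Generic scaling principle. -/
theorem exists_pow_mul_isIntegral_of (S S' : Subalgebra R F) (u : F)
    (hS : ∀ a ∈ S, ∃ m : ℕ, ∀ e, m ≤ e → u ^ e * a ∈ S') {x : F} (hx : IsIntegral S x) :
    ∃ m : ℕ, ∀ n, m ≤ n → IsIntegral S' (u ^ n * x) := by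
  classical
  obtain ⟨p, hpm, hp⟩ := hx
  set P : F[X] := p.map (algebraMap S F) with hP
  have hPm : P.Monic := hpm.map _
  have hPd : P.natDegree = p.natDegree := hpm.natDegree_map _
  have hPx : eval₂ (RingHom.id F) x P = 0 := by
    rw [hP, eval₂_map, RingHom.id_comp]; exact hp
  have hS' : ∀ a : S, ∃ m : ℕ, ∀ e, m ≤ e → u ^ e * (a : F) ∈ S' := fun a => hS a a.2
  choose m hm using hS'
  refine ⟨(Finset.range (p.natDegree + 1)).sup (fun i => m (p.coeff i)), fun n hn => ?_⟩
  have hroot : eval₂ (RingHom.id F) (u ^ n * x) (scaleRoots P (u ^ n)) = 0 :=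
    scaleRoots_eval₂_eq_zero (RingHom.id F) hPx
  have hQm : (scaleRoots P (u ^ n)).Monic := (monic_scaleRoots_iff _).2 hPm
  have hlift : scaleRoots P (u ^ n) ∈ lifts (algebraMap S' F) := by
    rw [lifts_iff_coeff_lifts]
    intro i
    rw [coeff_scaleRoots, hPd]
    rcases lt_trichotomy i p.natDegree with hi | hi | hi
    · have h1 : P.coeff i = ((p.coeff i : S) : F) := by rw [hP, coeff_map]; rfl
      have h2 : m (p.coeff i) ≤ n * (p.natDegree - i) := by
        have h3 : m (p.coeff i) ≤ n :=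
          le_trans (Finset.le_sup (f := fun i => m (p.coeff i))
            (Finset.mem_range.2 (Nat.lt_succ_of_lt hi))) hn
        have h4 : 1 ≤ p.natDegree - i := Nat.sub_pos_of_lt hi
        calc m (p.coeff i) ≤ n * 1 := by simpa using h3
          _ ≤ n * (p.natDegree - i) := Nat.mul_le_mul_left _ h4
      have h5 := hm (p.coeff i) _ h2
      rw [h1, ← pow_mul, mul_comm]
      exact ⟨⟨_, h5⟩, rfl⟩
    · subst hi
      have : P.coeff p.natDegree = 1 := by rw [← hPd]; exact hPm.coeff_natDegree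
      rw [this, Nat.sub_self, pow_zero, mul_one]
      exact ⟨1, map_one _⟩
    · have : P.coeff i = 0 := coeff_eq_zero_of_natDegree_lt (by rw [hPd]; exact hi)
      rw [this, zero_mul]
      exact ⟨0, map_zero _⟩
  obtain ⟨q, hq, -, hqm⟩ := lifts_and_natDegree_eq_and_monic hlift hQm
  refine ⟨q, hqm, ?_⟩
  rw [eval₂_eq_eval_map, hq]
  rw [eval₂_eq_eval_map, Polynomial.map_id] at hroot
  exact hroot

/-- Multiplying an element of `R[j]` by a high power of `j⁻¹` lands in `R[j⁻¹]`. -/
theorem exists_pow_mul_mem_adjoin_inv (j : F) (hj : j ≠ 0) {a : F}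
    (ha : a ∈ Algebra.adjoin R {j}) :
    ∃ m : ℕ, ∀ e, m ≤ e → j⁻¹ ^ e * a ∈ Algebra.adjoin R {j⁻¹} := by
  rw [Algebra.adjoin_singleton_eq_range_aeval] at ha
  obtain ⟨q, rfl⟩ := ha
  refine ⟨q.natDegree, fun e he => ?_⟩
  change j⁻¹ ^ e * aeval j q ∈ _
  rw [aeval_eq_sum_range, Finset.mul_sum]
  refine Subalgebra.sum_mem _ fun i hi => ?_
  have hi' : i ≤ e := le_trans (Nat.lt_succ_iff.1 (Finset.mem_range.1 hi)) he
  obtain ⟨d, rfl⟩ := Nat.exists_eq_add_of_le hi'
  have : j⁻¹ ^ (i + d) * (q.coeff i • j ^ i) = q.coeff i • j⁻¹ ^ d := by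
    rw [mul_smul_comm, pow_add, mul_comm (j⁻¹ ^ i), mul_assoc, ← mul_pow, inv_mul_cancel₀ hj,
      one_pow, mul_one]
  rw [this]
  exact Subalgebra.smul_mem _ (Subalgebra.pow_mem _ (Algebra.self_mem_adjoin_singleton R _) d) _

/-- **(FG1)** `x` integral over `R[j]` ⟹ `j⁻¹ ^ n * x` integral over `R[j⁻¹]` for `n ≫ 0`. -/
theorem exists_pow_mul_isIntegral (j : F) (hj : j ≠ 0) {x : F}
    (hx : IsIntegral (Algebra.adjoin R {j}) x) :
    ∃ m : ℕ, ∀ n, m ≤ n → IsIntegral (Algebra.adjoin R {j⁻¹}) (j⁻¹ ^ n * x) :=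
  exists_pow_mul_isIntegral_of _ _ j⁻¹ (fun _ ha => exists_pow_mul_mem_adjoin_inv j hj ha) hx

/-- **(FG1')** the same with the roles of `j` and `j⁻¹` exchanged. -/
theorem exists_pow_mul_isIntegral' (j : F) (hj : j ≠ 0) {y : F}
    (hy : IsIntegral (Algebra.adjoin R {j⁻¹}) y) :
    ∃ m : ℕ, ∀ n, m ≤ n → IsIntegral (Algebra.adjoin R {j}) (j ^ n * y) := by
  have := exists_pow_mul_isIntegral (R := R) j⁻¹ (inv_ne_zero hj) hy
  rwa [inv_inv] at this

end Generic

section Charts

variable (R : Type*) [CommRing R] {F : Type*} [Field F] [Algebra R F]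

/-- The affine chart attached to the coordinate `j`: the integral closure of `R[j]` in `F`,
as an `R`-subalgebra of `F`. -/
def chartB (j : F) : Subalgebra R F :=
  (integralClosure (Algebra.adjoin R {j}) F).restrictScalars R

variable {R}

theorem mem_chartB {j x : F} : x ∈ chartB R j ↔ IsIntegral (Algebra.adjoin R {j}) x :=
  Iff.rfl

theorem self_mem_chartB (j : F) : j ∈ chartB R j := by
  rw [mem_chartB]
  exact (isIntegral_algebraMap (R := Algebra.adjoin R {j}) (A := F)
    (x := ⟨j, Algebra.self_mem_adjoin_singleton R j⟩))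

theorem adjoin_le_chartB (j : F) : Algebra.adjoin R {j} ≤ chartB R j := by
  intro x hx
  rw [mem_chartB]
  exact (isIntegral_algebraMap (R := Algebra.adjoin R {j}) (A := F) (x := ⟨x, hx⟩))

/-- `hloc` of the lattice lemmas. -/
theorem chart_hloc (j : F) (hj : j ≠ 0) {y : F} (hy : y ∈ chartB R j⁻¹) :
    ∃ a : ℕ, j ^ a * y ∈ chartB R j := by
  obtain ⟨m, hm⟩ := exists_pow_mul_isIntegral' j hj (mem_chartB.1 hy)
  exact ⟨m, mem_chartB.2 (hm m le_rfl)⟩

/-- **(FG2)** the chart data `β`, `c0` (hypotheses `hβmem`, `hβ`, `hc` of `laurent_split`) from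
finite generation of the integral closure of `R[j]` over `R[j]`. -/
theorem exists_chart_data (j : F) (hj : j ≠ 0)
    (hfg : (Subalgebra.toSubmodule (integralClosure (Algebra.adjoin R {j}) F)).FG) :
    ∃ (n : ℕ) (β : Fin n → F) (c0 : ℕ), (∀ i, β i ∈ chartB R j) ∧
      (∀ b ∈ chartB R j, ∃ p : Fin n → R[X], b = ∑ i, aeval j (p i) * β i) ∧
      (∀ i, j⁻¹ ^ c0 * β i ∈ chartB R j⁻¹) := by
  classical
  obtain ⟨n, β, hβ⟩ := Submodule.fg_iff_exists_fin_generating_family.1 hfg
  have hmem : ∀ i, β i ∈ chartB R j := by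
    intro i
    have : β i ∈ Subalgebra.toSubmodule (integralClosure (Algebra.adjoin R {j}) F) := by
      rw [← hβ]; exact Submodule.subset_span ⟨i, rfl⟩
    exact this
  have hint : ∀ i, ∃ m : ℕ, ∀ k, m ≤ k → IsIntegral (Algebra.adjoin R {j⁻¹}) (j⁻¹ ^ k * β i) :=
    fun i => exists_pow_mul_isIntegral j hj (mem_chartB.1 (hmem i))
  choose m hm using hint
  refine ⟨n, β, Finset.univ.sup m, hmem, ?_, ?_⟩
  · intro b hb
    have hb' : b ∈ Submodule.span (Algebra.adjoin R {j}) (Set.range β) := by
      rw [hβ]; exact hb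
    obtain ⟨c, hc⟩ := (Submodule.mem_span_range_iff_exists_fun _).1 hb'
    have hc' : ∀ i, ∃ p : R[X], aeval j p = (c i : F) := by
      intro i
      have h1 : ∀ z : F, z ∈ Algebra.adjoin R {j} → ∃ p : R[X], aeval j p = z := by
        intro z hz
        rw [Algebra.adjoin_singleton_eq_range_aeval] at hz
        exact hz
      exact h1 _ (c i).2
    choose p hp using hc'
    refine ⟨p, ?_⟩
    rw [← hc]
    refine Finset.sum_congr rfl fun i _ => ?_
    rw [hp]
    rfl
  · intro i
    exact mem_chartB.2 (hm i _ (Finset.le_sup (Finset.mem_univ i)))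

/-- **(FG) ⟹ CG1 for the two charts**: `B[1/j] = B + j ^ n B∞` for all `n ≥ c0`, in the
`hsplit` shape consumed by `lift_of_saturated`. -/
theorem exists_chart_split (j : F) (hj : j ≠ 0)
    (hfg : (Subalgebra.toSubmodule (integralClosure (Algebra.adjoin R {j}) F)).FG) :
    ∃ c0 : ℕ, ∀ n, c0 ≤ n → ∀ (a : ℕ) (b : F), b ∈ chartB R j →
      ∃ x1 ∈ chartB R j, ∃ x2 ∈ chartB R j⁻¹, j⁻¹ ^ a * b = x1 + j ^ n * x2 := by
  obtain ⟨n, β, c0, h1, h2, h3⟩ := exists_chart_data j hj hfg
  exact ⟨c0, laurent_split (chartB R j) (chartB R j⁻¹) j hj (self_mem_chartB j)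
    (self_mem_chartB j⁻¹) β h1 h2 c0 h3⟩

end Charts

open IntermediateField

section Finiteness

variable {R : Type*} [CommRing R]
  {K : Type*} [Field K] [Algebra R K]
  {F : Type*} [Field F] [Algebra R F] [Algebra K F] [IsScalarTower R K F]

theorem transcendental_of_tower [IsFractionRing R K] (j : F) (htr : Transcendental K j) :
    Transcendental R j := by
  intro h
  exact htr (h.extendScalars (IsFractionRing.injective R K))

theorem adjoin_le_adjoinSimple (j : F) {a : F} (ha : a ∈ Algebra.adjoin R {j}) : a ∈ K⟮j⟯ := by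
  have h1 : Algebra.adjoin R {j} ≤ (K⟮j⟯.toSubalgebra).restrictScalars R := by
    refine Algebra.adjoin_le ?_
    intro x hx
    rw [Set.mem_singleton_iff] at hx
    subst hx
    exact mem_adjoin_simple_self K x
  exact h1 ha

/-- the inclusion `R[j] → K(j)` -/
def adjoinToSimple (j : F) : Algebra.adjoin R {j} →+* K⟮j⟯ where
  toFun a := ⟨a, adjoin_le_adjoinSimple j a.2⟩
  map_one' := rfl
  map_mul' _ _ := rfl
  map_zero' := rfl
  map_add' _ _ := rfl

end Finiteness

section Finiteness2

variable {R : Type*} [CommRing R]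
  {K : Type*} [Field K] [Algebra R K]
  {F : Type*} [Field F] [Algebra R F] [Algebra K F] [IsScalarTower R K F]

/-- clearing denominators in `aeval j r`, `r ∈ K[X]` -/
theorem exists_aeval_eq_div [IsDomain R] [IsFractionRing R K] (j : F) (r : K[X]) :
    ∃ (c : R) (r' : R[X]), c ≠ 0 ∧ algebraMap R F c * aeval j r = aeval j r' := by
  obtain ⟨b, hbM, hb⟩ := IsLocalization.integerNormalization_spec (nonZeroDivisors R) r
  refine ⟨b, IsLocalization.integerNormalization (nonZeroDivisors R) r,
    nonZeroDivisors.ne_zero hbM, ?_⟩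
  have h1 := congrArg (aeval j) hb
  rw [aeval_map_algebraMap] at h1
  rw [h1, ← algebraMap_smul K b r, map_smul, Algebra.smul_def, ← IsScalarTower.algebraMap_apply]

end Finiteness2

section Finiteness3

variable {R : Type*} [CommRing R]
  {K : Type*} [Field K] [Algebra R K]
  {F : Type*} [Field F] [Algebra R F] [Algebra K F] [IsScalarTower R K F]

/-- **(FG3)** finiteness of the integral closure of `R[j]` in `F`. -/
theorem integralClosure_adjoin_fg [IsDomain R] [IsNoetherianRing R] [IsIntegrallyClosed R]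
    [IsFractionRing R K] (j : F) (htr : Transcendental K j)
    [FiniteDimensional K⟮j⟯ F] [Algebra.IsSeparable K⟮j⟯ F] :
    (Subalgebra.toSubmodule (integralClosure (Algebra.adjoin R {j}) F)).FG := by
  have hinjRF : Function.Injective (algebraMap R F) := by
    rw [IsScalarTower.algebraMap_eq R K F]
    exact (algebraMap K F).injective.comp (IsFractionRing.injective R K)
  let e : R[X] ≃ₐ[R] Algebra.adjoin R {j} :=
    Polynomial.algEquivOfTranscendental R j (transcendental_of_tower j htr)
  have hA1 : IsNoetherianRing (Algebra.adjoin R {j}) :=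
    isNoetherianRing_of_ringEquiv R[X] e.toRingEquiv
  have hA2 : IsIntegrallyClosed (Algebra.adjoin R {j}) :=
    IsIntegrallyClosed.of_equiv e.toRingEquiv
  let _ : Algebra (Algebra.adjoin R {j}) K⟮j⟯ := (adjoinToSimple (K := K) j).toAlgebra
  have hst : IsScalarTower (Algebra.adjoin R {j}) K⟮j⟯ F :=
    IsScalarTower.of_algebraMap_eq (fun a => rfl)
  have hfr : IsFractionRing (Algebra.adjoin R {j}) K⟮j⟯ := by
    have hfs : FaithfulSMul (Algebra.adjoin R {j}) K⟮j⟯ :=
      (faithfulSMul_iff_algebraMap_injective _ _).2 (by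
        intro a b hab
        apply Subtype.ext
        exact congrArg (fun z : K⟮j⟯ => (z : F)) hab)
    refine IsFractionRing.of_field (Algebra.adjoin R {j}) K⟮j⟯ ?_
    rintro ⟨z, hz⟩
    obtain ⟨r, s, hrs⟩ := (mem_adjoin_simple_iff K z).1 hz
    obtain ⟨c, r', hc, hr'⟩ := exists_aeval_eq_div (R := R) j r
    obtain ⟨d, s', hd, hs'⟩ := exists_aeval_eq_div (R := R) j s
    have hcF : algebraMap R F c ≠ 0 := fun h => hc (hinjRF (by rw [h, map_zero]))
    have hdF : algebraMap R F d ≠ 0 := fun h => hd (hinjRF (by rw [h, map_zero]))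
    refine ⟨⟨aeval j (C d * r'), ?_⟩, ⟨aeval j (C c * s'), ?_⟩, ?_⟩
    · rw [Algebra.adjoin_singleton_eq_range_aeval]; exact ⟨_, rfl⟩
    · rw [Algebra.adjoin_singleton_eq_range_aeval]; exact ⟨_, rfl⟩
    · apply Subtype.ext
      change z = aeval j (C d * r') / aeval j (C c * s')
      rw [map_mul, map_mul, aeval_C, aeval_C, ← hr', ← hs', hrs]
      by_cases hs0 : aeval j s = 0
      · rw [hs0]; simp
      · field_simp
  have hfin : Module.Finite (Algebra.adjoin R {j}) (integralClosure (Algebra.adjoin R {j}) F) :=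
    IsIntegralClosure.finite (Algebra.adjoin R {j}) K⟮j⟯ F _
  exact Module.Finite.iff_fg.1 hfin

end Finiteness3

section FinitenessCor

variable {R : Type*} [CommRing R]
  {K : Type*} [Field K] [Algebra R K]
  {F : Type*} [Field F] [Algebra R F] [Algebra K F] [IsScalarTower R K F]

/-- **(FG)**, final form: for `R` a noetherian integrally closed domain with fraction field `K`,
`j ∈ F` transcendental over `K` and `F / K(j)` finite separable, the two charts
`B = chartB R j`, `B∞ = chartB R j⁻¹` satisfy `B[1/j] = B + j ^ n B∞` for all large `n`. -/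
theorem exists_chart_split_of_finite [IsDomain R] [IsNoetherianRing R] [IsIntegrallyClosed R]
    [IsFractionRing R K] (j : F) (htr : Transcendental K j)
    [FiniteDimensional K⟮j⟯ F] [Algebra.IsSeparable K⟮j⟯ F] :
    ∃ c0 : ℕ, ∀ n, c0 ≤ n → ∀ (a : ℕ) (b : F), b ∈ chartB R j →
      ∃ x1 ∈ chartB R j, ∃ x2 ∈ chartB R j⁻¹, j⁻¹ ^ a * b = x1 + j ^ n * x2 := by
  have hj : j ≠ 0 := by
    rintro rfl
    exact htr (isAlgebraic_zero)
  exact exists_chart_split j hj (integralClosure_adjoin_fg j htr)

end FinitenessCor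

section Wrappers

variable {R : Type*} [CommRing R]
  {K : Type*} [Field K] [Algebra R K]
  {F : Type*} [Field F] [Algebra R F] [Algebra K F] [IsScalarTower R K F]

/-- (FG2) in the shape requested by the CECH-GENUS model file: generators of the integral
closure of `R[j]` over `R[j]`, indexed by a `Fintype` in `Type`. -/
theorem exists_finite_generators (j : F)
    (hfin : Module.Finite (Algebra.adjoin R {j}) (integralClosure (Algebra.adjoin R {j}) F)) :
    ∃ (ι : Type) (_ : Fintype ι) (β : ι → F), (∀ i, IsIntegral (Algebra.adjoin R {j}) (β i)) ∧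
      ∀ b, IsIntegral (Algebra.adjoin R {j}) b → ∃ p : ι → R[X], b = ∑ i, aeval j (p i) * β i := by
  classical
  have hfg : (Subalgebra.toSubmodule (integralClosure (Algebra.adjoin R {j}) F)).FG :=
    Module.Finite.iff_fg.1 hfin
  obtain ⟨n, β, hβ⟩ := Submodule.fg_iff_exists_fin_generating_family.1 hfg
  refine ⟨Fin n, inferInstance, β, fun i => ?_, fun b hb => ?_⟩
  · have : β i ∈ Subalgebra.toSubmodule (integralClosure (Algebra.adjoin R {j}) F) := by
      rw [← hβ]; exact Submodule.subset_span ⟨i, rfl⟩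
    exact this
  · have hb' : b ∈ Submodule.span (Algebra.adjoin R {j}) (Set.range β) := by
      rw [hβ]; exact hb
    obtain ⟨c, hc⟩ := (Submodule.mem_span_range_iff_exists_fun _).1 hb'
    have hc' : ∀ i, ∃ p : R[X], aeval j p = (c i : F) := by
      intro i
      have h1 : ∀ z : F, z ∈ Algebra.adjoin R {j} → ∃ p : R[X], aeval j p = z := by
        intro z hz
        rw [Algebra.adjoin_singleton_eq_range_aeval] at hz
        exact hz
      exact h1 _ (c i).2
    choose p hp using hc'
    refine ⟨p, ?_⟩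
    rw [← hc]
    refine Finset.sum_congr rfl fun i _ => ?_
    rw [hp]
    rfl

/-- (FG3) in `Module.Finite` form. -/
theorem module_finite_integralClosure_adjoin [IsDomain R] [IsNoetherianRing R]
    [IsIntegrallyClosed R] [IsFractionRing R K] (j : F) (htr : Transcendental K j)
    [FiniteDimensional K⟮j⟯ F] [Algebra.IsSeparable K⟮j⟯ F] :
    Module.Finite (Algebra.adjoin R {j}) (integralClosure (Algebra.adjoin R {j}) F) :=
  Module.Finite.iff_fg.2 (integralClosure_adjoin_fg j htr)

/-- (FG2)+(FG3): the generators from the concrete hypotheses. -/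
theorem exists_finite_generators_of_finite [IsDomain R] [IsNoetherianRing R]
    [IsIntegrallyClosed R] [IsFractionRing R K] (j : F) (htr : Transcendental K j)
    [FiniteDimensional K⟮j⟯ F] [Algebra.IsSeparable K⟮j⟯ F] :
    ∃ (ι : Type) (_ : Fintype ι) (β : ι → F), (∀ i, IsIntegral (Algebra.adjoin R {j}) (β i)) ∧
      ∀ b, IsIntegral (Algebra.adjoin R {j}) b → ∃ p : ι → R[X], b = ∑ i, aeval j (p i) * β i :=
  exists_finite_generators j (module_finite_integralClosure_adjoin j htr)

end Wrappers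

end Fermat.Agent.S18.H40
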