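/-
S18 / DVR foundation (helper45), part 12 (generic library): the decomposition-group twin of the
inertia package `H45_InertiaBase` / `H45_CutOverField`.

`K1 := unrCyclo ℓ`, `E` an intermediate field of `Qbar / K1` which is stable under the whole of
`Gal(Qbar / ℚ)` (hypothesis `hE`), `A'' := cutOver A E`.

* `galois_apply_mem_unrCyclo` : `K1` is stable under `Gal(Qbar / ℚ)`;
  `exists_finite_galois_stable_ge` : every finite subset of `Qbar` lies in a finite Galois `E / K1`
  which is stable under `Gal(Qbar / ℚ)`;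
* `galActK1`, `galActE` : the ring automorphisms of `K1` and `E` induced by `τ ∈ Gal(Qbar / ℚ)`;
* `galActA0`, `galActCutOver` : for `φ` in the decomposition group of `A`, the ring automorphisms of
  `A ∩ K1` and `A ∩ E`; a Frobenius lift induces `x ↦ x ^ ℓ` on the residue fields;
* `galActFullC` : the coefficientwise action on `modularFunctionFieldFullC ↥E N`, intertwined by
  `H99.toBar` with the prelude's arithmetic Galois action;
* `map_mem_chartB_of_semilinear` : a semilinear automorphism maps `chartB R J` onto `chartB R (s J)`.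
-/
import Mathlib
import Fermat.Agent.S18.H45_CutOverField
import Fermat.Agent.S18.H40_CechFG

set_option autoImplicit false
set_option linter.unusedSectionVars false
set_option linter.style.haveILetI false
set_option synthInstance.maxHeartbeats 400000

namespace Fermat.Agent.S18.H45

open IsLocalRing ModularCurve HahnSeries
open scoped Pointwise

noncomputable section

local notation "Qbar" => AlgebraicClosure ℚ

variable {A : ValuationSubring Qbar} {ℓ : ℕ} (hℓ : ℓ.Prime) (hA : A.LiesOverPrime ℓ)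

/-! ### (1) `K1` is Galois-stable; Galois-stable finite Galois extensions of `K1` -/

/-- `K1 = ℚ(μ_m : ℓ ∤ m)` is stable under `Gal(Qbar / ℚ)`. -/
theorem galois_apply_mem_unrCyclo (τ : Qbar ≃ₐ[ℚ] Qbar) {x : Qbar} (hx : x ∈ unrCyclo ℓ) :
    τ x ∈ unrCyclo ℓ := by
  have h : (unrCyclo ℓ).map (τ : Qbar →ₐ[ℚ] Qbar) ≤ unrCyclo ℓ := by
    rw [unrCyclo, IntermediateField.adjoin_map, IntermediateField.adjoin_le_iff]
    rintro _ ⟨ζ, ⟨m, hm0, hm, hζ⟩, rfl⟩
    refine IntermediateField.subset_adjoin _ _ ⟨m, hm0, hm, ?_⟩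
    show (τ ζ) ^ m = 1
    rw [← map_pow, hζ, map_one]
  exact h ⟨x, hx, rfl⟩

/-- Every finite subset of `Qbar` lies in a finite Galois extension `E / K1` inside `Qbar` which is
stable under the whole of `Gal(Qbar / ℚ)`: `E = K1(all ℚ-conjugates of S)`. -/
theorem exists_finite_galois_stable_ge (ℓ : ℕ) (S : Finset Qbar) :
    ∃ E : IntermediateField (unrCyclo ℓ) Qbar, FiniteDimensional (unrCyclo ℓ) E ∧
      IsGalois (unrCyclo ℓ) E ∧
      (∀ (τ : Qbar ≃ₐ[ℚ] Qbar) (x : Qbar), x ∈ E → τ x ∈ E) ∧ ∀ x ∈ S, x ∈ E := by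
  classical
  haveI halgQ : Algebra.IsAlgebraic ℚ Qbar := AlgebraicClosure.isAlgebraic ℚ
  let p : Polynomial ℚ := ∏ s ∈ S, minpoly ℚ s
  have hp0 : p ≠ 0 := by
    rw [Finset.prod_ne_zero_iff]
    intro s _
    exact minpoly.ne_zero (Algebra.IsAlgebraic.isAlgebraic s).isIntegral
  let p1 : Polynomial (unrCyclo ℓ) := p.map (algebraMap ℚ (unrCyclo ℓ))
  have hp10 : p1 ≠ 0 := (Polynomial.map_ne_zero_iff (algebraMap ℚ (unrCyclo ℓ)).injective).mpr hp0
  let E : IntermediateField (unrCyclo ℓ) Qbar :=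
    IntermediateField.adjoin (unrCyclo ℓ) (p1.rootSet Qbar)
  have hsplit : (p1.map (algebraMap (unrCyclo ℓ) Qbar)).Splits :=
    IsAlgClosed.splits _
  haveI hsf : p1.IsSplittingField (unrCyclo ℓ) E :=
    IntermediateField.adjoin_rootSet_isSplittingField hsplit
  haveI hfd : FiniteDimensional (unrCyclo ℓ) E := Polynomial.IsSplittingField.finiteDimensional E p1
  haveI hn : Normal (unrCyclo ℓ) E := Normal.of_isSplittingField p1
  have hroot : ∀ x : Qbar, x ∈ p1.rootSet Qbar ↔ Polynomial.aeval x p = 0 := by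
    intro x
    rw [Polynomial.mem_rootSet_of_ne hp10, Polynomial.aeval_map_algebraMap]
  refine ⟨E, hfd, ⟨⟩, ?_, ?_⟩
  · intro τ x hx
    induction hx using IntermediateField.adjoin_induction with
    | mem y hy =>
      refine IntermediateField.subset_adjoin _ _ ?_
      rw [hroot] at hy ⊢
      have h1 : Polynomial.aeval (τ y) p = τ (Polynomial.aeval y p) :=
        Polynomial.aeval_algHom_apply (τ : Qbar →ₐ[ℚ] Qbar) y p
      rw [h1, hy, map_zero]
    | algebraMap c =>
      have h1 : τ (algebraMap (unrCyclo ℓ) Qbar c) ∈ unrCyclo ℓ :=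
        galois_apply_mem_unrCyclo τ c.2
      have h2 : τ (algebraMap (unrCyclo ℓ) Qbar c) =
          algebraMap (unrCyclo ℓ) Qbar ⟨_, h1⟩ := rfl
      rw [h2]
      exact E.algebraMap_mem _
    | add y z _ _ hy hz =>
      rw [map_add]
      exact E.add_mem hy hz
    | inv y _ hy =>
      rw [map_inv₀]
      exact E.inv_mem hy
    | mul y z _ _ hy hz =>
      rw [map_mul]
      exact E.mul_mem hy hz
  · intro s hs
    refine IntermediateField.subset_adjoin _ _ ?_
    rw [hroot]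
    show Polynomial.aeval s (∏ s ∈ S, minpoly ℚ s) = 0
    rw [map_prod]
    exact Finset.prod_eq_zero hs (minpoly.aeval ℚ s)

/-! ### (2) the action of `Gal(Qbar / ℚ)` on `K1` and on `E` -/

/-- The ring automorphism of `K1` induced by `τ ∈ Gal(Qbar / ℚ)`. -/
def galActK1 (ℓ : ℕ) (τ : Qbar ≃ₐ[ℚ] Qbar) : unrCyclo ℓ ≃+* unrCyclo ℓ where
  toFun x := ⟨τ x, galois_apply_mem_unrCyclo τ x.2⟩
  invFun x := ⟨τ.symm x, galois_apply_mem_unrCyclo τ.symm x.2⟩
  left_inv _ := Subtype.ext (τ.symm_apply_apply _)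
  right_inv _ := Subtype.ext (τ.apply_symm_apply _)
  map_mul' _ _ := Subtype.ext (map_mul τ _ _)
  map_add' _ _ := Subtype.ext (map_add τ _ _)

@[simp] theorem coe_galActK1 (τ : Qbar ≃ₐ[ℚ] Qbar) (x : unrCyclo ℓ) :
    ((galActK1 ℓ τ x : unrCyclo ℓ) : Qbar) = τ (x : Qbar) := rfl

variable (E : IntermediateField (unrCyclo ℓ) Qbar)
variable (hE : ∀ (τ : Qbar ≃ₐ[ℚ] Qbar) (x : Qbar), x ∈ E → τ x ∈ E)

/-- The ring automorphism of a Galois-stable `E` induced by `τ ∈ Gal(Qbar / ℚ)`. -/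
def galActE (τ : Qbar ≃ₐ[ℚ] Qbar) : ↥E ≃+* ↥E where
  toFun x := ⟨τ x, hE τ _ x.2⟩
  invFun x := ⟨τ.symm x, hE τ.symm _ x.2⟩
  left_inv _ := Subtype.ext (τ.symm_apply_apply _)
  right_inv _ := Subtype.ext (τ.apply_symm_apply _)
  map_mul' _ _ := Subtype.ext (map_mul τ _ _)
  map_add' _ _ := Subtype.ext (map_add τ _ _)

@[simp] theorem coe_galActE (τ : Qbar ≃ₐ[ℚ] Qbar) (x : E) :
    ((galActE E hE τ x : E) : Qbar) = τ (x : Qbar) := rfl

@[simp] theorem coe_galActE_symm (τ : Qbar ≃ₐ[ℚ] Qbar) (x : E) :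
    (((galActE E hE τ).symm x : E) : Qbar) = τ.symm (x : Qbar) := rfl

theorem galActE_algebraMap (τ : Qbar ≃ₐ[ℚ] Qbar) (c : unrCyclo ℓ) :
    galActE E hE τ (algebraMap (unrCyclo ℓ) E c) = algebraMap (unrCyclo ℓ) E (galActK1 ℓ τ c) :=
  Subtype.ext rfl

theorem galActE_one (x : E) : galActE E hE 1 x = x := Subtype.ext rfl

theorem galActE_mul (σ τ : Qbar ≃ₐ[ℚ] Qbar) (x : E) :
    galActE E hE (σ * τ) x = galActE E hE σ (galActE E hE τ x) := Subtype.ext rfl

/-- On an inertia element `galActE` is `inertiaActE`. -/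
theorem galActE_eq_inertiaActE [Normal (unrCyclo ℓ) E] (σ : Qbar ≃ₐ[ℚ] Qbar)
    (hσ : σ ∈ A.inertiaSubgroupIn ℚ) (x : E) :
    galActE E hE σ x = inertiaActE hℓ hA E σ hσ x := by
  apply Subtype.ext
  rw [coe_galActE, coe_inertiaActE]

/-! ### (3) the action of the decomposition group on `A ∩ K1` and `A ∩ E` -/

theorem apply_mem_of_mem_decomposition {φ : Qbar ≃ₐ[ℚ] Qbar}
    (hφ : φ ∈ A.decompositionSubgroup ℚ) {x : Qbar} (hx : x ∈ A) : φ x ∈ A :=
  Fermat.Agent.S37.H53.mem_of_mem_decomposition A hφ hx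

theorem symm_apply_mem_of_mem_decomposition {φ : Qbar ≃ₐ[ℚ] Qbar}
    (hφ : φ ∈ A.decompositionSubgroup ℚ) {x : Qbar} (hx : x ∈ A) : φ.symm x ∈ A :=
  apply_mem_of_mem_decomposition (φ := φ⁻¹) (inv_mem hφ) hx

/-- A decomposition-group element acts on `A1 = A ∩ K1`. -/
def galActA0 (φ : Qbar ≃ₐ[ℚ] Qbar) (hφ : φ ∈ A.decompositionSubgroup ℚ) :
    A0 A ℓ ≃+* A0 A ℓ where
  toFun x := ⟨galActK1 ℓ φ x, apply_mem_of_mem_decomposition hφ x.2⟩
  invFun x := ⟨(galActK1 ℓ φ).symm x, symm_apply_mem_of_mem_decomposition hφ x.2⟩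
  left_inv _ := Subtype.ext ((galActK1 ℓ φ).symm_apply_apply _)
  right_inv _ := Subtype.ext ((galActK1 ℓ φ).apply_symm_apply _)
  map_mul' _ _ := Subtype.ext (map_mul (galActK1 ℓ φ) _ _)
  map_add' _ _ := Subtype.ext (map_add (galActK1 ℓ φ) _ _)

@[simp] theorem coe_galActA0 (φ : Qbar ≃ₐ[ℚ] Qbar) (hφ : φ ∈ A.decompositionSubgroup ℚ)
    (x : A0 A ℓ) :
    (((galActA0 φ hφ x : A0 A ℓ) : unrCyclo ℓ) : Qbar) = φ ((x : unrCyclo ℓ) : Qbar) := rfl

/-- A decomposition-group element acts on `A'' = A ∩ E` (`E` Galois-stable). -/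
def galActCutOver (φ : Qbar ≃ₐ[ℚ] Qbar) (hφ : φ ∈ A.decompositionSubgroup ℚ) :
    cutOver A E ≃+* cutOver A E where
  toFun x := ⟨galActE E hE φ x, apply_mem_of_mem_decomposition hφ (mem_cutOver.mp x.2)⟩
  invFun x := ⟨(galActE E hE φ).symm x,
    symm_apply_mem_of_mem_decomposition hφ (mem_cutOver.mp x.2)⟩
  left_inv _ := Subtype.ext ((galActE E hE φ).symm_apply_apply _)
  right_inv _ := Subtype.ext ((galActE E hE φ).apply_symm_apply _)
  map_mul' _ _ := Subtype.ext (map_mul (galActE E hE φ) _ _)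
  map_add' _ _ := Subtype.ext (map_add (galActE E hE φ) _ _)

@[simp] theorem coe_galActCutOver (φ : Qbar ≃ₐ[ℚ] Qbar) (hφ : φ ∈ A.decompositionSubgroup ℚ)
    (x : cutOver A E) :
    (((galActCutOver E hE φ hφ x : cutOver A E) : E) : Qbar) = φ ((x : E) : Qbar) := rfl

theorem coe_galActCutOver' (φ : Qbar ≃ₐ[ℚ] Qbar) (hφ : φ ∈ A.decompositionSubgroup ℚ)
    (x : cutOver A E) :
    ((galActCutOver E hE φ hφ x : cutOver A E) : E) = galActE E hE φ (x : E) := rfl

@[simp] theorem coe_galActCutOver_symm (φ : Qbar ≃ₐ[ℚ] Qbar)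
    (hφ : φ ∈ A.decompositionSubgroup ℚ) (x : cutOver A E) :
    ((((galActCutOver E hE φ hφ).symm x : cutOver A E) : E) : Qbar) = φ.symm ((x : E) : Qbar) :=
  rfl

theorem galActCutOver_inclA0 (φ : Qbar ≃ₐ[ℚ] Qbar) (hφ : φ ∈ A.decompositionSubgroup ℚ)
    (a : A0 A ℓ) :
    galActCutOver E hE φ hφ (inclA0CutOver A E a) = inclA0CutOver A E (galActA0 φ hφ a) :=
  Subtype.ext (Subtype.ext rfl)

/-- On an inertia element `galActCutOver` is `inertiaActCutOver`. -/
theorem galActCutOver_eq_inertiaActCutOver [Normal (unrCyclo ℓ) E] (σ : Qbar ≃ₐ[ℚ] Qbar)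
    (hσ : σ ∈ A.inertiaSubgroupIn ℚ) (hσd : σ ∈ A.decompositionSubgroup ℚ) (x : cutOver A E) :
    galActCutOver E hE σ hσd x = inertiaActCutOver hℓ hA E σ hσ x := by
  apply Subtype.ext
  apply Subtype.ext
  rw [coe_galActCutOver, coe_inertiaActCutOver]

theorem galActCutOver_mem_maximalIdeal_iff (φ : Qbar ≃ₐ[ℚ] Qbar)
    (hφ : φ ∈ A.decompositionSubgroup ℚ) (x : cutOver A E) :
    galActCutOver E hE φ hφ x ∈ maximalIdeal (cutOver A E) ↔ x ∈ maximalIdeal (cutOver A E) := by
  rw [mem_maximalIdeal, mem_maximalIdeal, mem_nonunits_iff, mem_nonunits_iff,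
    MulEquiv.isUnit_map]

theorem galActA0_mem_maximalIdeal_iff (φ : Qbar ≃ₐ[ℚ] Qbar)
    (hφ : φ ∈ A.decompositionSubgroup ℚ) (x : A0 A ℓ) :
    galActA0 φ hφ x ∈ maximalIdeal (A0 A ℓ) ↔ x ∈ maximalIdeal (A0 A ℓ) := by
  rw [mem_maximalIdeal, mem_maximalIdeal, mem_nonunits_iff, mem_nonunits_iff,
    MulEquiv.isUnit_map]

/-! ### the induced action on the residue field; Frobenius lifts -/

/-- The residue class in `A` of `φ x`, `x ∈ A ∩ E`, is `φ • (residue class of x)`. -/
theorem residue_inclCutOver_galActCutOver (φ : Qbar ≃ₐ[ℚ] Qbar)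
    (hφ : φ ∈ A.decompositionSubgroup ℚ) (x : cutOver A E) :
    residue A (inclCutOver A E (galActCutOver E hE φ hφ x)) =
      (⟨φ, hφ⟩ : A.decompositionSubgroup ℚ) • residue A (inclCutOver A E x) :=
  Fermat.Agent.S37.H53.residue_sigma_eq_smul A hφ (inclCutOver A E x)
    (apply_mem_of_mem_decomposition hφ (mem_cutOver.mp x.2))

/-- **`φ̄ = Frob`**: a Frobenius lift at `ℓ` induces `x ↦ x ^ ℓ` on the residue field of `A ∩ E`. -/
theorem residue_galActCutOver_of_isFrobeniusAt {φ : Qbar ≃ₐ[ℚ] Qbar}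
    (hF : A.IsFrobeniusAt φ ℓ) (x : cutOver A E) :
    residue (cutOver A E) (galActCutOver E hE φ hF.mem_decompositionSubgroup x) =
      residue (cutOver A E) x ^ ℓ := by
  apply (residueMapCutOver (A := A) E).injective
  rw [map_pow, residueMapCutOver_residue, residueMapCutOver_residue,
    residue_inclCutOver_galActCutOver, hF.smul_residue_eq]

/-- The same modulo the maximal ideal. -/
theorem galActCutOver_sub_pow_mem_of_isFrobeniusAt {φ : Qbar ≃ₐ[ℚ] Qbar}
    (hF : A.IsFrobeniusAt φ ℓ) (x : cutOver A E) :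
    galActCutOver E hE φ hF.mem_decompositionSubgroup x - x ^ ℓ ∈ maximalIdeal (cutOver A E) := by
  rw [← residue_eq_zero_iff, map_sub, map_pow, residue_galActCutOver_of_isFrobeniusAt E hE hF,
    sub_self]

/-- The residue class in `A` of `φ a`, `a ∈ A ∩ K1`. -/
theorem resA0_galActA0 (φ : Qbar ≃ₐ[ℚ] Qbar) (hφ : φ ∈ A.decompositionSubgroup ℚ)
    (a : A0 A ℓ) :
    resA0 A ℓ (galActA0 φ hφ a) = (⟨φ, hφ⟩ : A.decompositionSubgroup ℚ) • resA0 A ℓ a :=
  Fermat.Agent.S37.H53.residue_sigma_eq_smul A hφ (inclA0 A ℓ a)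
    (apply_mem_of_mem_decomposition hφ a.2)

theorem resA0_galActA0_of_isFrobeniusAt {φ : Qbar ≃ₐ[ℚ] Qbar}
    (hF : A.IsFrobeniusAt φ ℓ) (a : A0 A ℓ) :
    resA0 A ℓ (galActA0 φ hF.mem_decompositionSubgroup a) = resA0 A ℓ a ^ ℓ := by
  rw [resA0_galActA0, hF.smul_residue_eq]

theorem galActA0_sub_pow_mem_of_isFrobeniusAt {φ : Qbar ≃ₐ[ℚ] Qbar}
    (hF : A.IsFrobeniusAt φ ℓ) (a : A0 A ℓ) :
    galActA0 φ hF.mem_decompositionSubgroup a - a ^ ℓ ∈ maximalIdeal (A0 A ℓ) := by
  rw [← resA0_eq_zero_iff, map_sub, map_pow, resA0_galActA0_of_isFrobeniusAt hF, sub_self]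

/-! ### (4) the coefficientwise action on `F'' = E(j, j_N)` -/

variable (N : ℕ) [NeZero N]

/-- The coefficientwise action of `τ ∈ Gal(Qbar / ℚ)` on `F'' = E(j, j_N)` (`E` Galois-stable). -/
def galActFullC (τ : Qbar ≃ₐ[ℚ] Qbar) :
    modularFunctionFieldFullC ↥E N ≃+* modularFunctionFieldFullC ↥E N :=
  Fermat.Agent.S37.H53.coeffRingAut ↥E N (galActE E hE τ)

@[simp] theorem coe_galActFullC (τ : Qbar ≃ₐ[ℚ] Qbar) (x : modularFunctionFieldFullC ↥E N) :
    ((galActFullC E hE N τ x : modularFunctionFieldFullC ↥E N) : LaurentSeries ↥E) =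
      coeffMap ((galActE E hE τ : ↥E ≃+* ↥E) : ↥E →+* ↥E) (x : LaurentSeries ↥E) := rfl

/-- On constants the action is `galActE`. -/
theorem galActFullC_algebraMap (τ : Qbar ≃ₐ[ℚ] Qbar) (c : ↥E) :
    galActFullC E hE N τ (algebraMap ↥E (modularFunctionFieldFullC ↥E N) c) =
      algebraMap ↥E (modularFunctionFieldFullC ↥E N) (galActE E hE τ c) :=
  Fermat.Agent.S37.H53.coeffRingAut_algebraMap ↥E N _ c

/-- The action fixes the image of `ℚ(j, j_N)`. -/
theorem galActFullC_fullCMap_rat (τ : Qbar ≃ₐ[ℚ] Qbar) (x : modularFunctionFieldFullC ℚ N) :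
    galActFullC E hE N τ (H99.fullCMap (algebraMap ℚ ↥E) N x) =
      H99.fullCMap (algebraMap ℚ ↥E) N x := by
  apply Subtype.ext
  rw [coe_galActFullC, H99.coe_fullCMap, coeffMap_coeffMap]
  exact coeffMap_congr (Subsingleton.elim _ _) _

theorem galActFullC_jK (τ : Qbar ≃ₐ[ℚ] Qbar) :
    galActFullC E hE N τ (H16.jK ↥E N) = H16.jK ↥E N := by
  rw [← H99.fullCMap_jK (algebraMap ℚ ↥E) N, galActFullC_fullCMap_rat]

theorem galActFullC_jNK (τ : Qbar ≃ₐ[ℚ] Qbar) :
    galActFullC E hE N τ (H16.jNK ↥E N) = H16.jNK ↥E N := by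
  rw [← H99.fullCMap_jNK (algebraMap ℚ ↥E) N, galActFullC_fullCMap_rat]

/-- On an inertia element `galActFullC` is `inertiaActFullC`. -/
theorem galActFullC_eq_inertiaActFullC [Normal (unrCyclo ℓ) E] (σ : Qbar ≃ₐ[ℚ] Qbar)
    (hσ : σ ∈ A.inertiaSubgroupIn ℚ) (x : modularFunctionFieldFullC ↥E N) :
    galActFullC E hE N σ x = inertiaActFullC hℓ hA E N σ hσ x := by
  apply Subtype.ext
  rw [coe_galActFullC, coe_inertiaActFullC]
  refine coeffMap_congr (RingHom.ext fun c => ?_) _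
  exact galActE_eq_inertiaActE hℓ hA E hE σ hσ c

/-- `H99.toBar : F'' → modularFunctionFieldBar N` intertwines the coefficientwise Galois action on
`F''` with the prelude's arithmetic Galois action. -/
theorem toBar_galActFullC (τ : Qbar ≃ₐ[ℚ] Qbar) (x : modularFunctionFieldFullC ↥E N) :
    H99.toBar ↥E N (galActFullC E hE N τ x) =
      arithmeticRingAut (modularFunctionFieldFull N) τ (H99.toBar ↥E N x) := by
  apply Subtype.ext
  rw [H99.coe_toBar, coe_galActFullC, coe_arithmeticRingAut_apply, H99.coe_toBar,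
    coeffMap_coeffMap, coeffMap_coeffMap]
  refine coeffMap_congr (RingHom.ext fun c => ?_) _
  exact coe_galActE E hE τ c

/-- The same in `•`-form for the prelude's `arithmeticGalois`. -/
theorem toBar_galActFullC_smul (τ : Qbar ≃ₐ[ℚ] Qbar) (x : modularFunctionFieldFullC ↥E N) :
    H99.toBar ↥E N (galActFullC E hE N τ x) =
      arithmeticGalois (modularFunctionFieldFull N) τ • (H99.toBar ↥E N x) :=
  toBar_galActFullC E hE N τ x

/-! ### (5) semilinear automorphisms and the charts `chartB R J` -/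

section Chart

variable {R : Type*} [CommRing R] {F : Type*} [Field F] [Algebra R F]

/-- A semilinear ring endomorphism `s` of `F` (over `sR : R →+* R`) maps `R[J]` into `R[s J]`. -/
theorem map_mem_adjoin_of_semilinear (s : F →+* F) (sR : R →+* R)
    (hs : ∀ r : R, s (algebraMap R F r) = algebraMap R F (sR r)) (J : F) {y : F}
    (hy : y ∈ Algebra.adjoin R {J}) : s y ∈ Algebra.adjoin R {s J} := by
  induction hy using Algebra.adjoin_induction with
  | mem x hx =>
    rw [Set.mem_singleton_iff] at hx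
    subst hx
    exact Algebra.self_mem_adjoin_singleton R _
  | algebraMap r =>
    rw [hs]
    exact Subalgebra.algebraMap_mem _ _
  | add x y _ _ hx hy =>
    rw [map_add]
    exact Subalgebra.add_mem _ hx hy
  | mul x y _ _ hx hy =>
    rw [map_mul]
    exact Subalgebra.mul_mem _ hx hy

/-- A semilinear ring endomorphism `s` of `F` maps the chart `chartB R J` (= the integral closure of
`R[J]` in `F`) into `chartB R (s J)`. -/
theorem map_mem_chartB_of_semilinear (s : F →+* F) (sR : R →+* R)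
    (hs : ∀ r : R, s (algebraMap R F r) = algebraMap R F (sR r)) (J : F) {x : F}
    (hx : x ∈ H40.chartB R J) : s x ∈ H40.chartB R (s J) := by
  rw [H40.mem_chartB] at hx ⊢
  let φ : ↥(Algebra.adjoin R {J}) →+* ↥(Algebra.adjoin R {s J}) :=
    { toFun := fun y => ⟨s (y : F), map_mem_adjoin_of_semilinear s sR hs J y.2⟩
      map_one' := Subtype.ext (map_one s)
      map_mul' := fun _ _ => Subtype.ext (map_mul s _ _)
      map_zero' := Subtype.ext (map_zero s)
      map_add' := fun _ _ => Subtype.ext (map_add s _ _) }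
  exact IsIntegral.map_of_comp_eq φ s (RingHom.ext fun _ => rfl) hx

/-- A semilinear ring automorphism `s` of `F` (over an automorphism `sR` of `R`) maps `chartB R J`
onto `chartB R (s J)`. -/
theorem map_mem_chartB_iff_of_semilinear (s : F ≃+* F) (sR : R ≃+* R)
    (hs : ∀ r : R, s (algebraMap R F r) = algebraMap R F (sR r)) (J x : F) :
    s x ∈ H40.chartB R (s J) ↔ x ∈ H40.chartB R J := by
  constructor
  · intro h
    have hs' : ∀ r : R, (s.symm : F →+* F) (algebraMap R F r) =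
        algebraMap R F ((sR.symm : R →+* R) r) := by
      intro r
      show s.symm (algebraMap R F r) = algebraMap R F (sR.symm r)
      rw [RingEquiv.symm_apply_eq, hs, RingEquiv.apply_symm_apply]
    have h1 := map_mem_chartB_of_semilinear (s.symm : F →+* F) (sR.symm : R →+* R) hs' (s J) h
    simpa using h1
  · intro h
    exact map_mem_chartB_of_semilinear (s : F →+* F) (sR : R →+* R) hs J h

end Chart

/-- On the constants of `A'' = A ∩ E` the action `galActFullC` is `galActCutOver`. -/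
theorem galActFullC_algebraMap_cutOver (φ : Qbar ≃ₐ[ℚ] Qbar)
    (hφ : φ ∈ A.decompositionSubgroup ℚ) (r : cutOver A E) :
    galActFullC E hE N φ (algebraMap (cutOver A E) (modularFunctionFieldFullC ↥E N) r) =
      algebraMap (cutOver A E) (modularFunctionFieldFullC ↥E N) (galActCutOver E hE φ hφ r) :=
  galActFullC_algebraMap E hE N φ (r : E)

set_option maxHeartbeats 1600000 in
/-- A decomposition-group element maps the chart `chartB A'' J` onto `chartB A'' (φ J)`. -/
theorem galActFullC_mem_chartB_iff (φ : Qbar ≃ₐ[ℚ] Qbar)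
    (hφ : φ ∈ A.decompositionSubgroup ℚ) (J x : modularFunctionFieldFullC ↥E N) :
    galActFullC E hE N φ x ∈ H40.chartB (cutOver A E) (galActFullC E hE N φ J) ↔
      x ∈ H40.chartB (cutOver A E) J :=
  map_mem_chartB_iff_of_semilinear (galActFullC E hE N φ) (galActCutOver E hE φ hφ)
    (galActFullC_algebraMap_cutOver E hE N φ hφ) J x

/-- For a coordinate `J` fixed by `φ`, the chart `chartB A'' J` is stable under `φ`. -/
theorem galActFullC_mem_chartB_iff_of_fixed (φ : Qbar ≃ₐ[ℚ] Qbar)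
    (hφ : φ ∈ A.decompositionSubgroup ℚ) {J : modularFunctionFieldFullC ↥E N}
    (hJ : galActFullC E hE N φ J = J) (x : modularFunctionFieldFullC ↥E N) :
    galActFullC E hE N φ x ∈ H40.chartB (cutOver A E) J ↔ x ∈ H40.chartB (cutOver A E) J := by
  have h := galActFullC_mem_chartB_iff E hE N φ hφ J x
  rwa [hJ] at h

end

end Fermat.Agent.S18.H45
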