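import Mathlib
import Fermat.Agent.S24.H97_Places
import Fermat.Agent.S24.H97_Transfer
import Fermat.Agent.S24.H27_PlaceOfValuation
import Fermat.Agent.S24.H24_RH

set_option autoImplicit false
set_option linter.unusedSectionVars false
set_option linter.style.haveILetI false

/-!
# S18 / places of function fields: valuation subrings are places, extension and restriction of
places along an algebraic extension of function fields, descent of unramifiedness

`helper95`.  Generic (no modular curves).
-/

noncomputable section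

namespace Fermat.Agent.S18.H95

open AlgebraicCurve IsDedekindDomain Polynomial
open scoped IntermediateField
open Fermat.Agent.S24

section Discrete

variable {K F : Type*} [Field K] [Field F] [Algebra K F]

/-- A valuation subring of `F` containing `K` and `t` (transcendental, `[F : K(t)] < ∞`,
characteristic `0`), and `≠ ⊤`, is the valuation ring of a height one prime of the integral closure
of `K[t]`. -/
theorem exists_prime_of_valuationSubring (t : F) [FiniteDimensional K⟮t⟯ F] [CharZero K]
    [Fact (Transcendental K t)] (V : ValuationSubring F)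
    (ht : t ∈ V) (hK : ∀ c : K, algebraMap K F c ∈ V) (hV : V ≠ ⊤) :
    ∃ w : HeightOneSpectrum (H97.intRing K t), (H97.placeOfPrime t w).toValuationSubring = V := by
  classical
  -- `K[t] ⊆ V`
  let VK : Subalgebra K F := { V.toSubring with algebraMap_mem' := hK }
  have hpoly : H97.polyRing K t ≤ VK :=
    Algebra.adjoin_le (Set.singleton_subset_iff.mpr (show t ∈ (VK : Set F) from ht))
  -- the integral closure of `K[t]` is contained in `V`
  have hint : ∀ b : H97.intRing K t, (b : F) ∈ V := by
    intro b
    have hb : IsIntegral (H97.polyRing K t) (b : F) := b.2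
    letI : Algebra (H97.polyRing K t) VK := (Subalgebra.inclusion hpoly).toAlgebra
    haveI : IsScalarTower (H97.polyRing K t) VK F :=
      Subalgebra.inclusion.isScalarTower_right hpoly F
    have h1 : IsIntegral VK (b : F) := hb.tower_top
    have h2 : IsIntegral V (b : F) := by
      obtain ⟨p, hp, hpb⟩ := h1
      exact ⟨p.map (RingHom.id _ : VK →+* V), hp.map _, by
        rw [Polynomial.eval₂_map]; exact hpb⟩
    obtain ⟨y, hy⟩ := (IsIntegrallyClosed.isIntegral_iff (R := V) (K := F)).mp h2
    rw [← hy]
    exact y.2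
  let φ : H97.intRing K t →+* V :=
    (algebraMap (H97.intRing K t) F).codRestrict V.toSubring hint
  have hφ : ∀ b, ((φ b : V) : F) = (b : F) := fun _ => rfl
  set P : Ideal (H97.intRing K t) := (IsLocalRing.maximalIdeal V).comap φ with hP
  have hPprime : P.IsPrime := Ideal.comap_isPrime φ _
  have hunit : ∀ b : H97.intRing K t, b ∉ P → ((b : F))⁻¹ ∈ V := by
    intro b hb
    have hb' : IsUnit (φ b) := by
      by_contra hnu
      exact hb ((IsLocalRing.mem_maximalIdeal _).mpr hnu)
    obtain ⟨u, hu⟩ := hb'
    have h1 : ((u : V) : F) * ((u⁻¹ : Vˣ) : F) = 1 := H97.coe_unit_mul_coe_inv u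
    have h2 : ((u⁻¹ : Vˣ) : F) = ((b : F))⁻¹ := by
      rw [← hφ b, ← hu]
      exact eq_inv_of_mul_eq_one_right h1
    rw [← h2]
    exact (u⁻¹ : Vˣ).1.2
  have hPbot : P ≠ ⊥ := by
    intro hbot
    apply hV
    refine SetLike.ext fun x => ⟨fun _ => ValuationSubring.mem_top x, fun _ => ?_⟩
    obtain ⟨a, s, hs, rfl⟩ := IsFractionRing.div_surjective (A := H97.intRing K t) x
    have hs0 : s ≠ 0 := nonZeroDivisors.ne_zero hs
    have hsP : s ∉ P := by
      rw [hbot, Ideal.mem_bot]; exact hs0
    rw [div_eq_mul_inv]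
    exact V.mul_mem _ _ (hint a) (hunit s hsP)
  let w : HeightOneSpectrum (H97.intRing K t) := ⟨P, hPprime, hPbot⟩
  refine ⟨w, ?_⟩
  rw [H97.placeOfPrime_toValuationSubring]
  have hle : (w.valuation F).valuationSubring ≤ V := by
    intro x hx
    rw [Valuation.mem_valuationSubring_iff] at hx
    obtain ⟨n, d, hnd⟩ := w.exists_primeCompl_mul_eq_of_integer x hx
    have hd : (d : H97.intRing K t) ∉ P := d.2
    have hd0 : algebraMap (H97.intRing K t) F (d : H97.intRing K t) ≠ 0 := by
      intro h0
      have : (d : H97.intRing K t) = 0 :=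
        (IsFractionRing.injective (H97.intRing K t) F) (by rw [h0, map_zero])
      exact hd (this ▸ P.zero_mem)
    have hx' : x = algebraMap (H97.intRing K t) F n *
        (algebraMap (H97.intRing K t) F (d : H97.intRing K t))⁻¹ := by
      field_simp
      exact hnd
    rw [hx']
    exact V.mul_mem _ _ (hint n) (hunit _ hd)
  rw [← HeightOneSpectrum.valuationSubringAtPrime_eq_valuationSubring] at hle ⊢
  exact ValuationSubring.eq_of_le_of_ne_top _ hle hV

/-- **Every nontrivial valuation ring of a function field (char. `0`) containing the constants is a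
place.** -/
theorem exists_place_of_valuationSubring (t : F) (htr : Transcendental K t)
    [FiniteDimensional K⟮t⟯ F] [CharZero K] (V : ValuationSubring F)
    (hK : ∀ c : K, algebraMap K F c ∈ V) (hV : V ≠ ⊤) :
    ∃ v : Place K F, v.toValuationSubring = V := by
  rcases V.mem_or_inv_mem t with ht | ht
  · haveI : Fact (Transcendental K t) := ⟨htr⟩
    obtain ⟨w, hw⟩ := exists_prime_of_valuationSubring t V ht hK hV
    exact ⟨_, hw⟩
  · haveI : Fact (Transcendental K t⁻¹) := ⟨H97.transcendental_inv htr⟩
    haveI : FiniteDimensional K⟮t⁻¹⟯ F := H97.finiteDimensional_adjoin_inv (t := t)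
    obtain ⟨w, hw⟩ := exists_prime_of_valuationSubring t⁻¹ V ht hK hV
    exact ⟨_, hw⟩

end Discrete

section Restrict

variable {K F K' F' : Type*} [Field K] [Field F] [Algebra K F] [Field K'] [Field F']
  [Algebra K' F'] [Algebra K K'] [Algebra F F'] [Algebra K F'] [IsScalarTower K F F']
  [IsScalarTower K K' F']

/-- the order function of a place of `F'/K'` restricted to `F` is an order function on `F/K`
(if it is nontrivial). -/
theorem isOrdFunction_comp (v : Place K' F')
    (hnt : ∃ f : F, f ≠ 0 ∧ v.ord (algebraMap F F' f) ≠ 0) :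
    H27.IsOrdFunction K (fun f : F => v.ord (algebraMap F F' f)) where
  map_mul f g hf hg := by
    show v.ord (algebraMap F F' (f * g)) = _
    rw [map_mul]
    exact (H27.isOrdFunction_ord v).map_mul _ _ ((_root_.map_ne_zero _).mpr hf) ((_root_.map_ne_zero _).mpr hg)
  map_add f g hf hg hfg := by
    show _ ≤ v.ord (algebraMap F F' (f + g))
    rw [map_add]
    exact (H27.isOrdFunction_ord v).map_add _ _ ((_root_.map_ne_zero _).mpr hf) ((_root_.map_ne_zero _).mpr hg)
      (by rw [← map_add]; exact (_root_.map_ne_zero _).mpr hfg)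
  map_algebraMap a ha := by
    show v.ord (algebraMap F F' (algebraMap K F a)) = 0
    rw [← IsScalarTower.algebraMap_apply K F F', IsScalarTower.algebraMap_apply K K' F']
    exact (H27.isOrdFunction_ord v).map_algebraMap _ ((_root_.map_ne_zero _).mpr ha)
  nontrivial := hnt

/-- the restriction of a place of `F'/K'` to `F/K`. -/
def restrictPlace (v : Place K' F')
    (hnt : ∃ f : F, f ≠ 0 ∧ v.ord (algebraMap F F' f) ≠ 0) : Place K F :=
  (isOrdFunction_comp (K := K) v hnt).place

/-- the ramification index of `v` over its restriction. -/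
def ramIdx (v : Place K' F')
    (hnt : ∃ f : F, f ≠ 0 ∧ v.ord (algebraMap F F' f) ≠ 0) : ℕ :=
  (isOrdFunction_comp (K := K) v hnt).mult

theorem ramIdx_pos (v : Place K' F')
    (hnt : ∃ f : F, f ≠ 0 ∧ v.ord (algebraMap F F' f) ≠ 0) : 0 < ramIdx (K := K) v hnt :=
  (isOrdFunction_comp (K := K) v hnt).mult_pos

theorem ord_algebraMap_eq (v : Place K' F')
    (hnt : ∃ f : F, f ≠ 0 ∧ v.ord (algebraMap F F' f) ≠ 0) (f : F) :
    v.ord (algebraMap F F' f) = ramIdx (K := K) v hnt * (restrictPlace (K := K) v hnt).ord f := by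
  rcases eq_or_ne f 0 with rfl | hf
  · simp
  · exact (isOrdFunction_comp (K := K) v hnt).eq_mult_mul_ord hf

theorem mem_restrictPlace_iff (v : Place K' F')
    (hnt : ∃ f : F, f ≠ 0 ∧ v.ord (algebraMap F F' f) ≠ 0) (f : F) :
    f ∈ (restrictPlace (K := K) v hnt).toValuationSubring ↔
      algebraMap F F' f ∈ v.toValuationSubring := by
  rcases eq_or_ne f 0 with rfl | hf
  · simp only [map_zero]
    exact ⟨fun _ => zero_mem _, fun _ => zero_mem _⟩
  · have hf' : algebraMap F F' f ≠ 0 := (_root_.map_ne_zero _).mpr hf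
    rw [H27.mem_toValuationSubring_of_ne_zero v hf']
    show f ∈ (isOrdFunction_comp (K := K) v hnt).valuationSubring ↔ _
    rw [(isOrdFunction_comp (K := K) v hnt).mem_valuationSubring_of_ne_zero hf]

/-- two places of `F/K` whose restriction data agree: if `O_w ⊆ O_{v|F}` then `w = v|F`. -/
theorem restrictPlace_eq_of_le (v : Place K' F')
    (hnt : ∃ f : F, f ≠ 0 ∧ v.ord (algebraMap F F' f) ≠ 0) (w : Place K F)
    (hle : ∀ f : F, f ∈ w.toValuationSubring → algebraMap F F' f ∈ v.toValuationSubring) :
    restrictPlace (K := K) v hnt = w := by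
  symm
  apply H27.eq_of_toValuationSubring_le
  intro f hf
  rw [mem_restrictPlace_iff]
  exact hle f hf

end Restrict

section Extend

variable {K F K' F' : Type*} [Field K] [Field F] [Algebra K F] [Field K'] [Field F']
  [Algebra K' F'] [Algebra K K'] [Algebra F F'] [Algebra K F'] [IsScalarTower K F F']
  [IsScalarTower K K' F']

/-- **Extension of places.**  `K'/K` algebraic, `F'/K'` a function field of characteristic `0`
(`t'` transcendental, `[F' : K'(t')] < ∞`), `F → F'` compatible with `K → K'`.  Every place `w`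
of `F/K` is the restriction of a place `v` of `F'/K'`, and `ord_v = e · ord_w` on `F`. -/
theorem exists_place_extension [Algebra.IsAlgebraic K K'] (t' : F') (ht' : Transcendental K' t')
    [FiniteDimensional K'⟮t'⟯ F'] [CharZero K'] (w : Place K F) :
    ∃ (v : Place K' F') (e : ℕ), 0 < e ∧
      (∀ f : F, v.ord (algebraMap F F' f) = e * w.ord f) ∧
      (∀ f : F, f ∈ w.toValuationSubring ↔ algebraMap F F' f ∈ v.toValuationSubring) := by
  classical
  let f₀ : w.toValuationSubring →+* F' := (algebraMap F F').comp w.toValuationSubring.subtype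
  obtain ⟨V, hV, hloc⟩ := IsLocalRing.exists_factor_valuationRing f₀
  have hVmem : ∀ f : F, f ∈ w.toValuationSubring → algebraMap F F' f ∈ V :=
    fun f hf => hV ⟨f, hf⟩
  -- `K ⊆ V`
  have hKV : ∀ c : K, algebraMap K F' c ∈ V := by
    intro c
    rw [IsScalarTower.algebraMap_apply K F F']
    exact hVmem _ (w.algebraMap_mem' c)
  -- `K' ⊆ V` (integrality)
  let VK : Subalgebra K F' := { V.toSubring with algebraMap_mem' := hKV }
  have hK'V : ∀ c : K', algebraMap K' F' c ∈ V := by
    intro c
    have h0 : IsIntegral K c := Algebra.IsIntegral.isIntegral c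
    have h1 : IsIntegral K (algebraMap K' F' c) := h0.map (IsScalarTower.toAlgHom K K' F')
    have h2 : IsIntegral VK (algebraMap K' F' c) := h1.tower_top
    have h3 : IsIntegral V (algebraMap K' F' c) := by
      obtain ⟨p, hp, hpb⟩ := h2
      exact ⟨p.map (RingHom.id _ : VK →+* V), hp.map _, by
        rw [Polynomial.eval₂_map]; exact hpb⟩
    obtain ⟨y, hy⟩ := (IsIntegrallyClosed.isIntegral_iff (R := V) (K := F')).mp h3
    rw [← hy]
    exact y.2
  -- a uniformiser of `w` is a nonunit of `V`
  obtain ⟨π, hπ⟩ := IsDiscreteValuationRing.exists_irreducible w.toValuationSubring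
  have hπF : (π : F) ≠ 0 := by
    simpa [ne_eq, ZeroMemClass.coe_eq_zero] using hπ.ne_zero
  have hπV : ¬ IsUnit (f₀.codRestrict V.toSubring hV π) := by
    intro hu
    exact hπ.not_isUnit (hloc.map_nonunit π hu)
  have hVtop : V ≠ ⊤ := by
    intro htop
    apply hπV
    have hinv : (algebraMap F F' (π : F))⁻¹ ∈ V := by rw [htop]; exact ValuationSubring.mem_top _
    refine isUnit_iff_exists_inv.mpr ⟨⟨_, hinv⟩, Subtype.ext ?_⟩
    show algebraMap F F' (π : F) * (algebraMap F F' (π : F))⁻¹ = 1
    exact mul_inv_cancel₀ ((_root_.map_ne_zero _).mpr hπF)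
  obtain ⟨v, hv⟩ := exists_place_of_valuationSubring t' ht' V hK'V hVtop
  -- `ord_v (π) > 0`
  have hπmem : algebraMap F F' (π : F) ∈ v.toValuationSubring := by
    rw [hv]; exact hVmem _ π.2
  have hπ' : algebraMap F F' (π : F) ≠ 0 := (_root_.map_ne_zero _).mpr hπF
  have hπpos : 0 < v.ord (algebraMap F F' (π : F)) := by
    have h0 : (⟨_, hπmem⟩ : v.toValuationSubring) ≠ 0 := by
      intro h; exact hπ' (congrArg Subtype.val h)
    rw [show algebraMap F F' (π : F) = ((⟨_, hπmem⟩ : v.toValuationSubring) : F') from rfl,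
      H27.ord_pos_iff_mem_maximalIdeal v _ h0, IsLocalRing.mem_maximalIdeal, mem_nonunits_iff]
    intro hu
    apply hπV
    obtain ⟨u, hu'⟩ := hu
    have hinv : (algebraMap F F' (π : F))⁻¹ ∈ V := by
      have h1 : ((u : v.toValuationSubring) : F') * ((u⁻¹ : (v.toValuationSubring)ˣ) : F') = 1 :=
        H97.coe_unit_mul_coe_inv u
      have h2 : ((u : v.toValuationSubring) : F') = algebraMap F F' (π : F) := by rw [hu']
      rw [h2] at h1
      rw [← eq_inv_of_mul_eq_one_right h1, ← hv]
      exact (u⁻¹ : (v.toValuationSubring)ˣ).1.2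
    refine isUnit_iff_exists_inv.mpr ⟨⟨_, hinv⟩, Subtype.ext ?_⟩
    show algebraMap F F' (π : F) * (algebraMap F F' (π : F))⁻¹ = 1
    exact mul_inv_cancel₀ hπ'
  have hnt : ∃ f : F, f ≠ 0 ∧ v.ord (algebraMap F F' f) ≠ 0 := ⟨π, hπF, hπpos.ne'⟩
  have hres : restrictPlace (K := K) v hnt = w :=
    restrictPlace_eq_of_le v hnt w (fun f hf => by rw [hv]; exact hVmem f hf)
  refine ⟨v, ramIdx (K := K) v hnt, ramIdx_pos v hnt, fun f => ?_, fun f => ?_⟩
  · rw [ord_algebraMap_eq (K := K) v hnt f, hres]
  · rw [← mem_restrictPlace_iff (K := K) v hnt f, hres]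

end Extend

section OrdProd

variable {K F : Type*} [Field K] [Field F] [Algebra K F]

theorem ord_multiset_prod (v : Place K F) (s : Multiset F) (hs : ∀ f ∈ s, f ≠ 0) :
    v.ord s.prod = (s.map v.ord).sum := by
  induction s using Multiset.induction_on with
  | empty => simp
  | cons a s ih =>
    have ha : a ≠ 0 := hs a (Multiset.mem_cons_self a s)
    have hs' : ∀ f ∈ s, f ≠ 0 := fun f hf => hs f (Multiset.mem_cons_of_mem hf)
    have hprod : s.prod ≠ 0 := Multiset.prod_ne_zero (fun h => hs' 0 h rfl)
    rw [Multiset.prod_cons, v.ord_mul ha hprod, Multiset.map_cons, Multiset.sum_cons, ih hs']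

end OrdProd

section Descent

variable {K F K' F' : Type*} [Field K] [Field F] [Algebra K F] [Field K'] [Field F']
  [Algebra K' F'] [Algebra K K'] [Algebra F F'] [Algebra K F'] [IsScalarTower K F F']
  [IsScalarTower K K' F']

/-- **Descent of ramification bounds along a constant field extension.**
`K'/K` algebraic with `K'` algebraically closed of characteristic `0`; `x ∈ F` with image `t'`
transcendental over `K'` and `[F' : K'(t')] < ∞`.  Let `g ∈ K[X]` be separable.  If every place `v`
of `F'/K'` over a root `a` of `g` has `ord_v (t' - a) ∣ n`, then every place `w` of `F/K` at which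
`g(x)` vanishes has `ord_w (g(x)) ∣ n`. -/
theorem ord_aeval_dvd_of_extension [Algebra.IsAlgebraic K K'] [IsAlgClosed K'] [CharZero K']
    (x : F) (hx' : Transcendental K' (algebraMap F F' x))
    [FiniteDimensional K'⟮algebraMap F F' x⟯ F']
    (g : K[X]) (hg : g.Separable) (n : ℤ)
    (hdvd : ∀ (v : Place K' F') (a : K'), (g.map (algebraMap K K')).IsRoot a →
      0 < v.ord (algebraMap F F' x - algebraMap K' F' a) →
      v.ord (algebraMap F F' x - algebraMap K' F' a) ∣ n)
    (w : Place K F) (hw : 0 < w.ord (aeval x g)) : w.ord (aeval x g) ∣ n := by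
  classical
  set t' := algebraMap F F' x with ht'
  obtain ⟨v, e, he, hord, -⟩ := exists_place_extension (K := K) t' hx' w
  set G := g.map (algebraMap K K') with hG
  have hGsep : G.Separable := hg.map
  have hG0 : G ≠ 0 := hGsep.ne_zero
  have hlc : G.leadingCoeff ≠ 0 := leadingCoeff_ne_zero.mpr hG0
  have hev : algebraMap F F' (aeval x g) = aeval t' G := by
    rw [hG, aeval_map_algebraMap, ht', aeval_algebraMap_apply]
  have hsplit : G = C G.leadingCoeff * (G.roots.map (fun a => X - C a)).prod :=
    (IsAlgClosed.splits G).eq_prod_roots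
  have hev2 : aeval t' G = algebraMap K' F' G.leadingCoeff *
      (G.roots.map (fun a => t' - algebraMap K' F' a)).prod := by
    conv_lhs => rw [hsplit]
    rw [map_mul, aeval_C, map_multiset_prod, Multiset.map_map]
    congr 2
    apply Multiset.map_congr rfl
    intro a _
    simp
  have hfac : ∀ a : K', t' - algebraMap K' F' a ≠ 0 :=
    fun a => H97.sub_algebraMap_ne_zero hx' a
  have hfac' : ∀ f ∈ G.roots.map (fun a => t' - algebraMap K' F' a), f ≠ 0 := by
    intro f hf
    obtain ⟨a, _, rfl⟩ := Multiset.mem_map.mp hf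
    exact hfac a
  have hprod0 : (G.roots.map (fun a => t' - algebraMap K' F' a)).prod ≠ 0 :=
    Multiset.prod_ne_zero (fun h => hfac' 0 h rfl)
  have hlc' : algebraMap K' F' G.leadingCoeff ≠ 0 := (_root_.map_ne_zero _).mpr hlc
  -- `Σ_a ord_v (t' - a) = e * ord_w (g(x))`
  have hsum : ((G.roots.map (fun a => t' - algebraMap K' F' a)).map v.ord).sum
      = e * w.ord (aeval x g) := by
    rw [← hord, hev, hev2, v.ord_mul hlc' hprod0, H24.PlaceLemmas.ord_algebraMap, zero_add,
      ord_multiset_prod v _ hfac']
  rw [Multiset.map_map] at hsum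
  have hpos : 0 < ((G.roots.map ((v.ord) ∘ fun a => t' - algebraMap K' F' a))).sum := by
    rw [hsum]; positivity
  -- some root has positive order
  obtain ⟨a₀, ha₀, ha₀pos⟩ : ∃ a₀ ∈ G.roots, 0 < v.ord (t' - algebraMap K' F' a₀) := by
    by_contra hcon
    push Not at hcon
    have : ((G.roots.map ((v.ord) ∘ fun a => t' - algebraMap K' F' a))).sum ≤ 0 := by
      have h := Multiset.sum_le_card_nsmul
        (G.roots.map ((v.ord) ∘ fun a => t' - algebraMap K' F' a)) 0 (by
          intro y hy
          obtain ⟨a, ha, rfl⟩ := Multiset.mem_map.mp hy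
          exact hcon a ha)
      simpa using h
    omega
  -- the other roots contribute `0`
  have hother : ∀ a ∈ G.roots, a ≠ a₀ → v.ord (t' - algebraMap K' F' a) = 0 := by
    intro a _ hne
    have hle : ¬ 0 < v.ord (t' - algebraMap K' F' a) :=
      fun h => hne (H24.RH.value_unique t' v h ha₀pos)
    have hc : algebraMap K' F' (a - a₀) ≠ 0 := by
      simpa [sub_eq_zero] using hne
    have hsub : (t' - algebraMap K' F' a₀) - algebraMap K' F' (a - a₀) = t' - algebraMap K' F' a := by
      rw [map_sub]; ring
    have hge := H24.PlaceLemmas.ord_sub_ge v (hfac a₀) hc (by rw [hsub]; exact hfac a)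
    rw [hsub, H24.PlaceLemmas.ord_algebraMap] at hge
    have : min (v.ord (t' - algebraMap K' F' a₀)) 0 = 0 := min_eq_right ha₀pos.le
    omega
  have hnodup : G.roots.Nodup := nodup_roots hGsep
  have hsum' : ((G.roots.map ((v.ord) ∘ fun a => t' - algebraMap K' F' a))).sum
      = v.ord (t' - algebraMap K' F' a₀) := by
    obtain ⟨s, hs⟩ := Multiset.exists_cons_of_mem ha₀
    rw [hs, Multiset.map_cons, Multiset.sum_cons]
    have hs0 : (s.map ((v.ord) ∘ fun a => t' - algebraMap K' F' a)).sum = 0 := by
      apply Multiset.sum_eq_zero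
      intro y hy
      obtain ⟨a, ha, rfl⟩ := Multiset.mem_map.mp hy
      have hane : a ≠ a₀ := by
        rintro rfl
        rw [hs] at hnodup
        exact (Multiset.nodup_cons.mp hnodup).1 ha
      exact hother a (by rw [hs]; exact Multiset.mem_cons_of_mem ha) hane
    rw [hs0, add_zero]
    rfl
  have hroot : G.IsRoot a₀ := (mem_roots hG0).mp ha₀
  have h1 := hdvd v a₀ hroot ha₀pos
  rw [← hsum', hsum] at h1
  exact Dvd.dvd.trans ⟨(e : ℤ), by ring⟩ h1

/-- unramified version: `n = 1`. -/
theorem ord_aeval_eq_one_of_extension [Algebra.IsAlgebraic K K'] [IsAlgClosed K'] [CharZero K']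
    (x : F) (hx' : Transcendental K' (algebraMap F F' x))
    [FiniteDimensional K'⟮algebraMap F F' x⟯ F']
    (g : K[X]) (hg : g.Separable)
    (hunr : ∀ (v : Place K' F') (a : K'), (g.map (algebraMap K K')).IsRoot a →
      0 < v.ord (algebraMap F F' x - algebraMap K' F' a) →
      v.ord (algebraMap F F' x - algebraMap K' F' a) = 1)
    (w : Place K F) (hw : 0 < w.ord (aeval x g)) : w.ord (aeval x g) = 1 := by
  have h := ord_aeval_dvd_of_extension (K := K) (K' := K') (F' := F') x hx' g hg 1
    (fun v a ha hv => by rw [hunr v a ha hv]) w hw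
  exact Int.eq_one_of_dvd_one hw.le h

/-- poles: if every pole `v` of `t'` has `ord_v t' ∣ n`, so has every pole of `x`. -/
theorem ord_dvd_of_extension_pole [Algebra.IsAlgebraic K K'] [CharZero K']
    (x : F) (hx' : Transcendental K' (algebraMap F F' x))
    [FiniteDimensional K'⟮algebraMap F F' x⟯ F'] (n : ℤ)
    (hdvd : ∀ v : Place K' F', v.ord (algebraMap F F' x) < 0 → v.ord (algebraMap F F' x) ∣ n)
    (w : Place K F) (hw : w.ord x < 0) : w.ord x ∣ n := by
  obtain ⟨v, e, he, hord, -⟩ := exists_place_extension (K := K) (algebraMap F F' x) hx' w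
  have hneg : v.ord (algebraMap F F' x) < 0 := by
    rw [hord]
    have : (0 : ℤ) < e := by exact_mod_cast he
    nlinarith
  have h1 := hdvd v hneg
  rw [hord] at h1
  exact Dvd.dvd.trans ⟨(e : ℤ), by ring⟩ h1

end Descent

end Fermat.Agent.S18.H95
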