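import Mathlib
import Fermat.Agent.S18.H95_PlaceExt
import Fermat.Agent.S24.H46_PlacesFromEmb
import Fermat.Agent.S24.H25_Wire

set_option autoImplicit false
set_option linter.unusedSectionVars false
set_option linter.style.haveILetI false

/-!
# S18 / HOR : an elementary Abhyankar lemma in the vocabulary of places

`helper95`.  No completions, no power series:

* (CL) the `v`-adic closure of a subfield `F₀ ⊆ F'` is a subfield; if it is everything then `v` is
  unramified over `F₀`;
* (NEWTON) simple roots of integral polynomials over `F₀` lie in the closure;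
* (AB) Abhyankar for a rational auxiliary line.
-/

noncomputable section

namespace Fermat.Agent.S18.H95

open AlgebraicCurve Polynomial WithZero
open Fermat.Agent.S24

section Closure

variable {K F₀ F' : Type*} [Field K] [Field F₀] [Field F'] [Algebra K F'] [Algebra F₀ F']

/-- `θ` is a `v`-adic limit of elements of `F₀`. -/
def IsLimit (F₀ : Type*) {K F' : Type*} [Field K] [Field F₀] [Field F'] [Algebra K F']
    [Algebra F₀ F'] (v : Place K F') (θ : F') : Prop :=
  ∀ ε : ℤᵐ⁰, ε ≠ 0 → ∃ y : F₀, v.adicValuation (θ - algebraMap F₀ F' y) ≤ ε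

variable (v : Place K F')

theorem isLimit_algebraMap (y : F₀) : IsLimit F₀ v (algebraMap F₀ F' y) :=
  fun ε _ => ⟨y, by simp⟩

theorem IsLimit.add {θ₁ θ₂ : F'} (h₁ : IsLimit F₀ v θ₁) (h₂ : IsLimit F₀ v θ₂) :
    IsLimit F₀ v (θ₁ + θ₂) := by
  intro ε hε
  obtain ⟨y₁, hy₁⟩ := h₁ ε hε
  obtain ⟨y₂, hy₂⟩ := h₂ ε hε
  refine ⟨y₁ + y₂, ?_⟩
  have : θ₁ + θ₂ - algebraMap F₀ F' (y₁ + y₂)
      = (θ₁ - algebraMap F₀ F' y₁) + (θ₂ - algebraMap F₀ F' y₂) := by
    rw [map_add]; ring
  rw [this]
  exact (v.adicValuation.map_add _ _).trans (max_le hy₁ hy₂)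

theorem IsLimit.neg {θ : F'} (h : IsLimit F₀ v θ) : IsLimit F₀ v (-θ) := by
  intro ε hε
  obtain ⟨y, hy⟩ := h ε hε
  refine ⟨-y, ?_⟩
  have : -θ - algebraMap F₀ F' (-y) = -(θ - algebraMap F₀ F' y) := by
    rw [map_neg]; ring
  rw [this, Valuation.map_neg]
  exact hy

theorem IsLimit.mul {θ₁ θ₂ : F'} (h₁ : IsLimit F₀ v θ₁) (h₂ : IsLimit F₀ v θ₂) :
    IsLimit F₀ v (θ₁ * θ₂) := by
  intro ε hε
  rcases eq_or_ne θ₁ 0 with rfl | hθ₁
  · exact ⟨0, by simp⟩
  set M₁ := v.adicValuation θ₁ with hM₁
  have hM₁0 : M₁ ≠ 0 := v.adicValuation_ne_zero hθ₁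
  obtain ⟨y₂, hy₂⟩ := h₂ (ε * M₁⁻¹) (mul_ne_zero hε (inv_ne_zero hM₁0))
  set M₂ := max (v.adicValuation θ₂) (ε * M₁⁻¹) with hM₂
  have hM₂0 : M₂ ≠ 0 := by
    have : ε * M₁⁻¹ ≤ M₂ := le_max_right _ _
    intro h0
    rw [h0] at this
    exact (mul_ne_zero hε (inv_ne_zero hM₁0)) (le_antisymm this zero_le')
  have hy₂M : v.adicValuation (algebraMap F₀ F' y₂) ≤ M₂ := by
    have : algebraMap F₀ F' y₂ = θ₂ - (θ₂ - algebraMap F₀ F' y₂) := by ring
    rw [this]
    exact (v.adicValuation.map_sub _ _).trans (max_le_max le_rfl hy₂)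
  obtain ⟨y₁, hy₁⟩ := h₁ (ε * M₂⁻¹) (mul_ne_zero hε (inv_ne_zero hM₂0))
  refine ⟨y₁ * y₂, ?_⟩
  have : θ₁ * θ₂ - algebraMap F₀ F' (y₁ * y₂)
      = θ₁ * (θ₂ - algebraMap F₀ F' y₂) + algebraMap F₀ F' y₂ * (θ₁ - algebraMap F₀ F' y₁) := by
    rw [map_mul]; ring
  rw [this]
  refine (v.adicValuation.map_add _ _).trans (max_le ?_ ?_)
  · rw [map_mul]
    calc M₁ * v.adicValuation (θ₂ - algebraMap F₀ F' y₂) ≤ M₁ * (ε * M₁⁻¹) :=
          mul_le_mul' le_rfl hy₂
      _ = ε := by rw [mul_comm ε, ← mul_assoc, mul_inv_cancel₀ hM₁0, one_mul]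
  · rw [map_mul]
    calc v.adicValuation (algebraMap F₀ F' y₂) * v.adicValuation (θ₁ - algebraMap F₀ F' y₁)
        ≤ M₂ * (ε * M₂⁻¹) := mul_le_mul' hy₂M hy₁
      _ = ε := by rw [mul_comm ε, ← mul_assoc, mul_inv_cancel₀ hM₂0, one_mul]

theorem IsLimit.inv {θ : F'} (h : IsLimit F₀ v θ) : IsLimit F₀ v θ⁻¹ := by
  intro ε hε
  rcases eq_or_ne θ 0 with rfl | hθ
  · exact ⟨0, by simp⟩
  set M := v.adicValuation θ with hM
  have hM0 : M ≠ 0 := v.adicValuation_ne_zero hθ
  have hδ1 : ε * M * M ≠ 0 := mul_ne_zero (mul_ne_zero hε hM0) hM0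
  have hδ2 : M * exp (-1 : ℤ) ≠ 0 := mul_ne_zero hM0 exp_ne_zero
  obtain ⟨y, hy⟩ := h (min (ε * M * M) (M * exp (-1 : ℤ))) (by
    rcases min_choice (ε * M * M) (M * exp (-1 : ℤ)) with h | h <;> rw [h] <;> assumption)
  have hy1 : v.adicValuation (θ - algebraMap F₀ F' y) ≤ ε * M * M := hy.trans (min_le_left _ _)
  have hy2 : v.adicValuation (θ - algebraMap F₀ F' y) < M := by
    refine lt_of_le_of_lt (hy.trans (min_le_right _ _)) ?_
    calc M * exp (-1 : ℤ) < M * 1 := by
          apply mul_lt_mul_of_pos_left _ (zero_lt_iff.mpr hM0)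
          rw [← exp_zero]
          exact exp_lt_exp.mpr (by norm_num)
      _ = M := mul_one M
  have hyM : v.adicValuation (algebraMap F₀ F' y) = M := by
    have : algebraMap F₀ F' y = θ - (θ - algebraMap F₀ F' y) := by ring
    rw [this]
    exact Valuation.map_sub_eq_of_lt_left _ hy2
  have hy0 : algebraMap F₀ F' y ≠ 0 := by
    intro h0
    rw [h0, map_zero] at hyM
    exact hM0 hyM.symm
  refine ⟨y⁻¹, ?_⟩
  have : θ⁻¹ - algebraMap F₀ F' y⁻¹ = -(θ - algebraMap F₀ F' y) * (θ⁻¹ * (algebraMap F₀ F' y)⁻¹) := by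
    rw [map_inv₀]
    field_simp
    ring
  rw [this, map_mul, Valuation.map_neg, map_mul, map_inv₀, map_inv₀, hyM, ← hM]
  calc v.adicValuation (θ - algebraMap F₀ F' y) * (M⁻¹ * M⁻¹) ≤ (ε * M * M) * (M⁻¹ * M⁻¹) :=
        mul_le_mul' hy1 le_rfl
    _ = ε := by
        rw [mul_assoc ε, mul_assoc ε, mul_mul_mul_comm M M M⁻¹ M⁻¹,
          mul_inv_cancel₀ hM0, one_mul, mul_one]

/-- the `v`-adic closure of `F₀` in `F'`, as an intermediate field. -/
def closureField : IntermediateField F₀ F' where
  carrier := {θ | IsLimit F₀ v θ}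
  mul_mem' h₁ h₂ := IsLimit.mul v h₁ h₂
  one_mem' := by simpa using isLimit_algebraMap (F₀ := F₀) v 1
  add_mem' h₁ h₂ := IsLimit.add v h₁ h₂
  zero_mem' := by simpa using isLimit_algebraMap (F₀ := F₀) v 0
  algebraMap_mem' y := isLimit_algebraMap v y
  inv_mem' _ h := IsLimit.inv v h

theorem mem_closureField {θ : F'} : θ ∈ closureField (F₀ := F₀) v ↔ IsLimit F₀ v θ := Iff.rfl

/-- if `F' = F₀(S)` with `S` in the closure, everything is in the closure. -/
theorem isLimit_of_adjoin_eq_top {S : Set F'} (hS : ∀ θ ∈ S, IsLimit F₀ v θ)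
    (htop : IntermediateField.adjoin F₀ S = ⊤) (θ : F') : IsLimit F₀ v θ := by
  have hle : IntermediateField.adjoin F₀ S ≤ closureField (F₀ := F₀) v :=
    IntermediateField.adjoin_le_iff.mpr hS
  rw [htop] at hle
  exact hle (IntermediateField.mem_top)

/-- **(CL)**: if `F₀` is `v`-adically dense in `F'` then some element of `F₀` is a uniformiser
at `v`. -/
theorem exists_ord_eq_one_of_isLimit (h : ∀ θ : F', IsLimit F₀ v θ) :
    ∃ y : F₀, v.ord (algebraMap F₀ F' y) = 1 := by
  obtain ⟨t, ht0, ht⟩ := H27.exists_ord_eq_one v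
  have hvt : v.adicValuation t = exp (-1 : ℤ) := by
    have h1 : v.ord t = -(WithZero.log (v.adicValuation t)) := rfl
    rw [ht] at h1
    have h2 : WithZero.log (v.adicValuation t) = -1 := by omega
    rw [← h2, WithZero.exp_log (v.adicValuation_ne_zero ht0)]
  obtain ⟨y, hy⟩ := h t (exp (-2 : ℤ)) exp_ne_zero
  refine ⟨y, ?_⟩
  have hlt : v.adicValuation (t - algebraMap F₀ F' y) < v.adicValuation t := by
    rw [hvt]
    exact lt_of_le_of_lt hy (exp_lt_exp.mpr (by norm_num))
  have hyv : v.adicValuation (algebraMap F₀ F' y) = v.adicValuation t := by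
    have : algebraMap F₀ F' y = t - (t - algebraMap F₀ F' y) := by ring
    rw [this]
    exact Valuation.map_sub_eq_of_lt_left _ hlt
  show -(WithZero.log (v.adicValuation (algebraMap F₀ F' y))) = 1
  rw [hyv, hvt, log_exp]
  norm_num

end Closure

section Newton

variable {K F₀ F' : Type*} [Field K] [Field F₀] [Field F'] [Algebra K F'] [Algebra F₀ F']
variable (v : Place K F')

theorem lt_one_iff_le_exp_neg_one' {x : ℤᵐ⁰} : x < 1 ↔ x ≤ exp (-1 : ℤ) := by
  rcases eq_or_ne x 0 with rfl | hx
  · simp
  · rw [← exp_zero (M := ℤ), ← log_lt_iff_lt_exp hx, ← log_le_iff_le_exp hx]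
    omega

theorem adicValuation_le_one_iff {f : F'} :
    v.adicValuation f ≤ 1 ↔ f ∈ v.toValuationSubring := by
  rw [Place.adicValuation, ← Valuation.mem_valuationSubring_iff,
    ← IsDedekindDomain.HeightOneSpectrum.valuationSubringAtPrime_eq_valuationSubring]
  constructor
  · rintro ⟨a, s, hs, rfl⟩
    have hsu : IsUnit s := by
      by_contra hnu
      exact hs ((IsLocalRing.mem_maximalIdeal _).mpr hnu)
    obtain ⟨u, rfl⟩ := hsu
    have h1 : ((u : v.toValuationSubring) : F') * ((u⁻¹ : (v.toValuationSubring)ˣ) : F') = 1 :=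
      H97.coe_unit_mul_coe_inv u
    have h2 : (algebraMap v.toValuationSubring F' (u : v.toValuationSubring))⁻¹
        = ((u⁻¹ : (v.toValuationSubring)ˣ) : F') :=
      (eq_inv_of_mul_eq_one_right h1).symm
    show (a : F') * (algebraMap v.toValuationSubring F' (u : v.toValuationSubring))⁻¹ ∈ _
    rw [h2]
    exact v.toValuationSubring.mul_mem _ _ a.2 (u⁻¹ : (v.toValuationSubring)ˣ).1.2
  · intro hf
    exact ⟨⟨f, hf⟩, 1, Submonoid.one_mem _, by simp⟩

/-- **(NEWTON)**.  A root `θ ∈ O_v` of a polynomial `H ∈ F₀[X]` with `v`-integral coefficients,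
simple modulo `𝔪_v`, and congruent modulo `𝔪_v` to an element of `F₀`, is a `v`-adic limit of
elements of `F₀`. -/
theorem isLimit_of_simple_root (H : F₀[X])
    (hH : ∀ i, algebraMap F₀ F' (H.coeff i) ∈ v.toValuationSubring)
    (θ : F') (hθ : θ ∈ v.toValuationSubring)
    (hroot : (H.map (algebraMap F₀ F')).eval θ = 0)
    (hder : v.adicValuation ((H.map (algebraMap F₀ F')).derivative.eval θ) = 1)
    (b₀ : F₀) (hb₀ : v.adicValuation (θ - algebraMap F₀ F' b₀) < 1) : IsLimit F₀ v θ := by
  classical
  set val := v.adicValuation with hval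
  set P : F'[X] := H.map (algebraMap F₀ F') with hP
  set T : Subring F' := v.toValuationSubring.toSubring with hT
  have hPc : (↑P.coeffs : Set F') ⊆ ↑T := by
    intro c hc
    obtain ⟨i, -, rfl⟩ := Polynomial.mem_coeffs_iff.mp hc
    rw [hP, coeff_map]
    exact hH i
  set PO : (↥T)[X] := P.toSubring T hPc with hPO
  have hmap : PO.map T.subtype = P := Polynomial.map_toSubring P T hPc
  have hevalO : ∀ x : T, ((PO.eval x : T) : F') = P.eval (x : F') := by
    intro x
    have := Polynomial.eval_map_apply (p := PO) T.subtype x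
    rw [hmap] at this
    exact this.symm
  have hderO : ∀ x : T, ((PO.derivative.eval x : T) : F') = P.derivative.eval (x : F') := by
    intro x
    have := Polynomial.eval_map_apply (p := PO.derivative) T.subtype x
    rw [← Polynomial.derivative_map, hmap] at this
    exact this.symm
  have hmemT : ∀ f : F', val f ≤ 1 → f ∈ T := fun f hf => (adicValuation_le_one_iff v).mp hf
  have hvalT : ∀ x : T, val (x : F') ≤ 1 := fun x => (adicValuation_le_one_iff v).mpr x.2
  -- the induction
  have key : ∀ n : ℕ, ∃ b : F₀, val (θ - algebraMap F₀ F' b) ≤ exp (-((n : ℤ) + 1)) := by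
    intro n
    induction n with
    | zero =>
      refine ⟨b₀, ?_⟩
      have := (lt_one_iff_le_exp_neg_one').mp hb₀
      simpa using this
    | succ n ih =>
      obtain ⟨b, hb⟩ := ih
      set β : F' := algebraMap F₀ F' b with hβ
      have hb1 : val (θ - β) < 1 := lt_of_le_of_lt hb (by
        rw [← exp_zero]; exact exp_lt_exp.mpr (by omega))
      have hβT : β ∈ T := by
        apply hmemT
        have : β = θ - (θ - β) := by ring
        rw [this]
        exact (val.map_sub _ _).trans (max_le ((adicValuation_le_one_iff v).mpr hθ) hb1.le)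
      let θR : T := ⟨θ, hθ⟩
      let βR : T := ⟨β, hβT⟩
      obtain ⟨k, hk⟩ := Polynomial.binomExpansion PO βR (θR - βR)
      rw [add_sub_cancel] at hk
      have hk' : (0 : F') = P.eval β + P.derivative.eval β * (θ - β) + (k : F') * (θ - β) ^ 2 := by
        have h0 : ((PO.eval θR : T) : F') = 0 := by rw [hevalO]; exact hroot
        have := congrArg (fun x : T => (x : F')) hk
        rw [h0] at this
        rw [this]
        push_cast
        rw [hevalO, hderO]
      -- the derivative at `β` is a unit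
      have hD : val (P.derivative.eval β) = 1 := by
        obtain ⟨c, hc⟩ := Polynomial.sub_dvd_eval_sub βR θR PO.derivative
        have hc' : P.derivative.eval β - P.derivative.eval θ = (β - θ) * (c : F') := by
          have := congrArg (fun x : T => (x : F')) hc
          push_cast at this
          rw [hderO, hderO] at this
          exact this
        have hlt : val (P.derivative.eval β - P.derivative.eval θ) < val (P.derivative.eval θ) := by
          rw [hder, hc', map_mul]
          calc val (β - θ) * val (c : F') ≤ val (β - θ) * 1 := mul_le_mul' le_rfl (hvalT c)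
            _ = val (θ - β) := by rw [mul_one, ← Valuation.map_neg]; congr 1; ring
            _ < 1 := hb1
        rw [Valuation.map_eq_of_sub_lt _ hlt, hder]
      have hD0 : P.derivative.eval β ≠ 0 := by
        intro h0; rw [h0, map_zero] at hD; exact zero_ne_one hD
      -- images of `H(b)`, `H'(b)`
      have hA : P.eval β = algebraMap F₀ F' (H.eval b) := by
        rw [hP, hβ, Polynomial.eval_map_apply]
      have hDb : P.derivative.eval β = algebraMap F₀ F' (H.derivative.eval b) := by
        rw [hP, hβ, Polynomial.derivative_map, Polynomial.eval_map_apply]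
      refine ⟨b - H.eval b / H.derivative.eval b, ?_⟩
      have hstep : θ - algebraMap F₀ F' (b - H.eval b / H.derivative.eval b)
          = -((k : F') * (θ - β) ^ 2) / P.derivative.eval β := by
        rw [map_sub, map_div₀, ← hA, ← hDb, ← hβ]
        field_simp
        linear_combination (-1 : F') * hk'
      rw [hstep, map_div₀, hD, div_one, Valuation.map_neg, map_mul, map_pow]
      calc val (k : F') * val (θ - β) ^ 2 ≤ 1 * (exp (-((n : ℤ) + 1))) ^ 2 :=
            mul_le_mul' (hvalT k) (pow_le_pow_left' hb 2)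
        _ = exp (-((n : ℤ) + 1) + -((n : ℤ) + 1)) := by
            rw [one_mul, pow_two, ← exp_add]
        _ ≤ exp (-(((n + 1 : ℕ) : ℤ) + 1)) := exp_le_exp.mpr (by push_cast; omega)
  intro ε hε
  obtain ⟨m, hm⟩ : ∃ m : ℤ, ε = exp m := ⟨WithZero.log ε, (WithZero.exp_log hε).symm⟩
  obtain ⟨b, hb⟩ := key (-m).toNat
  refine ⟨b, hb.trans ?_⟩
  rw [hm]
  exact exp_le_exp.mpr (by omega)

end Newton

section ValLemmas

variable {K F' : Type*} [Field K] [Field F'] [Algebra K F'] (v : Place K F')

theorem adicValuation_eq_exp_neg_ord {f : F'} (hf : f ≠ 0) :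
    v.adicValuation f = exp (-v.ord f) := by
  show v.adicValuation f = exp (- -(WithZero.log (v.adicValuation f)))
  rw [neg_neg, WithZero.exp_log (v.adicValuation_ne_zero hf)]

theorem adicValuation_lt_one_iff {f : F'} (hf : f ≠ 0) :
    v.adicValuation f < 1 ↔ 0 < v.ord f := by
  rw [adicValuation_eq_exp_neg_ord v hf, ← exp_zero (M := ℤ), exp_lt_exp]
  omega

theorem adicValuation_eq_one_iff {f : F'} (hf : f ≠ 0) :
    v.adicValuation f = 1 ↔ v.ord f = 0 := by
  rw [adicValuation_eq_exp_neg_ord v hf, ← exp_zero (M := ℤ), exp_inj]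
  omega

theorem adicValuation_algebraMap {a : K} (ha : a ≠ 0) :
    v.adicValuation (algebraMap K F' a) = 1 := by
  rw [adicValuation_eq_one_iff v ((_root_.map_ne_zero _).mpr ha)]
  exact H24.PlaceLemmas.ord_algebraMap v a

theorem adicValuation_algebraMap_le_one (a : K) :
    v.adicValuation (algebraMap K F' a) ≤ 1 :=
  (adicValuation_le_one_iff v).mpr (v.algebraMap_mem' a)

theorem adicValuation_aeval_le_one {y : F'} (hy : v.adicValuation y ≤ 1) (p : K[X]) :
    v.adicValuation (aeval y p) ≤ 1 :=
  (adicValuation_le_one_iff v).mpr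
    (H46.aeval_mem_of_mem v.toValuationSubring v.algebraMap_mem'
      ((adicValuation_le_one_iff v).mp hy) p)

/-- `p(y) ≡ p(y₀)` modulo `(y - y₀)`. -/
theorem adicValuation_aeval_sub_le {y : F'} {y0 : K}
    (hy : v.adicValuation (y - algebraMap K F' y0) ≤ 1) (p : K[X]) :
    v.adicValuation (aeval y p - algebraMap K F' (p.eval y0))
      ≤ v.adicValuation (y - algebraMap K F' y0) := by
  obtain ⟨q, hq⟩ := X_sub_C_dvd_sub_C_eval (a := y0) (p := p)
  have h1 : aeval y p - algebraMap K F' (p.eval y0) = (y - algebraMap K F' y0) * aeval y q := by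
    have := congrArg (aeval y) hq
    simpa only [map_sub, map_mul, aeval_X, aeval_C] using this
  have hy' : v.adicValuation y ≤ 1 := by
    have : y = (y - algebraMap K F' y0) + algebraMap K F' y0 := by ring
    rw [this]
    exact (v.adicValuation.map_add _ _).trans (max_le hy (adicValuation_algebraMap_le_one v y0))
  rw [h1, map_mul]
  calc v.adicValuation (y - algebraMap K F' y0) * v.adicValuation (aeval y q)
      ≤ v.adicValuation (y - algebraMap K F' y0) * 1 :=
        mul_le_mul' le_rfl (adicValuation_aeval_le_one v hy' q)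
    _ = _ := mul_one _

theorem adicValuation_aeval_eq_one {y : F'} {y0 : K}
    (hy : v.adicValuation (y - algebraMap K F' y0) < 1) (p : K[X]) (hp : p.eval y0 ≠ 0) :
    v.adicValuation (aeval y p) = 1 := by
  have h1 := adicValuation_aeval_sub_le v hy.le p
  have h2 : v.adicValuation (aeval y p - algebraMap K F' (p.eval y0))
      < v.adicValuation (algebraMap K F' (p.eval y0)) := by
    rw [adicValuation_algebraMap v hp]
    exact lt_of_le_of_lt h1 hy
  rw [Valuation.map_eq_of_sub_lt _ h2, adicValuation_algebraMap v hp]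

end ValLemmas

section AB

variable {K F F' : Type*} [Field K] [Field F] [Field F'] [Algebra K F] [Algebra K F']
  [Algebra F F'] [IsScalarTower K F F']
variable (v : Place K F')

/-- a subfield containing the image of `F` and `y` is everything when `F' = F(y)`. -/
theorem mem_of_adjoin_eq_top {y : F'} (hgen : IntermediateField.adjoin F {y} = ⊤)
    (L : Subfield F') (hF : ∀ f : F, algebraMap F F' f ∈ L) (hy : y ∈ L) (θ : F') : θ ∈ L := by
  have h1 := IntermediateField.adjoin_toSubfield F ({y} : Set F')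
  have h2 : Subfield.closure (Set.range (algebraMap F F') ∪ {y}) ≤ L := by
    rw [Subfield.closure_le]
    rintro z (⟨f, rfl⟩ | hz)
    · exact hF f
    · rw [Set.mem_singleton_iff] at hz
      rw [hz]; exact hy
  have h3 : θ ∈ (IntermediateField.adjoin F ({y} : Set F')).toSubfield := by
    rw [hgen]; exact (IntermediateField.mem_top (F := F) (E := F'))
  rw [h1] at h3
  exact h2 h3

/-- **Kummer step.**  `F' = F(y)`, `x = A(y)/B(y) ∈ F`, `A - cB = (Y - y₀)^e W`, `W(y₀) ≠ 0`,
`B(y₀) ≠ 0`, `e ≠ 0` in `K`, `v` a place of `F'` of degree one with `y ≡ y₀`, and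
`x - c = π^e ω` with `π, ω ∈ F`, `π ∈ 𝔪_v`, `ω` a `v`-unit.  Then `F` is `v`-adically dense in `F'`. -/
theorem isLimit_of_kummer
    (hres : ∀ f ∈ v.toValuationSubring, ∃ a : K, v.adicValuation (f - algebraMap K F' a) < 1)
    (y : F') (hgen : IntermediateField.adjoin F {y} = ⊤)
    (x : F) (A B : K[X]) (hxy : aeval y A = algebraMap F F' x * aeval y B)
    (y0 : K) (hy0 : v.adicValuation (y - algebraMap K F' y0) < 1)
    (hB0 : B.eval y0 ≠ 0) (c : K)
    (e : ℕ) (he0 : 0 < e) (he : (e : K) ≠ 0) (W : K[X])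
    (hW : A - C c * B = (X - C y0) ^ e * W) (hW0 : W.eval y0 ≠ 0)
    (π ω : F) (hπ0 : π ≠ 0) (hπ : v.adicValuation (algebraMap F F' π) < 1)
    (hω : v.adicValuation (algebraMap F F' ω) = 1)
    (hx : x - algebraMap K F c = π ^ e * ω) (θ : F') : IsLimit F v θ := by
  classical
  set val := v.adicValuation with hval
  set g : F →+* F' := algebraMap F F' with hg
  set π' : F' := g π with hπ'
  set ω' : F' := g ω with hω'
  have hπ'0 : π' ≠ 0 := (_root_.map_ne_zero _).mpr hπ0
  -- the basic identity in `F'`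
  have hWy : val (aeval y W) = 1 := adicValuation_aeval_eq_one v hy0 W hW0
  have hBy : val (aeval y B) = 1 := adicValuation_aeval_eq_one v hy0 B hB0
  have hWy0 : aeval y W ≠ 0 := by
    intro h; rw [h, map_zero] at hWy; exact zero_ne_one hWy
  have hid : (y - algebraMap K F' y0) ^ e * aeval y W = π' ^ e * ω' * aeval y B := by
    have h1 := congrArg (aeval y) hW
    simp only [map_sub, map_mul, map_pow, aeval_X, aeval_C] at h1
    rw [← h1, hxy]
    have h2 : g x - algebraMap K F' c = π' ^ e * ω' := by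
      have := congrArg g hx
      rw [map_sub, map_mul, map_pow, hg, ← IsScalarTower.algebraMap_apply K F F'] at this
      exact this
    rw [← h2]; ring
  -- `ρ`
  set ρ : F' := (y - algebraMap K F' y0) / π' with hρ
  have hyρ : algebraMap K F' y0 + π' * ρ = y := by
    rw [hρ]; field_simp; ring
  have hρe : ρ ^ e * aeval y W = ω' * aeval y B := by
    have : ρ ^ e = (y - algebraMap K F' y0) ^ e / π' ^ e := by rw [hρ, div_pow]
    rw [this, div_mul_eq_mul_div, hid]
    field_simp
  have hρval : val ρ = 1 := by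
    have h1 : val ρ ^ e = 1 := by
      have := congrArg val hρe
      rw [map_mul, map_mul, map_pow, hWy, hBy, hω, mul_one, mul_one] at this
      exact this
    rcases pow_eq_one_iff.mp h1 with h | h
    · exact h
    · omega
  have hρmem : ρ ∈ v.toValuationSubring := (adicValuation_le_one_iff v).mp hρval.le
  -- the ring of `v`-integral elements of `F`
  let S : Subalgebra K F :=
    (H97.placeSubalgebra v).comap (IsScalarTower.toAlgHom K F F')
  have hS : ∀ f : F, f ∈ S ↔ g f ∈ v.toValuationSubring := fun f => Iff.rfl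
  have hπS : π ∈ S := (hS π).mpr ((adicValuation_le_one_iff v).mp hπ.le)
  have hωS : ω ∈ S := (hS ω).mpr ((adicValuation_le_one_iff v).mp hω.le)
  let πS : S := ⟨π, hπS⟩
  let ωS : S := ⟨ω, hωS⟩
  let L₀ : (↥S)[X] := C (algebraMap K S y0) + C πS * X
  let H₀ : (↥S)[X] := X ^ e * (W.map (algebraMap K S)).comp L₀
    - C ωS * (B.map (algebraMap K S)).comp L₀
  let G : ↥S →+* F' := g.comp S.val.toRingHom
  have hGK : G.comp (algebraMap K S) = algebraMap K F' := by
    ext a
    show g (algebraMap K F a) = algebraMap K F' a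
    rw [hg, ← IsScalarTower.algebraMap_apply K F F']
  have hGπ : G πS = π' := rfl
  have hGω : G ωS = ω' := rfl
  have hL₀ : L₀.eval₂ G ρ = y := by
    simp only [L₀, eval₂_add, eval₂_mul, eval₂_C, eval₂_X, hGπ]
    rw [← RingHom.comp_apply, hGK]
    exact hyρ
  have hevK : ∀ p : K[X], ((p.map (algebraMap K S)).comp L₀).eval₂ G ρ = aeval y p := by
    intro p
    rw [eval₂_comp, hL₀, eval₂_map, hGK, aeval_def]
  set H : F[X] := H₀.map S.val.toRingHom with hH
  have hHint : ∀ i, g (H.coeff i) ∈ v.toValuationSubring := by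
    intro i
    rw [hH, coeff_map]
    exact (H₀.coeff i).2
  have hroot : (H.map g).eval ρ = 0 := by
    rw [hH, Polynomial.map_map, eval_map]
    show H₀.eval₂ G ρ = 0
    simp only [H₀, eval₂_sub, eval₂_mul, eval₂_pow, eval₂_X, eval₂_C, hevK, hGω]
    rw [hρe, sub_self]
  have hderiv : (H.map g).derivative.eval ρ
      = (e : F') * ρ ^ (e - 1) * aeval y W
        + π' * (ρ ^ e * aeval y (derivative W) - ω' * aeval y (derivative B)) := by
    rw [hH, Polynomial.map_map, derivative_map, eval_map]
    show H₀.derivative.eval₂ G ρ = _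
    have hL₀' : derivative L₀ = C πS := by
      simp only [L₀, derivative_add, derivative_C, derivative_mul, derivative_X, zero_add,
        zero_mul, mul_one]
    have hdc : ∀ p : K[X], (derivative ((p.map (algebraMap K S)).comp L₀)).eval₂ G ρ
        = π' * aeval y (derivative p) := by
      intro p
      rw [derivative_comp, hL₀', eval₂_mul, eval₂_C, hGπ, derivative_map, hevK]
    simp only [H₀, derivative_sub, derivative_mul, derivative_X_pow, derivative_C, zero_mul,
      zero_add, eval₂_sub, eval₂_add, eval₂_mul, eval₂_pow, eval₂_X, eval₂_C, hevK, hdc, hGω,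
      eval₂_natCast, map_natCast]
    ring
  have hder : val ((H.map g).derivative.eval ρ) = 1 := by
    rw [hderiv]
    have heF : (e : F') = algebraMap K F' (e : K) := by simp
    have h1 : val ((e : F') * ρ ^ (e - 1) * aeval y W) = 1 := by
      rw [map_mul, map_mul, map_pow, hρval, one_pow, hWy, heF, adicValuation_algebraMap v he,
        one_mul, one_mul]
    have hy1 : val y ≤ 1 := by
      rw [← hyρ]
      refine (val.map_add _ _).trans (max_le (adicValuation_algebraMap_le_one v y0) ?_)
      rw [map_mul, hρval, mul_one]; exact hπ.le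
    have h2 : val (π' * (ρ ^ e * aeval y (derivative W) - ω' * aeval y (derivative B))) < 1 := by
      rw [map_mul]
      have h3 : val (ρ ^ e * aeval y (derivative W) - ω' * aeval y (derivative B)) ≤ 1 := by
        refine (val.map_sub _ _).trans (max_le ?_ ?_)
        · rw [map_mul, map_pow, hρval, one_pow, one_mul]
          exact adicValuation_aeval_le_one v hy1 _
        · rw [map_mul, hω, one_mul]
          exact adicValuation_aeval_le_one v hy1 _
      calc val π' * val (ρ ^ e * aeval y (derivative W) - ω' * aeval y (derivative B))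
          ≤ val π' * 1 := mul_le_mul' le_rfl h3
        _ = val π' := mul_one _
        _ < 1 := hπ
    rw [Valuation.map_add_eq_of_lt_left _ (by rw [h1]; exact h2), h1]
  obtain ⟨a, ha⟩ := hres ρ hρmem
  have hρlim : IsLimit F v ρ := by
    refine isLimit_of_simple_root v H hHint ρ hρmem hroot hder (algebraMap K F a) ?_
    rw [← IsScalarTower.algebraMap_apply K F F']
    exact ha
  have hylim : IsLimit F v y := by
    rw [← hyρ, IsScalarTower.algebraMap_apply K F F']
    exact IsLimit.add v (isLimit_algebraMap v _) (IsLimit.mul v (isLimit_algebraMap v π) hρlim)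
  exact mem_of_adjoin_eq_top hgen (closureField (F₀ := F) v).toSubfield
    (fun f => isLimit_algebraMap v f) hylim θ

/-- if `F` is `v`-adically dense in `F'` then `v` is unramified over its restriction to `F`. -/
theorem ramIdx_eq_one_of_isLimit (h : ∀ θ : F', IsLimit F v θ)
    (hnt : ∃ f : F, f ≠ 0 ∧ v.ord (algebraMap F F' f) ≠ 0) : ramIdx (K := K) v hnt = 1 := by
  obtain ⟨f, hf⟩ := exists_ord_eq_one_of_isLimit v h
  rw [ord_algebraMap_eq (K := K) v hnt f] at hf
  have hdvd : (ramIdx (K := K) v hnt : ℤ) ∣ 1 := ⟨_, hf.symm⟩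
  have := Int.eq_one_of_dvd_one (by positivity) hdvd
  exact_mod_cast this

/-- the `v`-order of `p(y)` is `rootMultiplicity * ord_v (y - y₀)`. -/
theorem ord_aeval_eq_rootMultiplicity_mul {y : F'} {y0 : K}
    (hy0 : v.adicValuation (y - algebraMap K F' y0) < 1) (hyne : y - algebraMap K F' y0 ≠ 0)
    (p : K[X]) (hp : p ≠ 0) :
    v.ord (aeval y p) = (p.rootMultiplicity y0 : ℤ) * v.ord (y - algebraMap K F' y0) := by
  obtain ⟨q, hq, hndvd⟩ := exists_eq_pow_rootMultiplicity_mul_and_not_dvd p hp y0
  have hqa : q.eval y0 ≠ 0 := fun h0 => hndvd (dvd_iff_isRoot.mpr h0)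
  have hqv : v.adicValuation (aeval y q) = 1 := adicValuation_aeval_eq_one v hy0 q hqa
  have hq0 : aeval y q ≠ 0 := by
    intro h; rw [h, map_zero] at hqv; exact zero_ne_one hqv
  have h1 : aeval y p = (y - algebraMap K F' y0) ^ (p.rootMultiplicity y0) * aeval y q := by
    conv_lhs => rw [hq]
    simp only [map_mul, map_pow, map_sub, aeval_X, aeval_C]
  rw [h1, v.ord_mul (pow_ne_zero _ hyne) hq0, (adicValuation_eq_one_iff v hq0).mp hqv, add_zero,
    ← zpow_natCast, v.ord_zpow]

/-- **Unramified step.**  If `s = x - c` is a uniformiser of the restriction `u` of `v` to `F`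
(and `deg v = 1`), then `K(y)` is `v`-adically dense in `F' = F(y)`; hence `y - y₀` is a
uniformiser of `v`. -/
theorem ord_sub_eq_one_of_unramified
    (hres : ∀ f ∈ v.toValuationSubring, ∃ a : K, v.adicValuation (f - algebraMap K F' a) < 1)
    (y : F') (hgen : IntermediateField.adjoin F {y} = ⊤)
    (x : F) (A B : K[X]) (hxy : aeval y A = algebraMap F F' x * aeval y B)
    (y0 : K) (hy0 : v.adicValuation (y - algebraMap K F' y0) < 1)
    (hyne : y - algebraMap K F' y0 ≠ 0) (hB0 : B.eval y0 ≠ 0) (c : K)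
    (hnt : ∃ f : F, f ≠ 0 ∧ v.ord (algebraMap F F' f) ≠ 0)
    (hu : (restrictPlace (K := K) v hnt).ord (x - algebraMap K F c) = 1) :
    v.ord (y - algebraMap K F' y0) = 1 := by
  classical
  set val := v.adicValuation with hval
  set g : F →+* F' := algebraMap F F' with hg
  set u := restrictPlace (K := K) v hnt with hu'
  set s : F := x - algebraMap K F c with hs
  have hs0 : s ≠ 0 := by
    intro h; rw [h, Place.ord_zero] at hu; exact zero_ne_one hu
  set s' : F' := g s with hs'
  have hs'0 : s' ≠ 0 := (_root_.map_ne_zero _).mpr hs0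
  have hs'ord : v.ord s' = ramIdx (K := K) v hnt := by
    rw [hs', hg, ord_algebraMap_eq (K := K) v hnt s, hu, mul_one]
  have hs'val : val s' < 1 := by
    rw [adicValuation_lt_one_iff v hs'0, hs'ord]
    exact_mod_cast ramIdx_pos v hnt
  let M : IntermediateField K F' := IntermediateField.adjoin K {y}
  have hyM : y ∈ M := IntermediateField.mem_adjoin_simple_self K y
  have haevM : ∀ p : K[X], aeval y p ∈ M := fun p => by
    rw [IntermediateField.mem_adjoin_simple_iff]
    exact ⟨p, 1, by simp⟩
  have hBy : val (aeval y B) = 1 := adicValuation_aeval_eq_one v hy0 B hB0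
  have hBy0 : aeval y B ≠ 0 := by
    intro h; rw [h, map_zero] at hBy; exact zero_ne_one hBy
  have hs'M : s' ∈ M := by
    have : s' = aeval y A / aeval y B - algebraMap K F' c := by
      rw [hs', hs, map_sub, hxy, hg, ← IsScalarTower.algebraMap_apply K F F']
      field_simp
    rw [this]
    exact M.sub_mem (M.div_mem (haevM A) (haevM B)) (M.algebraMap_mem c)
  -- expansions in `s'`
  have key : ∀ n : ℕ, ∀ f : F, g f ∈ v.toValuationSubring →
      ∃ p : K[X], val (g f - aeval s' p) ≤ val s' ^ n := by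
    intro n
    induction n with
    | zero =>
      intro f hf
      exact ⟨0, by simpa using (adicValuation_le_one_iff v).mpr hf⟩
    | succ n ih =>
      intro f hf
      obtain ⟨a, ha⟩ := hres (g f) hf
      set f₁ : F := (f - algebraMap K F a) / s with hf₁
      have hgfa : g (f - algebraMap K F a) = g f - algebraMap K F' a := by
        rw [map_sub, hg, ← IsScalarTower.algebraMap_apply K F F']
      have hf₁mem : g f₁ ∈ v.toValuationSubring := by
        rw [hg, ← mem_restrictPlace_iff (K := K) v hnt f₁]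
        rcases eq_or_ne (f - algebraMap K F a) 0 with h0 | h0
        · rw [hf₁, h0, zero_div]; exact zero_mem _
        · have hf₁0 : f₁ ≠ 0 := div_ne_zero h0 hs0
          rw [H27.mem_toValuationSubring_of_ne_zero _ hf₁0, hf₁, div_eq_mul_inv,
            Place.ord_mul _ h0 (inv_ne_zero hs0), Place.ord_inv, hu]
          have hpos : 0 < v.ord (g (f - algebraMap K F a)) := by
            rw [← adicValuation_lt_one_iff v ((_root_.map_ne_zero _).mpr h0), hgfa]
            exact ha
          rw [hg, ord_algebraMap_eq (K := K) v hnt] at hpos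
          have hr : (0 : ℤ) < ramIdx (K := K) v hnt := by exact_mod_cast ramIdx_pos v hnt
          have : 0 < (restrictPlace (K := K) v hnt).ord (f - algebraMap K F a) := by
            by_contra hle
            rw [not_lt] at hle
            nlinarith
          omega
      obtain ⟨p₁, hp₁⟩ := ih f₁ hf₁mem
      refine ⟨C a + X * p₁, ?_⟩
      have : g f - aeval s' (C a + X * p₁) = s' * (g f₁ - aeval s' p₁) := by
        have h1 : g f₁ = (g f - algebraMap K F' a) / s' := by
          rw [hf₁, map_div₀, hgfa]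
        rw [h1]
        simp only [map_add, map_mul, aeval_C, aeval_X]
        field_simp
        ring
      rw [this, map_mul, pow_succ']
      exact mul_le_mul' le_rfl hp₁
  -- elements of `F` are limits of elements of `M`
  have hpow : ∀ ε : ℤᵐ⁰, ε ≠ 0 → ∃ n : ℕ, val s' ^ n ≤ ε := by
    intro ε hε
    obtain ⟨m, hm⟩ : ∃ m : ℤ, ε = exp m := ⟨WithZero.log ε, (WithZero.exp_log hε).symm⟩
    refine ⟨(-m).toNat, ?_⟩
    have h1 : val s' ≤ exp (-1 : ℤ) := (lt_one_iff_le_exp_neg_one').mp hs'val
    calc val s' ^ (-m).toNat ≤ (exp (-1 : ℤ)) ^ (-m).toNat := pow_le_pow_left' h1 _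
      _ = exp (((-m).toNat : ℤ) * (-1)) := by
          rw [← exp_nsmul, nsmul_eq_mul]
      _ ≤ ε := by rw [hm]; exact exp_le_exp.mpr (by omega)
  have hFint : ∀ f : F, g f ∈ v.toValuationSubring → IsLimit M v (g f) := by
    intro f hf ε hε
    obtain ⟨n, hn⟩ := hpow ε hε
    obtain ⟨p, hp⟩ := key n f hf
    have hpM : aeval s' p ∈ M := by
      have : aeval s' p = ((aeval (⟨s', hs'M⟩ : M) p : M) : F') := by
        have h := Polynomial.aeval_algebraMap_apply F' (⟨s', hs'M⟩ : M) p
        exact h
      rw [this]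
      exact (aeval (⟨s', hs'M⟩ : M) p).2
    exact ⟨⟨aeval s' p, hpM⟩, hp.trans hn⟩
  have hFlim : ∀ f : F, IsLimit M v (g f) := by
    intro f
    rcases v.toValuationSubring.mem_or_inv_mem (g f) with h | h
    · exact hFint f h
    · have : IsLimit M v (g f⁻¹) := hFint f⁻¹ (by rw [map_inv₀]; exact h)
      have h2 := IsLimit.inv v this
      rwa [map_inv₀, inv_inv] at h2
  have hall : ∀ θ : F', IsLimit M v θ := fun θ =>
    mem_of_adjoin_eq_top hgen (closureField (F₀ := M) v).toSubfield hFlim
      (isLimit_algebraMap (F₀ := M) v ⟨y, hyM⟩) θ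
  obtain ⟨r, hr⟩ := exists_ord_eq_one_of_isLimit v hall
  obtain ⟨P, Q, hPQ⟩ := (IntermediateField.mem_adjoin_simple_iff K (r : F')).mp r.2
  have hr' : v.ord (r : F') = 1 := hr
  have hr0 : (r : F') ≠ 0 := by
    intro h; rw [h, Place.ord_zero] at hr'; exact zero_ne_one hr'
  have hP0 : aeval y P ≠ 0 := by
    intro h; rw [h, zero_div] at hPQ; exact hr0 hPQ
  have hQ0 : aeval y Q ≠ 0 := by
    intro h; rw [h, div_zero] at hPQ; exact hr0 hPQ
  have hP : P ≠ 0 := by rintro rfl; simp at hP0
  have hQ : Q ≠ 0 := by rintro rfl; simp at hQ0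
  rw [hPQ, div_eq_mul_inv, v.ord_mul hP0 (inv_ne_zero hQ0), v.ord_inv,
    ord_aeval_eq_rootMultiplicity_mul v hy0 hyne P hP,
    ord_aeval_eq_rootMultiplicity_mul v hy0 hyne Q hQ] at hr'
  have hpos : 0 < v.ord (y - algebraMap K F' y0) := (adicValuation_lt_one_iff v hyne).mp hy0
  have hdvd : v.ord (y - algebraMap K F' y0) ∣ 1 :=
    ⟨(P.rootMultiplicity y0 : ℤ) - (Q.rootMultiplicity y0 : ℤ), by rw [← hr']; ring⟩
  exact Int.eq_one_of_dvd_one hpos.le hdvd

/-- degree one places: every integral element is congruent to a constant. -/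
theorem exists_const_of_deg_eq_one (hdeg : v.deg = 1) :
    ∀ f ∈ v.toValuationSubring, ∃ a : K, v.adicValuation (f - algebraMap K F' a) < 1 := by
  intro f hf
  obtain ⟨a, ha⟩ := H25.residueTrivial_of_deg_eq_one v hdeg
    (IsLocalRing.residue _ (⟨f, hf⟩ : v.toValuationSubring))
  refine ⟨a, ?_⟩
  set z : v.toValuationSubring := ⟨f, hf⟩ - algebraMap K v.toValuationSubring a with hz
  have hzF : (z : F') = f - algebraMap K F' a := rfl
  have h0 : IsLocalRing.residue v.toValuationSubring z = 0 := by
    rw [hz, map_sub, ← ha, sub_eq_zero]; rfl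
  rcases eq_or_ne (f - algebraMap K F' a) 0 with h | h
  · rw [h, map_zero]; exact zero_lt_one
  · rw [adicValuation_lt_one_iff v h, ← hzF]
    exact H25.ord_pos_of_residue_eq_zero v z (by rw [hzF]; exact h) h0

/-- **(AB) Abhyankar's lemma for a rational auxiliary line**, elementary form.
`F' = F(y)`, `x = A(y)/B(y) ∈ F` with `A, B ∈ K[Y]`; `v` a place of `F'/K` of degree one with
`y(v) = y₀`, `B(y₀) ≠ 0`, `c = x(v)`, `A - cB = (Y - y₀)^e W` with `W(y₀) ≠ 0` and `e ≠ 0` in `K`;
`u` the restriction of `v` to `F`.  If `ord_u (x - c) ∈ {1, e}` then `ord_v (y - y₀) = 1`: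
`F'/K(y)` is unramified at `v`. -/
theorem ord_sub_eq_one_of_abhyankar (hdeg : v.deg = 1)
    (y : F') (hgen : IntermediateField.adjoin F {y} = ⊤)
    (x : F) (A B : K[X]) (hxy : aeval y A = algebraMap F F' x * aeval y B)
    (y0 : K) (hy0 : 0 < v.ord (y - algebraMap K F' y0))
    (hB0 : B.eval y0 ≠ 0) (c : K)
    (e : ℕ) (he0 : 0 < e) (he : (e : K) ≠ 0) (W : K[X])
    (hW : A - C c * B = (X - C y0) ^ e * W) (hW0 : W.eval y0 ≠ 0)
    (hnt : ∃ f : F, f ≠ 0 ∧ v.ord (algebraMap F F' f) ≠ 0)
    (hu : (restrictPlace (K := K) v hnt).ord (x - algebraMap K F c) = 1 ∨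
      (restrictPlace (K := K) v hnt).ord (x - algebraMap K F c) = e) :
    v.ord (y - algebraMap K F' y0) = 1 := by
  classical
  have hres := exists_const_of_deg_eq_one v hdeg
  have hyne : y - algebraMap K F' y0 ≠ 0 := by
    intro h; rw [h, Place.ord_zero] at hy0; exact lt_irrefl _ hy0
  have hy0' : v.adicValuation (y - algebraMap K F' y0) < 1 :=
    (adicValuation_lt_one_iff v hyne).mpr hy0
  rcases hu with hu | hu
  · exact ord_sub_eq_one_of_unramified v hres y hgen x A B hxy y0 hy0' hyne hB0 c hnt hu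
  · set u := restrictPlace (K := K) v hnt with hu'
    set g : F →+* F' := algebraMap F F' with hg
    have hxc0 : x - algebraMap K F c ≠ 0 := by
      intro h; rw [h, Place.ord_zero] at hu
      have : (e : ℤ) = 0 := hu.symm
      omega
    obtain ⟨π, hπ0, hπ1⟩ := H27.exists_ord_eq_one u
    set ω : F := (x - algebraMap K F c) / π ^ e with hω
    have hω0 : ω ≠ 0 := div_ne_zero hxc0 (pow_ne_zero _ hπ0)
    have hωord : u.ord ω = 0 := by
      rw [hω, div_eq_mul_inv, u.ord_mul hxc0 (inv_ne_zero (pow_ne_zero _ hπ0)), u.ord_inv,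
        ← zpow_natCast, u.ord_zpow, hπ1, hu]
      ring
    have hπval : v.adicValuation (g π) < 1 := by
      rw [adicValuation_lt_one_iff v ((_root_.map_ne_zero _).mpr hπ0), hg,
        ord_algebraMap_eq (K := K) v hnt π, ← hu', hπ1, mul_one]
      exact_mod_cast ramIdx_pos v hnt
    have hωval : v.adicValuation (g ω) = 1 := by
      rw [adicValuation_eq_one_iff v ((_root_.map_ne_zero _).mpr hω0), hg,
        ord_algebraMap_eq (K := K) v hnt ω, ← hu', hωord, mul_zero]
    have hx : x - algebraMap K F c = π ^ e * ω := by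
      rw [hω]; field_simp
    have hdense := isLimit_of_kummer v hres y hgen x A B hxy y0 hy0' hB0 c e he0 he W hW hW0
      π ω hπ0 hπval hωval hx
    have hram : ramIdx (K := K) v hnt = 1 := ramIdx_eq_one_of_isLimit v hdense hnt
    -- compare orders in `(y - y₀)^e W(y) = (x - c) B(y)`
    have hWy : v.adicValuation (aeval y W) = 1 := adicValuation_aeval_eq_one v hy0' W hW0
    have hBy : v.adicValuation (aeval y B) = 1 := adicValuation_aeval_eq_one v hy0' B hB0
    have hWy0 : aeval y W ≠ 0 := by
      intro h; rw [h, map_zero] at hWy; exact zero_ne_one hWy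
    have hBy0 : aeval y B ≠ 0 := by
      intro h; rw [h, map_zero] at hBy; exact zero_ne_one hBy
    have hid : (y - algebraMap K F' y0) ^ e * aeval y W = g (x - algebraMap K F c) * aeval y B := by
      have h1 := congrArg (aeval y) hW
      simp only [map_sub, map_mul, map_pow, aeval_X, aeval_C] at h1
      rw [← h1, hxy, map_sub, hg, ← IsScalarTower.algebraMap_apply K F F']
      ring
    have hord := congrArg v.ord hid
    rw [v.ord_mul (pow_ne_zero _ hyne) hWy0, (adicValuation_eq_one_iff v hWy0).mp hWy, add_zero,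
      ← zpow_natCast, v.ord_zpow,
      v.ord_mul ((_root_.map_ne_zero _).mpr hxc0) hBy0, (adicValuation_eq_one_iff v hBy0).mp hBy,
      add_zero, hg, ord_algebraMap_eq (K := K) v hnt, ← hu', hu, hram] at hord
    have he' : (0 : ℤ) < e := by exact_mod_cast he0
    have : ((e : ℕ) : ℤ) * v.ord (y - algebraMap K F' y0) = (e : ℤ) * 1 := by
      rw [hord]; push_cast; ring
    exact mul_left_cancel₀ he'.ne' this

end AB

end Fermat.Agent.S18.H95
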