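/-
helper83: abstract final Čech step for S18 (Mathlib only).

`R` a commutative ring, `π : R`, `C₁₂` a commutative `R`-algebra, `C₁ C₂` subalgebras
("the two affine charts of the cover, and their intersection").  If `C₁₂ / (C₁ + C₂)` has bounded
`π`-power torsion (e.g. it is a finitely generated module over a noetherian ring), `C₁ ⊓ C₂` is the
image of `R`, and `R/π` is connected, then `C₁/π` and `C₂/π` have no compatible nontrivial
idempotent: "the special fibre of the cover is connected".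
-/
import Mathlib

set_option autoImplicit false

namespace Fermat.Agent.S18.H83

/-! ### (1) bounded torsion -/

/-- In a finitely generated module over a noetherian ring the `π`-power torsion has bounded
exponent. -/
theorem exists_pow_smul_bound {R : Type*} [CommRing R] [IsNoetherianRing R]
    (M : Type*) [AddCommGroup M] [Module R M] [Module.Finite R M] (π : R) :
    ∃ N : ℕ, ∀ y : M, (∃ n : ℕ, π ^ n • y = 0) → π ^ N • y = 0 := by
  have hM : IsNoetherian R M := isNoetherian_of_isNoetherianRing_of_finite R M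
  let K : ℕ →o Submodule R M :=
    { toFun := fun n => LinearMap.ker (LinearMap.lsmul R M (π ^ n))
      monotone' := by
        intro a b hab y hy
        obtain ⟨k, rfl⟩ := Nat.exists_eq_add_of_le hab
        simp only [LinearMap.mem_ker, LinearMap.lsmul_apply] at hy ⊢
        rw [pow_add, mul_comm, mul_smul, hy, smul_zero] }
  obtain ⟨N, hN⟩ := monotone_stabilizes_iff_noetherian.mpr hM K
  refine ⟨N, ?_⟩
  rintro y ⟨n, hn⟩
  have h1 : y ∈ K (max n N) := by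
    have : y ∈ K n := by
      simpa [K, LinearMap.mem_ker, LinearMap.lsmul_apply] using hn
    exact K.monotone (le_max_left n N) this
  rw [← hN (max n N) (le_max_right n N)] at h1
  simpa [K, LinearMap.mem_ker, LinearMap.lsmul_apply] using h1

/-! ### (4) idempotents modulo powers of `π` in a commutative ring -/

section Idempotent

variable {C : Type*} [CommRing C]

/-- Newton step for idempotents. -/
def newton (e : C) : C := 3 * e ^ 2 - 2 * e ^ 3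

theorem newton_sub (e : C) : newton e - e = (e ^ 2 - e) * (1 - 2 * e) := by
  unfold newton; ring

theorem newton_sq_sub (e : C) :
    newton e ^ 2 - newton e = (e ^ 2 - e) ^ 2 * ((2 * e - 3) * (2 * e + 1)) := by
  unfold newton; ring

/-- An idempotent modulo `π` lifts to an idempotent modulo `π ^ n` congruent to it modulo `π`. -/
theorem exists_idem_lift (π e : C) (h : ∃ a, e ^ 2 - e = π * a) :
    ∀ n : ℕ, 1 ≤ n → ∃ e' : C, (∃ b, e' - e = π * b) ∧ ∃ a, e' ^ 2 - e' = π ^ n * a := by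
  intro n hn
  induction n, hn using Nat.le_induction with
  | base =>
    obtain ⟨a, ha⟩ := h
    exact ⟨e, ⟨0, by simp⟩, a, by simpa using ha⟩
  | succ n hn ih =>
    obtain ⟨e', ⟨b, hb⟩, a, ha⟩ := ih
    obtain ⟨k, rfl⟩ := Nat.exists_eq_add_of_le hn
    refine ⟨newton e', ⟨π ^ k * a * (1 - 2 * e') + b, ?_⟩,
      π ^ k * a ^ 2 * ((2 * e' - 3) * (2 * e' + 1)), ?_⟩
    · have : newton e' - e = (newton e' - e') + (e' - e) := by ring
      rw [this, newton_sub, ha, hb]; ring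
    · rw [newton_sq_sub, ha]; ring

/-- Two idempotents modulo `π ^ n` that agree modulo `π` agree modulo `π ^ n`. -/
theorem idem_unique (π e e' : C) (n : ℕ) (h : ∃ a, e ^ 2 - e = π ^ n * a)
    (h' : ∃ a, e' ^ 2 - e' = π ^ n * a) (hd : ∃ u, e - e' = π * u) :
    ∃ w, e - e' = π ^ n * w := by
  obtain ⟨a, ha⟩ := h
  obtain ⟨a', ha'⟩ := h'
  obtain ⟨u, hu⟩ := hd
  set d := e - e' with hd
  have h3 : d * (1 - d ^ 2) = π ^ n * (-((1 + e - 3 * e') * a + (3 * e - 1 - e') * a')) := by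
    have : d * (1 - d ^ 2) = -((1 + e - 3 * e') * (e ^ 2 - e) + (3 * e - 1 - e') * (e' ^ 2 - e')) := by
      rw [hd]; ring
    rw [this, ha, ha']; ring
  set x := d ^ 2 with hx
  have hgeom : (1 - x) * ∑ i ∈ Finset.range n, x ^ i = 1 - x ^ n := mul_neg_geom_sum x n
  have hxn : x ^ n = π ^ n * (π ^ n * u ^ (2 * n)) := by
    rw [hx, hu]; ring
  refine ⟨-((1 + e - 3 * e') * a + (3 * e - 1 - e') * a') * (∑ i ∈ Finset.range n, x ^ i)
    + d * (π ^ n * u ^ (2 * n)), ?_⟩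
  have : d = d * (1 - x ^ n) + d * x ^ n := by ring
  calc d = d * (1 - x ^ n) + d * x ^ n := this
    _ = d * (1 - x) * (∑ i ∈ Finset.range n, x ^ i) + d * x ^ n := by rw [← hgeom]; ring
    _ = _ := by rw [h3, hxn]; ring

end Idempotent

/-! ### (2) finite generation of `H¹ = C₁₂ / (C₁ + C₂)` by the pole-order argument -/

section H1Finite

open Polynomial

variable {A : Type*} [CommRing A] {C₁₂ : Type*} [CommRing C₁₂] [Algebra A C₁₂]
variable (C₁ C₂ : Subalgebra A C₁₂)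

/-- `C₁` is spanned over `A[jj]` by finitely many `β i`, each of which lies in `jj ^ c • C₂`
(`jinv = jj⁻¹ ∈ C₂`), and `C₁₂ = C₁[jj⁻¹]`.  Then `C₁ + C₂` together with the finitely many
`jinv ^ n * β i`, `n < c`, spans `C₁₂` over `A`. -/
theorem sup_span_eq_top {jj jinv : C₁₂} (hj : jj * jinv = 1) (hj1 : jj ∈ C₁) (hj2 : jinv ∈ C₂)
    {ι : Type*} [Fintype ι] (β : ι → C₁₂) (hβmem : ∀ i, β i ∈ C₁)
    (hβ : ∀ b ∈ C₁, ∃ p : ι → A[X], b = ∑ i, aeval jj (p i) * β i)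
    (c : ℕ) (hc : ∀ i, jinv ^ c * β i ∈ C₂) (hloc : ∀ y : C₁₂, ∃ n : ℕ, jj ^ n * y ∈ C₁) :
    Subalgebra.toSubmodule C₁ ⊔ Subalgebra.toSubmodule C₂ ⊔
      Submodule.span A (Set.range fun x : ι × Fin c => jinv ^ (x.2 : ℕ) * β x.1) = ⊤ := by
  set S : Submodule A C₁₂ := Subalgebra.toSubmodule C₁ ⊔ Subalgebra.toSubmodule C₂ ⊔
      Submodule.span A (Set.range fun x : ι × Fin c => jinv ^ (x.2 : ℕ) * β x.1) with hS
  have hC₁ : ∀ x ∈ C₁, x ∈ S := fun x hx =>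
    Submodule.mem_sup_left (Submodule.mem_sup_left (show x ∈ Subalgebra.toSubmodule C₁ from hx))
  have hC₂ : ∀ x ∈ C₂, x ∈ S := fun x hx =>
    Submodule.mem_sup_left (Submodule.mem_sup_right (show x ∈ Subalgebra.toSubmodule C₂ from hx))
  have hjpow : ∀ n : ℕ, jj ^ n * jinv ^ n = 1 := fun n => by rw [← mul_pow, hj, one_pow]
  -- the monomials
  have hmono : ∀ (n k : ℕ) (i : ι), jinv ^ n * jj ^ k * β i ∈ S := by
    intro n k i
    rcases le_or_gt n k with hnk | hnk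
    · obtain ⟨d, rfl⟩ := Nat.exists_eq_add_of_le hnk
      have : jinv ^ n * jj ^ (n + d) * β i = jj ^ d * β i := by
        rw [pow_add, ← mul_assoc, mul_comm (jinv ^ n), hjpow, one_mul]
      rw [this]
      exact hC₁ _ (mul_mem (pow_mem hj1 d) (hβmem i))
    · obtain ⟨d, rfl⟩ := Nat.exists_eq_add_of_le hnk.le
      have : jinv ^ (k + d) * jj ^ k * β i = jinv ^ d * β i := by
        rw [pow_add, mul_comm (jinv ^ k), mul_assoc (jinv ^ d), mul_comm (jinv ^ k), hjpow,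
          mul_one]
      rw [this]
      rcases le_or_gt c d with hcd | hcd
      · obtain ⟨f, rfl⟩ := Nat.exists_eq_add_of_le hcd
        rw [pow_add, mul_comm (jinv ^ c), mul_assoc]
        exact hC₂ _ (mul_mem (pow_mem hj2 f) (hc i))
      · exact Submodule.mem_sup_right (Submodule.subset_span ⟨(i, ⟨d, hcd⟩), rfl⟩)
  have hpoly : ∀ (n : ℕ) (i : ι) (p : A[X]), jinv ^ n * aeval jj p * β i ∈ S := by
    intro n i p
    induction p using Polynomial.induction_on' with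
    | add p q hp hq =>
      rw [map_add, mul_add, add_mul]
      exact add_mem hp hq
    | monomial k a =>
      rw [aeval_monomial, ← Algebra.smul_def]
      have : jinv ^ n * (a • jj ^ k) * β i = a • (jinv ^ n * jj ^ k * β i) := by
        rw [mul_smul_comm, smul_mul_assoc]
      rw [this]
      exact S.smul_mem a (hmono n k i)
  rw [eq_top_iff]
  intro y _
  obtain ⟨n, hn⟩ := hloc y
  obtain ⟨p, hp⟩ := hβ _ hn
  have hy : y = ∑ i, jinv ^ n * aeval jj (p i) * β i := by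
    have : y = jinv ^ n * (jj ^ n * y) := by
      rw [← mul_assoc, mul_comm (jinv ^ n), hjpow, one_mul]
    rw [this, hp, Finset.mul_sum]
    exact Finset.sum_congr rfl fun i _ => by ring
  rw [hy]
  exact Submodule.sum_mem _ fun i _ => hpoly n i (p i)

/-- Under the hypotheses of `sup_span_eq_top`, `C₁₂ / (C₁ + C₂)` is a finitely generated
`A`-module. -/
theorem finite_quotient {jj jinv : C₁₂} (hj : jj * jinv = 1) (hj1 : jj ∈ C₁) (hj2 : jinv ∈ C₂)
    {ι : Type*} [Fintype ι] (β : ι → C₁₂) (hβmem : ∀ i, β i ∈ C₁)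
    (hβ : ∀ b ∈ C₁, ∃ p : ι → A[X], b = ∑ i, aeval jj (p i) * β i)
    (c : ℕ) (hc : ∀ i, jinv ^ c * β i ∈ C₂) (hloc : ∀ y : C₁₂, ∃ n : ℕ, jj ^ n * y ∈ C₁) :
    Module.Finite A (C₁₂ ⧸ (Subalgebra.toSubmodule C₁ ⊔ Subalgebra.toSubmodule C₂)) := by
  classical
  set W := Subalgebra.toSubmodule C₁ ⊔ Subalgebra.toSubmodule C₂ with hW
  have htop := sup_span_eq_top C₁ C₂ hj hj1 hj2 β hβmem hβ c hc hloc
  have hfin : (Set.range fun x : ι × Fin c => jinv ^ (x.2 : ℕ) * β x.1).Finite :=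
    Set.finite_range _
  refine ⟨?_⟩
  have h1 : Submodule.map W.mkQ ⊤ = ⊤ := by
    rw [Submodule.map_top, Submodule.range_mkQ]
  rw [← h1, ← htop, Submodule.map_sup]
  have h2 : Submodule.map W.mkQ W = ⊥ := by
    rw [← LinearMap.le_ker_iff_map, Submodule.ker_mkQ]
  rw [h2, bot_sup_eq, Submodule.map_span]
  exact Submodule.fg_span (hfin.image _)

end H1Finite

/-! ### (3), (5): the two charts -/

section Charts

variable {R : Type*} [CommRing R] {C₁₂ : Type*} [CommRing C₁₂] [Algebra R C₁₂]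
variable (C₁ C₂ : Subalgebra R C₁₂) (π : R)

/-- `C₁₂ / (C₁ + C₂)` has `π`-power torsion of exponent at most `N`. -/
def BoundedTorsion (N : ℕ) : Prop :=
  ∀ (y : C₁₂) (n : ℕ), π ^ n • y ∈ Subalgebra.toSubmodule C₁ ⊔ Subalgebra.toSubmodule C₂ →
    π ^ N • y ∈ Subalgebra.toSubmodule C₁ ⊔ Subalgebra.toSubmodule C₂

variable {C₁ C₂ π}

/-- Bounded torsion from finite generation of the quotient over a noetherian ring. -/
theorem exists_boundedTorsion_of_finite [IsNoetherianRing R]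
    [Module.Finite R (C₁₂ ⧸ (Subalgebra.toSubmodule C₁ ⊔ Subalgebra.toSubmodule C₂))] :
    ∃ N, BoundedTorsion C₁ C₂ π N := by
  obtain ⟨N, hN⟩ := exists_pow_smul_bound
    (C₁₂ ⧸ (Subalgebra.toSubmodule C₁ ⊔ Subalgebra.toSubmodule C₂)) π
  refine ⟨N, fun y n hy => ?_⟩
  have := hN (Submodule.Quotient.mk y) ⟨n, by
    rw [← Submodule.Quotient.mk_smul, Submodule.Quotient.mk_eq_zero]; exact hy⟩
  rwa [← Submodule.Quotient.mk_smul, Submodule.Quotient.mk_eq_zero] at this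

/-- Gluing: two sections that agree modulo `π ^ n` differ from a global section by `π ^ (n - N)`. -/
theorem glue {N : ℕ} (hN : BoundedTorsion C₁ C₂ π N) {e₁ e₂ y : C₁₂} (h₁ : e₁ ∈ C₁) (h₂ : e₂ ∈ C₂)
    {n : ℕ} (hn : N ≤ n) (h : e₁ - e₂ = π ^ n • y) :
    ∃ c, c ∈ C₁ ∧ c ∈ C₂ ∧ ∃ a ∈ C₁, e₁ - c = π ^ (n - N) • a := by
  have hmem : π ^ n • y ∈ Subalgebra.toSubmodule C₁ ⊔ Subalgebra.toSubmodule C₂ := by
    rw [← h, sub_eq_add_neg]
    have h₂' : -e₂ ∈ Subalgebra.toSubmodule C₂ := C₂.neg_mem h₂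
    have h₁' : e₁ ∈ Subalgebra.toSubmodule C₁ := h₁
    exact Submodule.add_mem_sup h₁' h₂'
  obtain ⟨c₁, hc₁, c₂, hc₂, hc⟩ := Submodule.mem_sup.mp (hN y n hmem)
  have hc₁' : c₁ ∈ C₁ := hc₁
  have hc₂' : c₂ ∈ C₂ := hc₂
  obtain ⟨k, rfl⟩ := Nat.exists_eq_add_of_le hn
  have hk : N + k - N = k := by omega
  have key : e₁ - e₂ = π ^ k • c₁ + π ^ k • c₂ := by
    rw [h, ← smul_add, hc, pow_add, mul_comm, mul_smul]
  refine ⟨e₁ - π ^ k • c₁, sub_mem h₁ (C₁.smul_mem hc₁' _), ?_, c₁, hc₁', ?_⟩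
  · have : e₁ - π ^ k • c₁ = e₂ + π ^ k • c₂ := by
      have := key
      linear_combination this
    rw [this]
    exact add_mem h₂ (C₂.smul_mem hc₂' _)
  · rw [hk]; ring

/-- Idempotent lifting inside a subalgebra. -/
theorem exists_idem_lift_subalgebra (S : Subalgebra R C₁₂) (π : R) {e : C₁₂} (he : e ∈ S)
    (hi : ∃ a ∈ S, e ^ 2 - e = π • a) (n : ℕ) (hn : 1 ≤ n) :
    ∃ e' ∈ S, (∃ b ∈ S, e' - e = π • b) ∧ ∃ a ∈ S, e' ^ 2 - e' = π ^ n • a := by
  obtain ⟨a, ha, hae⟩ := hi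
  have h0 : ∃ a' : S, (⟨e, he⟩ : S) ^ 2 - ⟨e, he⟩ = algebraMap R S π * a' := by
    refine ⟨⟨a, ha⟩, Subtype.ext ?_⟩
    simp only [Subalgebra.coe_sub, Subalgebra.coe_pow, Subalgebra.coe_mul,
      Subalgebra.coe_algebraMap]
    rw [hae, Algebra.smul_def]
  obtain ⟨e', ⟨b, hb⟩, a', ha'⟩ := exists_idem_lift (algebraMap R S π) (⟨e, he⟩ : S) h0 n hn
  refine ⟨e', e'.2, ⟨b, b.2, ?_⟩, a', a'.2, ?_⟩
  · have := congrArg (Subtype.val) hb
    simp only [Subalgebra.coe_sub, Subalgebra.coe_mul, Subalgebra.coe_algebraMap] at this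
    rw [this, Algebra.smul_def]
  · have := congrArg (Subtype.val) ha'
    simp only [Subalgebra.coe_sub, Subalgebra.coe_pow, Subalgebra.coe_mul,
      Subalgebra.coe_algebraMap] at this
    rw [this, Algebra.smul_def, map_pow]

/-- **Connectedness of the special fibre of the cover.** -/
theorem no_nontrivial_idempotent {N : ℕ} (hN : BoundedTorsion C₁ C₂ π N)
    (hbot : ∀ c, c ∈ C₁ → c ∈ C₂ → ∃ r : R, algebraMap R C₁₂ r = c)
    (hinj : ∀ r : R, (∃ a ∈ C₁, algebraMap R C₁₂ r = π • a) → ∃ s, r = π * s)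
    (hconn : ∀ r : R, (∃ s, r ^ 2 - r = π * s) → (∃ s, r = π * s) ∨ ∃ s, r - 1 = π * s)
    {e₁ e₂ : C₁₂} (h₁ : e₁ ∈ C₁) (h₂ : e₂ ∈ C₂)
    (hi₁ : ∃ a ∈ C₁, e₁ ^ 2 - e₁ = π • a) (hi₂ : ∃ a ∈ C₂, e₂ ^ 2 - e₂ = π • a)
    (h₁₂ : ∃ y : C₁₂, e₁ - e₂ = π • y) :
    (∃ a ∈ C₁, e₁ = π • a) ∨ ∃ a ∈ C₁, e₁ - 1 = π • a := by
  set P : C₁₂ := algebraMap R C₁₂ π with hP
  have hsm : ∀ (k : ℕ) (x : C₁₂), π ^ k • x = P ^ k * x := fun k x => by
    rw [Algebra.smul_def, map_pow]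
  have hsm1 : ∀ x : C₁₂, π • x = P * x := fun x => by rw [Algebra.smul_def]
  -- lift both idempotents modulo `π ^ (N + 1)`
  obtain ⟨f₁, hf₁, ⟨b₁, hb₁, hfb₁⟩, a₁, ha₁, hfa₁⟩ :=
    exists_idem_lift_subalgebra C₁ π h₁ hi₁ (N + 1) (Nat.le_add_left 1 N)
  obtain ⟨f₂, hf₂, ⟨b₂, hb₂, hfb₂⟩, a₂, ha₂, hfa₂⟩ :=
    exists_idem_lift_subalgebra C₂ π h₂ hi₂ (N + 1) (Nat.le_add_left 1 N)
  obtain ⟨y, hy⟩ := h₁₂
  -- uniqueness in `C₁₂`
  obtain ⟨w, hw⟩ := idem_unique P f₁ f₂ (N + 1) ⟨a₁, by rw [hfa₁, hsm]⟩ ⟨a₂, by rw [hfa₂, hsm]⟩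
    ⟨b₁ + y - b₂, by
      have : f₁ - f₂ = (f₁ - e₁) + (e₁ - e₂) - (f₂ - e₂) := by ring
      rw [this, hfb₁, hy, hfb₂, hsm1, hsm1, hsm1]; ring⟩
  -- glue
  obtain ⟨c, hc₁, hc₂, a, ha, hca⟩ := glue hN hf₁ hf₂ (Nat.le_add_right N 1)
    (show f₁ - f₂ = π ^ (N + 1) • w by rw [hw, hsm])
  rw [Nat.add_sub_cancel_left, pow_one] at hca
  obtain ⟨r, rfl⟩ := hbot c hc₁ hc₂
  -- `e₁ = c + π a₀`
  set a₀ := a - b₁ with ha₀
  have ha₀mem : a₀ ∈ C₁ := sub_mem ha hb₁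
  have he₁ : e₁ = algebraMap R C₁₂ r + π • a₀ := by
    have : e₁ = algebraMap R C₁₂ r + ((f₁ - algebraMap R C₁₂ r) - (f₁ - e₁)) := by ring
    rw [this, hca, hfb₁, ha₀, smul_sub]
  obtain ⟨ae, hae, hae'⟩ := hi₁
  have hr : ∃ s, r ^ 2 - r = π * s := by
    apply hinj
    refine ⟨ae - 2 * a₀ * e₁ + π • a₀ ^ 2 + a₀, ?_, ?_⟩
    · exact add_mem (add_mem (sub_mem hae (mul_mem (mul_mem (by
        have : (2 : C₁₂) = algebraMap R C₁₂ 2 := (map_ofNat (algebraMap R C₁₂) 2).symm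
        rw [this]; exact C₁.algebraMap_mem 2) ha₀mem) h₁))
        (C₁.smul_mem (pow_mem ha₀mem 2) π)) ha₀mem
    · have hc : algebraMap R C₁₂ r = e₁ - π • a₀ := by rw [he₁]; ring
      rw [map_sub, map_pow, hc]
      have : (e₁ - π • a₀) ^ 2 - (e₁ - π • a₀)
          = (e₁ ^ 2 - e₁) - π • (2 * a₀ * e₁) + π • (π • a₀ ^ 2) + π • a₀ := by
        simp only [hsm1]; ring
      rw [this, hae']
      simp only [hsm1]; ring
  rcases hconn r hr with ⟨s, hs⟩ | ⟨s, hs⟩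
  · left
    refine ⟨algebraMap R C₁₂ s + a₀, add_mem (C₁.algebraMap_mem s) ha₀mem, ?_⟩
    rw [he₁, hs, map_mul, smul_add, hsm1 (algebraMap R C₁₂ s)]
  · right
    refine ⟨algebraMap R C₁₂ s + a₀, add_mem (C₁.algebraMap_mem s) ha₀mem, ?_⟩
    have : e₁ - 1 = algebraMap R C₁₂ (r - 1) + π • a₀ := by
      rw [he₁, map_sub, map_one]; ring
    rw [this, hs, map_mul, smul_add, hsm1 (algebraMap R C₁₂ s)]

/-- `R/π` is connected when `π` is a prime element. -/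
theorem hconn_of_prime {π : R} (hπ : Prime π) (r : R) (h : ∃ s, r ^ 2 - r = π * s) :
    (∃ s, r = π * s) ∨ ∃ s, r - 1 = π * s := by
  obtain ⟨s, hs⟩ := h
  have : π ∣ r * (r - 1) := ⟨s, by rw [← hs]; ring⟩
  rcases hπ.dvd_or_dvd this with h | h
  · exact Or.inl h
  · exact Or.inr h

/-- Packaged form: finitely generated `H¹` over a noetherian base. -/
theorem no_nontrivial_idempotent_of_finite [IsNoetherianRing R]
    [Module.Finite R (C₁₂ ⧸ (Subalgebra.toSubmodule C₁ ⊔ Subalgebra.toSubmodule C₂))]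
    (hbot : ∀ c, c ∈ C₁ → c ∈ C₂ → ∃ r : R, algebraMap R C₁₂ r = c)
    (hinj : ∀ r : R, (∃ a ∈ C₁, algebraMap R C₁₂ r = π • a) → ∃ s, r = π * s)
    (hconn : ∀ r : R, (∃ s, r ^ 2 - r = π * s) → (∃ s, r = π * s) ∨ ∃ s, r - 1 = π * s)
    {e₁ e₂ : C₁₂} (h₁ : e₁ ∈ C₁) (h₂ : e₂ ∈ C₂)
    (hi₁ : ∃ a ∈ C₁, e₁ ^ 2 - e₁ = π • a) (hi₂ : ∃ a ∈ C₂, e₂ ^ 2 - e₂ = π • a)
    (h₁₂ : ∃ y : C₁₂, e₁ - e₂ = π • y) :
    (∃ a ∈ C₁, e₁ = π • a) ∨ ∃ a ∈ C₁, e₁ - 1 = π • a := by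
  obtain ⟨N, hN⟩ := exists_boundedTorsion_of_finite (C₁ := C₁) (C₂ := C₂) (π := π)
  exact no_nontrivial_idempotent hN hbot hinj hconn h₁ h₂ hi₁ hi₂ h₁₂

end Charts

end Fermat.Agent.S18.H83
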