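/-
S18 / DVR foundation (helper45), part 11 (generic library; prepared for Stage 4, requested by
helper3 for `S34.H3.exists_point_of_rational`): the hypotheses `hinjR`, `hval`, `hRint`,
`IsLocalization.Away π k` on `(R, k, π)` at `R := cutOver A E = A ∩ E`, `k := ↥E`.
-/
import Mathlib
import Fermat.Agent.S18.H45_InertiaBaseAlg

set_option autoImplicit false
set_option linter.unusedSectionVars false
set_option linter.style.haveILetI false

namespace Fermat.Agent.S18.H45

open IsLocalRing

noncomputable section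

/-! ### generic: discrete valuation rings -/

section Generic

variable {R k : Type*} [CommRing R] [IsDomain R] [IsDiscreteValuationRing R] [Field k]
  [Algebra R k] [IsFractionRing R k]

/-- The fraction field of a discrete valuation ring is the localisation away from a uniformiser. -/
theorem isLocalization_away_of_irreducible {π : R} (hπ : Irreducible π) :
    IsLocalization.Away π k := by
  have hinj : Function.Injective (algebraMap R k) := IsFractionRing.injective R k
  refine (isLocalization_iff (M := Submonoid.powers π) (S := k)).mpr ⟨?_, ?_, ?_⟩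
  · rintro ⟨y, n, rfl⟩
    refine IsUnit.mk0 _ ?_
    rw [Ne, map_eq_zero_iff _ hinj]
    exact pow_ne_zero n hπ.ne_zero
  · intro z
    obtain ⟨⟨r, s⟩, hrs⟩ := IsLocalization.surj (nonZeroDivisors R) z
    have hs0 : (s : R) ≠ 0 := nonZeroDivisors.ne_zero s.2
    obtain ⟨n, u, hu⟩ := IsDiscreteValuationRing.eq_unit_mul_pow_irreducible hs0 hπ
    refine ⟨(r * ((u⁻¹ : Rˣ) : R), ⟨π ^ n, n, rfl⟩), ?_⟩
    simp only at hrs ⊢
    have h1 : algebraMap R k (s : R) = algebraMap R k (u : R) * algebraMap R k (π ^ n) := by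
      rw [← map_mul, ← hu]
    have h2 : algebraMap R k (u : R) * algebraMap R k ((u⁻¹ : Rˣ) : R) = 1 := by
      rw [← map_mul, Units.mul_inv, map_one]
    rw [map_mul, ← hrs, h1]
    calc z * algebraMap R k (π ^ n)
        = z * algebraMap R k (π ^ n) *
            (algebraMap R k (u : R) * algebraMap R k ((u⁻¹ : Rˣ) : R)) := by rw [h2, mul_one]
      _ = z * (algebraMap R k (u : R) * algebraMap R k (π ^ n)) *
            algebraMap R k ((u⁻¹ : Rˣ) : R) := by ring
  · intro x y hxy
    exact ⟨1, by rw [hinj hxy]⟩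

/-- A discrete valuation ring is a valuation ring with maximal ideal `(π)`, in the `hval` shape. -/
theorem exists_eq_or_inv_eq_of_irreducible {π : R} (hπ : Irreducible π) (c : k) :
    (∃ r : R, algebraMap R k r = c) ∨ ∃ r : R, c⁻¹ = algebraMap R k (π * r) := by
  have hinj : Function.Injective (algebraMap R k) := IsFractionRing.injective R k
  by_cases hc0 : c = 0
  · exact Or.inl ⟨0, by rw [map_zero, hc0]⟩
  obtain ⟨⟨r, s⟩, hrs⟩ := IsLocalization.surj (nonZeroDivisors R) c
  simp only at hrs
  have hs0 : (s : R) ≠ 0 := nonZeroDivisors.ne_zero s.2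
  have hsk : algebraMap R k (s : R) ≠ 0 := by rwa [Ne, map_eq_zero_iff _ hinj]
  have hr0 : r ≠ 0 := by
    intro h
    rw [h, map_zero] at hrs
    exact (mul_ne_zero hc0 hsk) hrs
  obtain ⟨n, u, hu⟩ := IsDiscreteValuationRing.eq_unit_mul_pow_irreducible hs0 hπ
  obtain ⟨m, v, hv⟩ := IsDiscreteValuationRing.eq_unit_mul_pow_irreducible hr0 hπ
  have hπk : algebraMap R k π ≠ 0 := by rw [Ne, map_eq_zero_iff _ hinj]; exact hπ.ne_zero
  have huk : algebraMap R k (u : R) ≠ 0 := by
    rw [Ne, map_eq_zero_iff _ hinj]; exact u.ne_zero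
  have hvk : algebraMap R k (v : R) ≠ 0 := by
    rw [Ne, map_eq_zero_iff _ hinj]; exact v.ne_zero
  -- `c = (v / u) * π ^ m / π ^ n`
  have hc : c = algebraMap R k (v : R) * algebraMap R k π ^ m /
      (algebraMap R k (u : R) * algebraMap R k π ^ n) := by
    rw [eq_div_iff (mul_ne_zero huk (pow_ne_zero n hπk)), ← map_pow, ← map_pow, ← map_mul,
      ← map_mul, ← hu, ← hv, hrs]
  have huinv : algebraMap R k ((u⁻¹ : Rˣ) : R) = (algebraMap R k (u : R))⁻¹ := by
    apply eq_inv_of_mul_eq_one_left
    rw [← map_mul, Units.inv_mul, map_one]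
  have hvinv : algebraMap R k ((v⁻¹ : Rˣ) : R) = (algebraMap R k (v : R))⁻¹ := by
    apply eq_inv_of_mul_eq_one_left
    rw [← map_mul, Units.inv_mul, map_one]
  rcases le_or_gt n m with hnm | hnm
  · left
    refine ⟨(v : R) * ((u⁻¹ : Rˣ) : R) * π ^ (m - n), ?_⟩
    rw [hc, map_mul, map_mul, map_pow, huinv]
    have : algebraMap R k π ^ m = algebraMap R k π ^ (m - n) * algebraMap R k π ^ n := by
      rw [← pow_add, Nat.sub_add_cancel hnm]
    rw [this]
    field_simp
  · right
    obtain ⟨d, hd⟩ : ∃ d, n = m + (d + 1) := ⟨n - m - 1, by omega⟩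
    refine ⟨(u : R) * ((v⁻¹ : Rˣ) : R) * π ^ d, ?_⟩
    rw [hc, map_mul, map_mul, map_mul, map_pow, hvinv, hd, pow_add, pow_succ]
    field_simp

/-- A discrete valuation ring is integrally closed in its fraction field, in the `hRint` shape. -/
theorem exists_eq_of_isIntegral_dvr (c : k) (hc : IsIntegral R c) :
    ∃ r : R, algebraMap R k r = c :=
  IsIntegrallyClosed.isIntegral_iff.mp hc

end Generic

/-! ### the instance `R := A ∩ E`, `k := ↥E` -/

local notation "Qbar" => AlgebraicClosure ℚ

variable {A : ValuationSubring Qbar} {ℓ : ℕ} (hℓ : ℓ.Prime) (hA : A.LiesOverPrime ℓ)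
variable (E : IntermediateField (unrCyclo ℓ) Qbar)

theorem algebraMap_cutOver_injective :
    Function.Injective (algebraMap (cutOver A E) ↥E) := Subtype.val_injective

include hℓ hA in
theorem irreducible_of_maximalIdeal_cutOver_eq [FiniteDimensional (unrCyclo ℓ) E]
    {π : cutOver A E} (hπ : maximalIdeal (cutOver A E) = Ideal.span {π}) : Irreducible π := by
  haveI := isDiscreteValuationRing_cutOver hℓ hA E
  exact (IsDiscreteValuationRing.irreducible_iff_uniformizer π).mpr hπ

include hℓ hA in
/-- `↥E = (A ∩ E)[1/π]`. -/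
theorem isLocalization_away_cutOver [FiniteDimensional (unrCyclo ℓ) E]
    {π : cutOver A E} (hπ : Irreducible π) : IsLocalization.Away π ↥E := by
  haveI := isDiscreteValuationRing_cutOver hℓ hA E
  exact isLocalization_away_of_irreducible hπ

include hℓ hA in
/-- `hval` of `S34.H3.exists_point_of_rational` at `R := A ∩ E`. -/
theorem cutOver_hval [FiniteDimensional (unrCyclo ℓ) E]
    {π : cutOver A E} (hπ : Irreducible π) (c : ↥E) :
    (∃ r : cutOver A E, algebraMap (cutOver A E) ↥E r = c) ∨
      ∃ r : cutOver A E, c⁻¹ = algebraMap (cutOver A E) ↥E (π * r) := by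
  haveI := isDiscreteValuationRing_cutOver hℓ hA E
  exact exists_eq_or_inv_eq_of_irreducible hπ c

/-- `hRint` of `S34.H3.exists_point_of_rational` at `R := A ∩ E` (no finiteness needed: valuation
rings are integrally closed). -/
theorem cutOver_hRint (c : ↥E) (hc : IsIntegral (cutOver A E) c) :
    ∃ r : cutOver A E, algebraMap (cutOver A E) ↥E r = c :=
  IsIntegrallyClosed.isIntegral_iff.mp hc

end

end Fermat.Agent.S18.H45
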