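import Mathlib
import Fermat.Agent.S18.H16_FKGen

/-!
# S18 (VERT-INST support): the specialised modular polynomial `Φ_N(X, r)` over any ring

For `D : ModularPolynomialData N` and `r : R` (any commutative ring) we define
`modPolyAt D r := Φ_N(X, r) ∈ R[X]` (monic of degree `ψ(N)`, natural in `R`), show that
`Φ_N(j_N, j) = 0` inside every ring receiving the modular function field, and that
`Φ_N(X, y)` is SEPARABLE over any field `κ ⊇ K` for `y ∈ κ` transcendental over `K`, `N ≠ 0` in `K`.
This is the `hΦ / hroot / hsep` input of the VERT step (`H1.vertCond_of_separable`) with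
`Φ := modPolyAt D (auxJ μ)`, `φ : R_Y → k(μ̄)`.
-/

set_option autoImplicit false
set_option linter.unusedSectionVars false
set_option linter.style.haveILetI false
set_option synthInstance.maxHeartbeats 400000

noncomputable section

namespace Fermat.Agent.S18.H16

open ModularCurve HahnSeries Polynomial IntermediateField Fermat.Agent.S28

/-- the specialisation `ℤ[Y] → R`, `Y ↦ r`. -/
def specY {R : Type*} [CommRing R] (r : R) : ℤ[X] →+* R :=
  (Polynomial.aeval (R := ℤ) r).toRingHom

@[simp] theorem specY_X {R : Type*} [CommRing R] (r : R) : specY r X = r := by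
  simp [specY]

theorem specY_apply {R : Type*} [CommRing R] (r : R) (c : ℤ[X]) :
    specY r c = Polynomial.aeval r c := rfl

theorem map_comp_specY {R S : Type*} [CommRing R] [CommRing S] (f : R →+* S) (r : R) :
    f.comp (specY r) = specY (f r) :=
  S28.H50.ringHom_X_ext _ _ (by simp)

theorem evalJ_eq_specY {R : Type*} [CommRing R] (x : LaurentSeries R) : evalJ x = specY x :=
  S28.H50.ringHom_X_ext _ _ (by simp [evalJ])

/-- `Φ_N(X, r) ∈ R[X]`. -/
def modPolyAt {R : Type*} [CommRing R] {N : ℕ} [NeZero N] (D : ModularPolynomialData N) (r : R) :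
    R[X] :=
  D.Φ.map (specY r)

section Basic

variable {R S : Type*} [CommRing R] [CommRing S] {N : ℕ} [NeZero N] (D : ModularPolynomialData N)

theorem modPolyAt_monic (r : R) : (modPolyAt D r).Monic := D.monic.map _

theorem natDegree_modPolyAt [Nontrivial R] (r : R) :
    (modPolyAt D r).natDegree = dedekindPsi N := by
  rw [modPolyAt, D.monic.natDegree_map, D.natDegree_eq]

theorem modPolyAt_map (f : R →+* S) (r : R) : (modPolyAt D r).map f = modPolyAt D (f r) := by
  rw [modPolyAt, Polynomial.map_map, map_comp_specY, modPolyAt]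

theorem eval_modPolyAt (r y : R) : (modPolyAt D r).eval y = D.Φ.eval₂ (specY r) y := by
  rw [modPolyAt, Polynomial.eval_map]

theorem eval_modPolyAt_map (f : R →+* S) (r y : R) :
    (modPolyAt D (f r)).eval (f y) = f ((modPolyAt D r).eval y) := by
  rw [← modPolyAt_map, Polynomial.eval_map, Polynomial.eval₂_hom]

end Basic


/-! ### Comparison with `redModPoly` (the generic fibre of the base line) -/

section Generic

variable (K : Type*) [Field K] {N : ℕ} [NeZero N] (D : ModularPolynomialData N)

/-- `Φ_N(X, Y)` over `K(Y)` is `redModPoly K Φ`. -/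
theorem modPolyAt_ratFuncX : modPolyAt D (RatFunc.X : RatFunc K) = redModPoly K D.Φ := by
  rw [redModPoly, modPolyAt]
  congr 1
  apply S28.H50.ringHom_X_ext
  rw [RingHom.comp_apply, Polynomial.coe_mapRingHom, Polynomial.map_X, RatFunc.algebraMap_X,
    specY_X]

/-- `Φ_N(X, Y) ∈ K[Y][X]` maps to `redModPoly K Φ` over `K(Y)`. -/
theorem modPolyAt_X_map_algebraMap :
    (modPolyAt D (X : K[X])).map (algebraMap K[X] (RatFunc K)) = redModPoly K D.Φ := by
  rw [modPolyAt_map, RatFunc.algebraMap_X, modPolyAt_ratFuncX]

/-- base change of the two-variable polynomial along a ring hom of coefficient rings. -/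
theorem modPolyAt_X_map_mapRingHom {A B : Type*} [CommRing A] [CommRing B] (f : A →+* B) :
    (modPolyAt D (X : A[X])).map (Polynomial.mapRingHom f) = modPolyAt D (X : B[X]) := by
  rw [modPolyAt_map, Polynomial.coe_mapRingHom, Polynomial.map_X]

end Generic

/-! ### The root `Φ_N(j_N, j) = 0` -/

section Root

variable (N : ℕ) [NeZero N] (D : ModularPolynomialData N)

/-- in `R((q))`, any commutative ring `R`. -/
theorem eval_modPolyAt_series (R : Type*) [CommRing R] :
    (modPolyAt D (jqModC R)).eval (qExpand R N (jqModC R)) = 0 := by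
  rw [eval_modPolyAt, ← evalJ_eq_specY]
  exact modPoly_root N D R

/-- in the function field `modularFunctionFieldFullC K N`. -/
theorem eval_modPolyAt_jK (K : Type*) [Field K] :
    (modPolyAt D (jK K N)).eval (jNK K N) = 0 := by
  apply Subtype.ext
  have h := eval_modPolyAt_map D (modularFunctionFieldFullC K N).val.toRingHom (jK K N) (jNK K N)
  have h' : (((modPolyAt D (jK K N)).eval (jNK K N) : modularFunctionFieldFullC K N) :
      LaurentSeries K) = (modPolyAt D (jqModC K)).eval (qExpand K N (jqModC K)) := h.symm
  rw [h', eval_modPolyAt_series]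
  rfl

/-- in every ring receiving the function field: `Φ_N(f j_N, f j) = 0`. -/
theorem eval_modPolyAt_of_hom (K : Type*) [Field K] {S : Type*} [CommRing S]
    (f : modularFunctionFieldFullC K N →+* S) :
    (modPolyAt D (f (jK K N))).eval (f (jNK K N)) = 0 := by
  rw [eval_modPolyAt_map, eval_modPolyAt_jK, map_zero]

/-- `aeval` form for the VERT step: `R'` a ring with `r : R'`, `F'` an `R'`-algebra receiving the
function field with `algebraMap r = f j`. -/
theorem aeval_modPolyAt_of_hom (K : Type*) [Field K] {R' S : Type*} [CommRing R'] [CommRing S]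
    [Algebra R' S] (f : modularFunctionFieldFullC K N →+* S) (r : R')
    (hr : algebraMap R' S r = f (jK K N)) :
    Polynomial.aeval (f (jNK K N)) (modPolyAt D r) = 0 := by
  rw [Polynomial.aeval_def, ← Polynomial.eval_map, modPolyAt_map, hr]
  exact eval_modPolyAt_of_hom N D K f

end Root

/-! ### Separability of `Φ_N(X, y)` for transcendental `y` -/

section Sep

variable {K : Type} [Field K] {κ : Type*} [Field κ] [Algebra K κ] {N : ℕ} [NeZero N]

theorem redModPoly_map_ratFuncHom (D : ModularPolynomialData N) {y : κ}
    (hy : Transcendental K y) :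
    (redModPoly K D.Φ).map (S28.H50.ratFuncHom y hy) = modPolyAt D y := by
  rw [redModPoly, Polynomial.map_map, modPolyAt]
  congr 1
  apply S28.H50.ringHom_X_ext
  rw [RingHom.comp_apply, RingHom.comp_apply, Polynomial.coe_mapRingHom, Polynomial.map_X,
    S28.H50.ratFuncHom_algebraMap, Polynomial.aeval_X, specY_X]

/-- `Φ_N(X, y)` is separable over `κ ⊇ K` whenever `y` is transcendental over `K` and `N ≠ 0` in
`K`. -/
theorem separable_modPolyAt_of_transcendental (hNK : ((N : ℕ) : K) ≠ 0)
    (D : ModularPolynomialData N)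
    (hD : ∀ (k : Type) [Field k] (ζ : kˣ), IsPrimitiveRoot ζ N → RootsAt k N ζ D.Φ)
    {y : κ} (hy : Transcendental K y) : (modPolyAt D y).Separable := by
  rw [← redModPoly_map_ratFuncHom D hy]
  exact (separable_redModPoly_gen hNK D hD).map

/-- VERT shape: `Φ := Φ_N(X, r) ∈ R'[X]`, `φ : R' →+* κ` with `φ r` transcendental over `K`. -/
theorem separable_map_modPolyAt (hNK : ((N : ℕ) : K) ≠ 0) (D : ModularPolynomialData N)
    (hD : ∀ (k : Type) [Field k] (ζ : kˣ), IsPrimitiveRoot ζ N → RootsAt k N ζ D.Φ)
    {R' : Type*} [CommRing R'] (φ : R' →+* κ) (r : R') (hy : Transcendental K (φ r)) :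
    ((modPolyAt D r).map φ).Separable := by
  rw [modPolyAt_map]
  exact separable_modPolyAt_of_transcendental hNK D hD hy

/-- `Φ_N(X, y)` is irreducible over `K(y)` (as a polynomial over the subfield `K⟮y⟯`) is NOT claimed
here; only the degree: -/
theorem natDegree_map_modPolyAt (D : ModularPolynomialData N) {R' : Type*} [CommRing R']
    (φ : R' →+* κ) (r : R') : ((modPolyAt D r).map φ).natDegree = dedekindPsi N := by
  rw [modPolyAt_map, natDegree_modPolyAt]

end Sep

end Fermat.Agent.S18.H16
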