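import Mathlib

/-!
# S18 / (GR): the two explicit genus-0 auxiliary covers (Legendre `λ`-line, Hesse `μ`-line)

Mathlib-only, characteristic-free algebra.

* Legendre: `j = 256 (λ²-λ+1)³ / (λ² (λ-1)²)`, group `S₃` (six Möbius transforms of `λ`).
* Hesse: `j = 27 μ³ (μ³+8)³ / (μ³-1)³`, group `A₄` (twelve Möbius transforms of `μ`).

For each cover we give: the key polynomial identity exhibiting all conjugates of the parameter as
roots of the degree 6 (resp. 12) polynomial `legPoly j` (resp. `hesPoly j`), the factorisations of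
`j` and `j - 1728` (branch data: every point over `0` has `3 ∣ e`, every point over `1728` has
`2 ∣ e`), and the monic integrality equations for `λ, 1/(λ(λ-1))` (resp. `μ, 1/(μ³-1)`) over
`R₀[j]` when `2` (resp. `3`) is invertible.
-/

set_option autoImplicit false

open Polynomial

namespace Fermat.Agent.S18.H26

/-! ## Legendre: ring identities -/

section LegendreRing

variable {R : Type*} [CommRing R]

/-- `λ² - λ + 1`. -/
def legA (l : R) : R := l ^ 2 - l + 1

/-- `λ² (λ - 1)²`. -/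
def legB (l : R) : R := l ^ 2 * (l - 1) ^ 2

theorem legA_one_sub (l : R) : legA (1 - l) = legA l := by unfold legA; ring

theorem legB_one_sub (l : R) : legB (1 - l) = legB l := by unfold legB; ring

/-- Homogeneous form of the invariance under `λ ↦ 1/λ`. -/
theorem legA_inv_hom (l l' : R) (h : l * l' = 1) : legA l' * l ^ 2 = legA l := by
  unfold legA
  linear_combination (l * l' + 1 - l) * h

theorem legB_inv_hom (l l' : R) (h : l * l' = 1) : legB l' * l ^ 6 = legB l := by
  unfold legB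
  linear_combination (l ^ 2 * (((l * l') ^ 3 + (l * l') ^ 2 + l * l' + 1)
    - 2 * l * ((l * l') ^ 2 + l * l' + 1) + l ^ 2 * (l * l' + 1))) * h

/-- **Key identity (Legendre).** The six transforms `l, 1-l, 1/l, 1/(1-l), l/(l-1), (l-1)/l` are
the roots in `x` of `legA l ^ 3 * legB x - legB l * legA x ^ 3`. -/
theorem leg_key (l x : R) :
    legA l ^ 3 * legB x - legB l * legA x ^ 3 =
      (x - l) * (x - (1 - l)) * (l * x - 1) * ((1 - l) * x - 1) * ((l - 1) * x - l) *
        (l * x - (l - 1)) := by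
  unfold legA legB; ring

/-- Branch data over `j = 1728`: `256 a³ - 1728 b = 64 ((λ+1)(λ-2)(2λ-1))²`. -/
theorem leg_1728 (l : R) :
    256 * legA l ^ 3 - 1728 * legB l = 64 * ((l + 1) * (l - 2) * (2 * l - 1)) ^ 2 := by
  unfold legA legB; ring

/-- The Legendre polynomial of `j`: `256 (X²-X+1)³ - j X² (X-1)²`. -/
noncomputable def legPoly (j : R) : R[X] :=
  C 256 * (X ^ 2 - X + 1) ^ 3 - C j * (X ^ 2 * (X - 1) ^ 2)

@[simp]
theorem eval_legPoly (j x : R) : (legPoly j).eval x = 256 * legA x ^ 3 - j * legB x := by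
  simp [legPoly, legA, legB]

theorem legPoly_map {S : Type*} [CommRing S] (f : R →+* S) (j : R) :
    (legPoly j).map f = legPoly (f j) := by
  simp [legPoly, Polynomial.map_sub, Polynomial.map_mul, Polynomial.map_pow, map_ofNat]

theorem natDegree_legPoly_le (j : R) : (legPoly j).natDegree ≤ 6 := by
  unfold legPoly; compute_degree

theorem coeff_legPoly_six (j : R) : (legPoly j).coeff 6 = 256 := by
  nontriviality R
  unfold legPoly
  have h1 : ((X ^ 2 - X + 1 : R[X]) ^ 3).Monic := by monicity!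
  have h2 : ((X ^ 2 - X + 1 : R[X]) ^ 3).natDegree = 6 := by compute_degree!
  have h3 : (C j * (X ^ 2 * (X - 1) ^ 2) : R[X]).natDegree < 6 := by
    refine lt_of_le_of_lt (?_ : _ ≤ 4) (by norm_num)
    compute_degree
  rw [coeff_sub, coeff_C_mul, coeff_eq_zero_of_natDegree_lt h3, sub_zero]
  have := h1.coeff_natDegree
  rw [h2] at this
  rw [this, mul_one]

theorem natDegree_legPoly (j : R) (h : (256 : R) ≠ 0) : (legPoly j).natDegree = 6 :=
  le_antisymm (natDegree_legPoly_le j)
    (le_natDegree_of_ne_zero (by rw [coeff_legPoly_six]; exact h))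

theorem leadingCoeff_legPoly (j : R) (h : (256 : R) ≠ 0) : (legPoly j).leadingCoeff = 256 := by
  rw [leadingCoeff, natDegree_legPoly j h, coeff_legPoly_six]

/-- The monic degree 6 polynomial `(X²-X+1)³ - c X² (X-1)²` (`c = j/256`). -/
noncomputable def legMonic (c : R) : R[X] :=
  (X ^ 2 - X + 1) ^ 3 - C c * (X ^ 2 * (X - 1) ^ 2)

theorem legMonic_monic [Nontrivial R] (c : R) : (legMonic c).Monic := by
  unfold legMonic; monicity!

theorem natDegree_legMonic [Nontrivial R] (c : R) : (legMonic c).natDegree = 6 := by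
  unfold legMonic; compute_degree!

@[simp]
theorem eval_legMonic (c x : R) : (legMonic c).eval x = legA x ^ 3 - c * legB x := by
  simp [legMonic, legA, legB]

theorem legPoly_eq_C_mul_legMonic (c : R) : legPoly (256 * c) = C 256 * legMonic c := by
  unfold legPoly legMonic
  simp only [map_mul, map_ofNat]
  ring

/-- The monic cubic `(1+U)³ - c U` satisfied by `u = 1/(λ(λ-1))` (`c = j/256`). -/
noncomputable def legMonicU (c : R) : R[X] := (1 + X) ^ 3 - C c * X

theorem legMonicU_monic [Nontrivial R] (c : R) : (legMonicU c).Monic := by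
  unfold legMonicU; monicity!

@[simp]
theorem eval_legMonicU (c u : R) : (legMonicU c).eval u = (1 + u) ^ 3 - c * u := by
  simp [legMonicU]

/-- If `u = 1/(λ(λ-1))` then `(λ²-λ+1) u = 1 + u`. -/
theorem legA_mul_inv (l u : R) (h : u * (l * (l - 1)) = 1) : legA l * u = 1 + u := by
  unfold legA
  linear_combination h

theorem legB_mul_inv_sq (l u : R) (h : u * (l * (l - 1)) = 1) : legB l * u ^ 2 = 1 := by
  unfold legB
  linear_combination (u * (l * (l - 1)) + 1) * h

end LegendreRing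

/-! ## Legendre: integrality of `λ` and `1/(λ(λ-1))` over `R₀[j]` -/

section LegendreIntegral

variable {R₀ S : Type*} [CommRing R₀] [CommRing S] [Algebra R₀ S]

/-- `λ` is integral over `R₀[j]` as soon as `j = 256 c`, `c ∈ R₀[j]`-expressible: here in the form
`legA l ^ 3 = c * legB l` with `c` in the subalgebra. -/
theorem isIntegral_leg_param (T : Subalgebra R₀ S) (l : S) (c : T)
    (h : legA l ^ 3 = (c : S) * legB l) : IsIntegral T l := by
  nontriviality S
  have : Nontrivial T := (T.subtype : T →+* S).domain_nontrivial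
  refine ⟨legMonic c, legMonic_monic c, ?_⟩
  rw [← aeval_def]
  have : aeval l (legMonic c) = legA l ^ 3 - (c : S) * legB l := by
    simp [legMonic, legA, legB]
  rw [this, h, sub_self]

/-- `u = 1/(λ(λ-1))` is integral over `R₀[j]`. -/
theorem isIntegral_leg_inv (T : Subalgebra R₀ S) (l u : S) (c : T)
    (hu : u * (l * (l - 1)) = 1) (h : legA l ^ 3 = (c : S) * legB l) : IsIntegral T u := by
  nontriviality S
  have : Nontrivial T := (T.subtype : T →+* S).domain_nontrivial
  refine ⟨legMonicU c, legMonicU_monic c, ?_⟩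
  rw [← aeval_def]
  have e : aeval u (legMonicU c) = (1 + u) ^ 3 - (c : S) * u := by
    simp [legMonicU]
  rw [e]
  have h1 := legA_mul_inv l u hu
  have h2 := legB_mul_inv_sq l u hu
  -- (1+u)^3 = a^3 u^3 = c b u^3 = c u
  linear_combination (legA l ^ 2 * u ^ 2 + legA l * u * (1 + u) + (1 + u) ^ 2) * (-h1)
    + u ^ 3 * h + (c : S) * u * h2

end LegendreIntegral

/-! ## Legendre: the `j`-function over a field, its fibres -/

section LegendreField

variable {E : Type*} [Field E]

/-- `j(λ) = 256 (λ²-λ+1)³ / (λ² (λ-1)²)`. -/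
noncomputable def legJ (l : E) : E := 256 * legA l ^ 3 / legB l

theorem legB_ne_zero {l : E} (h0 : l ≠ 0) (h1 : l ≠ 1) : legB l ≠ 0 := by
  unfold legB
  exact mul_ne_zero (pow_ne_zero _ h0) (pow_ne_zero _ (sub_ne_zero.mpr h1))

theorem legB_ne_zero_iff {l : E} : legB l ≠ 0 ↔ l ≠ 0 ∧ l ≠ 1 := by
  unfold legB
  simp [sub_eq_zero]

theorem legJ_mul_legB {l : E} (h : legB l ≠ 0) : legJ l * legB l = 256 * legA l ^ 3 := by
  unfold legJ; field_simp

theorem legJ_one_sub (l : E) : legJ (1 - l) = legJ l := by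
  unfold legJ; rw [legA_one_sub, legB_one_sub]

theorem legJ_inv {l : E} (h0 : l ≠ 0) : legJ l⁻¹ = legJ l := by
  have hl : l * l⁻¹ = 1 := mul_inv_cancel₀ h0
  have hA := legA_inv_hom l l⁻¹ hl
  have hB := legB_inv_hom l l⁻¹ hl
  unfold legJ
  rw [← hA, ← hB]
  by_cases hb : legB l⁻¹ = 0
  · simp [hb]
  · field_simp

/-- `j - 1728` on the `λ`-line. -/
theorem legJ_sub_1728 {l : E} (h : legB l ≠ 0) :
    legJ l - 1728 = 64 * ((l + 1) * (l - 2) * (2 * l - 1)) ^ 2 / legB l := by
  rw [← leg_1728, legJ]; field_simp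

/-- `legPoly (legJ λ)` vanishes exactly at the six transforms of `λ`. -/
theorem eval_legPoly_legJ {l : E} (h : legB l ≠ 0) (x : E) :
    legB l * (legPoly (legJ l)).eval x =
      -256 * ((x - l) * (x - (1 - l)) * (l * x - 1) * ((1 - l) * x - 1) * ((l - 1) * x - l) *
        (l * x - (l - 1))) := by
  rw [eval_legPoly, ← leg_key]
  have := legJ_mul_legB h
  linear_combination (-legB x) * this

theorem legPoly_legJ_eq {l : E} (h : legB l ≠ 0) :
    C (legB l) * legPoly (legJ l) =
      C (-256) * ((X - C l) * (X - C (1 - l)) * (C l * X - 1) * (C (1 - l) * X - 1) *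
        (C (l - 1) * X - C l) * (C l * X - C (l - 1))) := by
  have key : ∀ (j : E), legB l * j = 256 * legA l ^ 3 →
      C (legB l) * legPoly j = C (-256) * ((X - C l) * (X - C (1 - l)) * (C l * X - 1) *
        (C (1 - l) * X - 1) * (C (l - 1) * X - C l) * (C l * X - C (l - 1))) := by
    intro j hj
    have h1 : C (legB l) * C j = (256 : E[X]) * C (legA l) ^ 3 := by
      rw [← C_mul, hj, C_mul, C_pow, map_ofNat]
    have e : ∀ t : E[X], C (legA l) ^ 3 * (t ^ 2 * (t - 1) ^ 2)
        - C (legB l) * (t ^ 2 - t + 1) ^ 3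
        = (t - C l) * (t - C (1 - l)) * (C l * t - 1) * (C (1 - l) * t - 1) *
          (C (l - 1) * t - C l) * (C l * t - C (l - 1)) := by
      intro t
      simp only [legA, legB, C_sub, C_mul, C_pow, C_add, C_1]
      ring
    unfold legPoly
    simp only [map_neg, map_ofNat]
    rw [neg_mul, ← e X]
    linear_combination (-(X ^ 2 * (X - 1) ^ 2)) * h1
  exact key _ (by rw [mul_comm]; exact legJ_mul_legB h)

/-- The fibre of `legJ` through `λ` consists of the six transforms. -/
theorem legJ_eq_legJ_iff {l x : E} (h : legB l ≠ 0) (hx : legB x ≠ 0) (h2 : (2 : E) ≠ 0) :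
    legJ x = legJ l ↔
      x = l ∨ x = 1 - l ∨ l * x = 1 ∨ (1 - l) * x = 1 ∨ (l - 1) * x = l ∨ l * x = l - 1 := by
  have h256 : (256 : E) ≠ 0 := by
    have : (256 : E) = 2 ^ 8 := by norm_num
    rw [this]; exact pow_ne_zero _ h2
  have hk := leg_key l x
  have e1 : legJ x = legJ l ↔ legA l ^ 3 * legB x - legB l * legA x ^ 3 = 0 := by
    unfold legJ
    rw [div_eq_div_iff hx h, sub_eq_zero]
    constructor
    · intro hh
      have : (256 : E) * (legA l ^ 3 * legB x) = 256 * (legB l * legA x ^ 3) := by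
        linear_combination -hh
      exact mul_left_cancel₀ h256 this
    · intro hh
      linear_combination (-256 : E) * hh
  rw [e1, hk]
  simp only [mul_eq_zero, sub_eq_zero]
  tauto

end LegendreField

/-! ## Hesse: ring identities -/

section HesseRing

variable {R : Type*} [CommRing R]

/-- `μ³ (μ³ + 8)³`. -/
def hesA (m : R) : R := m ^ 3 * (m ^ 3 + 8) ^ 3

/-- `(μ³ - 1)³`. -/
def hesB (m : R) : R := (m ^ 3 - 1) ^ 3

/-- Branch data over `j = 1728`: `27 (A - 64 B) = 27 (μ⁶ - 20 μ³ - 8)²`. -/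
theorem hes_1728 (m : R) : hesA m - 64 * hesB m = (m ^ 6 - 20 * m ^ 3 - 8) ^ 2 := by
  unfold hesA hesB; ring

theorem hesA_rot (w m : R) (hw : w ^ 3 = 1) : hesA (w * m) = hesA m := by
  unfold hesA; rw [mul_pow, hw, one_mul]

theorem hesB_rot (w m : R) (hw : w ^ 3 = 1) : hesB (w * m) = hesB m := by
  unfold hesB; rw [mul_pow, hw, one_mul]

/-- Homogeneous versions of `hesA`, `hesB` (for `μ = n/d`). -/
def hesAhom (n d : R) : R := n ^ 3 * (n ^ 3 + 8 * d ^ 3) ^ 3

def hesBhom (n d : R) : R := d ^ 3 * (n ^ 3 - d ^ 3) ^ 3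

theorem hesAhom_one (n : R) : hesAhom n 1 = hesA n := by unfold hesAhom hesA; ring

theorem hesBhom_one (n : R) : hesBhom n 1 = hesB n := by unfold hesBhom hesB; ring

theorem hesAhom_mul (n d m : R) (h : m * d = n) : hesA m * d ^ 12 = hesAhom n d := by
  unfold hesA hesAhom; rw [← h]; ring

theorem hesBhom_mul (n d m : R) (h : m * d = n) : hesB m * d ^ 12 = hesBhom n d := by
  unfold hesB hesBhom; rw [← h]; ring

/-- Invariance under the involution `μ ↦ (μ+2)/(μ-1)`, denominator-free. -/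
theorem hes_invol (m : R) :
    hesAhom (m + 2) (m - 1) * hesB m = hesA m * hesBhom (m + 2) (m - 1) := by
  unfold hesAhom hesBhom hesA hesB; ring

/-- The cubic factor `N(x³, m³)` of the Hesse key identity. -/
def hesN (x m : R) : R :=
  (x ^ 3 * (m ^ 3 - 1) - (m ^ 3 + 8)) ^ 3 + m ^ 3 * (3 * x ^ 3 - 12) ^ 3
    + m ^ 6 * (-3 * x ^ 3 - 6) ^ 3
    - 3 * m ^ 3 * (x ^ 3 * (m ^ 3 - 1) - (m ^ 3 + 8)) * (3 * x ^ 3 - 12) * (-3 * x ^ 3 - 6)

/-- **Key identity (Hesse), part 1.** -/
theorem hes_key (m x : R) :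
    hesA x * hesB m - hesA m * hesB x = (x ^ 3 - m ^ 3) * hesN x m := by
  unfold hesA hesB hesN; ring

/-- `a³ + b³ + c³ - 3abc` splits over a primitive cube root of unity. -/
theorem cube_norm_factor (w a b c : R) (hw : w ^ 2 + w + 1 = 0) :
    a ^ 3 + b ^ 3 + c ^ 3 - 3 * a * b * c =
      (a + b + c) * (a + w * b + w ^ 2 * c) * (a + w ^ 2 * b + w * c) := by
  linear_combination (-((w - 1) * (b ^ 2 + c ^ 2) + a * b + a * c + (w ^ 2 - w + 1) * b * c)
    * (a + b + c)) * hw

theorem cube_sub_cube_factor (w a b : R) (hw : w ^ 2 + w + 1 = 0) :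
    a ^ 3 - b ^ 3 = (a - b) * (a - w * b) * (a - w ^ 2 * b) := by
  linear_combination ((a - b) * b * (a - (w - 1) * b)) * hw

theorem cube_root_unity (w : R) (hw : w ^ 2 + w + 1 = 0) : w ^ 3 = 1 := by
  linear_combination (w - 1) * hw

/-- One of the three cubic factors: `x³ (t-1)³ - (t+2)³` for `t³ = m³`. -/
theorem hes_factor_expand (x t : R) :
    x ^ 3 * (t - 1) ^ 3 - (t + 2) ^ 3 =
      (x ^ 3 * (t ^ 3 - 1) - (t ^ 3 + 8)) + t * (3 * x ^ 3 - 12) + t ^ 2 * (-3 * x ^ 3 - 6) := by
  ring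

/-- **Key identity (Hesse), part 2.** The cubic factor splits into the three factors attached
to `μ, ωμ, ω²μ`. -/
theorem hesN_factor (w x m : R) (hw : w ^ 2 + w + 1 = 0) :
    hesN x m =
      (x ^ 3 * (m - 1) ^ 3 - (m + 2) ^ 3) * (x ^ 3 * (w * m - 1) ^ 3 - (w * m + 2) ^ 3) *
        (x ^ 3 * (w ^ 2 * m - 1) ^ 3 - (w ^ 2 * m + 2) ^ 3) := by
  have hw3 := cube_root_unity w hw
  have h1 : (w * m) ^ 3 = m ^ 3 := by rw [mul_pow, hw3, one_mul]
  have h2 : (w ^ 2 * m) ^ 3 = m ^ 3 := by
    rw [mul_pow, ← pow_mul, mul_comm 2 3, pow_mul, hw3, one_pow, one_mul]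
  rw [hes_factor_expand x m, hes_factor_expand x (w * m), hes_factor_expand x (w ^ 2 * m), h1, h2]
  have h4 : (w ^ 2 * m) ^ 2 = w * m ^ 2 := by
    have : w ^ 4 = w := by linear_combination (w ^ 2 - w) * hw
    rw [mul_pow, ← pow_mul, this]
  rw [h4]
  have := cube_norm_factor w (x ^ 3 * (m ^ 3 - 1) - (m ^ 3 + 8)) (m * (3 * x ^ 3 - 12))
    (m ^ 2 * (-3 * x ^ 3 - 6)) hw
  unfold hesN
  linear_combination this

/-- The Hesse polynomial of `j`: `27 X³ (X³+8)³ - j (X³-1)³`. -/
noncomputable def hesPoly (j : R) : R[X] :=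
  C 27 * (X ^ 3 * (X ^ 3 + 8) ^ 3) - C j * (X ^ 3 - 1) ^ 3

@[simp]
theorem eval_hesPoly (j x : R) : (hesPoly j).eval x = 27 * hesA x - j * hesB x := by
  simp [hesPoly, hesA, hesB]

theorem hesPoly_map {S : Type*} [CommRing S] (f : R →+* S) (j : R) :
    (hesPoly j).map f = hesPoly (f j) := by
  simp [hesPoly, Polynomial.map_sub, Polynomial.map_mul, Polynomial.map_pow, map_ofNat]

theorem natDegree_hesPoly_le (j : R) : (hesPoly j).natDegree ≤ 12 := by
  unfold hesPoly; compute_degree

theorem coeff_hesPoly_twelve (j : R) : (hesPoly j).coeff 12 = 27 := by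
  nontriviality R
  unfold hesPoly
  have h1 : ((X ^ 3 * (X ^ 3 + 8) ^ 3 : R[X])).Monic := by monicity!
  have h2 : ((X ^ 3 * (X ^ 3 + 8) ^ 3 : R[X])).natDegree = 12 := by compute_degree!
  have h3 : (C j * (X ^ 3 - 1) ^ 3 : R[X]).natDegree < 12 := by
    refine lt_of_le_of_lt (?_ : _ ≤ 9) (by norm_num)
    compute_degree
  rw [coeff_sub, coeff_C_mul, coeff_eq_zero_of_natDegree_lt h3, sub_zero]
  have := h1.coeff_natDegree
  rw [h2] at this
  rw [this, mul_one]

theorem natDegree_hesPoly (j : R) (h : (27 : R) ≠ 0) : (hesPoly j).natDegree = 12 :=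
  le_antisymm (natDegree_hesPoly_le j)
    (le_natDegree_of_ne_zero (by rw [coeff_hesPoly_twelve]; exact h))

theorem leadingCoeff_hesPoly (j : R) (h : (27 : R) ≠ 0) : (hesPoly j).leadingCoeff = 27 := by
  rw [leadingCoeff, natDegree_hesPoly j h, coeff_hesPoly_twelve]

/-- The monic degree 12 polynomial `X³ (X³+8)³ - c (X³-1)³` (`c = j/27`). -/
noncomputable def hesMonic (c : R) : R[X] :=
  X ^ 3 * (X ^ 3 + 8) ^ 3 - C c * (X ^ 3 - 1) ^ 3

theorem hesMonic_monic [Nontrivial R] (c : R) : (hesMonic c).Monic := by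
  unfold hesMonic; monicity!

theorem natDegree_hesMonic [Nontrivial R] (c : R) : (hesMonic c).natDegree = 12 := by
  unfold hesMonic; compute_degree!

@[simp]
theorem eval_hesMonic (c x : R) : (hesMonic c).eval x = hesA x - c * hesB x := by
  simp [hesMonic, hesA, hesB]

theorem hesPoly_eq_C_mul_hesMonic (c : R) : hesPoly (27 * c) = C 27 * hesMonic c := by
  unfold hesPoly hesMonic
  simp only [map_mul, map_ofNat]
  ring

/-- The monic quartic `(W+1)(W+t)³ - t³ c W` (`9 t = 1`, `c = j/27`) satisfied by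
`w = 1/(μ³-1)`. -/
noncomputable def hesMonicW (t c : R) : R[X] := (X + 1) * (X + C t) ^ 3 - C (t ^ 3 * c) * X

theorem hesMonicW_monic [Nontrivial R] (t c : R) : (hesMonicW t c).Monic := by
  unfold hesMonicW; monicity!

@[simp]
theorem eval_hesMonicW (t c w : R) :
    (hesMonicW t c).eval w = (w + 1) * (w + t) ^ 3 - t ^ 3 * c * w := by
  simp [hesMonicW]

/-- If `w = 1/(μ³-1)` then `hesA μ * w⁴ = (w+1)(9w+1)³` and `hesB μ * w⁴ = w`. -/
theorem hesA_mul_inv (m w : R) (h : w * (m ^ 3 - 1) = 1) :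
    hesA m * w ^ 4 = (w + 1) * (9 * w + 1) ^ 3 := by
  have h1 : m ^ 3 * w = w + 1 := by linear_combination h
  have h2 : (m ^ 3 + 8) * w = 9 * w + 1 := by linear_combination h
  unfold hesA
  rw [← h1, ← h2]; ring

theorem hesB_mul_inv (m w : R) (h : w * (m ^ 3 - 1) = 1) : hesB m * w ^ 4 = w := by
  unfold hesB
  linear_combination (w * ((w * (m ^ 3 - 1)) ^ 2 + w * (m ^ 3 - 1) + 1)) * h

end HesseRing

/-! ## Hesse: integrality of `μ` and `1/(μ³-1)` over `R₀[j]` -/

section HesseIntegral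

variable {R₀ S : Type*} [CommRing R₀] [CommRing S] [Algebra R₀ S]

/-- `μ` is integral over `T ∋ c = j/27`. -/
theorem isIntegral_hes_param (T : Subalgebra R₀ S) (m : S) (c : T)
    (h : hesA m = (c : S) * hesB m) : IsIntegral T m := by
  nontriviality S
  have : Nontrivial T := (T.subtype : T →+* S).domain_nontrivial
  refine ⟨hesMonic c, hesMonic_monic c, ?_⟩
  rw [← aeval_def]
  have : aeval m (hesMonic c) = hesA m - (c : S) * hesB m := by
    simp [hesMonic, hesA, hesB, map_ofNat]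
  rw [this, h, sub_self]

/-- `w = 1/(μ³-1)` is integral over `T ∋ c = j/27, t = 1/9`. -/
theorem isIntegral_hes_inv (T : Subalgebra R₀ S) (m w : S) (c t : T)
    (ht : (9 : S) * (t : S) = 1)
    (hw : w * (m ^ 3 - 1) = 1) (h : hesA m = (c : S) * hesB m) : IsIntegral T w := by
  nontriviality S
  have : Nontrivial T := (T.subtype : T →+* S).domain_nontrivial
  refine ⟨hesMonicW t c, hesMonicW_monic t c, ?_⟩
  rw [← aeval_def]
  have e : aeval w (hesMonicW t c) = (w + 1) * (w + (t : S)) ^ 3 - (t : S) ^ 3 * (c : S) * w := by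
    simp [hesMonicW]
  rw [e]
  have h1 := hesA_mul_inv m w hw
  have h2 := hesB_mul_inv m w hw
  have h3 : w + (t : S) = (t : S) * (9 * w + 1) := by linear_combination (-w) * ht
  rw [h3, mul_pow]
  linear_combination ((t : S) ^ 3) * (-h1) + ((t : S) ^ 3 * w ^ 4) * h + ((t : S) ^ 3 * (c : S)) * h2

end HesseIntegral

/-! ## Hesse: the twelve conjugates -/

section HesseTwelve

variable {R : Type*} [CommRing R]

/-- The three linear factors attached to the transform `(t+2)/(t-1)` and its rotations. -/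
def hesF (w t x : R) : R :=
  ((t - 1) * x - (t + 2)) * ((t - 1) * x - w * (t + 2)) * ((t - 1) * x - w ^ 2 * (t + 2))

theorem hesF_eq (w t x : R) (hw : w ^ 2 + w + 1 = 0) :
    hesF w t x = x ^ 3 * (t - 1) ^ 3 - (t + 2) ^ 3 := by
  unfold hesF
  rw [← cube_sub_cube_factor w ((t - 1) * x) (t + 2) hw]; ring

/-- **Key identity (Hesse), complete form**: all twelve conjugates
`ω^i μ`, `ω^i (ω^j μ + 2)/(ω^j μ - 1)` as roots. -/
theorem hes_key_full (w m x : R) (hw : w ^ 2 + w + 1 = 0) :
    hesA x * hesB m - hesA m * hesB x =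
      (x - m) * (x - w * m) * (x - w ^ 2 * m) *
        (hesF w m x * hesF w (w * m) x * hesF w (w ^ 2 * m) x) := by
  rw [hes_key, hesN_factor w x m hw, cube_sub_cube_factor w x m hw, hesF_eq w m x hw,
    hesF_eq w (w * m) x hw, hesF_eq w (w ^ 2 * m) x hw]

end HesseTwelve

section HesseField

variable {E : Type*} [Field E]

/-- `j(μ) = 27 μ³ (μ³+8)³ / (μ³-1)³`. -/
noncomputable def hesJ (m : E) : E := 27 * hesA m / hesB m

theorem hesB_ne_zero_iff {m : E} : hesB m ≠ 0 ↔ m ^ 3 ≠ 1 := by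
  unfold hesB
  simp [sub_eq_zero]

theorem hesJ_mul_hesB {m : E} (h : hesB m ≠ 0) : hesJ m * hesB m = 27 * hesA m := by
  unfold hesJ; field_simp

theorem hesJ_rot (w m : E) (hw : w ^ 3 = 1) : hesJ (w * m) = hesJ m := by
  unfold hesJ; rw [hesA_rot w m hw, hesB_rot w m hw]

/-- Invariance under the involution `μ ↦ (μ+2)/(μ-1)`. -/
theorem hesJ_invol {m : E} (h1 : m ≠ 1) : hesJ ((m + 2) / (m - 1)) = hesJ m := by
  by_cases h3 : (3 : E) = 0
  · have h27 : (27 : E) = 0 := by
      have : (27 : E) = 3 ^ 3 := by norm_num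
      rw [this, h3]; ring
    unfold hesJ; rw [h27]; simp
  have hd : m - 1 ≠ 0 := sub_ne_zero.mpr h1
  have hA := hesAhom_mul (m + 2) (m - 1) ((m + 2) / (m - 1)) (by field_simp)
  have hB := hesBhom_mul (m + 2) (m - 1) ((m + 2) / (m - 1)) (by field_simp)
  have hI := hes_invol m
  have hd12 : (m - 1) ^ 12 ≠ 0 := pow_ne_zero _ hd
  have h9 : (9 : E) ≠ 0 := by
    have : (9 : E) = 3 ^ 2 := by norm_num
    rw [this]; exact pow_ne_zero _ h3
  have hq : hesB ((m + 2) / (m - 1)) = 0 ↔ hesB m = 0 := by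
    have e1 : hesBhom (m + 2) (m - 1) = (m - 1) ^ 3 * (9 * (m ^ 2 + m + 1)) ^ 3 := by
      unfold hesBhom; ring
    have e2 : hesB m = ((m - 1) * (m ^ 2 + m + 1)) ^ 3 := by unfold hesB; ring
    constructor
    · intro h5
      have : hesBhom (m + 2) (m - 1) = 0 := by rw [← hB, h5, zero_mul]
      rw [e1] at this
      have h6 : m ^ 2 + m + 1 = 0 := by
        rcases mul_eq_zero.mp this with h7 | h7
        · exact absurd (pow_eq_zero_iff (by norm_num) |>.mp h7) hd
        · exact (mul_eq_zero.mp (pow_eq_zero_iff (by norm_num) |>.mp h7)).resolve_left h9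
      rw [e2, h6, mul_zero]; ring
    · intro h5
      rw [e2] at h5
      have h6 : m ^ 2 + m + 1 = 0 :=
        (mul_eq_zero.mp (pow_eq_zero_iff (by norm_num) |>.mp h5)).resolve_left hd
      have : hesB ((m + 2) / (m - 1)) * (m - 1) ^ 12 = 0 := by
        rw [hB, e1, h6, mul_zero]; ring
      exact (mul_eq_zero.mp this).resolve_right hd12
  unfold hesJ
  by_cases hb : hesB m = 0
  · rw [hb, hq.mpr hb, div_zero, div_zero]
  · have hb' : hesB ((m + 2) / (m - 1)) ≠ 0 := fun h5 => hb (hq.mp h5)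
    rw [div_eq_div_iff hb' hb]
    have : hesA ((m + 2) / (m - 1)) * (m - 1) ^ 12 * hesB m
        = hesA m * (hesB ((m + 2) / (m - 1)) * (m - 1) ^ 12) := by
      rw [hA, hB, hI]
    have h10 : (hesA ((m + 2) / (m - 1)) * hesB m - hesA m * hesB ((m + 2) / (m - 1)))
        * (m - 1) ^ 12 = 0 := by linear_combination this
    have h11 := (mul_eq_zero.mp h10).resolve_right hd12
    linear_combination 27 * h11

/-- `hesPoly (hesJ μ)` vanishes exactly at the twelve conjugates of `μ`. -/
theorem eval_hesPoly_hesJ {m : E} (h : hesB m ≠ 0) (w : E) (hw : w ^ 2 + w + 1 = 0) (x : E) :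
    hesB m * (hesPoly (hesJ m)).eval x =
      27 * ((x - m) * (x - w * m) * (x - w ^ 2 * m) *
        (hesF w m x * hesF w (w * m) x * hesF w (w ^ 2 * m) x)) := by
  rw [eval_hesPoly, ← hes_key_full w m x hw]
  have := hesJ_mul_hesB h
  linear_combination (-hesB x) * this

/-- Polynomial version of `hesF`. -/
noncomputable def hesFpoly (w t : E) : E[X] :=
  (C (t - 1) * X - C (t + 2)) * (C (t - 1) * X - C (w * (t + 2))) *
    (C (t - 1) * X - C (w ^ 2 * (t + 2)))

@[simp]
theorem eval_hesFpoly (w t x : E) : (hesFpoly w t).eval x = hesF w t x := by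
  simp [hesFpoly, hesF]

theorem hesA_map {R S : Type*} [CommRing R] [CommRing S] (f : R →+* S) (m : R) :
    hesA (f m) = f (hesA m) := by
  simp [hesA, map_ofNat]

theorem hesB_map {R S : Type*} [CommRing R] [CommRing S] (f : R →+* S) (m : R) :
    hesB (f m) = f (hesB m) := by
  simp [hesB]

theorem hesFpoly_eq (w t : E) : hesFpoly w t = hesF (C w) (C t) X := by
  simp [hesFpoly, hesF, map_ofNat]

/-- The complete factorisation of the Hesse polynomial over a field containing `μ` and a primitive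
cube root of unity. -/
theorem hesPoly_hesJ_eq {m : E} (h : hesB m ≠ 0) (w : E) (hw : w ^ 2 + w + 1 = 0) :
    C (hesB m) * hesPoly (hesJ m) =
      C 27 * ((X - C m) * (X - C (w * m)) * (X - C (w ^ 2 * m)) *
        (hesFpoly w m * hesFpoly w (w * m) * hesFpoly w (w ^ 2 * m))) := by
  have hw' : (C w : E[X]) ^ 2 + C w + 1 = 0 := by
    rw [← C_pow, ← C_add, ← C_1, ← C_add, hw, C_0]
  have hk := hes_key_full (C w) (C m) (X : E[X]) hw'
  rw [hesA_map C m, hesB_map C m] at hk
  have hj : C (hesJ m) * C (hesB m) = (27 : E[X]) * C (hesA m) := by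
    rw [← C_mul, hesJ_mul_hesB h, C_mul, map_ofNat]
  have e : hesPoly (hesJ m) = (27 : E[X]) * hesA X - C (hesJ m) * hesB X := by
    unfold hesPoly hesA hesB; rw [map_ofNat]
  rw [e, hesFpoly_eq, hesFpoly_eq, hesFpoly_eq, map_ofNat]
  simp only [C_mul, C_pow]
  linear_combination (27 : E[X]) * hk - hesB X * hj

/-- The fibre of `hesJ` through `μ`: the twelve conjugates. -/
theorem hesJ_eq_hesJ_iff {m x : E} (h : hesB m ≠ 0) (hx : hesB x ≠ 0) (h3 : (3 : E) ≠ 0)
    (w : E) (hw : w ^ 2 + w + 1 = 0) :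
    hesJ x = hesJ m ↔
      (x = m ∨ x = w * m ∨ x = w ^ 2 * m) ∨ hesF w m x = 0 ∨ hesF w (w * m) x = 0 ∨
        hesF w (w ^ 2 * m) x = 0 := by
  have h27 : (27 : E) ≠ 0 := by
    have : (27 : E) = 3 ^ 3 := by norm_num
    rw [this]; exact pow_ne_zero _ h3
  have hk := hes_key_full w m x hw
  have e1 : hesJ x = hesJ m ↔ hesA x * hesB m - hesA m * hesB x = 0 := by
    unfold hesJ
    rw [div_eq_div_iff hx h, sub_eq_zero]
    constructor
    · intro hh
      have : (27 : E) * (hesA x * hesB m) = 27 * (hesA m * hesB x) := by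
        linear_combination hh
      exact mul_left_cancel₀ h27 this
    · intro hh
      linear_combination (27 : E) * hh
  rw [e1, hk]
  simp only [mul_eq_zero, sub_eq_zero]
  tauto

end HesseField

end Fermat.Agent.S18.H26
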