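/-
S18 project (Igusa smoothness + specialization), package PURITY-N (helper9), Mathlib only.

**Unit discriminant ⇒ reduced and integrally closed.**

For a commutative ring `A`, an `A`-algebra `C` which is free of finite rank with basis `b`, and
`IsUnit (Algebra.discr A b)`:
* `eq_zero_of_forall_trace_mul_eq_zero` : the trace form is non-degenerate on `C`;
* `isReduced_of_isUnit_discr` : `C` is reduced (for `A` reduced);
* `mem_range_of_isIntegral` : an element of the total fraction *field* `L` of `C` which is integral
  over the integrally closed domain `A` lies in `C`;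
* `isIntegrallyClosed_of_isUnit_discr` : a domain `C` is integrally closed;
* `isUnit_of_isUnit_away_of_not_dvd` : the UFD bookkeeping (`d` unit after inverting a prime `π`,
  `π ∤ d` ⇒ `d` unit);
* `isUnit_discr_quotient` : the discriminant of the reduced basis of `C ⧸ I C` over `A ⧸ I`.
-/
import Mathlib

set_option autoImplicit false
set_option linter.unusedSectionVars false
set_option linter.style.haveILetI false

open Module Matrix
open scoped nonZeroDivisors

namespace Fermat.Agent.S18.H9

section Basic

variable {A C : Type*} [CommRing A] [CommRing C] [Algebra A C]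
  {ι : Type*} [Fintype ι] [DecidableEq ι]

/-- The traces `Tr(x b_i)` in terms of the coordinates of `x` and the trace matrix. -/
theorem trace_mul_basis (b : Basis ι A C) (x : C) (i : ι) :
    Algebra.trace A C (x * b i) = ∑ j, b.repr x j * Algebra.traceMatrix A b j i := by
  conv_lhs => rw [← b.sum_repr x]
  rw [Finset.sum_mul, map_sum]
  refine Finset.sum_congr rfl fun j _ => ?_
  rw [smul_mul_assoc, map_smul, smul_eq_mul, Algebra.traceMatrix_apply, Algebra.traceForm_apply]

/-- Vector form of `trace_mul_basis`. -/
theorem trace_mul_basis_vec (b : Basis ι A C) (x : C) :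
    (fun i => Algebra.trace A C (x * b i)) = (fun j => b.repr x j) ᵥ* Algebra.traceMatrix A b := by
  funext i
  rw [trace_mul_basis, Matrix.vecMul]
  rfl

/-- With unit discriminant the coordinates are recovered from the traces. -/
theorem repr_eq_vecMul_inv (b : Basis ι A C) (hd : IsUnit (Algebra.discr A b)) (x : C) :
    (fun j => b.repr x j) =
      (fun i => Algebra.trace A C (x * b i)) ᵥ* (Algebra.traceMatrix A b)⁻¹ := by
  have hdet : IsUnit (Algebra.traceMatrix A b).det := hd
  rw [trace_mul_basis_vec, Matrix.vecMul_vecMul, Matrix.mul_nonsing_inv _ hdet, Matrix.vecMul_one]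

/-- **Non-degeneracy of the trace form** for a basis with unit discriminant. -/
theorem eq_zero_of_forall_trace_mul_eq_zero (b : Basis ι A C) (hd : IsUnit (Algebra.discr A b))
    {x : C} (hx : ∀ i, Algebra.trace A C (x * b i) = 0) : x = 0 := by
  have h := repr_eq_vecMul_inv b hd x
  have h0 : (fun i => Algebra.trace A C (x * b i)) = 0 := funext hx
  rw [h0, Matrix.zero_vecMul] at h
  apply b.repr.injective
  ext j
  rw [map_zero, Finsupp.zero_apply]
  exact congrFun h j

/-- **Unit discriminant ⇒ reduced.** -/
theorem isReduced_of_isUnit_discr [IsReduced A] (b : Basis ι A C)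
    (hd : IsUnit (Algebra.discr A b)) : IsReduced C := by
  refine ⟨fun x hx => ?_⟩
  apply eq_zero_of_forall_trace_mul_eq_zero b hd
  intro i
  have hnil : IsNilpotent (x * b i) := Commute.isNilpotent_mul_right (Commute.all _ _) hx
  exact (Algebra.isNilpotent_trace_of_isNilpotent (R := A) hnil).eq_zero

end Basic

section IntegrallyClosed

variable {A C : Type*} [CommRing A] [CommRing C] [Algebra A C]
  {ι : Type*} [Fintype ι] [DecidableEq ι]

/-- **Unit discriminant ⇒ every `A`-integral element of the fraction field `L` of `C` lies in `C`.**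
-/
theorem mem_range_of_isIntegral [IsDomain A] [IsIntegrallyClosed A]
    (K L : Type*) [Field K] [Algebra A K] [IsFractionRing A K]
    [Field L] [Algebra C L] [Algebra K L] [Algebra A L] [IsScalarTower A C L]
    [IsScalarTower A K L] [IsLocalization (Algebra.algebraMapSubmonoid C A⁰) L]
    (b : Basis ι A C) (hd : IsUnit (Algebra.discr A b))
    {x : L} (hx : IsIntegral A x) : x ∈ Set.range (algebraMap C L) := by
  classical
  have hfin : Module.Finite A C := Module.Finite.of_basis b
  have hfree : Module.Free A C := Module.Free.of_basis b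
  have hint : Algebra.IsIntegral A C := inferInstance
  set b' : Basis ι K L := b.localizationLocalization K A⁰ L with hb'
  have hfinL : FiniteDimensional K L := Module.Finite.of_basis b'
  -- the traces `Tr(x b'_i)` are in `A`
  have htr : ∀ i, ∃ t : A, algebraMap A K t = Algebra.trace K L (x * b' i) := by
    intro i
    have h1 : IsIntegral A (x * b' i) := by
      rw [hb', Basis.localizationLocalization_apply]
      exact hx.mul ((Algebra.IsIntegral.isIntegral (R := A) (b i)).algebraMap)
    have h2 : IsIntegral A (Algebra.trace K L (x * b' i)) := Algebra.isIntegral_trace h1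
    exact IsIntegrallyClosed.isIntegral_iff.1 h2
  choose t ht using htr
  -- the trace matrix over `K` is the image of the trace matrix over `A`
  have hM : Algebra.traceMatrix K b' = (algebraMap A K).mapMatrix (Algebra.traceMatrix A b) :=
    Algebra.traceMatrix_localizationLocalization A A⁰ L b
  have hdK : IsUnit (Algebra.discr K b') := by
    rw [hb', Algebra.discr_localizationLocalization A A⁰ L b]
    exact hd.map _
  have hrepr := repr_eq_vecMul_inv b' hdK x
  -- the inverse of the trace matrix over `K` is the image of the inverse over `A`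
  have hdet : IsUnit (Algebra.traceMatrix A b).det := hd
  have hinv : (Algebra.traceMatrix K b')⁻¹ =
      (algebraMap A K).mapMatrix ((Algebra.traceMatrix A b)⁻¹) := by
    rw [hM]
    apply Matrix.inv_eq_right_inv
    rw [← map_mul, Matrix.mul_nonsing_inv _ hdet, map_one]
  -- coordinates of `x` are in `A`
  set c : ι → A := (fun i => t i) ᵥ* (Algebra.traceMatrix A b)⁻¹ with hc
  have hcoord : ∀ j, b'.repr x j = algebraMap A K (c j) := by
    intro j
    have := congrFun hrepr j
    rw [this, hinv, hc]
    simp only [Matrix.vecMul, dotProduct, RingHom.mapMatrix_apply, Matrix.map_apply, map_sum,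
      map_mul, ht]
  refine ⟨∑ j, c j • b j, ?_⟩
  rw [map_sum]
  conv_rhs => rw [← b'.sum_repr x]
  refine Finset.sum_congr rfl fun j _ => ?_
  rw [hcoord, hb', Basis.localizationLocalization_apply, algebraMap_smul,
    Algebra.smul_def, Algebra.smul_def, map_mul, ← IsScalarTower.algebraMap_apply]

end IntegrallyClosed

section Domain

variable {A C : Type*} [CommRing A] [CommRing C] [Algebra A C]
  {ι : Type*} [Fintype ι] [DecidableEq ι]

/-- A nontrivial free algebra is faithful. -/
theorem faithfulSMul_of_basis [Nontrivial C] (b : Basis ι A C) : FaithfulSMul A C := by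
  rw [faithfulSMul_iff_algebraMap_injective]
  rw [injective_iff_map_eq_zero]
  intro a ha
  have hne : Nonempty ι := by
    by_contra h
    rw [not_nonempty_iff] at h
    have : Subsingleton C := b.repr.toEquiv.subsingleton
    exact not_subsingleton C this
  obtain ⟨i⟩ := hne
  have h1 : a • b i = 0 := by
    rw [Algebra.smul_def, ha, zero_mul]
  have h2 := congrArg (fun v => b.repr v i) h1
  simpa using h2

/-- **Unit discriminant ⇒ integrally closed** (for a domain `C`, finite free over an integrally
closed domain `A`). -/
theorem isIntegrallyClosed_of_isUnit_discr [IsDomain A] [IsIntegrallyClosed A] [IsDomain C]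
    (b : Basis ι A C) (hd : IsUnit (Algebra.discr A b)) : IsIntegrallyClosed C := by
  have hfin : Module.Finite A C := Module.Finite.of_basis b
  have hint : Algebra.IsIntegral A C := inferInstance
  have hfaith : FaithfulSMul A C := faithfulSMul_of_basis b
  have hfaith' : FaithfulSMul A (FractionRing C) :=
    (faithfulSMul_iff_algebraMap_injective A (FractionRing C)).2 <| by
      rw [IsScalarTower.algebraMap_eq A C (FractionRing C)]
      exact (IsFractionRing.injective C (FractionRing C)).comp
        (FaithfulSMul.algebraMap_injective A C)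
  letI : Algebra (FractionRing A) (FractionRing C) := FractionRing.liftAlgebra A (FractionRing C)
  have : IsScalarTower A (FractionRing A) (FractionRing C) :=
    FractionRing.isScalarTower_liftAlgebra A (FractionRing C)
  rw [isIntegrallyClosed_iff (FractionRing C)]
  intro x hx
  have hxA : IsIntegral A x := isIntegral_trans x hx
  exact mem_range_of_isIntegral (FractionRing A) (FractionRing C) b hd hxA

end Domain

section Dedekind

variable {A C : Type*} [CommRing A] [CommRing C] [Algebra A C]
  {ι : Type*} [Fintype ι] [DecidableEq ι]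

/-- **Unit discriminant ⇒ Dedekind** (for a domain `C`, finite free over a Dedekind domain `A`). -/
theorem isDedekindDomain_of_isUnit_discr [IsDedekindDomain A] [IsDomain C]
    (b : Basis ι A C) (hd : IsUnit (Algebra.discr A b)) : IsDedekindDomain C := by
  have hfin : Module.Finite A C := Module.Finite.of_basis b
  have hint : Algebra.IsIntegral A C := inferInstance
  have hnoeth : IsNoetherianRing C := IsNoetherianRing.of_finite A C
  have hdim : Ring.DimensionLEOne C := Ring.DimensionLEOne.of_isIntegral A C
  have hic : IsIntegrallyClosed C := isIntegrallyClosed_of_isUnit_discr b hd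
  exact { }

end Dedekind

section BaseChange

variable {A C A' C' : Type*} [CommRing A] [CommRing C] [Algebra A C]
  [CommRing A'] [CommRing C'] [Algebra A' C']
  {ι : Type*} [Fintype ι] [DecidableEq ι]

/-- Coordinates commute with a base change `ψ : A → A'`, `φ : C → C'` carrying the basis `b` to the
basis `b'`. -/
theorem repr_map_of_basis (ψ : A →+* A') (φ : C →+* C')
    (hφ : ∀ a, φ (algebraMap A C a) = algebraMap A' C' (ψ a))
    (b : Basis ι A C) (b' : Basis ι A' C') (hb : ∀ i, b' i = φ (b i)) (x : C) (i : ι) :
    b'.repr (φ x) i = ψ (b.repr x i) := by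
  have h : φ x = ∑ j, ψ (b.repr x j) • b' j := by
    conv_lhs => rw [← b.sum_repr x]
    rw [map_sum]
    refine Finset.sum_congr rfl fun j _ => ?_
    rw [Algebra.smul_def, map_mul, hφ, hb, Algebra.smul_def]
  rw [h, b'.repr_sum_self]

/-- The trace commutes with such a base change. -/
theorem trace_map_of_basis (ψ : A →+* A') (φ : C →+* C')
    (hφ : ∀ a, φ (algebraMap A C a) = algebraMap A' C' (ψ a))
    (b : Basis ι A C) (b' : Basis ι A' C') (hb : ∀ i, b' i = φ (b i)) (x : C) :
    Algebra.trace A' C' (φ x) = ψ (Algebra.trace A C x) := by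
  rw [Algebra.trace_eq_matrix_trace b, Algebra.trace_eq_matrix_trace b', Matrix.trace,
    Matrix.trace, map_sum]
  refine Finset.sum_congr rfl fun i _ => ?_
  rw [Matrix.diag_apply, Matrix.diag_apply, Algebra.leftMulMatrix_eq_repr_mul,
    Algebra.leftMulMatrix_eq_repr_mul, hb, ← map_mul, repr_map_of_basis ψ φ hφ b b' hb]

/-- **The discriminant commutes with base change** (quotients, localisations, tensor products). -/
theorem discr_map_of_basis (ψ : A →+* A') (φ : C →+* C')
    (hφ : ∀ a, φ (algebraMap A C a) = algebraMap A' C' (ψ a))
    (b : Basis ι A C) (b' : Basis ι A' C') (hb : ∀ i, b' i = φ (b i)) :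
    Algebra.discr A' b' = ψ (Algebra.discr A b) := by
  rw [Algebra.discr_def, Algebra.discr_def, RingHom.map_det]
  congr 1
  ext i j
  rw [RingHom.mapMatrix_apply, Matrix.map_apply, Algebra.traceMatrix_apply,
    Algebra.traceMatrix_apply, Algebra.traceForm_apply, Algebra.traceForm_apply, hb, hb,
    ← map_mul, trace_map_of_basis ψ φ hφ b b' hb]

theorem isUnit_discr_map_of_basis (ψ : A →+* A') (φ : C →+* C')
    (hφ : ∀ a, φ (algebraMap A C a) = algebraMap A' C' (ψ a))
    (b : Basis ι A C) (b' : Basis ι A' C') (hb : ∀ i, b' i = φ (b i))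
    (hd : IsUnit (Algebra.discr A b)) : IsUnit (Algebra.discr A' b') := by
  rw [discr_map_of_basis ψ φ hφ b b' hb]
  exact hd.map ψ

end BaseChange

section Quotient

variable {A C : Type*} [CommRing A] [CommRing C] [Algebra A C]
  {ι : Type*} [Fintype ι] [DecidableEq ι]

/-- Membership in the extended ideal `I C` is read off the coordinates. -/
theorem mem_map_algebraMap_iff_repr (I : Ideal A) (b : Basis ι A C) (x : C) :
    x ∈ I.map (algebraMap A C) ↔ ∀ i, b.repr x i ∈ I := by
  have h1 : x ∈ I.map (algebraMap A C) ↔ x ∈ I • (⊤ : Submodule A C) := by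
    rw [Ideal.smul_top_eq_map]
    rfl
  rw [h1, ← b.span_eq, Submodule.mem_ideal_smul_span_iff_exists_sum]
  constructor
  · rintro ⟨a, ha, rfl⟩ i
    have h2 : (a.sum fun i c => c • b i) = Finsupp.linearCombination A b a := rfl
    rw [h2, b.repr_linearCombination]
    exact ha i
  · intro h
    exact ⟨b.repr x, h, b.linearCombination_repr x⟩

/-- The reduction of a basis modulo an ideal `I` of the base is a basis of `C ⧸ I C` over `A ⧸ I`
(no locality assumption, contrary to Mathlib's `basisQuotient`). -/
noncomputable def quotientBasis (I : Ideal A) (b : Basis ι A C) :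
    Basis ι (A ⧸ I) (C ⧸ I.map (algebraMap A C)) :=
  Basis.mk (v := fun i => Ideal.Quotient.mk (I.map (algebraMap A C)) (b i))
    (by
      rw [Fintype.linearIndependent_iff]
      intro g hg i
      choose a ha using fun i => Ideal.Quotient.mk_surjective (g i)
      have h1 : Ideal.Quotient.mk (I.map (algebraMap A C)) (∑ i, a i • b i) = 0 := by
        rw [← hg, map_sum]
        refine Finset.sum_congr rfl fun i _ => ?_
        rw [← ha, Ideal.Quotient.mk_smul_mk_quotient_map_quotient, Algebra.smul_def]
      rw [Ideal.Quotient.eq_zero_iff_mem, mem_map_algebraMap_iff_repr I b] at h1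
      have h2 := h1 i
      rw [b.repr_sum_self] at h2
      rw [← ha, Ideal.Quotient.eq_zero_iff_mem]
      exact h2)
    (by
      rintro y -
      obtain ⟨x, rfl⟩ := Ideal.Quotient.mk_surjective y
      rw [← b.sum_repr x, map_sum]
      refine Submodule.sum_mem _ fun i _ => ?_
      have : Ideal.Quotient.mk (I.map (algebraMap A C)) (b.repr x i • b i) =
          Ideal.Quotient.mk I (b.repr x i) • Ideal.Quotient.mk (I.map (algebraMap A C)) (b i) := by
        rw [Ideal.Quotient.mk_smul_mk_quotient_map_quotient, Algebra.smul_def]
      rw [this]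
      exact Submodule.smul_mem _ _ (Submodule.subset_span ⟨i, rfl⟩))

@[simp]
theorem quotientBasis_apply (I : Ideal A) (b : Basis ι A C) (i : ι) :
    quotientBasis I b i = Ideal.Quotient.mk (I.map (algebraMap A C)) (b i) := by
  rw [quotientBasis, Basis.mk_apply]

/-- **The discriminant of the reduced basis is the reduction of the discriminant.** -/
theorem discr_quotientBasis (I : Ideal A) (b : Basis ι A C) :
    Algebra.discr (A ⧸ I) (quotientBasis I b) = Ideal.Quotient.mk I (Algebra.discr A b) :=
  discr_map_of_basis (Ideal.Quotient.mk I) (Ideal.Quotient.mk (I.map (algebraMap A C)))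
    (fun _ => rfl) b (quotientBasis I b) (quotientBasis_apply I b)

theorem isUnit_discr_quotientBasis (I : Ideal A) (b : Basis ι A C)
    (hd : IsUnit (Algebra.discr A b)) : IsUnit (Algebra.discr (A ⧸ I) (quotientBasis I b)) := by
  rw [discr_quotientBasis]
  exact hd.map _

/-- The trace of the reduction is the reduction of the trace. -/
theorem trace_quotient_mk_of_basis (I : Ideal A) (b : Basis ι A C) (x : C) :
    Algebra.trace (A ⧸ I) (C ⧸ I.map (algebraMap A C))
      (Ideal.Quotient.mk (I.map (algebraMap A C)) x) =
      Ideal.Quotient.mk I (Algebra.trace A C x) :=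
  trace_map_of_basis (Ideal.Quotient.mk I) (Ideal.Quotient.mk (I.map (algebraMap A C)))
    (fun _ => rfl) b (quotientBasis I b) (quotientBasis_apply I b) x

/-- **Unit discriminant ⇒ every fibre is reduced**: for a radical ideal `I` of `A` the extended
ideal `I C` is radical. -/
theorem isReduced_quotient_of_isUnit_discr (I : Ideal A) [IsReduced (A ⧸ I)] (b : Basis ι A C)
    (hd : IsUnit (Algebra.discr A b)) : IsReduced (C ⧸ I.map (algebraMap A C)) :=
  isReduced_of_isUnit_discr (quotientBasis I b) (isUnit_discr_quotientBasis I b hd)

theorem isRadical_map_of_isUnit_discr {I : Ideal A} (hI : I.IsRadical) (b : Basis ι A C)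
    (hd : IsUnit (Algebra.discr A b)) : (I.map (algebraMap A C)).IsRadical := by
  have : IsReduced (A ⧸ I) := (Ideal.isRadical_iff_quotient_reduced I).1 hI
  exact (Ideal.isRadical_iff_quotient_reduced _).2 (isReduced_quotient_of_isUnit_discr I b hd)

end Quotient

section UFD

variable {R : Type*} [CommRing R] [IsDomain R]

/-- **UFD bookkeeping**: if `d` becomes a unit after inverting the prime element `π`, and `π ∤ d`,
then `d` is a unit. -/
theorem isUnit_of_isUnit_away_of_not_dvd {π d : R} (hπ : Prime π)
    (Rπ : Type*) [CommRing Rπ] [Algebra R Rπ] [IsLocalization.Away π Rπ]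
    (hd : IsUnit (algebraMap R Rπ d)) (hnd : ¬ π ∣ d) : IsUnit d := by
  -- `d * e = π ^ n` in `R`
  obtain ⟨u, hu⟩ := hd
  obtain ⟨⟨e, s⟩, hes⟩ := IsLocalization.surj (Submonoid.powers π) ((u⁻¹ : Rπˣ) : Rπ)
  obtain ⟨n, hn⟩ := s.2
  have hinj : Function.Injective (algebraMap R Rπ) :=
    IsLocalization.injective Rπ (powers_le_nonZeroDivisors_of_noZeroDivisors hπ.ne_zero)
  have key : d * e = π ^ n := by
    apply hinj
    rw [map_mul, ← hu, ← hes, hn.symm]
    simp only
    rw [← mul_assoc, Units.mul_inv, one_mul]
  -- induction on `n`
  clear hes hu hn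
  induction n generalizing e with
  | zero =>
    rw [pow_zero] at key
    exact IsUnit.of_mul_eq_one _ key
  | succ n ih =>
    have hdvd : π ∣ d * e := ⟨π ^ n, by rw [key, pow_succ, mul_comm]⟩
    rcases hπ.dvd_or_dvd hdvd with h | h
    · exact absurd h hnd
    · obtain ⟨e', rfl⟩ := h
      apply ih e'
      have : π * (d * e') = π * π ^ n := by
        rw [pow_succ] at key
        linear_combination key
      exact mul_left_cancel₀ hπ.ne_zero this

end UFD

end Fermat.Agent.S18.H9
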