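/-
S18 project, package DISC (helper9), DVR half: **unit discriminant ⇒ the local rings over a
principal maximal ideal `(w)` of the base are discrete valuation rings with uniformiser `w`**
(`C` is NOT assumed to be a domain).

* `exists_unit_mul_pow_of_maximalIdeal_eq_span`, `isDomain_of_maximalIdeal_eq_span`,
  `isDiscreteValuationRing_of_maximalIdeal_eq_span` : a noetherian local ring whose maximal ideal is
  generated by a non-zero-divisor is a DVR;
* `maximalIdeal_eq_span_of_isUnit_discr` : in `C_x` the maximal ideal is generated by `w`;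
* `isDomain_localization_of_isUnit_discr`, `isDiscreteValuationRing_localization_of_isUnit_discr`.
-/
import Mathlib
import Fermat.Agent.S18.H9_DiscrNormal

set_option autoImplicit false
set_option linter.unusedSectionVars false

open Module
open scoped nonZeroDivisors

namespace Fermat.Agent.S18.H9

section LocalPrincipal

variable {R : Type*} [CommRing R] [IsLocalRing R] [IsNoetherianRing R]

open IsLocalRing

/-- In a noetherian local ring with principal maximal ideal `(ϖ)`, every nonzero element is a unit
times a power of `ϖ`. -/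
theorem exists_unit_mul_pow_of_maximalIdeal_eq_span {ϖ : R}
    (hmax : maximalIdeal R = Ideal.span {ϖ}) {z : R} (hz : z ≠ 0) :
    ∃ (n : ℕ) (u : Rˣ), z = ϖ ^ n * u := by
  classical
  have hK : ⨅ n : ℕ, (maximalIdeal R) ^ n = ⊥ :=
    Ideal.iInf_pow_eq_bot_of_isLocalRing _ (Ideal.IsMaximal.ne_top inferInstance)
  have hex : ∃ n, z ∉ (maximalIdeal R) ^ n := by
    by_contra hcon
    simp only [not_exists, not_not] at hcon
    have h1 : z ∈ ⨅ n : ℕ, (maximalIdeal R) ^ n := by
      rw [Ideal.mem_iInf]
      exact hcon
    rw [hK] at h1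
    exact hz ((Ideal.mem_bot).1 h1)
  have hn : z ∉ maximalIdeal R ^ (Nat.find hex) := Nat.find_spec hex
  have hn0 : Nat.find hex ≠ 0 := by
    intro h0
    rw [h0, pow_zero, Ideal.one_eq_top] at hn
    exact hn Submodule.mem_top
  obtain ⟨m, hm⟩ := Nat.exists_eq_succ_of_ne_zero hn0
  have hmem : z ∈ maximalIdeal R ^ m := by
    by_contra h'
    exact Nat.find_min hex (by omega : m < Nat.find hex) h'
  rw [hmax, Ideal.span_singleton_pow, Ideal.mem_span_singleton'] at hmem
  obtain ⟨u, hu⟩ := hmem
  have hunit : IsUnit u := by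
    by_contra hnu
    have h2 : u ∈ maximalIdeal R := (mem_maximalIdeal u).2 hnu
    rw [hmax, Ideal.mem_span_singleton'] at h2
    obtain ⟨v, hv⟩ := h2
    apply hn
    rw [hm, hmax, Ideal.span_singleton_pow, Ideal.mem_span_singleton']
    exact ⟨v, by rw [← hu, ← hv, pow_succ]; ring⟩
  exact ⟨m, hunit.unit, by rw [← hu, mul_comm]; rfl⟩

/-- A noetherian local ring whose maximal ideal is generated by a non-zero-divisor is a domain. -/
theorem isDomain_of_maximalIdeal_eq_span {ϖ : R} (hmax : maximalIdeal R = Ideal.span {ϖ})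
    (hϖ : ϖ ∈ R⁰) : IsDomain R := by
  have hnzd : NoZeroDivisors R := by
    refine ⟨fun {a c} hac => ?_⟩
    by_contra hcon
    rw [not_or] at hcon
    obtain ⟨n, u, hu⟩ := exists_unit_mul_pow_of_maximalIdeal_eq_span hmax hcon.1
    obtain ⟨m, v, hv⟩ := exists_unit_mul_pow_of_maximalIdeal_eq_span hmax hcon.2
    have h1 : ((u * v : Rˣ) : R) * ϖ ^ (n + m) = 0 := by
      rw [← hac, hu, hv]
      push_cast
      ring
    have h2 : ϖ ^ (n + m) ∈ R⁰ := pow_mem hϖ _
    have h3 : ((u * v : Rˣ) : R) = 0 := (mem_nonZeroDivisors_iff_right.1 h2) _ h1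
    exact (u * v).ne_zero h3
  exact NoZeroDivisors.to_isDomain R

/-- A noetherian local domain with nonzero principal maximal ideal is a DVR. -/
theorem isDiscreteValuationRing_of_maximalIdeal_eq_span [IsDomain R] {ϖ : R}
    (hmax : maximalIdeal R = Ideal.span {ϖ}) (hϖ : ϖ ≠ 0) : IsDiscreteValuationRing R := by
  have hnf : ¬ IsField R := by
    intro hf
    have h1 : maximalIdeal R = ⊥ := IsLocalRing.isField_iff_maximalIdeal_eq.1 hf
    rw [hmax, Ideal.span_singleton_eq_bot] at h1
    exact hϖ h1
  exact ((IsDiscreteValuationRing.TFAE R hnf).out 0 4).2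
    (show Submodule.IsPrincipal (maximalIdeal R) from ⟨⟨ϖ, hmax⟩⟩)

end LocalPrincipal

section Main

variable {A C : Type*} [CommRing A] [IsDomain A] [CommRing C] [Algebra A C]
  {ι : Type*} [Fintype ι] [DecidableEq ι]

/-- A nonzero element of the base is a non-zero-divisor of a free algebra. -/
theorem algebraMap_mem_nonZeroDivisors_of_basis (b : Basis ι A C) {w : A} (hw : w ≠ 0) :
    algebraMap A C w ∈ C⁰ := by
  have hfree : Module.Free A C := Module.Free.of_basis b
  rw [mem_nonZeroDivisors_iff_right]
  intro c hc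
  have h1 : w • c = 0 := by rw [Algebra.smul_def, mul_comm]; exact hc
  rcases smul_eq_zero.1 h1 with h | h
  · exact absurd h hw
  · exact h

variable (b : Basis ι A C) (hd : IsUnit (Algebra.discr A b))
  (x : Ideal C) [x.IsPrime] (Cx : Type*) [CommRing Cx] [Algebra C Cx] [IsLocalization.AtPrime Cx x]
  {w : A} (hwmax : (Ideal.span {w} : Ideal A).IsMaximal)
  (hx : x.comap (algebraMap A C) = Ideal.span {w})

include hd hwmax hx in
/-- **Unit discriminant ⇒ `w` generates the maximal ideal of `C_x`** (`x` a prime of `C` over the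
maximal ideal `(w)` of `A`). -/
theorem maximalIdeal_eq_span_of_isUnit_discr [IsLocalRing Cx] :
    IsLocalRing.maximalIdeal Cx = Ideal.span {algebraMap C Cx (algebraMap A C w)} := by
  have hfin : Module.Finite A C := Module.Finite.of_basis b
  have hint : Algebra.IsIntegral A C := inferInstance
  set J : Ideal C := (Ideal.span {w} : Ideal A).map (algebraMap A C) with hJ
  have hJrad : J.IsRadical :=
    isRadical_map_of_isUnit_discr hwmax.isPrime.isRadical b hd
  have hJx : J ≤ x := by
    rw [hJ, Ideal.map_le_iff_le_comap, hx]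
  set I : Ideal Cx := J.map (algebraMap C Cx) with hI
  have hIrad : I.radical = I := by
    rw [hI, ← IsLocalization.map_radical x.primeCompl Cx J, hJrad.radical]
  have hmapx : x.map (algebraMap C Cx) = IsLocalRing.maximalIdeal Cx :=
    IsLocalization.AtPrime.map_eq_maximalIdeal x Cx
  have hIle : I ≤ IsLocalRing.maximalIdeal Cx := by
    rw [← hmapx]
    exact Ideal.map_mono hJx
  -- every prime containing `I` is the maximal ideal
  have hprime : ∀ q : Ideal Cx, I ≤ q → q.IsPrime → q = IsLocalRing.maximalIdeal Cx := by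
    intro q hIq hq
    have hq'prime : (q.comap (algebraMap C Cx)).IsPrime := Ideal.comap_isPrime _ q
    have hJq' : J ≤ q.comap (algebraMap C Cx) := by
      rw [← Ideal.map_le_iff_le_comap]
      exact hIq
    have hq'x : q.comap (algebraMap C Cx) ≤ x := by
      have h1 : q ≤ IsLocalRing.maximalIdeal Cx := IsLocalRing.le_maximalIdeal hq.ne_top
      have h2 := Ideal.comap_mono (f := algebraMap C Cx) h1
      have h3 : Ideal.comap (algebraMap C Cx) (Ideal.map (algebraMap C Cx) x) = x :=
        IsLocalization.under_map_of_isPrime_disjoint x.primeCompl Cx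
          (inferInstance : x.IsPrime) (by
            rw [Set.disjoint_left]
            intro c hc hcx
            exact hc hcx)
      rwa [← hmapx, h3] at h2
    have hcomap : (q.comap (algebraMap C Cx)).comap (algebraMap A C) = Ideal.span {w} := by
      have hle : (Ideal.span {w} : Ideal A) ≤ (q.comap (algebraMap C Cx)).comap (algebraMap A C) := by
        rw [← Ideal.map_le_iff_le_comap]
        exact hJq'
      have hne : (q.comap (algebraMap C Cx)).comap (algebraMap A C) ≠ ⊤ :=
        (Ideal.comap_isPrime _ _).ne_top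
      exact (hwmax.eq_of_le hne hle).symm
    have hq'max : (q.comap (algebraMap C Cx)).IsMaximal :=
      Ideal.isMaximal_of_isIntegral_of_isMaximal_comap (R := A) _ (by rw [hcomap]; exact hwmax)
    have hq'eq : q.comap (algebraMap C Cx) = x :=
      hq'max.eq_of_le (Ideal.IsPrime.ne_top inferInstance) hq'x
    have h4 : Ideal.map (algebraMap C Cx) (Ideal.comap (algebraMap C Cx) q) = q :=
      IsLocalization.map_under x.primeCompl Cx q
    rw [← h4, hq'eq, hmapx]
  have hI_eq : I = IsLocalRing.maximalIdeal Cx := by
    apply le_antisymm hIle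
    intro z hz
    rw [← hIrad, Ideal.radical_eq_sInf, Ideal.mem_sInf]
    rintro q ⟨hIq, hq⟩
    rw [hprime q hIq hq]
    exact hz
  rw [← hI_eq, hI, hJ, Ideal.map_map, Ideal.map_span, Set.image_singleton]
  rfl

include hd hwmax hx in
/-- **Unit discriminant ⇒ `C_x` is a domain** (`C` need not be one). -/
theorem isDomain_localization_of_isUnit_discr [IsNoetherianRing A] (hw0 : w ≠ 0) :
    IsDomain Cx := by
  have hfin : Module.Finite A C := Module.Finite.of_basis b
  have hCnoeth : IsNoetherianRing C := IsNoetherianRing.of_finite A C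
  have hloc : IsLocalRing Cx := IsLocalization.AtPrime.isLocalRing Cx x
  have hnoeth : IsNoetherianRing Cx := IsLocalization.isNoetherianRing x.primeCompl Cx hCnoeth
  have hmax := maximalIdeal_eq_span_of_isUnit_discr b hd x Cx hwmax hx
  have hnzd : algebraMap C Cx (algebraMap A C w) ∈ Cx⁰ :=
    IsLocalization.map_nonZeroDivisors_le x.primeCompl Cx
      ⟨_, algebraMap_mem_nonZeroDivisors_of_basis b hw0, rfl⟩
  exact isDomain_of_maximalIdeal_eq_span hmax hnzd

include hd hwmax hx in
/-- **Unit discriminant ⇒ `C_x` is a discrete valuation ring with uniformiser `w`.** -/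
theorem isDiscreteValuationRing_localization_of_isUnit_discr [IsNoetherianRing A] [IsDomain Cx]
    (hw0 : w ≠ 0) : IsDiscreteValuationRing Cx := by
  have hfin : Module.Finite A C := Module.Finite.of_basis b
  have hCnoeth : IsNoetherianRing C := IsNoetherianRing.of_finite A C
  have hloc : IsLocalRing Cx := IsLocalization.AtPrime.isLocalRing Cx x
  have hnoeth : IsNoetherianRing Cx := IsLocalization.isNoetherianRing x.primeCompl Cx hCnoeth
  have hmax := maximalIdeal_eq_span_of_isUnit_discr b hd x Cx hwmax hx
  have hnzd : algebraMap C Cx (algebraMap A C w) ∈ Cx⁰ :=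
    IsLocalization.map_nonZeroDivisors_le x.primeCompl Cx
      ⟨_, algebraMap_mem_nonZeroDivisors_of_basis b hw0, rfl⟩
  exact isDiscreteValuationRing_of_maximalIdeal_eq_span hmax (nonZeroDivisors.ne_zero hnzd)

end Main

end Fermat.Agent.S18.H9
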