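/-
S18 project, package DISC (helper9), elementwise corollaries in the shape consumed by the quotient
lemma Q' (`H67.isIntegrallyClosed_quotient_span`: hypotheses `hreg`, `hres`).

* `exists_notMem_mul_mem_span_of_isUnit_discr` (E1) : `x C_x = w C_x`, elementwise;
* `exists_notMem_mul_mem_span_pair_of_isUnit_discr` (E2) : two-level form over a base `R'` with
  `π, s` generating a maximal ideal: `x₁ B'_{x₁} = (π, s) B'_{x₁}`, elementwise (= `hreg`);
* `exists_sub_algebraMap_mem_of_isAlgClosed` (E3) : residue field of `x₁` = residue field of the base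
  when the latter is algebraically closed (= `hres`, over the base).
-/
import Mathlib
import Fermat.Agent.S18.H9_DiscrDVR

set_option autoImplicit false
set_option linter.unusedSectionVars false
set_option linter.style.haveILetI false

open Module
open scoped nonZeroDivisors

namespace Fermat.Agent.S18.H9

section E1

variable {A C : Type*} [CommRing A] [IsDomain A] [CommRing C] [Algebra A C]
  {ι : Type*} [Fintype ι] [DecidableEq ι]

/-- (E1) **Elementwise form of `x C_x = w C_x`.** -/
theorem exists_notMem_mul_mem_span_of_isUnit_discr (b : Basis ι A C)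
    (hd : IsUnit (Algebra.discr A b)) (x : Ideal C) [x.IsPrime] {w : A}
    (hwmax : (Ideal.span {w} : Ideal A).IsMaximal)
    (hx : x.comap (algebraMap A C) = Ideal.span {w}) :
    ∀ c ∈ x, ∃ u, u ∉ x ∧ u * c ∈ Ideal.span {algebraMap A C w} := by
  intro c hc
  set Cx := Localization.AtPrime x with hCx
  have hloc : IsLocalRing Cx := inferInstance
  have hmax := maximalIdeal_eq_span_of_isUnit_discr b hd x Cx hwmax hx
  have hmapx : x.map (algebraMap C Cx) = IsLocalRing.maximalIdeal Cx :=
    IsLocalization.AtPrime.map_eq_maximalIdeal x Cx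
  have hcmem : algebraMap C Cx c ∈ IsLocalRing.maximalIdeal Cx := by
    rw [← hmapx]
    exact Ideal.mem_map_of_mem _ hc
  rw [hmax, Ideal.mem_span_singleton'] at hcmem
  obtain ⟨z, hz⟩ := hcmem
  obtain ⟨d, t, rfl⟩ := IsLocalization.exists_mk'_eq x.primeCompl z
  -- `d w / t = c / 1`
  have h1 : algebraMap C Cx (d * algebraMap A C w) = algebraMap C Cx ((t : C) * c) := by
    rw [map_mul, map_mul, ← hz, ← IsLocalization.mk'_spec Cx d t]
    ring
  obtain ⟨v, hv⟩ := (IsLocalization.eq_iff_exists x.primeCompl Cx).1 h1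
  refine ⟨(v : C) * (t : C), ?_, ?_⟩
  · intro hmem
    rcases (inferInstance : x.IsPrime).mem_or_mem hmem with h | h
    · exact v.2 h
    · exact t.2 h
  · rw [Ideal.mem_span_singleton']
    exact ⟨(v : C) * d, by rw [mul_assoc, hv, mul_assoc]⟩

end E1

section E2

variable {R' B' : Type*} [CommRing R'] [CommRing B'] [Algebra R' B']
  {ι : Type*} [Fintype ι] [DecidableEq ι]

/-- (E2) **Two-level form** (`hreg` of the quotient lemma Q'): `B'` free over `R'` with unit
discriminant, `x₁` a prime of `B'` over the maximal ideal `(π, s)` of `R'`; then `x₁` is generated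
by `π` and `s` locally at `x₁`. -/
theorem exists_notMem_mul_mem_span_pair_of_isUnit_discr (b : Basis ι R' B')
    (hd : IsUnit (Algebra.discr R' b)) (π s : R') [IsDomain (R' ⧸ Ideal.span {π})]
    (x₁ : Ideal B') [x₁.IsPrime] (hM : (Ideal.span {π, s} : Ideal R').IsMaximal)
    (hx₁ : x₁.comap (algebraMap R' B') = Ideal.span {π, s}) :
    ∀ c ∈ x₁, ∃ u, u ∉ x₁ ∧ u * c ∈ Ideal.span {algebraMap R' B' π, algebraMap R' B' s} := by
  set I : Ideal R' := Ideal.span {π} with hI
  set IB : Ideal B' := I.map (algebraMap R' B') with hIB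
  have hIBspan : IB = Ideal.span {algebraMap R' B' π} := by
    rw [hIB, hI, Ideal.map_span, Set.image_singleton]
  have hπx : algebraMap R' B' π ∈ x₁ := by
    have : π ∈ x₁.comap (algebraMap R' B') := by
      rw [hx₁]
      exact Ideal.subset_span (Set.mem_insert _ _)
    exact this
  have hIBle : IB ≤ x₁ := by
    rw [hIBspan, Ideal.span_singleton_le_iff_mem]
    exact hπx
  have hIle : I ≤ Ideal.span {π, s} := by
    rw [hI, Ideal.span_singleton_le_iff_mem]
    exact Ideal.subset_span (Set.mem_insert _ _)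
  -- the quotient situation
  set xbar : Ideal (B' ⧸ IB) := x₁.map (Ideal.Quotient.mk IB) with hxbar
  have hxbar_prime : xbar.IsPrime :=
    Ideal.map_isPrime_of_surjective Ideal.Quotient.mk_surjective (by
      rw [Ideal.mk_ker]
      exact hIBle)
  have hspan_eq : (Ideal.span {Ideal.Quotient.mk I s} : Ideal (R' ⧸ I)) =
      (Ideal.span {π, s} : Ideal R').map (Ideal.Quotient.mk I) := by
    rw [Ideal.map_span, Set.image_pair]
    have h0 : Ideal.Quotient.mk I π = 0 := by
      rw [Ideal.Quotient.eq_zero_iff_mem, hI]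
      exact Ideal.mem_span_singleton_self π
    rw [h0]
    apply le_antisymm
    · exact Ideal.span_mono (by intro y hy; rw [Set.mem_singleton_iff] at hy; rw [hy]; simp)
    · rw [Ideal.span_le]
      intro y hy
      rcases hy with rfl | hy
      · exact Ideal.zero_mem _
      · rw [Set.mem_singleton_iff] at hy
        rw [hy]
        exact Ideal.mem_span_singleton_self _
  have hwmax : (Ideal.span {Ideal.Quotient.mk I s} : Ideal (R' ⧸ I)).IsMaximal := by
    rw [hspan_eq]
    rcases Ideal.map_eq_top_or_isMaximal_of_surjective (Ideal.Quotient.mk I)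
      Ideal.Quotient.mk_surjective hM with h | h
    · exfalso
      have h1 : (1 : R' ⧸ I) ∈ (Ideal.span {π, s} : Ideal R').map (Ideal.Quotient.mk I) := by
        rw [h]
        exact Submodule.mem_top
      rw [← map_one (Ideal.Quotient.mk I), Ideal.mem_quotient_iff_mem hIle] at h1
      exact hM.ne_top ((Ideal.eq_top_iff_one _).2 h1)
    · exact h
  have hxcomap : xbar.comap (algebraMap (R' ⧸ I) (B' ⧸ IB)) =
      Ideal.span {Ideal.Quotient.mk I s} := by
    ext abar
    obtain ⟨a, rfl⟩ := Ideal.Quotient.mk_surjective abar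
    rw [Ideal.mem_comap, hspan_eq, Ideal.mem_quotient_iff_mem hIle]
    have h1 : algebraMap (R' ⧸ I) (B' ⧸ IB) (Ideal.Quotient.mk I a) =
        Ideal.Quotient.mk IB (algebraMap R' B' a) := rfl
    rw [h1, hxbar, Ideal.mem_quotient_iff_mem hIBle, ← hx₁, Ideal.mem_comap]
  intro c hc
  have hcbar : Ideal.Quotient.mk IB c ∈ xbar := Ideal.mem_map_of_mem _ hc
  obtain ⟨ubar, hubar, hmem⟩ := exists_notMem_mul_mem_span_of_isUnit_discr
    (quotientBasis I b) (isUnit_discr_quotientBasis I b hd) xbar hwmax hxcomap _ hcbar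
  obtain ⟨u, rfl⟩ := Ideal.Quotient.mk_surjective ubar
  refine ⟨u, ?_, ?_⟩
  · intro hu
    exact hubar (Ideal.mem_map_of_mem _ hu)
  · rw [Ideal.mem_span_singleton'] at hmem
    obtain ⟨dbar, hdbar⟩ := hmem
    obtain ⟨d, rfl⟩ := Ideal.Quotient.mk_surjective dbar
    have h1 : algebraMap (R' ⧸ I) (B' ⧸ IB) (Ideal.Quotient.mk I s) =
        Ideal.Quotient.mk IB (algebraMap R' B' s) := rfl
    rw [h1, ← map_mul, ← map_mul, Ideal.Quotient.eq] at hdbar
    have hdbar' : d * algebraMap R' B' s - u * c ∈ IB := hdbar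
    rw [hIBspan, Ideal.mem_span_singleton'] at hdbar'
    obtain ⟨e, he⟩ := hdbar'
    rw [Ideal.mem_span_pair]
    refine ⟨-e, d, ?_⟩
    linear_combination -he

end E2

section E3

variable {R' B' : Type*} [CommRing R'] [CommRing B'] [Algebra R' B'] [Algebra.IsIntegral R' B']

/-- (E3) **Residue fields** (`hres` over the base): if the residue field of the base at the
contraction of the prime `x₁` is algebraically closed, then `R' → B' ⧸ x₁` is surjective. -/
theorem exists_sub_algebraMap_mem_of_isAlgClosed (x₁ : Ideal B') [x₁.IsPrime]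
    (M' : Ideal R') [M'.IsMaximal] (hx₁ : x₁.comap (algebraMap R' B') = M')
    (k : Type*) [Field k] [IsAlgClosed k] (e : (R' ⧸ M') ≃+* k) :
    ∀ b : B', ∃ r : R', b - algebraMap R' B' r ∈ x₁ := by
  have hlo : x₁.LiesOver M' := ⟨hx₁.symm⟩
  letI : Field (R' ⧸ M') := Ideal.Quotient.field M'
  have halg : IsAlgClosed (R' ⧸ M') := by
    apply IsAlgClosed.of_exists_root
    intro p _ hpi
    have hdeg : (p.map (e : (R' ⧸ M') →+* k)).degree ≠ 0 := by
      rw [Polynomial.degree_map_eq_of_injective e.injective]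
      exact Polynomial.degree_ne_of_natDegree_ne (Irreducible.natDegree_pos hpi).ne'
    obtain ⟨z, hz⟩ := IsAlgClosed.exists_root _ hdeg
    refine ⟨e.symm z, ?_⟩
    apply e.injective
    have h2 : e (Polynomial.eval (e.symm z) p) =
        Polynomial.eval₂ (e : (R' ⧸ M') →+* k) (e (e.symm z)) p :=
      (Polynomial.eval₂_at_apply (e : (R' ⧸ M') →+* k) (e.symm z)).symm
    rw [h2, map_zero, e.apply_symm_apply, ← Polynomial.eval_map]
    exact hz
  have hint : Algebra.IsIntegral (R' ⧸ M') (B' ⧸ x₁) := inferInstance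
  have hbij := IsAlgClosed.algebraMap_bijective_of_isIntegral (k := R' ⧸ M') (K := B' ⧸ x₁)
  intro b'
  obtain ⟨rbar, hr⟩ := hbij.2 (Ideal.Quotient.mk x₁ b')
  obtain ⟨r, rfl⟩ := Ideal.Quotient.mk_surjective rbar
  refine ⟨r, ?_⟩
  rw [← Ideal.Quotient.eq, ← hr]
  rfl

end E3

end Fermat.Agent.S18.H9
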