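import Mathlib
import Fermat.Agent.S18.H9_DiscrReg

/-!
# S18 / (GR) route Q, INST-4: the base line `R_Y = A₁[μ, 1/f(μ)]`

Generic in `f : A₁[X]`: `LineRing f := Localization.Away f`, coordinate `μ = LineRing.coord f`,
`LineRing.inv f = 1/f(μ)`.  Hesse: `f = X^3 - 1`; Legendre: `f = X * (X - 1)`.
-/

set_option autoImplicit false
set_option linter.style.haveILetI false
set_option linter.unusedSectionVars false

open Polynomial

namespace Fermat.Agent.S18.H26

section Generic

variable {A₁ : Type*} [CommRing A₁]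

/-- Coordinate ring of the open subset `f ≠ 0` of the affine line over `A₁`. -/
abbrev LineRing (f : A₁[X]) : Type _ := Localization.Away f

namespace LineRing

variable (f : A₁[X])

/-- The coordinate `μ`. -/
noncomputable def coord : LineRing f := algebraMap A₁[X] (LineRing f) X

/-- `1 / f(μ)`. -/
noncomputable def inv : LineRing f := IsLocalization.Away.invSelf f

theorem algebraMap_eq_aeval (g : A₁[X]) :
    algebraMap A₁[X] (LineRing f) g = aeval (coord f) g := by
  unfold coord
  rw [aeval_algebraMap_apply, aeval_X_left_apply]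

theorem aeval_coord_mul_inv : aeval (coord f) f * inv f = 1 := by
  rw [← algebraMap_eq_aeval]
  exact IsLocalization.Away.mul_invSelf f

theorem inv_mul_aeval_coord : inv f * aeval (coord f) f = 1 := by
  rw [mul_comm]; exact aeval_coord_mul_inv f

theorem isUnit_aeval_coord : IsUnit (aeval (coord f) f) :=
  IsUnit.of_mul_eq_one _ (aeval_coord_mul_inv f)

/-- Every element is `g(μ) / f(μ)^n`. -/
theorem exists_eq_aeval_mul_inv_pow (x : LineRing f) :
    ∃ (g : A₁[X]) (n : ℕ), x = aeval (coord f) g * inv f ^ n := by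
  obtain ⟨n, g, hg⟩ := IsLocalization.Away.surj f x
  refine ⟨g, n, ?_⟩
  rw [← algebraMap_eq_aeval, ← hg, algebraMap_eq_aeval, mul_assoc, ← mul_pow,
    aeval_coord_mul_inv, one_pow, mul_one]

section Lift

variable {E : Type*} [CommRing E] (φ : A₁ →+* E) (μ : E) (h : IsUnit (f.eval₂ φ μ))

/-- Universal property: a ring hom `φ : A₁ → E` and `μ : E` with `f(μ)` invertible. -/
noncomputable def lift : LineRing f →+* E :=
  IsLocalization.Away.lift f (g := eval₂RingHom φ μ) h

@[simp]
theorem lift_aeval (g : A₁[X]) : lift f φ μ h (aeval (coord f) g) = g.eval₂ φ μ := by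
  rw [← algebraMap_eq_aeval]
  exact IsLocalization.Away.lift_eq f (g := eval₂RingHom φ μ) h g

@[simp]
theorem lift_coord : lift f φ μ h (coord f) = μ := by
  have := lift_aeval f φ μ h X
  simpa using this

@[simp]
theorem lift_algebraMap (a : A₁) : lift f φ μ h (algebraMap A₁ (LineRing f) a) = φ a := by
  have := lift_aeval f φ μ h (C a)
  simpa using this

theorem lift_inv_mul : lift f φ μ h (inv f) * f.eval₂ φ μ = 1 := by
  rw [← lift_aeval f φ μ h f, ← map_mul, inv_mul_aeval_coord, map_one]

end Lift

/-- Two ring homs out of `LineRing f` agreeing on `A₁` and on `μ` are equal. -/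
theorem ringHom_ext {E : Type*} [CommRing E] {ψ₁ ψ₂ : LineRing f →+* E}
    (hA : ∀ a : A₁, ψ₁ (algebraMap A₁ (LineRing f) a) = ψ₂ (algebraMap A₁ (LineRing f) a))
    (hc : ψ₁ (coord f) = ψ₂ (coord f)) : ψ₁ = ψ₂ := by
  apply IsLocalization.ringHom_ext (Submonoid.powers f)
  apply Polynomial.ringHom_ext
  · intro a
    simpa [IsScalarTower.algebraMap_apply A₁ A₁[X] (LineRing f)] using hA a
  · simpa [coord] using hc

/-! ### Instances -/

theorem powers_le_nonZeroDivisors [IsDomain A₁] (hf : f ≠ 0) :
    Submonoid.powers f ≤ nonZeroDivisors A₁[X] :=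
  Submonoid.powers_le.mpr (mem_nonZeroDivisors_of_ne_zero hf)

theorem isDomain [IsDomain A₁] (hf : f ≠ 0) : IsDomain (LineRing f) :=
  IsLocalization.isDomain_localization (powers_le_nonZeroDivisors f hf)

theorem algebraMap_poly_injective [IsDomain A₁] (hf : f ≠ 0) :
    Function.Injective (algebraMap A₁[X] (LineRing f)) :=
  IsLocalization.injective (LineRing f) (powers_le_nonZeroDivisors f hf)

theorem aeval_coord_injective [IsDomain A₁] (hf : f ≠ 0) :
    Function.Injective (aeval (R := A₁) (coord f)) := by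
  intro g₁ g₂ h
  apply algebraMap_poly_injective f hf
  rw [algebraMap_eq_aeval, algebraMap_eq_aeval]; exact h

theorem algebraMap_injective [IsDomain A₁] (hf : f ≠ 0) :
    Function.Injective (algebraMap A₁ (LineRing f)) := by
  rw [IsScalarTower.algebraMap_eq A₁ A₁[X] (LineRing f)]
  exact (algebraMap_poly_injective f hf).comp Polynomial.C_injective

/-- Injectivity of the lift: `μ` "transcendental" w.r.t. `φ`. -/
theorem lift_injective {E : Type*} [CommRing E] (φ : A₁ →+* E)
    (μ : E) (h : IsUnit (f.eval₂ φ μ)) (hinj : Function.Injective (eval₂RingHom φ μ)) :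
    Function.Injective (lift f φ μ h) := by
  rw [injective_iff_map_eq_zero]
  intro x hx
  obtain ⟨g, n, rfl⟩ := exists_eq_aeval_mul_inv_pow f x
  rw [map_mul, map_pow, lift_aeval] at hx
  have hu : IsUnit (lift f φ μ h (inv f) ^ n) :=
    (IsUnit.of_mul_eq_one _ (lift_inv_mul f φ μ h)).pow n
  have hg : g.eval₂ φ μ = 0 := by
    rcases hu with ⟨u, hu⟩
    rw [← hu] at hx
    exact (Units.mul_left_eq_zero u).mp hx
  have : g = 0 := by
    apply hinj
    rw [map_zero]; exact hg
  rw [this, map_zero, zero_mul]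

/-! ### `A₁`-algebra maps into a ring with a point `μ` -/

section LiftAlg

variable {E : Type*} [CommRing E] [Algebra A₁ E] (μ : E) (h : IsUnit (aeval μ f))

/-- The `A₁`-algebra map `LineRing f → E`, `coord ↦ μ`. -/
noncomputable def liftAlg : LineRing f →ₐ[A₁] E :=
  { lift f (algebraMap A₁ E) μ (by rwa [← aeval_def]) with
    commutes' := fun a => lift_algebraMap f _ μ _ a }

theorem liftAlg_apply (r : LineRing f) :
    liftAlg f μ h r = lift f (algebraMap A₁ E) μ (by rwa [← aeval_def]) r := rfl

@[simp]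
theorem liftAlg_aeval (g : A₁[X]) : liftAlg f μ h (aeval (coord f) g) = aeval μ g := by
  rw [liftAlg_apply, lift_aeval, aeval_def]

@[simp]
theorem liftAlg_coord : liftAlg f μ h (coord f) = μ := by
  rw [liftAlg_apply, lift_coord]

theorem liftAlg_inv_mul : liftAlg f μ h (inv f) * aeval μ f = 1 := by
  rw [← liftAlg_aeval f μ h f, ← map_mul, inv_mul_aeval_coord, map_one]

theorem liftAlg_injective (htr : Transcendental A₁ μ) : Function.Injective (liftAlg f μ h) := by
  have h' : IsUnit (f.eval₂ (algebraMap A₁ E) μ) := by rwa [← aeval_def]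
  have key : Function.Injective (lift f (algebraMap A₁ E) μ h') := by
    apply lift_injective
    have := transcendental_iff_injective.mp htr
    intro g₁ g₂ h12
    apply this
    rw [aeval_def, aeval_def]
    exact h12
  intro x y hxy
  exact key hxy

/-- Integrality transfers from `μ` and `1/f(μ)` to the whole image of `LineRing f`. -/
theorem isIntegral_liftAlg {T : Subalgebra A₁ E} (hμ : IsIntegral T μ)
    (hw : IsIntegral T (liftAlg f μ h (inv f))) (r : LineRing f) :
    IsIntegral T (liftAlg f μ h r) := by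
  obtain ⟨g, n, rfl⟩ := exists_eq_aeval_mul_inv_pow f r
  rw [map_mul, map_pow, liftAlg_aeval]
  refine IsIntegral.mul ?_ (hw.pow n)
  rw [aeval_eq_sum_range]
  refine IsIntegral.sum _ fun i _ => ?_
  rw [Algebra.smul_def]
  refine IsIntegral.mul ?_ (hμ.pow i)
  rw [IsScalarTower.algebraMap_apply A₁ T E]
  exact isIntegral_algebraMap

/-- The `LineRing f`-algebra structure on `E ∋ μ` (install with `letI`). -/
@[reducible] noncomputable def algebraOfCoord : Algebra (LineRing f) E :=
  (liftAlg f μ h).toRingHom.toAlgebra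

theorem isScalarTower_algebraOfCoord :
    letI := algebraOfCoord f μ h
    IsScalarTower A₁ (LineRing f) E := by
  letI := algebraOfCoord f μ h
  exact IsScalarTower.of_algebraMap_eq fun a => ((liftAlg f μ h).commutes a).symm

theorem algebraMap_algebraOfCoord (r : LineRing f) :
    letI := algebraOfCoord f μ h
    algebraMap (LineRing f) E r = liftAlg f μ h r := rfl

theorem faithfulSMul_algebraOfCoord (htr : Transcendental A₁ μ) :
    letI := algebraOfCoord f μ h
    FaithfulSMul (LineRing f) E := by
  letI := algebraOfCoord f μ h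
  exact (faithfulSMul_iff_algebraMap_injective (LineRing f) E).mpr (liftAlg_injective f μ h htr)

end LiftAlg

/-- `LineRing f = A₁[μ, 1/f(μ)]`. -/
theorem adjoin_coord_inv : Algebra.adjoin A₁ {coord f, inv f} = ⊤ := by
  rw [eq_top_iff]
  intro x _
  obtain ⟨g, n, rfl⟩ := exists_eq_aeval_mul_inv_pow f x
  refine Subalgebra.mul_mem _ ?_ (Subalgebra.pow_mem _ (Algebra.subset_adjoin (by simp)) n)
  have h1 : aeval (coord f) g ∈ Algebra.adjoin A₁ {coord f} := aeval_mem_adjoin_singleton A₁ _
  exact Algebra.adjoin_mono (by simp) h1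

/-! ### The special fibre -/

section Red

variable {k : Type*} [Field k] (res : A₁ →+* k)

theorem eval₂_comp_coord (g : A₁[X]) :
    g.eval₂ ((algebraMap k (LineRing (f.map res))).comp res) (coord (f.map res)) =
      aeval (coord (f.map res)) (g.map res) := by
  rw [aeval_def, eval₂_map]

/-- Reduction `A₁[μ, 1/f] → k[μ, 1/f̄]`. -/
noncomputable def red : LineRing f →+* LineRing (f.map res) :=
  lift f ((algebraMap k (LineRing (f.map res))).comp res) (coord (f.map res))
    (by rw [eval₂_comp_coord]; exact isUnit_aeval_coord _)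

@[simp]
theorem red_aeval (g : A₁[X]) :
    red f res (aeval (coord f) g) = aeval (coord (f.map res)) (g.map res) := by
  unfold red; rw [lift_aeval, eval₂_comp_coord]

@[simp]
theorem red_coord : red f res (coord f) = coord (f.map res) := by
  unfold red; rw [lift_coord]

@[simp]
theorem red_algebraMap (a : A₁) :
    red f res (algebraMap A₁ (LineRing f) a) = algebraMap k (LineRing (f.map res)) (res a) := by
  unfold red; rw [lift_algebraMap]; rfl

theorem red_inv : red f res (inv f) = inv (f.map res) := by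
  have h1 : red f res (inv f) * aeval (coord (f.map res)) (f.map res) = 1 := by
    rw [← red_aeval, ← map_mul, inv_mul_aeval_coord, map_one]
  have h2 := aeval_coord_mul_inv (f.map res)
  calc red f res (inv f) = red f res (inv f) * (aeval (coord (f.map res)) (f.map res)
        * inv (f.map res)) := by rw [h2, mul_one]
    _ = inv (f.map res) := by rw [← mul_assoc, h1, one_mul]

theorem red_surjective (hres : Function.Surjective res) : Function.Surjective (red f res) := by
  intro y
  obtain ⟨g, n, rfl⟩ := exists_eq_aeval_mul_inv_pow (f.map res) y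
  obtain ⟨g', rfl⟩ := Polynomial.map_surjective res hres g
  refine ⟨aeval (coord f) g' * inv f ^ n, ?_⟩
  rw [map_mul, map_pow, red_aeval, red_inv]

theorem ker_red {ϖ : A₁} (hker : RingHom.ker res = Ideal.span {ϖ}) (hf : f.map res ≠ 0) :
    RingHom.ker (red f res) = Ideal.span {algebraMap A₁ (LineRing f) ϖ} := by
  apply le_antisymm
  · intro x hx
    rw [RingHom.mem_ker] at hx
    obtain ⟨g, n, rfl⟩ := exists_eq_aeval_mul_inv_pow f x
    rw [map_mul, map_pow, red_aeval, red_inv] at hx
    have hu : IsUnit (inv (f.map res) ^ n) :=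
      (IsUnit.of_mul_eq_one _ (inv_mul_aeval_coord (f.map res))).pow n
    have hg : aeval (coord (f.map res)) (g.map res) = 0 := by
      rcases hu with ⟨u, hu⟩
      rw [← hu] at hx
      exact (Units.mul_left_eq_zero u).mp hx
    have hg0 : g.map res = 0 := by
      apply aeval_coord_injective (f.map res) hf
      rw [hg, map_zero]
    have hmem : g ∈ RingHom.ker (mapRingHom res) := by
      rw [RingHom.mem_ker]; exact hg0
    rw [ker_mapRingHom, hker, Ideal.map_span, Set.image_singleton,
      Ideal.mem_span_singleton] at hmem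
    obtain ⟨g', rfl⟩ := hmem
    rw [Ideal.mem_span_singleton]
    refine ⟨aeval (coord f) g' * inv f ^ n, ?_⟩
    rw [map_mul, aeval_C]; ring
  · rw [Ideal.span_le, Set.singleton_subset_iff, SetLike.mem_coe, RingHom.mem_ker, red_algebraMap]
    have : ϖ ∈ RingHom.ker res := by rw [hker]; exact Ideal.mem_span_singleton_self ϖ
    rw [RingHom.mem_ker.mp this, map_zero]

/-- `k[μ, 1/f̄] → k(μ)`. -/
noncomputable def toRatFuncField (g : k[X]) (hg : g ≠ 0) : LineRing g →+* RatFunc k :=
  lift g (algebraMap k (RatFunc k)) RatFunc.X (by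
    rw [← aeval_def, RatFunc.aeval_X_left_eq_algebraMap]
    exact IsUnit.mk0 _ ((map_ne_zero_iff _ (RatFunc.algebraMap_injective k)).mpr hg))

theorem toRatFuncField_injective (g : k[X]) (hg : g ≠ 0) :
    Function.Injective (toRatFuncField g hg) := by
  unfold toRatFuncField
  apply lift_injective
  intro g₁ g₂ h12
  apply RatFunc.algebraMap_injective k
  have e : ∀ p : k[X], eval₂RingHom (algebraMap k (RatFunc k)) RatFunc.X p =
      algebraMap k[X] (RatFunc k) p := fun p => by
    rw [coe_eval₂RingHom, ← aeval_def, RatFunc.aeval_X_left_eq_algebraMap]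
  rw [e, e] at h12
  exact h12

/-- `φ : A₁[μ, 1/f] → k(μ)`, reduction followed by the inclusion into the function field of the
special fibre (the `φ` of (VERT)). -/
noncomputable def toRatFunc (hf : f.map res ≠ 0) : LineRing f →+* RatFunc k :=
  (toRatFuncField (f.map res) hf).comp (red f res)

@[simp]
theorem toRatFunc_coord (hf : f.map res ≠ 0) : toRatFunc f res hf (coord f) = RatFunc.X := by
  unfold toRatFunc toRatFuncField
  rw [RingHom.comp_apply, red_coord, lift_coord]

@[simp]
theorem toRatFunc_algebraMap (hf : f.map res ≠ 0) (a : A₁) :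
    toRatFunc f res hf (algebraMap A₁ (LineRing f) a) = algebraMap k (RatFunc k) (res a) := by
  unfold toRatFunc toRatFuncField
  rw [RingHom.comp_apply, red_algebraMap, lift_algebraMap]

theorem toRatFunc_aeval (hf : f.map res ≠ 0) (g : A₁[X]) :
    toRatFunc f res hf (aeval (coord f) g) = algebraMap k[X] (RatFunc k) (g.map res) := by
  unfold toRatFunc toRatFuncField
  rw [RingHom.comp_apply, red_aeval, lift_aeval, ← aeval_def, RatFunc.aeval_X_left_eq_algebraMap]

theorem ker_toRatFunc {ϖ : A₁} (hker : RingHom.ker res = Ideal.span {ϖ}) (hf : f.map res ≠ 0) :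
    RingHom.ker (toRatFunc f res hf) = Ideal.span {algebraMap A₁ (LineRing f) ϖ} := by
  rw [← ker_red f res hker hf]
  ext x
  simp only [RingHom.mem_ker, toRatFunc, RingHom.comp_apply]
  exact (map_eq_zero_iff _ (toRatFuncField_injective _ hf))

end Red

end LineRing

/-- A localization of a principal ideal ring is a principal ideal ring. -/
theorem isPrincipalIdealRing_of_isLocalization {R : Type*} [CommRing R] (M : Submonoid R)
    (S : Type*) [CommRing S] [Algebra R S] [IsLocalization M S] [IsPrincipalIdealRing R] :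
    IsPrincipalIdealRing S := by
  refine ⟨fun I => ?_⟩
  have h := IsLocalization.map_under M S I
  obtain ⟨g, hg⟩ := (IsPrincipalIdealRing.principal (I.under R)).principal
  refine ⟨⟨algebraMap R S g, ?_⟩⟩
  rw [← h, hg, Ideal.submodule_span_eq, Ideal.map_span, Set.image_singleton]

end Generic

/-! ### Zariski's lemma: closed points of the special fibre of a finite type algebra -/

section Zariski

/-- If `A₁ → k` is surjective with kernel `(ϖ)`, `k` algebraically closed, and `R` is an `A₁`-algebra
of finite type, then every maximal ideal `p ∋ ϖ` of `R` has residue field `k`: every `r : R` is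
congruent mod `p` to an element of `A₁`. -/
theorem exists_sub_algebraMap_mem_of_finiteType {A₁ R k : Type*} [CommRing A₁] [CommRing R]
    [Algebra A₁ R] [Algebra.FiniteType A₁ R] [Field k] [IsAlgClosed k] (res : A₁ →+* k)
    (hres : Function.Surjective res) {ϖ : A₁} (hker : RingHom.ker res = Ideal.span {ϖ})
    (p : Ideal R) [hp : p.IsMaximal] (hϖp : algebraMap A₁ R ϖ ∈ p) (r : R) :
    ∃ a : A₁, r - algebraMap A₁ R a ∈ p := by
  letI : Field (R ⧸ p) := Ideal.Quotient.field p
  let φ : A₁ →+* R ⧸ p := (Ideal.Quotient.mk p).comp (algebraMap A₁ R)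
  have hφ : RingHom.ker res ≤ RingHom.ker φ := by
    rw [hker, Ideal.span_le, Set.singleton_subset_iff, SetLike.mem_coe, RingHom.mem_ker]
    exact Ideal.Quotient.eq_zero_iff_mem.mpr hϖp
  let ψ : k →+* R ⧸ p := RingHom.liftOfSurjective res hres ⟨φ, hφ⟩
  have hψ : ∀ a, ψ (res a) = φ a := fun a =>
    RingHom.liftOfRightInverse_comp_apply _ _ _ ⟨φ, hφ⟩ a
  letI : Algebra A₁ k := res.toAlgebra
  letI : Algebra k (R ⧸ p) := ψ.toAlgebra
  haveI : IsScalarTower A₁ k (R ⧸ p) := IsScalarTower.of_algebraMap_eq (fun a => (hψ a).symm)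
  haveI : Algebra.FiniteType k (R ⧸ p) :=
    Algebra.FiniteType.of_restrictScalars_finiteType A₁ k (R ⧸ p)
  haveI : Module.Finite k (R ⧸ p) := finite_of_finite_type_of_isJacobsonRing k (R ⧸ p)
  have hsurj : Function.Surjective (algebraMap k (R ⧸ p)) :=
    (IsAlgClosed.algebraMap_bijective_of_isIntegral (k := k) (K := R ⧸ p)).2
  obtain ⟨c, hc⟩ := hsurj (Ideal.Quotient.mk p r)
  obtain ⟨a, rfl⟩ := hres c
  refine ⟨a, ?_⟩
  rw [← Ideal.Quotient.eq, ← hc]
  exact hψ a

/-- An element of `A₁` lying in a proper ideal containing `ϖ` is a multiple of `ϖ`. -/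
theorem mem_span_of_algebraMap_mem {A₁ R k : Type*} [CommRing A₁] [CommRing R]
    [Algebra A₁ R] [Field k] (res : A₁ →+* k)
    (hres : Function.Surjective res) {ϖ : A₁} (hker : RingHom.ker res = Ideal.span {ϖ})
    (p : Ideal R) (hp : p ≠ ⊤) (hϖp : algebraMap A₁ R ϖ ∈ p) {a : A₁}
    (ha : algebraMap A₁ R a ∈ p) : a ∈ Ideal.span {ϖ} := by
  rw [← hker, RingHom.mem_ker]
  by_contra h0
  obtain ⟨b, hb⟩ := hres (res a)⁻¹
  have h1 : a * b - 1 ∈ RingHom.ker res := by
    rw [RingHom.mem_ker, map_sub, map_mul, hb, mul_inv_cancel₀ h0, map_one, sub_self]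
  rw [hker, Ideal.mem_span_singleton] at h1
  obtain ⟨c, hc⟩ := h1
  apply hp
  rw [Ideal.eq_top_iff_one]
  have : (1 : R) = algebraMap A₁ R a * algebraMap A₁ R b - algebraMap A₁ R ϖ * algebraMap A₁ R c := by
    rw [← map_mul, ← map_mul, ← map_sub, ← hc]; simp
  rw [this]
  exact p.sub_mem (p.mul_mem_right _ ha) (p.mul_mem_right _ hϖp)

/-- `hres` of `H67.isIntegrallyClosed_special_fibre`: residue fields of an integral extension `B`
of a finite type `A₁`-algebra `R` at the closed points of the special fibre. -/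
theorem exists_sub_algebraMap_mem_of_isIntegral {A₁ R B k : Type*} [CommRing A₁] [CommRing R]
    [CommRing B] [Algebra A₁ R] [Algebra A₁ B] [Algebra R B] [IsScalarTower A₁ R B]
    [Algebra.FiniteType A₁ R] [Algebra.IsIntegral R B] [Field k] [IsAlgClosed k] (res : A₁ →+* k)
    (hres : Function.Surjective res) {ϖ : A₁} (hker : RingHom.ker res = Ideal.span {ϖ})
    (𝔵 : Ideal B) (h𝔵 : 𝔵.IsMaximal) (hϖ : algebraMap A₁ B ϖ ∈ 𝔵) (b : B) :
    ∃ a : A₁, b - algebraMap A₁ B a ∈ 𝔵 := by
  haveI := h𝔵
  haveI : 𝔵.IsPrime := h𝔵.isPrime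
  set p : Ideal R := 𝔵.comap (algebraMap R B) with hp
  haveI hpmax : p.IsMaximal := Ideal.isMaximal_comap_of_isIntegral_of_isMaximal (R := R) 𝔵
  have hϖp : algebraMap A₁ R ϖ ∈ p := by
    rw [hp, Ideal.mem_comap, ← IsScalarTower.algebraMap_apply A₁ R B]
    exact hϖ
  -- the residue field of `R` at `p` is `k`
  let φ : A₁ →+* R ⧸ p := (Ideal.Quotient.mk p).comp (algebraMap A₁ R)
  have hφsurj : Function.Surjective φ := by
    intro x
    obtain ⟨r, rfl⟩ := Ideal.Quotient.mk_surjective x
    obtain ⟨a, ha⟩ := exists_sub_algebraMap_mem_of_finiteType res hres hker p hϖp r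
    exact ⟨a, (Ideal.Quotient.eq.mpr ha).symm⟩
  have hφker : RingHom.ker φ = RingHom.ker res := by
    apply le_antisymm
    · intro a ha
      rw [RingHom.mem_ker] at ha
      have : algebraMap A₁ R a ∈ p := Ideal.Quotient.eq_zero_iff_mem.mp ha
      rw [hker]
      exact mem_span_of_algebraMap_mem res hres hker p hpmax.ne_top hϖp this
    · rw [hker, Ideal.span_le, Set.singleton_subset_iff, SetLike.mem_coe, RingHom.mem_ker]
      exact Ideal.Quotient.eq_zero_iff_mem.mpr hϖp
  let e : (R ⧸ p) ≃+* k :=
    (RingHom.quotientKerEquivOfSurjective hφsurj).symm.trans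
      ((Ideal.quotEquivOfEq hφker).trans (RingHom.quotientKerEquivOfSurjective hres))
  obtain ⟨r, hr⟩ := H9.exists_sub_algebraMap_mem_of_isAlgClosed 𝔵 p rfl k e b
  obtain ⟨a, ha⟩ := exists_sub_algebraMap_mem_of_finiteType res hres hker p hϖp r
  refine ⟨a, ?_⟩
  have h2 : algebraMap R B (r - algebraMap A₁ R a) ∈ 𝔵 := ha
  rw [map_sub, ← IsScalarTower.algebraMap_apply A₁ R B] at h2
  have : b - algebraMap A₁ B a = (b - algebraMap R B r) + (algebraMap R B r - algebraMap A₁ B a) := by
    ring
  rw [this]
  exact 𝔵.add_mem hr h2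

end Zariski

/-! ### The special fibre of the base line -/

section SpecialFibre

variable {A₁ : Type*} [CommRing A₁] [IsDomain A₁] (f : A₁[X]) {k : Type*} [Field k]
  (res : A₁ →+* k) {ϖ : A₁}

namespace LineRing

theorem ne_zero_of_map_ne_zero (hf : f.map res ≠ 0) : f ≠ 0 := by
  rintro rfl; exact hf (Polynomial.map_zero res)

/-- `ϖ` is a prime element of `LineRing f`. -/
theorem prime_algebraMap (hker : RingHom.ker res = Ideal.span {ϖ}) (hϖ : ϖ ≠ 0)
    (hf : f.map res ≠ 0) : Prime (algebraMap A₁ (LineRing f) ϖ) := by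
  haveI hdom : IsDomain (LineRing (f.map res)) := isDomain _ hf
  have hprime : (RingHom.ker (red f res)).IsPrime := RingHom.ker_isPrime _
  rw [ker_red f res hker hf] at hprime
  have h0 : algebraMap A₁ (LineRing f) ϖ ≠ 0 := by
    intro h
    apply hϖ
    apply algebraMap_injective f (ne_zero_of_map_ne_zero f res hf)
    rw [h, map_zero]
  exact (Ideal.span_singleton_prime h0).mp hprime

/-- `LineRing f ⧸ (ϖ) ≃ k[μ, 1/f̄]`. -/
noncomputable def quotientEquiv (hres : Function.Surjective res)
    (hker : RingHom.ker res = Ideal.span {ϖ}) (hf : f.map res ≠ 0) :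
    (LineRing f ⧸ Ideal.span {algebraMap A₁ (LineRing f) ϖ}) ≃+* LineRing (f.map res) :=
  (Ideal.quotEquivOfEq (ker_red f res hker hf).symm).trans
    (RingHom.quotientKerEquivOfSurjective (red_surjective f res hres))

theorem quotientEquiv_mk (hres : Function.Surjective res)
    (hker : RingHom.ker res = Ideal.span {ϖ}) (hf : f.map res ≠ 0) (x : LineRing f) :
    quotientEquiv f res hres hker hf (Ideal.Quotient.mk _ x) = red f res x := rfl

/-- The special fibre `LineRing f ⧸ (ϖ)` is a principal ideal ring. -/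
theorem isPrincipalIdealRing_quotient (hres : Function.Surjective res)
    (hker : RingHom.ker res = Ideal.span {ϖ}) (hf : f.map res ≠ 0) :
    IsPrincipalIdealRing (LineRing f ⧸ Ideal.span {algebraMap A₁ (LineRing f) ϖ}) := by
  haveI : IsPrincipalIdealRing (LineRing (f.map res)) :=
    isPrincipalIdealRing_of_isLocalization (Submonoid.powers (f.map res)) _
  exact IsPrincipalIdealRing.of_surjective (quotientEquiv f res hres hker hf).symm.toRingHom
    (quotientEquiv f res hres hker hf).symm.surjective

/-- The special fibre is a domain. -/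
theorem isDomain_quotient (hres : Function.Surjective res)
    (hker : RingHom.ker res = Ideal.span {ϖ}) (hf : f.map res ≠ 0) :
    IsDomain (LineRing f ⧸ Ideal.span {algebraMap A₁ (LineRing f) ϖ}) := by
  haveI hdom : IsDomain (LineRing (f.map res)) := isDomain _ hf
  exact (quotientEquiv f res hres hker hf).toMulEquiv.isDomain _

/-- Congruences modulo `(ϖ, μ - a)`: every element is congruent to a constant. -/
theorem exists_sub_algebraMap_mem_span (hres : Function.Surjective res)
    (hker : RingHom.ker res = Ideal.span {ϖ}) {a : A₁} (hfa : res (f.eval a) ≠ 0)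
    (r : LineRing f) :
    ∃ a' : A₁, r - algebraMap A₁ (LineRing f) a' ∈
      Ideal.span {algebraMap A₁ (LineRing f) ϖ, coord f - algebraMap A₁ (LineRing f) a} := by
  set I : Ideal (LineRing f) :=
    Ideal.span {algebraMap A₁ (LineRing f) ϖ, coord f - algebraMap A₁ (LineRing f) a} with hI
  have hπI : algebraMap A₁ (LineRing f) ϖ ∈ I := Ideal.subset_span (Set.mem_insert _ _)
  have hμI : coord f - algebraMap A₁ (LineRing f) a ∈ I :=
    Ideal.subset_span (Set.mem_insert_of_mem _ rfl)
  -- polynomials in `μ` are congruent to their value at `a`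
  have hpoly : ∀ g : A₁[X], aeval (coord f) g - algebraMap A₁ (LineRing f) (g.eval a) ∈ I := by
    intro g
    have h1 := Polynomial.sub_dvd_eval_sub (coord f) (algebraMap A₁ (LineRing f) a)
      (g.map (algebraMap A₁ (LineRing f)))
    rw [eval_map_algebraMap, eval_map_algebraMap, aeval_algebraMap_apply_eq_algebraMap_eval] at h1
    obtain ⟨c, hc⟩ := h1
    rw [hc]
    exact I.mul_mem_right _ hμI
  -- the inverse of `f(μ)` is congruent to a constant
  obtain ⟨b, hb⟩ := hres (res (f.eval a))⁻¹
  have hb1 : f.eval a * b - 1 ∈ Ideal.span {ϖ} := by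
    rw [← hker, RingHom.mem_ker, map_sub, map_mul, hb, mul_inv_cancel₀ hfa, map_one, sub_self]
  have hb2 : algebraMap A₁ (LineRing f) (f.eval a * b - 1) ∈ I := by
    rw [Ideal.mem_span_singleton] at hb1
    obtain ⟨c, hc⟩ := hb1
    rw [hc, map_mul]
    exact I.mul_mem_right _ hπI
  have hinv : inv f - algebraMap A₁ (LineRing f) b ∈ I := by
    have e : inv f - algebraMap A₁ (LineRing f) b =
        -(inv f * algebraMap A₁ (LineRing f) b) *
            (aeval (coord f) f - algebraMap A₁ (LineRing f) (f.eval a))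
          - inv f * algebraMap A₁ (LineRing f) (f.eval a * b - 1) := by
      have h1 := inv_mul_aeval_coord f
      simp only [map_sub, map_mul, map_one]
      linear_combination (algebraMap A₁ (LineRing f) b) * h1
    rw [e]
    exact I.sub_mem (I.mul_mem_left _ (hpoly f)) (I.mul_mem_left _ hb2)
  obtain ⟨g, n, rfl⟩ := exists_eq_aeval_mul_inv_pow f r
  refine ⟨g.eval a * b ^ n, ?_⟩
  rw [← Ideal.Quotient.eq, map_mul, map_pow, map_mul, map_pow, map_mul, map_pow,
    Ideal.Quotient.eq.mpr (hpoly g), Ideal.Quotient.eq.mpr hinv]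

/-- **Closed points of the special fibre** (`hline`, first half, and residue fields): every maximal
ideal `p ∋ ϖ` of `LineRing f` is `(ϖ, μ - a)` with `a : A₁`, `f̄(ā) ≠ 0`, and its residue field
is `k`. -/
theorem exists_eq_span_of_isMaximal [IsAlgClosed k] (hres : Function.Surjective res)
    (hker : RingHom.ker res = Ideal.span {ϖ}) (p : Ideal (LineRing f)) (hp : p.IsMaximal)
    (hϖp : algebraMap A₁ (LineRing f) ϖ ∈ p) :
    ∃ a : A₁, res (f.eval a) ≠ 0 ∧
      p = Ideal.span {algebraMap A₁ (LineRing f) ϖ, coord f - algebraMap A₁ (LineRing f) a} ∧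
      ∀ r : LineRing f, ∃ a' : A₁, r - algebraMap A₁ (LineRing f) a' ∈ p := by
  haveI := hp
  have hZ := exists_sub_algebraMap_mem_of_finiteType res hres hker p hϖp
  obtain ⟨a, ha⟩ := hZ (coord f)
  have hfa : res (f.eval a) ≠ 0 := by
    intro h0
    -- then `f(a) ∈ (ϖ)`, so `f(μ) ∈ p`, but `f(μ)` is a unit
    have h1 : f.eval a ∈ Ideal.span {ϖ} := by rw [← hker, RingHom.mem_ker]; exact h0
    rw [Ideal.mem_span_singleton] at h1
    obtain ⟨c, hc⟩ := h1
    have h2 : algebraMap A₁ (LineRing f) (f.eval a) ∈ p := by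
      rw [hc, map_mul]; exact p.mul_mem_right _ hϖp
    have h3 : aeval (coord f) f - algebraMap A₁ (LineRing f) (f.eval a) ∈ p := by
      have h1 := Polynomial.sub_dvd_eval_sub (coord f) (algebraMap A₁ (LineRing f) a)
        (f.map (algebraMap A₁ (LineRing f)))
      rw [eval_map_algebraMap, eval_map_algebraMap,
        aeval_algebraMap_apply_eq_algebraMap_eval] at h1
      obtain ⟨c, hc⟩ := h1
      rw [hc]
      exact p.mul_mem_right _ ha
    have h4 : aeval (coord f) f ∈ p := by
      have := p.add_mem h3 h2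
      simpa using this
    exact hp.ne_top (Ideal.eq_top_of_isUnit_mem _ h4 (isUnit_aeval_coord f))
  refine ⟨a, hfa, ?_, hZ⟩
  apply le_antisymm
  · intro r hr
    obtain ⟨a', ha'⟩ := exists_sub_algebraMap_mem_span f res hres hker hfa r
    have hle : Ideal.span {algebraMap A₁ (LineRing f) ϖ,
        coord f - algebraMap A₁ (LineRing f) a} ≤ p := by
      rw [Ideal.span_le]
      rintro x (rfl | rfl)
      · exact hϖp
      · exact ha
    have h1 : algebraMap A₁ (LineRing f) a' ∈ p := by
      have := p.sub_mem hr (hle ha')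
      simpa using this
    have h2 := mem_span_of_algebraMap_mem res hres hker p hp.ne_top hϖp h1
    rw [Ideal.mem_span_singleton] at h2
    obtain ⟨c, rfl⟩ := h2
    have h3 : algebraMap A₁ (LineRing f) (ϖ * c) ∈ Ideal.span {algebraMap A₁ (LineRing f) ϖ,
        coord f - algebraMap A₁ (LineRing f) a} := by
      rw [map_mul]
      exact Ideal.mul_mem_right _ _ (Ideal.subset_span (Set.mem_insert _ _))
    have := Ideal.add_mem _ ha' h3
    simpa using this
  · rw [Ideal.span_le]
    rintro x (rfl | rfl)
    · exact hϖp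
    · exact ha

/-- `hline` (first half) in the literal shape of `H67.isIntegrallyClosed_special_fibre`. -/
theorem exists_eq_span_pair [IsAlgClosed k] (hres : Function.Surjective res)
    (hker : RingHom.ker res = Ideal.span {ϖ}) (p : Ideal (LineRing f)) (hp : p.IsMaximal)
    (hϖp : algebraMap A₁ (LineRing f) ϖ ∈ p) :
    ∃ g : LineRing f, p = Ideal.span {algebraMap A₁ (LineRing f) ϖ, g} := by
  obtain ⟨a, -, h, -⟩ := exists_eq_span_of_isMaximal f res hres hker p hp hϖp
  exact ⟨_, h⟩

/-- Conversely `(ϖ, μ - a)` is a maximal ideal when `f̄(ā) ≠ 0`. -/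
theorem isMaximal_span (hres : Function.Surjective res)
    (hker : RingHom.ker res = Ideal.span {ϖ}) {a : A₁} (hfa : res (f.eval a) ≠ 0) :
    (Ideal.span {algebraMap A₁ (LineRing f) ϖ,
      coord f - algebraMap A₁ (LineRing f) a}).IsMaximal := by
  set I : Ideal (LineRing f) :=
    Ideal.span {algebraMap A₁ (LineRing f) ϖ, coord f - algebraMap A₁ (LineRing f) a} with hI
  -- the evaluation `μ ↦ ā` kills `I`
  have hu : IsUnit (f.eval₂ res (res a)) := by
    rw [eval₂_at_apply]; exact IsUnit.mk0 _ hfa
  let ev : LineRing f →+* k := lift f res (res a) hu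
  have hIev : I ≤ RingHom.ker ev := by
    rw [hI, Ideal.span_le]
    rintro x (rfl | rfl)
    · rw [SetLike.mem_coe, RingHom.mem_ker, lift_algebraMap]
      have : ϖ ∈ RingHom.ker res := by rw [hker]; exact Ideal.mem_span_singleton_self ϖ
      exact this
    · rw [SetLike.mem_coe, RingHom.mem_ker, map_sub, lift_coord, lift_algebraMap, sub_self]
  have hne : I ≠ ⊤ := by
    intro h
    have : (1 : LineRing f) ∈ RingHom.ker ev := hIev (h ▸ Submodule.mem_top)
    rw [RingHom.mem_ker, map_one] at this
    exact one_ne_zero this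
  rw [Ideal.isMaximal_iff]
  refine ⟨fun h => hne ((Ideal.eq_top_iff_one _).mpr h), fun J x hIJ hxI hxJ => ?_⟩
  obtain ⟨a', ha'⟩ := exists_sub_algebraMap_mem_span f res hres hker hfa x
  have h1 : algebraMap A₁ (LineRing f) a' ∈ J := by
    have := J.sub_mem hxJ (hIJ ha')
    simpa using this
  have h2 : res a' ≠ 0 := by
    intro h0
    apply hxI
    have h3 : a' ∈ Ideal.span {ϖ} := by rw [← hker, RingHom.mem_ker]; exact h0
    rw [Ideal.mem_span_singleton] at h3
    obtain ⟨c, rfl⟩ := h3
    have h4 : algebraMap A₁ (LineRing f) (ϖ * c) ∈ I := by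
      rw [map_mul]
      exact Ideal.mul_mem_right _ _ (Ideal.subset_span (Set.mem_insert _ _))
    have := I.add_mem ha' h4
    simpa using this
  obtain ⟨b, hb⟩ := hres (res a')⁻¹
  have h3 : a' * b - 1 ∈ Ideal.span {ϖ} := by
    rw [← hker, RingHom.mem_ker, map_sub, map_mul, hb, mul_inv_cancel₀ h2, map_one, sub_self]
  rw [Ideal.mem_span_singleton] at h3
  obtain ⟨c, hc⟩ := h3
  have h5 : (1 : LineRing f) = algebraMap A₁ (LineRing f) a' * algebraMap A₁ (LineRing f) b
      - algebraMap A₁ (LineRing f) ϖ * algebraMap A₁ (LineRing f) c := by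
    rw [← map_mul, ← map_mul, ← map_sub, ← hc]; simp
  rw [h5]
  exact J.sub_mem (J.mul_mem_right _ h1)
    (J.mul_mem_right _ (hIJ (Ideal.subset_span (Set.mem_insert _ _))))

end LineRing

end SpecialFibre

end Fermat.Agent.S18.H26
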