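import Mathlib
import Fermat.Agent.S18.H26_AuxCover
import Fermat.Agent.S18.H26_BaseLine

/-!
# S18 / (GR) route Q, INST-4: the Hesse line `A₁[μ, 1/(μ³-1)]` and the Legendre line
`A₁[λ, 1/(λ(λ-1))]`

Instances of `LineRing f` for `f = X^3 - 1` and `f = X * (X - 1)`: the `j`-element, its image under
any ring hom to a field, integrality of the line over `A₁[j]`.
-/

set_option autoImplicit false
set_option linter.unusedSectionVars false
set_option linter.style.haveILetI false

open Polynomial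

namespace Fermat.Agent.S18.H26

/-! ## Generic helpers: integral closures and generation -/

section GenericHelpers

theorem isIntegral_iff_isIntegral_adjoin {A₁ R E : Type*} [CommRing A₁] [CommRing R] [CommRing E]
    [Algebra A₁ R] [Algebra A₁ E] [Algebra R E] [IsScalarTower A₁ R E] (jR : R)
    (hint : ∀ r : R, IsIntegral (Algebra.adjoin A₁ {jR}) r) (x : E) :
    IsIntegral R x ↔ IsIntegral (Algebra.adjoin A₁ {algebraMap R E jR}) x := by
  set TR : Subalgebra A₁ R := Algebra.adjoin A₁ {jR} with hTR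
  set T : Subalgebra A₁ E := Algebra.adjoin A₁ {algebraMap R E jR} with hT
  haveI : Algebra.IsIntegral TR R := ⟨hint⟩
  -- the comparison map `TR → T`
  have hmap : TR.map (IsScalarTower.toAlgHom A₁ R E) = T := by
    rw [hTR, hT, AlgHom.map_adjoin, Set.image_singleton]; rfl
  have hmem : ∀ t : TR, algebraMap R E (t : R) ∈ T := by
    intro t
    rw [← hmap]
    exact ⟨t, t.2, rfl⟩
  let ι : TR →+* T :=
    { toFun := fun t => ⟨algebraMap R E (t : R), hmem t⟩
      map_one' := by ext; simp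
      map_mul' := fun a b => by ext; simp
      map_zero' := by ext; simp
      map_add' := fun a b => by ext; simp }
  have hι : Function.Surjective ι := by
    rintro ⟨y, hy⟩
    rw [← hmap] at hy
    obtain ⟨r, hr, rfl⟩ := hy
    exact ⟨⟨r, hr⟩, rfl⟩
  letI : Algebra TR T := ι.toAlgebra
  haveI : IsScalarTower TR T E := IsScalarTower.of_algebraMap_eq fun t => rfl
  constructor
  · intro hx
    have h1 : IsIntegral TR x := isIntegral_trans x hx
    exact h1.tower_top
  · intro hx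
    obtain ⟨p, hp, hpx⟩ := hx
    have hlift : p ∈ Polynomial.lifts ι := by
      rw [Polynomial.lifts_iff_coeff_lifts]
      intro n
      exact hι (p.coeff n)
    obtain ⟨q, hq, -, hqm⟩ := Polynomial.lifts_and_natDegree_eq_and_monic hlift hp
    have h1 : IsIntegral TR x := by
      refine ⟨q, hqm, ?_⟩
      rw [← hpx, ← hq, Polynomial.eval₂_map]
      rfl
    exact h1.tower_top


theorem adjoin_eq_top_of_adjoin_pair_eq_top {A₁ L1 E K R : Type*} [CommRing A₁] [Field L1]
    [Algebra A₁ L1] [IsFractionRing A₁ L1] [Field E] [Algebra A₁ E] [Algebra L1 E]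
    [IsScalarTower A₁ L1 E] [CommRing R] [Algebra A₁ R] [Algebra R E] [IsScalarTower A₁ R E]
    [Field K] [Algebra R K] [Algebra K E] [IsScalarTower R K E]
    (μ : E) (hμ : μ ∈ (algebraMap R E).range) (θ : E)
    (h : IntermediateField.adjoin L1 {μ, θ} = ⊤) : IntermediateField.adjoin K {θ} = ⊤ := by
  set S : Subfield E := (IntermediateField.adjoin K {θ}).toSubfield with hS
  have hK : ∀ x : K, algebraMap K E x ∈ S := fun x =>
    (IntermediateField.adjoin K {θ}).algebraMap_mem x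
  have hR : ∀ r : R, algebraMap R E r ∈ S := fun r => by
    rw [IsScalarTower.algebraMap_apply R K E]; exact hK _
  have hA : ∀ a : A₁, algebraMap A₁ E a ∈ S := fun a => by
    rw [IsScalarTower.algebraMap_apply A₁ R E]; exact hR _
  have hL : ∀ c : L1, algebraMap L1 E c ∈ S := by
    intro c
    obtain ⟨a, b, -, rfl⟩ := IsFractionRing.div_surjective (A := A₁) c
    rw [map_div₀, ← IsScalarTower.algebraMap_apply A₁ L1 E, ← IsScalarTower.algebraMap_apply A₁ L1 E]
    exact S.div_mem (hA a) (hA b)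
  let F' : IntermediateField L1 E := S.toIntermediateField hL
  have hle : IntermediateField.adjoin L1 {μ, θ} ≤ F' := by
    rw [IntermediateField.adjoin_le_iff]
    rintro x (rfl | rfl)
    · obtain ⟨r, rfl⟩ := hμ
      exact hR r
    · exact IntermediateField.mem_adjoin_simple_self K x
  rw [h] at hle
  rw [eq_top_iff]
  intro x _
  exact hle (IntermediateField.mem_top : x ∈ (⊤ : IntermediateField L1 E))

end GenericHelpers

/-! ## Hesse -/

section Hesse

variable (A₁ : Type*) [CommRing A₁]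

/-- `X^3 - 1`. -/
noncomputable def hesLineF : A₁[X] := X ^ 3 - 1

/-- The Hesse line `A₁[μ, 1/(μ³-1)]`. -/
abbrev HesLine : Type _ := LineRing (hesLineF A₁)

variable {A₁}

@[simp]
theorem hesLineF_map {S : Type*} [CommRing S] (φ : A₁ →+* S) :
    (hesLineF A₁).map φ = hesLineF S := by
  simp [hesLineF]

@[simp]
theorem eval_hesLineF (a : A₁) : (hesLineF A₁).eval a = a ^ 3 - 1 := by
  simp [hesLineF]

@[simp]
theorem eval₂_hesLineF {S : Type*} [CommRing S] (φ : A₁ →+* S) (a : S) :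
    (hesLineF A₁).eval₂ φ a = a ^ 3 - 1 := by
  simp [hesLineF]

@[simp]
theorem aeval_hesLineF {S : Type*} [CommRing S] [Algebra A₁ S] (a : S) :
    aeval a (hesLineF A₁) = a ^ 3 - 1 := by
  simp [hesLineF]

theorem hesLineF_ne_zero [Nontrivial A₁] : hesLineF A₁ ≠ 0 := by
  intro h
  have := congrArg (Polynomial.eval (0 : A₁)) h
  simp at this

namespace HesLine

variable (A₁)

/-- `μ`. -/
noncomputable def mu : HesLine A₁ := LineRing.coord (hesLineF A₁)

/-- `w = 1/(μ³ - 1)`. -/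
noncomputable def w : HesLine A₁ := LineRing.inv (hesLineF A₁)

theorem w_mul : w A₁ * (mu A₁ ^ 3 - 1) = 1 := by
  have := LineRing.inv_mul_aeval_coord (hesLineF A₁)
  rwa [aeval_hesLineF] at this

/-- `j/27 = μ³(μ³+8)³/(μ³-1)³ ∈ R_Y`. -/
noncomputable def cY : HesLine A₁ := hesA (mu A₁) * w A₁ ^ 3

/-- The `j`-function `27 μ³(μ³+8)³/(μ³-1)³ ∈ R_Y`. -/
noncomputable def jY : HesLine A₁ := 27 * cY A₁

theorem hesA_mu : hesA (mu A₁) = cY A₁ * hesB (mu A₁) := by
  unfold cY hesB
  have h := w_mul A₁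
  have : (w A₁ * (mu A₁ ^ 3 - 1)) ^ 3 = 1 := by rw [h, one_pow]
  linear_combination (-hesA (mu A₁)) * this

variable {A₁}

/-- The image of `jY` under any ring hom to a field is `hesJ` of the image of `μ`. -/
theorem map_jY {E : Type*} [Field E] (ψ : HesLine A₁ →+* E) : ψ (jY A₁) = hesJ (ψ (mu A₁)) := by
  have h := congrArg ψ (w_mul A₁)
  rw [map_mul, map_sub, map_pow, map_one] at h
  have hne : ψ (mu A₁) ^ 3 - 1 ≠ 0 := right_ne_zero_of_mul_eq_one h
  have hw : ψ (w A₁) = (ψ (mu A₁) ^ 3 - 1)⁻¹ := eq_inv_of_mul_eq_one_left h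
  unfold jY cY
  rw [map_mul, map_mul, map_pow, hw, map_ofNat]
  have hA : ψ (hesA (mu A₁)) = hesA (ψ (mu A₁)) := by
    unfold hesA; simp [map_ofNat]
  rw [hA]
  unfold hesJ hesB
  field_simp

theorem lift_jY {E : Type*} [Field E] (φ : A₁ →+* E) (μ : E)
    (h : IsUnit ((hesLineF A₁).eval₂ φ μ)) :
    LineRing.lift (hesLineF A₁) φ μ h (jY A₁) = hesJ μ := by
  rw [map_jY, mu, LineRing.lift_coord]

theorem liftAlg_jY {E : Type*} [Field E] [Algebra A₁ E] (μ : E)
    (h : IsUnit (aeval μ (hesLineF A₁))) :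
    LineRing.liftAlg (hesLineF A₁) μ h (jY A₁) = hesJ μ := by
  have := map_jY (LineRing.liftAlg (hesLineF A₁) μ h).toRingHom
  simpa [mu] using this

end HesLine

/-- Ring-level integrality: if `w (m³ - 1) = 1` and `3` is invertible in `A₁` then `m` and `w` are
integral over `A₁[j]`, `j = 27 hesA m w³`. -/
theorem isIntegral_hes_of_isUnit_three {S : Type*} [CommRing S] [Algebra A₁ S] (h3 : IsUnit (3 : A₁))
    (m w' : S) (hw : w' * (m ^ 3 - 1) = 1) :
    IsIntegral (Algebra.adjoin A₁ {27 * (hesA m * w' ^ 3)}) m ∧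
      IsIntegral (Algebra.adjoin A₁ {27 * (hesA m * w' ^ 3)}) w' := by
  obtain ⟨u, hu⟩ := h3
  set T := Algebra.adjoin A₁ {27 * (hesA m * w' ^ 3)} with hT
  have hjT : 27 * (hesA m * w' ^ 3) ∈ T := Algebra.subset_adjoin rfl
  -- `c = j / 27`
  have h27 : algebraMap A₁ S ((↑(u⁻¹ ^ 3) : A₁)) * 27 = 1 := by
    have : ((↑(u⁻¹ ^ 3) : A₁)) * 27 = 1 := by
      have h1 : (27 : A₁) = (u : A₁) ^ 3 := by rw [hu]; norm_num
      rw [h1, ← Units.val_pow_eq_pow_val, ← Units.val_mul, ← mul_pow, inv_mul_cancel, one_pow,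
        Units.val_one]
    rw [← map_ofNat (algebraMap A₁ S) 27, ← map_mul, this, map_one]
  have h9 : (9 : S) * algebraMap A₁ S ((↑(u⁻¹ ^ 2) : A₁)) = 1 := by
    have : (9 : A₁) * ((↑(u⁻¹ ^ 2) : A₁)) = 1 := by
      have h1 : (9 : A₁) = (u : A₁) ^ 2 := by rw [hu]; norm_num
      rw [h1, ← Units.val_pow_eq_pow_val, ← Units.val_mul, ← mul_pow, mul_inv_cancel, one_pow,
        Units.val_one]
    rw [← map_ofNat (algebraMap A₁ S) 9, ← map_mul, this, map_one]
  have hcT : hesA m * w' ^ 3 ∈ T := by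
    have : hesA m * w' ^ 3 = algebraMap A₁ S ((↑(u⁻¹ ^ 3) : A₁)) * (27 * (hesA m * w' ^ 3)) := by
      linear_combination (-(hesA m * w' ^ 3)) * h27
    rw [this]
    exact T.mul_mem (T.algebraMap_mem _) hjT
  have hrel : hesA m = (hesA m * w' ^ 3) * hesB m := by
    unfold hesB
    have : (w' * (m ^ 3 - 1)) ^ 3 = 1 := by rw [hw, one_pow]
    linear_combination (-hesA m) * this
  refine ⟨isIntegral_hes_param T m ⟨_, hcT⟩ hrel,
    isIntegral_hes_inv T m w' ⟨_, hcT⟩ ⟨_, T.algebraMap_mem ((↑(u⁻¹ ^ 2) : A₁))⟩ h9 hw hrel⟩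

namespace HesLine

/-- `R_Y` is integral over `A₁[jY]` (Hesse; `3` invertible). -/
theorem isIntegral_adjoin_jY (h3 : IsUnit (3 : A₁)) (r : HesLine A₁) :
    IsIntegral (Algebra.adjoin A₁ {jY A₁}) r := by
  obtain ⟨hm, hw⟩ := isIntegral_hes_of_isUnit_three h3 (mu A₁) (w A₁) (w_mul A₁)
  have hm' : IsIntegral (Algebra.adjoin A₁ {jY A₁}) (mu A₁) := hm
  have hw' : IsIntegral (Algebra.adjoin A₁ {jY A₁}) (w A₁) := hw
  have hid : ∀ x : HesLine A₁,
      LineRing.liftAlg (hesLineF A₁) (mu A₁) (LineRing.isUnit_aeval_coord _) x = x := by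
    intro x
    have : (LineRing.liftAlg (hesLineF A₁) (mu A₁) (LineRing.isUnit_aeval_coord _)).toRingHom
        = RingHom.id _ := by
      apply LineRing.ringHom_ext
      · intro a; simp
      · simp [mu]
    exact congrArg (fun ψ : HesLine A₁ →+* HesLine A₁ => ψ x) this
  have := LineRing.isIntegral_liftAlg (hesLineF A₁) (mu A₁) (LineRing.isUnit_aeval_coord _)
    (T := Algebra.adjoin A₁ {jY A₁}) hm' (by rw [hid]; exact hw') r
  rwa [hid] at this

/-- In a field `E ∋ μ`: the image of `R_Y` is integral over `A₁[hesJ μ]`. -/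
theorem isIntegral_liftAlg_adjoin_hesJ {E : Type*} [Field E] [Algebra A₁ E] (h3 : IsUnit (3 : A₁))
    (μ : E) (h : IsUnit (aeval μ (hesLineF A₁))) (r : HesLine A₁) :
    IsIntegral (Algebra.adjoin A₁ {hesJ μ}) (LineRing.liftAlg (hesLineF A₁) μ h r) := by
  have hw0 := LineRing.liftAlg_inv_mul (hesLineF A₁) μ h
  rw [aeval_hesLineF] at hw0
  obtain ⟨hm, hw⟩ := isIntegral_hes_of_isUnit_three h3 μ _ hw0
  have hj : 27 * (hesA μ * (LineRing.liftAlg (hesLineF A₁) μ h (LineRing.inv (hesLineF A₁))) ^ 3)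
      = hesJ μ := by
    have hne : μ ^ 3 - 1 ≠ 0 := right_ne_zero_of_mul_eq_one hw0
    rw [eq_inv_of_mul_eq_one_left hw0]
    unfold hesJ hesB
    field_simp
  rw [hj] at hm hw
  exact LineRing.isIntegral_liftAlg (hesLineF A₁) μ h hm hw r

/-- **`B' = integral closure of `R_Y` in `E` = integral closure of `A₁[hesJ μ]` in `E`.** -/
theorem isIntegral_iff {E : Type*} [Field E] [Algebra A₁ E] (h3 : IsUnit (3 : A₁))
    (μ : E) (h : IsUnit (aeval μ (hesLineF A₁))) (x : E) :
    letI := LineRing.algebraOfCoord (hesLineF A₁) μ h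
    IsIntegral (HesLine A₁) x ↔ IsIntegral (Algebra.adjoin A₁ {hesJ μ}) x := by
  letI := LineRing.algebraOfCoord (hesLineF A₁) μ h
  haveI := LineRing.isScalarTower_algebraOfCoord (hesLineF A₁) μ h
  have := isIntegral_iff_isIntegral_adjoin (A₁ := A₁) (E := E) (jY A₁) (isIntegral_adjoin_jY h3) x
  rwa [LineRing.algebraMap_algebraOfCoord, liftAlg_jY] at this

/-! ### The special fibre of the Hesse line -/

section HesSpecial

variable {k : Type*} [Field k] (res : A₁ →+* k) {ϖ : A₁}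

theorem map_ne_zero : (hesLineF A₁).map res ≠ 0 := by
  rw [hesLineF_map]; exact hesLineF_ne_zero

/-- `φ(jY) = hesJ(μ̄)` in `k(μ̄)`. -/
theorem toRatFunc_jY :
    LineRing.toRatFunc (hesLineF A₁) res (map_ne_zero res) (jY A₁) = hesJ (RatFunc.X : RatFunc k) := by
  rw [map_jY, mu, LineRing.toRatFunc_coord]

theorem red_jY : LineRing.red (hesLineF A₁) res (jY A₁) =
    27 * (hesA (LineRing.coord ((hesLineF A₁).map res)) *
      LineRing.inv ((hesLineF A₁).map res) ^ 3) := by
  unfold jY cY mu w hesA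
  simp only [map_mul, map_pow, map_add, map_ofNat, LineRing.red_coord, LineRing.red_inv]

/-- Closed points of the special fibre of the Hesse line: `(ϖ, μ - a)` with `ā³ ≠ 1`. -/
theorem exists_eq_span_of_isMaximal [IsDomain A₁] [IsAlgClosed k] (hres : Function.Surjective res)
    (hker : RingHom.ker res = Ideal.span {ϖ}) (p : Ideal (HesLine A₁)) (hp : p.IsMaximal)
    (hϖp : algebraMap A₁ (HesLine A₁) ϖ ∈ p) :
    ∃ a : A₁, res a ^ 3 ≠ 1 ∧
      p = Ideal.span {algebraMap A₁ (HesLine A₁) ϖ, mu A₁ - algebraMap A₁ (HesLine A₁) a} ∧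
      ∀ r : HesLine A₁, ∃ a' : A₁, r - algebraMap A₁ (HesLine A₁) a' ∈ p := by
  obtain ⟨a, ha, hp', hr⟩ :=
    LineRing.exists_eq_span_of_isMaximal (hesLineF A₁) res hres hker p hp hϖp
  refine ⟨a, ?_, hp', hr⟩
  rw [eval_hesLineF, map_sub, map_pow, map_one] at ha
  exact fun h => ha (by rw [h, sub_self])

end HesSpecial

end HesLine

end Hesse

/-! ## Legendre -/

section Legendre

variable (A₁ : Type*) [CommRing A₁]

/-- `X (X - 1)`. -/
noncomputable def legLineF : A₁[X] := X * (X - 1)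

/-- The Legendre line `A₁[λ, 1/(λ(λ-1))]`. -/
abbrev LegLine : Type _ := LineRing (legLineF A₁)

variable {A₁}

@[simp]
theorem legLineF_map {S : Type*} [CommRing S] (φ : A₁ →+* S) :
    (legLineF A₁).map φ = legLineF S := by
  simp [legLineF]

@[simp]
theorem eval_legLineF (a : A₁) : (legLineF A₁).eval a = a * (a - 1) := by
  simp [legLineF]

@[simp]
theorem eval₂_legLineF {S : Type*} [CommRing S] (φ : A₁ →+* S) (a : S) :
    (legLineF A₁).eval₂ φ a = a * (a - 1) := by
  simp [legLineF]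

@[simp]
theorem aeval_legLineF {S : Type*} [CommRing S] [Algebra A₁ S] (a : S) :
    aeval a (legLineF A₁) = a * (a - 1) := by
  simp [legLineF]

theorem legLineF_ne_zero [Nontrivial A₁] : legLineF A₁ ≠ 0 := by
  have : legLineF A₁ = X * (X - C 1) := by simp [legLineF]
  rw [this]
  exact (monic_X.mul (monic_X_sub_C (1 : A₁))).ne_zero

namespace LegLine

variable (A₁)

/-- `λ`. -/
noncomputable def lam : LegLine A₁ := LineRing.coord (legLineF A₁)

/-- `u = 1/(λ(λ-1))`. -/
noncomputable def u : LegLine A₁ := LineRing.inv (legLineF A₁)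

theorem u_mul : u A₁ * (lam A₁ * (lam A₁ - 1)) = 1 := by
  have := LineRing.inv_mul_aeval_coord (legLineF A₁)
  rwa [aeval_legLineF] at this

/-- `j/256 = (λ²-λ+1)³/(λ²(λ-1)²) ∈ R_Y`. -/
noncomputable def cY : LegLine A₁ := legA (lam A₁) ^ 3 * u A₁ ^ 2

/-- The `j`-function `256 (λ²-λ+1)³/(λ²(λ-1)²) ∈ R_Y`. -/
noncomputable def jY : LegLine A₁ := 256 * cY A₁

theorem legA_lam : legA (lam A₁) ^ 3 = cY A₁ * legB (lam A₁) := by
  unfold cY legB
  have h := u_mul A₁
  have : (u A₁ * (lam A₁ * (lam A₁ - 1))) ^ 2 = 1 := by rw [h, one_pow]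
  linear_combination (-legA (lam A₁) ^ 3) * this

variable {A₁}

/-- The image of `jY` under any ring hom to a field is `legJ` of the image of `λ`. -/
theorem map_jY {E : Type*} [Field E] (ψ : LegLine A₁ →+* E) : ψ (jY A₁) = legJ (ψ (lam A₁)) := by
  have h := congrArg ψ (u_mul A₁)
  rw [map_mul, map_mul, map_sub, map_one] at h
  have hne : ψ (lam A₁) * (ψ (lam A₁) - 1) ≠ 0 := right_ne_zero_of_mul_eq_one h
  have hu : ψ (u A₁) = (ψ (lam A₁) * (ψ (lam A₁) - 1))⁻¹ := eq_inv_of_mul_eq_one_left h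
  have h0 : ψ (lam A₁) ≠ 0 := left_ne_zero_of_mul hne
  have h1 : ψ (lam A₁) - 1 ≠ 0 := right_ne_zero_of_mul hne
  unfold jY cY
  rw [map_mul, map_mul, map_pow, map_pow, hu, map_ofNat]
  have hA : ψ (legA (lam A₁)) = legA (ψ (lam A₁)) := by
    unfold legA; simp
  rw [hA]
  unfold legJ legB
  field_simp

theorem lift_jY {E : Type*} [Field E] (φ : A₁ →+* E) (l : E)
    (h : IsUnit ((legLineF A₁).eval₂ φ l)) :
    LineRing.lift (legLineF A₁) φ l h (jY A₁) = legJ l := by
  rw [map_jY, lam, LineRing.lift_coord]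

theorem liftAlg_jY {E : Type*} [Field E] [Algebra A₁ E] (l : E)
    (h : IsUnit (aeval l (legLineF A₁))) :
    LineRing.liftAlg (legLineF A₁) l h (jY A₁) = legJ l := by
  have := map_jY (LineRing.liftAlg (legLineF A₁) l h).toRingHom
  simpa [lam] using this

end LegLine

/-- Ring-level integrality: if `u (l (l - 1)) = 1` and `2` is invertible in `A₁` then `l` and `u`
are integral over `A₁[j]`, `j = 256 legA l ^ 3 u²`. -/
theorem isIntegral_leg_of_isUnit_two {S : Type*} [CommRing S] [Algebra A₁ S] (h2 : IsUnit (2 : A₁))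
    (l u' : S) (hu : u' * (l * (l - 1)) = 1) :
    IsIntegral (Algebra.adjoin A₁ {256 * (legA l ^ 3 * u' ^ 2)}) l ∧
      IsIntegral (Algebra.adjoin A₁ {256 * (legA l ^ 3 * u' ^ 2)}) u' := by
  obtain ⟨v, hv⟩ := h2
  set T := Algebra.adjoin A₁ {256 * (legA l ^ 3 * u' ^ 2)} with hT
  have hjT : 256 * (legA l ^ 3 * u' ^ 2) ∈ T := Algebra.subset_adjoin rfl
  have h256 : algebraMap A₁ S ((↑(v⁻¹ ^ 8) : A₁)) * 256 = 1 := by
    have : ((↑(v⁻¹ ^ 8) : A₁)) * 256 = 1 := by
      have h1 : (256 : A₁) = (v : A₁) ^ 8 := by rw [hv]; norm_num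
      rw [h1, ← Units.val_pow_eq_pow_val, ← Units.val_mul, ← mul_pow, inv_mul_cancel, one_pow,
        Units.val_one]
    rw [← map_ofNat (algebraMap A₁ S) 256, ← map_mul, this, map_one]
  have hcT : legA l ^ 3 * u' ^ 2 ∈ T := by
    have : legA l ^ 3 * u' ^ 2 =
        algebraMap A₁ S ((↑(v⁻¹ ^ 8) : A₁)) * (256 * (legA l ^ 3 * u' ^ 2)) := by
      linear_combination (-(legA l ^ 3 * u' ^ 2)) * h256
    rw [this]
    exact T.mul_mem (T.algebraMap_mem _) hjT
  have hrel : legA l ^ 3 = (legA l ^ 3 * u' ^ 2) * legB l := by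
    unfold legB
    have : (u' * (l * (l - 1))) ^ 2 = 1 := by rw [hu, one_pow]
    linear_combination (-legA l ^ 3) * this
  exact ⟨isIntegral_leg_param T l ⟨_, hcT⟩ hrel, isIntegral_leg_inv T l u' ⟨_, hcT⟩ hu hrel⟩

namespace LegLine

/-- `R_Y` is integral over `A₁[jY]` (Legendre; `2` invertible). -/
theorem isIntegral_adjoin_jY (h2 : IsUnit (2 : A₁)) (r : LegLine A₁) :
    IsIntegral (Algebra.adjoin A₁ {jY A₁}) r := by
  obtain ⟨hm, hw⟩ := isIntegral_leg_of_isUnit_two h2 (lam A₁) (u A₁) (u_mul A₁)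
  have hm' : IsIntegral (Algebra.adjoin A₁ {jY A₁}) (lam A₁) := hm
  have hw' : IsIntegral (Algebra.adjoin A₁ {jY A₁}) (u A₁) := hw
  have hid : ∀ x : LegLine A₁,
      LineRing.liftAlg (legLineF A₁) (lam A₁) (LineRing.isUnit_aeval_coord _) x = x := by
    intro x
    have : (LineRing.liftAlg (legLineF A₁) (lam A₁) (LineRing.isUnit_aeval_coord _)).toRingHom
        = RingHom.id _ := by
      apply LineRing.ringHom_ext
      · intro a; simp
      · simp [lam]
    exact congrArg (fun ψ : LegLine A₁ →+* LegLine A₁ => ψ x) this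
  have := LineRing.isIntegral_liftAlg (legLineF A₁) (lam A₁) (LineRing.isUnit_aeval_coord _)
    (T := Algebra.adjoin A₁ {jY A₁}) hm' (by rw [hid]; exact hw') r
  rwa [hid] at this

/-- In a field `E ∋ λ`: the image of `R_Y` is integral over `A₁[legJ λ]`. -/
theorem isIntegral_liftAlg_adjoin_legJ {E : Type*} [Field E] [Algebra A₁ E] (h2 : IsUnit (2 : A₁))
    (l : E) (h : IsUnit (aeval l (legLineF A₁))) (r : LegLine A₁) :
    IsIntegral (Algebra.adjoin A₁ {legJ l}) (LineRing.liftAlg (legLineF A₁) l h r) := by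
  have hw0 := LineRing.liftAlg_inv_mul (legLineF A₁) l h
  rw [aeval_legLineF] at hw0
  obtain ⟨hm, hw⟩ := isIntegral_leg_of_isUnit_two h2 l _ hw0
  have hj : 256 * (legA l ^ 3 *
      (LineRing.liftAlg (legLineF A₁) l h (LineRing.inv (legLineF A₁))) ^ 2) = legJ l := by
    have hne : l * (l - 1) ≠ 0 := right_ne_zero_of_mul_eq_one hw0
    have h0 : l ≠ 0 := left_ne_zero_of_mul hne
    have h1 : l - 1 ≠ 0 := right_ne_zero_of_mul hne
    rw [eq_inv_of_mul_eq_one_left hw0]
    unfold legJ legB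
    field_simp
  rw [hj] at hm hw
  exact LineRing.isIntegral_liftAlg (legLineF A₁) l h hm hw r

/-- **`B' = integral closure of `R_Y` in `E` = integral closure of `A₁[legJ λ]` in `E`.** -/
theorem isIntegral_iff {E : Type*} [Field E] [Algebra A₁ E] (h2 : IsUnit (2 : A₁))
    (l : E) (h : IsUnit (aeval l (legLineF A₁))) (x : E) :
    letI := LineRing.algebraOfCoord (legLineF A₁) l h
    IsIntegral (LegLine A₁) x ↔ IsIntegral (Algebra.adjoin A₁ {legJ l}) x := by
  letI := LineRing.algebraOfCoord (legLineF A₁) l h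
  haveI := LineRing.isScalarTower_algebraOfCoord (legLineF A₁) l h
  have := isIntegral_iff_isIntegral_adjoin (A₁ := A₁) (E := E) (jY A₁) (isIntegral_adjoin_jY h2) x
  rwa [LineRing.algebraMap_algebraOfCoord, liftAlg_jY] at this

section LegSpecial

variable {k : Type*} [Field k] (res : A₁ →+* k) {ϖ : A₁}

theorem map_ne_zero : (legLineF A₁).map res ≠ 0 := by
  rw [legLineF_map]; exact legLineF_ne_zero

/-- `φ(jY) = legJ(λ̄)` in `k(λ̄)`. -/
theorem toRatFunc_jY :
    LineRing.toRatFunc (legLineF A₁) res (map_ne_zero res) (jY A₁) = legJ (RatFunc.X : RatFunc k) := by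
  rw [map_jY, lam, LineRing.toRatFunc_coord]

/-- Closed points of the special fibre of the Legendre line: `(ϖ, λ - a)` with `ā ≠ 0, 1`. -/
theorem exists_eq_span_of_isMaximal [IsDomain A₁] [IsAlgClosed k] (hres : Function.Surjective res)
    (hker : RingHom.ker res = Ideal.span {ϖ}) (p : Ideal (LegLine A₁)) (hp : p.IsMaximal)
    (hϖp : algebraMap A₁ (LegLine A₁) ϖ ∈ p) :
    ∃ a : A₁, res a ≠ 0 ∧ res a ≠ 1 ∧
      p = Ideal.span {algebraMap A₁ (LegLine A₁) ϖ, lam A₁ - algebraMap A₁ (LegLine A₁) a} ∧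
      ∀ r : LegLine A₁, ∃ a' : A₁, r - algebraMap A₁ (LegLine A₁) a' ∈ p := by
  obtain ⟨a, ha, hp', hr⟩ :=
    LineRing.exists_eq_span_of_isMaximal (legLineF A₁) res hres hker p hp hϖp
  rw [eval_legLineF, map_mul, map_sub, map_one] at ha
  refine ⟨a, left_ne_zero_of_mul ha, ?_, hp', hr⟩
  exact fun h => (right_ne_zero_of_mul ha) (by rw [h, sub_self])

end LegSpecial

end LegLine

end Legendre

end Fermat.Agent.S18.H26
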