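/-
helper69 — S18 / HOR-b : tame Abhyankar lemma, elementary form (Mathlib only).

`O` a discrete valuation ring containing a field `K` which maps onto the residue field
(a "degree one place").  `V`, `W` are `K`-subalgebras of `O` (the traces on `O` of the two
subfields `F`, `E`) with "uniformisers" `t`, `s` in the sense `V = K + tV`, `W = K + sW`.
If `u * t ^ a = w * s ^ (a * d)` with `u`, `w` units of `V`, `W` and `a` invertible in `K`
(tameness), and the fractions of the ring generated by `V` and `W` exhaust `O`, then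
`s` generates the maximal ideal of `O`: the big field is unramified over `E` at `O`.

No completions, no Puiseux series, no roots adjoined.
-/
import Mathlib

set_option autoImplicit false

namespace Fermat.Agent.S18.H69

open IsLocalRing

section Abstract

variable {K O : Type*} [Field K] [CommRing O] [IsDomain O] [IsDiscreteValuationRing O]
  [Algebra K O]

omit [IsDomain O] [IsDiscreteValuationRing O] in
theorem isUnit_algebraMap_of_ne_zero {c : K} (hc : c ≠ 0) : IsUnit (algebraMap K O c) :=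
  (IsUnit.mk0 c hc).map (algebraMap K O)

theorem algebraMap_notMem_maximalIdeal {c : K} (hc : c ≠ 0) :
    algebraMap K O c ∉ maximalIdeal O :=
  notMem_maximalIdeal.mpr (isUnit_algebraMap_of_ne_zero hc)

theorem eq_zero_of_algebraMap_mem_maximalIdeal {c : K}
    (h : algebraMap K O c ∈ maximalIdeal O) : c = 0 := by
  by_contra hc
  exact algebraMap_notMem_maximalIdeal hc h

/-- Every nonzero element of a DVR lies outside some power of the maximal ideal. -/
theorem exists_notMem_maximalIdeal_pow {r : O} (hr : r ≠ 0) :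
    ∃ n : ℕ, r ∉ maximalIdeal O ^ n := by
  by_contra hcon
  push Not at hcon
  have hmem : r ∈ ⨅ i, maximalIdeal O ^ i := by
    rw [Ideal.mem_iInf]
    exact hcon
  rw [Ideal.iInf_pow_eq_bot_of_isLocalRing (maximalIdeal O) Ideal.IsPrime.ne_top'] at hmem
  exact hr ((Ideal.mem_bot).mp hmem)

/-- **Tame Abhyankar lemma**, elementary form. -/
theorem maximalIdeal_eq_span_of_tame
    (hres : ∀ y : O, ∃ c : K, y - algebraMap K O c ∈ maximalIdeal O)
    (V W : Subalgebra K O) {s t u w uinv winv ρ : O} {a d : ℕ}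
    (hs : s ∈ W) (hsm : s ∈ maximalIdeal O) (hs0 : s ≠ 0)
    (hV : ∀ v ∈ V, ∃ c : K, ∃ v' ∈ V, v = algebraMap K O c + t * v')
    (hW : ∀ x ∈ W, ∃ c : K, ∃ x' ∈ W, x = algebraMap K O c + s * x')
    (hu : u ∈ V) (huinv : uinv ∈ V) (huu : u * uinv = 1)
    (hw : w ∈ W) (hwinv : winv ∈ W) (hww : w * winv = 1)
    (hx : u * t ^ a = w * s ^ (a * d)) (ha : (a : K) ≠ 0) (hd : 0 < d)
    (hρ : ρ * t = s ^ d)
    (hgen : ∀ y : O, ∃ r₁ ∈ Algebra.adjoin K ((V : Set O) ∪ W),
      ∃ r₂ ∈ Algebra.adjoin K ((V : Set O) ∪ W), r₂ ≠ 0 ∧ y * r₂ = r₁) :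
    maximalIdeal O = Ideal.span {s} := by
  classical
  have ha0 : a ≠ 0 := by
    rintro rfl
    simp at ha
  have ht0 : t ≠ 0 := by
    rintro rfl
    rw [mul_zero] at hρ
    exact pow_ne_zero d hs0 hρ.symm
  -- `ρ ^ a * w = u`
  have hρa : ρ ^ a * w = u := by
    have h1 : ρ ^ a * t ^ a = s ^ (a * d) := by
      rw [← mul_pow, hρ, ← pow_mul, mul_comm]
    have h2 : (ρ ^ a * w) * t ^ a = u * t ^ a := by
      rw [hx, ← h1]; ring
    exact mul_right_cancel₀ (pow_ne_zero a ht0) h2
  -- inverse of ρ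
  set ρinv : O := ρ ^ (a - 1) * w * uinv with hρinv
  have hρρ : ρ * ρinv = 1 := by
    have : ρ * ρ ^ (a - 1) = ρ ^ a := by
      rw [← pow_succ', Nat.sub_add_cancel (Nat.one_le_iff_ne_zero.mpr ha0)]
    rw [hρinv, ← mul_assoc, ← mul_assoc, this, hρa, huu]
  -- the ring `R₀`
  set R₀ : Subalgebra K O := Algebra.adjoin K ((V : Set O) ∪ W ∪ {ρ}) with hR₀
  have hVR : ∀ v ∈ V, v ∈ R₀ := fun v hv =>
    Algebra.subset_adjoin (Or.inl (Or.inl hv))
  have hWR : ∀ x ∈ W, x ∈ R₀ := fun x hx =>
    Algebra.subset_adjoin (Or.inl (Or.inr hx))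
  have hρR : ρ ∈ R₀ := Algebra.subset_adjoin (Or.inr rfl)
  have hρinvR : ρinv ∈ R₀ :=
    R₀.mul_mem (R₀.mul_mem (R₀.pow_mem hρR _) (hWR w hw)) (hVR uinv huinv)
  have hsR : s ∈ R₀ := hWR s hs
  -- `t = s * t₁`
  set t₁ : O := s ^ (d - 1) * ρinv with ht₁
  have ht₁R : t₁ ∈ R₀ := R₀.mul_mem (R₀.pow_mem hsR _) hρinvR
  have htt₁ : t = s * t₁ := by
    have h1 : t = ρinv * (ρ * t) := by
      rw [← mul_assoc, mul_comm ρinv ρ, hρρ, one_mul]
    have h2 : s * s ^ (d - 1) = s ^ d := by
      rw [← pow_succ', Nat.sub_add_cancel hd]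
    rw [h1, hρ, ht₁, ← mul_assoc, h2, mul_comm]
  have hρunit : IsUnit ρ := IsUnit.of_mul_eq_one _ hρρ
  -- Claim 1
  have claim1 : ∀ r ∈ R₀, ∃ c : K, ∃ p ∈ R₀, ∃ q ∈ R₀, q ∉ maximalIdeal O ∧
      q * (r - algebraMap K O c) = s * p := by
    intro r hr
    induction hr using Algebra.adjoin_induction with
    | mem x hx =>
      rcases hx with (hx | hx) | hx
      · obtain ⟨c, v', hv', hv⟩ := hV x hx
        refine ⟨c, t₁ * v', R₀.mul_mem ht₁R (hVR v' hv'), 1, R₀.one_mem, ?_, ?_⟩
        · exact notMem_maximalIdeal.mpr isUnit_one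
        · rw [hv, htt₁]; ring
      · obtain ⟨c, x', hx', hxx⟩ := hW x hx
        refine ⟨c, x', hWR x' hx', 1, R₀.one_mem, ?_, ?_⟩
        · exact notMem_maximalIdeal.mpr isUnit_one
        · rw [hxx]; ring
      · have hxρ : x = ρ := hx
        subst hxρ
        obtain ⟨b, hb⟩ := hres x
        obtain ⟨cu, u', hu', huu'⟩ := hV u hu
        obtain ⟨cw, w', hw', hww'⟩ := hW winv hwinv
        -- ρ ^ a = u * winv
        have hρa' : x ^ a = u * winv := by
          rw [← hρa, mul_assoc, hww, mul_one]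
        set p₀ : O := algebraMap K O cu * w' + t₁ * u' * winv with hp₀
        have hp₀R : p₀ ∈ R₀ :=
          R₀.add_mem (R₀.mul_mem (R₀.algebraMap_mem cu) (hWR w' hw'))
            (R₀.mul_mem (R₀.mul_mem ht₁R (hVR u' hu')) (hWR winv hwinv))
        have hexp : x ^ a = algebraMap K O (cu * cw) + s * p₀ := by
          rw [hρa', hp₀]
          conv_lhs => rw [huu']
          rw [htt₁]
          conv_lhs => rw [add_mul]
          conv_lhs => enter [1]; rw [hww']
          rw [map_mul]
          ring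
        set q : O := ∑ i ∈ Finset.range a, x ^ i * (algebraMap K O b) ^ (a - 1 - i) with hq
        have hqR : q ∈ R₀ := by
          rw [hq]
          exact Subalgebra.sum_mem _ fun i _ =>
            R₀.mul_mem (R₀.pow_mem hρR _) (R₀.pow_mem (R₀.algebraMap_mem b) _)
        have hgeom : q * (x - algebraMap K O b) = x ^ a - (algebraMap K O b) ^ a :=
          geom_sum₂_mul x (algebraMap K O b) a
        -- b ^ a = cu * cw
        have hba : b ^ a = cu * cw := by
          have h1 : x ^ a - (algebraMap K O b) ^ a ∈ maximalIdeal O := by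
            rw [← hgeom]
            exact Ideal.mul_mem_left _ _ hb
          have h2 : x ^ a - algebraMap K O (cu * cw) ∈ maximalIdeal O := by
            rw [hexp, add_sub_cancel_left]
            exact Ideal.mul_mem_right _ _ hsm
          have h3 : algebraMap K O (cu * cw - b ^ a) ∈ maximalIdeal O := by
            have : algebraMap K O (cu * cw - b ^ a) =
                (x ^ a - (algebraMap K O b) ^ a) - (x ^ a - algebraMap K O (cu * cw)) := by
              rw [map_sub, map_pow]; ring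
            rw [this]
            exact Ideal.sub_mem _ h1 h2
          have := eq_zero_of_algebraMap_mem_maximalIdeal h3
          exact (sub_eq_zero.mp this).symm
        have hb0 : b ≠ 0 := by
          rintro rfl
          rw [map_zero, sub_zero] at hb
          exact (mem_maximalIdeal _).mp hb hρunit
        -- q is a unit
        have hqunit : q ∉ maximalIdeal O := by
          intro hqm
          -- q ≡ a * b^(a-1)
          have hcong : q - algebraMap K O ((a : K) * b ^ (a - 1)) ∈ maximalIdeal O := by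
            have hterm : ∀ i ∈ Finset.range a,
                x ^ i * (algebraMap K O b) ^ (a - 1 - i) - algebraMap K O (b ^ (a - 1)) ∈
                  maximalIdeal O := by
              intro i hi
              have hi' : i ≤ a - 1 := by
                have := Finset.mem_range.mp hi
                omega
              have hxi : x ^ i - (algebraMap K O b) ^ i ∈ maximalIdeal O := by
                have := sub_dvd_pow_sub_pow x (algebraMap K O b) i
                obtain ⟨e, he⟩ := this
                rw [he]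
                exact Ideal.mul_mem_right _ _ hb
              have : x ^ i * (algebraMap K O b) ^ (a - 1 - i) - algebraMap K O (b ^ (a - 1)) =
                  (x ^ i - (algebraMap K O b) ^ i) * (algebraMap K O b) ^ (a - 1 - i) := by
                rw [map_pow, sub_mul, ← pow_add, Nat.add_sub_cancel' hi']
              rw [this]
              exact Ideal.mul_mem_right _ _ hxi
            have hsum : q - algebraMap K O ((a : K) * b ^ (a - 1)) =
                ∑ i ∈ Finset.range a,
                  (x ^ i * (algebraMap K O b) ^ (a - 1 - i) - algebraMap K O (b ^ (a - 1))) := by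
              rw [Finset.sum_sub_distrib, Finset.sum_const, Finset.card_range, hq, map_mul,
                map_natCast, nsmul_eq_mul]
            rw [hsum]
            exact Ideal.sum_mem _ hterm
          have : algebraMap K O ((a : K) * b ^ (a - 1)) ∈ maximalIdeal O := by
            have h := Ideal.sub_mem _ hqm hcong
            rwa [sub_sub_cancel] at h
          have h0 := eq_zero_of_algebraMap_mem_maximalIdeal this
          exact (mul_ne_zero ha (pow_ne_zero _ hb0)) h0
        refine ⟨b, p₀, hp₀R, q, hqR, hqunit, ?_⟩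
        rw [hgeom, hexp, ← map_pow, hba, add_sub_cancel_left]
    | algebraMap c =>
      refine ⟨c, 0, R₀.zero_mem, 1, R₀.one_mem, notMem_maximalIdeal.mpr isUnit_one, ?_⟩
      simp
    | add x y hx hy ihx ihy =>
      obtain ⟨c₁, p₁, hp₁, q₁, hq₁, hq₁u, h₁⟩ := ihx
      obtain ⟨c₂, p₂, hp₂, q₂, hq₂, hq₂u, h₂⟩ := ihy
      refine ⟨c₁ + c₂, q₂ * p₁ + q₁ * p₂,
        R₀.add_mem (R₀.mul_mem hq₂ hp₁) (R₀.mul_mem hq₁ hp₂), q₁ * q₂, R₀.mul_mem hq₁ hq₂, ?_, ?_⟩
      · exact notMem_maximalIdeal.mpr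
          ((notMem_maximalIdeal.mp hq₁u).mul (notMem_maximalIdeal.mp hq₂u))
      · have : q₁ * q₂ * (x + y - algebraMap K O (c₁ + c₂)) =
            q₂ * (q₁ * (x - algebraMap K O c₁)) + q₁ * (q₂ * (y - algebraMap K O c₂)) := by
          rw [map_add]; ring
        rw [this, h₁, h₂]; ring
    | mul x y hx hy ihx ihy =>
      obtain ⟨c₁, p₁, hp₁, q₁, hq₁, hq₁u, h₁⟩ := ihx
      obtain ⟨c₂, p₂, hp₂, q₂, hq₂, hq₂u, h₂⟩ := ihy
      refine ⟨c₁ * c₂, p₁ * q₂ * y + algebraMap K O c₁ * q₁ * p₂,
        R₀.add_mem (R₀.mul_mem (R₀.mul_mem hp₁ hq₂) hy)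
          (R₀.mul_mem (R₀.mul_mem (R₀.algebraMap_mem c₁) hq₁) hp₂),
        q₁ * q₂, R₀.mul_mem hq₁ hq₂, ?_, ?_⟩
      · exact notMem_maximalIdeal.mpr
          ((notMem_maximalIdeal.mp hq₁u).mul (notMem_maximalIdeal.mp hq₂u))
      · have : q₁ * q₂ * (x * y - algebraMap K O (c₁ * c₂)) =
            (q₁ * (x - algebraMap K O c₁)) * q₂ * y +
              algebraMap K O c₁ * q₁ * (q₂ * (y - algebraMap K O c₂)) := by
          rw [map_mul]; ring
        rw [this, h₁, h₂]; ring
  -- Claim 2
  have claim2 : ∀ n : ℕ, ∀ r ∈ R₀, r ∉ maximalIdeal O ^ n →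
      ∃ k : ℕ, ∃ p ∈ R₀, ∃ q ∈ R₀, p ∉ maximalIdeal O ∧ q ∉ maximalIdeal O ∧
        q * r = s ^ k * p := by
    intro n
    induction n with
    | zero =>
      intro r _ hr
      exact absurd (by rw [pow_zero, Ideal.one_eq_top]; trivial) hr
    | succ n ih =>
      intro r hrR hr
      obtain ⟨c, p, hp, q, hq, hqu, h⟩ := claim1 r hrR
      by_cases hc : c = 0
      · subst hc
        rw [map_zero, sub_zero] at h
        have hpn : p ∉ maximalIdeal O ^ n := by
          intro hpn
          apply hr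
          have hsp : s * p ∈ maximalIdeal O ^ (n + 1) := by
            rw [pow_succ']
            exact Ideal.mul_mem_mul hsm hpn
          rw [← h] at hsp
          obtain ⟨qu, rfl⟩ := notMem_maximalIdeal.mp hqu
          have : r = ↑qu⁻¹ * (↑qu * r) := by
            rw [← mul_assoc, Units.inv_mul, one_mul]
          rw [this]
          exact Ideal.mul_mem_left _ _ hsp
        obtain ⟨k, p', hp', q', hq', hp'u, hq'u, h'⟩ := ih p hp hpn
        refine ⟨k + 1, p', hp', q' * q, R₀.mul_mem hq' hq, hp'u, ?_, ?_⟩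
        · exact notMem_maximalIdeal.mpr
            ((notMem_maximalIdeal.mp hq'u).mul (notMem_maximalIdeal.mp hqu))
        · rw [mul_assoc, h, mul_left_comm, h', pow_succ']; ring
      · -- r is a unit
        have hru : r ∉ maximalIdeal O := by
          intro hrm
          have h1 : r - algebraMap K O c ∉ maximalIdeal O := by
            intro h2
            have : algebraMap K O c ∈ maximalIdeal O := by
              have := Ideal.sub_mem _ hrm h2
              rwa [sub_sub_cancel] at this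
            exact hc (eq_zero_of_algebraMap_mem_maximalIdeal this)
          have h3 : q * (r - algebraMap K O c) ∉ maximalIdeal O :=
            notMem_maximalIdeal.mpr
              ((notMem_maximalIdeal.mp hqu).mul (notMem_maximalIdeal.mp h1))
          rw [h] at h3
          exact h3 (Ideal.mul_mem_right _ _ hsm)
        exact ⟨0, r, hrR, 1, R₀.one_mem, hru, notMem_maximalIdeal.mpr isUnit_one, by simp⟩
  -- Claim 3
  have hle : Algebra.adjoin K ((V : Set O) ∪ W) ≤ R₀ :=
    Algebra.adjoin_mono Set.subset_union_left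
  have key : ∀ y ∈ maximalIdeal O, s ∣ y := by
    intro y hy
    by_cases hy0 : y = 0
    · subst hy0; exact dvd_zero s
    obtain ⟨r₁, hr₁, r₂, hr₂, hr₂0, hyr⟩ := hgen y
    have hr₁0 : r₁ ≠ 0 := by
      rw [← hyr]; exact mul_ne_zero hy0 hr₂0
    obtain ⟨n₁, hn₁⟩ := exists_notMem_maximalIdeal_pow hr₁0
    obtain ⟨n₂, hn₂⟩ := exists_notMem_maximalIdeal_pow hr₂0
    obtain ⟨k₁, p₁, _, q₁, _, hp₁u, hq₁u, h₁⟩ := claim2 n₁ r₁ (hle hr₁) hn₁
    obtain ⟨k₂, p₂, _, q₂, _, hp₂u, hq₂u, h₂⟩ := claim2 n₂ r₂ (hle hr₂) hn₂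
    -- y * s^k₂ * (p₂ q₁) = s^k₁ * (q₂ p₁)
    have hrel : y * s ^ k₂ * (p₂ * q₁) = s ^ k₁ * (q₂ * p₁) := by
      have : y * s ^ k₂ * (p₂ * q₁) = q₁ * (y * (q₂ * r₂)) := by rw [h₂]; ring
      rw [this]
      have : y * (q₂ * r₂) = q₂ * (y * r₂) := by ring
      rw [this, hyr]
      have : q₁ * (q₂ * r₁) = q₂ * (q₁ * r₁) := by ring
      rw [this, h₁]; ring
    have hU : IsUnit (p₂ * q₁) :=
      (notMem_maximalIdeal.mp hp₂u).mul (notMem_maximalIdeal.mp hq₁u)
    have hU' : IsUnit (q₂ * p₁) :=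
      (notMem_maximalIdeal.mp hq₂u).mul (notMem_maximalIdeal.mp hp₁u)
    rcases Nat.lt_or_ge k₂ k₁ with hk | hk
    · -- k₁ = k₂ + (m + 1)
      obtain ⟨m, rfl⟩ : ∃ m, k₁ = k₂ + (m + 1) := ⟨k₁ - k₂ - 1, by omega⟩
      have h4 : s ^ k₂ * (y * (p₂ * q₁)) = s ^ k₂ * (s ^ (m + 1) * (q₂ * p₁)) := by
        calc s ^ k₂ * (y * (p₂ * q₁)) = y * s ^ k₂ * (p₂ * q₁) := by ring
          _ = s ^ (k₂ + (m + 1)) * (q₂ * p₁) := hrel
          _ = s ^ k₂ * (s ^ (m + 1) * (q₂ * p₁)) := by rw [pow_add]; ring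
      have h5 := mul_left_cancel₀ (pow_ne_zero k₂ hs0) h4
      obtain ⟨U, hUe⟩ := hU
      refine ⟨s ^ m * (q₂ * p₁) * ↑U⁻¹, ?_⟩
      have : y = y * (p₂ * q₁) * ↑U⁻¹ := by
        rw [← hUe, mul_assoc, Units.mul_inv, mul_one]
      rw [this, h5, pow_succ']; ring
    · -- impossible: y would be a unit
      exfalso
      obtain ⟨m, rfl⟩ : ∃ m, k₂ = k₁ + m := ⟨k₂ - k₁, by omega⟩
      have h4 : s ^ k₁ * (y * s ^ m * (p₂ * q₁)) = s ^ k₁ * (q₂ * p₁) := by
        calc s ^ k₁ * (y * s ^ m * (p₂ * q₁)) = y * s ^ (k₁ + m) * (p₂ * q₁) := by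
              rw [pow_add]; ring
          _ = s ^ k₁ * (q₂ * p₁) := hrel
      have h5 := mul_left_cancel₀ (pow_ne_zero k₁ hs0) h4
      have : y * s ^ m * (p₂ * q₁) ∈ maximalIdeal O := by
        rw [mul_assoc]
        exact Ideal.mul_mem_right _ _ hy
      rw [h5] at this
      exact (mem_maximalIdeal _).mp this hU'
  apply le_antisymm
  · intro y hy
    exact Ideal.mem_span_singleton.mpr (key y hy)
  · rw [Ideal.span_singleton_le_iff_mem]
    exact hsm

end Abstract

end Fermat.Agent.S18.H69
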