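/-
helper69 — S18 / HOR-b : tame Abhyankar lemma in the prelude `Place` vocabulary.

`L = E·F` function fields over `K`, `w` a place of `L` of degree one, `x ∈ F`, `x' ∈ E` with the
same image in `L` and `ord_{w|F} x ∣ ord_{w|E} x'` (tame): then `L/E` is unramified at `w`.
-/
import Fermat.Agent.S18.H69_Abhyankar
import Fermat.Prelude.Def_AlgebraicCurve_DivisorPushPull

set_option autoImplicit false

noncomputable section

namespace Fermat.Agent.S18.H69

open AlgebraicCurve IsLocalRing

section PlaceForm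

variable {K E F L : Type*} [Field K] [Field E] [Field F] [Field L]
  [Algebra K L] [Algebra E L] [Algebra F L] [Algebra K E] [Algebra K F]
  [IsScalarTower K E L] [IsScalarTower K F L]

/-- The `K`-subalgebra of the valuation ring of `w` consisting of the elements coming from a
subfield `F`. -/
def traceSubalgebra (F : Type*) [Field F] [Algebra F L] [Algebra K F] [IsScalarTower K F L]
    (w : Place K L) : Subalgebra K w.toValuationSubring where
  carrier := {y | ∃ f : F, algebraMap F L f = (y : L)}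
  mul_mem' := by
    rintro a b ⟨f, hf⟩ ⟨g, hg⟩
    exact ⟨f * g, by rw [map_mul, hf, hg]; rfl⟩
  one_mem' := ⟨1, by rw [map_one]; rfl⟩
  add_mem' := by
    rintro a b ⟨f, hf⟩ ⟨g, hg⟩
    exact ⟨f + g, by rw [map_add, hf, hg]; rfl⟩
  zero_mem' := ⟨0, by rw [map_zero]; rfl⟩
  algebraMap_mem' c := ⟨algebraMap K F c, by
    rw [← IsScalarTower.algebraMap_apply K F L]; rfl⟩

theorem mem_traceSubalgebra {w : Place K L} {y : w.toValuationSubring} :
    y ∈ traceSubalgebra F w ↔ ∃ f : F, algebraMap F L f = (y : L) := Iff.rfl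

/-- Degree one places have residue field `K`. -/
theorem exists_sub_mem_maximalIdeal_of_deg_eq_one (w : Place K L) (hdeg : w.deg = 1)
    (y : w.toValuationSubring) :
    ∃ c : K, y - algebraMap K w.toValuationSubring c ∈ maximalIdeal w.toValuationSubring := by
  have h1 : (1 : w.ResidueField) ≠ 0 := one_ne_zero
  obtain ⟨c, hc⟩ := (finrank_eq_one_iff_of_nonzero' (1 : w.ResidueField) h1).mp hdeg
    (residue w.toValuationSubring y)
  refine ⟨c, ?_⟩
  rw [← residue_eq_zero_iff, map_sub, sub_eq_zero, ← hc, Algebra.smul_def, mul_one,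
    IsScalarTower.algebraMap_apply K w.toValuationSubring w.ResidueField,
    ResidueField.algebraMap_eq]

variable [Algebra.IsIntegral F L]

/-- Elements of the trace of `F` are constants modulo a uniformiser of `w.restrict F`. -/
theorem traceSubalgebra_decomp (w : Place K L)
    (hres : ∀ y : w.toValuationSubring, ∃ c : K,
      y - algebraMap K w.toValuationSubring c ∈ maximalIdeal w.toValuationSubring)
    {π : (w.restrict F).toValuationSubring} (hπ : Irreducible π)
    (t : w.toValuationSubring) (ht : (t : L) = algebraMap F L (π : F))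
    (v : w.toValuationSubring) (hv : v ∈ traceSubalgebra F w) :
    ∃ c : K, ∃ v' ∈ traceSubalgebra F w, v = algebraMap K w.toValuationSubring c + t * v' := by
  obtain ⟨f, hf⟩ := hv
  obtain ⟨c, hc⟩ := hres v
  set g : F := f - algebraMap K F c with hg
  have hgL : algebraMap F L g = ((v - algebraMap K w.toValuationSubring c :
      w.toValuationSubring) : L) := by
    rw [hg, map_sub, hf, ← IsScalarTower.algebraMap_apply K F L]
    rfl
  have hgmem : g ∈ (w.restrict F).toValuationSubring := by
    rw [Place.mem_restrict_iff, hgL]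
    exact (v - algebraMap K w.toValuationSubring c).2
  -- `g` is a non-unit of the restricted valuation ring
  have hgnon : (⟨g, hgmem⟩ : (w.restrict F).toValuationSubring) ∈
      maximalIdeal (w.restrict F).toValuationSubring := by
    rw [mem_maximalIdeal, mem_nonunits_iff]
    intro hunit
    obtain ⟨⟨a, b, hab, hba⟩, rfl : a = ⟨g, hgmem⟩⟩ := hunit
    -- then the image is a unit of `O_w`
    have hbL : algebraMap F L (b : F) ∈ w.toValuationSubring := b.2
    have hmul : (v - algebraMap K w.toValuationSubring c) * ⟨algebraMap F L (b : F), hbL⟩ = 1 := by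
      apply Subtype.ext
      have h0 : g * (b : F) = 1 := congrArg Subtype.val hab
      have h : algebraMap F L g * algebraMap F L (b : F) = 1 := by
        rw [← map_mul, h0, map_one]
      rw [hgL] at h
      exact h
    exact (mem_maximalIdeal _).mp hc (IsUnit.of_mul_eq_one _ hmul)
  rw [(IsDiscreteValuationRing.irreducible_iff_uniformizer π).mp hπ,
    Ideal.mem_span_singleton] at hgnon
  obtain ⟨g', hg'⟩ := hgnon
  have hg'L : algebraMap F L (g' : F) ∈ w.toValuationSubring := g'.2
  refine ⟨c, ⟨algebraMap F L (g' : F), hg'L⟩, ⟨(g' : F), rfl⟩, ?_⟩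
  apply Subtype.ext
  have h0 : g = (π : F) * (g' : F) := congrArg Subtype.val hg'
  have h : algebraMap F L g = algebraMap F L (π : F) * algebraMap F L (g' : F) := by
    rw [h0, map_mul]
  rw [hgL] at h
  have hv : (v : L) = ((v - algebraMap K w.toValuationSubring c : w.toValuationSubring) : L) +
      ((algebraMap K w.toValuationSubring c : w.toValuationSubring) : L) := by
    push_cast; ring
  rw [hv, h]
  push_cast
  rw [ht]
  ring

omit [Algebra.IsIntegral F L] in
/-- An element of a subfield `M` is a fraction of two elements of the trace of `M`. -/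
theorem exists_fraction_algebraMap {M : Type*} [Field M] [Algebra M L] [Algebra K M]
    [IsScalarTower K M L] (w : Place K L) (A : Subalgebra K w.toValuationSubring)
    (hMA : ∀ y ∈ traceSubalgebra M w, y ∈ A) (m : M) :
    ∃ r₁ ∈ A, ∃ r₂ ∈ A, r₂ ≠ 0 ∧ algebraMap M L m * (r₂ : L) = (r₁ : L) := by
  rcases w.toValuationSubring.mem_or_inv_mem (algebraMap M L m) with h | h
  · exact ⟨⟨algebraMap M L m, h⟩, hMA _ ⟨m, rfl⟩, 1, A.one_mem, one_ne_zero, by simp⟩
  · by_cases hm : m = 0
    · subst hm
      exact ⟨0, A.zero_mem, 1, A.one_mem, one_ne_zero, by simp⟩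
    · have hne : algebraMap M L m ≠ 0 := by simpa using hm
      refine ⟨1, A.one_mem, ⟨(algebraMap M L m)⁻¹, h⟩, hMA _ ⟨m⁻¹, by rw [map_inv₀]⟩, ?_, ?_⟩
      · intro h0
        have := congrArg Subtype.val h0
        exact inv_ne_zero hne this
      · show algebraMap M L m * (algebraMap M L m)⁻¹ = 1
        exact mul_inv_cancel₀ hne

omit [Algebra.IsIntegral F L] in
/-- If `L` is generated by `E` and `F`, every element of `L` is a fraction of elements of the ring
generated by the traces of `F` and `E` on the valuation ring of `w`. -/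
theorem exists_fraction_of_adjoin_eq_top (w : Place K L)
    (hgen : Algebra.adjoin E (Set.range (algebraMap F L)) = ⊤) (z : L) :
    ∃ r₁ ∈ Algebra.adjoin K
        ((traceSubalgebra F w : Set w.toValuationSubring) ∪ traceSubalgebra E w),
      ∃ r₂ ∈ Algebra.adjoin K
        ((traceSubalgebra F w : Set w.toValuationSubring) ∪ traceSubalgebra E w),
        r₂ ≠ 0 ∧ z * (r₂ : L) = (r₁ : L) := by
  set A : Subalgebra K w.toValuationSubring := Algebra.adjoin K
    ((traceSubalgebra F w : Set w.toValuationSubring) ∪ traceSubalgebra E w) with hA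
  have hFA : ∀ y ∈ traceSubalgebra F w, y ∈ A := fun y hy =>
    Algebra.subset_adjoin (Or.inl hy)
  have hEA : ∀ y ∈ traceSubalgebra E w, y ∈ A := fun y hy =>
    Algebra.subset_adjoin (Or.inr hy)
  have hz : z ∈ Algebra.adjoin E (Set.range (algebraMap F L)) := by
    rw [hgen]; exact Algebra.mem_top
  induction hz using Algebra.adjoin_induction with
  | mem y hy =>
    obtain ⟨f, rfl⟩ := hy
    exact exists_fraction_algebraMap w A hFA f
  | algebraMap e => exact exists_fraction_algebraMap w A hEA e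
  | add y y' _ _ ihy ihy' =>
    obtain ⟨r₁, hr₁, r₂, hr₂, hr₂0, h⟩ := ihy
    obtain ⟨r₁', hr₁', r₂', hr₂', hr₂0', h'⟩ := ihy'
    refine ⟨r₁ * r₂' + r₁' * r₂, A.add_mem (A.mul_mem hr₁ hr₂') (A.mul_mem hr₁' hr₂),
      r₂ * r₂', A.mul_mem hr₂ hr₂', mul_ne_zero hr₂0 hr₂0', ?_⟩
    push_cast
    rw [← h, ← h']
    ring
  | mul y y' _ _ ihy ihy' =>
    obtain ⟨r₁, hr₁, r₂, hr₂, hr₂0, h⟩ := ihy
    obtain ⟨r₁', hr₁', r₂', hr₂', hr₂0', h'⟩ := ihy'
    refine ⟨r₁ * r₁', A.mul_mem hr₁ hr₁', r₂ * r₂', A.mul_mem hr₂ hr₂',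
      mul_ne_zero hr₂0 hr₂0', ?_⟩
    push_cast
    rw [← h, ← h']
    ring

variable [Algebra.IsIntegral E L]

/-- **Tame Abhyankar lemma**, `Place` form: `L = E·F`, `w` a place of `L` of degree one,
`x ∈ F` and `x' ∈ E` with the same image in `L`, `ord_{w|F} x > 0`, `ord_{w|F} x ∣ ord_{w|E} x'`,
and `ord_{w|F} x` invertible in `K`.  Then `L/E` is unramified at `w`. -/
theorem ramificationIndex_eq_one_of_tame (w : Place K L) (hdeg : w.deg = 1)
    (hgen : Algebra.adjoin E (Set.range (algebraMap F L)) = ⊤)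
    (x : F) (x' : E) (hxx : algebraMap F L x = algebraMap E L x')
    (hpos : 0 < (w.restrict F).ord x)
    (hdvd : (w.restrict F).ord x ∣ (w.restrict E).ord x')
    (htame : ((((w.restrict F).ord x).toNat : ℕ) : K) ≠ 0) :
    Place.ramificationIndex (F := E) w = 1 := by
  classical
  set O := w.toValuationSubring with hO
  set P := w.restrict F with hP
  set Q := w.restrict E with hQ
  have hres := exists_sub_mem_maximalIdeal_of_deg_eq_one w hdeg
  obtain ⟨πP, hπP⟩ := IsDiscreteValuationRing.exists_irreducible P.toValuationSubring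
  obtain ⟨πQ, hπQ⟩ := IsDiscreteValuationRing.exists_irreducible Q.toValuationSubring
  have heF : 0 < Place.ramificationIndex (F := F) w := w.ramificationIndex_pos
  have heE : 0 < Place.ramificationIndex (F := E) w := w.ramificationIndex_pos
  have hx0 : x ≠ 0 := by
    rintro rfl
    simp at hpos
  have hxL0 : algebraMap F L x ≠ 0 := by simpa using hx0
  have hx'0 : x' ≠ 0 := by
    rintro rfl
    rw [map_zero] at hxx
    exact hxL0 hxx
  -- positivity of `ord x'`
  have hpos' : 0 < Q.ord x' := by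
    have h1 : w.ord (algebraMap F L x) = Place.ramificationIndex (F := F) w * P.ord x :=
      w.ord_restrict x
    have h2 : w.ord (algebraMap E L x') = Place.ramificationIndex (F := E) w * Q.ord x' :=
      w.ord_restrict x'
    rw [hxx] at h1
    have h3 : (0 : ℤ) < Place.ramificationIndex (F := F) w * P.ord x :=
      mul_pos (by exact_mod_cast heF) hpos
    rw [← h1, h2] at h3
    by_contra hcon
    push Not at hcon
    have : (Place.ramificationIndex (F := E) w : ℤ) * Q.ord x' ≤ 0 :=
      mul_nonpos_of_nonneg_of_nonpos (by positivity) hcon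
    omega
  set a : ℕ := (P.ord x).toNat with ha
  set n : ℕ := (Q.ord x').toNat with hn
  have haZ : P.ord x = (a : ℤ) := (Int.toNat_of_nonneg hpos.le).symm
  have hnZ : Q.ord x' = (n : ℤ) := (Int.toNat_of_nonneg hpos'.le).symm
  have han : a ∣ n := by
    rw [haZ, hnZ] at hdvd
    exact Int.natCast_dvd_natCast.mp hdvd
  obtain ⟨d, hd⟩ := han
  have hn0 : 0 < n := by omega
  have hd0 : 0 < d := by
    rcases Nat.eq_zero_or_pos d with h | h
    · rw [h, mul_zero] at hd; omega
    · exact h
  -- unit decompositions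
  obtain ⟨uP, huP⟩ := P.exists_unit_mul_zpow hx0 hπP
  obtain ⟨uQ, huQ⟩ := Q.exists_unit_mul_zpow hx'0 hπQ
  rw [haZ, zpow_natCast] at huP
  rw [hnZ, zpow_natCast] at huQ
  -- elements of `O`
  let t : O := ⟨algebraMap F L (πP : F), πP.2⟩
  let s : O := ⟨algebraMap E L (πQ : E), πQ.2⟩
  let u : O := ⟨algebraMap F L ((uP : P.toValuationSubring) : F), (uP : P.toValuationSubring).2⟩
  let uinv : O := ⟨algebraMap F L ((↑uP⁻¹ : P.toValuationSubring) : F),
    (↑uP⁻¹ : P.toValuationSubring).2⟩
  let v : O := ⟨algebraMap E L ((uQ : Q.toValuationSubring) : E), (uQ : Q.toValuationSubring).2⟩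
  let vinv : O := ⟨algebraMap E L ((↑uQ⁻¹ : Q.toValuationSubring) : E),
    (↑uQ⁻¹ : Q.toValuationSubring).2⟩
  have huu : u * uinv = 1 := by
    apply Subtype.ext
    show algebraMap F L _ * algebraMap F L _ = 1
    rw [← map_mul]
    have : ((uP : P.toValuationSubring) : F) * ((↑uP⁻¹ : P.toValuationSubring) : F) = 1 :=
      congrArg Subtype.val uP.mul_inv
    rw [this, map_one]
  have hvv : v * vinv = 1 := by
    apply Subtype.ext
    show algebraMap E L _ * algebraMap E L _ = 1
    rw [← map_mul]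
    have : ((uQ : Q.toValuationSubring) : E) * ((↑uQ⁻¹ : Q.toValuationSubring) : E) = 1 :=
      congrArg Subtype.val uQ.mul_inv
    rw [this, map_one]
  have hπQ0 : (πQ : E) ≠ 0 := by
    intro h
    exact hπQ.ne_zero (Subtype.ext h)
  have hπP0 : (πP : F) ≠ 0 := by
    intro h
    exact hπP.ne_zero (Subtype.ext h)
  have hs0 : s ≠ 0 := by
    intro h
    have := congrArg Subtype.val h
    exact (by simpa using hπQ0 : algebraMap E L (πQ : E) ≠ 0) this
  have htL0 : (t : L) ≠ 0 := (by simpa using hπP0 : algebraMap F L (πP : F) ≠ 0)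
  have hsm : s ∈ maximalIdeal O := by
    rw [mem_maximalIdeal, mem_nonunits_iff]
    intro hunit
    obtain ⟨⟨s1, s2, h12, h21⟩, rfl : s1 = s⟩ := hunit
    have h12L : algebraMap E L (πQ : E) * (s2 : L) = 1 := congrArg Subtype.val h12
    have hs2 : (s2 : L) = algebraMap E L (πQ : E)⁻¹ := by
      rw [map_inv₀]
      exact eq_inv_of_mul_eq_one_right h12L
    have hmem : (πQ : E)⁻¹ ∈ Q.toValuationSubring := by
      show algebraMap E L (πQ : E)⁻¹ ∈ w.toValuationSubring
      rw [← hs2]
      exact s2.2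
    apply hπQ.not_isUnit
    refine IsUnit.of_mul_eq_one (⟨(πQ : E)⁻¹, hmem⟩ : Q.toValuationSubring) ?_
    apply Subtype.ext
    exact mul_inv_cancel₀ hπQ0
  -- the relation
  have hx : u * t ^ a = v * s ^ (a * d) := by
    apply Subtype.ext
    show algebraMap F L _ * (algebraMap F L _) ^ a = algebraMap E L _ * (algebraMap E L _) ^ (a * d)
    rw [← map_pow, ← map_mul, ← huP, ← map_pow, ← map_mul, ← hd, ← huQ, hxx]
  -- the element ρ
  have hxL : (u : L) * (t : L) ^ a = (v : L) * (s : L) ^ (a * d) := congrArg Subtype.val hx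
  set ρL : L := (s : L) ^ d / (t : L) with hρL
  have hρpow : ρL ^ a = ((u * vinv : O) : L) := by
    have hvvL : (v : L) * (vinv : L) = 1 := congrArg Subtype.val hvv
    have hv0 : (v : L) ≠ 0 := left_ne_zero_of_mul_eq_one hvvL
    rw [hρL, div_pow, ← pow_mul, mul_comm d a, div_eq_iff (pow_ne_zero a htL0)]
    push_cast
    have : (s : L) ^ (a * d) = (vinv : L) * ((u : L) * (t : L) ^ a) := by
      rw [hxL, ← mul_assoc, mul_comm (vinv : L), hvvL, one_mul]
    rw [this]; ring
  have ha0 : a ≠ 0 := by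
    intro h
    rw [h] at htame
    simp at htame
  have hρmem : ρL ∈ O := by
    rcases O.mem_or_inv_mem ρL with h | h
    · exact h
    · have h1 : ρL ^ a ∈ O := by rw [hρpow]; exact (u * vinv).2
      have h2 : ρL = ρL ^ a * (ρL⁻¹) ^ (a - 1) := by
        by_cases hρ0 : ρL = 0
        · rw [hρ0, zero_pow ha0, zero_mul]
        · obtain ⟨b, hb⟩ : ∃ b, a = b + 1 := ⟨a - 1, by omega⟩
          rw [hb, Nat.add_sub_cancel, pow_succ, inv_pow, mul_comm (ρL ^ b) ρL, mul_assoc,
            mul_inv_cancel₀ (pow_ne_zero b hρ0), mul_one]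
      rw [h2]
      exact O.mul_mem _ _ h1 (pow_mem h _)
  have hρ : (⟨ρL, hρmem⟩ : O) * t = s ^ d := by
    apply Subtype.ext
    show ρL * (t : L) = ((s ^ d : O) : L)
    push_cast
    rw [hρL, div_mul_cancel₀ _ htL0]
  -- generation
  have hgen' : ∀ y : O, ∃ r₁ ∈ Algebra.adjoin K
        ((traceSubalgebra F w : Set O) ∪ traceSubalgebra E w),
      ∃ r₂ ∈ Algebra.adjoin K ((traceSubalgebra F w : Set O) ∪ traceSubalgebra E w),
        r₂ ≠ 0 ∧ y * r₂ = r₁ := by
    intro y
    obtain ⟨r₁, hr₁, r₂, hr₂, hr₂0, h⟩ := exists_fraction_of_adjoin_eq_top (F := F) w hgen (y : L)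
    exact ⟨r₁, hr₁, r₂, hr₂, hr₂0, Subtype.ext h⟩
  have hmain := maximalIdeal_eq_span_of_tame (K := K) (O := O) hres
    (traceSubalgebra F w) (traceSubalgebra E w) (s := s) (t := t) (u := u) (w := v)
    (uinv := uinv) (winv := vinv) (ρ := ⟨ρL, hρmem⟩) (a := a) (d := d)
    ⟨(πQ : E), rfl⟩ hsm hs0
    (fun y hy => traceSubalgebra_decomp (F := F) w hres hπP t rfl y hy)
    (fun y hy => traceSubalgebra_decomp (F := E) w hres hπQ s rfl y hy)
    ⟨_, rfl⟩ ⟨_, rfl⟩ huu ⟨_, rfl⟩ ⟨_, rfl⟩ hvv hx htame hd0 hρ hgen'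
  have hsirr : Irreducible s := (IsDiscreteValuationRing.irreducible_iff_uniformizer s).mpr hmain
  have hords : w.ord (algebraMap E L (πQ : E)) = 1 := w.ord_coe_irreducible hsirr
  have h2 : w.ord (algebraMap E L (πQ : E)) = Place.ramificationIndex (F := E) w * Q.ord πQ :=
    w.ord_restrict (πQ : E)
  rw [hords, Q.ord_coe_irreducible hπQ, mul_one] at h2
  exact_mod_cast h2.symm

end PlaceForm

end Fermat.Agent.S18.H69
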