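import Mathlib
import Fermat.Agent.S24.H24_Main
import Fermat.Agent.S24.H40_M123
import Fermat.Agent.S24.H76_Closed

set_option autoImplicit false

/-!
# S18 / char-0 branch data of `F_N / Qbar(j)` (re-export of the S24 closure in function-field form)

`helper95`.  For `v : Place Qbar (FN N)` (`FN N = modularFunctionFieldBar N`, `jBar N = j`):

* `ord_jBar_sub_eq_one`   : `a ≠ 0, 1728`, `0 < ord_v (j - a)`  ⟹ `ord_v (j - a) = 1`;
* `ord_jBar_dvd_three`    : `0 < ord_v j` ⟹ `ord_v j ∣ 3`      (so `= 1` or `= 3`);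
* `ord_jBar_sub_1728_dvd_two` : `0 < ord_v (j - 1728)` ⟹ `ord_v (j - 1728) ∣ 2`;
* `ord_jBar_dvd_level`    : `ord_v j < 0` ⟹ `ord_v j ∣ N`     (cusp widths divide `N`);
* `rhData_jBar`, fibre sums `= ψ(N)` etc.
-/

noncomputable section

namespace Fermat.Agent.S18.H95

open AlgebraicCurve ModularCurve UpperHalfPlane ModularGroup
open scoped MatrixGroups
open Fermat.Agent.S24

variable (N : ℕ) [NeZero N]

/-- `j` is unramified over every `a ≠ 0, 1728`. -/
theorem ord_jBar_sub_eq_one (v : Place Qbar (FN N)) (a : Qbar) (ha0 : a ≠ 0) (ha1 : a ≠ 1728)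
    (hv : 0 < v.ord (jBar N - algebraMap Qbar (FN N) a)) :
    v.ord (jBar N - algebraMap Qbar (FN N) a) = 1 :=
  (H76.modInputs_final N).hunr v a ha0 ha1 hv

/-- general principle: if `J - ι a` has analytic order `n` at `τ₀` (`J τ₀ = ι a`), then the order
of `j - a` at any place over `a` divides `n`. -/
theorem ord_jBar_sub_dvd_of_analyticOrder (v : Place Qbar (FN N)) (a : Qbar) (τ0 : ℍ) (n : ℕ)
    (hJ : H28.J τ0 = H17.iota a)
    (hord : analyticOrderAt (fun z : ℂ => H28.J (ofComplex z) - H17.iota a) (τ0 : ℂ) = n)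
    (hv : 0 < v.ord (jBar N - algebraMap Qbar (FN N) a)) :
    v.ord (jBar N - algebraMap Qbar (FN N) a) ∣ (n : ℤ) := by
  have h := H76.modInputs_final N
  haveI := H40.finiteDimensional_FN N
  have hData := H24.rhData_jBar N (H40.finrank_FN_eq_natCard N)
  obtain ⟨γ, m, _, hm⟩ := h.place_fin v a τ0 hJ hv
  have h1 := hm _ (h.sub_const_mem a) (H76.ModInputs.sub_const_ne_zero hData a)
  have h2 := H76.IsTheta.ordH_translate_of_eq_J_sub (Θ := H17.Theta N) H28.J_smul
    (h.theta_sub_const a) (n := n) hord γ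
  rw [h2] at h1
  exact ⟨m, by rw [h1, mul_comm]⟩

/-- over `j = 0` the ramification index divides `3`. -/
theorem ord_jBar_dvd_three (v : Place Qbar (FN N)) (hv : 0 < v.ord (jBar N)) :
    v.ord (jBar N) ∣ (3 : ℤ) := by
  have hord := H8.analyticOrderAt_J_of_E₄_eq_zero UpperHalfPlane.ρ H8.E₄_ρ
  have hord' : analyticOrderAt (fun z : ℂ => H28.J (ofComplex z) - H17.iota 0)
      ((UpperHalfPlane.ρ : ℍ) : ℂ) = (3 : ℕ) := by
    simpa using hord
  have hJρ : H28.J UpperHalfPlane.ρ = H17.iota 0 := by rw [map_zero]; exact H8.J_ρ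
  have hv' : 0 < v.ord (jBar N - algebraMap Qbar (FN N) 0) := by simpa using hv
  have := ord_jBar_sub_dvd_of_analyticOrder N v 0 _ 3 hJρ hord' hv'
  simpa using this

/-- over `j = 1728` the ramification index divides `2`. -/
theorem ord_jBar_sub_1728_dvd_two (v : Place Qbar (FN N))
    (hv : 0 < v.ord (jBar N - algebraMap Qbar (FN N) 1728)) :
    v.ord (jBar N - algebraMap Qbar (FN N) 1728) ∣ (2 : ℤ) := by
  have hord := H8.analyticOrderAt_J_sub_1728_of_E₆_eq_zero UpperHalfPlane.I H8.E₆_I
  have hι : H17.iota 1728 = 1728 := map_ofNat H17.iota 1728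
  have hord' : analyticOrderAt (fun z : ℂ => H28.J (ofComplex z) - H17.iota 1728)
      ((UpperHalfPlane.I : ℍ) : ℂ) = (2 : ℕ) := by
    rw [hι]; exact_mod_cast hord
  have hJI : H28.J UpperHalfPlane.I = H17.iota 1728 := by rw [hι]; exact H8.J_I
  have := ord_jBar_sub_dvd_of_analyticOrder N v 1728 _ 2 hJI hord' hv
  simpa using this

/-- at a pole of `j` (a cusp) the pole order divides `N`. -/
theorem ord_jBar_dvd_level (v : Place Qbar (FN N)) (hv : v.ord (jBar N) < 0) :
    v.ord (jBar N) ∣ (N : ℤ) := by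
  have h := H76.modInputs_final N
  haveI := H40.finiteDimensional_FN N
  have hData := H24.rhData_jBar N (H40.finrank_FN_eq_natCard N)
  obtain ⟨γ, m, _, hm⟩ := h.place_cusp v hv
  have h1 := hm _ h.jBar_mem (H76.ModInputs.jBar_ne_zero hData)
  rw [h.theta_jBar] at h1
  have h2 : H76.ordInfN N (fun τ => H28.J (γ⁻¹ • τ)) = H76.ordInfN N H28.J := by
    congr 1; funext τ; exact H28.J_smul _ _
  rw [h2, h.ordInf_J] at h1
  exact ⟨-m, by rw [mul_neg, mul_comm, ← h1, neg_neg]⟩

/-- All function-field inputs of Riemann–Hurwitz for `j` on `F_N`, with `n = ψ(N)`: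
every place has degree one, principal divisors have degree zero, `Σ_{v ∣ a} ord_v (j - a) = ψ(N)`,
`Σ_{v pole} ord_v j = -ψ(N)`, every place is a pole of `j` or lies over a unique `a`, ... -/
theorem rhData : H24.RH.Data (K := Qbar) (jBar N) (dedekindPsi N) := by
  haveI := H40.finiteDimensional_FN N
  have h := H24.rhData_jBar N (H40.finrank_FN_eq_natCard N)
  rwa [H24.card_XN_eq_dedekindPsi] at h

theorem place_deg_eq_one (v : Place Qbar (FN N)) : v.deg = 1 := (rhData N).deg_eq_one v

theorem transcendental_jBar : Transcendental Qbar (jBar N) := H40.transcendental_jBar N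

/-- the degree of `F_N` over `Qbar(j)` is `ψ(N)`. -/
theorem finrank_eq_dedekindPsi :
    Module.finrank (IntermediateField.adjoin Qbar {jBar N}) (FN N) = dedekindPsi N := by
  rw [H40.finrank_FN_eq_natCard N, Nat.card_eq_fintype_card, H24.card_XN_eq_dedekindPsi]

/-- the fibre of `j` over `a` is finite and `Σ e_v = ψ(N)`. -/
theorem sum_ord_fib (a : Qbar) :
    ∑ v ∈ ((rhData N).fib_finite a).toFinset, v.ord (jBar N - algebraMap Qbar (FN N) a)
      = dedekindPsi N := (rhData N).fib_sum a

/-- the poles of `j` are finitely many and `Σ ord_v j = -ψ(N)`. -/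
theorem sum_ord_poles :
    ∑ v ∈ (rhData N).poles_finite.toFinset, v.ord (jBar N) = -(dedekindPsi N : ℤ) :=
  (rhData N).poles_sum

/-- every place of `F_N` is a pole of `j` or a zero of `j - a` for some `a`. -/
theorem place_value (v : Place Qbar (FN N)) :
    v.ord (jBar N) < 0 ∨ ∃ a : Qbar, 0 < v.ord (jBar N - algebraMap Qbar (FN N) a) :=
  (rhData N).value v

/-- principal divisors exist and have degree zero. -/
theorem exists_principal_divisor (f : FN N) (hf : f ≠ 0) :
    ∃ Df : Divisor Qbar (FN N), (∀ v, Df v = v.ord f) ∧ Divisor.degree Df = 0 :=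
  (rhData N).principal f hf

/-- number of places over `j = 0`, `1728`, `∞` = number of orbits of `ST`, `S`, `T` on
`Γ₀(N)\SL₂(ℤ)`. -/
theorem card_fib_zero :
    ((rhData N).fib_finite 0).toFinset.card =
      Nat.card (MulAction.orbitRel.Quotient
        (Subgroup.zpowers (H24.perm N (S * T))) (H24.XN N)) := by
  haveI := H40.finiteDimensional_FN N
  have hData := H24.rhData_jBar N (H40.finrank_FN_eq_natCard N)
  have h := (H76.modInputs_final N).card_fib_zero hData
  convert h using 2

theorem card_fib_1728 :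
    ((rhData N).fib_finite 1728).toFinset.card =
      Nat.card (MulAction.orbitRel.Quotient
        (Subgroup.zpowers (H24.perm N S)) (H24.XN N)) := by
  haveI := H40.finiteDimensional_FN N
  have hData := H24.rhData_jBar N (H40.finrank_FN_eq_natCard N)
  have h := (H76.modInputs_final N).card_fib_1728 hData
  convert h using 2

theorem card_poles :
    (rhData N).poles_finite.toFinset.card =
      Nat.card (MulAction.orbitRel.Quotient
        (Subgroup.zpowers (H24.perm N T)) (H24.XN N)) := by
  haveI := H40.finiteDimensional_FN N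
  have hData := H24.rhData_jBar N (H40.finrank_FN_eq_natCard N)
  have h := (H76.modInputs_final N).card_poles hData
  convert h using 2

end Fermat.Agent.S18.H95
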