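import Mathlib
import Fermat.Agent.S18.H69_AbhyankarPlace
import Fermat.Agent.S18.H95_BranchData
import Fermat.Agent.S18.H95_Abhyankar

/-!
helper69 — S18 / (HOR-OUT-CUSP): the cusp chart `τ ^ N = 1 / j`.

For `F'c = F_N(τ)` with `τ ^ N * j = 1`, every place `w` of `F'c / Qbar` with `w(τ - a) > 0`,
`1728 a ^ N ≠ 1`, has `w.ord (τ - a) = 1`, i.e. `F'c / Qbar(τ)` is unramified there.
At `a = 0` this is Abhyankar's lemma (cusp widths divide `N`), elsewhere `F_N / Qbar(j)` is
already unramified.
-/

set_option autoImplicit false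
set_option linter.unusedSectionVars false
set_option linter.style.haveILetI false

noncomputable section

namespace Fermat.Agent.S18.H69

open AlgebraicCurve Polynomial IntermediateField
open Fermat.Agent.S24

section RationalLine

variable {K L : Type*} [Field K] [Field L] [Algebra K L]

/-- On the rational line `K(t)`, `t - a` is a uniformiser at every place where it is positive. -/
theorem ord_gen_sub_eq_one (t : L) (a : K) (v : Place K K⟮t⟯)
    (hpos : 0 < v.ord (AdjoinSimple.gen K t - algebraMap K K⟮t⟯ a)) :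
    v.ord (AdjoinSimple.gen K t - algebraMap K K⟮t⟯ a) = 1 := by
  set g : K⟮t⟯ := AdjoinSimple.gen K t with hg
  set s : K⟮t⟯ := g - algebraMap K K⟮t⟯ a with hs
  have hs0 : s ≠ 0 := by
    intro h; rw [h, Place.ord_zero] at hpos; exact lt_irrefl _ hpos
  have hval : v.adicValuation s < 1 := (H95.adicValuation_lt_one_iff v hs0).mpr hpos
  obtain ⟨π, hπ0, hπ1⟩ := H27.exists_ord_eq_one v
  obtain ⟨r, q, hrq⟩ : ∃ r q : K[X], π = aeval g r / aeval g q := by
    obtain ⟨r, q, h⟩ := (IntermediateField.mem_adjoin_simple_iff K (π : L)).mp π.2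
    refine ⟨r, q, Subtype.ext ?_⟩
    have hcoe : ∀ p : K[X], ((aeval g p : K⟮t⟯) : L) = aeval t p := by
      intro p
      have := Polynomial.aeval_algebraMap_apply L g p
      rw [AdjoinSimple.algebraMap_gen] at this
      exact this.symm
    rw [h]
    push_cast
    rw [hcoe, hcoe]
  have hq0 : aeval g q ≠ 0 := by
    intro h; rw [h, div_zero] at hrq; exact hπ0 hrq
  have hr0 : aeval g r ≠ 0 := by
    intro h; rw [h, zero_div] at hrq; exact hπ0 hrq
  have hq : q ≠ 0 := by rintro rfl; exact hq0 (map_zero _)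
  have hr : r ≠ 0 := by rintro rfl; exact hr0 (map_zero _)
  have h1 := H95.ord_aeval_eq_rootMultiplicity_mul v hval hs0 r hr
  have h2 := H95.ord_aeval_eq_rootMultiplicity_mul v hval hs0 q hq
  have h3 : v.ord π = v.ord (aeval g r) - v.ord (aeval g q) := by
    rw [hrq, div_eq_mul_inv, v.ord_mul hr0 (inv_ne_zero hq0), v.ord_inv]; ring
  rw [hπ1, h1, h2] at h3
  have hdvd : v.ord s ∣ 1 :=
    ⟨(r.rootMultiplicity a : ℤ) - (q.rootMultiplicity a : ℤ), by rw [h3]; ring⟩
  exact Int.eq_one_of_dvd_one hpos.le hdvd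

end RationalLine

section Compositum

variable {K F L : Type*} [Field K] [Field F] [Field L] [Algebra K F] [Algebra K L] [Algebra F L]
  [IsScalarTower K F L]

/-- `L = F(τ)` with `τ` integral over `F` is generated as a `K(τ)`-algebra by the image of `F`. -/
theorem adjoin_range_eq_top_of_simple (τ : L) (hint : IsIntegral F τ)
    (hgen : IntermediateField.adjoin F {τ} = ⊤) :
    Algebra.adjoin K⟮τ⟯ (Set.range (algebraMap F L)) = ⊤ := by
  rw [eq_top_iff]
  intro y _
  have hy : y ∈ (IntermediateField.adjoin F {τ}).toSubalgebra := by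
    rw [hgen]; exact Algebra.mem_top
  rw [IntermediateField.adjoin_simple_toSubalgebra_of_isAlgebraic hint.isAlgebraic,
    Algebra.adjoin_singleton_eq_range_aeval] at hy
  obtain ⟨p, rfl⟩ := hy
  rw [AlgHom.toRingHom_eq_coe, RingHom.coe_coe, aeval_eq_sum_range]
  refine Subalgebra.sum_mem _ fun i _ => ?_
  rw [Algebra.smul_def]
  refine Subalgebra.mul_mem _ (Algebra.subset_adjoin ⟨_, rfl⟩) (Subalgebra.pow_mem _ ?_ _)
  exact Subalgebra.algebraMap_mem _ (AdjoinSimple.gen K τ)

/-- `L = F(τ)` is finite over `F`. -/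
theorem finiteDimensional_of_adjoin_simple_eq_top (τ : L) (hint : IsIntegral F τ)
    (hgen : IntermediateField.adjoin F {τ} = ⊤) : FiniteDimensional F L := by
  have h1 : FiniteDimensional F F⟮τ⟯ := IntermediateField.adjoin.finiteDimensional hint
  rw [hgen] at h1
  exact Module.Finite.equiv (IntermediateField.topEquiv (F := F) (E := L)).toLinearEquiv

/-- `L = F(τ)` is finite over `K(τ)` when `F` is finite over `K(j)` and `j ∈ K(τ)`. -/
theorem finiteDimensional_adjoin_simple_of_tower (j : F) [FiniteDimensional K⟮j⟯ F] (τ : L)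
    (hint : IsIntegral F τ) (hgen : IntermediateField.adjoin F {τ} = ⊤)
    (hj : algebraMap F L j ∈ K⟮τ⟯) : FiniteDimensional K⟮τ⟯ L := by
  haveI hFL : FiniteDimensional F L := finiteDimensional_of_adjoin_simple_eq_top τ hint hgen
  have hmem : ∀ z : K⟮j⟯, ((algebraMap F L).comp (algebraMap K⟮j⟯ F)) z ∈ K⟮τ⟯ := by
    intro z
    have h1 : algebraMap F L (z : F) ∈ (K⟮j⟯).map (IsScalarTower.toAlgHom K F L) :=
      (IntermediateField.mem_map _).mpr ⟨z, z.2, rfl⟩
    rw [IntermediateField.adjoin_map, Set.image_singleton] at h1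
    have h2 : K⟮(IsScalarTower.toAlgHom K F L) j⟯ ≤ K⟮τ⟯ := by
      rw [IntermediateField.adjoin_simple_le_iff]; exact hj
    exact h2 h1
  let φ : K⟮j⟯ →+* K⟮τ⟯ := ((algebraMap F L).comp (algebraMap K⟮j⟯ F)).codRestrict K⟮τ⟯ hmem
  letI : Algebra K⟮j⟯ K⟮τ⟯ := φ.toAlgebra
  haveI : IsScalarTower K⟮j⟯ K⟮τ⟯ L := IsScalarTower.of_algebraMap_eq (fun _ => rfl)
  haveI : Module.Finite K⟮j⟯ L := Module.Finite.trans F L
  exact Module.Finite.of_restrictScalars_finite K⟮j⟯ K⟮τ⟯ L

/-- `τ` is transcendental when `τ ^ N * j = 1` and `j` is. -/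
theorem transcendental_of_pow_mul_eq_one (j : F) (hj : Transcendental K j) (τ : L) (N : ℕ)
    (hτ : τ ^ N * algebraMap F L j = 1) : Transcendental K τ := by
  intro halg
  apply hj
  have h1 : IsAlgebraic K (τ ^ N) := halg.pow N
  have h2 : IsAlgebraic K (τ ^ N)⁻¹ := h1.inv
  have h3 : algebraMap F L j = (τ ^ N)⁻¹ := eq_inv_of_mul_eq_one_right hτ
  rw [← h3] at h2
  exact (isAlgebraic_algebraMap_iff (algebraMap F L).injective).mp h2

end Compositum

section Cusp

variable {K F L : Type*} [Field K] [Field F] [Field L] [Algebra K F] [Algebra K L] [Algebra F L]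
  [IsScalarTower K F L]

/-- **(HOR-OUT-CUSP), abstract form.**  `F / K(j)` a function field whose poles of `j` have order
dividing `N` and which is unramified over `j = c`, `c ≠ 0, 1728`; `L = F(τ)`, `τ ^ N * j = 1`.
Then `L / K(τ)` is unramified at every place over `τ = a` with `1728 a ^ N ≠ 1`. -/
theorem ord_sub_eq_one_of_pow_mul_eq_one [IsAlgClosed K] [CharZero K]
    (j : F) (hjtr : Transcendental K j) [FiniteDimensional K⟮j⟯ F]
    (N : ℕ) (hN : N ≠ 0)
    (hcusp : ∀ u : Place K F, u.ord j < 0 → u.ord j ∣ (N : ℤ))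
    (hunr : ∀ (u : Place K F) (c : K), c ≠ 0 → c ≠ 1728 →
      0 < u.ord (j - algebraMap K F c) → u.ord (j - algebraMap K F c) = 1)
    (τ : L) (hτ : τ ^ N * algebraMap F L j = 1)
    (hgen : IntermediateField.adjoin F {τ} = ⊤)
    (w : Place K L) (a : K) (ha : 1728 * a ^ N ≠ 1)
    (hpos : 0 < w.ord (τ - algebraMap K L a)) :
    w.ord (τ - algebraMap K L a) = 1 := by
  classical
  have hjL : algebraMap F L j = (τ ^ N)⁻¹ := eq_inv_of_mul_eq_one_right hτ
  have hτ0 : τ ≠ 0 := by
    rintro rfl
    rw [zero_pow hN, zero_mul] at hτ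
    exact zero_ne_one hτ
  have hint : IsIntegral F τ := by
    refine IsIntegral.of_pow (Nat.pos_of_ne_zero hN) ?_
    have : τ ^ N = algebraMap F L j⁻¹ := by rw [map_inv₀, hjL, inv_inv]
    rw [this]; exact isIntegral_algebraMap
  have hgτ : algebraMap K⟮τ⟯ L (AdjoinSimple.gen K τ) = τ := AdjoinSimple.algebraMap_gen K τ
  have hjE : algebraMap F L j ∈ K⟮τ⟯ := by
    rw [hjL]; exact inv_mem (pow_mem (mem_adjoin_simple_self K τ) N)
  haveI hfinE : FiniteDimensional K⟮τ⟯ L :=
    finiteDimensional_adjoin_simple_of_tower j τ hint hgen hjE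
  haveI hfinF : FiniteDimensional F L := finiteDimensional_of_adjoin_simple_eq_top τ hint hgen
  haveI : Algebra.IsIntegral K⟮τ⟯ L := Algebra.IsIntegral.of_finite K⟮τ⟯ L
  haveI : Algebra.IsIntegral F L := Algebra.IsIntegral.of_finite F L
  have hτtr : Transcendental K τ := transcendental_of_pow_mul_eq_one j hjtr τ N hτ
  have hdeg : w.deg = 1 := H25.deg_eq_one (K := K) τ hτtr w
  have hgenA := adjoin_range_eq_top_of_simple (K := K) τ hint hgen
  have heF : 0 < Place.ramificationIndex (F := F) w := w.ramificationIndex_pos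
  have hj0 : j ≠ 0 := by
    rintro rfl
    exact hjtr (isAlgebraic_zero)
  -- key: `e(w | K(τ)) = 1`
  have hkey : Place.ramificationIndex (F := K⟮τ⟯) w = 1 := by
    rcases eq_or_ne a 0 with rfl | ha0
    · -- the cusp `τ = 0`
      simp only [map_zero, sub_zero] at hpos
      have hordj : w.ord (algebraMap F L j) = -(N : ℤ) * w.ord τ := by
        rw [hjL, w.ord_inv, ← zpow_natCast, w.ord_zpow]; ring
      have huj : (w.restrict F).ord j < 0 := by
        have h1 := w.ord_restrict (F := F) j
        rw [hordj] at h1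
        by_contra hcon
        have h2 : 0 ≤ (Place.ramificationIndex (F := F) w : ℤ) * (w.restrict F).ord j :=
          mul_nonneg (by positivity) (not_lt.mp hcon)
        have h3 : (N : ℤ) * w.ord τ > 0 := mul_pos (by exact_mod_cast Nat.pos_of_ne_zero hN) hpos
        linarith
      have hdvdN := hcusp _ huj
      refine ramificationIndex_eq_one_of_tame w hdeg hgenA j⁻¹ ((AdjoinSimple.gen K τ) ^ N)
        ?_ ?_ ?_ ?_
      · rw [map_inv₀, hjL, inv_inv, map_pow, hgτ]
      · rw [Place.ord_inv]; omega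
      · rw [Place.ord_inv, ← zpow_natCast, Place.ord_zpow]
        exact Dvd.dvd.mul_right (neg_dvd.mpr hdvdN) _
      · rw [Place.ord_inv]
        exact Nat.cast_ne_zero.mpr (by omega)
    · -- `τ = a ≠ 0`
      have hτne : τ - algebraMap K L a ≠ 0 := by
        intro h; rw [h, Place.ord_zero] at hpos; exact lt_irrefl _ hpos
      have hval : w.adicValuation (τ - algebraMap K L a) < 1 :=
        (H95.adicValuation_lt_one_iff w hτne).mpr hpos
      have haN : a ^ N ≠ 0 := pow_ne_zero _ ha0
      set c : K := (a ^ N)⁻¹ with hc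
      have hc0 : c ≠ 0 := inv_ne_zero haN
      have hc1 : c ≠ 1728 := by
        intro h
        apply ha
        rw [← h, hc, inv_mul_cancel₀ haN]
      have hx0 : j - algebraMap K F c ≠ 0 := by
        intro h
        apply hjtr
        rw [sub_eq_zero.mp h]
        exact isAlgebraic_algebraMap c
      have hxL0 : algebraMap F L (j - algebraMap K F c) ≠ 0 :=
        (_root_.map_ne_zero _).mpr hx0
      -- valuations
      have hvτ : w.adicValuation τ = 1 := by
        have := H95.adicValuation_aeval_eq_one w hval (X : K[X]) (by simpa using ha0)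
        simpa using this
      have hvpow : w.adicValuation (τ ^ N - algebraMap K L a ^ N) < 1 := by
        have := H95.adicValuation_aeval_sub_le w hval.le (X ^ N : K[X])
        simp only [map_pow, aeval_X, eval_pow, eval_X] at this
        exact lt_of_le_of_lt this hval
      have hvaN : w.adicValuation (algebraMap K L a ^ N) = 1 := by
        rw [map_pow, H95.adicValuation_algebraMap w ha0, one_pow]
      have hvτN : w.adicValuation (τ ^ N) = 1 := by rw [map_pow, hvτ, one_pow]
      have e1 : algebraMap F L (algebraMap K F c) = algebraMap K L c :=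
        (IsScalarTower.algebraMap_apply K F L c).symm
      have hxL : algebraMap F L (j - algebraMap K F c)
          = -(τ ^ N - algebraMap K L a ^ N) * ((τ ^ N)⁻¹ * (algebraMap K L a ^ N)⁻¹) := by
        rw [map_sub, hjL, e1, hc, map_inv₀, map_pow]
        have h1 : τ ^ N ≠ 0 := pow_ne_zero _ hτ0
        have h2 : algebraMap K L a ^ N ≠ 0 := pow_ne_zero _ ((_root_.map_ne_zero _).mpr ha0)
        field_simp
        ring
      have hvx : w.adicValuation (algebraMap F L (j - algebraMap K F c)) < 1 := by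
        rw [hxL, map_mul, map_mul, Valuation.map_neg, map_inv₀, map_inv₀, hvτN, hvaN]
        simpa using hvpow
      have hposL : 0 < w.ord (algebraMap F L (j - algebraMap K F c)) :=
        (H95.adicValuation_lt_one_iff w hxL0).mp hvx
      have hposF : 0 < (w.restrict F).ord (j - algebraMap K F c) := by
        rw [w.ord_restrict (F := F)] at hposL
        by_contra hcon
        have : (Place.ramificationIndex (F := F) w : ℤ) * (w.restrict F).ord (j - algebraMap K F c)
            ≤ 0 := mul_nonpos_of_nonneg_of_nonpos (by positivity) (not_lt.mp hcon)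
        linarith
      have hone := hunr _ c hc0 hc1 hposF
      refine ramificationIndex_eq_one_of_tame w hdeg hgenA (j - algebraMap K F c)
        (((AdjoinSimple.gen K τ) ^ N)⁻¹ - algebraMap K K⟮τ⟯ c) ?_ ?_ ?_ ?_
      · have e2 : algebraMap K⟮τ⟯ L (algebraMap K K⟮τ⟯ c) = algebraMap K L c :=
          (IsScalarTower.algebraMap_apply K K⟮τ⟯ L c).symm
        rw [map_sub, map_sub, e1, e2, hjL]
        simp only [map_inv₀, map_pow, hgτ]
      · rw [hone]; exact one_pos
      · rw [hone]; exact one_dvd _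
      · rw [hone]; simp
  -- conclusion
  have h1 := w.ord_restrict (F := K⟮τ⟯) (AdjoinSimple.gen K τ - algebraMap K K⟮τ⟯ a)
  rw [map_sub, hgτ, ← IsScalarTower.algebraMap_apply, hkey] at h1
  have hposE : 0 < (w.restrict K⟮τ⟯).ord (AdjoinSimple.gen K τ - algebraMap K K⟮τ⟯ a) := by
    rw [h1] at hpos; simpa using hpos
  rw [h1, ord_gen_sub_eq_one τ a _ hposE]
  simp

end Cusp

section Instance

variable (N : ℕ) [NeZero N]

/-- **(HOR-OUT-CUSP)** for `F'c = F_N(τ)`, `τ ^ M * j = 1`, `N ∣ M`: the extension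
`F'c / Qbar(τ)` is unramified over every `τ = a` with `1728 a ^ M ≠ 1` (in particular over the
cusp `τ = 0`). -/
theorem ord_sub_eq_one_of_cusp_chart' {F'c : Type*} [Field F'c] [Algebra Qbar F'c]
    [Algebra (FN N) F'c] [IsScalarTower Qbar (FN N) F'c] (M : ℕ) (hM0 : M ≠ 0) (hNM : N ∣ M)
    (tau : F'c) (htau : tau ^ M * algebraMap (FN N) F'c (jBar N) = 1)
    (hgen : IntermediateField.adjoin (FN N) {tau} = ⊤)
    (v : Place Qbar F'c) (a : Qbar) (ha : 1728 * a ^ M ≠ 1)
    (hv : 0 < v.ord (tau - algebraMap Qbar F'c a)) :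
    v.ord (tau - algebraMap Qbar F'c a) = 1 := by
  haveI := H40.finiteDimensional_FN N
  refine ord_sub_eq_one_of_pow_mul_eq_one (jBar N) (H95.transcendental_jBar N) M hM0
    (fun u hu => (H95.ord_jBar_dvd_level N u hu).trans (by exact_mod_cast hNM))
    (fun u c hc0 hc1 hu => H95.ord_jBar_sub_eq_one N u c hc0 hc1 hu) tau htau hgen v a ha hv

/-- **(HOR-OUT-CUSP)**, the chart `τ ^ N = 1 / j`. -/
theorem ord_sub_eq_one_of_cusp_chart {F'c : Type*} [Field F'c] [Algebra Qbar F'c]
    [Algebra (FN N) F'c] [IsScalarTower Qbar (FN N) F'c]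
    (tau : F'c) (htau : tau ^ N * algebraMap (FN N) F'c (jBar N) = 1)
    (hgen : IntermediateField.adjoin (FN N) {tau} = ⊤)
    (v : Place Qbar F'c) (a : Qbar) (ha : 1728 * a ^ N ≠ 1)
    (hv : 0 < v.ord (tau - algebraMap Qbar F'c a)) :
    v.ord (tau - algebraMap Qbar F'c a) = 1 :=
  ord_sub_eq_one_of_cusp_chart' N N (NeZero.ne N) dvd_rfl tau htau hgen v a ha hv

end Instance

end Fermat.Agent.S18.H69
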