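import Mathlib
import Fermat.Agent.S18.H95_PlaceExt
import Fermat.Agent.S18.H69_HorOutCusp

/-!
helper69 — S18 / (HOR-INST-GENERIC): chart-parametric descent of the horizontal unramifiedness
from the geometric compositum `F'b = F(μ')` (over an algebraically closed constant field `K'`)
to the arithmetic auxiliary cover `E = F₁(μ)` over a subfield `K ⊆ K'`.

* `ord_aeval_eq_one_of_extension_of_not_dvd` : the descent when the big field is given;
* `ord_aeval_eq_one_of_compositum` : the compositum is constructed internally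
  (inside `AlgebraicClosure F`), the consumer only supplies (HOR-OUT) for *every* field `Fb`
  generated over `F` by the image of `μ`.
-/

set_option autoImplicit false
set_option linter.unusedSectionVars false
set_option linter.style.haveILetI false

noncomputable section

namespace Fermat.Agent.S18.H69

open AlgebraicCurve Polynomial IntermediateField

universe u

section Descent

variable {K F K' F' : Type*} [Field K] [Field F] [Algebra K F] [Field K'] [Field F']
  [Algebra K' F'] [Algebra K K'] [Algebra F F'] [Algebra K F'] [IsScalarTower K F F']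
  [IsScalarTower K K' F']

/-- Descent in the `hunr` shape of `H96.exists_uniformizer_of_places`: if `F'/K'(μ)` is unramified
over every `a` with `D(a) ≠ 0`, then `F/K(μ)` is unramified over every irreducible `g₀ ∤ D`. -/
theorem ord_aeval_eq_one_of_extension_of_not_dvd
    [Algebra.IsAlgebraic K K'] [IsAlgClosed K'] [CharZero K']
    (mu : F) (hmu' : Transcendental K' (algebraMap F F' mu))
    [FiniteDimensional K'⟮algebraMap F F' mu⟯ F'] (D : K[X])
    (hOUT : ∀ (v : Place K' F') (a : K'), (D.map (algebraMap K K')).eval a ≠ 0 →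
      0 < v.ord (algebraMap F F' mu - algebraMap K' F' a) →
      v.ord (algebraMap F F' mu - algebraMap K' F' a) = 1)
    (w : Place K F) (g₀ : K[X]) (hirr : Irreducible g₀) (hnd : ¬ g₀ ∣ D)
    (hw : 0 < w.ord (aeval mu g₀)) : w.ord (aeval mu g₀) = 1 := by
  haveI : CharZero K := ((algebraMap K K').charZero_iff (algebraMap K K').injective).mpr inferInstance
  have hsep : g₀.Separable := hirr.separable
  refine H95.ord_aeval_eq_one_of_extension (K := K) (K' := K') (F' := F') mu hmu' g₀ hsep ?_ w hw
  intro v a ha hv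
  refine hOUT v a ?_ hv
  have hcop : IsCoprime g₀ D := (hirr.coprime_iff_not_dvd).mpr hnd
  obtain ⟨p, q, hpq⟩ := hcop
  intro hDa
  have h1 := congrArg (fun r : K[X] => (r.map (algebraMap K K')).eval a) hpq
  simp only [Polynomial.map_add, Polynomial.map_mul, eval_add, eval_mul, Polynomial.map_one,
    eval_one] at h1
  rw [hDa, mul_zero, add_zero, show eval a (g₀.map (algebraMap K K')) = 0 from ha, mul_zero] at h1
  exact zero_ne_one h1

end Descent

section Compositum

variable {K K' F1 E : Type*} {F : Type u} [Field K] [Field K'] [Field F1] [Field F] [Field E]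
  [Algebra K K'] [Algebra K F1] [Algebra K' F] [Algebra K F] [Algebra F1 F]
  [IsScalarTower K F1 F] [IsScalarTower K K' F]
  [Algebra F1 E] [Algebra K E] [IsScalarTower K F1 E]

/-- **(HOR-INST-GENERIC).**  `K ⊆ K'` constant fields (`K'` algebraically closed of
characteristic `0`, algebraic over `K`), `F₁/K ⊆ F/K'` function fields, `E = F₁(μ)` an algebraic
auxiliary cover of `F₁`.  Suppose that for EVERY field `Fb ⊇ F` generated over `F` by the image of
`μ` under a ring map `f : E → Fb` compatible with `F₁ → F`:
* the distinguished function `j ∈ F` (with `[F : K'(j)] < ∞`) lies in `K'(f μ)`;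
* (HOR-OUT) `Fb / K'(f μ)` is unramified over every `a` with `D(a) ≠ 0`.
Then `E / K(μ)` is unramified over every irreducible `g₀ ∤ D`
(the `hunr` hypothesis of `H96.exists_uniformizer_of_places`). -/
theorem ord_aeval_eq_one_of_compositum
    [Algebra.IsAlgebraic K K'] [IsAlgClosed K'] [CharZero K'] [Algebra.IsAlgebraic F1 E]
    (mu : E) (hgen : F1⟮mu⟯ = ⊤) (htr : Transcendental K mu)
    (j : F) [FiniteDimensional K'⟮j⟯ F] (D : K[X])
    (hOUT : ∀ (Fb : Type u) [Field Fb] [Algebra K' Fb] [Algebra F Fb] [IsScalarTower K' F Fb]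
      (f : E →+* Fb), (∀ x : F1, f (algebraMap F1 E x) = algebraMap F Fb (algebraMap F1 F x)) →
      F⟮f mu⟯ = ⊤ →
      algebraMap F Fb j ∈ K'⟮f mu⟯ ∧
      ∀ (v : Place K' Fb) (a : K'), (D.map (algebraMap K K')).eval a ≠ 0 →
        0 < v.ord (f mu - algebraMap K' Fb a) → v.ord (f mu - algebraMap K' Fb a) = 1)
    (w : Place K E) (g₀ : K[X]) (hirr : Irreducible g₀) (hnd : ¬ g₀ ∣ D)
    (hw : 0 < w.ord (aeval mu g₀)) : w.ord (aeval mu g₀) = 1 := by
  classical
  -- the ambient algebraically closed field
  let Ω := AlgebraicClosure F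
  let lift : E →ₐ[F1] Ω := IsAlgClosed.lift
  let mu' : Ω := lift mu
  let Fb : IntermediateField F Ω := F⟮mu'⟯
  -- the image of `E` lies in `Fb`
  have hmem : ∀ y : E, (lift : E →+* Ω) y ∈ Fb := by
    intro y
    have hy : y ∈ F1⟮mu⟯ := by rw [hgen]; exact IntermediateField.mem_top
    have hle : F1⟮mu⟯ ≤ (Fb.restrictScalars F1).comap lift := by
      rw [IntermediateField.adjoin_simple_le_iff]
      show lift mu ∈ Fb
      exact mem_adjoin_simple_self F mu'
    exact hle hy
  let f : E →+* Fb := (lift : E →+* Ω).codRestrict Fb hmem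
  have hfcoe : ∀ y : E, ((f y : Fb) : Ω) = lift y := fun _ => rfl
  have hfcompat : ∀ x : F1, f (algebraMap F1 E x) = algebraMap F Fb (algebraMap F1 F x) := by
    intro x
    apply Subtype.ext
    rw [hfcoe, lift.commutes]
    exact IsScalarTower.algebraMap_apply F1 F Ω x
  have hfmu : ((f mu : Fb) : Ω) = mu' := rfl
  have hgenb : F⟮f mu⟯ = ⊤ := by
    apply IntermediateField.map_injective Fb.val
    rw [IntermediateField.adjoin_map, Set.image_singleton, ← AlgHom.fieldRange_eq_map,
      IntermediateField.fieldRange_val]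
    rfl
  obtain ⟨hjmem, hout⟩ := hOUT Fb f hfcompat hgenb
  -- algebra structures
  letI : Algebra E Fb := f.toAlgebra
  haveI : IsScalarTower K E Fb := by
    refine IsScalarTower.of_algebraMap_eq fun c => ?_
    show algebraMap K Fb c = f (algebraMap K E c)
    rw [IsScalarTower.algebraMap_apply K F1 E, hfcompat, ← IsScalarTower.algebraMap_apply K F1 F,
      ← IsScalarTower.algebraMap_apply K F Fb]
  haveI : IsScalarTower K K' Fb := by
    refine IsScalarTower.of_algebraMap_eq fun c => ?_
    rw [IsScalarTower.algebraMap_apply K' F Fb, ← IsScalarTower.algebraMap_apply K K' F,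
      ← IsScalarTower.algebraMap_apply K F Fb]
  have hfinj : Function.Injective (algebraMap E Fb) := (algebraMap E Fb).injective
  have hmu'tr : Transcendental K' (algebraMap E Fb mu) := by
    rw [← Algebra.IsAlgebraic.transcendental_iff K K']
    exact (transcendental_algebraMap_iff hfinj).mpr htr
  have hint : IsIntegral F (f mu) := by
    have h1 : IsIntegral F mu' := Algebra.IsIntegral.isIntegral mu'
    exact (isIntegral_algebraMap_iff (algebraMap Fb Ω).injective).mp h1
  haveI : FiniteDimensional K'⟮algebraMap E Fb mu⟯ Fb :=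
    finiteDimensional_adjoin_simple_of_tower j (f mu) hint hgenb hjmem
  exact ord_aeval_eq_one_of_extension_of_not_dvd (K := K) (K' := K') (F := E) (F' := Fb) mu hmu'tr
    D hout w g₀ hirr hnd hw

end Compositum

section CuspInstance

open Fermat.Agent.S24

variable (N : ℕ) [NeZero N]
variable {K F1 E : Type*} [Field K] [Field F1] [Field E]
  [Algebra K Qbar] [Algebra K F1] [Algebra K (FN N)] [Algebra F1 (FN N)]
  [IsScalarTower K F1 (FN N)] [IsScalarTower K Qbar (FN N)]
  [Algebra F1 E] [Algebra K E] [IsScalarTower K F1 E]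

/-- **(HOR-INST-CUSP)**, generic in the arithmetic data: `K ⊆ Qbar` a constant field, `F₁/K` a
model of `F_N` (`F₁ → F_N`, `j₁ ↦ j`), `E = F₁(τ)`, `τ ^ N * j₁ = 1`.  Then `E / K(τ)` is unramified
over every irreducible `g₀ ∤ 1728 X ^ N - 1`: the `hunr` hypothesis of
`H96.exists_uniformizer_of_places` for the cusp chart, `D := C 1728 * X ^ N - 1`. -/
theorem ord_aeval_eq_one_of_cusp_cover [Algebra.IsAlgebraic K Qbar] [Algebra.IsAlgebraic F1 E]
    (j1 : F1) (hj1 : algebraMap F1 (FN N) j1 = jBar N) (hj1tr : Transcendental K j1)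
    (tau : E) (htau : tau ^ N * algebraMap F1 E j1 = 1) (hgen : F1⟮tau⟯ = ⊤)
    (w : Place K E) (g₀ : K[X]) (hirr : Irreducible g₀)
    (hnd : ¬ g₀ ∣ (C (1728 : K) * X ^ N - 1))
    (hw : 0 < w.ord (aeval tau g₀)) : w.ord (aeval tau g₀) = 1 := by
  haveI := H40.finiteDimensional_FN N
  have htr : Transcendental K tau := transcendental_of_pow_mul_eq_one j1 hj1tr tau N htau
  refine ord_aeval_eq_one_of_compositum (K := K) (K' := Qbar) (F1 := F1) (F := FN N) tau hgen htr
    (jBar N) (C (1728 : K) * X ^ N - 1) ?_ w g₀ hirr hnd hw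
  intro Fb _ _ _ _ f hf hgenb
  have hrel : f tau ^ N * algebraMap (FN N) Fb (jBar N) = 1 := by
    rw [← hj1, ← hf, ← map_pow, ← map_mul, htau, map_one]
  refine ⟨?_, ?_⟩
  · have h : algebraMap (FN N) Fb (jBar N) = (f tau ^ N)⁻¹ := eq_inv_of_mul_eq_one_right hrel
    rw [h]
    exact inv_mem (pow_mem (mem_adjoin_simple_self Qbar (f tau)) N)
  · intro v a ha hv
    refine ord_sub_eq_one_of_cusp_chart N (f tau) hrel hgenb v a ?_ hv
    intro h1
    apply ha
    simp only [Polynomial.map_sub, Polynomial.map_mul, Polynomial.map_pow, Polynomial.map_one,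
      map_X, eval_sub, eval_mul, eval_pow, eval_X, eval_one, map_ofNat, Polynomial.map_ofNat,
      eval_ofNat]
    rw [h1, sub_self]

end CuspInstance

end Fermat.Agent.S18.H69
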