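import Mathlib
import Fermat.Agent.S18.H26_AuxCover

/-!
# S18 / (GR) AUX, part 2: field-level facts on the Legendre and Hesse covers

For a field extension `E / K` and `y : E` transcendental over `K`:
* `hesJ y`, `legJ y` are transcendental over `K` (characteristic `≠ 3`, resp. `≠ 2`);
* the twelve (six) conjugates `hesConj`, `legConj` of `y` are pairwise distinct
  (`Γ → Aut K(y)` is injective; this also holds after reduction mod `ℓ`, `ℓ ≠ 3` resp. `ℓ ≠ 2`);
* every solution `x` of `hesJ x = hesJ m` is a conjugate (enumeration of the fibre).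
-/

set_option autoImplicit false

open Polynomial

namespace Fermat.Agent.S18.H26

section Quadratic

variable {K E : Type*} [Field K] [Field E] [Algebra K E]

/-- A transcendental element satisfies no quadratic relation. -/
theorem quadratic_eq_zero_of_transcendental {y : E} (hy : Transcendental K y) {a b c : K}
    (h : algebraMap K E a * y ^ 2 + algebraMap K E b * y + algebraMap K E c = 0) :
    a = 0 ∧ b = 0 ∧ c = 0 := by
  have hp : (C a * X ^ 2 + C b * X + C c : K[X]) = 0 := by
    by_contra hne
    apply hy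
    refine ⟨_, hne, ?_⟩
    simpa using h
  have h2 := congrArg (fun p => p.coeff 2) hp
  have h1 := congrArg (fun p => p.coeff 1) hp
  have h0 := congrArg (fun p => p.coeff 0) hp
  simp [coeff_X, coeff_C, coeff_X_pow] at h2 h1 h0
  exact ⟨h2, h1, h0⟩

end Quadratic

/-! ## The twelve Hesse conjugates -/

section HesConj

variable {E : Type*} [Field E]

/-- The twelve conjugates of `m`: `ω^i m` and `ω^i (ω^j m + 2)/(ω^j m - 1)`. -/
noncomputable def hesConj (w m : E) (i : Fin 3) : Option (Fin 3) → E
  | none => w ^ (i : ℕ) * m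
  | some j => w ^ (i : ℕ) * ((w ^ (j : ℕ) * m + 2) / (w ^ (j : ℕ) * m - 1))

theorem pow_cube_root_unity {w : E} (hw : w ^ 2 + w + 1 = 0) (n : ℕ) : (w ^ n) ^ 3 = 1 := by
  rw [← pow_mul, mul_comm, pow_mul, cube_root_unity w hw, one_pow]

theorem rot_ne_one {w m : E} (hw : w ^ 2 + w + 1 = 0) (hm : hesB m ≠ 0) (n : ℕ) :
    w ^ n * m ≠ 1 := by
  intro h
  apply hm
  have : (w ^ n * m) ^ 3 = m ^ 3 := by rw [mul_pow, pow_cube_root_unity hw, one_mul]
  unfold hesB
  rw [← this, h]; ring

theorem hesJ_hesConj {w m : E} (hw : w ^ 2 + w + 1 = 0) (hm : hesB m ≠ 0) (i : Fin 3)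
    (o : Option (Fin 3)) : hesJ (hesConj w m i o) = hesJ m := by
  cases o with
  | none => exact hesJ_rot _ _ (pow_cube_root_unity hw _)
  | some j =>
    show hesJ (w ^ (i : ℕ) * ((w ^ (j : ℕ) * m + 2) / (w ^ (j : ℕ) * m - 1))) = hesJ m
    rw [hesJ_rot _ _ (pow_cube_root_unity hw _), hesJ_invol (rot_ne_one hw hm _),
      hesJ_rot _ _ (pow_cube_root_unity hw _)]

/-- Enumeration of the fibre of `hesJ`. -/
theorem exists_hesConj_of_hesJ_eq {w m x : E} (h3 : (3 : E) ≠ 0) (hw : w ^ 2 + w + 1 = 0)
    (hm : hesB m ≠ 0) (hx : hesB x ≠ 0) (h : hesJ x = hesJ m) :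
    ∃ (i : Fin 3) (o : Option (Fin 3)), x = hesConj w m i o := by
  have key : ∀ (j : Fin 3), hesF w (w ^ (j : ℕ) * m) x = 0 →
      ∃ (i : Fin 3), x = hesConj w m i (some j) := by
    intro j hF
    have hne : w ^ (j : ℕ) * m - 1 ≠ 0 := sub_ne_zero.mpr (rot_ne_one hw hm _)
    unfold hesF at hF
    simp only [mul_eq_zero] at hF
    have solve : ∀ c : E, (w ^ (j : ℕ) * m - 1) * x - c * (w ^ (j : ℕ) * m + 2) = 0 →
        x = c * ((w ^ (j : ℕ) * m + 2) / (w ^ (j : ℕ) * m - 1)) := by
      intro c hc
      field_simp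
      linear_combination hc
    rcases hF with (h1 | h1) | h1
    · refine ⟨0, ?_⟩
      have := solve 1 (by rw [one_mul]; exact h1)
      simpa [hesConj] using this
    · refine ⟨1, ?_⟩
      have := solve w h1
      simpa [hesConj] using this
    · refine ⟨2, ?_⟩
      have := solve (w ^ 2) h1
      simpa [hesConj] using this
  rcases (hesJ_eq_hesJ_iff hm hx h3 w hw).mp h with (h1 | h1 | h1) | h1 | h1 | h1
  · exact ⟨0, none, by simp [hesConj, h1]⟩
  · exact ⟨1, none, by simp [hesConj, h1]⟩
  · exact ⟨2, none, by simp [hesConj, h1]⟩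
  · obtain ⟨i, hi⟩ := key 0 (by simpa using h1)
    exact ⟨i, some 0, hi⟩
  · obtain ⟨i, hi⟩ := key 1 (by simpa using h1)
    exact ⟨i, some 1, hi⟩
  · obtain ⟨i, hi⟩ := key 2 (by simpa using h1)
    exact ⟨i, some 2, hi⟩

end HesConj

section HesConjInj

variable {K E : Type*} [Field K] [Field E] [Algebra K E]

theorem cube_root_ne_one {w : K} (hw : w ^ 2 + w + 1 = 0) (h3 : (3 : K) ≠ 0) : w ≠ 1 := by
  rintro rfl
  apply h3
  linear_combination hw

theorem cube_root_ne_zero {w : K} (hw : w ^ 2 + w + 1 = 0) : w ≠ 0 := by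
  rintro rfl
  simp at hw

theorem cube_root_sq_ne_one {w : K} (hw : w ^ 2 + w + 1 = 0) (h3 : (3 : K) ≠ 0) : w ^ 2 ≠ 1 := by
  intro h
  have h1 : w = -2 := by linear_combination hw - h
  apply h3
  rw [h1] at h
  linear_combination h

theorem cube_root_pow_injective {w : K} (hw : w ^ 2 + w + 1 = 0) (h3 : (3 : K) ≠ 0)
    {a b : Fin 3} (h : w ^ (a : ℕ) = w ^ (b : ℕ)) : a = b := by
  have h1 := cube_root_ne_one hw h3
  have h2 := cube_root_sq_ne_one hw h3
  have h0 := cube_root_ne_zero hw
  have h12 : w ≠ w ^ 2 := by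
    intro h'
    apply h1
    have : w * (w - 1) = 0 := by linear_combination -h'
    rcases mul_eq_zero.mp this with h'' | h''
    · exact absurd h'' h0
    · exact sub_eq_zero.mp h''
  fin_cases a <;> fin_cases b <;> simp_all [eq_comm]

/-- **Faithfulness**: the twelve conjugates of a transcendental element are pairwise distinct
(characteristic `≠ 3`). -/
theorem hesConj_injective {y : E} (hy : Transcendental K y) {w : K} (hw : w ^ 2 + w + 1 = 0)
    (h3 : (3 : K) ≠ 0) {i i' : Fin 3} {o o' : Option (Fin 3)}
    (h : hesConj (algebraMap K E w) y i o = hesConj (algebraMap K E w) y i' o') :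
    i = i' ∧ o = o' := by
  have hinj := (algebraMap K E).injective
  have hden : ∀ j : ℕ, (algebraMap K E w) ^ j * y - 1 ≠ 0 := by
    intro j hj
    have := quadratic_eq_zero_of_transcendental hy (a := 0) (b := w ^ j) (c := -1)
      (by simp only [map_zero, zero_mul, zero_add, map_pow, map_neg, map_one]
          linear_combination hj)
    simp at this
  have hw0 := cube_root_ne_zero hw
  cases o with
  | none =>
    cases o' with
    | none =>
      simp only [hesConj] at h
      have := quadratic_eq_zero_of_transcendental hy (a := 0)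
        (b := w ^ (i : ℕ) - w ^ (i' : ℕ)) (c := 0)
        (by simp only [map_zero, zero_mul, zero_add, map_sub, map_pow, add_zero]
            linear_combination h)
      exact ⟨cube_root_pow_injective hw h3 (sub_eq_zero.mp this.2.1), rfl⟩
    | some j' =>
      exfalso
      simp only [hesConj] at h
      have hd := hden j'
      rw [mul_div_assoc', eq_div_iff hd] at h
      have := quadratic_eq_zero_of_transcendental hy (a := w ^ (i : ℕ) * w ^ (j' : ℕ))
        (b := -w ^ (i : ℕ) - w ^ (i' : ℕ) * w ^ (j' : ℕ)) (c := -2 * w ^ (i' : ℕ))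
        (by simp only [map_mul, map_pow, map_sub, map_neg, map_ofNat]
            linear_combination h)
      exact absurd this.1 (mul_ne_zero (pow_ne_zero _ hw0) (pow_ne_zero _ hw0))
  | some j =>
    cases o' with
    | none =>
      exfalso
      simp only [hesConj] at h
      have hd := hden j
      rw [mul_div_assoc', div_eq_iff hd] at h
      have := quadratic_eq_zero_of_transcendental hy (a := w ^ (i' : ℕ) * w ^ (j : ℕ))
        (b := -w ^ (i' : ℕ) - w ^ (i : ℕ) * w ^ (j : ℕ)) (c := -2 * w ^ (i : ℕ))
        (by simp only [map_mul, map_pow, map_sub, map_neg, map_ofNat]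
            linear_combination -h)
      exact absurd this.1 (mul_ne_zero (pow_ne_zero _ hw0) (pow_ne_zero _ hw0))
    | some j' =>
      simp only [hesConj] at h
      have hd := hden j
      have hd' := hden j'
      rw [mul_div_assoc', mul_div_assoc', div_eq_div_iff hd hd'] at h
      have := quadratic_eq_zero_of_transcendental hy
        (a := w ^ (i : ℕ) * w ^ (j : ℕ) * w ^ (j' : ℕ) - w ^ (i' : ℕ) * w ^ (j' : ℕ) * w ^ (j : ℕ))
        (b := w ^ (i : ℕ) * (2 * w ^ (j' : ℕ) - w ^ (j : ℕ))
          - w ^ (i' : ℕ) * (2 * w ^ (j : ℕ) - w ^ (j' : ℕ)))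
        (c := -2 * w ^ (i : ℕ) + 2 * w ^ (i' : ℕ))
        (by simp only [map_mul, map_pow, map_sub, map_neg, map_ofNat, map_add]
            linear_combination h)
      obtain ⟨ha, hb, -⟩ := this
      have hii : i = i' := by
        apply cube_root_pow_injective hw h3
        have : (w ^ (i : ℕ) - w ^ (i' : ℕ)) * (w ^ (j : ℕ) * w ^ (j' : ℕ)) = 0 := by
          linear_combination ha
        rcases mul_eq_zero.mp this with h' | h'
        · exact sub_eq_zero.mp h'
        · exact absurd h' (mul_ne_zero (pow_ne_zero _ hw0) (pow_ne_zero _ hw0))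
      subst hii
      have hjj : j = j' := by
        apply cube_root_pow_injective hw h3
        have : (3 : K) * w ^ (i : ℕ) * (w ^ (j' : ℕ) - w ^ (j : ℕ)) = 0 := by
          linear_combination hb
        rcases mul_eq_zero.mp this with h' | h'
        · exact absurd h' (mul_ne_zero h3 (pow_ne_zero _ hw0))
        · exact (sub_eq_zero.mp h').symm
      exact ⟨rfl, by rw [hjj]⟩

end HesConjInj

/-! ## Transcendence of the `j`-functions -/

section Transc

variable {K E : Type*} [Field K] [Field E] [Algebra K E]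

/-- If `y` is a root of a nonzero polynomial with coefficients in `K⟮t⟯` and `t` is algebraic
over `K`, then `y` is algebraic over `K`. -/
theorem isAlgebraic_of_root_over_adjoin {t y : E} (ht : IsAlgebraic K t)
    (p : (IntermediateField.adjoin K {t})[X]) (hp : p ≠ 0) (hy : aeval y p = 0) :
    IsAlgebraic K y := by
  have h1 : Algebra.IsAlgebraic K (IntermediateField.adjoin K {t}) :=
    IntermediateField.isAlgebraic_adjoin_simple ht.isIntegral
  have h2 : IsAlgebraic (IntermediateField.adjoin K {t}) y := ⟨p, hp, hy⟩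
  exact IsAlgebraic.restrictScalars K h2

theorem transcendental_hesJ {y : E} (hy : Transcendental K y) (h3 : (3 : K) ≠ 0) :
    Transcendental K (hesJ y) := by
  intro halg
  apply hy
  have hB : hesB y ≠ 0 := by
    intro h0
    have h1 : y ^ 3 = 1 := by
      unfold hesB at h0
      exact sub_eq_zero.mp (pow_eq_zero_iff (by norm_num) |>.mp h0)
    apply hy
    refine ⟨X ^ 3 - 1, ?_, by simp [h1]⟩
    exact (monic_X_pow_sub_C (1 : K) (by norm_num)).ne_zero
  let t : IntermediateField.adjoin K {hesJ y} :=
    ⟨hesJ y, IntermediateField.mem_adjoin_simple_self K _⟩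
  have h27 : (27 : IntermediateField.adjoin K {hesJ y}) ≠ 0 := by
    have e : (27 : IntermediateField.adjoin K {hesJ y})
        = algebraMap K _ (27 : K) := (map_ofNat _ 27).symm
    rw [e]
    have : (27 : K) = 3 ^ 3 := by norm_num
    rw [this]
    exact (_root_.map_ne_zero _).mpr (pow_ne_zero _ h3)
  refine isAlgebraic_of_root_over_adjoin halg (hesPoly t) ?_ ?_
  · intro h0
    have := natDegree_hesPoly t h27
    rw [h0] at this
    simp at this
  · have e : aeval y (hesPoly t) = 27 * hesA y - hesJ y * hesB y := by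
      simp [hesPoly, hesA, hesB, t, map_ofNat]
    rw [e, hesJ_mul_hesB hB, sub_self]

theorem transcendental_legJ {y : E} (hy : Transcendental K y) (h2 : (2 : K) ≠ 0) :
    Transcendental K (legJ y) := by
  intro halg
  apply hy
  have hB : legB y ≠ 0 := by
    apply legB_ne_zero
    · rintro rfl
      exact hy ⟨X, X_ne_zero, by simp⟩
    · rintro rfl
      exact hy ⟨X - 1, (monic_X_sub_C (1 : K)).ne_zero, by simp⟩
  let t : IntermediateField.adjoin K {legJ y} :=
    ⟨legJ y, IntermediateField.mem_adjoin_simple_self K _⟩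
  have h256 : (256 : IntermediateField.adjoin K {legJ y}) ≠ 0 := by
    have e : (256 : IntermediateField.adjoin K {legJ y})
        = algebraMap K _ (256 : K) := (map_ofNat _ 256).symm
    rw [e]
    have : (256 : K) = 2 ^ 8 := by norm_num
    rw [this]
    exact (_root_.map_ne_zero _).mpr (pow_ne_zero _ h2)
  refine isAlgebraic_of_root_over_adjoin halg (legPoly t) ?_ ?_
  · intro h0
    have := natDegree_legPoly t h256
    rw [h0] at this
    simp at this
  · have e : aeval y (legPoly t) = 256 * legA y ^ 3 - legJ y * legB y := by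
      simp [legPoly, legA, legB, t, map_ofNat]
    rw [e, legJ_mul_legB hB, sub_self]

end Transc

/-! ## The six Legendre conjugates -/

section LegConj

/-- Integer matrices `(a, b, c, d)` of the six Legendre transforms `(a l + b)/(c l + d)`:
`l, 1-l, 1/l, 1/(1-l), l/(l-1), (l-1)/l`. -/
def legMat : Fin 6 → ℤ × ℤ × ℤ × ℤ
  | 0 => (1, 0, 0, 1)
  | 1 => (-1, 1, 0, 1)
  | 2 => (0, 1, 1, 0)
  | 3 => (0, 1, -1, 1)
  | 4 => (1, 0, 1, -1)
  | 5 => (1, -1, 1, 0)

variable {E : Type*} [Field E]

/-- The six conjugates of `l`. -/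
noncomputable def legConj (l : E) (i : Fin 6) : E :=
  (((legMat i).1 : E) * l + ((legMat i).2.1 : E)) / (((legMat i).2.2.1 : E) * l + ((legMat i).2.2.2 : E))

theorem legConj_zero (l : E) : legConj l 0 = l := by simp [legConj, legMat]
theorem legConj_one (l : E) : legConj l 1 = 1 - l := by simp [legConj, legMat]; ring
theorem legConj_two (l : E) : legConj l 2 = l⁻¹ := by simp [legConj, legMat]
theorem legConj_three (l : E) : legConj l 3 = (1 - l)⁻¹ := by
  simp [legConj, legMat]; ring_nf
theorem legConj_four (l : E) : legConj l 4 = l / (l - 1) := by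
  simp [legConj, legMat]; ring_nf
theorem legConj_five (l : E) : legConj l 5 = (l - 1) / l := by
  simp [legConj, legMat]; ring_nf

theorem legJ_legConj {l : E} (h : legB l ≠ 0) (i : Fin 6) : legJ (legConj l i) = legJ l := by
  obtain ⟨h0, h1⟩ := legB_ne_zero_iff.mp h
  have h1' : l - 1 ≠ 0 := sub_ne_zero.mpr h1
  have h1'' : 1 - l ≠ 0 := sub_ne_zero.mpr (Ne.symm h1)
  fin_cases i
  · show legJ (legConj l 0) = _
    rw [legConj_zero]
  · show legJ (legConj l 1) = _
    rw [legConj_one, legJ_one_sub]
  · show legJ (legConj l 2) = _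
    rw [legConj_two, legJ_inv h0]
  · show legJ (legConj l 3) = _
    rw [legConj_three, legJ_inv h1'', legJ_one_sub]
  · show legJ (legConj l 4) = _
    rw [legConj_four]
    have : l / (l - 1) = 1 - (1 - l)⁻¹ := by field_simp; ring
    rw [this, legJ_one_sub, legJ_inv h1'', legJ_one_sub]
  · show legJ (legConj l 5) = _
    rw [legConj_five]
    have : (l - 1) / l = 1 - l⁻¹ := by field_simp
    rw [this, legJ_one_sub, legJ_inv h0]

/-- Enumeration of the fibre of `legJ`. -/
theorem exists_legConj_of_legJ_eq {l x : E} (h2 : (2 : E) ≠ 0) (hl : legB l ≠ 0) (hx : legB x ≠ 0)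
    (h : legJ x = legJ l) : ∃ i : Fin 6, x = legConj l i := by
  obtain ⟨h0, h1⟩ := legB_ne_zero_iff.mp hl
  have h1' : l - 1 ≠ 0 := sub_ne_zero.mpr h1
  have h1'' : 1 - l ≠ 0 := sub_ne_zero.mpr (Ne.symm h1)
  rcases (legJ_eq_legJ_iff hl hx h2).mp h with h | h | h | h | h | h
  · exact ⟨0, by rw [legConj_zero, h]⟩
  · exact ⟨1, by rw [legConj_one, h]⟩
  · exact ⟨2, by rw [legConj_two]; exact eq_inv_of_mul_eq_one_right h⟩
  · exact ⟨3, by rw [legConj_three]; exact eq_inv_of_mul_eq_one_right h⟩
  · exact ⟨4, by rw [legConj_four, eq_div_iff h1']; linear_combination h⟩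
  · exact ⟨5, by rw [legConj_five, eq_div_iff h0]; linear_combination h⟩

end LegConj

section LegConjInj

variable {K E : Type*} [Field K] [Field E] [Algebra K E]

/-- Two Möbius transforms with coefficients in `K` agreeing at a transcendental element have
proportional matrices (in cross-multiplied form). -/
theorem mobius_eq_of_transcendental {y : E} (hy : Transcendental K y) {a b c d a' b' c' d' : K}
    (hcd : ¬ (c = 0 ∧ d = 0)) (hcd' : ¬ (c' = 0 ∧ d' = 0))
    (h : (algebraMap K E a * y + algebraMap K E b) / (algebraMap K E c * y + algebraMap K E d)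
      = (algebraMap K E a' * y + algebraMap K E b') /
        (algebraMap K E c' * y + algebraMap K E d')) :
    a * c' - a' * c = 0 ∧ a * d' + b * c' - a' * d - b' * c = 0 ∧ b * d' - b' * d = 0 := by
  have hden : ∀ {c d : K}, ¬ (c = 0 ∧ d = 0) → algebraMap K E c * y + algebraMap K E d ≠ 0 := by
    intro c d hcd h0
    have := quadratic_eq_zero_of_transcendental hy (a := 0) (b := c) (c := d)
      (by simp only [map_zero, zero_mul, zero_add]; exact h0)
    exact hcd ⟨this.2.1, this.2.2⟩
  rw [div_eq_div_iff (hden hcd) (hden hcd')] at h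
  exact quadratic_eq_zero_of_transcendental hy
    (by simp only [map_sub, map_mul, map_add]; linear_combination h)

/-- **Faithfulness (Legendre)**: the six conjugates of a transcendental element are pairwise
distinct, in every characteristic. -/
theorem legConj_injective {y : E} (hy : Transcendental K y) : Function.Injective (legConj y) := by
  intro i k h
  by_contra hne
  have key : ∀ (i k : Fin 6), legConj y i = legConj y k →
      (((legMat i).1 * (legMat k).2.2.1 - (legMat k).1 * (legMat i).2.2.1 : ℤ) : K) = 0 ∧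
      (((legMat i).1 * (legMat k).2.2.2 + (legMat i).2.1 * (legMat k).2.2.1
        - (legMat k).1 * (legMat i).2.2.2 - (legMat k).2.1 * (legMat i).2.2.1 : ℤ) : K) = 0 ∧
      (((legMat i).2.1 * (legMat k).2.2.2 - (legMat k).2.1 * (legMat i).2.2.2 : ℤ) : K) = 0 := by
    intro i k h
    have hcd : ∀ i : Fin 6, ¬ ((((legMat i).2.2.1 : ℤ) : K) = 0 ∧ (((legMat i).2.2.2 : ℤ) : K) = 0) := by
      intro i
      fin_cases i <;> simp [legMat]
    have := mobius_eq_of_transcendental hy (a := ((legMat i).1 : K)) (b := ((legMat i).2.1 : K))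
      (c := ((legMat i).2.2.1 : K)) (d := ((legMat i).2.2.2 : K))
      (a' := ((legMat k).1 : K)) (b' := ((legMat k).2.1 : K))
      (c' := ((legMat k).2.2.1 : K)) (d' := ((legMat k).2.2.2 : K)) (hcd i) (hcd k)
      (by simpa [legConj] using h)
    push_cast
    exact this
  have := key i k h
  revert this hne
  fin_cases i <;> fin_cases k <;> simp [legMat]

end LegConjInj

end Fermat.Agent.S18.H26
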