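import Mathlib

/-!
# S18 / route Q, INST-3: compositum + Galois action (abstract, Mathlib only)

* `(G1)` splitting from an explicit factorisation identity `C a * p = q`.
* `(G2)` `E = K(μ)`, `μ` a root of a separable `P` that splits in `E`  ⟹  `E / K` finite Galois.
* `(G3)` AKLB bundle: the action of `Gal(E/K)` on the integral closure `B` of `A` in `E` and
  `IsGaloisGroup Gal(E/K) A B`, plus the side conditions used by `H67`.
* `(G4)` the concrete instance `A := integralClosure R K`, `B := integralClosure R E`.
-/

set_option autoImplicit false
set_option linter.unusedSectionVars false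
set_option linter.style.haveILetI false

open Polynomial IntermediateField

namespace Fermat.Agent.S18.H70

/-! ## (G1) splitting from a factorisation identity -/

section Splits

variable {E : Type*} [Field E]

/-- If `C a * p` splits and `a ≠ 0` then `p` splits. -/
theorem splits_of_C_mul_splits {a : E} (ha : a ≠ 0) {p : E[X]} (h : (C a * p).Splits) :
    p.Splits := by
  have : p = C a⁻¹ * (C a * p) := by
    rw [← mul_assoc, ← C_mul, inv_mul_cancel₀ ha, C_1, one_mul]
  rw [this]
  exact h.C_mul _

/-- If `C a * p = q`, `a ≠ 0` and `q` splits then `p` splits. -/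
theorem splits_of_C_mul_eq {a : E} (ha : a ≠ 0) {p q : E[X]} (h : C a * p = q) (hq : q.Splits) :
    p.Splits :=
  splits_of_C_mul_splits ha (h ▸ hq)

/-- A linear form `C a * X - C b` splits. -/
theorem splits_C_mul_X_sub_C (a b : E) : (C a * X - C b).Splits := by
  apply Splits.of_natDegree_le_one
  refine (natDegree_sub_le _ _).trans ?_
  rw [natDegree_C, max_le_iff]
  exact ⟨(natDegree_C_mul_le a X).trans natDegree_X_le, zero_le_one⟩

/-- A linear form `C a * X - 1` splits. -/
theorem splits_C_mul_X_sub_one (a : E) : (C a * X - 1).Splits := by
  have := splits_C_mul_X_sub_C a (1 : E)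
  rwa [C_1] at this

/-- A finite product of linear forms times a constant splits. -/
theorem splits_C_mul_prod_linear {ι : Type*} (s : Finset ι) (c : E) (α β : ι → E) :
    (C c * ∏ i ∈ s, (C (α i) * X - C (β i))).Splits :=
  (Splits.prod fun i _ => splits_C_mul_X_sub_C (α i) (β i)).C_mul c

end Splits

/-! ## (G2) the Galois property -/

section Galois

variable {K E : Type*} [Field K] [Field E] [Algebra K E]

/-- **(G2)** If `E = K(μ)` where `μ` is a root of a separable polynomial `P ∈ K[X]` which splits
in `E`, then `E` is a splitting field of `P`. -/
theorem isSplittingField_of_primitive_root_splits (P : K[X]) (hP0 : P ≠ 0) (μ : E)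
    (hμ : aeval μ P = 0) (htop : K⟮μ⟯ = ⊤)
    (hsplit : (P.map (algebraMap K E)).Splits) : P.IsSplittingField K E := by
  refine ⟨hsplit, ?_⟩
  have hint : IsIntegral K μ := ⟨P * C P.leadingCoeff⁻¹, monic_mul_leadingCoeff_inv hP0, by
    rw [← aeval_def, map_mul, hμ, zero_mul]⟩
  have hmem : μ ∈ P.rootSet E := by
    rw [mem_rootSet]
    exact ⟨hP0, hμ⟩
  have h1 : Algebra.adjoin K {μ} ≤ Algebra.adjoin K (P.rootSet E) :=
    Algebra.adjoin_mono (Set.singleton_subset_iff.mpr hmem)
  have h2 : Algebra.adjoin K {μ} = ⊤ := by
    have := IntermediateField.adjoin_simple_toSubalgebra_of_isAlgebraic hint.isAlgebraic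
    rw [← this, htop, IntermediateField.top_toSubalgebra]
  exact top_le_iff.mp (h2 ▸ h1)

/-- **(G2)** If `E = K(μ)` where `μ` is a root of a separable polynomial `P ∈ K[X]` which splits
in `E`, then `E / K` is Galois. -/
theorem isGalois_of_primitive_root_splits (P : K[X]) (hP : P.Separable) (μ : E)
    (hμ : aeval μ P = 0) (htop : K⟮μ⟯ = ⊤)
    (hsplit : (P.map (algebraMap K E)).Splits) : IsGalois K E := by
  have := isSplittingField_of_primitive_root_splits P hP.ne_zero μ hμ htop hsplit
  exact IsGalois.of_separable_splitting_field hP

/-- **(G2)** ... and finite-dimensional. -/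
theorem finiteDimensional_of_primitive_root (P : K[X]) (hP0 : P ≠ 0) (μ : E)
    (hμ : aeval μ P = 0) (htop : K⟮μ⟯ = ⊤) : FiniteDimensional K E := by
  have hint : IsIntegral K μ := ⟨P * C P.leadingCoeff⁻¹, monic_mul_leadingCoeff_inv hP0, by
    rw [← aeval_def, map_mul, hμ, zero_mul]⟩
  have : FiniteDimensional K K⟮μ⟯ := IntermediateField.adjoin.finiteDimensional hint
  rw [htop] at this
  exact (IntermediateField.topEquiv (F := K) (E := E)).toLinearEquiv.finiteDimensional

/-- **(G2), `AdjoinRoot` form.** `P` separable, `P₁ ∣ P` irreducible, `P` splits in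
`E := K[X]/(P₁)`  ⟹  `E / K` is Galois. -/
theorem isGalois_adjoinRoot (P P₁ : K[X]) [Fact (Irreducible P₁)] (hP : P.Separable)
    (hdvd : P₁ ∣ P) (hsplit : (P.map (algebraMap K (AdjoinRoot P₁))).Splits) :
    IsGalois K (AdjoinRoot P₁) := by
  refine isGalois_of_primitive_root_splits P hP (AdjoinRoot.root P₁) ?_ ?_ hsplit
  · obtain ⟨Q, rfl⟩ := hdvd
    rw [map_mul, AdjoinRoot.aeval_eq, AdjoinRoot.mk_self, zero_mul]
  · exact IntermediateField.adjoin_eq_top_of_algebra K _ AdjoinRoot.adjoinRoot_eq_top

/-- `AdjoinRoot` of an irreducible polynomial is finite-dimensional. -/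
theorem finiteDimensional_adjoinRoot (P₁ : K[X]) [h : Fact (Irreducible P₁)] :
    FiniteDimensional K (AdjoinRoot P₁) :=
  (AdjoinRoot.powerBasis h.out.ne_zero).finite

end Galois

/-! ## (G3) the AKLB bundle -/

section AKLB

variable (A K E B : Type*) [CommRing A] [CommRing B] [Field K] [Field E]
  [Algebra A K] [Algebra B E] [IsFractionRing A K] [IsFractionRing B E]
  [Algebra A B] [Algebra K E] [Algebra A E] [IsScalarTower A K E] [IsScalarTower A B E]
  [IsIntegrallyClosed A] [IsIntegralClosure B A E]

/-- **(G3)** In the AKLB setup with `E / K` finite Galois, `Gal(E/K)` (acting on `B` through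
`IsIntegralClosure.MulSemiringAction`) is a Galois group for `B / A`: the action is faithful,
commutes with `A`, and `B^G = A`. -/
theorem isGaloisGroup_integralClosure [FiniteDimensional K E] [IsGalois K E] :
    letI := IsIntegralClosure.MulSemiringAction A K E B
    IsGaloisGroup Gal(E/K) A B := by
  letI := IsIntegralClosure.MulSemiringAction A K E B
  have : Algebra.IsIntegral A B := IsIntegralClosure.isIntegral_algebra A E
  exact IsGaloisGroup.of_isFractionRing Gal(E/K) A B K E

/-- The action is the restriction of the Galois action. -/
theorem algebraMap_smul_integralClosure [Algebra.IsAlgebraic K E] (σ : Gal(E/K)) (b : B) :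
    letI := IsIntegralClosure.MulSemiringAction A K E B
    algebraMap B E (σ • b) = σ (algebraMap B E b) :=
  algebraMap_galRestrict_apply A σ b

include K E in
/-- `A → B` is injective. -/
theorem faithfulSMul_integralClosure : FaithfulSMul A B := by
  rw [faithfulSMul_iff_algebraMap_injective]
  intro x y hxy
  have h := congrArg (algebraMap B E) hxy
  rw [← IsScalarTower.algebraMap_apply, ← IsScalarTower.algebraMap_apply,
    IsScalarTower.algebraMap_apply A K E, IsScalarTower.algebraMap_apply A K E] at h
  exact IsFractionRing.injective A K ((algebraMap K E).injective h)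

include A E in
/-- `B` is a domain. -/
theorem isDomain_integralClosure : IsDomain B :=
  (IsIntegralClosure.algebraMap_injective B A E).isDomain _

/-- `B` is a finite `A`-module when `A` is noetherian (`E / K` finite separable). -/
theorem moduleFinite_integralClosure [IsNoetherianRing A] [FiniteDimensional K E]
    [Algebra.IsSeparable K E] : Module.Finite A B := by
  have : IsDomain A := (IsFractionRing.injective A K).isDomain _
  exact IsIntegralClosure.finite A K E B

end AKLB

/-! ## (G4) the concrete instance `A := integralClosure R K`, `B := integralClosure R' E`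

`R'` is a second base ring, integral over `R` (e.g. `R = A₁[j]`, `R' = A₁[μ, 1/(μ³-1)]`); take
`R' = R` for the plain version. -/

section Concrete

variable (R R' K E : Type*) [CommRing R] [CommRing R'] [Field K] [Field E]
  [Algebra R R'] [Algebra R K] [Algebra R E] [Algebra R' E] [Algebra K E]
  [IsScalarTower R K E] [IsScalarTower R R' E]

/-- The canonical map `integralClosure R K → integralClosure R' E`. -/
noncomputable def integralClosureMap : integralClosure R K →+* integralClosure R' E where
  toFun a := ⟨algebraMap K E (a : K),
    (((a.2 : IsIntegral R (a : K)).map (IsScalarTower.toAlgHom R K E)) :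
      IsIntegral R (algebraMap K E (a : K))).tower_top⟩
  map_one' := Subtype.ext (by simp)
  map_mul' a b := Subtype.ext (by simp)
  map_zero' := Subtype.ext (by simp)
  map_add' a b := Subtype.ext (by simp)

/-- The canonical algebra structure `integralClosure R K → integralClosure R' E`. -/
@[implicit_reducible]
noncomputable def algebraIntegralClosure :
    Algebra (integralClosure R K) (integralClosure R' E) :=
  (integralClosureMap R R' K E).toAlgebra

theorem algebraMap_integralClosure_coe (a : integralClosure R K) :
    letI := algebraIntegralClosure R R' K E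
    ((algebraMap (integralClosure R K) (integralClosure R' E) a : integralClosure R' E) : E) =
      algebraMap K E (a : K) :=
  rfl

theorem isScalarTower_integralClosure :
    letI := algebraIntegralClosure R R' K E
    IsScalarTower (integralClosure R K) (integralClosure R' E) E := by
  letI := algebraIntegralClosure R R' K E
  exact IsScalarTower.of_algebraMap_eq fun a => rfl

/-- `integralClosure R' E` is the integral closure of `integralClosure R K` in `E` (for ANY
compatible algebra structure, in particular `algebraIntegralClosure`). -/
theorem isIntegralClosure_integralClosure [Algebra.IsIntegral R R']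
    [Algebra (integralClosure R K) (integralClosure R' E)]
    [IsScalarTower (integralClosure R K) (integralClosure R' E) E] :
    IsIntegralClosure (integralClosure R' E) (integralClosure R K) E := by
  refine ⟨Subtype.val_injective, fun {x} => ⟨fun hx => ?_, ?_⟩⟩
  · have hx' : IsIntegral R x := isIntegral_trans (R := R) (A := integralClosure R K) x hx
    exact ⟨⟨x, hx'.tower_top⟩, rfl⟩
  · rintro ⟨y, rfl⟩
    have hy : IsIntegral R (y : E) := isIntegral_trans (R := R) (A := R') _ y.2
    exact hy.tower_top

/-- `integralClosure R K` has fraction field `K` (when `K` is algebraic over the domain `R`). -/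
theorem isFractionRing_integralClosure [Algebra.IsAlgebraic R K]
    (hinj : Function.Injective (algebraMap R K)) : IsFractionRing (integralClosure R K) K :=
  integralClosure.isFractionRing_of_algebraic
    fun _ hx => hinj (hx.trans (map_zero _).symm)

/-- `integralClosure R K` is integrally closed (when `K` is algebraic over the domain `R`). -/
theorem isIntegrallyClosed_integralClosure [Algebra.IsAlgebraic R K]
    (hinj : Function.Injective (algebraMap R K)) : IsIntegrallyClosed (integralClosure R K) := by
  haveI := isFractionRing_integralClosure R K hinj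
  exact (isIntegrallyClosed_iff_isIntegrallyClosedIn K).mpr inferInstance

end Concrete

end Fermat.Agent.S18.H70
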