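import Mathlib
import Fermat.Agent.S18.H26_AuxField
import Fermat.Agent.S18.H70_CompositumGalois

/-!
# S18 / route Q, INST-3 (A5): the field `F' = F(μ)` of the auxiliary cover

* abstract: generation `KY(θ) = F'` of the compositum over the auxiliary line, transcendence of `μ`;
* `RootField P := AdjoinRoot P.factor`, with `μ := root`, finite, Galois when `P` splits in it;
* the Hesse and Legendre instances: `HesField j`, `LegField j` over any field `F ∋ j` of
  characteristic zero (containing a primitive cube root of unity in the Hesse case).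
-/

set_option autoImplicit false
set_option linter.unusedSectionVars false
set_option linter.style.haveILetI false

open Polynomial IntermediateField

namespace Fermat.Agent.S18.H70

open Fermat.Agent.S18

/-! ## Generation of the compositum over the auxiliary line -/

section Generation

variable {L F F' KY : Type*} [Field L] [Field F] [Field F'] [Field KY]
  [Algebra L F] [Algebra F F'] [Algebra L F'] [IsScalarTower L F F']
  [Algebra L KY] [Algebra KY F'] [IsScalarTower L KY F']

/-- If `F = L(j, θ)`, `F' = F(μ)` and the field `KY` (`= L(μ)`) maps onto a subfield of `F'`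
containing `μ` and `j`, then `F' = KY(θ)`. -/
theorem adjoin_eq_top_of_compositum' {j θ : F} (hgen : L⟮j, θ⟯ = ⊤) {μ : F'}
    (hμtop : F⟮μ⟯ = ⊤) (hμ : μ ∈ (algebraMap KY F').range)
    (hj : algebraMap F F' j ∈ (algebraMap KY F').range) :
    KY⟮algebraMap F F' θ⟯ = ⊤ := by
  set S : IntermediateField KY F' := KY⟮algebraMap F F' θ⟯ with hS
  have hrange : ∀ y ∈ (algebraMap KY F').range, y ∈ S := by
    rintro _ ⟨c, rfl⟩
    exact S.algebraMap_mem c
  -- `S` contains the image of `F`
  have hF : ∀ x : F, algebraMap F F' x ∈ S := by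
    let T : IntermediateField L F := (S.restrictScalars L).comap (IsScalarTower.toAlgHom L F F')
    have hT : (⊤ : IntermediateField L F) ≤ T := by
      rw [← hgen, IntermediateField.adjoin_le_iff]
      rintro x (rfl | rfl)
      · exact hrange _ hj
      · exact IntermediateField.mem_adjoin_simple_self KY _
    intro x
    exact hT (IntermediateField.mem_top (x := x))
  -- hence `F(μ)`
  let S' : IntermediateField F F' := Subfield.toIntermediateField S.toSubfield hF
  have hS' : (⊤ : IntermediateField F F') ≤ S' := by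
    rw [← hμtop, IntermediateField.adjoin_simple_le_iff]
    exact hrange _ hμ
  rw [eq_top_iff]
  intro y _
  exact hS' (IntermediateField.mem_top (x := y))

/-- Same, with generation in the tower form `L(j)(θ) = ⊤`. -/
theorem adjoin_eq_top_of_compositum {j θ : F} (hgen : L⟮j⟯⟮θ⟯ = ⊤) {μ : F'}
    (hμtop : F⟮μ⟯ = ⊤) (hμ : μ ∈ (algebraMap KY F').range)
    (hj : algebraMap F F' j ∈ (algebraMap KY F').range) :
    KY⟮algebraMap F F' θ⟯ = ⊤ := by
  refine adjoin_eq_top_of_compositum' (L := L) (j := j) ?_ hμtop hμ hj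
  rw [← IntermediateField.adjoin_simple_adjoin_simple, hgen, IntermediateField.restrictScalars_top]

/-- `F'` is finite over `KY` as soon as `θ` is algebraic over `L(j)`. -/
theorem finiteDimensional_of_compositum {j θ : F} (hgen : L⟮j⟯⟮θ⟯ = ⊤)
    (hθ : IsAlgebraic L⟮j⟯ θ) {μ : F'}
    (hμtop : F⟮μ⟯ = ⊤) (hμ : μ ∈ (algebraMap KY F').range)
    (hj : algebraMap F F' j ∈ (algebraMap KY F').range) :
    FiniteDimensional KY F' := by
  have htop := adjoin_eq_top_of_compositum (L := L) hgen hμtop hμ hj
  have hint : IsIntegral KY (algebraMap F F' θ) := by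
    obtain ⟨p, hp0, hp⟩ := hθ
    -- push the coefficients of `p` into `KY`-integral elements: use algebraicity transitively
    have h1 : IsAlgebraic L⟮j⟯ θ := ⟨p, hp0, hp⟩
    -- every element of `L(j)` maps into the range of `KY`
    have hLj : ∀ c : L⟮j⟯, algebraMap F F' (c : F) ∈ (algebraMap KY F').range := by
      intro c
      let T : IntermediateField L F :=
        ((algebraMap KY F').fieldRange.toIntermediateField
          (fun x => ⟨algebraMap L KY x, by rw [← IsScalarTower.algebraMap_apply]⟩)).comap
          (IsScalarTower.toAlgHom L F F')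
      have hT : L⟮j⟯ ≤ T := by
        rw [IntermediateField.adjoin_simple_le_iff]
        exact hj
      exact hT c.2
    -- the image polynomial over `KY`
    choose g hg using hLj
    refine IsAlgebraic.isIntegral ?_
    have hq : (p.map (algebraMap L⟮j⟯ F)).map (algebraMap F F') ≠ 0 := by
      rw [Polynomial.map_map]
      exact (Polynomial.map_ne_zero_iff ((algebraMap F F').comp (algebraMap L⟮j⟯ F)).injective).mpr hp0
    have hroot : ((p.map (algebraMap L⟮j⟯ F)).map (algebraMap F F')).eval (algebraMap F F' θ) = 0 := by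
      rw [Polynomial.eval_map_apply, Polynomial.eval_map, ← Polynomial.aeval_def, hp, map_zero]
    -- coefficients lie in the range of `KY`
    have hcoef : (p.map (algebraMap L⟮j⟯ F)).map (algebraMap F F') ∈
        Polynomial.lifts (algebraMap KY F') := by
      rw [Polynomial.lifts_iff_coeff_lifts]
      intro n
      rw [Polynomial.coeff_map, Polynomial.coeff_map]
      exact ⟨g (p.coeff n), hg (p.coeff n)⟩
    obtain ⟨q, hq'⟩ := hcoef
    rw [Polynomial.coe_mapRingHom] at hq'
    refine ⟨q, ?_, ?_⟩
    · rintro rfl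
      rw [Polynomial.map_zero] at hq'
      exact hq hq'.symm
    · rw [Polynomial.aeval_def, ← Polynomial.eval_map, hq', hroot]
  have : FiniteDimensional KY KY⟮algebraMap F F' θ⟯ := IntermediateField.adjoin.finiteDimensional hint
  rw [htop] at this
  exact (IntermediateField.topEquiv (F := KY) (E := F')).toLinearEquiv.finiteDimensional

/-- Variant without any `L`-algebra structure on `KY`: it suffices that the image of `KY` in `F'`
contains the constants `L`, `μ` and `j`. -/
theorem adjoin_eq_top_of_compositum_range {L F F' KY : Type*} [Field L] [Field F] [Field F']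
    [Field KY] [Algebra L F] [Algebra F F'] [Algebra KY F']
    {j θ : F} (hgen : L⟮j⟯⟮θ⟯ = ⊤) {μ : F'}
    (hμtop : F⟮μ⟯ = ⊤) (hL : ∀ c : L, algebraMap F F' (algebraMap L F c) ∈ (algebraMap KY F').range)
    (hμ : μ ∈ (algebraMap KY F').range)
    (hj : algebraMap F F' j ∈ (algebraMap KY F').range) :
    KY⟮algebraMap F F' θ⟯ = ⊤ := by
  set S : IntermediateField KY F' := KY⟮algebraMap F F' θ⟯ with hS
  have hrange : ∀ y ∈ (algebraMap KY F').range, y ∈ S := by
    rintro _ ⟨c, rfl⟩
    exact S.algebraMap_mem c
  have hF : ∀ x : F, algebraMap F F' x ∈ S := by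
    let T : IntermediateField L F :=
      Subfield.toIntermediateField (S.toSubfield.comap (algebraMap F F'))
        (fun c => hrange _ (hL c))
    have hT : (⊤ : IntermediateField L F) ≤ T := by
      have h2 : (L⟮j⟯⟮θ⟯).restrictScalars L = ⊤ := by
        rw [hgen, IntermediateField.restrictScalars_top]
      rw [← h2, IntermediateField.adjoin_simple_adjoin_simple, IntermediateField.adjoin_le_iff]
      rintro x (rfl | rfl)
      · exact hrange _ hj
      · exact IntermediateField.mem_adjoin_simple_self KY _
    intro x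
    exact hT (IntermediateField.mem_top (x := x))
  let S' : IntermediateField F F' := Subfield.toIntermediateField S.toSubfield hF
  have hS' : (⊤ : IntermediateField F F') ≤ S' := by
    rw [← hμtop, IntermediateField.adjoin_simple_le_iff]
    exact hrange _ hμ
  rw [eq_top_iff]
  intro y _
  exact hS' (IntermediateField.mem_top (x := y))

/-- Multiplying the generator by a nonzero element of the base does not change the field it
generates. -/
theorem adjoin_mul_eq_adjoin {K E : Type*} [Field K] [Field E] [Algebra K E] {c : K} (hc : c ≠ 0)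
    (θ : E) : K⟮algebraMap K E c * θ⟯ = K⟮θ⟯ := by
  apply le_antisymm
  · rw [IntermediateField.adjoin_simple_le_iff]
    exact mul_mem (IntermediateField.algebraMap_mem _ c) (IntermediateField.mem_adjoin_simple_self K θ)
  · rw [IntermediateField.adjoin_simple_le_iff]
    have h : algebraMap K E c⁻¹ * (algebraMap K E c * θ) = θ := by
      rw [← mul_assoc, ← map_mul, inv_mul_cancel₀ hc, map_one, one_mul]
    have h2 : algebraMap K E c⁻¹ * (algebraMap K E c * θ) ∈ K⟮algebraMap K E c * θ⟯ :=
      mul_mem (IntermediateField.algebraMap_mem _ _)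
        (IntermediateField.mem_adjoin_simple_self K _)
    rwa [h] at h2

end Generation

/-! ## Transcendence of `μ` -/

section Transc

variable {L F' : Type*} [Field L] [Field F'] [Algebra L F']

/-- If some element of `L(μ)` is transcendental over `L`, so is `μ`. -/
theorem transcendental_of_mem_adjoin_simple {μ y : F'} (hy : Transcendental L y)
    (hmem : y ∈ L⟮μ⟯) : Transcendental L μ := by
  intro halg
  apply hy
  have h1 : Algebra.IsAlgebraic L L⟮μ⟯ := IntermediateField.isAlgebraic_adjoin_simple halg.isIntegral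
  have h2 : IsAlgebraic L (⟨y, hmem⟩ : L⟮μ⟯) := Algebra.IsAlgebraic.isAlgebraic _
  have := h2.algHom (L⟮μ⟯.val)
  simpa using this

theorem hesJ_mem_adjoin_simple (μ : F') : H26.hesJ μ ∈ L⟮μ⟯ := by
  have hμ : μ ∈ L⟮μ⟯ := IntermediateField.mem_adjoin_simple_self L μ
  unfold H26.hesJ H26.hesA H26.hesB
  refine div_mem (mul_mem (ofNat_mem _ 27) (mul_mem (pow_mem hμ 3)
    (pow_mem (add_mem (pow_mem hμ 3) (ofNat_mem _ 8)) 3))) (pow_mem (sub_mem (pow_mem hμ 3) (one_mem _)) 3)

theorem legJ_mem_adjoin_simple (μ : F') : H26.legJ μ ∈ L⟮μ⟯ := by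
  have hμ : μ ∈ L⟮μ⟯ := IntermediateField.mem_adjoin_simple_self L μ
  unfold H26.legJ H26.legA H26.legB
  refine div_mem (mul_mem (ofNat_mem _ 256) (pow_mem (add_mem (sub_mem (pow_mem hμ 2) hμ)
    (one_mem _)) 3)) (mul_mem (pow_mem hμ 2) (pow_mem (sub_mem hμ (one_mem _)) 2))

/-- `hesJ μ` transcendental over `L` ⟹ `μ` transcendental over `L`. -/
theorem transcendental_of_hesJ {μ : F'} (h : Transcendental L (H26.hesJ μ)) : Transcendental L μ :=
  transcendental_of_mem_adjoin_simple h (hesJ_mem_adjoin_simple μ)

/-- `legJ μ` transcendental over `L` ⟹ `μ` transcendental over `L`. -/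
theorem transcendental_of_legJ {μ : F'} (h : Transcendental L (H26.legJ μ)) : Transcendental L μ :=
  transcendental_of_mem_adjoin_simple h (legJ_mem_adjoin_simple μ)

end Transc

/-! ## The root field of a polynomial -/

section RootField

variable {F : Type*} [Field F]

instance factIrreducibleFactor (P : F[X]) : Fact (Irreducible P.factor) :=
  ⟨Polynomial.irreducible_factor P⟩

/-- `F[X]/(P₁)` for the irreducible factor `P₁ := P.factor` of `P`. -/
abbrev RootField (P : F[X]) : Type _ := AdjoinRoot P.factor

/-- The canonical root of `P` in `RootField P`. -/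
noncomputable def rootMu (P : F[X]) : RootField P := AdjoinRoot.root P.factor

theorem aeval_rootMu {P : F[X]} (hP : P.natDegree ≠ 0) : aeval (rootMu P) P = 0 := by
  obtain ⟨Q, hQ⟩ := Polynomial.factor_dvd_of_natDegree_ne_zero hP
  unfold rootMu
  have h := congrArg (aeval (AdjoinRoot.root P.factor)) hQ
  rw [h, map_mul, AdjoinRoot.aeval_eq, AdjoinRoot.mk_self, zero_mul]

theorem adjoin_rootMu (P : F[X]) : F⟮rootMu P⟯ = ⊤ :=
  IntermediateField.adjoin_eq_top_of_algebra F _ AdjoinRoot.adjoinRoot_eq_top

instance finiteDimensional_rootField (P : F[X]) : FiniteDimensional F (RootField P) :=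
  finiteDimensional_adjoinRoot P.factor

instance charZero_rootField [CharZero F] (P : F[X]) : CharZero (RootField P) :=
  charZero_of_injective_algebraMap (algebraMap F (RootField P)).injective

/-- If `P` splits in its root field (and `F` is perfect), the root field is Galois over `F`. -/
theorem isGalois_rootField [PerfectField F] {P : F[X]} (hP : P.natDegree ≠ 0)
    (hsplit : (P.map (algebraMap F (RootField P))).Splits) : IsGalois F (RootField P) := by
  have hP0 : P ≠ 0 := by
    rintro rfl
    exact hP rfl
  have hdvd := Polynomial.factor_dvd_of_natDegree_ne_zero hP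
  have hirr : Irreducible P.factor := Polynomial.irreducible_factor P
  refine isGalois_of_primitive_root_splits P.factor (PerfectField.separable_of_irreducible hirr)
    (rootMu P) ?_ (adjoin_rootMu P) ?_
  · unfold rootMu
    rw [AdjoinRoot.aeval_eq, AdjoinRoot.mk_self]
  · exact Splits.of_dvd hsplit
      ((Polynomial.map_ne_zero_iff (algebraMap F (RootField P)).injective).mpr hP0)
      (Polynomial.map_dvd _ hdvd)

end RootField

/-! ## The Hesse field -/

section Hesse

variable {L F : Type*} [Field L] [Field F] [Algebra L F] [CharZero F]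

/-- `F(μ)`, `μ` a root of the Hesse polynomial `27 X³(X³+8)³ - j (X³-1)³`. -/
abbrev HesField (j : F) : Type _ := RootField (H26.hesPoly j)

/-- The Hesse parameter `μ`. -/
noncomputable def hesMu (j : F) : HesField j := rootMu (H26.hesPoly j)

theorem natDegree_hesPoly_ne_zero (j : F) : (H26.hesPoly j).natDegree ≠ 0 := by
  rw [H26.natDegree_hesPoly j (by norm_num)]
  norm_num

theorem eval_hesMu (j : F) :
    27 * H26.hesA (hesMu j) - algebraMap F (HesField j) j * H26.hesB (hesMu j) = 0 := by
  have h := aeval_rootMu (natDegree_hesPoly_ne_zero j)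
  rw [Polynomial.aeval_def, ← Polynomial.eval_map, H26.hesPoly_map, H26.eval_hesPoly] at h
  exact h

theorem hesB_hesMu_ne_zero (j : F) : H26.hesB (hesMu j) ≠ 0 := by
  intro h0
  have h := eval_hesMu j
  rw [h0, mul_zero, sub_zero] at h
  have h27 : (27 : HesField j) ≠ 0 := by norm_num
  have hA : H26.hesA (hesMu j) = 0 := (mul_eq_zero.mp h).resolve_left h27
  have h1 : (hesMu j) ^ 3 = 1 := by
    unfold H26.hesB at h0
    exact sub_eq_zero.mp (pow_eq_zero_iff (by norm_num) |>.mp h0)
  unfold H26.hesA at hA
  rw [h1] at hA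
  norm_num at hA

/-- `j = hesJ μ` in the Hesse field. -/
theorem hesJ_hesMu (j : F) : H26.hesJ (hesMu j) = algebraMap F (HesField j) j := by
  have h := eval_hesMu j
  have hB := hesB_hesMu_ne_zero j
  unfold H26.hesJ
  rw [div_eq_iff hB]
  linear_combination h

theorem adjoin_hesMu (j : F) : F⟮hesMu j⟯ = ⊤ := adjoin_rootMu _

/-- The Hesse polynomial splits in the Hesse field, given a primitive cube root of unity. -/
theorem splits_hesPoly (j : F) (w : F) (hw : w ^ 2 + w + 1 = 0) :
    ((H26.hesPoly j).map (algebraMap F (HesField j))).Splits := by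
  set w' : HesField j := algebraMap F (HesField j) w with hw'def
  have hw' : w' ^ 2 + w' + 1 = 0 := by
    rw [hw'def, ← map_pow, ← map_add, ← map_one (algebraMap F (HesField j)), ← map_add, hw,
      map_zero]
  have hB := hesB_hesMu_ne_zero j
  have hfac := H26.hesPoly_hesJ_eq hB w' hw'
  rw [H26.hesPoly_map, ← hesJ_hesMu j]
  refine splits_of_C_mul_eq hB hfac ?_
  have hF : ∀ t : HesField j, (H26.hesFpoly w' t).Splits := fun t =>
    ((splits_C_mul_X_sub_C _ _).mul (splits_C_mul_X_sub_C _ _)).mul (splits_C_mul_X_sub_C _ _)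
  exact ((((Splits.X_sub_C _).mul (Splits.X_sub_C _)).mul (Splits.X_sub_C _)).mul
    (((hF _).mul (hF _)).mul (hF _))).C_mul _

/-- **The Hesse field is Galois over `F`** (char. 0, `ω ∈ F`). -/
theorem isGalois_hesField (j : F) (w : F) (hw : w ^ 2 + w + 1 = 0) : IsGalois F (HesField j) :=
  isGalois_rootField (natDegree_hesPoly_ne_zero j) (splits_hesPoly j w hw)

/-- `μ` is transcendental over the constants as soon as `j` is. -/
theorem transcendental_hesMu {j : F} (hj : Transcendental L j) : Transcendental L (hesMu j) := by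
  apply transcendental_of_hesJ
  rw [hesJ_hesMu]
  intro halg
  apply hj
  have : IsAlgebraic L (IsScalarTower.toAlgHom L F (HesField j) j) := halg
  exact (isAlgebraic_algHom_iff _ (IsScalarTower.toAlgHom L F (HesField j)).injective).mp this

/-- `hesJ` commutes with field homomorphisms. -/
theorem hesJ_map {E E' : Type*} [Field E] [Field E'] (f : E →+* E') (m : E) :
    H26.hesJ (f m) = f (H26.hesJ m) := by
  unfold H26.hesJ
  rw [H26.hesA_map, H26.hesB_map, map_div₀, map_mul, map_ofNat]

/-- **Generation over the auxiliary line**: for any field `KY` (`= L(Y)`) mapping to the Hesse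
field with `Y ↦ μ`, `F' = KY(θ)` as soon as `F = L(j)(θ)`. -/
theorem adjoin_eq_top_hesField {KY : Type*} [Field KY] [Algebra L KY] {j θ : F}
    [Algebra KY (HesField j)] [IsScalarTower L KY (HesField j)] (hgen : L⟮j⟯⟮θ⟯ = ⊤)
    (Y : KY) (hY : algebraMap KY (HesField j) Y = hesMu j) :
    KY⟮algebraMap F (HesField j) θ⟯ = ⊤ :=
  adjoin_eq_top_of_compositum (L := L) hgen (adjoin_hesMu j) ⟨Y, hY⟩
    ⟨H26.hesJ Y, by rw [← hesJ_map, hY, hesJ_hesMu]⟩

/-- ... and `F'` is finite over `KY` when `θ` is algebraic over `L(j)`. -/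
theorem finiteDimensional_hesField_over {KY : Type*} [Field KY] [Algebra L KY] {j θ : F}
    [Algebra KY (HesField j)] [IsScalarTower L KY (HesField j)] (hgen : L⟮j⟯⟮θ⟯ = ⊤)
    (hθ : IsAlgebraic L⟮j⟯ θ) (Y : KY) (hY : algebraMap KY (HesField j) Y = hesMu j) :
    FiniteDimensional KY (HesField j) :=
  finiteDimensional_of_compositum (L := L) hgen hθ (adjoin_hesMu j) ⟨Y, hY⟩
    ⟨H26.hesJ Y, by rw [← hesJ_map, hY, hesJ_hesMu]⟩

end Hesse

/-! ## The Legendre field -/

section Legendre

variable {L F : Type*} [Field L] [Field F] [Algebra L F] [CharZero F]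

/-- `F(λ)`, `λ` a root of the Legendre polynomial `256 (X²-X+1)³ - j X²(X-1)²`. -/
abbrev LegField (j : F) : Type _ := RootField (H26.legPoly j)

/-- The Legendre parameter `λ`. -/
noncomputable def legMu (j : F) : LegField j := rootMu (H26.legPoly j)

theorem natDegree_legPoly_ne_zero (j : F) : (H26.legPoly j).natDegree ≠ 0 := by
  rw [H26.natDegree_legPoly j (by norm_num)]
  norm_num

theorem eval_legMu (j : F) :
    256 * H26.legA (legMu j) ^ 3 - algebraMap F (LegField j) j * H26.legB (legMu j) = 0 := by
  have h := aeval_rootMu (natDegree_legPoly_ne_zero j)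
  rw [Polynomial.aeval_def, ← Polynomial.eval_map, H26.legPoly_map, H26.eval_legPoly] at h
  exact h

theorem legB_legMu_ne_zero (j : F) : H26.legB (legMu j) ≠ 0 := by
  intro h0
  have h := eval_legMu j
  rw [h0, mul_zero, sub_zero] at h
  have h256 : (256 : LegField j) ≠ 0 := by norm_num
  have hA : H26.legA (legMu j) = 0 :=
    pow_eq_zero_iff (by norm_num) |>.mp ((mul_eq_zero.mp h).resolve_left h256)
  unfold H26.legB at h0
  unfold H26.legA at hA
  rcases mul_eq_zero.mp h0 with h1 | h1
  · have h2 : legMu j = 0 := pow_eq_zero_iff (by norm_num) |>.mp h1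
    rw [h2] at hA
    norm_num at hA
  · have h2 : legMu j = 1 := sub_eq_zero.mp (pow_eq_zero_iff (by norm_num) |>.mp h1)
    rw [h2] at hA
    norm_num at hA

/-- `j = legJ λ` in the Legendre field. -/
theorem legJ_legMu (j : F) : H26.legJ (legMu j) = algebraMap F (LegField j) j := by
  have h := eval_legMu j
  have hB := legB_legMu_ne_zero j
  unfold H26.legJ
  rw [div_eq_iff hB]
  linear_combination h

theorem adjoin_legMu (j : F) : F⟮legMu j⟯ = ⊤ := adjoin_rootMu _

/-- The Legendre polynomial splits in the Legendre field. -/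
theorem splits_legPoly (j : F) :
    ((H26.legPoly j).map (algebraMap F (LegField j))).Splits := by
  have hB := legB_legMu_ne_zero j
  have hfac := H26.legPoly_legJ_eq hB
  rw [H26.legPoly_map, ← legJ_legMu j]
  refine splits_of_C_mul_eq hB hfac ?_
  exact ((((((Splits.X_sub_C _).mul (Splits.X_sub_C _)).mul (splits_C_mul_X_sub_one _)).mul
    (splits_C_mul_X_sub_one _)).mul (splits_C_mul_X_sub_C _ _)).mul
    (splits_C_mul_X_sub_C _ _)).C_mul _

/-- **The Legendre field is Galois over `F`** (char. 0). -/
theorem isGalois_legField (j : F) : IsGalois F (LegField j) :=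
  isGalois_rootField (natDegree_legPoly_ne_zero j) (splits_legPoly j)

/-- `λ` is transcendental over the constants as soon as `j` is. -/
theorem transcendental_legMu {j : F} (hj : Transcendental L j) : Transcendental L (legMu j) := by
  apply transcendental_of_legJ
  rw [legJ_legMu]
  intro halg
  apply hj
  have : IsAlgebraic L (IsScalarTower.toAlgHom L F (LegField j) j) := halg
  exact (isAlgebraic_algHom_iff _ (IsScalarTower.toAlgHom L F (LegField j)).injective).mp this

/-- `legJ` commutes with field homomorphisms. -/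
theorem legJ_map {E E' : Type*} [Field E] [Field E'] (f : E →+* E') (m : E) :
    H26.legJ (f m) = f (H26.legJ m) := by
  unfold H26.legJ H26.legA H26.legB
  simp only [map_div₀, map_mul, map_pow, map_sub, map_add, map_one, map_ofNat]

/-- **Generation over the auxiliary line** (Legendre). -/
theorem adjoin_eq_top_legField {KY : Type*} [Field KY] [Algebra L KY] {j θ : F}
    [Algebra KY (LegField j)] [IsScalarTower L KY (LegField j)] (hgen : L⟮j⟯⟮θ⟯ = ⊤)
    (Y : KY) (hY : algebraMap KY (LegField j) Y = legMu j) :
    KY⟮algebraMap F (LegField j) θ⟯ = ⊤ :=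
  adjoin_eq_top_of_compositum (L := L) hgen (adjoin_legMu j) ⟨Y, hY⟩
    ⟨H26.legJ Y, by rw [← legJ_map, hY, legJ_legMu]⟩

/-- ... and `F'` is finite over `KY` when `θ` is algebraic over `L(j)`. -/
theorem finiteDimensional_legField_over {KY : Type*} [Field KY] [Algebra L KY] {j θ : F}
    [Algebra KY (LegField j)] [IsScalarTower L KY (LegField j)] (hgen : L⟮j⟯⟮θ⟯ = ⊤)
    (hθ : IsAlgebraic L⟮j⟯ θ) (Y : KY) (hY : algebraMap KY (LegField j) Y = legMu j) :
    FiniteDimensional KY (LegField j) :=
  finiteDimensional_of_compositum (L := L) hgen hθ (adjoin_legMu j) ⟨Y, hY⟩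
    ⟨H26.legJ Y, by rw [← legJ_map, hY, legJ_legMu]⟩

end Legendre

/-! ## The cusp (Kummer) field `F(τ)`, `τ ^ n = w` -/

section Cusp

variable {L F : Type*} [Field L] [Field F] [Algebra L F] [CharZero F]

/-- `F(τ)`, `τ` a root of `X ^ n - w`. -/
abbrev CuspField (n : ℕ) (w : F) : Type _ := RootField (X ^ n - C w : F[X])

/-- The cusp parameter `τ`. -/
noncomputable def cuspTau (n : ℕ) (w : F) : CuspField n w := rootMu (X ^ n - C w : F[X])

theorem natDegree_cuspPoly_ne_zero {n : ℕ} (hn : n ≠ 0) (w : F) :
    (X ^ n - C w : F[X]).natDegree ≠ 0 := by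
  rw [natDegree_X_pow_sub_C]
  exact hn

theorem cuspTau_pow {n : ℕ} (hn : n ≠ 0) (w : F) :
    cuspTau n w ^ n = algebraMap F (CuspField n w) w := by
  have h := aeval_rootMu (natDegree_cuspPoly_ne_zero hn w)
  rw [map_sub, map_pow, aeval_X, aeval_C] at h
  exact sub_eq_zero.mp h

theorem adjoin_cuspTau (n : ℕ) (w : F) : F⟮cuspTau n w⟯ = ⊤ := adjoin_rootMu _

/-- `X ^ n - w` splits in the cusp field, given a primitive `n`-th root of unity in `F`. -/
theorem splits_cuspPoly {n : ℕ} (hn : n ≠ 0) (w : F) {ζ : F} (hζ : IsPrimitiveRoot ζ n) :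
    ((X ^ n - C w : F[X]).map (algebraMap F (CuspField n w))).Splits := by
  rw [Polynomial.map_sub, Polynomial.map_pow, Polynomial.map_X, Polynomial.map_C]
  exact X_pow_sub_C_splits_of_isPrimitiveRoot
    (hζ.map_of_injective (algebraMap F (CuspField n w)).injective) (cuspTau_pow hn w)

/-- **The cusp field is Galois over `F`** (char. 0, `ζ_n ∈ F`). -/
theorem isGalois_cuspField {n : ℕ} (hn : n ≠ 0) (w : F) {ζ : F} (hζ : IsPrimitiveRoot ζ n) :
    IsGalois F (CuspField n w) :=
  isGalois_rootField (natDegree_cuspPoly_ne_zero hn w) (splits_cuspPoly hn w hζ)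

/-- `τ` is transcendental over the constants as soon as `w` is. -/
theorem transcendental_cuspTau {n : ℕ} (hn : n ≠ 0) {w : F} (hw : Transcendental L w) :
    Transcendental L (cuspTau n w) := by
  have hmem : algebraMap F (CuspField n w) w ∈ L⟮cuspTau n w⟯ := by
    rw [← cuspTau_pow hn w]
    exact pow_mem (IntermediateField.mem_adjoin_simple_self L _) n
  refine transcendental_of_mem_adjoin_simple ?_ hmem
  intro halg
  apply hw
  have : IsAlgebraic L (IsScalarTower.toAlgHom L F (CuspField n w) w) := halg
  exact (isAlgebraic_algHom_iff _ (IsScalarTower.toAlgHom L F (CuspField n w)).injective).mp this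

/-- **Generation over the cusp line**: for any field `KY` (`= L(Y)`) mapping to the cusp field with
`Y ↦ τ`, `F' = KY(θ)` as soon as `F = L(j)(θ)` and `j w = 1`. -/
theorem adjoin_eq_top_cuspField {KY : Type*} [Field KY] [Algebra L KY] {n : ℕ} (hn : n ≠ 0)
    {j θ w : F} (hjw : j * w = 1)
    [Algebra KY (CuspField n w)] [IsScalarTower L KY (CuspField n w)] (hgen : L⟮j⟯⟮θ⟯ = ⊤)
    (Y : KY) (hY : algebraMap KY (CuspField n w) Y = cuspTau n w) :
    KY⟮algebraMap F (CuspField n w) θ⟯ = ⊤ := by
  refine adjoin_eq_top_of_compositum (L := L) hgen (adjoin_cuspTau n w) ⟨Y, hY⟩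
    ⟨(Y ^ n)⁻¹, ?_⟩
  rw [map_inv₀, map_pow, hY, cuspTau_pow hn w, ← map_inv₀]
  congr 1
  exact (eq_inv_of_mul_eq_one_left hjw).symm

/-- ... and `F'` is finite over `KY` when `θ` is algebraic over `L(j)`. -/
theorem finiteDimensional_cuspField_over {KY : Type*} [Field KY] [Algebra L KY] {n : ℕ}
    (hn : n ≠ 0) {j θ w : F} (hjw : j * w = 1)
    [Algebra KY (CuspField n w)] [IsScalarTower L KY (CuspField n w)] (hgen : L⟮j⟯⟮θ⟯ = ⊤)
    (hθ : IsAlgebraic L⟮j⟯ θ) (Y : KY) (hY : algebraMap KY (CuspField n w) Y = cuspTau n w) :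
    FiniteDimensional KY (CuspField n w) := by
  refine finiteDimensional_of_compositum (L := L) hgen hθ (adjoin_cuspTau n w) ⟨Y, hY⟩
    ⟨(Y ^ n)⁻¹, ?_⟩
  rw [map_inv₀, map_pow, hY, cuspTau_pow hn w, ← map_inv₀]
  congr 1
  exact (eq_inv_of_mul_eq_one_left hjw).symm

end Cusp

end Fermat.Agent.S18.H70
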