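import Mathlib
import Fermat.Agent.S18.H26_AuxCover

/-!
# S18 / (GR) AUX, part 3: local factorisations on the Hesse and Legendre lines (for HOR-b)

For a point `m0` of the `μ`-line (not a cusp: `hesB m0 ≠ 0`), over a field in which `2, 3 ≠ 0`:
`hesA μ * hesB m0 - hesA m0 * hesB μ = (μ - m0)^n * G(μ)` with `G(m0) ≠ 0`, where
`n = 3, 2, 1` according to `hesJ m0 = 0`, `= 1728`, other. Hence
`hesJ μ - hesJ m0 = (μ - m0)^n * unit`. Same for the Legendre line.
-/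

set_option autoImplicit false

open Polynomial

namespace Fermat.Agent.S18.H26

section Hesse

variable {K : Type*} [Field K]

/-- `hesB m0 * A(X) - hesA m0 * B(X)`, the numerator of `hesJ X - hesJ m0`. -/
noncomputable def hesLocal (m0 : K) : K[X] :=
  C (hesB m0) * (X ^ 3 * (X ^ 3 + 8) ^ 3) - C (hesA m0) * (X ^ 3 - 1) ^ 3

@[simp]
theorem eval_hesLocal (m0 x : K) :
    (hesLocal m0).eval x = hesB m0 * hesA x - hesA m0 * hesB x := by
  simp [hesLocal, hesA, hesB]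

theorem aeval_hesLocal {E : Type*} [Field E] [Algebra K E] (m0 : K) (x : E) :
    aeval x (hesLocal m0) =
      algebraMap K E (hesB m0) * hesA x - algebraMap K E (hesA m0) * hesB x := by
  simp [hesLocal, hesA, hesB, map_ofNat]

theorem hesA_eq_zero_iff {m0 : K} : hesA m0 = 0 ↔ m0 = 0 ∨ m0 ^ 3 = -8 := by
  unfold hesA
  simp only [mul_eq_zero, pow_eq_zero_iff (n := 3) (by norm_num)]
  constructor
  · rintro (h | h)
    · exact Or.inl h
    · exact Or.inr (by linear_combination h)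
  · rintro (h | h)
    · exact Or.inl h
    · exact Or.inr (by linear_combination h)

/-- Case `hesJ m0 = 0` (`e = 3`). -/
theorem hesLocal_factor_three {m0 : K} (h2 : (2 : K) ≠ 0) (h3 : (3 : K) ≠ 0)
    (hB : hesB m0 ≠ 0) (hA : hesA m0 = 0) :
    ∃ G : K[X], hesLocal m0 = (X - C m0) ^ 3 * G ∧ G.eval m0 ≠ 0 := by
  rcases hesA_eq_zero_iff.mp hA with h0 | h8
  · subst h0
    refine ⟨C (hesB 0) * (X ^ 3 + 8) ^ 3, ?_, ?_⟩
    · unfold hesLocal; rw [hA]; simp only [C_0, sub_zero, zero_mul]; ring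
    · simp only [eval_mul, eval_C, eval_pow, eval_add, eval_X]
      refine mul_ne_zero hB (pow_ne_zero _ ?_)
      have : ((0 : K) ^ 3 + eval 0 (8 : K[X])) = 2 ^ 3 := by
        simp; norm_num
      rw [this]; exact pow_ne_zero _ h2
  · have hm0 : m0 ≠ 0 := by
      rintro rfl
      have : (8 : K) = 0 := by
        have h8'' : (0 : K) = -8 := by simpa using h8
        linear_combination h8''
      have h' : (2 : K) ^ 3 = 0 := by norm_num; exact this
      exact h2 (pow_eq_zero_iff (by norm_num) |>.mp h')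
    refine ⟨C (hesB m0) * (X ^ 3 * (X ^ 2 + C m0 * X + C m0 ^ 2) ^ 3), ?_, ?_⟩
    · unfold hesLocal; rw [hA]
      simp only [C_0, sub_zero, zero_mul]
      have : (X ^ 3 + 8 : K[X]) = (X - C m0) * (X ^ 2 + C m0 * X + C m0 ^ 2) := by
        have h8' : (C m0 : K[X]) ^ 3 = -8 := by
          rw [← C_pow, h8]; simp [map_ofNat]
        linear_combination h8'
      rw [this]; ring
    · simp only [eval_mul, eval_C, eval_pow, eval_add, eval_X]
      refine mul_ne_zero hB (mul_ne_zero (pow_ne_zero _ hm0) (pow_ne_zero _ ?_))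
      have : m0 ^ 2 + m0 * m0 + m0 ^ 2 = 3 * m0 ^ 2 := by ring
      rw [this]; exact mul_ne_zero h3 (pow_ne_zero _ hm0)

/-- Case `hesJ m0 = 1728` (`e = 2`). -/
theorem hesLocal_factor_two {m0 : K} (h2 : (2 : K) ≠ 0) (h3 : (3 : K) ≠ 0)
    (hB : hesB m0 ≠ 0) (hA : hesA m0 = 64 * hesB m0) :
    ∃ G : K[X], hesLocal m0 = (X - C m0) ^ 2 * G ∧ G.eval m0 ≠ 0 := by
  have hroot : m0 ^ 6 - 20 * m0 ^ 3 - 8 = 0 := by
    have := hes_1728 m0
    rw [hA, sub_self] at this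
    exact pow_eq_zero_iff (by norm_num) |>.mp this.symm
  have hm0 : m0 ≠ 0 := by
    rintro rfl
    have : (8 : K) = 0 := by linear_combination -hroot
    have h' : (2 : K) ^ 3 = 0 := by norm_num; exact this
    exact h2 (pow_eq_zero_iff (by norm_num) |>.mp h')
  have hm10 : m0 ^ 3 - 10 ≠ 0 := by
    intro h10
    have h108 : (108 : K) = 0 := by
      have e : m0 ^ 3 = 10 := by linear_combination h10
      have : m0 ^ 6 = 100 := by
        have : m0 ^ 6 = (m0 ^ 3) ^ 2 := by ring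
        rw [this, e]; norm_num
      rw [this, e] at hroot
      linear_combination -hroot
    have : (2 : K) ^ 2 * 3 ^ 3 = 0 := by norm_num; exact h108
    rcases mul_eq_zero.mp this with h' | h'
    · exact h2 (pow_eq_zero_iff (by norm_num) |>.mp h')
    · exact h3 (pow_eq_zero_iff (by norm_num) |>.mp h')
  let H : K[X] := X ^ 5 + C m0 * X ^ 4 + C m0 ^ 2 * X ^ 3 + (C m0 ^ 3 - 20) * X ^ 2
    + (C m0 ^ 4 - 20 * C m0) * X + (C m0 ^ 5 - 20 * C m0 ^ 2)
  have hH : (X ^ 6 - 20 * X ^ 3 - 8 : K[X]) = (X - C m0) * H := by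
    have hr : (C m0 : K[X]) ^ 6 - 20 * C m0 ^ 3 - 8 = 0 := by
      have := congrArg (C : K → K[X]) hroot
      simpa [map_ofNat] using this
    simp only [H]
    linear_combination hr
  refine ⟨C (hesB m0) * H ^ 2, ?_, ?_⟩
  · unfold hesLocal
    rw [hA]
    have e : (X ^ 3 * (X ^ 3 + 8) ^ 3 - 64 * (X ^ 3 - 1) ^ 3 : K[X])
        = (X ^ 6 - 20 * X ^ 3 - 8) ^ 2 := by ring
    have : C (hesB m0) * (X ^ 3 * (X ^ 3 + 8) ^ 3) - C (64 * hesB m0) * (X ^ 3 - 1) ^ 3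
        = C (hesB m0) * (X ^ 3 * (X ^ 3 + 8) ^ 3 - 64 * (X ^ 3 - 1) ^ 3) := by
      rw [C_mul, map_ofNat]; ring
    rw [this, e, hH]; ring
  · simp only [eval_mul, eval_C, eval_pow]
    refine mul_ne_zero hB (pow_ne_zero _ ?_)
    have : eval m0 H = 6 * m0 ^ 2 * (m0 ^ 3 - 10) := by
      simp only [H, eval_add, eval_mul, eval_sub, eval_pow, eval_X, eval_C, eval_ofNat]
      ring
    rw [this]
    have h6 : (6 : K) ≠ 0 := by
      have : (6 : K) = 2 * 3 := by norm_num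
      rw [this]; exact mul_ne_zero h2 h3
    exact mul_ne_zero (mul_ne_zero h6 (pow_ne_zero _ hm0)) hm10

/-- The Wronskian `A' B - A B'` of the Hesse `j`-function. -/
theorem hes_wronskian (m0 : K) :
    (derivative (hesLocal m0)).eval m0 =
      3 * m0 ^ 2 * (m0 ^ 3 + 8) ^ 2 * (m0 ^ 3 - 1) ^ 2 * (m0 ^ 6 - 20 * m0 ^ 3 - 8) := by
  unfold hesLocal
  simp only [derivative_sub, derivative_mul, derivative_C, derivative_pow, derivative_add,
    derivative_X, derivative_ofNat, derivative_one, zero_mul, zero_add, add_zero, sub_zero,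
    eval_sub, eval_mul, eval_add, eval_pow, eval_X, eval_C, eval_ofNat, mul_one,
    eval_one, Nat.cast_ofNat]
  unfold hesA hesB
  norm_num
  ring

/-- Generic case (`e = 1`). -/
theorem hesLocal_factor_one {m0 : K} (h3 : (3 : K) ≠ 0)
    (hB : hesB m0 ≠ 0) (hA0 : hesA m0 ≠ 0) (hA : hesA m0 ≠ 64 * hesB m0) :
    ∃ G : K[X], hesLocal m0 = (X - C m0) ^ 1 * G ∧ G.eval m0 ≠ 0 := by
  have hroot : (hesLocal m0).IsRoot m0 := by
    rw [IsRoot, eval_hesLocal]; ring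
  obtain ⟨G, hG⟩ := dvd_iff_isRoot.mpr hroot
  refine ⟨G, by rw [pow_one]; exact hG, ?_⟩
  have hd : (derivative (hesLocal m0)).eval m0 = G.eval m0 := by
    rw [hG]
    simp [derivative_mul]
  rw [← hd, hes_wronskian]
  have hm0 : m0 ≠ 0 := fun h => hA0 (hesA_eq_zero_iff.mpr (Or.inl h))
  have h8 : m0 ^ 3 + 8 ≠ 0 := fun h => hA0 (hesA_eq_zero_iff.mpr (Or.inr (by linear_combination h)))
  have h1 : m0 ^ 3 - 1 ≠ 0 := by
    intro h; apply hB; unfold hesB; rw [h]; ring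
  have h20 : m0 ^ 6 - 20 * m0 ^ 3 - 8 ≠ 0 := by
    intro h; apply hA
    have := hes_1728 m0
    rw [h] at this
    linear_combination this
  exact mul_ne_zero (mul_ne_zero (mul_ne_zero (mul_ne_zero h3 (pow_ne_zero _ hm0))
    (pow_ne_zero _ h8)) (pow_ne_zero _ h1)) h20

theorem hesJ_eq_zero_iff {m0 : K} (h3 : (3 : K) ≠ 0) (hB : hesB m0 ≠ 0) :
    hesJ m0 = 0 ↔ hesA m0 = 0 := by
  have h27 : (27 : K) ≠ 0 := by
    have : (27 : K) = 3 ^ 3 := by norm_num
    rw [this]; exact pow_ne_zero _ h3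
  unfold hesJ
  rw [div_eq_zero_iff]
  simp [h27, hB]

theorem hesJ_eq_1728_iff {m0 : K} (h3 : (3 : K) ≠ 0) (hB : hesB m0 ≠ 0) :
    hesJ m0 = 1728 ↔ hesA m0 = 64 * hesB m0 := by
  have h27 : (27 : K) ≠ 0 := by
    have : (27 : K) = 3 ^ 3 := by norm_num
    rw [this]; exact pow_ne_zero _ h3
  unfold hesJ
  rw [div_eq_iff hB]
  constructor
  · intro h
    have : (27 : K) * hesA m0 = 27 * (64 * hesB m0) := by linear_combination h
    exact mul_left_cancel₀ h27 this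
  · intro h; rw [h]; ring

/-- `hesJ μ - hesJ m0` is `27 * hesLocal m0 (μ) / (hesB μ * hesB m0)`. -/
theorem hesJ_sub_hesJ {E : Type*} [Field E] [Algebra K E] (m0 : K) (μ : E)
    (hB0 : hesB m0 ≠ 0) (hBμ : hesB μ ≠ 0) :
    hesJ μ - algebraMap K E (hesJ m0)
      = 27 * aeval μ (hesLocal m0) / (hesB μ * algebraMap K E (hesB m0)) := by
  rw [aeval_hesLocal]
  have hB0' : algebraMap K E (hesB m0) ≠ 0 := by
    simpa using hB0
  unfold hesJ
  rw [map_div₀, map_mul, map_ofNat]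
  field_simp

/-- **Local form of the Hesse `j`-function** at a non-cuspidal point `m0` of the `μ`-line:
`hesLocal m0 = (X - m0)^n * G`, `G(m0) ≠ 0`, with `n = 3, 2, 1` according to
`hesJ m0 = 0`, `= 1728`, other. -/
theorem hesLocal_factor {m0 : K} (h2 : (2 : K) ≠ 0) (h3 : (3 : K) ≠ 0) (hB : hesB m0 ≠ 0) :
    ∃ (n : ℕ) (G : K[X]), hesLocal m0 = (X - C m0) ^ n * G ∧ G.eval m0 ≠ 0 ∧
      ((n = 3 ∧ hesJ m0 = 0) ∨ (n = 2 ∧ hesJ m0 = 1728) ∨
        (n = 1 ∧ hesJ m0 ≠ 0 ∧ hesJ m0 ≠ 1728)) := by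
  by_cases hA0 : hesA m0 = 0
  · obtain ⟨G, hG, hG0⟩ := hesLocal_factor_three h2 h3 hB hA0
    exact ⟨3, G, hG, hG0, Or.inl ⟨rfl, (hesJ_eq_zero_iff h3 hB).mpr hA0⟩⟩
  · by_cases hA : hesA m0 = 64 * hesB m0
    · obtain ⟨G, hG, hG0⟩ := hesLocal_factor_two h2 h3 hB hA
      exact ⟨2, G, hG, hG0, Or.inr (Or.inl ⟨rfl, (hesJ_eq_1728_iff h3 hB).mpr hA⟩)⟩
    · obtain ⟨G, hG, hG0⟩ := hesLocal_factor_one h3 hB hA0 hA
      exact ⟨1, G, hG, hG0, Or.inr (Or.inr ⟨rfl, fun h => hA0 ((hesJ_eq_zero_iff h3 hB).mp h),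
        fun h => hA ((hesJ_eq_1728_iff h3 hB).mp h)⟩)⟩

/-- **Field-level local form**: in any extension `E ∋ μ` of `K`,
`hesJ μ - hesJ m0 = (μ - m0)^n * (27 * G(μ) / (hesB μ * hesB m0))`, `G(m0) ≠ 0`. -/
theorem hesJ_sub_eq_pow_mul {E : Type*} [Field E] [Algebra K E] {m0 : K} (h2 : (2 : K) ≠ 0)
    (h3 : (3 : K) ≠ 0) (hB : hesB m0 ≠ 0) :
    ∃ (n : ℕ) (G : K[X]), G.eval m0 ≠ 0 ∧
      ((n = 3 ∧ hesJ m0 = 0) ∨ (n = 2 ∧ hesJ m0 = 1728) ∨
        (n = 1 ∧ hesJ m0 ≠ 0 ∧ hesJ m0 ≠ 1728)) ∧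
      ∀ μ : E, hesB μ ≠ 0 → hesJ μ - algebraMap K E (hesJ m0) =
        (μ - algebraMap K E m0) ^ n *
          (27 * aeval μ G / (hesB μ * algebraMap K E (hesB m0))) := by
  obtain ⟨n, G, hG, hG0, hn⟩ := hesLocal_factor h2 h3 hB
  refine ⟨n, G, hG0, hn, fun μ hμ => ?_⟩
  rw [hesJ_sub_hesJ m0 μ hB hμ, hG]
  simp only [map_mul, map_pow, map_sub, aeval_X, aeval_C]
  ring

end Hesse

section Legendre

variable {K : Type*} [Field K]

/-- `legB l0 * a(X)^3 - legA l0 ^ 3 * b(X)`, the numerator of `(legJ X - legJ l0) / 256`. -/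
noncomputable def legLocal (l0 : K) : K[X] :=
  C (legB l0) * (X ^ 2 - X + 1) ^ 3 - C (legA l0 ^ 3) * (X ^ 2 * (X - 1) ^ 2)

@[simp]
theorem eval_legLocal (l0 x : K) :
    (legLocal l0).eval x = legB l0 * legA x ^ 3 - legA l0 ^ 3 * legB x := by
  simp [legLocal, legA, legB]

theorem aeval_legLocal {E : Type*} [Field E] [Algebra K E] (l0 : K) (x : E) :
    aeval x (legLocal l0) =
      algebraMap K E (legB l0) * legA x ^ 3 - algebraMap K E (legA l0 ^ 3) * legB x := by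
  simp [legLocal, legA, legB]

/-- Case `legJ l0 = 0` (`e = 3`). -/
theorem legLocal_factor_three {l0 : K} (h3 : (3 : K) ≠ 0) (hB : legB l0 ≠ 0)
    (hA : legA l0 = 0) :
    ∃ G : K[X], legLocal l0 = (X - C l0) ^ 3 * G ∧ G.eval l0 ≠ 0 := by
  have hl : l0 ^ 2 - l0 + 1 = 0 := hA
  refine ⟨C (legB l0) * (X - C (1 - l0)) ^ 3, ?_, ?_⟩
  · unfold legLocal; rw [hA]
    have : (X ^ 2 - X + 1 : K[X]) = (X - C l0) * (X - C (1 - l0)) := by
      have hl' : (C l0 : K[X]) ^ 2 - C l0 + 1 = 0 := by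
        have := congrArg (C : K → K[X]) hl
        simpa using this
      simp only [C_sub, C_1]
      linear_combination hl'
    rw [this]
    simp only [ne_eq, OfNat.ofNat_ne_zero, not_false_eq_true, zero_pow, C_0, zero_mul, sub_zero]
    ring
  · simp only [eval_mul, eval_C, eval_pow, eval_sub, eval_X]
    refine mul_ne_zero hB (pow_ne_zero _ ?_)
    intro h
    have : (3 : K) = 0 := by linear_combination 4 * hl - (2 * l0 - 1) * h
    exact h3 this

/-- Case `legJ l0 = 1728` (`e = 2`). -/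
theorem legLocal_factor_two {l0 : K} (h2 : (2 : K) ≠ 0) (h3 : (3 : K) ≠ 0) (hB : legB l0 ≠ 0)
    (hA : 4 * legA l0 ^ 3 = 27 * legB l0) :
    ∃ G : K[X], legLocal l0 = (X - C l0) ^ 2 * G ∧ G.eval l0 ≠ 0 := by
  have h4 : (4 : K) ≠ 0 := by
    have : (4 : K) = 2 ^ 2 := by norm_num
    rw [this]; exact pow_ne_zero _ h2
  have h64 : (64 : K) ≠ 0 := by
    have : (64 : K) = 2 ^ 6 := by norm_num
    rw [this]; exact pow_ne_zero _ h2
  have hroot : (l0 + 1) * (l0 - 2) * (2 * l0 - 1) = 0 := by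
    have := leg_1728 l0
    have h0 : (64 : K) * ((l0 + 1) * (l0 - 2) * (2 * l0 - 1)) ^ 2 = 0 := by
      rw [← this]; linear_combination 64 * hA
    exact pow_eq_zero_iff two_ne_zero |>.mp ((mul_eq_zero.mp h0).resolve_left h64)
  have hroot' : 2 * l0 ^ 3 - 3 * l0 ^ 2 - 3 * l0 + 2 = 0 := by linear_combination hroot
  have hQ : 2 * l0 ^ 2 - 2 * l0 - 1 ≠ 0 := by
    intro hq
    have h1 : 3 * (2 * l0 - 1) = 0 := by linear_combination (2 * l0 - 1) * hq - 2 * hroot'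
    have h1' : 2 * l0 - 1 = 0 := (mul_eq_zero.mp h1).resolve_left h3
    have : (3 : K) = 0 := by linear_combination (2 * l0 - 1) * h1' - 2 * hq
    exact h3 this
  let H : K[X] := 2 * X ^ 2 + (2 * C l0 - 3) * X + (2 * C l0 ^ 2 - 3 * C l0 - 3)
  have hH : (2 * X ^ 3 - 3 * X ^ 2 - 3 * X + 2 : K[X]) = (X - C l0) * H := by
    have hr : 2 * (C l0 : K[X]) ^ 3 - 3 * C l0 ^ 2 - 3 * C l0 + 2 = 0 := by
      have := congrArg (C : K → K[X]) hroot'
      simpa [map_ofNat] using this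
    simp only [H]
    linear_combination hr
  obtain ⟨c, hc⟩ : ∃ c : K, legB l0 = 4 * c := ⟨legB l0 / 4, by field_simp⟩
  have hc0 : c ≠ 0 := by
    rintro rfl
    exact hB (by rw [hc]; ring)
  have hA' : legA l0 ^ 3 = 27 * c := by
    have : (4 : K) * legA l0 ^ 3 = 4 * (27 * c) := by rw [hA, hc]; ring
    exact mul_left_cancel₀ h4 this
  refine ⟨C c * H ^ 2, ?_, ?_⟩
  · unfold legLocal
    have e : (4 * (X ^ 2 - X + 1) ^ 3 - 27 * (X ^ 2 * (X - 1) ^ 2) : K[X])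
        = (2 * X ^ 3 - 3 * X ^ 2 - 3 * X + 2) ^ 2 := by ring
    rw [hA', hc]
    have : C (4 * c) * (X ^ 2 - X + 1) ^ 3 - C (27 * c) * (X ^ 2 * (X - 1) ^ 2)
        = C c * (4 * (X ^ 2 - X + 1) ^ 3 - 27 * (X ^ 2 * (X - 1) ^ 2)) := by
      rw [C_mul, C_mul, map_ofNat, map_ofNat]; ring
    rw [this, e, hH]; ring
  · simp only [eval_mul, eval_C, eval_pow]
    refine mul_ne_zero hc0 (pow_ne_zero _ ?_)
    have : eval l0 H = 3 * (2 * l0 ^ 2 - 2 * l0 - 1) := by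
      simp only [H, eval_add, eval_mul, eval_sub, eval_pow, eval_X, eval_C, eval_ofNat]
      ring
    rw [this]
    exact mul_ne_zero h3 hQ

/-- The Wronskian of the Legendre `j`-function. -/
theorem leg_wronskian (l0 : K) :
    (derivative (legLocal l0)).eval l0 =
      legA l0 ^ 2 * (2 * l0 - 1) * l0 * (l0 - 1) * (l0 - 2) * (l0 + 1) := by
  unfold legLocal
  simp only [derivative_sub, derivative_mul, derivative_C, derivative_pow, derivative_add,
    derivative_X, derivative_one, zero_mul, zero_add, add_zero, sub_zero,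
    eval_sub, eval_mul, eval_add, eval_pow, eval_X, eval_C, mul_one,
    eval_one, Nat.cast_ofNat]
  unfold legA legB
  norm_num
  ring

/-- Generic case (`e = 1`). -/
theorem legLocal_factor_one {l0 : K} (h2 : (2 : K) ≠ 0) (hB : legB l0 ≠ 0)
    (hA0 : legA l0 ≠ 0) (hA : 4 * legA l0 ^ 3 ≠ 27 * legB l0) :
    ∃ G : K[X], legLocal l0 = (X - C l0) ^ 1 * G ∧ G.eval l0 ≠ 0 := by
  have hroot : (legLocal l0).IsRoot l0 := by
    rw [IsRoot, eval_legLocal]; ring
  obtain ⟨G, hG⟩ := dvd_iff_isRoot.mpr hroot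
  refine ⟨G, by rw [pow_one]; exact hG, ?_⟩
  have hd : (derivative (legLocal l0)).eval l0 = G.eval l0 := by
    rw [hG]
    simp [derivative_mul]
  rw [← hd, leg_wronskian]
  obtain ⟨hl0, hl1⟩ := legB_ne_zero_iff.mp hB
  have hP : (l0 + 1) * (l0 - 2) * (2 * l0 - 1) ≠ 0 := by
    intro h; apply hA
    have := leg_1728 l0
    rw [h] at this
    have h64 : (64 : K) ≠ 0 := by
      have : (64 : K) = 2 ^ 6 := by norm_num
      rw [this]; exact pow_ne_zero _ h2
    have : (64 : K) * (4 * legA l0 ^ 3) = 64 * (27 * legB l0) := by linear_combination this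
    exact mul_left_cancel₀ h64 this
  have hP1 : l0 + 1 ≠ 0 := fun h => hP (by rw [h]; ring)
  have hP2 : l0 - 2 ≠ 0 := fun h => hP (by rw [h]; ring)
  have hP3 : 2 * l0 - 1 ≠ 0 := fun h => hP (by rw [h]; ring)
  exact mul_ne_zero (mul_ne_zero (mul_ne_zero (mul_ne_zero (mul_ne_zero (pow_ne_zero _ hA0) hP3)
    hl0) (sub_ne_zero.mpr hl1)) hP2) hP1

theorem legJ_eq_zero_iff {l0 : K} (h2 : (2 : K) ≠ 0) (hB : legB l0 ≠ 0) :
    legJ l0 = 0 ↔ legA l0 = 0 := by
  have h256 : (256 : K) ≠ 0 := by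
    have : (256 : K) = 2 ^ 8 := by norm_num
    rw [this]; exact pow_ne_zero _ h2
  unfold legJ
  rw [div_eq_zero_iff]
  simp [h256, hB]

theorem legJ_eq_1728_iff {l0 : K} (h2 : (2 : K) ≠ 0) (hB : legB l0 ≠ 0) :
    legJ l0 = 1728 ↔ 4 * legA l0 ^ 3 = 27 * legB l0 := by
  have h64 : (64 : K) ≠ 0 := by
    have : (64 : K) = 2 ^ 6 := by norm_num
    rw [this]; exact pow_ne_zero _ h2
  unfold legJ
  rw [div_eq_iff hB]
  constructor
  · intro h
    have : (64 : K) * (4 * legA l0 ^ 3) = 64 * (27 * legB l0) := by linear_combination h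
    exact mul_left_cancel₀ h64 this
  · intro h; linear_combination 64 * h

/-- `legJ l - legJ l0` is `256 * legLocal l0 (l) / (legB l * legB l0)`. -/
theorem legJ_sub_legJ {E : Type*} [Field E] [Algebra K E] (l0 : K) (l : E)
    (hB0 : legB l0 ≠ 0) (hBl : legB l ≠ 0) :
    legJ l - algebraMap K E (legJ l0)
      = 256 * aeval l (legLocal l0) / (legB l * algebraMap K E (legB l0)) := by
  rw [aeval_legLocal]
  have hB0' : algebraMap K E (legB l0) ≠ 0 := by
    simpa using hB0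
  unfold legJ
  rw [map_div₀, map_mul, map_ofNat, map_pow]
  field_simp

/-- **Local form of the Legendre `j`-function** at a non-cuspidal point `l0` of the `λ`-line. -/
theorem legLocal_factor {l0 : K} (h2 : (2 : K) ≠ 0) (h3 : (3 : K) ≠ 0) (hB : legB l0 ≠ 0) :
    ∃ (n : ℕ) (G : K[X]), legLocal l0 = (X - C l0) ^ n * G ∧ G.eval l0 ≠ 0 ∧
      ((n = 3 ∧ legJ l0 = 0) ∨ (n = 2 ∧ legJ l0 = 1728) ∨
        (n = 1 ∧ legJ l0 ≠ 0 ∧ legJ l0 ≠ 1728)) := by
  by_cases hA0 : legA l0 = 0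
  · obtain ⟨G, hG, hG0⟩ := legLocal_factor_three h3 hB hA0
    exact ⟨3, G, hG, hG0, Or.inl ⟨rfl, (legJ_eq_zero_iff h2 hB).mpr hA0⟩⟩
  · by_cases hA : 4 * legA l0 ^ 3 = 27 * legB l0
    · obtain ⟨G, hG, hG0⟩ := legLocal_factor_two h2 h3 hB hA
      exact ⟨2, G, hG, hG0, Or.inr (Or.inl ⟨rfl, (legJ_eq_1728_iff h2 hB).mpr hA⟩)⟩
    · obtain ⟨G, hG, hG0⟩ := legLocal_factor_one h2 hB hA0 hA
      exact ⟨1, G, hG, hG0, Or.inr (Or.inr ⟨rfl, fun h => hA0 ((legJ_eq_zero_iff h2 hB).mp h),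
        fun h => hA ((legJ_eq_1728_iff h2 hB).mp h)⟩)⟩

/-- **Field-level local form** (Legendre). -/
theorem legJ_sub_eq_pow_mul {E : Type*} [Field E] [Algebra K E] {l0 : K} (h2 : (2 : K) ≠ 0)
    (h3 : (3 : K) ≠ 0) (hB : legB l0 ≠ 0) :
    ∃ (n : ℕ) (G : K[X]), G.eval l0 ≠ 0 ∧
      ((n = 3 ∧ legJ l0 = 0) ∨ (n = 2 ∧ legJ l0 = 1728) ∨
        (n = 1 ∧ legJ l0 ≠ 0 ∧ legJ l0 ≠ 1728)) ∧
      ∀ l : E, legB l ≠ 0 → legJ l - algebraMap K E (legJ l0) =
        (l - algebraMap K E l0) ^ n *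
          (256 * aeval l G / (legB l * algebraMap K E (legB l0))) := by
  obtain ⟨n, G, hG, hG0, hn⟩ := legLocal_factor h2 h3 hB
  refine ⟨n, G, hG0, hn, fun l hl => ?_⟩
  rw [legJ_sub_legJ l0 l hB hl, hG]
  simp only [map_mul, map_pow, map_sub, aeval_X, aeval_C]
  ring

end Legendre

section Unit

variable {K : Type*} [Field K]

/-- Taylor expansion to first order: `G(μ) = G(m0) + (μ - m0) * G'(μ)`. -/
theorem exists_aeval_eq_eval_add {E : Type*} [CommRing E] [Algebra K E] (G : K[X]) (m0 : K)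
    (μ : E) :
    ∃ G' : K[X], aeval μ G = algebraMap K E (G.eval m0) + (μ - algebraMap K E m0) * aeval μ G' := by
  obtain ⟨G', hG'⟩ := X_sub_C_dvd_sub_C_eval (a := m0) (p := G)
  refine ⟨G', ?_⟩
  have : G = C (G.eval m0) + (X - C m0) * G' := by rw [← hG']; ring
  conv_lhs => rw [this]
  simp

/-- A polynomial expression in `μ` over the constants has valuation `≤ 1` as soon as `μ` has. -/
theorem valuation_aeval_le_one {E Γ₀ : Type*} [Field E] [Algebra K E]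
    [LinearOrderedCommGroupWithZero Γ₀] (v : Valuation E Γ₀)
    (hv : ∀ c : K, v (algebraMap K E c) ≤ 1) (G : K[X]) {μ : E} (hμ : v μ ≤ 1) :
    v (aeval μ G) ≤ 1 := by
  rw [aeval_eq_sum_range]
  refine v.map_sum_le fun i _ => ?_
  rw [Algebra.smul_def, map_mul, map_pow]
  exact mul_le_one' (hv _) (pow_le_one' hμ i)

/-- **The cofactor is a unit at the point**: if `v` is trivial on the constants,
`v (μ - m0) < 1` and `G(m0) ≠ 0` then `v (G(μ)) = 1`. -/
theorem valuation_aeval_eq_one {E Γ₀ : Type*} [Field E] [Algebra K E]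
    [LinearOrderedCommGroupWithZero Γ₀] (v : Valuation E Γ₀)
    (hv : ∀ c : K, c ≠ 0 → v (algebraMap K E c) = 1) (G : K[X]) {m0 : K} {μ : E}
    (hμ : v (μ - algebraMap K E m0) < 1) (hG : G.eval m0 ≠ 0) :
    v (aeval μ G) = 1 := by
  have hv' : ∀ c : K, v (algebraMap K E c) ≤ 1 := by
    intro c
    by_cases hc : c = 0
    · simp [hc]
    · exact (hv c hc).le
  have hμ1 : v μ ≤ 1 := by
    have : μ = (μ - algebraMap K E m0) + algebraMap K E m0 := by ring
    rw [this]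
    exact v.map_add_le hμ.le (hv' m0)
  obtain ⟨G', hG'⟩ := exists_aeval_eq_eval_add G m0 μ
  rw [hG', add_comm]
  have h1 : v ((μ - algebraMap K E m0) * aeval μ G') < 1 := by
    rw [map_mul]
    exact mul_lt_one_of_lt_of_le hμ (valuation_aeval_le_one v hv' G' hμ1)
  rw [v.map_add_eq_of_lt_right (by rw [hv _ hG]; exact h1), hv _ hG]

end Unit

end Fermat.Agent.S18.H26
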