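import Mathlib
import Fermat.Agent.S18.H95_Abhyankar
import Fermat.Agent.S18.H95_BranchData
import Fermat.Agent.S18.H26_AuxLocal

set_option autoImplicit false

/-!
# S18 / (HOR-OUT), Hesse and Legendre lines

`helper95`.  Let `F'b = F_N(μ)` with `hesJ μ = j` (resp. `legJ μ = j`).  Every place `v` of
`F'b / Qbar` with `0 < ord_v (μ - a)`, `a` not a cusp of the `μ`-line, has `ord_v (μ - a) = 1`:
the `μ`-line is (tamely) ramified over `j = 0, 1728` with indices `3, 2`, which absorb the
ramification of `F_N / Qbar(j)` (Abhyankar's lemma, `H95.ord_sub_eq_one_of_abhyankar`).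
-/

noncomputable section

namespace Fermat.Agent.S18.H95

open AlgebraicCurve Polynomial IntermediateField
open Fermat.Agent.S24

section FinDim

variable {K F F' : Type*} [Field K] [Field F] [Field F'] [Algebra K F] [Algebra K F']
  [Algebra F F'] [IsScalarTower K F F']

theorem algebraMap_mem_adjoin_of_mem (x : F) {c : F} (hc : c ∈ K⟮x⟯) :
    algebraMap F F' c ∈ K⟮algebraMap F F' x⟯ := by
  have h := IntermediateField.adjoin_map K ({x} : Set F) (IsScalarTower.toAlgHom K F F')
  have hm : algebraMap F F' c ∈ (K⟮x⟯).map (IsScalarTower.toAlgHom K F F') := ⟨c, hc, rfl⟩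
  rw [h, Set.image_singleton] at hm
  exact hm

/-- finiteness over `K(x)` goes up a finite extension `F'/F`. -/
theorem finiteDimensional_adjoin_algebraMap (x : F) [FiniteDimensional K⟮x⟯ F]
    [FiniteDimensional F F'] : FiniteDimensional K⟮algebraMap F F' x⟯ F' := by
  haveI : Module.Finite K⟮x⟯ F' := Module.Finite.trans F F'
  obtain ⟨s, hs⟩ := Module.finite_def.mp (inferInstance : Module.Finite K⟮x⟯ F')
  refine Module.finite_def.mpr ⟨s, ?_⟩
  rw [eq_top_iff]
  intro y hy0
  clear hy0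
  have hy : y ∈ Submodule.span K⟮x⟯ (s : Set F') := by rw [hs]; trivial
  induction hy using Submodule.span_induction with
  | mem z hz => exact Submodule.subset_span hz
  | zero => exact Submodule.zero_mem _
  | add a b _ _ ha hb => exact Submodule.add_mem _ ha hb
  | smul c z _ hz =>
    have h1 : c • z = (⟨algebraMap F F' (c : F), algebraMap_mem_adjoin_of_mem x c.2⟩ :
        K⟮algebraMap F F' x⟯) • z := by
      rw [Algebra.smul_def, Algebra.smul_def]; rfl
    rw [h1]
    exact Submodule.smul_mem _ _ hz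

/-- finiteness over a smaller intermediate field gives finiteness over a bigger one. -/
theorem finiteDimensional_of_le {E₁ E₂ : IntermediateField K F'} (h : E₁ ≤ E₂)
    [FiniteDimensional E₁ F'] : FiniteDimensional E₂ F' := by
  obtain ⟨s, hs⟩ := Module.finite_def.mp (inferInstance : Module.Finite E₁ F')
  refine Module.finite_def.mpr ⟨s, ?_⟩
  rw [eq_top_iff]
  intro y hy0
  clear hy0
  have hy : y ∈ Submodule.span E₁ (s : Set F') := by rw [hs]; trivial
  induction hy using Submodule.span_induction with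
  | mem z hz => exact Submodule.subset_span hz
  | zero => exact Submodule.zero_mem _
  | add a b _ _ ha hb => exact Submodule.add_mem _ ha hb
  | smul c z _ hz =>
    have h1 : c • z = (⟨(c : F'), h c.2⟩ : E₂) • z := by
      rw [Algebra.smul_def, Algebra.smul_def]; rfl
    rw [h1]
    exact Submodule.smul_mem _ _ hz

end FinDim

section Branch

variable {K F F' : Type*} [Field K] [Field F] [Field F'] [Algebra K F] [Algebra K F']
  [Algebra F F'] [IsScalarTower K F F']

/-- **Abhyankar, consumer form** (no restriction place in the hypotheses): if every zero `u`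
of `x - c` on `F` has `ord_u (x - c) ∈ {1, e}`, and `x = A(y)/B(y)` with
`A - c B = (X - y₀)^e W`, `W(y₀) ≠ 0 ≠ B(y₀)`, `e ≠ 0` in `K`, then every zero `v` of `y - y₀`
on `F' = F(y)` (of degree one) has `ord_v (y - y₀) = 1`. -/
theorem ord_sub_eq_one_of_branch (v : Place K F') (hdeg : v.deg = 1)
    (y : F') (hgen : IntermediateField.adjoin F {y} = ⊤)
    (x : F) (A B : K[X]) (hxy : aeval y A = algebraMap F F' x * aeval y B)
    (y0 : K) (hy0 : 0 < v.ord (y - algebraMap K F' y0))
    (hB0 : B.eval y0 ≠ 0) (c : K)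
    (e : ℕ) (he0 : 0 < e) (he : (e : K) ≠ 0) (W : K[X])
    (hW : A - C c * B = (X - C y0) ^ e * W) (hW0 : W.eval y0 ≠ 0)
    (hu : ∀ u : Place K F, 0 < u.ord (x - algebraMap K F c) →
      u.ord (x - algebraMap K F c) = 1 ∨ u.ord (x - algebraMap K F c) = e) :
    v.ord (y - algebraMap K F' y0) = 1 := by
  have hyne : y - algebraMap K F' y0 ≠ 0 := by
    intro h; rw [h, Place.ord_zero] at hy0; exact lt_irrefl _ hy0
  have hyval : v.adicValuation (y - algebraMap K F' y0) < 1 :=
    (adicValuation_lt_one_iff v hyne).mpr hy0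
  have hBval := adicValuation_aeval_eq_one v hyval B hB0
  have hWval := adicValuation_aeval_eq_one v hyval W hW0
  have hBne : aeval y B ≠ 0 := by
    intro h; rw [h, map_zero] at hBval; exact zero_ne_one hBval
  have hWne : aeval y W ≠ 0 := by
    intro h; rw [h, map_zero] at hWval; exact zero_ne_one hWval
  have key : algebraMap F F' (x - algebraMap K F c) * aeval y B
      = (y - algebraMap K F' y0) ^ e * aeval y W := by
    have h := congrArg (aeval y) hW
    simp only [map_sub, map_mul, map_pow, aeval_X, aeval_C] at h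
    rw [← h, hxy, map_sub, ← IsScalarTower.algebraMap_apply]
    ring
  have hfne : algebraMap F F' (x - algebraMap K F c) ≠ 0 := by
    intro h
    rw [h, zero_mul] at key
    exact mul_ne_zero (pow_ne_zero _ hyne) hWne key.symm
  have hford : v.ord (algebraMap F F' (x - algebraMap K F c))
      = e * v.ord (y - algebraMap K F' y0) := by
    have h := congrArg v.ord key
    rw [v.ord_mul hfne hBne, v.ord_mul (pow_ne_zero _ hyne) hWne,
      (adicValuation_eq_one_iff v hBne).mp hBval, (adicValuation_eq_one_iff v hWne).mp hWval,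
      add_zero, add_zero, ← zpow_natCast, v.ord_zpow] at h
    exact h
  have hfpos : 0 < v.ord (algebraMap F F' (x - algebraMap K F c)) := by
    rw [hford]; positivity
  have hnt : ∃ f : F, f ≠ 0 ∧ v.ord (algebraMap F F' f) ≠ 0 :=
    ⟨x - algebraMap K F c, fun h => hfne (by rw [h, map_zero]), hfpos.ne'⟩
  have hupos : 0 < (restrictPlace (K := K) v hnt).ord (x - algebraMap K F c) := by
    have h := ord_algebraMap_eq (K := K) v hnt (x - algebraMap K F c)
    rw [h] at hfpos
    have hr : (0 : ℤ) < ramIdx (K := K) v hnt := by exact_mod_cast ramIdx_pos (K := K) v hnt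
    exact (mul_pos_iff_of_pos_left hr).mp hfpos
  exact ord_sub_eq_one_of_abhyankar v hdeg y hgen x A B hxy y0 hy0 hB0 c e he0 he W hW hW0 hnt
    (hu _ hupos)

end Branch

section Cover

variable (N : ℕ) [NeZero N] {F'b : Type*} [Field F'b] [Algebra Qbar F'b] [Algebra (FN N) F'b]
  [IsScalarTower Qbar (FN N) F'b]

theorem jBar_ne_zero : jBar N ≠ 0 := by
  intro h
  have := transcendental_jBar N
  rw [h] at this
  exact this (isAlgebraic_zero)

theorem transcendental_algebraMap_jBar :
    Transcendental Qbar (algebraMap (FN N) F'b (jBar N)) :=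
  (transcendental_algebraMap_iff (algebraMap (FN N) F'b).injective).mpr (transcendental_jBar N)

/-- `F'b = F_N(μ)` with `μ` algebraic over `F_N` is finite over `F_N`. -/
theorem finiteDimensional_of_adjoin_eq_top {mu : F'b} (halg : IsAlgebraic (FN N) mu)
    (hgen : IntermediateField.adjoin (FN N) {mu} = ⊤) : FiniteDimensional (FN N) F'b := by
  haveI h1 : FiniteDimensional (FN N) (FN N)⟮mu⟯ :=
    IntermediateField.adjoin.finiteDimensional halg.isIntegral
  haveI h2 : FiniteDimensional (FN N) (⊤ : IntermediateField (FN N) F'b) := hgen ▸ h1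
  exact Module.Finite.equiv (IntermediateField.topEquiv (F := FN N) (E := F'b)).toLinearEquiv

/-- `F'b` is finite over `Qbar(j)`. -/
theorem finiteDimensional_adjoin_jBar {mu : F'b} (halg : IsAlgebraic (FN N) mu)
    (hgen : IntermediateField.adjoin (FN N) {mu} = ⊤) :
    FiniteDimensional Qbar⟮algebraMap (FN N) F'b (jBar N)⟯ F'b := by
  haveI := finiteDimensional_of_adjoin_eq_top N halg hgen
  haveI := H40.finiteDimensional_FN N
  exact finiteDimensional_adjoin_algebraMap (K := Qbar) (jBar N)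

/-- every place of `F'b / Qbar` has degree one. -/
theorem deg_eq_one_of_adjoin_eq_top {mu : F'b} (halg : IsAlgebraic (FN N) mu)
    (hgen : IntermediateField.adjoin (FN N) {mu} = ⊤) (v : Place Qbar F'b) : v.deg = 1 := by
  haveI := finiteDimensional_adjoin_jBar N halg hgen
  exact H25.deg_eq_one (K := Qbar) (algebraMap (FN N) F'b (jBar N))
    (transcendental_algebraMap_jBar N) v

theorem algebraMap_jBar_mem_adjoin {mu : F'b} {A B : Qbar[X]}
    (hrel : aeval mu A = algebraMap (FN N) F'b (jBar N) * aeval mu B) (hB : aeval mu B ≠ 0) :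
    algebraMap (FN N) F'b (jBar N) ∈ Qbar⟮mu⟯ := by
  have hA' : aeval mu A ∈ Qbar⟮mu⟯ :=
    IntermediateField.algebra_adjoin_le_adjoin Qbar _ (aeval_mem_adjoin_singleton Qbar mu)
  have hB' : aeval mu B ∈ Qbar⟮mu⟯ :=
    IntermediateField.algebra_adjoin_le_adjoin Qbar _ (aeval_mem_adjoin_singleton Qbar mu)
  have h : algebraMap (FN N) F'b (jBar N) = aeval mu A / aeval mu B :=
    eq_div_of_mul_eq hB hrel.symm
  rw [h]
  exact div_mem hA' hB'

/-- `μ` is transcendental over `Qbar` when `j` is a rational function of `μ`. -/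
theorem transcendental_of_rel {mu : F'b} {A B : Qbar[X]}
    (hrel : aeval mu A = algebraMap (FN N) F'b (jBar N) * aeval mu B) (hB : aeval mu B ≠ 0) :
    Transcendental Qbar mu := by
  intro halg
  haveI := IntermediateField.isAlgebraic_adjoin_simple halg.isIntegral
  have h1 : IsAlgebraic Qbar
      (⟨_, algebraMap_jBar_mem_adjoin N hrel hB⟩ : Qbar⟮mu⟯) := Algebra.IsAlgebraic.isAlgebraic _
  exact transcendental_algebraMap_jBar N (IntermediateField.isAlgebraic_iff.mp h1)

/-- `F'b = F_N(μ)` is finite over `Qbar(μ)`. -/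
theorem finiteDimensional_adjoin_of_rel {mu : F'b} {A B : Qbar[X]}
    (hrel : aeval mu A = algebraMap (FN N) F'b (jBar N) * aeval mu B) (hB : aeval mu B ≠ 0)
    (halg : IsAlgebraic (FN N) mu) (hgen : IntermediateField.adjoin (FN N) {mu} = ⊤) :
    FiniteDimensional Qbar⟮mu⟯ F'b := by
  haveI := finiteDimensional_adjoin_jBar N halg hgen
  exact finiteDimensional_of_le
    (adjoin_simple_le_iff.mpr (algebraMap_jBar_mem_adjoin N hrel hB))

/-- **(HOR-OUT), abstract cover form.**  `F'b = F_N(μ)`, `j = A(μ)/B(μ)`; at a point `a` of the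
`μ`-line with `B(a) ≠ 0` where `A - (A(a)/B(a)) B = (X - a)^n W`, `W(a) ≠ 0`, and `n = 3, 2, 1`
according to `A(a)/B(a) = 0`, `= 1728`, other: every zero of `μ - a` is simple. -/
theorem ord_sub_eq_one_of_cover (mu : F'b) (A B : Qbar[X])
    (hrel : aeval mu A = algebraMap (FN N) F'b (jBar N) * aeval mu B)
    (halg : IsAlgebraic (FN N) mu)
    (hgen : IntermediateField.adjoin (FN N) {mu} = ⊤)
    (v : Place Qbar F'b) (a : Qbar) (hB0 : B.eval a ≠ 0) (c : Qbar)
    (hfac : ∃ (n : ℕ) (W : Qbar[X]), A - C c * B = (X - C a) ^ n * W ∧ W.eval a ≠ 0 ∧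
      ((n = 3 ∧ c = 0) ∨ (n = 2 ∧ c = 1728) ∨ (n = 1 ∧ c ≠ 0 ∧ c ≠ 1728)))
    (hv : 0 < v.ord (mu - algebraMap Qbar F'b a)) :
    v.ord (mu - algebraMap Qbar F'b a) = 1 := by
  obtain ⟨n, W, hW, hW0, hn⟩ := hfac
  have hdeg := deg_eq_one_of_adjoin_eq_top N halg hgen v
  have hn0 : 0 < n := by rcases hn with ⟨h, _⟩ | ⟨h, _⟩ | ⟨h, _⟩ <;> omega
  have hnK : (n : Qbar) ≠ 0 := Nat.cast_ne_zero.mpr hn0.ne'
  refine ord_sub_eq_one_of_branch v hdeg mu hgen (jBar N) A B hrel a hv hB0 c n hn0 hnK W hW hW0 ?_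
  intro u hu
  rcases hn with ⟨h3, hc⟩ | ⟨h2, hc⟩ | ⟨h1, hc0, hc1⟩
  · subst hc
    rw [map_zero, sub_zero] at hu ⊢
    have hd := ord_jBar_dvd_three N u hu
    have hle : u.ord (jBar N) ≤ 3 := Int.le_of_dvd (by norm_num) hd
    subst h3
    generalize u.ord (jBar N) = d at hu hd hle ⊢
    interval_cases d
    · left; rfl
    · exfalso; omega
    · right; rfl
  · subst hc
    have hd := ord_jBar_sub_1728_dvd_two N u hu
    have hle : u.ord (jBar N - algebraMap Qbar (FN N) 1728) ≤ 2 := Int.le_of_dvd (by norm_num) hd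
    subst h2
    generalize u.ord (jBar N - algebraMap Qbar (FN N) 1728) = d at hu hd hle ⊢
    interval_cases d
    · left; rfl
    · right; rfl
  · left
    exact ord_jBar_sub_eq_one N u c hc0 hc1 hu

end Cover

section Hesse

variable (N : ℕ) [NeZero N] {F'b : Type*} [Field F'b] [Algebra Qbar F'b] [Algebra (FN N) F'b]
  [IsScalarTower Qbar (FN N) F'b]

/-- numerator of `hesJ`. -/
def hesNum : Qbar[X] := C 27 * (X ^ 3 * (X ^ 3 + 8) ^ 3)

/-- denominator of `hesJ`. -/
def hesDen : Qbar[X] := (X ^ 3 - 1) ^ 3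

theorem aeval_hesNum (mu : F'b) : aeval mu hesNum = 27 * H26.hesA mu := by
  simp [hesNum, H26.hesA, map_ofNat]

theorem aeval_hesDen (mu : F'b) : aeval mu hesDen = H26.hesB mu := by
  simp [hesDen, H26.hesB]

theorem eval_hesDen (a : Qbar) : hesDen.eval a = H26.hesB a := by
  simp [hesDen, H26.hesB]

theorem hesB_ne_zero_of_hesJ_eq {mu : F'b}
    (hmu : H26.hesJ mu = algebraMap (FN N) F'b (jBar N)) : H26.hesB mu ≠ 0 := by
  intro h
  have h0 : H26.hesJ mu = 0 := by unfold H26.hesJ; rw [h, div_zero]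
  rw [h0] at hmu
  exact jBar_ne_zero N ((_root_.map_eq_zero _).mp hmu.symm)

theorem hes_rel {mu : F'b} (hmu : H26.hesJ mu = algebraMap (FN N) F'b (jBar N)) :
    aeval mu hesNum = algebraMap (FN N) F'b (jBar N) * aeval mu hesDen := by
  have hB := hesB_ne_zero_of_hesJ_eq N hmu
  rw [aeval_hesNum, aeval_hesDen, ← hmu]
  unfold H26.hesJ
  field_simp

theorem isAlgebraic_of_hesJ_eq {mu : F'b}
    (hmu : H26.hesJ mu = algebraMap (FN N) F'b (jBar N)) : IsAlgebraic (FN N) mu := by
  refine ⟨C 27 * (X ^ 3 * (X ^ 3 + 8) ^ 3) - C (jBar N) * (X ^ 3 - 1) ^ 3, ?_, ?_⟩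
  · intro h
    have h1 := congrArg (Polynomial.eval (1 : FN N)) h
    simp only [eval_sub, eval_mul, eval_C, eval_pow, eval_X, eval_add, eval_ofNat, eval_one,
      eval_zero, one_pow, one_mul, sub_self, ne_eq, OfNat.ofNat_ne_zero, not_false_eq_true,
      zero_pow, mul_zero, sub_zero] at h1
    norm_num at h1
  · have h := hes_rel N hmu
    rw [aeval_hesNum, aeval_hesDen] at h
    unfold H26.hesA H26.hesB at h
    simp only [map_sub, map_mul, aeval_C, map_pow, aeval_X, map_add, map_ofNat, map_one]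
    linear_combination h

theorem transcendental_of_hesJ_eq {mu : F'b}
    (hmu : H26.hesJ mu = algebraMap (FN N) F'b (jBar N)) : Transcendental Qbar mu :=
  transcendental_of_rel N (hes_rel N hmu)
    (by rw [aeval_hesDen]; exact hesB_ne_zero_of_hesJ_eq N hmu)

theorem finiteDimensional_of_hesJ_eq {mu : F'b}
    (hmu : H26.hesJ mu = algebraMap (FN N) F'b (jBar N))
    (hgen : IntermediateField.adjoin (FN N) {mu} = ⊤) : FiniteDimensional Qbar⟮mu⟯ F'b :=
  finiteDimensional_adjoin_of_rel N (hes_rel N hmu)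
    (by rw [aeval_hesDen]; exact hesB_ne_zero_of_hesJ_eq N hmu) (isAlgebraic_of_hesJ_eq N hmu) hgen

/-- **(HOR-OUT), Hesse line** (shape of #1904 (A4)). -/
theorem ord_sub_eq_one_of_hesJ (mu : F'b) (hmu : H26.hesJ mu = algebraMap (FN N) F'b (jBar N))
    (hgen : IntermediateField.adjoin (FN N) {mu} = ⊤)
    (v : Place Qbar F'b) (a : Qbar) (ha : a ^ 3 ≠ 1)
    (hv : 0 < v.ord (mu - algebraMap Qbar F'b a)) :
    v.ord (mu - algebraMap Qbar F'b a) = 1 := by
  have h2 : (2 : Qbar) ≠ 0 := by norm_num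
  have h3 : (3 : Qbar) ≠ 0 := by norm_num
  have hB : H26.hesB a ≠ 0 := by
    unfold H26.hesB
    exact pow_ne_zero _ (sub_ne_zero.mpr ha)
  obtain ⟨n, G, hG, hG0, hn⟩ := H26.hesLocal_factor h2 h3 hB
  refine ord_sub_eq_one_of_cover N mu hesNum hesDen (hes_rel N hmu) (isAlgebraic_of_hesJ_eq N hmu)
    hgen v a (by rw [eval_hesDen]; exact hB) (H26.hesJ a)
    ⟨n, C (27 / H26.hesB a) * G, ?_, ?_, hn⟩ hv
  · have e1 : (27 : Qbar) / H26.hesB a * H26.hesB a = 27 := div_mul_cancel₀ _ hB
    have e2 : (27 : Qbar) / H26.hesB a * H26.hesA a = H26.hesJ a := by unfold H26.hesJ; ring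
    have c1 : C (27 : Qbar) = C (27 / H26.hesB a) * C (H26.hesB a) := by rw [← C_mul, e1]
    have c2 : C (H26.hesJ a) = C (27 / H26.hesB a) * C (H26.hesA a) := by rw [← C_mul, e2]
    have : hesNum - C (H26.hesJ a) * hesDen = C (27 / H26.hesB a) * H26.hesLocal a := by
      unfold hesNum hesDen H26.hesLocal
      rw [c1, c2]
      ring
    rw [this, hG]
    ring
  · rw [eval_mul, eval_C]
    exact mul_ne_zero (div_ne_zero (by norm_num) hB) hG0

end Hesse

section Legendre

variable (N : ℕ) [NeZero N] {F'b : Type*} [Field F'b] [Algebra Qbar F'b] [Algebra (FN N) F'b]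
  [IsScalarTower Qbar (FN N) F'b]

/-- numerator of `legJ`. -/
def legNum : Qbar[X] := C 256 * (X ^ 2 - X + 1) ^ 3

/-- denominator of `legJ`. -/
def legDen : Qbar[X] := X ^ 2 * (X - 1) ^ 2

theorem aeval_legNum (l : F'b) : aeval l legNum = 256 * H26.legA l ^ 3 := by
  simp [legNum, H26.legA, map_ofNat]

theorem aeval_legDen (l : F'b) : aeval l legDen = H26.legB l := by
  simp [legDen, H26.legB]

theorem eval_legDen (a : Qbar) : legDen.eval a = H26.legB a := by
  simp [legDen, H26.legB]

theorem legB_ne_zero_of_legJ_eq {l : F'b}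
    (hl : H26.legJ l = algebraMap (FN N) F'b (jBar N)) : H26.legB l ≠ 0 := by
  intro h
  have h0 : H26.legJ l = 0 := by unfold H26.legJ; rw [h, div_zero]
  rw [h0] at hl
  exact jBar_ne_zero N ((_root_.map_eq_zero _).mp hl.symm)

theorem leg_rel {l : F'b} (hl : H26.legJ l = algebraMap (FN N) F'b (jBar N)) :
    aeval l legNum = algebraMap (FN N) F'b (jBar N) * aeval l legDen := by
  have hB := legB_ne_zero_of_legJ_eq N hl
  rw [aeval_legNum, aeval_legDen, ← hl]
  unfold H26.legJ
  field_simp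

theorem isAlgebraic_of_legJ_eq {l : F'b}
    (hl : H26.legJ l = algebraMap (FN N) F'b (jBar N)) : IsAlgebraic (FN N) l := by
  refine ⟨C 256 * (X ^ 2 - X + 1) ^ 3 - C (jBar N) * (X ^ 2 * (X - 1) ^ 2), ?_, ?_⟩
  · intro h
    have h1 := congrArg (Polynomial.eval (1 : FN N)) h
    simp only [eval_sub, eval_mul, eval_C, eval_pow, eval_X, eval_add, eval_ofNat, eval_one,
      eval_zero, one_pow, one_mul, sub_self, ne_eq, OfNat.ofNat_ne_zero, not_false_eq_true,
      zero_pow, mul_zero, sub_zero, zero_add, mul_one] at h1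
  · have h := leg_rel N hl
    rw [aeval_legNum, aeval_legDen] at h
    unfold H26.legA H26.legB at h
    simp only [map_sub, map_mul, aeval_C, map_pow, aeval_X, map_add, map_ofNat, map_one]
    linear_combination h

theorem transcendental_of_legJ_eq {l : F'b}
    (hl : H26.legJ l = algebraMap (FN N) F'b (jBar N)) : Transcendental Qbar l :=
  transcendental_of_rel N (leg_rel N hl)
    (by rw [aeval_legDen]; exact legB_ne_zero_of_legJ_eq N hl)

theorem finiteDimensional_of_legJ_eq {l : F'b}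
    (hl : H26.legJ l = algebraMap (FN N) F'b (jBar N))
    (hgen : IntermediateField.adjoin (FN N) {l} = ⊤) : FiniteDimensional Qbar⟮l⟯ F'b :=
  finiteDimensional_adjoin_of_rel N (leg_rel N hl)
    (by rw [aeval_legDen]; exact legB_ne_zero_of_legJ_eq N hl) (isAlgebraic_of_legJ_eq N hl) hgen

/-- **(HOR-OUT), Legendre line** (shape of #1904 (A4)). -/
theorem ord_sub_eq_one_of_legJ (l : F'b) (hl : H26.legJ l = algebraMap (FN N) F'b (jBar N))
    (hgen : IntermediateField.adjoin (FN N) {l} = ⊤)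
    (v : Place Qbar F'b) (a : Qbar) (ha0 : a ≠ 0) (ha1 : a ≠ 1)
    (hv : 0 < v.ord (l - algebraMap Qbar F'b a)) :
    v.ord (l - algebraMap Qbar F'b a) = 1 := by
  have h2 : (2 : Qbar) ≠ 0 := by norm_num
  have h3 : (3 : Qbar) ≠ 0 := by norm_num
  have hB : H26.legB a ≠ 0 := by
    unfold H26.legB
    exact mul_ne_zero (pow_ne_zero _ ha0) (pow_ne_zero _ (sub_ne_zero.mpr ha1))
  obtain ⟨n, G, hG, hG0, hn⟩ := H26.legLocal_factor h2 h3 hB
  refine ord_sub_eq_one_of_cover N l legNum legDen (leg_rel N hl) (isAlgebraic_of_legJ_eq N hl)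
    hgen v a (by rw [eval_legDen]; exact hB) (H26.legJ a)
    ⟨n, C (256 / H26.legB a) * G, ?_, ?_, hn⟩ hv
  · have e1 : (256 : Qbar) / H26.legB a * H26.legB a = 256 := div_mul_cancel₀ _ hB
    have e2 : (256 : Qbar) / H26.legB a * H26.legA a ^ 3 = H26.legJ a := by
      unfold H26.legJ; ring
    have c1 : C (256 : Qbar) = C (256 / H26.legB a) * C (H26.legB a) := by rw [← C_mul, e1]
    have c2 : C (H26.legJ a) = C (256 / H26.legB a) * C (H26.legA a ^ 3) := by
      rw [← C_mul, e2]
    have : legNum - C (H26.legJ a) * legDen = C (256 / H26.legB a) * H26.legLocal a := by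
      unfold legNum legDen H26.legLocal
      rw [c1, c2]
      ring
    rw [this, hG]
    ring
  · rw [eval_mul, eval_C]
    exact mul_ne_zero (div_ne_zero (by norm_num) hB) hG0

end Legendre

section Desc

variable (N : ℕ) [NeZero N] {F'b : Type*} [Field F'b] [Algebra Qbar F'b] [Algebra (FN N) F'b]
  [IsScalarTower Qbar (FN N) F'b]
variable {K F₁ : Type*} [Field K] [Field F₁] [Algebra K F₁] [Algebra K Qbar]
  [Algebra.IsAlgebraic K Qbar] [Algebra K F'b] [Algebra F₁ F'b] [IsScalarTower K F₁ F'b]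
  [IsScalarTower K Qbar F'b]

/-- **(HOR-DESC), Hesse line**: over a subfield `K ⊆ Qbar` (e.g. `K = L1`), `F₁ / K` a function
field with `F'b ⊇ F₁`, `μ₁ ∈ F₁` with `hesJ μ₁ = j` in `F'b = F_N(μ₁)`: for `g ∈ K[X]` separable
and coprime to `X^3 - 1`, every zero of `g(μ₁)` on `F₁ / K` is simple. -/
theorem ord_aeval_eq_one_of_hesJ (mu₁ : F₁)
    (hmu : H26.hesJ (algebraMap F₁ F'b mu₁) = algebraMap (FN N) F'b (jBar N))
    (hgen : IntermediateField.adjoin (FN N) {algebraMap F₁ F'b mu₁} = ⊤)
    (g : K[X]) (hg : g.Separable) (hcop : IsCoprime g (X ^ 3 - 1))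
    (w : Place K F₁) (hw : 0 < w.ord (aeval mu₁ g)) : w.ord (aeval mu₁ g) = 1 := by
  haveI := finiteDimensional_of_hesJ_eq N hmu hgen
  refine ord_aeval_eq_one_of_extension (K := K) (K' := Qbar) (F := F₁) (F' := F'b) mu₁
    (transcendental_of_hesJ_eq N hmu) g hg ?_ w hw
  intro v a hroot hv
  refine ord_sub_eq_one_of_hesJ N _ hmu hgen v a ?_ hv
  intro ha
  have hr : eval a (Polynomial.map (algebraMap K Qbar) g) = 0 := hroot
  obtain ⟨p, q, hpq⟩ := hcop
  have h1 := congrArg (fun r : K[X] => (r.map (algebraMap K Qbar)).eval a) hpq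
  simp only [Polynomial.map_add, Polynomial.map_mul, eval_add, eval_mul, Polynomial.map_sub,
    Polynomial.map_pow, Polynomial.map_X, Polynomial.map_one, eval_sub, eval_pow, eval_X,
    eval_one, hr, ha, sub_self, mul_zero, add_zero] at h1
  exact zero_ne_one h1

/-- **(HOR-DESC), Legendre line**: same with `legJ`, `g` coprime to `X (X - 1)`. -/
theorem ord_aeval_eq_one_of_legJ (l₁ : F₁)
    (hl : H26.legJ (algebraMap F₁ F'b l₁) = algebraMap (FN N) F'b (jBar N))
    (hgen : IntermediateField.adjoin (FN N) {algebraMap F₁ F'b l₁} = ⊤)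
    (g : K[X]) (hg : g.Separable) (hcop : IsCoprime g (X * (X - 1)))
    (w : Place K F₁) (hw : 0 < w.ord (aeval l₁ g)) : w.ord (aeval l₁ g) = 1 := by
  haveI := finiteDimensional_of_legJ_eq N hl hgen
  refine ord_aeval_eq_one_of_extension (K := K) (K' := Qbar) (F := F₁) (F' := F'b) l₁
    (transcendental_of_legJ_eq N hl) g hg ?_ w hw
  intro v a hroot hv
  have key : a * (a - 1) ≠ 0 := by
    intro ha
    have hr : eval a (Polynomial.map (algebraMap K Qbar) g) = 0 := hroot
    obtain ⟨p, q, hpq⟩ := hcop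
    have h1 := congrArg (fun r : K[X] => (r.map (algebraMap K Qbar)).eval a) hpq
    simp only [Polynomial.map_add, Polynomial.map_mul, eval_add, eval_mul, Polynomial.map_sub,
      Polynomial.map_X, Polynomial.map_one, eval_sub, eval_X,
      eval_one, hr, ha, mul_zero, add_zero] at h1
    exact zero_ne_one h1
  exact ord_sub_eq_one_of_legJ N _ hl hgen v a (fun h => key (by rw [h, zero_mul]))
    (fun h => key (by rw [h, sub_self, mul_zero])) hv

/-- `hunr` of `H96.exists_uniformizer_of_places`, Hesse line (`D = X^3 - 1`). -/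
theorem hunr_hesJ [CharZero K] (mu₁ : F₁)
    (hmu : H26.hesJ (algebraMap F₁ F'b mu₁) = algebraMap (FN N) F'b (jBar N))
    (hgen : IntermediateField.adjoin (FN N) {algebraMap F₁ F'b mu₁} = ⊤) :
    ∀ (w : Place K F₁) (g₀ : K[X]), Irreducible g₀ → ¬ g₀ ∣ (X ^ 3 - 1 : K[X]) →
      0 < w.ord (aeval mu₁ g₀) → w.ord (aeval mu₁ g₀) = 1 := fun w g₀ hirr hnd hw =>
  ord_aeval_eq_one_of_hesJ N mu₁ hmu hgen g₀ hirr.separable
    ((Irreducible.coprime_iff_not_dvd hirr).mpr hnd) w hw

/-- `hunr` of `H96.exists_uniformizer_of_places`, Legendre line (`D = X (X - 1)`). -/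
theorem hunr_legJ [CharZero K] (l₁ : F₁)
    (hl : H26.legJ (algebraMap F₁ F'b l₁) = algebraMap (FN N) F'b (jBar N))
    (hgen : IntermediateField.adjoin (FN N) {algebraMap F₁ F'b l₁} = ⊤) :
    ∀ (w : Place K F₁) (g₀ : K[X]), Irreducible g₀ → ¬ g₀ ∣ (X * (X - 1) : K[X]) →
      0 < w.ord (aeval l₁ g₀) → w.ord (aeval l₁ g₀) = 1 := fun w g₀ hirr hnd hw =>
  ord_aeval_eq_one_of_legJ N l₁ hl hgen g₀ hirr.separable
    ((Irreducible.coprime_iff_not_dvd hirr).mpr hnd) w hw

end Desc

end Fermat.Agent.S18.H95
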