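import Mathlib
import Fermat.Agent.S18.H69_HorInstGeneric
import Fermat.Agent.S18.H95_HorOut
import Fermat.Agent.S18.H70_AuxCompositum

/-!
helper69 — S18 / (HOR-INST) for the Hesse and Legendre charts, generic in the arithmetic data:
`K ⊆ Qbar` a constant field, `F₁/K` a model of `F_N` (`F₁ → F_N`, `j₁ ↦ j`), `E = F₁(μ)` with
`hesJ μ = j₁` (resp. `legJ μ = j₁`).  Output: the hypothesis `hunr` of
`H96.exists_uniformizer_of_places` with `D = X ^ 3 - 1` (resp. `X * (X - 1)`).
The compositum with `F_N` is built internally (`H69.ord_aeval_eq_one_of_compositum`).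
-/

set_option autoImplicit false
set_option linter.unusedSectionVars false
set_option linter.style.haveILetI false

noncomputable section

namespace Fermat.Agent.S18.H69

open AlgebraicCurve Polynomial IntermediateField
open Fermat.Agent.S24

variable (N : ℕ) [NeZero N]
variable {K F1 E : Type*} [Field K] [Field F1] [Field E]
  [Algebra K Qbar] [Algebra K F1] [Algebra K (FN N)] [Algebra F1 (FN N)]
  [IsScalarTower K F1 (FN N)] [IsScalarTower K Qbar (FN N)]
  [Algebra F1 E] [Algebra K E] [IsScalarTower K F1 E]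

/-- **(HOR-INST), Hesse chart.** -/
theorem ord_aeval_eq_one_of_hesse_cover [Algebra.IsAlgebraic K Qbar] [Algebra.IsAlgebraic F1 E]
    (j1 : F1) (hj1 : algebraMap F1 (FN N) j1 = jBar N) (hj1tr : Transcendental K j1)
    (mu : E) (hmu : H26.hesJ mu = algebraMap F1 E j1) (hgen : F1⟮mu⟯ = ⊤)
    (w : Place K E) (g₀ : K[X]) (hirr : Irreducible g₀) (hnd : ¬ g₀ ∣ (X ^ 3 - 1 : K[X]))
    (hw : 0 < w.ord (aeval mu g₀)) : w.ord (aeval mu g₀) = 1 := by
  haveI := H40.finiteDimensional_FN N
  have htr : Transcendental K mu := by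
    apply H70.transcendental_of_hesJ
    rw [hmu]
    exact (transcendental_algebraMap_iff (algebraMap F1 E).injective).mpr hj1tr
  refine ord_aeval_eq_one_of_compositum (K := K) (K' := Qbar) (F1 := F1) (F := FN N) mu hgen htr
    (jBar N) (X ^ 3 - 1) ?_ w g₀ hirr hnd hw
  intro Fb _ _ _ _ f hf hgenb
  have hrel : H26.hesJ (f mu) = algebraMap (FN N) Fb (jBar N) := by
    rw [H70.hesJ_map, hmu, hf, hj1]
  refine ⟨?_, ?_⟩
  · rw [← hrel]; exact H70.hesJ_mem_adjoin_simple (L := Qbar) (f mu)
  · intro v a ha hv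
    refine H95.ord_sub_eq_one_of_hesJ N (f mu) hrel hgenb v a ?_ hv
    intro h1
    apply ha
    simp only [Polynomial.map_sub, Polynomial.map_pow, Polynomial.map_one, map_X, eval_sub,
      eval_pow, eval_X, eval_one]
    rw [h1, sub_self]

/-- **(HOR-INST), Legendre chart.** -/
theorem ord_aeval_eq_one_of_legendre_cover [Algebra.IsAlgebraic K Qbar] [Algebra.IsAlgebraic F1 E]
    (j1 : F1) (hj1 : algebraMap F1 (FN N) j1 = jBar N) (hj1tr : Transcendental K j1)
    (lam : E) (hlam : H26.legJ lam = algebraMap F1 E j1) (hgen : F1⟮lam⟯ = ⊤)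
    (w : Place K E) (g₀ : K[X]) (hirr : Irreducible g₀) (hnd : ¬ g₀ ∣ (X * (X - 1) : K[X]))
    (hw : 0 < w.ord (aeval lam g₀)) : w.ord (aeval lam g₀) = 1 := by
  haveI := H40.finiteDimensional_FN N
  have htr : Transcendental K lam := by
    apply H70.transcendental_of_legJ
    rw [hlam]
    exact (transcendental_algebraMap_iff (algebraMap F1 E).injective).mpr hj1tr
  refine ord_aeval_eq_one_of_compositum (K := K) (K' := Qbar) (F1 := F1) (F := FN N) lam hgen htr
    (jBar N) (X * (X - 1)) ?_ w g₀ hirr hnd hw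
  intro Fb _ _ _ _ f hf hgenb
  have hrel : H26.legJ (f lam) = algebraMap (FN N) Fb (jBar N) := by
    rw [H70.legJ_map, hlam, hf, hj1]
  refine ⟨?_, ?_⟩
  · rw [← hrel]; exact H70.legJ_mem_adjoin_simple (L := Qbar) (f lam)
  · intro v a ha hv
    have ha' : a * (a - 1) ≠ 0 := by
      simpa only [Polynomial.map_mul, Polynomial.map_sub, Polynomial.map_one, map_X, eval_mul,
        eval_sub, eval_X, eval_one] using ha
    refine H95.ord_sub_eq_one_of_legJ N (f lam) hrel hgenb v a ?_ ?_ hv
    · rintro rfl; exact ha' (by ring)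
    · rintro rfl; exact ha' (by ring)

end Fermat.Agent.S18.H69
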