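/-
helper1 — S18 route Q, package (VERT) of helper96 #1733.  Mathlib only.

Abstract statement: `R` an integrally closed domain, `K = Frac R`, `L/K` finite separable,
`θ ∈ L` a primitive element which is a root of a monic `Φ ∈ R[X]`, `ρ := Res(Φ, Φ')`.
Then
* (V1) `ρ ^ [L:K] • z ∈ R[θ]` for every `z ∈ L` integral over `R`;
* (V2) for every `R`-basis `b` of the integral closure `B` of `R` in `L`:
  `Algebra.discr R b ∣ ρ ^ [L:K]`;
* (V3) for every ring hom `φ : R →+* κ` to a field with `Φ.map φ` separable: `φ ρ ≠ 0`.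
Hence the discriminant of `B/R` is a unit at every prime of `R` modulo which `Φ` is separable
(vertical purity input of route Q).
-/
import Mathlib

set_option linter.unusedSectionVars false

namespace Fermat.Agent.S18.H1

open Polynomial Module
open scoped nonZeroDivisors

/-! ### Part A: the resultant `ρ(Φ) = Res(Φ, Φ')` -/

section Resultant

variable {R : Type*} [CommRing R]

/-- `ρ(Φ) := Res(Φ, Φ')` with the default (natDegree) sizes. -/
noncomputable def rho (Φ : R[X]) : R := resultant Φ (derivative Φ)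

/-- (V3) If `Φ` is monic and `Φ.map φ` is separable over the field `κ`, then `φ (ρ Φ) ≠ 0`. -/
theorem map_rho_ne_zero {κ : Type*} [Field κ] (φ : R →+* κ) {Φ : R[X]} (hΦ : Φ.Monic)
    (hsep : (Φ.map φ).Separable) : φ (rho Φ) ≠ 0 := by
  set f := Φ.map φ with hf
  have hfm : f.Monic := hΦ.map φ
  have hn : f.natDegree = Φ.natDegree := hΦ.natDegree_map φ
  have hder : (derivative Φ).map φ = derivative f := by rw [hf, derivative_map]
  have hle : (derivative f).natDegree ≤ (derivative Φ).natDegree := by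
    rw [← hder]; exact natDegree_map_le
  obtain ⟨k, hk⟩ := Nat.exists_eq_add_of_le hle
  have h1 : φ (rho Φ) = resultant f (derivative f) := by
    unfold rho
    rw [← resultant_map_map, hder, ← hf, hk,
      resultant_add_right_deg f (derivative f) Φ.natDegree (derivative f).natDegree k le_rfl,
      ← hn, hfm.coeff_natDegree, one_pow, one_mul]
  rw [h1]
  exact ((isUnit_resultant_iff_isCoprime hfm).mpr hsep).ne_zero

/-- Bezout identity over `R`, evaluated at a root: `Φ'(θ) * q(θ) = ρ`. -/
theorem exists_aeval_derivative_mul_eq {Φ : R[X]} (hdeg : Φ.natDegree ≠ 0) :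
    ∃ q : R[X], ∀ {S : Type*} [CommRing S] [Algebra R S] (θ : S), aeval θ Φ = 0 →
      aeval θ (derivative Φ) * aeval θ q = algebraMap R S (rho Φ) := by
  obtain ⟨p, q, -, -, hpq⟩ := exists_mul_add_mul_eq_C_resultant Φ (derivative Φ) le_rfl le_rfl
    (Or.inl hdeg)
  refine ⟨q, fun {S} _ _ θ hθ => ?_⟩
  have := congrArg (aeval θ) hpq
  simpa [hθ, rho] using this

end Resultant


/-! ### Part C: the norm computation -/

section Norm

variable {R K L : Type*} [CommRing R] [IsDomain R] [IsIntegrallyClosed R] [Field K] [Algebra R K]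
  [IsFractionRing R K] [Field L] [Algebra K L] [Algebra R L] [IsScalarTower R K L]
  [FiniteDimensional K L]

theorem isIntegral_of_monic_root {θ : L} {Φ : R[X]} (hΦ : Φ.Monic) (hroot : aeval θ Φ = 0) :
    IsIntegral R θ := ⟨Φ, hΦ, by simpa [aeval_def] using hroot⟩

theorem isIntegral_aeval {θ : L} (hint : IsIntegral R θ) (p : R[X]) : IsIntegral R (aeval θ p) :=
  adjoin_le_integralClosure hint (aeval_mem_adjoin_singleton R θ)

/-- The norm of `g'(θ)` (`g` the minimal polynomial of `θ`) lies in `R` and divides `ρ(Φ)^[L:K]`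
for every monic `Φ ∈ R[X]` vanishing at `θ`. -/
theorem exists_norm_mul_eq (θ : L) {Φ : R[X]} (hΦ : Φ.Monic) (hroot : aeval θ Φ = 0) :
    ∃ ν c : R, ν * c = rho Φ ^ finrank K L ∧
      algebraMap R K ν = Algebra.norm K (aeval θ (derivative (minpoly K θ))) := by
  have hint : IsIntegral R θ := isIntegral_of_monic_root hΦ hroot
  have htf : Module.IsTorsionFree R L := .trans_faithfulSMul R K L
  obtain ⟨h, hh⟩ := minpoly.isIntegrallyClosed_dvd hint hroot
  have hdeg : Φ.natDegree ≠ 0 := by
    intro h0
    have h1 : Φ = 1 := eq_one_of_monic_natDegree_zero hΦ h0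
    rw [h1] at hroot
    simp at hroot
  obtain ⟨q, hq⟩ := exists_aeval_derivative_mul_eq hdeg
  have hq' := hq θ hroot
  have hder : aeval θ (derivative Φ) = aeval θ (derivative (minpoly R θ)) * aeval θ h := by
    rw [hh, derivative_mul, map_add, map_mul, map_mul, minpoly.aeval, zero_mul, add_zero]
  have hgK : aeval θ (derivative (minpoly K θ)) = aeval θ (derivative (minpoly R θ)) := by
    rw [minpoly.isIntegrallyClosed_eq_field_fractions' K hint, derivative_map,
      aeval_map_algebraMap]
  have hprod : aeval θ (derivative (minpoly K θ)) * (aeval θ h * aeval θ q) =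
      algebraMap K L (algebraMap R K (rho Φ)) := by
    rw [hgK, ← mul_assoc, ← hder, hq', IsScalarTower.algebraMap_apply R K L]
  have hnorm := congrArg (Algebra.norm K) hprod
  rw [map_mul, Algebra.norm_algebraMap] at hnorm
  obtain ⟨ν, hν⟩ := IsIntegrallyClosed.isIntegral_iff.mp
    (Algebra.isIntegral_norm K (isIntegral_aeval hint (derivative (minpoly R θ))))
  obtain ⟨c, hc⟩ := IsIntegrallyClosed.isIntegral_iff.mp
    (Algebra.isIntegral_norm K (R := R) ((isIntegral_aeval hint h).mul (isIntegral_aeval hint q)))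
  refine ⟨ν, c, ?_, by rw [hν, hgK]⟩
  apply IsFractionRing.injective R K
  rw [map_mul, map_pow, hν, hc, ← hgK, hnorm]

end Norm

/-! ### Part D: conductor and discriminant -/

section Main

variable {R K L : Type*} [CommRing R] [IsDomain R] [IsIntegrallyClosed R] [Field K] [Algebra R K]
  [IsFractionRing R K] [Field L] [Algebra K L] [Algebra R L] [IsScalarTower R K L]
  [FiniteDimensional K L] [Algebra.IsSeparable K L]

/-- The discriminant of a power basis generated by a root `θ` of a monic `Φ ∈ R[X]` is `± ν` with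
`ν ∈ R` dividing `ρ(Φ)^[L:K]`. -/
theorem exists_discr_powerBasis_eq (pb : PowerBasis K L) {Φ : R[X]} (hΦ : Φ.Monic)
    (hroot : aeval pb.gen Φ = 0) :
    ∃ ν c : R, ν * c = rho Φ ^ finrank K L ∧
      (Algebra.discr K pb.basis = algebraMap R K ν ∨ Algebra.discr K pb.basis = -algebraMap R K ν) := by
  obtain ⟨ν, c, h1, h2⟩ := exists_norm_mul_eq (K := K) pb.gen hΦ hroot
  refine ⟨ν, c, h1, ?_⟩
  rw [Algebra.discr_powerBasis_eq_norm, ← h2]
  rcases neg_one_pow_eq_or K (finrank K L * (finrank K L - 1) / 2) with h | h <;> rw [h]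
  · left; rw [one_mul]
  · right; rw [neg_one_mul]

/-- (V1), power basis form. -/
theorem rho_pow_smul_mem_adjoin_gen (pb : PowerBasis K L) {Φ : R[X]} (hΦ : Φ.Monic)
    (hroot : aeval pb.gen Φ = 0) {z : L} (hz : IsIntegral R z) :
    (rho Φ ^ finrank K L) • z ∈ Algebra.adjoin R ({pb.gen} : Set L) := by
  obtain ⟨ν, c, h1, h2⟩ := exists_discr_powerBasis_eq pb hΦ hroot
  have hint : IsIntegral R pb.gen := isIntegral_of_monic_root hΦ hroot
  have hmem := Algebra.discr_mul_isIntegral_mem_adjoin K hint hz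
  have hν : ν • z ∈ Algebra.adjoin R ({pb.gen} : Set L) := by
    rcases h2 with h | h
    · rw [h, algebraMap_smul] at hmem; exact hmem
    · rw [h, neg_smul, algebraMap_smul] at hmem
      simpa using (Algebra.adjoin R ({pb.gen} : Set L)).neg_mem hmem
  rw [← h1, mul_comm, mul_smul]
  exact Subalgebra.smul_mem _ hν c


/-- Compatibility of `Algebra.discr` of an arbitrary family with localisation. -/
theorem algebraMap_discr_family {B ι : Type*} [CommRing B] [Algebra R B] [Algebra B L]
    [IsScalarTower R B L] [IsLocalization (Algebra.algebraMapSubmonoid B R⁰) L]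
    [Module.Free R B] [Module.Finite R B] [Fintype ι] [DecidableEq ι] (v : ι → B) :
    algebraMap R K (Algebra.discr R v) = Algebra.discr K (fun i => algebraMap B L (v i)) := by
  rw [Algebra.discr_def, Algebra.discr_def, RingHom.map_det]
  congr 1
  ext i j
  simp only [RingHom.mapMatrix_apply, Matrix.map_apply, Algebra.traceMatrix_apply,
    Algebra.traceForm_apply]
  rw [← map_mul, Algebra.trace_localization R R⁰ (Rₘ := K) (Sₘ := L)]

/-- (V2), power basis form: the discriminant of any `R`-basis of the integral closure divides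
`ρ(Φ)^[L:K]`. -/
theorem discr_dvd_rho_pow_gen (pb : PowerBasis K L) {Φ : R[X]} (hΦ : Φ.Monic)
    (hroot : aeval pb.gen Φ = 0) {B ι : Type*} [CommRing B] [Algebra R B] [Algebra B L]
    [IsScalarTower R B L] [IsIntegralClosure B R L] [Fintype ι] [DecidableEq ι]
    (b : Basis ι R B) : Algebra.discr R b ∣ rho Φ ^ finrank K L := by
  have : IsLocalization (Algebra.algebraMapSubmonoid B R⁰) L :=
    IsIntegralClosure.isLocalization R K L B
  have : Module.Free R B := .of_basis b
  have : Module.Finite R B := .of_basis b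
  obtain ⟨ν, c, h1, h2⟩ := exists_discr_powerBasis_eq pb hΦ hroot
  have hint : IsIntegral R pb.gen := isIntegral_of_monic_root hΦ hroot
  obtain ⟨θB, hθB⟩ := (IsIntegralClosure.isIntegral_iff (A := B)).mp hint
  let bK : Basis ι K L := b.localizationLocalization K R⁰ L
  have hcard : Fintype.card ι = pb.dim := by
    rw [← pb.finrank, Module.finrank_eq_card_basis bK]
  let e : ι ≃ Fin pb.dim := Fintype.equivFinOfCardEq hcard
  let v : ι → B := fun i => θB ^ (e i : ℕ)
  let P : Matrix ι ι R := fun i j => b.repr (v j) i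
  have hv : Matrix.vecMul b (P.map (algebraMap R B)) = v := by
    ext j
    simp only [Matrix.vecMul, dotProduct, Matrix.map_apply]
    rw [← b.sum_repr (v j)]
    refine Finset.sum_congr rfl fun i _ => ?_
    rw [Algebra.smul_def, mul_comm]
  have hdv : Algebra.discr R v = P.det ^ 2 * Algebra.discr R b := by
    rw [← hv]; exact Algebra.discr_of_matrix_vecMul b P
  have hK : algebraMap R K (Algebra.discr R v) = Algebra.discr K pb.basis := by
    rw [algebraMap_discr_family (K := K) (L := L) v]
    have : (fun i => algebraMap B L (v i)) = pb.basis ∘ e.symm.symm := by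
      ext i
      simp [v, hθB, PowerBasis.coe_basis]
    rw [this, Algebra.discr_reindex K pb.basis e.symm]
  have hdvd : Algebra.discr R b ∣ ν := by
    rcases h2 with h | h
    · have : Algebra.discr R v = ν := IsFractionRing.injective R K (by rw [hK, h])
      exact ⟨P.det ^ 2, by rw [← this, hdv, mul_comm]⟩
    · have : Algebra.discr R v = -ν := IsFractionRing.injective R K (by rw [hK, h, map_neg])
      exact ⟨-(P.det ^ 2), by rw [mul_neg, mul_comm, ← hdv, this, neg_neg]⟩
  exact hdvd.trans ⟨c, h1.symm⟩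


/-! ### Consumer forms: a primitive element `θ` with `K⟮θ⟯ = ⊤` -/

/-- The power basis of `L/K` generated by a primitive element. -/
noncomputable def pbOf (θ : L) (hgen : IntermediateField.adjoin K {θ} = ⊤) : PowerBasis K L :=
  (IntermediateField.adjoin.powerBasis (Algebra.IsIntegral.isIntegral (R := K) θ)).map
    ((IntermediateField.equivOfEq hgen).trans IntermediateField.topEquiv)

@[simp] theorem pbOf_gen (θ : L) (hgen : IntermediateField.adjoin K {θ} = ⊤) :
    (pbOf θ hgen).gen = θ := by
  simp [pbOf]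

/-- **(V1)** conductor: `ρ(Φ)^[L:K] • z ∈ R[θ]` for every integral `z`. -/
theorem resultant_pow_smul_mem_adjoin (θ : L) (hgen : IntermediateField.adjoin K {θ} = ⊤)
    {Φ : R[X]} (hΦ : Φ.Monic) (hroot : aeval θ Φ = 0) {z : L} (hz : IsIntegral R z) :
    (rho Φ ^ finrank K L) • z ∈ Algebra.adjoin R ({θ} : Set L) := by
  have := rho_pow_smul_mem_adjoin_gen (pbOf θ hgen) hΦ (by rwa [pbOf_gen]) hz
  rwa [pbOf_gen] at this

/-- **(V2)** the discriminant of any `R`-basis of the integral closure of `R` in `L` divides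
`ρ(Φ)^[L:K]`. -/
theorem discr_dvd_resultant_pow (θ : L) (hgen : IntermediateField.adjoin K {θ} = ⊤)
    {Φ : R[X]} (hΦ : Φ.Monic) (hroot : aeval θ Φ = 0) {B ι : Type*} [CommRing B] [Algebra R B]
    [Algebra B L] [IsScalarTower R B L] [IsIntegralClosure B R L] [Fintype ι] [DecidableEq ι]
    (b : Basis ι R B) : Algebra.discr R b ∣ rho Φ ^ finrank K L :=
  discr_dvd_rho_pow_gen (pbOf θ hgen) hΦ (by rwa [pbOf_gen]) b

/-- **(V4a)** the discriminant is nonzero modulo every prime at which `Φ` is separable. -/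
theorem map_discr_ne_zero (θ : L) (hgen : IntermediateField.adjoin K {θ} = ⊤)
    {Φ : R[X]} (hΦ : Φ.Monic) (hroot : aeval θ Φ = 0) {B ι : Type*} [CommRing B] [Algebra R B]
    [Algebra B L] [IsScalarTower R B L] [IsIntegralClosure B R L] [Fintype ι] [DecidableEq ι]
    (b : Basis ι R B) {κ : Type*} [Field κ] (φ : R →+* κ) (hsep : (Φ.map φ).Separable) :
    φ (Algebra.discr R b) ≠ 0 := by
  obtain ⟨c, hc⟩ := discr_dvd_resultant_pow (K := K) θ hgen hΦ hroot b
  intro h0
  have h1 : φ (rho Φ ^ finrank K L) = 0 := by rw [hc, map_mul, h0, zero_mul]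
  rw [map_pow] at h1
  exact map_rho_ne_zero φ hΦ hsep (pow_eq_zero_iff (Module.finrank_pos (R := K) (M := L)).ne' |>.mp h1)

/-- **(V4b)** `= helper41 (P-C)(i)`: `π ∤ discr` when `Φ mod π` is separable. -/
theorem not_dvd_discr (θ : L) (hgen : IntermediateField.adjoin K {θ} = ⊤)
    {Φ : R[X]} (hΦ : Φ.Monic) (hroot : aeval θ Φ = 0) {B ι : Type*} [CommRing B] [Algebra R B]
    [Algebra B L] [IsScalarTower R B L] [IsIntegralClosure B R L] [Fintype ι] [DecidableEq ι]
    (b : Basis ι R B) {κ : Type*} [Field κ] (φ : R →+* κ) (hsep : (Φ.map φ).Separable)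
    {π : R} (hπ : φ π = 0) : ¬ π ∣ Algebra.discr R b := by
  rintro ⟨c, hc⟩
  exact map_discr_ne_zero (K := K) θ hgen hΦ hroot b φ hsep (by rw [hc, map_mul, hπ, zero_mul])

/-- **(V4c)** local monogenicity: for every integral `z` there is `s ∈ R` with `φ s ≠ 0` and
`s • z ∈ R[θ]`. -/
theorem exists_smul_mem_adjoin (θ : L) (hgen : IntermediateField.adjoin K {θ} = ⊤)
    {Φ : R[X]} (hΦ : Φ.Monic) (hroot : aeval θ Φ = 0) {κ : Type*} [Field κ] (φ : R →+* κ)
    (hsep : (Φ.map φ).Separable) :
    ∃ s : R, φ s ≠ 0 ∧ ∀ z : L, IsIntegral R z → s • z ∈ Algebra.adjoin R ({θ} : Set L) :=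
  ⟨rho Φ ^ finrank K L, by
    rw [map_pow]; exact pow_ne_zero _ (map_rho_ne_zero φ hΦ hsep),
    fun _ hz => resultant_pow_smul_mem_adjoin θ hgen hΦ hroot hz⟩

end Main

end Fermat.Agent.S18.H1
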