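/-
S18 project, package PURITY (helper41), part A.  Mathlib only.

**Saturation lemma** for integral closures over an integrally closed domain `R` with a prime
element `π`: if `f ∉ (π)` and `π • y`, `f • y` are integral over `R`, then `y` is integral over `R`.
Consequences for `B` = the integral closure of `R` in a field `L ⊇ K = Frac R`:
* `exists_eq_smul_of_smul_eq_smul` : `f • m = π • b` in `B`, `π ∤ f`  ⇒  `m ∈ π B`;
* `isTorsionFree_quotient` : `B ⧸ π B` is torsion-free over `R ⧸ π`;
* `free_quotient` : if `R ⧸ π` is a PID and `B` is a finite `R`-module, `B ⧸ π B` is a free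
  `R ⧸ π`-module.
No hypothesis on the reduction `B ⧸ π B` (reducedness etc.) is needed.
-/
import Mathlib

set_option autoImplicit false

open Polynomial

namespace Fermat.Agent.S18.H41

section Saturation

variable {R K L : Type*} [CommRing R] [IsDomain R] [IsIntegrallyClosed R]
  [Field K] [Algebra R K] [IsFractionRing R K] [Field L] [Algebra K L] [Algebra R L]
  [IsScalarTower R K L]

/-- If `a • y` is integral over the integrally closed domain `R` (`a ≠ 0`), then the
coefficients of the minimal polynomial of `y` over `K = Frac R`, scaled by the appropriate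
powers of `a`, lie in `R`. -/
theorem exists_coeff_minpoly_mul_pow_eq {y : L} (hy : IsIntegral K y) {a : R} (ha : a ≠ 0)
    (hay : IsIntegral R (a • y)) (i : ℕ) :
    ∃ r : R, algebraMap R K r =
      (minpoly K y).coeff i * algebraMap R K a ^ ((minpoly K y).natDegree - i) := by
  set p := minpoly K y with hp
  set α : K := algebraMap R K a with hα
  have hα0 : α ≠ 0 := by
    rw [hα]
    exact (map_ne_zero_iff _ (IsFractionRing.injective R K)).mpr ha
  set z : L := a • y with hz
  have hzy : z = algebraMap K L α * y := by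
    rw [hz, hα, ← IsScalarTower.algebraMap_apply, Algebra.smul_def]
  set q := scaleRoots p α with hq
  have hqm : q.Monic := (monic_scaleRoots_iff α).mpr (minpoly.monic hy)
  have hqz : aeval z q = 0 := by
    rw [hzy]
    exact scaleRoots_aeval_eq_zero (minpoly.aeval K y)
  have hzK : IsIntegral K z := hay.tower_top
  set m := minpoly K z with hm
  have hmq : m ∣ q := minpoly.dvd K z hqz
  -- reverse divisibility for degrees
  have hyz : y = algebraMap K L α⁻¹ * z := by
    rw [hzy, ← mul_assoc, ← map_mul, inv_mul_cancel₀ hα0, map_one, one_mul]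
  have hpm : p ∣ scaleRoots m α⁻¹ := by
    apply minpoly.dvd K y
    rw [hyz]
    exact scaleRoots_aeval_eq_zero (minpoly.aeval K z)
  have hdeg1 : p.natDegree ≤ m.natDegree := by
    have h := natDegree_le_of_dvd hpm
      ((monic_scaleRoots_iff α⁻¹).mpr (minpoly.monic hzK)).ne_zero
    rwa [natDegree_scaleRoots] at h
  have hmeq : q = m := by
    refine eq_of_monic_of_dvd_of_natDegree_le (minpoly.monic hzK) hqm hmq ?_
    rw [hq, natDegree_scaleRoots]
    exact hdeg1
  have hmR : m = (minpoly R z).map (algebraMap R K) :=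
    minpoly.isIntegrallyClosed_eq_field_fractions' K hay
  refine ⟨(minpoly R z).coeff i, ?_⟩
  have : (m.coeff i) = algebraMap R K ((minpoly R z).coeff i) := by
    rw [hmR, coeff_map]
  rw [← this, ← hmeq, hq, coeff_scaleRoots]

omit [IsIntegrallyClosed R] in
/-- Coprimality lemma: `π` prime, `π ∤ f`, `π ^ k * c ∈ R` and `f ^ k * c ∈ R` imply `c ∈ R`. -/
theorem mem_range_of_prime_pow_mul_of_pow_mul {π f : R} (hπ : Prime π) (hf : ¬ π ∣ f)
    (c : K) (k : ℕ) (h1 : ∃ r : R, algebraMap R K r = c * algebraMap R K π ^ k)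
    (h2 : ∃ s : R, algebraMap R K s = c * algebraMap R K f ^ k) :
    ∃ r : R, algebraMap R K r = c := by
  obtain ⟨r, hr⟩ := h1
  obtain ⟨s, hs⟩ := h2
  have hinj := IsFractionRing.injective R K
  have hπ0 : algebraMap R K π ≠ 0 := (map_ne_zero_iff _ hinj).mpr hπ.ne_zero
  have hrel : f ^ k * r = π ^ k * s := by
    apply hinj
    rw [map_mul, map_mul, map_pow, map_pow, hr, hs]
    ring
  have hdvd : π ^ k ∣ r :=
    hπ.pow_dvd_of_dvd_mul_left k (fun h => hf (hπ.dvd_of_dvd_pow h)) ⟨s, hrel⟩
  obtain ⟨r', rfl⟩ := hdvd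
  refine ⟨r', ?_⟩
  rw [map_mul, map_pow, mul_comm] at hr
  exact mul_right_cancel₀ (pow_ne_zero k hπ0) hr

/-- **Saturation lemma.** `R` integrally closed domain, `π` a prime element, `f ∉ (π)`.
If `π • y` and `f • y` are integral over `R` (and `y` is algebraic over `K`), then `y` is integral
over `R`. -/
theorem isIntegral_of_isIntegral_smul_of_isIntegral_smul {π f : R} (hπ : Prime π) (hf : ¬ π ∣ f)
    {y : L} (hy : IsIntegral K y) (h1 : IsIntegral R (π • y)) (h2 : IsIntegral R (f • y)) :
    IsIntegral R y := by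
  have hf0 : f ≠ 0 := fun h => hf (h ▸ dvd_zero π)
  set p := minpoly K y with hp
  have hcoeff : ∀ i, ∃ r : R, algebraMap R K r = p.coeff i := by
    intro i
    exact mem_range_of_prime_pow_mul_of_pow_mul hπ hf (p.coeff i) (p.natDegree - i)
      (exists_coeff_minpoly_mul_pow_eq hy hπ.ne_zero h1 i)
      (exists_coeff_minpoly_mul_pow_eq hy hf0 h2 i)
  have hlift : p ∈ Polynomial.lifts (algebraMap R K) := by
    rw [Polynomial.lifts_iff_coeff_lifts]
    intro i
    obtain ⟨r, hr⟩ := hcoeff i
    exact ⟨r, hr⟩
  obtain ⟨P, hPmap, -, hPmonic⟩ :=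
    Polynomial.lifts_and_degree_eq_and_monic hlift (minpoly.monic hy)
  refine ⟨P, hPmonic, ?_⟩
  have : aeval y (P.map (algebraMap R K)) = 0 := by rw [hPmap]; exact minpoly.aeval K y
  rwa [aeval_map_algebraMap] at this

end Saturation


section Closure

variable {R K L B : Type*} [CommRing R] [IsDomain R] [IsIntegrallyClosed R]
  [Field K] [Algebra R K] [IsFractionRing R K] [Field L] [Algebra K L] [Algebra R L]
  [IsScalarTower R K L]
  [CommRing B] [Algebra R B] [Algebra B L] [IsScalarTower R B L] [IsIntegralClosure B R L]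

variable (K L) in
/-- In the integral closure `B` of `R` in `L`: `f • m = π • b` and `π ∤ f` imply `m ∈ π B`. -/
theorem exists_eq_smul_of_smul_eq_smul [Algebra.IsAlgebraic K L] {π f : R} (hπ : Prime π)
    (hf : ¬ π ∣ f) {m b : B} (h : f • m = π • b) : ∃ m' : B, m = π • m' := by
  have hinjK := IsFractionRing.injective R K
  have hπL : algebraMap R L π ≠ 0 := by
    rw [IsScalarTower.algebraMap_apply R K L]
    exact (map_ne_zero_iff _ (algebraMap K L).injective).mpr
      ((map_ne_zero_iff _ hinjK).mpr hπ.ne_zero)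
  set y : L := (algebraMap R L π)⁻¹ * algebraMap B L m with hy
  have h1 : π • y = algebraMap B L m := by
    rw [hy, Algebra.smul_def, ← mul_assoc, mul_inv_cancel₀ hπL, one_mul]
  have h2 : f • y = algebraMap B L b := by
    have hL : algebraMap R L f * algebraMap B L m = algebraMap R L π * algebraMap B L b := by
      have := congrArg (algebraMap B L) h
      rwa [Algebra.smul_def, Algebra.smul_def, map_mul, map_mul,
        ← IsScalarTower.algebraMap_apply, ← IsScalarTower.algebraMap_apply] at this
    rw [hy, Algebra.smul_def]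
    calc algebraMap R L f * ((algebraMap R L π)⁻¹ * algebraMap B L m)
        = (algebraMap R L π)⁻¹ * (algebraMap R L f * algebraMap B L m) := by ring
      _ = (algebraMap R L π)⁻¹ * (algebraMap R L π * algebraMap B L b) := by rw [hL]
      _ = algebraMap B L b := by rw [← mul_assoc, inv_mul_cancel₀ hπL, one_mul]
  have hyK : IsIntegral K y := (Algebra.IsAlgebraic.isAlgebraic y).isIntegral
  have hyR : IsIntegral R y :=
    isIntegral_of_isIntegral_smul_of_isIntegral_smul (K := K) hπ hf hyK
      (h1 ▸ (IsIntegralClosure.isIntegral R L m).algebraMap)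
      (h2 ▸ (IsIntegralClosure.isIntegral R L b).algebraMap)
  obtain ⟨m', hm'⟩ := (IsIntegralClosure.isIntegral_iff (A := B)).mp hyR
  refine ⟨m', ?_⟩
  apply IsIntegralClosure.algebraMap_injective B R L
  rw [Algebra.smul_def, map_mul, ← IsScalarTower.algebraMap_apply, hm', ← Algebra.smul_def, h1]

variable (K L) in
/-- Membership form: `f • m ∈ π B`, `π ∤ f` ⇒ `m ∈ π B`. -/
theorem mem_map_span_of_smul_mem [Algebra.IsAlgebraic K L] {π f : R} (hπ : Prime π)
    (hf : ¬ π ∣ f) {m : B} (h : f • m ∈ (Ideal.span {π}).map (algebraMap R B)) :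
    m ∈ (Ideal.span {π}).map (algebraMap R B) := by
  rw [Ideal.map_span, Set.image_singleton, Ideal.mem_span_singleton'] at h ⊢
  obtain ⟨b, hb⟩ := h
  obtain ⟨m', hm'⟩ := exists_eq_smul_of_smul_eq_smul K L hπ hf (m := m) (b := b)
    (by rw [← hb, Algebra.smul_def, mul_comm])
  exact ⟨m', by rw [hm', Algebra.smul_def, mul_comm]⟩

variable (K L) in
/-- The special fibre `B ⧸ π B` of the integral closure is torsion-free over `R ⧸ π`. -/
theorem isTorsionFree_quotient [Algebra.IsAlgebraic K L] {π : R} (hπ : Prime π) :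
    Module.IsTorsionFree (R ⧸ Ideal.span {π})
      (B ⧸ (Ideal.span {π}).map (algebraMap R B)) := by
  have hprime : (Ideal.span {π}).IsPrime := (Ideal.span_singleton_prime hπ.ne_zero).mpr hπ
  have : IsDomain (R ⧸ Ideal.span {π}) := Ideal.Quotient.isDomain _
  refine Module.IsTorsionFree.of_smul_eq_zero fun r m hrm => ?_
  obtain ⟨f, rfl⟩ := Ideal.Quotient.mk_surjective r
  obtain ⟨m, rfl⟩ := Ideal.Quotient.mk_surjective m
  by_cases hf : π ∣ f
  · left
    rw [Ideal.Quotient.eq_zero_iff_mem, Ideal.mem_span_singleton]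
    exact hf
  · right
    rw [Ideal.Quotient.eq_zero_iff_mem]
    apply mem_map_span_of_smul_mem K L hπ hf
    rw [← Ideal.Quotient.eq_zero_iff_mem]
    rw [← hrm, Algebra.smul_def, Algebra.smul_def, map_mul]
    rfl

variable (K L) in
/-- If `R ⧸ π` is a PID and `B` is finite over `R`, the special fibre `B ⧸ π B` is a free
`R ⧸ π`-module. -/
theorem free_quotient [Algebra.IsAlgebraic K L] [Module.Finite R B] {π : R} (hπ : Prime π)
    [IsPrincipalIdealRing (R ⧸ Ideal.span {π})] :
    Module.Free (R ⧸ Ideal.span {π}) (B ⧸ (Ideal.span {π}).map (algebraMap R B)) := by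
  have hprime : (Ideal.span {π}).IsPrime := (Ideal.span_singleton_prime hπ.ne_zero).mpr hπ
  have : IsDomain (R ⧸ Ideal.span {π}) := Ideal.Quotient.isDomain _
  have := isTorsionFree_quotient (B := B) K L hπ
  have : Module.Finite (R ⧸ Ideal.span {π}) (B ⧸ (Ideal.span {π}).map (algebraMap R B)) := by
    have : Module.Finite R (B ⧸ (Ideal.span {π}).map (algebraMap R B)) :=
      Module.Finite.of_surjective (Ideal.Quotient.mkₐ R _).toLinearMap
        (Ideal.Quotient.mkₐ_surjective R _)
    exact Module.Finite.of_restrictScalars_finite R _ _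
  exact Module.free_of_finite_type_torsion_free'

end Closure

end Fermat.Agent.S18.H41
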