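/-
S18 project, package PURITY (helper41), part B.  Mathlib only.

**Lifting a basis of the special fibre.**  `R` a noetherian domain with fraction field `K`,
`π ∈ R` prime, `L ⊇ K` a field, `B` a finite `R`-algebra embedded in `L` (in the application the
integral closure of `R` in `L`).  Let `eb` be a basis of `B ⧸ π B` over `R ⧸ π` and `e i ∈ B` lifts.
* `eq_zero_of_sum_smul_eq_zero` : the `e i` are `R`-linearly independent (Krull intersection);
* `exists_smul_eq_sum` : Nakayama: `∃ s ≡ 1 mod π`, `s • B ⊆ ∑ R e i`;
* `exists_basis_of_lift` : the `e i` form a `K`-basis of `L`;  `card_eq_finrank_of_basis_quotient`;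
* `exists_trace_eq_and_trace_mk_eq` : `Tr_{L/K} b ∈ R` reduces mod `π` to the trace of `b mod π`;
* `exists_discr_eq_and_discr_quotient_eq` : the discriminant of the lifted basis lies in `R` and
  reduces mod `π` to the discriminant of `eb`.
Everything is done "by hand" (no localisation of `B` is formed).
-/
import Mathlib

set_option autoImplicit false
set_option linter.unusedSectionVars false

open Module

namespace Fermat.Agent.S18.H41

section Lift

variable {R K L B : Type*} [CommRing R] [IsDomain R] [IsNoetherianRing R]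
  [Field K] [Algebra R K] [IsFractionRing R K] [Field L] [Algebra K L] [Algebra R L]
  [IsScalarTower R K L]
  [CommRing B] [Algebra R B] [Algebra B L] [IsScalarTower R B L]
  {π : R}
  {ι : Type*} [Fintype ι] [DecidableEq ι]

include K in
/-- `B` is torsion-free over `R` when it embeds in the field `L`. -/
theorem smul_eq_zero_of_injective (hBL : Function.Injective (algebraMap B L))
    {r : R} (hr : r ≠ 0) {x : B} (h : r • x = 0) : x = 0 := by
  apply hBL
  rw [map_zero]
  have h' := congrArg (algebraMap B L) h
  rw [Algebra.smul_def, map_mul, map_zero, ← IsScalarTower.algebraMap_apply] at h'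
  have hrL : algebraMap R L r ≠ 0 := by
    rw [IsScalarTower.algebraMap_apply R K L]
    exact (map_ne_zero_iff _ (algebraMap K L).injective).mpr
      ((map_ne_zero_iff _ (IsFractionRing.injective R K)).mpr hr)
  exact (mul_eq_zero.mp h').resolve_left hrL

include K in
/-- **Lifted families are linearly independent.** If the reductions of `e i` are linearly
independent in `B ⧸ π B` over `R ⧸ π`, then the `e i` are linearly independent over `R`. -/
theorem eq_zero_of_sum_smul_eq_zero (hπ : Prime π) (hBL : Function.Injective (algebraMap B L))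
    (e : ι → B)
    (hli : LinearIndependent (R ⧸ Ideal.span {π})
      (fun i => Ideal.Quotient.mk ((Ideal.span {π}).map (algebraMap R B)) (e i)))
    (a : ι → R) (ha : ∑ i, a i • e i = 0) : a = 0 := by
  have key : ∀ k : ℕ, ∀ a : ι → R, ∑ i, a i • e i = 0 → ∀ i, π ^ k ∣ a i := by
    intro k
    induction k with
    | zero => intro a _ i; simp
    | succ k ih =>
      intro a ha i
      have hred : ∑ i, (Ideal.Quotient.mk (Ideal.span {π}) (a i)) •
          (Ideal.Quotient.mk ((Ideal.span {π}).map (algebraMap R B)) (e i)) = 0 := by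
        have := congrArg (Ideal.Quotient.mk ((Ideal.span {π}).map (algebraMap R B))) ha
        rw [map_sum, map_zero] at this
        rw [← this]
        refine Finset.sum_congr rfl fun i _ => ?_
        rw [Algebra.smul_def, Algebra.smul_def, map_mul]
        rfl
      have h0 := Fintype.linearIndependent_iff.mp hli _ hred
      have hdiv : ∀ i, π ∣ a i := fun i => by
        have := h0 i
        rwa [Ideal.Quotient.eq_zero_iff_mem, Ideal.mem_span_singleton] at this
      choose a' ha' using hdiv
      have hrel : ∑ i, a' i • e i = 0 := by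
        apply smul_eq_zero_of_injective (K := K) hBL hπ.ne_zero
        rw [Finset.smul_sum, ← ha]
        refine Finset.sum_congr rfl fun i _ => ?_
        rw [smul_smul, ← ha' i]
      obtain ⟨c, hc⟩ := ih a' hrel i
      exact ⟨c, by rw [ha' i, hc, pow_succ]; ring⟩
  have hne : Ideal.span {π} ≠ ⊤ := by
    rw [Ne, Ideal.span_singleton_eq_top]
    exact hπ.not_isUnit
  have hbot := Ideal.iInf_pow_eq_bot_of_isDomain (Ideal.span {π}) hne
  funext i
  have : a i ∈ (⨅ k, Ideal.span {π} ^ k : Ideal R) := by
    rw [Ideal.mem_iInf]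
    intro k
    rw [Ideal.span_singleton_pow, Ideal.mem_span_singleton]
    exact key k a ha i
  rw [hbot] at this
  exact this

/-- **Nakayama step.** If the reductions of the `e i` span `B ⧸ π B`, there is `s ≡ 1 mod π`
with `s • B ⊆ ∑ R e i`. -/
theorem exists_smul_eq_sum [Module.Finite R B] (e : ι → B)
    (hsp : ⊤ ≤ Submodule.span (R ⧸ Ideal.span {π}) (Set.range
      (fun i => Ideal.Quotient.mk ((Ideal.span {π}).map (algebraMap R B)) (e i)))) :
    ∃ s : R, π ∣ s - 1 ∧ ∀ b : B, ∃ c : ι → R, s • b = ∑ i, c i • e i := by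
  set M : Submodule R B := Submodule.span R (Set.range e) with hM
  -- every element of `B` is in `M + π B`
  have hdecomp : ∀ b : B, ∃ c : ι → R, ∃ b' : B, b = ∑ i, c i • e i + π • b' := by
    intro b
    have hb := hsp (Submodule.mem_top
      (x := Ideal.Quotient.mk ((Ideal.span {π}).map (algebraMap R B)) b))
    rw [Submodule.mem_span_range_iff_exists_fun] at hb
    obtain ⟨c, hc⟩ := hb
    choose c' hc' using fun i => Ideal.Quotient.mk_surjective (c i)
    have hmem : b - ∑ i, c' i • e i ∈ (Ideal.span {π}).map (algebraMap R B) := by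
      rw [← Ideal.Quotient.eq_zero_iff_mem, map_sub, map_sum, ← hc, sub_eq_zero]
      refine Finset.sum_congr rfl fun i _ => ?_
      rw [← hc' i, Algebra.smul_def, Algebra.smul_def, map_mul]
      rfl
    rw [Ideal.map_span, Set.image_singleton, Ideal.mem_span_singleton'] at hmem
    obtain ⟨b', hb'⟩ := hmem
    refine ⟨c', b', ?_⟩
    rw [Algebra.smul_def π, mul_comm, hb']
    ring
  have hfg : (⊤ : Submodule R (B ⧸ M)).FG := Module.finite_def.mp inferInstance
  have hle : (⊤ : Submodule R (B ⧸ M)) ≤ Ideal.span {π} • (⊤ : Submodule R (B ⧸ M)) := by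
    intro x _
    obtain ⟨b, rfl⟩ := Submodule.Quotient.mk_surjective M x
    obtain ⟨c, b', hb⟩ := hdecomp b
    have : (Submodule.Quotient.mk b : B ⧸ M) = π • Submodule.Quotient.mk b' := by
      rw [← Submodule.Quotient.mk_smul, hb, Submodule.Quotient.mk_add]
      have : (Submodule.Quotient.mk (∑ i, c i • e i) : B ⧸ M) = 0 := by
        rw [Submodule.Quotient.mk_eq_zero]
        exact Submodule.sum_mem _ fun i _ =>
          Submodule.smul_mem _ _ (Submodule.subset_span ⟨i, rfl⟩)
      rw [this, zero_add]
    rw [this]
    exact Submodule.smul_mem_smul (Ideal.mem_span_singleton_self π) Submodule.mem_top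
  obtain ⟨s, hs1, hs⟩ :=
    Submodule.exists_sub_one_mem_and_smul_eq_zero_of_fg_of_le_smul _ _ hfg hle
  refine ⟨s, Ideal.mem_span_singleton.mp hs1, fun b => ?_⟩
  have := hs (Submodule.Quotient.mk b) Submodule.mem_top
  rw [← Submodule.Quotient.mk_smul, Submodule.Quotient.mk_eq_zero, hM,
    Submodule.mem_span_range_iff_exists_fun] at this
  obtain ⟨c, hc⟩ := this
  exact ⟨c, hc.symm⟩

section Basis

variable [IsIntegralClosure B R L] [Algebra.IsAlgebraic K L] [Module.Finite R B]

/-- **The lifted basis is a `K`-basis of `L`.**  In particular the rank of the special fibre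
`B ⧸ π B` over `R ⧸ π` is `[L : K]`. -/
theorem exists_basis_of_lift (hπ : Prime π)
    (eb : Basis ι (R ⧸ Ideal.span {π}) (B ⧸ (Ideal.span {π}).map (algebraMap R B)))
    (e : ι → B) (he : ∀ i, Ideal.Quotient.mk ((Ideal.span {π}).map (algebraMap R B)) (e i) = eb i) :
    ∃ bK : Basis ι K L, ∀ i, bK i = algebraMap B L (e i) := by
  have hBL : Function.Injective (algebraMap B L) := IsIntegralClosure.algebraMap_injective B R L
  have hfun : (fun i => Ideal.Quotient.mk ((Ideal.span {π}).map (algebraMap R B)) (e i)) = eb :=
    funext he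
  have hli : LinearIndependent (R ⧸ Ideal.span {π})
      (fun i => Ideal.Quotient.mk ((Ideal.span {π}).map (algebraMap R B)) (e i)) := by
    rw [hfun]; exact eb.linearIndependent
  have hsp : ⊤ ≤ Submodule.span (R ⧸ Ideal.span {π}) (Set.range
      (fun i => Ideal.Quotient.mk ((Ideal.span {π}).map (algebraMap R B)) (e i))) := by
    rw [hfun]; exact eb.span_eq.ge
  obtain ⟨s, hs1, hs⟩ := exists_smul_eq_sum (π := π) e hsp
  have hs0 : s ≠ 0 := by
    rintro rfl
    rw [zero_sub, dvd_neg] at hs1
    exact hπ.not_isUnit (isUnit_of_dvd_one hs1)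
  -- linear independence over `R`, then over `K`
  have hliR : LinearIndependent R (fun i => algebraMap B L (e i)) := by
    rw [Fintype.linearIndependent_iff]
    intro g hg
    have : ∑ i, g i • e i = 0 := by
      apply hBL
      rw [map_sum, map_zero, ← hg]
      refine Finset.sum_congr rfl fun i _ => ?_
      rw [Algebra.smul_def, map_mul, ← IsScalarTower.algebraMap_apply, Algebra.smul_def]
    have h0 := eq_zero_of_sum_smul_eq_zero (K := K) hπ hBL e hli g this
    intro i
    rw [h0]; rfl
  have hliK : LinearIndependent K (fun i => algebraMap B L (e i)) :=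
    (LinearIndependent.iff_fractionRing R K).mp hliR
  have hspK : ⊤ ≤ Submodule.span K (Set.range (fun i => algebraMap B L (e i))) := by
    intro y _
    have hyalg : IsAlgebraic R y :=
      (IsFractionRing.isAlgebraic_iff R K L).mpr (Algebra.IsAlgebraic.isAlgebraic y)
    obtain ⟨r, hr0, hry⟩ := hyalg.exists_integral_multiple
    obtain ⟨b, hb⟩ := (IsIntegralClosure.isIntegral_iff (A := B)).mp hry
    obtain ⟨c, hc⟩ := hs b
    have hsrL : algebraMap R L (s * r) ≠ 0 := by
      rw [IsScalarTower.algebraMap_apply R K L]
      exact (map_ne_zero_iff _ (algebraMap K L).injective).mpr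
        ((map_ne_zero_iff _ (IsFractionRing.injective R K)).mpr (mul_ne_zero hs0 hr0))
    have hy : algebraMap R L (s * r) * y = ∑ i, c i • algebraMap B L (e i) := by
      have := congrArg (algebraMap B L) hc
      rw [map_sum, Algebra.smul_def, map_mul, ← IsScalarTower.algebraMap_apply, hb,
        Algebra.smul_def, ← mul_assoc, ← map_mul] at this
      rw [this]
      refine Finset.sum_congr rfl fun i _ => ?_
      rw [Algebra.smul_def, map_mul, ← IsScalarTower.algebraMap_apply, Algebra.smul_def]
    have hy' : y = (algebraMap R L (s * r))⁻¹ * ∑ i, c i • algebraMap B L (e i) := by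
      rw [← hy, ← mul_assoc, inv_mul_cancel₀ hsrL, one_mul]
    rw [hy']
    have hmem : ∑ i, c i • algebraMap B L (e i) ∈
        Submodule.span K (Set.range (fun i => algebraMap B L (e i))) := by
      refine Submodule.sum_mem _ fun i _ => ?_
      rw [← algebraMap_smul K (c i)]
      exact Submodule.smul_mem _ _ (Submodule.subset_span ⟨i, rfl⟩)
    have := Submodule.smul_mem _ ((algebraMap R K (s * r))⁻¹) hmem
    rwa [Algebra.smul_def, map_inv₀, ← IsScalarTower.algebraMap_apply] at this
  exact ⟨Basis.mk hliK hspK, fun i => by rw [Basis.mk_apply]⟩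

include K L in
/-- Rank of the special fibre. -/
theorem card_eq_finrank_of_basis_quotient (hπ : Prime π)
    (eb : Basis ι (R ⧸ Ideal.span {π}) (B ⧸ (Ideal.span {π}).map (algebraMap R B))) :
    Fintype.card ι = Module.finrank K L := by
  choose e he using fun i => Ideal.Quotient.mk_surjective (eb i)
  obtain ⟨bK, -⟩ := exists_basis_of_lift (K := K) (L := L) hπ eb e he
  rw [Module.finrank_eq_card_basis bK]

end Basis

section Trace

variable [IsIntegrallyClosed R] [IsIntegralClosure B R L] [Algebra.IsAlgebraic K L]
  [Module.Finite R B]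

/-- **Reduction of traces.** For `b` in the integral closure `B`, the trace `Tr_{L/K}(b)` lies in
`R`, and its reduction mod `π` is the trace of `b mod π` on the free `R ⧸ π`-module `B ⧸ π B`. -/
theorem exists_trace_eq_and_trace_mk_eq (hπ : Prime π)
    (eb : Basis ι (R ⧸ Ideal.span {π}) (B ⧸ (Ideal.span {π}).map (algebraMap R B))) (b : B) :
    ∃ t : R, Algebra.trace K L (algebraMap B L b) = algebraMap R K t ∧
      Algebra.trace (R ⧸ Ideal.span {π}) (B ⧸ (Ideal.span {π}).map (algebraMap R B))
        (Ideal.Quotient.mk _ b) = Ideal.Quotient.mk _ t := by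
  choose e he using fun i => Ideal.Quotient.mk_surjective (eb i)
  obtain ⟨bK, hbK⟩ := exists_basis_of_lift (K := K) (L := L) hπ eb e he
  have hfun : (fun i => Ideal.Quotient.mk ((Ideal.span {π}).map (algebraMap R B)) (e i)) = eb :=
    funext he
  have hsp : ⊤ ≤ Submodule.span (R ⧸ Ideal.span {π}) (Set.range
      (fun i => Ideal.Quotient.mk ((Ideal.span {π}).map (algebraMap R B)) (e i))) := by
    rw [hfun]; exact eb.span_eq.ge
  obtain ⟨s, hs1, hs⟩ := exists_smul_eq_sum (π := π) e hsp
  have hs0 : s ≠ 0 := by
    rintro rfl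
    rw [zero_sub, dvd_neg] at hs1
    exact hπ.not_isUnit (isUnit_of_dvd_one hs1)
  have hinjK := IsFractionRing.injective R K
  have hsK : algebraMap R K s ≠ 0 := (map_ne_zero_iff _ hinjK).mpr hs0
  have hmks : Ideal.Quotient.mk (Ideal.span {π}) s = 1 := by
    rw [← sub_eq_zero, ← map_one (Ideal.Quotient.mk (Ideal.span {π})), ← map_sub,
      Ideal.Quotient.eq_zero_iff_mem, Ideal.mem_span_singleton]
    exact hs1
  have : FiniteDimensional K L := Module.Finite.of_basis bK
  choose c hc using fun j => hs (b * e j)
  -- the matrix of `b` on `L`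
  have hrepK : ∀ i j, bK.repr (algebraMap B L b * bK j) i =
      (algebraMap R K s)⁻¹ * algebraMap R K (c j i) := by
    intro i j
    have h1 : algebraMap B L b * bK j =
        ∑ i, ((algebraMap R K s)⁻¹ * algebraMap R K (c j i)) • bK i := by
      have h2 := congrArg (algebraMap B L) (hc j)
      rw [Algebra.smul_def, map_mul, map_mul, ← IsScalarTower.algebraMap_apply, map_sum] at h2
      have h3 : algebraMap B L b * bK j = (algebraMap R L s)⁻¹ *
          (algebraMap R L s * (algebraMap B L b * algebraMap B L (e j))) := by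
        have : algebraMap R L s ≠ 0 := by
          rw [IsScalarTower.algebraMap_apply R K L]
          exact (map_ne_zero_iff _ (algebraMap K L).injective).mpr hsK
        rw [← mul_assoc, inv_mul_cancel₀ this, one_mul, hbK]
      rw [h3, h2, Finset.mul_sum]
      refine Finset.sum_congr rfl fun i _ => ?_
      rw [Algebra.smul_def (c j i), map_mul, ← IsScalarTower.algebraMap_apply, hbK,
        Algebra.smul_def, map_mul, map_inv₀, ← IsScalarTower.algebraMap_apply,
        ← IsScalarTower.algebraMap_apply, mul_assoc]
    rw [h1, Basis.repr_sum_self]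
  have htrK : Algebra.trace K L (algebraMap B L b) =
      (algebraMap R K s)⁻¹ * algebraMap R K (∑ i, c i i) := by
    rw [Algebra.trace_eq_matrix_trace bK, Matrix.trace, map_sum, Finset.mul_sum]
    refine Finset.sum_congr rfl fun i _ => ?_
    rw [Matrix.diag_apply, Algebra.leftMulMatrix_eq_repr_mul, hrepK]
  -- the matrix of `b mod π` on the special fibre
  have hrepC : ∀ i j, eb.repr (Ideal.Quotient.mk _ b * eb j) i =
      Ideal.Quotient.mk (Ideal.span {π}) (c j i) := by
    intro i j
    have h1 : Ideal.Quotient.mk ((Ideal.span {π}).map (algebraMap R B)) b * eb j =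
        ∑ i, Ideal.Quotient.mk (Ideal.span {π}) (c j i) • eb i := by
      have h2 := congrArg (Ideal.Quotient.mk ((Ideal.span {π}).map (algebraMap R B))) (hc j)
      rw [map_sum, Algebra.smul_def, map_mul] at h2
      have h3 : Ideal.Quotient.mk ((Ideal.span {π}).map (algebraMap R B)) (algebraMap R B s) = 1 := by
        have : Ideal.Quotient.mk ((Ideal.span {π}).map (algebraMap R B)) (algebraMap R B s) =
          algebraMap (R ⧸ Ideal.span {π}) (B ⧸ (Ideal.span {π}).map (algebraMap R B))
            (Ideal.Quotient.mk (Ideal.span {π}) s) := rfl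
        rw [this, hmks, map_one]
      rw [h3, one_mul, map_mul, he] at h2
      rw [h2]
      refine Finset.sum_congr rfl fun i _ => ?_
      rw [Algebra.smul_def, map_mul, he, Algebra.smul_def]
      rfl
    rw [h1, Basis.repr_sum_self]
  have htrC : Algebra.trace (R ⧸ Ideal.span {π}) (B ⧸ (Ideal.span {π}).map (algebraMap R B))
      (Ideal.Quotient.mk _ b) = Ideal.Quotient.mk (Ideal.span {π}) (∑ i, c i i) := by
    rw [Algebra.trace_eq_matrix_trace eb, Matrix.trace, map_sum]
    refine Finset.sum_congr rfl fun i _ => ?_
    rw [Matrix.diag_apply, Algebra.leftMulMatrix_eq_repr_mul, hrepC]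
  -- integrality of the trace
  have hint : IsIntegral R (Algebra.trace K L (algebraMap B L b)) :=
    Algebra.isIntegral_trace ((IsIntegralClosure.isIntegral R L b).algebraMap)
  obtain ⟨t, ht⟩ := IsIntegrallyClosed.isIntegral_iff.mp hint
  refine ⟨t, ht.symm, ?_⟩
  have hst : s * t = ∑ i, c i i := by
    apply hinjK
    rw [map_mul, ht, htrK, ← mul_assoc, mul_inv_cancel₀ hsK, one_mul]
  rw [htrC, ← hst, map_mul, hmks, one_mul]

/-- **Reduction of the discriminant.** The discriminant of the lifted basis lies in `R` and
reduces mod `π` to the discriminant of the basis `eb` of the special fibre. -/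
theorem exists_discr_eq_and_discr_quotient_eq (hπ : Prime π)
    (eb : Basis ι (R ⧸ Ideal.span {π}) (B ⧸ (Ideal.span {π}).map (algebraMap R B)))
    (e : ι → B) (he : ∀ i, Ideal.Quotient.mk ((Ideal.span {π}).map (algebraMap R B)) (e i) = eb i)
    (bK : Basis ι K L) (hbK : ∀ i, bK i = algebraMap B L (e i)) :
    ∃ δ : R, Algebra.discr K bK = algebraMap R K δ ∧
      Algebra.discr (R ⧸ Ideal.span {π}) eb = Ideal.Quotient.mk _ δ := by
  choose t ht1 ht2 using fun p : ι × ι =>
    exists_trace_eq_and_trace_mk_eq (K := K) (L := L) hπ eb (e p.1 * e p.2)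
  refine ⟨(Matrix.of fun i j => t (i, j)).det, ?_, ?_⟩
  · rw [Algebra.discr_def, RingHom.map_det]
    congr 1
    ext i j
    rw [Algebra.traceMatrix_apply, Algebra.traceForm_apply, hbK, hbK, ← map_mul, ht1 (i, j)]
    rfl
  · rw [Algebra.discr_def, RingHom.map_det]
    congr 1
    ext i j
    rw [Algebra.traceMatrix_apply, Algebra.traceForm_apply, ← he, ← he, ← map_mul, ht2 (i, j)]
    rfl

end Trace

end Lift

end Fermat.Agent.S18.H41
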