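/-
S18 project, package PURITY (helper41), part C.  Mathlib only (+ H41_PurityB).

**Purity of the branch locus, discriminant form, "by hand".**
`R` noetherian integrally closed domain, `π` prime, `K = Frac R`, `L / K` finite separable,
`B` = integral closure of `R` in `L`, `eb` a basis of the special fibre `B ⧸ π B` over `R ⧸ π`,
`δ ∈ R` the discriminant of a lifted basis (part B).
* `not_dvd_discr_of_family` : (VERT) some family of integral elements has discriminant prime to `π`
  ⇒ `π ∤ δ`;
* `exists_discr_dvd_of_traceDual` : (HOR) the codifferent of `B` is contained in `B[1/π]`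
  ⇒ `δ ∣ π ^ k * s` for some `s ≡ 1 mod π`;
* `isUnit_mk_of_dvd_pow_mul` : purity: then `δ` is a unit mod `π`;
* `isUnit_discr_quotient_of_vert_hor` : **every basis of `B ⧸ π B` over `R ⧸ π` has unit
  discriminant.**
-/
import Fermat.Agent.S18.H41_PurityB

set_option autoImplicit false
set_option linter.unusedSectionVars false

open Module

namespace Fermat.Agent.S18.H41

section Purity

variable {R : Type*} [CommRing R] [IsDomain R] {π : R}

/-- **Purity, by hand.** If `δ ∣ π ^ k * s` with `s ≡ 1 mod π` and `π ∤ δ` (`π` prime), then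
`δ` is a unit modulo `π`. -/
theorem isUnit_mk_of_dvd_pow_mul (hπ : Prime π) {δ s : R} (hnd : ¬ π ∣ δ) (hs : π ∣ s - 1)
    (k : ℕ) (h : δ ∣ π ^ k * s) : IsUnit (Ideal.Quotient.mk (Ideal.span {π}) δ) := by
  obtain ⟨c, hc⟩ := h
  induction k generalizing c with
  | zero =>
    rw [pow_zero, one_mul] at hc
    have hmks : Ideal.Quotient.mk (Ideal.span {π}) s = 1 := by
      rw [← sub_eq_zero, ← map_one (Ideal.Quotient.mk (Ideal.span {π})), ← map_sub,
        Ideal.Quotient.eq_zero_iff_mem, Ideal.mem_span_singleton]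
      exact hs
    refine IsUnit.of_mul_eq_one (Ideal.Quotient.mk (Ideal.span {π}) c) ?_
    rw [← map_mul, ← hc, hmks]
  | succ k ih =>
    have hdvd : π ∣ δ * c := ⟨π ^ k * s, by rw [← hc, pow_succ]; ring⟩
    rcases hπ.dvd_or_dvd hdvd with h | h
    · exact absurd h hnd
    · obtain ⟨c', rfl⟩ := h
      apply ih c'
      have : π * (π ^ k * s) = π * (δ * c') := by
        rw [pow_succ] at hc
        linear_combination hc
      exact mul_left_cancel₀ hπ.ne_zero this

end Purity

section Vert

variable {R K L B : Type*} [CommRing R] [IsDomain R] [IsNoetherianRing R] [IsIntegrallyClosed R]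
  [Field K] [Algebra R K] [IsFractionRing R K] [Field L] [Algebra K L] [Algebra R L]
  [IsScalarTower R K L]
  [CommRing B] [Algebra R B] [Algebra B L] [IsScalarTower R B L]
  [IsIntegralClosure B R L] [Algebra.IsAlgebraic K L] [Module.Finite R B]
  {π : R}
  {ι : Type*} [Fintype ι] [DecidableEq ι]

/-- The reduction of `s ≡ 1 mod π`. -/
theorem mk_eq_one_of_dvd_sub_one {s : R} (hs : π ∣ s - 1) :
    Ideal.Quotient.mk (Ideal.span {π}) s = 1 := by
  rw [← sub_eq_zero, ← map_one (Ideal.Quotient.mk (Ideal.span {π})), ← map_sub,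
    Ideal.Quotient.eq_zero_iff_mem, Ideal.mem_span_singleton]
  exact hs

/-- `π` does not divide `s ≡ 1 mod π`. -/
theorem not_dvd_of_dvd_sub_one (hπ : Prime π) {s : R} (hs : π ∣ s - 1) : ¬ π ∣ s := by
  intro h
  have : π ∣ 1 := by
    have := dvd_sub h hs
    rwa [sub_sub_cancel] at this
  exact hπ.not_isUnit (isUnit_of_dvd_one this)

/-- **(VERT) ⇒ the discriminant of the lifted basis is not divisible by `π`.**
If some family `x : ι → L` of integral elements has discriminant `δx ∈ R` with `π ∤ δx`, then
the discriminant `δ` of the lifted basis satisfies `π ∤ δ`. -/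
theorem not_dvd_discr_of_family (hπ : Prime π)
    (eb : Basis ι (R ⧸ Ideal.span {π}) (B ⧸ (Ideal.span {π}).map (algebraMap R B)))
    (e : ι → B) (he : ∀ i, Ideal.Quotient.mk ((Ideal.span {π}).map (algebraMap R B)) (e i) = eb i)
    (bK : Basis ι K L) (hbK : ∀ i, bK i = algebraMap B L (e i))
    {δ : R} (hδ : Algebra.discr K bK = algebraMap R K δ)
    (x : ι → L) (hx : ∀ i, IsIntegral R (x i)) {δx : R}
    (hδx : Algebra.discr K x = algebraMap R K δx) (hnd : ¬ π ∣ δx) : ¬ π ∣ δ := by
  have hfun : (fun i => Ideal.Quotient.mk ((Ideal.span {π}).map (algebraMap R B)) (e i)) = eb :=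
    funext he
  have hsp : ⊤ ≤ Submodule.span (R ⧸ Ideal.span {π}) (Set.range
      (fun i => Ideal.Quotient.mk ((Ideal.span {π}).map (algebraMap R B)) (e i))) := by
    rw [hfun]; exact eb.span_eq.ge
  obtain ⟨s, hs1, hs⟩ := exists_smul_eq_sum (π := π) e hsp
  choose xb hxb using fun i => (IsIntegralClosure.isIntegral_iff (A := B)).mp (hx i)
  choose m hm using fun j => hs (xb j)
  have hinjK := IsFractionRing.injective R K
  -- `s • x = bK ᵥ* M`
  set P : Matrix ι ι K := Matrix.of fun i j => algebraMap R K (m j i) with hP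
  set Q : Matrix ι ι K := Matrix.diagonal fun _ => algebraMap R K s with hQ
  have h1 : Matrix.vecMul (bK : ι → L) (P.map (algebraMap K L)) =
      Matrix.vecMul x (Q.map (algebraMap K L)) := by
    funext j
    have h2 := congrArg (algebraMap B L) (hm j)
    rw [Algebra.smul_def, map_mul, ← IsScalarTower.algebraMap_apply, hxb, map_sum] at h2
    have hR : Matrix.vecMul x (Q.map (algebraMap K L)) j = x j * algebraMap R L s := by
      simp only [Matrix.vecMul, dotProduct, Matrix.map_apply]
      rw [Finset.sum_eq_single j]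
      · rw [hQ, Matrix.diagonal_apply_eq, ← IsScalarTower.algebraMap_apply]
      · intro i _ hij
        rw [hQ, Matrix.diagonal_apply_ne _ hij, map_zero, mul_zero]
      · intro h; exact absurd (Finset.mem_univ j) h
    have hL : Matrix.vecMul (bK : ι → L) (P.map (algebraMap K L)) j =
        ∑ i, algebraMap B L (m j i • e i) := by
      simp only [Matrix.vecMul, dotProduct, Matrix.map_apply]
      refine Finset.sum_congr rfl fun i _ => ?_
      rw [hP, Matrix.of_apply, ← IsScalarTower.algebraMap_apply, Algebra.smul_def, map_mul,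
        ← IsScalarTower.algebraMap_apply, hbK, mul_comm]
    rw [hR, hL, ← h2, mul_comm]
  have h3 := congrArg (Algebra.discr K) h1
  rw [Algebra.discr_of_matrix_vecMul, Algebra.discr_of_matrix_vecMul, hδ, hδx] at h3
  have hPdet : P.det = algebraMap R K (Matrix.of fun i j => m j i).det := by
    rw [RingHom.map_det]; rfl
  have hQdet : Q.det = algebraMap R K (s ^ Fintype.card ι) := by
    rw [hQ, Matrix.det_diagonal, Finset.prod_const, Finset.card_univ, map_pow]
  rw [hPdet, hQdet, ← map_pow, ← map_pow, ← map_mul, ← map_mul] at h3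
  have h4 := hinjK h3
  intro hdvd
  have : π ∣ (s ^ Fintype.card ι) ^ 2 * δx := by
    rw [← h4]; exact Dvd.dvd.mul_left hdvd _
  rcases hπ.dvd_or_dvd this with h | h
  · exact not_dvd_of_dvd_sub_one hπ hs1 (hπ.dvd_of_dvd_pow (hπ.dvd_of_dvd_pow h))
  · exact hnd h

end Vert

section Hor

variable {R K L B : Type*} [CommRing R] [IsDomain R] [IsNoetherianRing R] [IsIntegrallyClosed R]
  [Field K] [Algebra R K] [IsFractionRing R K] [Field L] [Algebra K L] [Algebra R L]
  [IsScalarTower R K L]
  [CommRing B] [Algebra R B] [Algebra B L] [IsScalarTower R B L]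
  [IsIntegralClosure B R L] [FiniteDimensional K L] [Algebra.IsSeparable K L] [Module.Finite R B]
  {π : R}
  {ι : Type*} [Fintype ι] [DecidableEq ι]

/-- **(HOR) ⇒ the discriminant of the lifted basis divides `π ^ k * s` with `s ≡ 1 mod π`.**
(HOR) is used in the form: the trace dual (codifferent) of `B` is contained in `B[1/π]`. -/
theorem exists_discr_dvd_of_traceDual
    (eb : Basis ι (R ⧸ Ideal.span {π}) (B ⧸ (Ideal.span {π}).map (algebraMap R B)))
    (e : ι → B) (he : ∀ i, Ideal.Quotient.mk ((Ideal.span {π}).map (algebraMap R B)) (e i) = eb i)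
    (bK : Basis ι K L) (hbK : ∀ i, bK i = algebraMap B L (e i))
    {δ : R} (hδ : Algebra.discr K bK = algebraMap R K δ)
    (hH : ∀ y : L, (∀ b : B, ∃ r : R, Algebra.trace K L (y * algebraMap B L b) = algebraMap R K r) →
      ∃ k : ℕ, IsIntegral R (π ^ k • y)) :
    ∃ (k : ℕ) (s : R), π ∣ s - 1 ∧ δ ∣ π ^ k * s := by
  have hfun : (fun i => Ideal.Quotient.mk ((Ideal.span {π}).map (algebraMap R B)) (e i)) = eb :=
    funext he
  have hsp : ⊤ ≤ Submodule.span (R ⧸ Ideal.span {π}) (Set.range
      (fun i => Ideal.Quotient.mk ((Ideal.span {π}).map (algebraMap R B)) (e i))) := by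
    rw [hfun]; exact eb.span_eq.ge
  obtain ⟨s, hs1, hs⟩ := exists_smul_eq_sum (π := π) e hsp
  have hinjK := IsFractionRing.injective R K
  -- the dual basis, scaled by `s`, lies in the trace dual of `B`
  have hdual : ∀ i, ∀ b : B, ∃ r : R,
      Algebra.trace K L ((s • bK.traceDual i) * algebraMap B L b) = algebraMap R K r := by
    intro i b
    obtain ⟨c, hc⟩ := hs b
    refine ⟨c i, ?_⟩
    have h2 := congrArg (algebraMap B L) hc
    rw [Algebra.smul_def, map_mul, ← IsScalarTower.algebraMap_apply, map_sum] at h2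
    have h3 : (s • bK.traceDual i) * algebraMap B L b =
        ∑ j, algebraMap R K (c j) • (bK.traceDual i * bK j) := by
      rw [Algebra.smul_def, mul_assoc, mul_left_comm, h2, Finset.mul_sum]
      refine Finset.sum_congr rfl fun j _ => ?_
      rw [Algebra.smul_def, map_mul, ← IsScalarTower.algebraMap_apply, hbK,
        Algebra.smul_def, ← IsScalarTower.algebraMap_apply]
      ring
    rw [h3, map_sum]
    simp only [map_smul, Basis.trace_traceDual_mul, smul_eq_mul, mul_ite, mul_one, mul_zero]
    rw [Finset.sum_ite_eq' Finset.univ i, if_pos (Finset.mem_univ i)]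
  choose kk hkk using fun i => hH (s • bK.traceDual i) (hdual i)
  set k : ℕ := ∑ i, kk i with hk
  have hint : ∀ i, IsIntegral R (π ^ k • s • bK.traceDual i) := by
    intro i
    have hle : kk i ≤ k := Finset.single_le_sum (fun _ _ => Nat.zero_le _) (Finset.mem_univ i)
    obtain ⟨d, hd⟩ := Nat.exists_eq_add_of_le hle
    rw [hd, pow_add, mul_comm, mul_smul]
    exact (hkk i).smul _
  choose g hg using fun i => (IsIntegralClosure.isIntegral_iff (A := B)).mp (hint i)
  choose u hu using fun i => hs (g i)
  -- matrix identity `U * T = (π ^ k * s ^ 2) • 1`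
  set U : Matrix ι ι R := Matrix.of fun i j => u i j with hU
  have hmat : (U.map (algebraMap R K)) * Algebra.traceMatrix K bK =
      (algebraMap R K (π ^ k * s ^ 2)) • (1 : Matrix ι ι K) := by
    ext i l
    rw [Matrix.mul_apply, Matrix.smul_apply, Matrix.one_apply, smul_eq_mul]
    have h2 := congrArg (algebraMap B L) (hu i)
    rw [Algebra.smul_def, map_mul, ← IsScalarTower.algebraMap_apply, hg, map_sum] at h2
    -- `π^k s^2 D_i = ∑ j u i j e_j`
    have h3 : algebraMap R K (π ^ k * s ^ 2) • bK.traceDual i =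
        ∑ j, algebraMap R K (u i j) • bK j := by
      have : algebraMap R K (π ^ k * s ^ 2) • bK.traceDual i =
          algebraMap R L s * (π ^ k • s • bK.traceDual i) := by
        rw [Algebra.smul_def, ← IsScalarTower.algebraMap_apply, Algebra.smul_def,
          Algebra.smul_def, map_mul, map_pow, map_pow]
        ring
      rw [this, h2]
      refine Finset.sum_congr rfl fun j _ => ?_
      rw [Algebra.smul_def, map_mul, ← IsScalarTower.algebraMap_apply, hbK,
        Algebra.smul_def, ← IsScalarTower.algebraMap_apply]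
    have h4 := congrArg (fun z => Algebra.trace K L (z * bK l)) h3
    simp only [smul_mul_assoc, map_smul, Basis.trace_traceDual_mul, Finset.sum_mul,
      map_sum, smul_eq_mul] at h4
    rw [show (∑ j, (U.map (algebraMap R K)) i j * Algebra.traceMatrix K bK j l) =
        ∑ j, algebraMap R K (u i j) * Algebra.trace K L (bK j * bK l) from
      Finset.sum_congr rfl fun j _ => by
        rw [Matrix.map_apply, hU, Matrix.of_apply, Algebra.traceMatrix_apply,
          Algebra.traceForm_apply], ← h4]
    by_cases hil : i = l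
    · rw [if_pos hil, if_pos hil.symm]
    · rw [if_neg hil, if_neg (Ne.symm hil)]
  have hdet := congrArg Matrix.det hmat
  rw [Matrix.det_mul, Matrix.det_smul, Matrix.det_one, mul_one, ← Algebra.discr_def, hδ,
    ← RingHom.mapMatrix_apply, ← RingHom.map_det, ← map_mul, ← map_pow] at hdet
  have hR := hinjK hdet
  refine ⟨k * Fintype.card ι, (s ^ 2) ^ Fintype.card ι, ?_, ⟨U.det, ?_⟩⟩
  · have h1 : Ideal.Quotient.mk (Ideal.span {π}) ((s ^ 2) ^ Fintype.card ι) = 1 := by
      rw [map_pow, map_pow, mk_eq_one_of_dvd_sub_one hs1, one_pow, one_pow]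
    rw [← Ideal.mem_span_singleton, ← Ideal.Quotient.eq_zero_iff_mem, map_sub, h1, map_one,
      sub_self]
  · rw [mul_comm δ, hR, mul_pow, pow_mul]

end Hor

section Main

variable {R K L B : Type*} [CommRing R] [IsDomain R] [IsNoetherianRing R] [IsIntegrallyClosed R]
  [Field K] [Algebra R K] [IsFractionRing R K] [Field L] [Algebra K L] [Algebra R L]
  [IsScalarTower R K L]
  [CommRing B] [Algebra R B] [Algebra B L] [IsScalarTower R B L]
  [IsIntegralClosure B R L] [FiniteDimensional K L] [Algebra.IsSeparable K L]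
  {π : R}
  {ι : Type*} [Fintype ι] [DecidableEq ι]

omit [IsDomain R] [IsNoetherianRing R] [IsIntegrallyClosed R] [IsFractionRing R K]
  [Algebra R L] [IsScalarTower R K L] [FiniteDimensional K L] [Algebra.IsSeparable K L]
  [Fintype ι] [DecidableEq ι] in
/-- The discriminant of a family does not depend on the indexing. -/
theorem discr_comp_equiv {ι₁ ι₂ : Type*} [Fintype ι₁] [DecidableEq ι₁] [Fintype ι₂]
    [DecidableEq ι₂] (σ : ι₁ ≃ ι₂) (x : ι₂ → L) :
    Algebra.discr K (x ∘ σ) = Algebra.discr K x := by
  rw [Algebra.discr_def, Algebra.discr_def]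
  have : Algebra.traceMatrix K (x ∘ σ) = (Algebra.traceMatrix K x).submatrix σ σ := by
    ext i j; rfl
  rw [this, Matrix.det_submatrix_equiv_self]

/-- **PURITY, discriminant form.**  `R` a noetherian integrally closed domain, `π ∈ R` prime,
`L / K = Frac R` finite separable, `B` the integral closure of `R` in `L`.  Assume
* (VERT) some family `x` of `[L : K]` integral elements has discriminant in `R` prime to `π`;
* (HOR) the trace dual (codifferent) of `B` is contained in `B[1/π]`.
Then every basis of the special fibre `B ⧸ π B` over `R ⧸ π` has **unit discriminant**. -/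
theorem isUnit_discr_quotient_of_vert_hor (hπ : Prime π)
    (eb : Basis ι (R ⧸ Ideal.span {π}) (B ⧸ (Ideal.span {π}).map (algebraMap R B)))
    {ι' : Type*} [Fintype ι'] [DecidableEq ι'] (hcard : Fintype.card ι' = Module.finrank K L)
    (x : ι' → L) (hx : ∀ i, IsIntegral R (x i)) {δx : R}
    (hδx : Algebra.discr K x = algebraMap R K δx) (hnd : ¬ π ∣ δx)
    (hH : ∀ y : L, (∀ b : B, ∃ r : R, Algebra.trace K L (y * algebraMap B L b) = algebraMap R K r) →
      ∃ k : ℕ, IsIntegral R (π ^ k • y)) :
    IsUnit (Algebra.discr (R ⧸ Ideal.span {π}) eb) := by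
  have hfin : Module.Finite R B := IsIntegralClosure.finite R K L B
  choose e he using fun i => Ideal.Quotient.mk_surjective (eb i)
  obtain ⟨bK, hbK⟩ := exists_basis_of_lift (K := K) (L := L) hπ eb e he
  obtain ⟨δ, hδ1, hδ2⟩ := exists_discr_eq_and_discr_quotient_eq (K := K) (L := L) hπ eb e he bK hbK
  have hc : Fintype.card ι = Fintype.card ι' := by
    rw [hcard, Module.finrank_eq_card_basis bK]
  let σ : ι ≃ ι' := Fintype.equivOfCardEq hc
  have hx' : ∀ i, IsIntegral R ((x ∘ σ) i) := fun i => hx (σ i)
  have hδx' : Algebra.discr K (x ∘ σ) = algebraMap R K δx := by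
    rw [discr_comp_equiv, hδx]
  have h1 : ¬ π ∣ δ := not_dvd_discr_of_family hπ eb e he bK hbK hδ1 (x ∘ σ) hx' hδx' hnd
  obtain ⟨k, s, hs1, hdvd⟩ := exists_discr_dvd_of_traceDual eb e he bK hbK hδ1 hH
  rw [hδ2]
  exact isUnit_mk_of_dvd_pow_mul hπ h1 hs1 k hdvd

end Main

end Fermat.Agent.S18.H41
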