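/-
S18 project, package PURITY (helper41), part D.  Mathlib only (+ helper9's H9_DiscrNormal).

**Unit discriminant ⇒ discrete valuation rings upstairs (also for non-domains).**
* `exists_isUnit_mul_pow_of_maximalIdeal_eq_span`, `isDomain_of_maximalIdeal_eq_span`,
  `exists_isDiscreteValuationRing_of_maximalIdeal_eq_span` : a noetherian local ring whose maximal
  ideal is generated by a non-zero-divisor is a domain, indeed a DVR;
* for `P` a noetherian domain, `C` a finite free `P`-algebra with basis `b` of unit discriminant,
  `(w)` a maximal ideal of `P` (`w ≠ 0`) and `x` a prime of `C` containing `w`: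
  `mem_minimalPrimes_map_span`, `maximalIdeal_localization_eq_span` (`w` generates the maximal
  ideal of `C_x`), `exists_isDiscreteValuationRing_localization` (`C_x` is a DVR);
* `exists_isDiscreteValuationRing_localization_of_isMaximal` : `P` a PID, not a field: this holds
  at every maximal ideal `x` of `C`.
-/
import Fermat.Agent.S18.H9_DiscrNormal

set_option autoImplicit false
set_option linter.unusedSectionVars false

open Module IsLocalRing

namespace Fermat.Agent.S18.H41

section AbstractDVR

variable {S : Type*} [CommRing S] [IsNoetherianRing S] [IsLocalRing S] {t : S}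

/-- In a noetherian local ring with principal maximal ideal `(t)`, every nonzero element is a
unit times a power of `t`. -/
theorem exists_isUnit_mul_pow_of_maximalIdeal_eq_span (ht : maximalIdeal S = Ideal.span {t})
    {a : S} (ha : a ≠ 0) : ∃ (n : ℕ) (u : S), IsUnit u ∧ a = u * t ^ n := by
  classical
  have hne : maximalIdeal S ≠ ⊤ := Ideal.IsPrime.ne_top'
  have hbot := Ideal.iInf_pow_eq_bot_of_isLocalRing (maximalIdeal S) hne
  have hex : ∃ i, a ∉ maximalIdeal S ^ i := by
    by_contra h
    push Not at h
    have : a ∈ (⨅ i, maximalIdeal S ^ i : Ideal S) := by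
      rw [Ideal.mem_iInf]; exact h
    rw [hbot] at this
    exact ha this
  set i := Nat.find hex with hi
  have hi1 : a ∉ maximalIdeal S ^ i := Nat.find_spec hex
  have hi0 : i ≠ 0 := by
    intro h0
    rw [h0, pow_zero, Ideal.one_eq_top] at hi1
    exact hi1 Submodule.mem_top
  obtain ⟨n, hn⟩ := Nat.exists_eq_succ_of_ne_zero hi0
  have hmem : a ∈ maximalIdeal S ^ n := by
    by_contra h
    have := Nat.find_min' hex h
    omega
  rw [ht, Ideal.span_singleton_pow, Ideal.mem_span_singleton'] at hmem
  obtain ⟨u, hu⟩ := hmem
  refine ⟨n, u, ?_, hu.symm⟩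
  rw [← IsLocalRing.notMem_maximalIdeal]
  intro hum
  apply hi1
  rw [hn, ht, Ideal.span_singleton_pow, Ideal.mem_span_singleton']
  rw [ht, Ideal.mem_span_singleton'] at hum
  obtain ⟨u', hu'⟩ := hum
  exact ⟨u', by rw [← hu, ← hu', pow_succ]; ring⟩

/-- A noetherian local ring whose maximal ideal is generated by a non-zero-divisor is a domain. -/
theorem isDomain_of_maximalIdeal_eq_span (ht : maximalIdeal S = Ideal.span {t})
    (hreg : ∀ a : S, t * a = 0 → a = 0) : IsDomain S := by
  have hpow : ∀ n : ℕ, ∀ a : S, t ^ n * a = 0 → a = 0 := by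
    intro n
    induction n with
    | zero => intro a h; rwa [pow_zero, one_mul] at h
    | succ n ih =>
      intro a h
      apply ih
      apply hreg
      rw [← mul_assoc, ← pow_succ']
      exact h
  have hnzd : NoZeroDivisors S := by
    refine ⟨fun {a b} hab => ?_⟩
    by_contra hcon
    push Not at hcon
    obtain ⟨n, u, hu, rfl⟩ := exists_isUnit_mul_pow_of_maximalIdeal_eq_span ht hcon.1
    obtain ⟨k, v, hv, rfl⟩ := exists_isUnit_mul_pow_of_maximalIdeal_eq_span ht hcon.2
    have h1 : t ^ (n + k) * (u * v) = 0 := by
      rw [← hab, pow_add]; ring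
    have h2 := hpow (n + k) (u * v) h1
    exact (hu.mul hv).ne_zero h2
  exact NoZeroDivisors.to_isDomain S

/-- A noetherian local ring whose maximal ideal is generated by a non-zero-divisor is a discrete
valuation ring. -/
theorem exists_isDiscreteValuationRing_of_maximalIdeal_eq_span
    (ht : maximalIdeal S = Ideal.span {t}) (hreg : ∀ a : S, t * a = 0 → a = 0) :
    ∃ _ : IsDomain S, IsDiscreteValuationRing S := by
  have hdom : IsDomain S := isDomain_of_maximalIdeal_eq_span ht hreg
  refine ⟨hdom, ?_⟩
  have ht0 : t ≠ 0 := by
    rintro rfl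
    exact one_ne_zero (hreg 1 (zero_mul 1))
  have hnf : ¬ IsField S := by
    rw [IsLocalRing.isField_iff_maximalIdeal_eq, ht, Ideal.span_singleton_eq_bot]
    exact ht0
  have hprin : (maximalIdeal S).IsPrincipal := ⟨⟨t, ht⟩⟩
  exact ((IsDiscreteValuationRing.TFAE S hnf).out 4 0).mp hprin

end AbstractDVR

section Application

variable {P C : Type*} [CommRing P] [IsDomain P] [IsNoetherianRing P] [CommRing C] [Algebra P C]
  {ι : Type*} [Fintype ι] [DecidableEq ι]

/-- On a free module over a domain, multiplication by a nonzero scalar is injective. -/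
theorem eq_zero_of_algebraMap_mul_eq_zero (b : Basis ι P C) {w : P} (hw : w ≠ 0) (c : C)
    (h : algebraMap P C w * c = 0) : c = 0 := by
  rw [← Algebra.smul_def] at h
  apply b.repr.injective
  ext i
  have := congrArg (fun z => b.repr z i) h
  simp only [map_smul, Finsupp.smul_apply, smul_eq_mul, map_zero, Finsupp.zero_apply] at this
  rw [map_zero, Finsupp.zero_apply]
  exact (mul_eq_zero.mp this).resolve_left hw

/-- A prime of `C` containing `w` (with `(w)` maximal in `P`) is minimal over `w C`. -/
theorem mem_minimalPrimes_map_span (b : Basis ι P C) {w : P}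
    (hwmax : (Ideal.span {w}).IsMaximal) (x : Ideal C) [x.IsPrime]
    (hx : algebraMap P C w ∈ x) :
    x ∈ ((Ideal.span {w}).map (algebraMap P C)).minimalPrimes := by
  set J := (Ideal.span {w}).map (algebraMap P C) with hJ
  have hJx : J ≤ x := by
    rw [hJ, Ideal.map_span, Set.image_singleton, Ideal.span_singleton_le_iff_mem]
    exact hx
  let : Field (P ⧸ Ideal.span {w}) := Ideal.Quotient.field _
  have hfinP : Module.Finite P C := Module.Finite.of_basis b
  have hfin : Module.Finite (P ⧸ Ideal.span {w}) (C ⧸ J) := by
    have : Module.Finite P (C ⧸ J) :=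
      Module.Finite.of_surjective (Ideal.Quotient.mkₐ P _).toLinearMap
        (Ideal.Quotient.mkₐ_surjective P _)
    exact Module.Finite.of_restrictScalars_finite P _ _
  have hart : IsArtinianRing (C ⧸ J) := IsArtinianRing.of_finite (P ⧸ Ideal.span {w}) (C ⧸ J)
  have hprime : (x.map (Ideal.Quotient.mk J)).IsPrime :=
    Ideal.map_isPrime_of_surjective Ideal.Quotient.mk_surjective (by rwa [Ideal.mk_ker])
  rw [Ideal.minimalPrimes_eq_comap]
  exact ⟨x.map (Ideal.Quotient.mk J), IsArtinianRing.mem_minimalPrimes bot_le,
    Ideal.comap_map_mk hJx⟩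

/-- **Unit discriminant ⇒ the uniformiser of the base generates the maximal ideal upstairs.** -/
theorem maximalIdeal_localization_eq_span (b : Basis ι P C) (hd : IsUnit (Algebra.discr P b))
    {w : P} (hwmax : (Ideal.span {w}).IsMaximal) (x : Ideal C) [x.IsPrime]
    (hx : algebraMap P C w ∈ x) :
    maximalIdeal (Localization.AtPrime x) =
      Ideal.span {algebraMap C (Localization.AtPrime x) (algebraMap P C w)} := by
  have hrad : ((Ideal.span {w}).map (algebraMap P C)).IsRadical :=
    H9.isRadical_map_of_isUnit_discr hwmax.isPrime.isRadical b hd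
  have hmin := mem_minimalPrimes_map_span b hwmax x hx
  have h1 : Ideal.span {algebraMap C (Localization.AtPrime x) (algebraMap P C w)} =
      ((Ideal.span {w}).map (algebraMap P C)).map (algebraMap C (Localization.AtPrime x)) := by
    rw [Ideal.map_span, Set.image_singleton, Ideal.map_span, Set.image_singleton]
  rw [h1, ← hrad.radical, IsLocalization.map_radical x.primeCompl,
    IsLocalization.AtPrime.radical_map_of_mem_minimalPrimes (Localization.AtPrime x) x _ hmin,
    Localization.AtPrime.map_eq_maximalIdeal]

/-- **Unit discriminant ⇒ the local rings of `C` over a closed point `(w)` of the base are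
discrete valuation rings** (with uniformiser `w`), also when `C` is not a domain. -/
theorem exists_isDiscreteValuationRing_localization (b : Basis ι P C)
    (hd : IsUnit (Algebra.discr P b)) {w : P} (hw0 : w ≠ 0)
    (hwmax : (Ideal.span {w}).IsMaximal) (x : Ideal C) [x.IsPrime]
    (hx : algebraMap P C w ∈ x) :
    ∃ _ : IsDomain (Localization.AtPrime x), IsDiscreteValuationRing (Localization.AtPrime x) := by
  have hfinP : Module.Finite P C := Module.Finite.of_basis b
  have hnC : IsNoetherianRing C := IsNoetherianRing.of_finite P C
  have hnS : IsNoetherianRing (Localization.AtPrime x) :=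
    IsLocalization.isNoetherianRing x.primeCompl _ hnC
  refine exists_isDiscreteValuationRing_of_maximalIdeal_eq_span
    (maximalIdeal_localization_eq_span b hd hwmax x hx) ?_
  intro a ha
  have hmem : algebraMap P C w ∈ nonZeroDivisors C := by
    rw [mem_nonZeroDivisors_iff_right]
    intro c hc
    exact eq_zero_of_algebraMap_mul_eq_zero b hw0 c (by rwa [mul_comm])
  have := IsLocalization.map_nonZeroDivisors_le x.primeCompl (Localization.AtPrime x)
    (Submonoid.mem_map_of_mem _ hmem)
  rw [mul_comm] at ha
  exact (mem_nonZeroDivisors_iff_right.mp this) a ha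

/-- Over a PID which is not a field, with `C` finite free of unit discriminant: the local ring of
`C` at **every** maximal ideal is a discrete valuation ring, and a generator of the maximal ideal
of `P` below is a uniformiser. -/
theorem exists_isDiscreteValuationRing_localization_of_isMaximal [IsPrincipalIdealRing P]
    (hP : ¬ IsField P) (b : Basis ι P C) (hd : IsUnit (Algebra.discr P b))
    (x : Ideal C) [hxmax : x.IsMaximal] :
    ∃ w : P, w ≠ 0 ∧ (Ideal.span {w}).IsMaximal ∧ algebraMap P C w ∈ x ∧
      maximalIdeal (Localization.AtPrime x) =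
        Ideal.span {algebraMap C (Localization.AtPrime x) (algebraMap P C w)} ∧
      ∃ _ : IsDomain (Localization.AtPrime x), IsDiscreteValuationRing (Localization.AtPrime x) := by
  have hfinP : Module.Finite P C := Module.Finite.of_basis b
  have hint : Algebra.IsIntegral P C := inferInstance
  have hpmax : (x.comap (algebraMap P C)).IsMaximal :=
    Ideal.isMaximal_comap_of_isIntegral_of_isMaximal x
  obtain ⟨w, hw⟩ := (IsPrincipalIdealRing.principal (x.comap (algebraMap P C))).principal
  have hspan : x.comap (algebraMap P C) = Ideal.span {w} := hw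
  have hw0 : w ≠ 0 := by
    rintro rfl
    apply hP
    rw [Ideal.span_singleton_eq_bot.mpr rfl] at hspan
    rw [hspan] at hpmax
    exact Ring.isField_iff_maximal_bot.mpr hpmax
  have hwmax : (Ideal.span {w}).IsMaximal := hspan ▸ hpmax
  have hx : algebraMap P C w ∈ x := by
    have : w ∈ x.comap (algebraMap P C) := by
      rw [hspan]; exact Ideal.mem_span_singleton_self w
    exact this
  exact ⟨w, hw0, hwmax, hx, maximalIdeal_localization_eq_span b hd hwmax x hx,
    exists_isDiscreteValuationRing_localization b hd hw0 hwmax x hx⟩

end Application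

end Fermat.Agent.S18.H41
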