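/-
S18 project, package PURITY (helper41), main file.  Mathlib only (+ H9_DiscrNormal, H41_Purity A-D).

**PURITY of the branch locus over a two-dimensional base** (step (PURITY) of the good-reduction
argument).  Setting: `R` a noetherian integrally closed domain, `π ∈ R` a prime element such that
`R ⧸ π` is a PID (not a field), `K = Frac R`, `L / K` finite separable, `B` the integral closure of
`R` in `L` (any model: `[IsIntegralClosure B R L]`), `C := B ⧸ π B` the special fibre.

Hypotheses (named conditions, no reference to `B`):
* `VertCond R K L π` : some family of `[L:K]` integral elements has discriminant in `R` prime to `π`;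
* `HorCond R K L π`  : the codifferent of the integral closure is contained in `B[1/π]`.

Results:
* `free_quotient'`, `finite_quotient`, `finrank_quotient_eq` : `C` is finite free over `R ⧸ π` of
  rank `[L : K]` (no condition needed);
* `isUnit_discr_quotient` : every basis of `C` over `R ⧸ π` has unit discriminant;
* `isReduced_quotient` : `C` is reduced;
* `exists_isDiscreteValuationRing_localization_quotient` : for every maximal ideal `x` of `C`, the
  local ring `C_x` is a discrete valuation ring whose maximal ideal is generated by a generator `w`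
  of the maximal ideal of `R ⧸ π` below `x`;
* `vertCond_of_pow` : (VERT) from a primitive element.
-/
import Fermat.Agent.S18.H41_PurityA
import Fermat.Agent.S18.H41_PurityC
import Fermat.Agent.S18.H41_PurityD

set_option autoImplicit false
set_option linter.unusedSectionVars false

open Module IsLocalRing

namespace Fermat.Agent.S18.H41

section Conditions

variable (R K L : Type*) [CommRing R] [Field K] [Algebra R K] [Field L] [Algebra K L] [Algebra R L]

/-- **(VERT)**: some family of `[L : K]` elements of `L`, integral over `R`, has its discriminant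
in `R` and prime to `π`.  (E.g. the power basis of a primitive element `θ` integral over `R` whose
minimal polynomial has discriminant prime to `π`.) -/
def VertCond (π : R) : Prop :=
  ∃ (x : Fin (Module.finrank K L) → L) (δx : R), (∀ i, IsIntegral R (x i)) ∧
    Algebra.discr K x = algebraMap R K δx ∧ ¬ π ∣ δx

/-- **(HOR)**: the codifferent (trace dual of the integral closure of `R` in `L`) is contained in
`B[1/π]`: if `Tr_{L/K}(y z) ∈ R` for every `z ∈ L` integral over `R`, then `π ^ k • y` is integral
over `R` for some `k`.  (This is "the integral closure is unramified over `R[1/π]` in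
codimension one".) -/
def HorCond (π : R) : Prop :=
  ∀ y : L, (∀ z : L, IsIntegral R z → ∃ r : R, Algebra.trace K L (y * z) = algebraMap R K r) →
    ∃ k : ℕ, IsIntegral R (π ^ k • y)

end Conditions

section Main

variable {R K L B : Type*} [CommRing R] [IsDomain R] [IsNoetherianRing R] [IsIntegrallyClosed R]
  [Field K] [Algebra R K] [IsFractionRing R K] [Field L] [Algebra K L] [Algebra R L]
  [IsScalarTower R K L]
  [CommRing B] [Algebra R B] [Algebra B L] [IsScalarTower R B L]
  [IsIntegralClosure B R L] [FiniteDimensional K L] [Algebra.IsSeparable K L]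
  {π : R}

variable (K L B) in
include K L in
/-- The special fibre `B ⧸ π B` is a finite free module over the PID `R ⧸ π`. -/
theorem free_quotient' (hπ : Prime π) [IsPrincipalIdealRing (R ⧸ Ideal.span {π})] :
    Module.Free (R ⧸ Ideal.span {π}) (B ⧸ (Ideal.span {π}).map (algebraMap R B)) := by
  have hfin : Module.Finite R B := IsIntegralClosure.finite R K L B
  exact free_quotient K L hπ

variable (K L B) in
include K L in
theorem finite_quotient (π : R) :
    Module.Finite (R ⧸ Ideal.span {π}) (B ⧸ (Ideal.span {π}).map (algebraMap R B)) := by
  have hfin : Module.Finite R B := IsIntegralClosure.finite R K L B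
  have : Module.Finite R (B ⧸ (Ideal.span {π}).map (algebraMap R B)) :=
    Module.Finite.of_surjective (Ideal.Quotient.mkₐ R _).toLinearMap
      (Ideal.Quotient.mkₐ_surjective R _)
  exact Module.Finite.of_restrictScalars_finite R _ _

variable (K L B) in
include K L in
/-- The rank of the special fibre is the degree `[L : K]`. -/
theorem finrank_quotient_eq (hπ : Prime π) [IsPrincipalIdealRing (R ⧸ Ideal.span {π})] :
    Module.finrank (R ⧸ Ideal.span {π}) (B ⧸ (Ideal.span {π}).map (algebraMap R B)) =
      Module.finrank K L := by
  classical
  have hfin : Module.Finite R B := IsIntegralClosure.finite R K L B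
  have hfree := free_quotient' K L B hπ
  have hfinq := finite_quotient K L B π
  have hprime : (Ideal.span {π}).IsPrime := (Ideal.span_singleton_prime hπ.ne_zero).mpr hπ
  have : IsDomain (R ⧸ Ideal.span {π}) := Ideal.Quotient.isDomain _
  let eb := Module.Free.chooseBasis (R ⧸ Ideal.span {π})
    (B ⧸ (Ideal.span {π}).map (algebraMap R B))
  rw [Module.finrank_eq_card_basis eb]
  exact card_eq_finrank_of_basis_quotient (K := K) (L := L) hπ eb

/-- **PURITY, main theorem.**  `R` noetherian integrally closed domain, `π` prime with `R ⧸ π` a
PID (not a field), `L / K = Frac R` finite separable, `B` the integral closure of `R` in `L`.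
Under (VERT) and (HOR), for **every maximal ideal `x` of the special fibre `C = B ⧸ π B`** the local
ring `C_x` is a discrete valuation ring, whose maximal ideal is generated by (the image of) a
generator `w` of the maximal ideal of `R ⧸ π` below `x`. -/
theorem exists_isDiscreteValuationRing_localization_quotient (hπ : Prime π)
    [IsPrincipalIdealRing (R ⧸ Ideal.span {π})] (hnf : ¬ IsField (R ⧸ Ideal.span {π}))
    (hV : VertCond R K L π) (hH : HorCond R K L π)
    (x : Ideal (B ⧸ (Ideal.span {π}).map (algebraMap R B))) [x.IsMaximal] :
    ∃ w : R ⧸ Ideal.span {π}, w ≠ 0 ∧ (Ideal.span {w}).IsMaximal ∧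
      algebraMap (R ⧸ Ideal.span {π}) (B ⧸ (Ideal.span {π}).map (algebraMap R B)) w ∈ x ∧
      maximalIdeal (Localization.AtPrime x) =
        Ideal.span {algebraMap _ (Localization.AtPrime x)
          (algebraMap (R ⧸ Ideal.span {π}) (B ⧸ (Ideal.span {π}).map (algebraMap R B)) w)} ∧
      ∃ _ : IsDomain (Localization.AtPrime x), IsDiscreteValuationRing (Localization.AtPrime x) := by
  classical
  have hfree := free_quotient' K L B hπ
  have hfinq := finite_quotient K L B π
  have hprime : (Ideal.span {π}).IsPrime := (Ideal.span_singleton_prime hπ.ne_zero).mpr hπ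
  have : IsDomain (R ⧸ Ideal.span {π}) := Ideal.Quotient.isDomain _
  let eb := Module.Free.chooseBasis (R ⧸ Ideal.span {π})
    (B ⧸ (Ideal.span {π}).map (algebraMap R B))
  obtain ⟨xv, δx, hxint, hδx, hnd⟩ := hV
  have hunit : IsUnit (Algebra.discr (R ⧸ Ideal.span {π}) eb) :=
    isUnit_discr_quotient_of_vert_hor (K := K) (L := L) hπ eb (Fintype.card_fin _) xv hxint hδx hnd
      (fun y hy => hH y fun z hz => by
        obtain ⟨b, rfl⟩ := (IsIntegralClosure.isIntegral_iff (A := B)).mp hz
        exact hy b)
  exact exists_isDiscreteValuationRing_localization_of_isMaximal hnf eb hunit x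

/-- **PURITY, discriminant form with the named conditions.**  Under (VERT) and (HOR) every basis
of the special fibre `B ⧸ π B` over `R ⧸ π` has unit discriminant. -/
theorem isUnit_discr_quotient {ι : Type*} [Fintype ι] [DecidableEq ι] (hπ : Prime π)
    (hV : VertCond R K L π) (hH : HorCond R K L π)
    (eb : Basis ι (R ⧸ Ideal.span {π}) (B ⧸ (Ideal.span {π}).map (algebraMap R B))) :
    IsUnit (Algebra.discr (R ⧸ Ideal.span {π}) eb) := by
  obtain ⟨xv, δx, hxint, hδx, hnd⟩ := hV
  exact isUnit_discr_quotient_of_vert_hor (K := K) (L := L) hπ eb (Fintype.card_fin _) xv hxint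
    hδx hnd (fun y hy => hH y fun z hz => by
      obtain ⟨b, rfl⟩ := (IsIntegralClosure.isIntegral_iff (A := B)).mp hz
      exact hy b)

variable (K L B) in
include K L in
/-- Under (VERT) and (HOR) the special fibre `B ⧸ π B` is reduced. -/
theorem isReduced_quotient (hπ : Prime π) [IsPrincipalIdealRing (R ⧸ Ideal.span {π})]
    (hV : VertCond R K L π) (hH : HorCond R K L π) :
    IsReduced (B ⧸ (Ideal.span {π}).map (algebraMap R B)) := by
  classical
  have hfree := free_quotient' K L B hπ
  have hfinq := finite_quotient K L B π
  have hprime : (Ideal.span {π}).IsPrime := (Ideal.span_singleton_prime hπ.ne_zero).mpr hπ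
  have : IsDomain (R ⧸ Ideal.span {π}) := Ideal.Quotient.isDomain _
  let eb := Module.Free.chooseBasis (R ⧸ Ideal.span {π})
    (B ⧸ (Ideal.span {π}).map (algebraMap R B))
  exact H9.isReduced_of_isUnit_discr eb (isUnit_discr_quotient (K := K) (L := L) hπ hV hH eb)

omit [IsDomain R] [IsNoetherianRing R] [IsIntegrallyClosed R] [IsFractionRing R K]
  [IsScalarTower R K L] [FiniteDimensional K L] [Algebra.IsSeparable K L] in
/-- (VERT) from a primitive element: `θ` integral over `R`, `n = [L : K]`, and the discriminant
of `1, θ, …, θ ^ (n - 1)` is an element of `R` prime to `π`. -/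
theorem vertCond_of_pow (θ : L) (hθ : IsIntegral R θ) {δ : R}
    (hδ : Algebra.discr K (fun i : Fin (Module.finrank K L) => θ ^ (i : ℕ)) = algebraMap R K δ)
    (hnd : ¬ π ∣ δ) : VertCond R K L π :=
  ⟨fun i => θ ^ (i : ℕ), δ, fun _ => hθ.pow _, hδ, hnd⟩

end Main

end Fermat.Agent.S18.H41
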