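/-
helper1 — S18 route Q: adapter from (VERT) (`H1_Vert`) to helper41's `H41.VertCond`
(the (VERT) hypothesis of `H41_PurityMain`).
-/
import Fermat.Agent.S18.H1_Vert
import Fermat.Agent.S18.H41_PurityMain

set_option linter.unusedSectionVars false

namespace Fermat.Agent.S18.H1

open Polynomial Module

variable {R K L : Type*} [CommRing R] [IsDomain R] [IsIntegrallyClosed R] [Field K] [Algebra R K]
  [IsFractionRing R K] [Field L] [Algebra K L] [Algebra R L] [IsScalarTower R K L]
  [FiniteDimensional K L] [Algebra.IsSeparable K L]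

/-- The discriminant of the power family `θ^i`, `i < [L:K]`, is `± ν` with `ν ∣ ρ(Φ)^[L:K]`. -/
theorem exists_discr_pow_family_eq (θ : L) (hgen : IntermediateField.adjoin K {θ} = ⊤)
    {Φ : R[X]} (hΦ : Φ.Monic) (hroot : aeval θ Φ = 0) :
    ∃ δ c : R, δ * c = rho Φ ^ finrank K L ∧
      Algebra.discr K (fun i : Fin (finrank K L) => θ ^ (i : ℕ)) = algebraMap R K δ := by
  set pb := pbOf θ hgen with hpb
  have hroot' : aeval pb.gen Φ = 0 := by rw [pbOf_gen]; exact hroot
  obtain ⟨ν, c, h1, h2⟩ := exists_discr_powerBasis_eq pb hΦ hroot'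
  have hdim : pb.dim = finrank K L := pb.finrank.symm
  have hfam : (fun i : Fin (finrank K L) => θ ^ (i : ℕ)) = pb.basis ∘ (finCongr hdim).symm := by
    ext i
    simp [PowerBasis.coe_basis, hpb]
  have hd : Algebra.discr K (fun i : Fin (finrank K L) => θ ^ (i : ℕ)) =
      Algebra.discr K pb.basis := by
    rw [hfam]
    exact Algebra.discr_reindex K pb.basis (finCongr hdim)
  rcases h2 with h | h
  · exact ⟨ν, c, h1, by rw [hd, h]⟩
  · refine ⟨-ν, -c, by rw [neg_mul_neg, h1], by rw [hd, h, map_neg]⟩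

/-- **(VERT) ⟹ `H41.VertCond`**: if `Φ mod π` is separable, the power family of `θ` has
discriminant in `R` prime to `π`. -/
theorem vertCond_of_separable (θ : L) (hgen : IntermediateField.adjoin K {θ} = ⊤)
    {Φ : R[X]} (hΦ : Φ.Monic) (hroot : aeval θ Φ = 0) {κ : Type*} [Field κ] (φ : R →+* κ)
    (hsep : (Φ.map φ).Separable) {π : R} (hπ : φ π = 0) : H41.VertCond R K L π := by
  obtain ⟨δ, c, h1, h2⟩ := exists_discr_pow_family_eq (K := K) θ hgen hΦ hroot
  refine H41.vertCond_of_pow θ (isIntegral_of_monic_root hΦ hroot) h2 ?_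
  rintro ⟨d, hd⟩
  have h0 : φ (rho Φ ^ finrank K L) = 0 := by
    rw [← h1, hd, map_mul, map_mul, hπ, zero_mul, zero_mul]
  rw [map_pow] at h0
  exact map_rho_ne_zero φ hΦ hsep
    (pow_eq_zero_iff (Module.finrank_pos (R := K) (M := L)).ne' |>.mp h0)

end Fermat.Agent.S18.H1
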