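/-
S18 project, route Q, package INST-5 / HOR bridge (helper96).

**From place data to the model-free unramifiedness hypothesis `hHOR` of PURITY-MAIN.**

Setting: `A₁` a DVR with uniformiser `ϖ`, `K0 = Frac A₁`, `F'` a function field over `K0`
(`μ : F'` transcendental, `[F' : K0(μ)] < ∞`), `R` an `A₁`-algebra mapping to `F'` which contains a
preimage `m` of `μ` and in which `D(μ)` is invertible (`R = A₁[μ, 1/D(μ)]`, the base line minus the
cusps).  Hypothesis `hunr`: every place `v` of `F' / K0` whose centre on `K0[μ]` is an irreducible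
`g₀ ∤ D` has `v.ord (g₀(μ)) = 1` (the cover is unramified over the open base line, characteristic
`0` side; this is what the Place-vocabulary Abhyankar lemma delivers).

Conclusion (`exists_uniformizer_of_places`): every valuation subring `V ≠ ⊤` of `F'` containing the
image of `R` and `ϖ⁻¹` has a uniformiser coming from `R`.
-/
import Mathlib
import Fermat.Prelude.Def_AlgebraicCurve_DivisorClassGroup
import Fermat.Agent.RR.H60_PlaceExist
import Fermat.Agent.RR.H76_Local

set_option autoImplicit false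
set_option linter.unusedSectionVars false
set_option linter.style.haveILetI false

open Polynomial AlgebraicCurve
open scoped IntermediateField

namespace Fermat.Agent.S18.H96

universe u v

section Constants

variable {A₁ : Type*} {K0 : Type u} {F' : Type v} [CommRing A₁] [IsDomain A₁]
  [IsDiscreteValuationRing A₁]
  [Field K0] [Algebra A₁ K0] [IsFractionRing A₁ K0]
  [Field F'] [Algebra K0 F'] [Algebra A₁ F'] [IsScalarTower A₁ K0 F']

/-- A valuation subring containing the DVR `A₁` and the inverse of its uniformiser contains the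
fraction field `K0`. -/
theorem algebraMap_mem_of_inv_mem (V : ValuationSubring F')
    (hA : ∀ a : A₁, algebraMap A₁ F' a ∈ V) {ϖ : A₁} (hϖ : Irreducible ϖ)
    (hϖV : (algebraMap A₁ F' ϖ)⁻¹ ∈ V) (c : K0) : algebraMap K0 F' c ∈ V := by
  obtain ⟨a, b, hb, rfl⟩ := IsFractionRing.div_surjective (A := A₁) c
  have hb0 : b ≠ 0 := nonZeroDivisors.ne_zero hb
  obtain ⟨n, hn⟩ := IsDiscreteValuationRing.associated_pow_irreducible hb0 hϖ
  obtain ⟨u, hu⟩ := hn.symm
  -- `ϖ ^ n * u = b`
  have hinj : Function.Injective (algebraMap A₁ F') := by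
    rw [IsScalarTower.algebraMap_eq A₁ K0 F']
    exact (algebraMap K0 F').injective.comp (IsFractionRing.injective A₁ K0)
  have hϖne : algebraMap A₁ F' ϖ ≠ 0 := fun h => hϖ.ne_zero (hinj (by rw [h, map_zero]))
  have hu' : algebraMap A₁ F' (u : A₁) * algebraMap A₁ F' ((u⁻¹ : A₁ˣ) : A₁) = 1 := by
    rw [← map_mul, Units.mul_inv, map_one]
  have hune : algebraMap A₁ F' (u : A₁) ≠ 0 := left_ne_zero_of_mul_eq_one hu'
  have hmap : algebraMap K0 F' (algebraMap A₁ K0 a / algebraMap A₁ K0 b) =
      algebraMap A₁ F' a * ((algebraMap A₁ F' ϖ)⁻¹ ^ n * algebraMap A₁ F' ((u⁻¹ : A₁ˣ) : A₁)) := by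
    rw [map_div₀, ← IsScalarTower.algebraMap_apply, ← IsScalarTower.algebraMap_apply, ← hu,
      map_mul, map_pow, eq_inv_of_mul_eq_one_right hu', inv_pow]
    field_simp
  rw [hmap]
  exact V.mul_mem _ _ (hA a) (V.mul_mem _ _ (pow_mem hϖV n) (hA _))

end Constants

section Center

variable {K0 : Type u} {F' : Type v} [Field K0] [Field F'] [Algebra K0 F'] (v : Place K0 F')

/-- for a nonzero element of the valuation ring of a place: positive order iff non-unit. -/
theorem pos_ord_iff_inv_notMem {x : F'} (hx : x ∈ v.toValuationSubring) (hx0 : x ≠ 0) :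
    0 < v.ord x ↔ x⁻¹ ∉ v.toValuationSubring := by
  have h1 : 0 ≤ v.ord x := by
    rcases (RR.H76.mem_valSubring_iff v).mp hx with h | h
    · exact absurd h hx0
    · exact h
  rw [RR.H76.mem_valSubring_iff v, v.ord_inv, not_or]
  constructor
  · intro h
    exact ⟨inv_ne_zero hx0, by omega⟩
  · rintro ⟨-, h⟩
    omega

theorem mem_maximalIdeal_iff_pos_ord (a : v.toValuationSubring) (ha : a ≠ 0) :
    a ∈ IsLocalRing.maximalIdeal v.toValuationSubring ↔ 0 < v.ord (a : F') := by
  have ha0 : (a : F') ≠ 0 := by simpa [ne_eq, ZeroMemClass.coe_eq_zero] using ha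
  rw [pos_ord_iff_inv_notMem v a.2 ha0, ← ValuationSubring.coe_mem_nonunits_iff,
    ValuationSubring.mem_nonunits_iff, ← ValuationSubring.valuation_le_one_iff, map_inv₀, not_le,
    one_lt_inv₀ ((Valuation.pos_iff _).mpr ha0)]

/-- **The centre of a place on the base line `K0[μ]`** is generated by an irreducible polynomial. -/
theorem exists_irreducible_center (μ : F') (hμ : Transcendental K0 μ)
    [FiniteDimensional K0⟮μ⟯ F'] (hμv : μ ∈ v.toValuationSubring) :
    ∃ g₀ : K0[X], Irreducible g₀ ∧ 0 < v.ord (aeval μ g₀) ∧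
      ∀ p : K0[X], p ≠ 0 → 0 < v.ord (aeval μ p) → g₀ ∣ p := by
  classical
  set O := v.toValuationSubring with hO
  let μO : O := ⟨μ, hμv⟩
  have hcoe : ∀ p : K0[X], ((aeval μO p : O) : F') = aeval μ p := by
    intro p
    have := Polynomial.aeval_algebraMap_apply (A := O) F' μO p
    simpa [μO] using this.symm
  have hne : ∀ p : K0[X], p ≠ 0 → aeval μ p ≠ 0 := fun p hp h =>
    hμ ⟨p, hp, h⟩
  have hneO : ∀ p : K0[X], p ≠ 0 → (aeval μO p : O) ≠ 0 := by
    intro p hp h
    apply hne p hp
    rw [← hcoe, h]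
    rfl
  let ev : K0[X] →+* IsLocalRing.ResidueField O :=
    (IsLocalRing.residue O).comp (aeval μO : K0[X] →ₐ[K0] O).toRingHom
  have hev : ∀ p : K0[X], p ≠ 0 → (ev p = 0 ↔ 0 < v.ord (aeval μ p)) := by
    intro p hp
    show IsLocalRing.residue O (aeval μO p) = 0 ↔ _
    rw [IsLocalRing.residue_eq_zero_iff, mem_maximalIdeal_iff_pos_ord v _ (hneO p hp), hcoe]
  set P : Ideal K0[X] := RingHom.ker ev with hP
  haveI : P.IsPrime := RingHom.ker_isPrime ev
  have hPbot : P ≠ ⊥ := by
    intro hbot
    -- every nonzero `p(μ)` is a unit of `O`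
    have hunit : ∀ p : K0[X], p ≠ 0 → (aeval μ p)⁻¹ ∈ O := by
      intro p hp
      by_contra hcon
      have : 0 < v.ord (aeval μ p) :=
        (pos_ord_iff_inv_notMem v (by rw [← hcoe]; exact (aeval μO p).2) (hne p hp)).mpr hcon
      have hpP : p ∈ P := (hev p hp).mpr this
      rw [hbot] at hpP
      exact hp hpP
    have hK' : ∀ a : K0⟮μ⟯, algebraMap K0⟮μ⟯ F' a ∈ O := by
      intro a
      obtain ⟨r, s, hrs⟩ := (IntermediateField.mem_adjoin_simple_iff K0 (a : F')).mp a.2
      rw [IntermediateField.algebraMap_apply, hrs, div_eq_mul_inv]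
      have hr : aeval μ r ∈ O := by rw [← hcoe]; exact (aeval μO r).2
      rcases eq_or_ne s 0 with rfl | hs
      · simp [O.zero_mem]
      · exact O.mul_mem _ _ hr (hunit s hs)
    apply v.ne_top'
    refine SetLike.ext fun z => ⟨fun _ => ValuationSubring.mem_top z, fun _ => ?_⟩
    exact RR.H60.mem_of_isAlgebraic O hK' (Algebra.IsAlgebraic.isAlgebraic (R := K0⟮μ⟯) z)
  have hprime : Prime (Submodule.IsPrincipal.generator P) :=
    Submodule.IsPrincipal.prime_generator_of_isPrime P hPbot
  refine ⟨Submodule.IsPrincipal.generator P, hprime.irreducible, ?_, ?_⟩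
  · rw [← hev _ hprime.ne_zero]
    exact Submodule.IsPrincipal.generator_mem P
  · intro p hp hpos
    have : p ∈ P := (hev p hp).mpr hpos
    exact (Submodule.IsPrincipal.mem_iff_generator_dvd P).mp this

end Center

section Main

variable {A₁ : Type*} {K0 : Type u} {F' : Type v} {R : Type*} [CommRing A₁] [IsDomain A₁]
  [IsDiscreteValuationRing A₁]
  [Field K0] [Algebra A₁ K0] [IsFractionRing A₁ K0]
  [Field F'] [Algebra K0 F'] [Algebra A₁ F'] [IsScalarTower A₁ K0 F']
  [CommRing R] [Algebra A₁ R] [Algebra R F'] [IsScalarTower A₁ R F']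

/-- **HOR bridge.**  If every place of `F' / K0` whose centre on the base line `K0[μ]` is an
irreducible `g₀ ∤ D` is unramified over the base line (`ord (g₀(μ)) = 1`), then every valuation
subring `V ≠ ⊤` of `F'` over the generic fibre of `R = A₁[μ, 1/D(μ)]` has a uniformiser coming from
`R`.  This is the hypothesis `hHOR` of PURITY-MAIN. -/
theorem exists_uniformizer_of_places {ϖ : A₁} (hϖ : Irreducible ϖ)
    (μ : F') (hμ : Transcendental K0 μ) [FiniteDimensional K0⟮μ⟯ F']
    (D : K0[X])
    (hunr : ∀ (v : Place K0 F') (g₀ : K0[X]), Irreducible g₀ → ¬ g₀ ∣ D →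
      0 < v.ord (aeval μ g₀) → v.ord (aeval μ g₀) = 1)
    (m : R) (hm : algebraMap R F' m = μ)
    (hD : ∃ w : R, algebraMap R F' w * aeval μ D = 1)
    (V : ValuationSubring F') (hV : V ≠ ⊤) (hRV : ∀ r : R, algebraMap R F' r ∈ V)
    (hϖV : (algebraMap R F' (algebraMap A₁ R ϖ))⁻¹ ∈ V) :
    ∃ g : R, V.valuation (algebraMap R F' g) < 1 ∧
      ∀ y : F', V.valuation y < 1 → V.valuation y ≤ V.valuation (algebraMap R F' g) := by
  classical
  have hA : ∀ a : A₁, algebraMap A₁ F' a ∈ V := fun a => by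
    rw [IsScalarTower.algebraMap_apply A₁ R F']
    exact hRV _
  have hϖV' : (algebraMap A₁ F' ϖ)⁻¹ ∈ V := by
    rw [IsScalarTower.algebraMap_apply A₁ R F']
    exact hϖV
  have hK : ∀ c : K0, algebraMap K0 F' c ∈ V := algebraMap_mem_of_inv_mem V hA hϖ hϖV'
  let v : Place K0 F' := RR.H60.placeOfValuationSubring μ hμ V hK hV
  have hvV : v.toValuationSubring = V := rfl
  have hμV : μ ∈ v.toValuationSubring := by rw [hvV, ← hm]; exact hRV m
  obtain ⟨g₀, hirr, hpos, -⟩ := exists_irreducible_center v μ hμ hμV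
  -- `g₀ ∤ D`
  have hgD : ¬ g₀ ∣ D := by
    rintro ⟨q, rfl⟩
    obtain ⟨w, hw⟩ := hD
    have hqV : aeval μ q ∈ v.toValuationSubring := RR.H60.aeval_mem _ hK hμV q
    have hwV : algebraMap R F' w ∈ v.toValuationSubring := hRV w
    have hinv : (aeval μ g₀)⁻¹ ∈ v.toValuationSubring := by
      have h0 : aeval μ g₀ ≠ 0 := fun h => hμ ⟨g₀, hirr.ne_zero, h⟩
      have : (aeval μ g₀)⁻¹ = algebraMap R F' w * aeval μ q := by
        rw [map_mul] at hw
        exact (eq_inv_of_mul_eq_one_left (by rw [← hw]; ring)).symm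
      rw [this]
      exact (v.toValuationSubring).mul_mem _ _ hwV hqV
    have h0 : aeval μ g₀ ≠ 0 := fun h => hμ ⟨g₀, hirr.ne_zero, h⟩
    exact (pos_ord_iff_inv_notMem v (RR.H60.aeval_mem _ hK hμV g₀) h0).mp hpos hinv
  have hone : v.ord (aeval μ g₀) = 1 := hunr v g₀ hirr hgD hpos
  -- clear denominators
  obtain ⟨b, hb, hbspec⟩ := IsLocalization.integerNormalization_spec
    (nonZeroDivisors A₁) g₀
  set G : A₁[X] := IsLocalization.integerNormalization (nonZeroDivisors A₁) g₀ with hG
  have hb0 : b ≠ 0 := nonZeroDivisors.ne_zero hb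
  have hbK : algebraMap A₁ K0 b ≠ 0 := by
    intro h
    exact hb0 (IsFractionRing.injective A₁ K0 (by rw [h, map_zero]))
  refine ⟨aeval m G, ?_⟩
  have hval : algebraMap R F' (aeval m G) = algebraMap K0 F' (algebraMap A₁ K0 b) * aeval μ g₀ := by
    rw [← Polynomial.aeval_algebraMap_apply, hm]
    have h1 : aeval μ G = aeval μ (G.map (algebraMap A₁ K0)) := by
      rw [Polynomial.aeval_map_algebraMap]
    rw [h1, hbspec, Algebra.smul_def, map_mul]
    simp
  have hg0 : aeval μ g₀ ≠ 0 := fun h => hμ ⟨g₀, hirr.ne_zero, h⟩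
  have hc0 : algebraMap K0 F' (algebraMap A₁ K0 b) ≠ 0 := by
    intro h
    exact hbK ((algebraMap K0 F').injective (by rw [h, map_zero]))
  have hcord : v.ord (algebraMap K0 F' (algebraMap A₁ K0 b)) = 0 := by
    have h1 : algebraMap K0 F' (algebraMap A₁ K0 b) ∈ v.toValuationSubring := hK _
    have h2 : (algebraMap K0 F' (algebraMap A₁ K0 b))⁻¹ ∈ v.toValuationSubring := by
      rw [← map_inv₀]
      exact hK _
    have h3 : 0 ≤ v.ord (algebraMap K0 F' (algebraMap A₁ K0 b)) := by
      rcases (RR.H76.mem_valSubring_iff v).mp h1 with h | h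
      · exact absurd h hc0
      · exact h
    have h4 : ¬ 0 < v.ord (algebraMap K0 F' (algebraMap A₁ K0 b)) := fun h =>
      (pos_ord_iff_inv_notMem v h1 hc0).mp h h2
    omega
  have hgord : v.ord (algebraMap R F' (aeval m G)) = 1 := by
    rw [hval, v.ord_mul hc0 hg0, hcord, hone, zero_add]
  have hgne : algebraMap R F' (aeval m G) ≠ 0 := by
    rw [hval]
    exact mul_ne_zero hc0 hg0
  have hgV : algebraMap R F' (aeval m G) ∈ V := hRV _
  constructor
  · -- `g` is a non-unit
    rw [← ValuationSubring.mem_nonunits_iff]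
    have : (algebraMap R F' (aeval m G))⁻¹ ∉ v.toValuationSubring :=
      (pos_ord_iff_inv_notMem v hgV hgne).mp (by rw [hgord]; norm_num)
    rw [hvV] at this
    rw [ValuationSubring.mem_nonunits_iff]
    by_contra hcon
    rw [not_lt] at hcon
    apply this
    rw [← ValuationSubring.valuation_le_one_iff, map_inv₀]
    exact inv_le_one_of_one_le₀ hcon
  · intro y hy
    rcases eq_or_ne y 0 with rfl | hy0
    · simp
    have hyV : y ∈ V := by
      rw [← ValuationSubring.valuation_le_one_iff]
      exact hy.le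
    have hyinv : y⁻¹ ∉ v.toValuationSubring := by
      rw [hvV, ← ValuationSubring.valuation_le_one_iff, map_inv₀, not_le]
      exact one_lt_inv₀ ((Valuation.pos_iff _).mpr hy0) |>.mpr hy
    have hyord : 0 < v.ord y := (pos_ord_iff_inv_notMem v hyV hy0).mpr hyinv
    -- `y / g ∈ V`
    have hq : y * (algebraMap R F' (aeval m G))⁻¹ ∈ v.toValuationSubring := by
      rw [RR.H76.mem_valSubring_iff v]
      right
      rw [v.ord_mul hy0 (inv_ne_zero hgne), v.ord_inv, hgord]
      omega
    rw [hvV, ← ValuationSubring.valuation_le_one_iff, map_mul, map_inv₀] at hq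
    have hgpos : 0 < V.valuation (algebraMap R F' (aeval m G)) := (Valuation.pos_iff _).mpr hgne
    rwa [mul_inv_le_iff₀ hgpos, one_mul] at hq

end Main

end Fermat.Agent.S18.H96
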