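import Mathlib

/-!
# Quotient of a regular pair by a finite group is regular (Lemma Q')

`B` a domain with a finite group `G` acting, `A = B^G` (`IsGaloisGroup G A B`), `B` finite over `A`,
`M` a maximal ideal of `A`, `π ∈ M`.  If ONE prime `x₁` of `B` over `M` has residue field `A/M`
and is locally generated by `π` and one more element, then `M` is locally generated by `π` and
one more element `t` (the norm of a suitable local parameter).  No hypothesis on `|G|`.
-/

open scoped Pointwise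

namespace Fermat.Agent.S18.H67

section Prelim

variable {A B : Type*} [CommRing A] [CommRing B] [Algebra A B]

/-- Lying over, in the form: an ideal of `B` contained in no prime over `M` meets `A \ M`. -/
theorem exists_notMem_algebraMap_mem [Algebra.IsIntegral A B] (M : Ideal A) [M.IsPrime]
    (𝔞 : Ideal B)
    (h : ∀ y : Ideal B, y.IsPrime → y.comap (algebraMap A B) = M → ¬ 𝔞 ≤ y) :
    ∃ u : A, u ∉ M ∧ algebraMap A B u ∈ 𝔞 := by
  by_contra hcon
  push Not at hcon
  have hle : 𝔞.comap (algebraMap A B) ≤ M := fun u hu => by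
    by_contra huM
    exact hcon u huM hu
  obtain ⟨Q, hQ, hQp, hQM⟩ := Ideal.exists_ideal_over_prime_of_isIntegral M 𝔞 hle
  exact h Q hQp hQM hQ

/-- Nakayama in the `sup` form. -/
theorem exists_sub_one_mem_and_smul_mem {R : Type*} [CommRing R] {N : Type*} [AddCommGroup N]
    [Module R N] (I : Ideal R) (L N' : Submodule R N) (hfg : N'.FG) (hle : N' ≤ L ⊔ I • N') :
    ∃ r : R, r - 1 ∈ I ∧ ∀ n ∈ N', r • n ∈ L := by
  have hfg' : (N'.map L.mkQ).FG := hfg.map _
  have hle' : N'.map L.mkQ ≤ I • N'.map L.mkQ := by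
    rw [← Submodule.map_smul'']
    intro q hq
    obtain ⟨n, hn, rfl⟩ := hq
    obtain ⟨l, hl, m, hm, rfl⟩ := Submodule.mem_sup.mp (hle hn)
    refine ⟨m, hm, ?_⟩
    simp [(Submodule.Quotient.mk_eq_zero L).mpr hl]
  obtain ⟨r, hr, hr0⟩ :=
    Submodule.exists_sub_one_mem_and_smul_eq_zero_of_fg_of_le_smul I _ hfg' hle'
  refine ⟨r, hr, fun n hn => ?_⟩
  have := hr0 (L.mkQ n) ⟨n, hn, rfl⟩
  rw [← map_smul, Submodule.mkQ_apply, Submodule.Quotient.mk_eq_zero] at this
  exact this

end Prelim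

section Chain

variable {A B : Type*} [CommRing A] [CommRing B] [Algebra A B]

/-- Partial products of a sequence. -/
def partialProd (σ : ℕ → B) (j : ℕ) : B := ∏ l ∈ Finset.range j, σ l

theorem partialProd_zero (σ : ℕ → B) : partialProd σ 0 = 1 := by simp [partialProd]

theorem partialProd_succ (σ : ℕ → B) (j : ℕ) : partialProd σ (j + 1) = partialProd σ j * σ j := by
  simp [partialProd, Finset.prod_range_succ]

theorem partialProd_dvd (σ : ℕ → B) {i j : ℕ} (hij : i ≤ j) :
    ∃ q : B, partialProd σ j = partialProd σ i * q :=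
  ⟨∏ l ∈ Finset.Ico i j, σ l, (Finset.prod_range_mul_prod_Ico σ hij).symm⟩

theorem mul_mem_smul_range_of_mem_map (M : Ideal A) (p : B) {m : B}
    (hm : m ∈ M.map (algebraMap A B)) (q : B) :
    p * q * m ∈ M • LinearMap.range (LinearMap.mulLeft A p) := by
  induction hm using Submodule.span_induction generalizing q with
  | mem x hx =>
    obtain ⟨μ, hμ, rfl⟩ := hx
    have : p * q * algebraMap A B μ = μ • (p * q) := by
      rw [Algebra.smul_def]; ring
    rw [this]
    exact Submodule.smul_mem_smul hμ ⟨q, rfl⟩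
  | zero => simp
  | add x y _ _ hx hy =>
    rw [mul_add]
    exact add_mem (hx q) (hy q)
  | smul b x _ hx =>
    have : p * q * (b • x) = p * (q * b) * x := by
      rw [smul_eq_mul]; ring
    rw [this]
    exact hx (q * b)

/-- The chain lemma. -/
theorem chain (M : Ideal A) (σ : ℕ → B)
    (hσ : ∀ i, ∀ b : B, ∃ a : A,
      b - algebraMap A B a ∈ M.map (algebraMap A B) ⊔ Ideal.span {σ i})
    (i j : ℕ) (hij : i ≤ j) :
    LinearMap.range (LinearMap.mulLeft A (partialProd σ i)) ≤
      Submodule.span A ((partialProd σ) '' Set.Ico i j) ⊔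
        LinearMap.range (LinearMap.mulLeft A (partialProd σ j)) ⊔
        M • LinearMap.range (LinearMap.mulLeft A (partialProd σ i)) := by
  induction j, hij using Nat.le_induction with
  | base =>
    intro z hz
    exact Submodule.mem_sup_left (Submodule.mem_sup_right hz)
  | succ j hij ih =>
    intro z hz
    obtain ⟨z₁, hz₁, m, hm, rfl⟩ := Submodule.mem_sup.mp (ih hz)
    obtain ⟨l, hl, z₂, hz₂, rfl⟩ := Submodule.mem_sup.mp hz₁
    obtain ⟨r', rfl⟩ := hz₂
    obtain ⟨a, ha⟩ := hσ j r'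
    obtain ⟨m', hm', z', hz', hsum⟩ := Submodule.mem_sup.mp ha
    obtain ⟨c, rfl⟩ := Ideal.mem_span_singleton'.mp hz'
    obtain ⟨q, hq⟩ := partialProd_dvd σ hij
    have hr' : r' = algebraMap A B a + m' + c * σ j := by
      rw [add_assoc, hsum]; ring
    have key : l + (LinearMap.mulLeft A (partialProd σ j)) r' + m =
        (l + a • partialProd σ j) + partialProd σ (j + 1) * c +
          (m + partialProd σ i * q * m') := by
      rw [LinearMap.mulLeft_apply, partialProd_succ, hr', hq, Algebra.smul_def]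
      ring
    rw [key]
    refine Submodule.add_mem _ (Submodule.mem_sup_left (Submodule.add_mem _
      (Submodule.mem_sup_left (Submodule.add_mem _ ?_ ?_)) (Submodule.mem_sup_right ⟨c, rfl⟩)))
      (Submodule.mem_sup_right (Submodule.add_mem _ hm
        (mul_mem_smul_range_of_mem_map M _ hm' q)))
    · exact Submodule.span_mono (Set.image_mono (Set.Ico_subset_Ico_right (Nat.le_succ j))) hl
    · exact Submodule.smul_mem _ _ (Submodule.subset_span
        ⟨j, ⟨hij, Nat.lt_succ_self j⟩, rfl⟩)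

end Chain

section Local

variable {A B : Type*} [CommRing A] [CommRing B] [Algebra A B]

/-- From "locally at `x₁`" to "locally at `M`", for an ideal `I` containing an element `s`
that lies in no other prime over `M`. -/
theorem exists_notMem_algebraMap_mul_mem [Algebra.IsIntegral A B] (M : Ideal A) [M.IsPrime]
    (x₁ : Ideal B) (s : B)
    (hs : ∀ y : Ideal B, y.IsPrime → y.comap (algebraMap A B) = M → y ≠ x₁ → s ∉ y)
    (I : Ideal B) (hsI : s ∈ I) (c : B) (hc : ∃ v, v ∉ x₁ ∧ v * c ∈ I) :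
    ∃ u : A, u ∉ M ∧ algebraMap A B u * c ∈ I := by
  obtain ⟨v, hv, hvc⟩ := hc
  let 𝔞 : Ideal B := Submodule.comap (LinearMap.mulRight B c) I
  have hmem : ∀ r, r ∈ 𝔞 ↔ r * c ∈ I := fun r => by
    simp [𝔞, Submodule.mem_comap]
  obtain ⟨u, hu, huc⟩ := exists_notMem_algebraMap_mem M 𝔞 (fun y hy hyM hle => by
    by_cases hyx : y = x₁
    · subst hyx; exact hv (hle ((hmem v).mpr hvc))
    · exact hs y hy hyM hyx (hle ((hmem s).mpr (I.mul_mem_right c hsI))))
  exact ⟨u, hu, (hmem _).mp huc⟩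

end Local

section Main

variable {A B : Type*} [CommRing A] [CommRing B] [IsDomain B] [Algebra A B] [FaithfulSMul A B]
  [Module.Finite A B]
  {G : Type*} [Group G] [Finite G] [MulSemiringAction G B] [IsGaloisGroup G A B]

omit [IsDomain B] [FaithfulSMul A B] [Module.Finite A B] [Finite G] in
theorem smul_mem_map (M : Ideal A) (g : G) {m : B} (hm : m ∈ M.map (algebraMap A B)) :
    g • m ∈ M.map (algebraMap A B) := by
  have h1 : (MulSemiringAction.toRingHom G B g).comp (algebraMap A B) = algebraMap A B := by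
    ext a
    simp [smul_algebraMap]
  have := Ideal.mem_map_of_mem (MulSemiringAction.toRingHom G B g) hm
  rwa [Ideal.map_map, h1] at this

variable (G) in
include G in
omit [IsDomain B] [FaithfulSMul A B] in
/-- Modify a local parameter `s₁` at `x₁` so that it avoids all the other primes over `M`. -/
theorem exists_good_parameter (M : Ideal A) [hM : M.IsMaximal] (π : A) (hπ : π ∈ M)
    (x₁ : Ideal B) [hx₁p : x₁.IsPrime] (hx₁ : x₁.comap (algebraMap A B) = M)
    (s₁ : B) (hs₁ : s₁ ∈ x₁)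
    (hreg : ∀ c ∈ x₁, ∃ u, u ∉ x₁ ∧ u * c ∈ Ideal.span {algebraMap A B π, s₁}) :
    ∃ s ∈ x₁, (∀ y : Ideal B, y.IsPrime → y.comap (algebraMap A B) = M → y ≠ x₁ → s ∉ y) ∧
      ∀ c ∈ x₁, ∃ u, u ∉ x₁ ∧ u * c ∈ Ideal.span {algebraMap A B π, s} := by
  classical
  have hcomm : SMulCommClass G A B := IsGaloisGroup.commutes
  have hinv : Algebra.IsInvariant A B G := IsGaloisGroup.isInvariant
  let Y : Set (Ideal B) := {y | y.IsPrime ∧ y.comap (algebraMap A B) = M}
  have hYfin : Y.Finite := by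
    refine (Set.finite_range (fun g : G => g • x₁)).subset ?_
    rintro y ⟨hy, hyM⟩
    obtain ⟨g, hg⟩ := Algebra.IsInvariant.exists_smul_of_under_eq A B G x₁ y (by
      rw [Ideal.under_def, Ideal.under_def, hx₁, hyM])
    exact ⟨g, hg.symm⟩
  have : Finite Y := hYfin.to_subtype
  have hmax : ∀ y : Y, (y : Ideal B).IsMaximal := fun y => by
    have := y.2.1
    exact Ideal.isMaximal_of_isIntegral_of_isMaximal_comap (R := A) _ (by rw [y.2.2]; exact hM)
  have hcop : Pairwise (Function.onFun IsCoprime (fun y : Y => (y : Ideal B))) := by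
    intro y y' hne
    exact Ideal.isCoprime_iff_sup_eq.mpr (Ideal.IsMaximal.coprime_of_ne (hmax y) (hmax y')
      (fun h => hne (Subtype.ext h)))
  obtain ⟨w, hw⟩ := Ideal.exists_forall_sub_mem_ideal hcop
    (fun y : Y => if (y : Ideal B) = x₁ then (1 : B) else 0)
  have hw1 : w - 1 ∈ x₁ := by
    have := hw ⟨x₁, hx₁p, hx₁⟩
    simpa using this
  have hwy : ∀ y : Ideal B, y.IsPrime → y.comap (algebraMap A B) = M → y ≠ x₁ → w ∈ y := by
    intro y hy hyM hne
    have := hw ⟨y, hy, hyM⟩
    simpa [hne] using this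
  have hw1' : 1 - w ∈ x₁ := by
    have := x₁.neg_mem hw1
    rwa [neg_sub] at this
  have hwx : w ∉ x₁ := fun h => by
    have : (1 : B) ∈ x₁ := by
      have := x₁.sub_mem h hw1
      rwa [sub_sub_cancel] at this
    exact hx₁p.ne_top (x₁.eq_top_iff_one.mpr this)
  have hπx : algebraMap A B π ∈ x₁ := by
    rw [← Ideal.mem_comap, hx₁]; exact hπ
  refine ⟨s₁ * w + (1 - w) ^ 2, ?_, ?_, ?_⟩
  · exact x₁.add_mem (x₁.mul_mem_right _ hs₁) (x₁.pow_mem_of_mem hw1' 2 (by norm_num))
  · intro y hy hyM hne hsy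
    have h1 : s₁ * w + (1 - w) ^ 2 - 1 = w * (s₁ + w - 2) := by ring
    have h2 : s₁ * w + (1 - w) ^ 2 - 1 ∈ y := by
      rw [h1]; exact y.mul_mem_right _ (hwy y hy hyM hne)
    have : (1 : B) ∈ y := by
      have := y.sub_mem hsy h2
      rwa [sub_sub_cancel] at this
    exact hy.ne_top (y.eq_top_iff_one.mpr this)
  · obtain ⟨u, hu, hu'⟩ := hreg (1 - w) hw1'
    obtain ⟨α, β, hαβ⟩ := Ideal.mem_span_pair.mp hu'
    set p := algebraMap A B π with hp
    set w' := u ^ 2 * w + 2 * α * β * p + β ^ 2 * s₁ with hw'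
    have hkey : s₁ * w' = u ^ 2 * (s₁ * w + (1 - w) ^ 2) - p * (α ^ 2 * p) := by
      have : u ^ 2 * (1 - w) ^ 2 = (α * p + β * s₁) ^ 2 := by
        rw [hαβ]; ring
      rw [hw', mul_add (u ^ 2), this]
      ring
    have hw'x : w' ∉ x₁ := fun h => by
      have h1 : 2 * α * β * p + β ^ 2 * s₁ ∈ x₁ :=
        x₁.add_mem (x₁.mul_mem_left _ hπx) (x₁.mul_mem_left _ hs₁)
      have h2 : u ^ 2 * w ∈ x₁ := by
        have := x₁.sub_mem h h1
        rwa [hw', add_assoc, add_sub_cancel_right] at this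
      rcases hx₁p.mem_or_mem h2 with h3 | h3
      · exact hu (hx₁p.mem_of_pow_mem 2 h3)
      · exact hwx h3
    intro c hc
    obtain ⟨uc, huc, huc'⟩ := hreg c hc
    obtain ⟨a, b, hab⟩ := Ideal.mem_span_pair.mp huc'
    refine ⟨w' * uc, fun h => ?_, ?_⟩
    · rcases hx₁p.mem_or_mem h with h3 | h3
      · exact hw'x h3
      · exact huc h3
    · refine Ideal.mem_span_pair.mpr ⟨a * w' - b * α ^ 2 * p, b * u ^ 2, ?_⟩
      have : w' * uc * c = a * w' * p + b * (s₁ * w') := by
        rw [mul_assoc, ← hab]; ring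
      rw [this, hkey]
      ring

variable (G) in
include G in
omit [IsDomain B] [FaithfulSMul A B] [Module.Finite A B] [Finite G] in
/-- `A → B ⧸ (M B + (g • s) B)` is onto. -/
theorem simple_of_good [Algebra.IsIntegral A B] (M : Ideal A) [hM : M.IsMaximal] (π : A)
    (hπ : π ∈ M)
    (x₁ : Ideal B) (hres : ∀ b : B, ∃ a : A, b - algebraMap A B a ∈ x₁)
    (s : B)
    (hs : ∀ y : Ideal B, y.IsPrime → y.comap (algebraMap A B) = M → y ≠ x₁ → s ∉ y)
    (hreg : ∀ c ∈ x₁, ∃ u, u ∉ x₁ ∧ u * c ∈ Ideal.span {algebraMap A B π, s})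
    (g : G) (b : B) :
    ∃ a : A, b - algebraMap A B a ∈ M.map (algebraMap A B) ⊔ Ideal.span {g • s} := by
  have hcomm : SMulCommClass G A B := IsGaloisGroup.commutes
  obtain ⟨a, ha⟩ := hres (g⁻¹ • b)
  set c := g⁻¹ • b - algebraMap A B a with hc
  have hI : Ideal.span {algebraMap A B π, s} ≤ M.map (algebraMap A B) ⊔ Ideal.span {s} := by
    rw [Ideal.span_le]
    intro z hz
    rcases hz with rfl | hz
    · exact Ideal.mem_sup_left (Ideal.mem_map_of_mem _ hπ)
    · rw [Set.mem_singleton_iff] at hz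
      subst hz
      exact Ideal.mem_sup_right (Ideal.mem_span_singleton_self z)
  obtain ⟨v, hv, hvc⟩ := hreg c ha
  obtain ⟨u, hu, huc⟩ := exists_notMem_algebraMap_mul_mem M x₁ s hs _
    (Ideal.mem_sup_right (Ideal.mem_span_singleton_self s)) c ⟨v, hv, hI hvc⟩
  obtain ⟨u', i, hi, hui⟩ := hM.exists_inv hu
  have hcI : c ∈ M.map (algebraMap A B) ⊔ Ideal.span {s} := by
    have : c = algebraMap A B u' * (algebraMap A B u * c) + algebraMap A B i * c := by
      rw [← mul_assoc, ← map_mul, ← add_mul, ← map_add, hui, map_one, one_mul]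
    rw [this]
    exact Ideal.add_mem _ (Ideal.mul_mem_left _ _ huc)
      (Ideal.mem_sup_left (Ideal.mul_mem_right _ _ (Ideal.mem_map_of_mem _ hi)))
  refine ⟨a, ?_⟩
  obtain ⟨m, hm, z, hz, hmz⟩ := Submodule.mem_sup.mp hcI
  obtain ⟨r, rfl⟩ := Ideal.mem_span_singleton'.mp hz
  have : b - algebraMap A B a = g • m + (g • r) * (g • s) := by
    have h1 : g • c = b - algebraMap A B a := by
      rw [hc, smul_sub, smul_inv_smul, smul_algebraMap]
    rw [← h1, ← hmz, smul_add, smul_mul']
  rw [this]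
  exact Ideal.add_mem _ (Ideal.mem_sup_left (smul_mem_map M g hm))
    (Ideal.mem_sup_right (Ideal.mem_span_singleton'.mpr ⟨g • r, rfl⟩))

variable (G) in
include G in
/-- **Lemma Q'**: the quotient of a regular pair by a finite group is regular.
If ONE prime `x₁` of `B` over the maximal ideal `M` of `A = B^G` has residue field `A ⧸ M` and is
locally generated by `π` and one more element, then `M` is locally generated by `π` and one more
element. -/
theorem exists_regular_parameter (M : Ideal A) [hM : M.IsMaximal] (π : A) (hπ : π ∈ M)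
    (x₁ : Ideal B) [hx₁p : x₁.IsPrime] (hx₁ : x₁.comap (algebraMap A B) = M)
    (hres : ∀ b : B, ∃ a : A, b - algebraMap A B a ∈ x₁)
    (s₁ : B) (hs₁ : s₁ ∈ x₁)
    (hreg : ∀ c ∈ x₁, ∃ u, u ∉ x₁ ∧ u * c ∈ Ideal.span {algebraMap A B π, s₁}) :
    ∃ t ∈ M, ∀ a ∈ M, ∃ u, u ∉ M ∧ u * a ∈ Ideal.span {π, t} := by
  classical
  cases nonempty_fintype G
  obtain ⟨s, hsx, hs, hsreg⟩ := exists_good_parameter G M π hπ x₁ hx₁ s₁ hs₁ hreg
  have hcomm : SMulCommClass G A B := IsGaloisGroup.commutes
  have hinv : Algebra.IsInvariant A B G := IsGaloisGroup.isInvariant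
  have : Nontrivial A :=
    ⟨⟨0, 1, fun h => hM.ne_top (M.eq_top_iff_one.mpr (h ▸ M.zero_mem))⟩⟩
  have hφinj : Function.Injective (algebraMap A B) := FaithfulSMul.algebraMap_injective A B
  -- enumeration of `G` with `e 0 = 1`
  set N := Nat.card G with hN
  have hNpos : 0 < N := Nat.card_pos
  let e₀ : Fin N ≃ G := (Finite.equivFin G).symm
  let e : Fin N ≃ G := (Equiv.swap ⟨0, hNpos⟩ (e₀.symm 1)).trans e₀
  have he0 : e ⟨0, hNpos⟩ = 1 := by simp [e]
  let σ : ℕ → B := fun i => if h : i < N then e ⟨i, h⟩ • s else 1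
  have hσ0 : σ 0 = s := by
    show (if h : 0 < N then e ⟨0, h⟩ • s else 1) = s
    rw [dif_pos hNpos, he0, one_smul]
  have hσ : ∀ i b, ∃ a : A,
      b - algebraMap A B a ∈ M.map (algebraMap A B) ⊔ Ideal.span {σ i} := by
    intro i b
    by_cases h : i < N
    · simp only [σ, h, dite_true]
      exact simple_of_good G M π hπ x₁ hres s hs hsreg _ b
    · refine ⟨0, ?_⟩
      simp only [σ, h, dite_false]
      rw [Ideal.span_singleton_one]
      simp
  set P := partialProd σ with hP
  have hP0 : P 0 = 1 := partialProd_zero σ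
  have hP1 : P 1 = s := by rw [hP, partialProd_succ, partialProd_zero, one_mul, hσ0]
  -- the norm `t`
  have hPN : P N = ∏ g : G, g • s := by
    rw [hP, partialProd, Finset.prod_range (fun i => σ i), ← Equiv.prod_comp e]
    refine Finset.prod_congr rfl (fun i _ => ?_)
    simp [σ, i.2]
  obtain ⟨t₀, ht₀⟩ := hinv.isInvariant (∏ g : G, g • s) (Finset.smul_prod_perm s)
  have ht₀M : t₀ ∈ M := by
    rw [← hx₁, Ideal.mem_comap, ht₀]
    have hdvd : (1 : G) • s ∣ ∏ g : G, g • s := Finset.dvd_prod_of_mem _ (Finset.mem_univ 1)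
    rw [one_smul] at hdvd
    exact Ideal.mem_of_dvd _ hdvd hsx
  refine ⟨t₀, ht₀M, ?_⟩
  -- spanning modulo `M`, then Nakayama
  let v : Fin N → B := fun j => P j
  set L : Submodule A B := Submodule.span A (Set.range v) with hL
  have himg : ∀ i, P '' Set.Ico i N ⊆ Set.range v := by
    rintro i _ ⟨j, hj, rfl⟩
    exact ⟨⟨j, hj.2⟩, rfl⟩
  have hPNM : LinearMap.range (LinearMap.mulLeft A (P N)) ≤ M • (⊤ : Submodule A B) := by
    rintro _ ⟨r, rfl⟩
    have : (LinearMap.mulLeft A (P N)) r = t₀ • r := by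
      rw [LinearMap.mulLeft_apply, hPN, ← ht₀, Algebra.smul_def]
    rw [this]
    exact Submodule.smul_mem_smul ht₀M Submodule.mem_top
  have htop : (⊤ : Submodule A B) ≤ L ⊔ M • (⊤ : Submodule A B) := by
    have h0 := chain M σ hσ 0 N (Nat.zero_le N)
    have hr : LinearMap.range (LinearMap.mulLeft A (partialProd σ 0)) = ⊤ := by
      rw [partialProd_zero]
      exact LinearMap.range_eq_top.mpr (fun b => ⟨b, by simp⟩)
    rw [hr] at h0
    refine h0.trans (sup_le (sup_le ?_ ?_) le_sup_right)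
    · exact (Submodule.span_mono (himg 0)).trans le_sup_left
    · exact hPNM.trans le_sup_right
  obtain ⟨u₀, hu₀1, hu₀⟩ := exists_sub_one_mem_and_smul_mem M L ⊤
    (Module.Finite.fg_top) htop
  have hu₀M : u₀ ∉ M := fun h => by
    have : (1 : A) ∈ M := by
      have := M.sub_mem h hu₀1
      rwa [sub_sub_cancel] at this
    exact hM.ne_top (M.eq_top_iff_one.mpr this)
  have hu₀ne : u₀ ≠ 0 := fun h => hu₀M (h ▸ M.zero_mem)
  -- linear independence of the partial products
  have hfinL : Module.Finite A L := Module.Finite.span_of_finite A (Set.finite_range v)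
  have hli : LinearIndependent A v := by
    rw [linearIndependent_iff_card_le_finrank_span, Fintype.card_fin]
    let f : B →ₗ[A] L := (LinearMap.lsmul A B u₀).codRestrict L
      (fun b => hu₀ b Submodule.mem_top)
    have hf : Function.Injective f := by
      intro b b' hbb'
      have h1 : u₀ • b = u₀ • b' := congrArg Subtype.val hbb'
      rw [Algebra.smul_def, Algebra.smul_def] at h1
      exact mul_left_cancel₀ (fun h0 => hu₀ne (hφinj (by rw [h0, map_zero]))) h1
    have h1 := LinearMap.finrank_le_finrank_of_injective hf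
    rw [← IsGaloisGroup.card_eq_finrank' G A B] at h1
    exact h1
  let bL : Module.Basis (Fin N) A L := Module.Basis.span hli
  let coord₀ : L →ₗ[A] A := bL.coord ⟨0, hNpos⟩
  have hbL : ∀ (j : ℕ) (hj : j < N) (h : P j ∈ L), (⟨P j, h⟩ : L) = bL ⟨j, hj⟩ := by
    intro j hj h
    ext
    show P j = ((Module.Basis.span hli ⟨j, hj⟩ : L) : B)
    rw [Module.Basis.coe_span_apply]
  have hcoord : ∀ l, l ∈ Submodule.span A (P '' Set.Ico 1 N) → ∀ hl : l ∈ L,
      coord₀ ⟨l, hl⟩ = 0 := by
    intro l hl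
    induction hl using Submodule.span_induction with
    | mem x hx =>
      obtain ⟨j, ⟨hj1, hjN⟩, rfl⟩ := hx
      intro h
      rw [hbL j hjN h]
      simp only [coord₀, Module.Basis.coord_apply, Module.Basis.repr_self]
      rw [Finsupp.single_apply, if_neg]
      intro hh
      have := congrArg Fin.val hh
      simp at this
      omega
    | zero =>
      intro h
      exact map_zero coord₀
    | add x y hx hy ihx ihy =>
      intro h
      have hxL : x ∈ L := Submodule.span_mono (himg 1) hx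
      have hyL : y ∈ L := Submodule.span_mono (himg 1) hy
      have : (⟨x + y, h⟩ : L) = ⟨x, hxL⟩ + ⟨y, hyL⟩ := rfl
      rw [this, map_add, ihx hxL, ihy hyL, add_zero]
    | smul a x hx ihx =>
      intro h
      have hxL : x ∈ L := Submodule.span_mono (himg 1) hx
      have : (⟨a • x, h⟩ : L) = a • ⟨x, hxL⟩ := rfl
      rw [this, map_smul, ihx hxL, smul_zero]
  -- second Nakayama: `P 1 * B` modulo the tail
  set L' : Submodule A B := Submodule.span A (P '' Set.Ico 1 N) ⊔
    LinearMap.range (LinearMap.mulLeft A (P N)) with hL'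
  have h1N : 1 ≤ N := hNpos
  obtain ⟨u₂, hu₂1, hu₂⟩ := exists_sub_one_mem_and_smul_mem M L'
    (LinearMap.range (LinearMap.mulLeft A (P 1)))
    (by rw [LinearMap.range_eq_map]; exact (Module.Finite.fg_top).map _)
    (chain M σ hσ 1 N h1N)
  have hu₂M : u₂ ∉ M := fun h => by
    have : (1 : A) ∈ M := by
      have := M.sub_mem h hu₂1
      rwa [sub_sub_cancel] at this
    exact hM.ne_top (M.eq_top_iff_one.mpr this)
  -- the final computation
  intro a ha
  have hax : algebraMap A B a ∈ x₁ := by rw [← Ideal.mem_comap, hx₁]; exact ha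
  obtain ⟨u₁, hu₁M, hu₁⟩ := exists_notMem_algebraMap_mul_mem M x₁ s hs
    (Ideal.span {algebraMap A B π, s})
    (Ideal.subset_span (Set.mem_insert_of_mem _ rfl)) (algebraMap A B a) (hsreg _ hax)
  obtain ⟨β₁, β₂, hβ⟩ := Ideal.mem_span_pair.mp hu₁
  obtain ⟨l₁, hl₁, z, hz, hlz⟩ := Submodule.mem_sup.mp
    (hu₂ (P 1 * β₂) ⟨β₂, rfl⟩)
  obtain ⟨r, rfl⟩ := hz
  have hy₁ : u₀ • β₁ ∈ L := hu₀ β₁ Submodule.mem_top
  have hy₂ : u₀ • r ∈ L := hu₀ r Submodule.mem_top
  have hy₃ : l₁ ∈ L := Submodule.span_mono (himg 1) hl₁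
  have hy₀ : P 0 ∈ L := Submodule.subset_span ⟨⟨0, hNpos⟩, rfl⟩
  have hident : (u₀ * u₂ * u₁ * a) • (⟨P 0, hy₀⟩ : L) =
      (π * u₂) • (⟨u₀ • β₁, hy₁⟩ : L) + u₀ • (⟨l₁, hy₃⟩ : L) + t₀ • (⟨u₀ • r, hy₂⟩ : L) := by
    ext
    simp only [Submodule.coe_smul, Submodule.coe_add]
    have e1 : u₀ • l₁ = u₀ • (u₂ • (P 1 * β₂)) - u₀ • ((LinearMap.mulLeft A (P N)) r) := by
      rw [← hlz, smul_add, add_sub_cancel_right]
    rw [e1, hP0, hP1, LinearMap.mulLeft_apply, hPN, ← ht₀]
    simp only [Algebra.smul_def, map_mul]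
    have e2 : algebraMap A B u₁ * algebraMap A B a = β₁ * algebraMap A B π + β₂ * s := hβ.symm
    linear_combination (algebraMap A B u₀ * algebraMap A B u₂) * e2
  have := congrArg coord₀ hident
  rw [map_add, map_add, map_smul, map_smul, map_smul, map_smul, hcoord l₁ hl₁ hy₃,
    hbL 0 hNpos hy₀] at this
  simp only [coord₀, Module.Basis.coord_apply, Module.Basis.repr_self, Finsupp.single_eq_same,
    smul_eq_mul, mul_one, mul_zero, add_zero] at this
  refine ⟨u₀ * u₂ * u₁, ?_, ?_⟩
  · intro h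
    rcases hM.isPrime.mem_or_mem h with h | h
    · rcases hM.isPrime.mem_or_mem h with h | h
      · exact hu₀M h
      · exact hu₂M h
    · exact hu₁M h
  · rw [this]
    refine Ideal.mem_span_pair.mpr ⟨u₂ * (bL.repr ⟨u₀ • β₁, hy₁⟩) ⟨0, hNpos⟩,
      (bL.repr ⟨u₀ • r, hy₂⟩) ⟨0, hNpos⟩, ?_⟩
    ring

variable (G) in
include G in
/-- **Corollary**: if `π` is a prime element of `A = B^G` (`A` noetherian) and every maximal ideal
of `A` containing `π` has ONE prime of `B` above it which has the same residue field and is locally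
generated by `π` and one more element, then the special fibre `A ⧸ (π)` is integrally closed. -/
theorem isIntegrallyClosed_quotient_span [IsNoetherianRing A] (π : A)
    [hI : (Ideal.span {π}).IsPrime]
    (h : ∀ M : Ideal A, M.IsMaximal → π ∈ M → ∃ x₁ : Ideal B, x₁.IsPrime ∧
      x₁.comap (algebraMap A B) = M ∧ (∀ b : B, ∃ a : A, b - algebraMap A B a ∈ x₁) ∧
      ∃ s₁ ∈ x₁, ∀ c ∈ x₁, ∃ u, u ∉ x₁ ∧ u * c ∈ Ideal.span {algebraMap A B π, s₁}) :
    IsIntegrallyClosed (A ⧸ Ideal.span {π}) := by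
  set I : Ideal A := Ideal.span {π} with hIdef
  refine IsIntegrallyClosed.of_localization_maximal (fun m _ hm => ?_)
  set M : Ideal A := m.comap (Ideal.Quotient.mk I) with hMdef
  have hMmax : M.IsMaximal := Ideal.comap_isMaximal_of_surjective _ Ideal.Quotient.mk_surjective
  have hπM : π ∈ M := by
    rw [hMdef, Ideal.mem_comap]
    have : Ideal.Quotient.mk I π = 0 :=
      Ideal.Quotient.eq_zero_iff_mem.mpr (Ideal.mem_span_singleton_self π)
    rw [this]
    exact m.zero_mem
  obtain ⟨x₁, hx₁p, hx₁, hres, s₁, hs₁, hreg⟩ := h M hMmax hπM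
  obtain ⟨t, htM, ht⟩ := exists_regular_parameter G M π hπM x₁ hx₁ hres s₁ hs₁ hreg
  -- the maximal ideal of the localisation is principal
  have hprinc : (IsLocalRing.maximalIdeal (Localization.AtPrime m)).IsPrincipal := by
    refine ⟨⟨algebraMap _ (Localization.AtPrime m) (Ideal.Quotient.mk I t), ?_⟩⟩
    rw [← Localization.AtPrime.map_eq_maximalIdeal]
    apply le_antisymm
    · rw [Ideal.map_le_iff_le_comap]
      intro c hc
      obtain ⟨a, rfl⟩ := Ideal.Quotient.mk_surjective c
      have haM : a ∈ M := hc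
      obtain ⟨u, huM, hu⟩ := ht a haM
      obtain ⟨r₁, r₂, hr⟩ := Ideal.mem_span_pair.mp hu
      have hum : Ideal.Quotient.mk I u ∉ m := huM
      have hunit : IsUnit (algebraMap _ (Localization.AtPrime m) (Ideal.Quotient.mk I u)) :=
        IsLocalization.map_units (Localization.AtPrime m)
          (⟨Ideal.Quotient.mk I u, hum⟩ : m.primeCompl)
      rw [Ideal.mem_comap, Ideal.submodule_span_eq, Ideal.mem_span_singleton']
      have hπ0 : Ideal.Quotient.mk I π = 0 :=
        Ideal.Quotient.eq_zero_iff_mem.mpr (Ideal.mem_span_singleton_self π)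
      have hrel : Ideal.Quotient.mk I u * Ideal.Quotient.mk I a =
          Ideal.Quotient.mk I r₂ * Ideal.Quotient.mk I t := by
        rw [← map_mul, ← hr, map_add, map_mul, map_mul, hπ0, mul_zero, zero_add]
      refine ⟨(hunit.unit⁻¹ : (Localization.AtPrime m)ˣ) *
        algebraMap _ (Localization.AtPrime m) (Ideal.Quotient.mk I r₂), ?_⟩
      rw [mul_assoc, ← map_mul, ← hrel, map_mul, ← mul_assoc]
      rw [IsUnit.val_inv_mul, one_mul]
    · rw [Ideal.submodule_span_eq, Ideal.span_le, Set.singleton_subset_iff]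
      exact Ideal.mem_map_of_mem _ (show Ideal.Quotient.mk I t ∈ m from htM)
  have h43 : (IsLocalRing.maximalIdeal (Localization.AtPrime m)).IsPrincipal →
      (IsIntegrallyClosed (Localization.AtPrime m) ∧
        ∀ P : Ideal (Localization.AtPrime m), P ≠ ⊥ → P.IsPrime →
          P = IsLocalRing.maximalIdeal (Localization.AtPrime m)) :=
    ((tfae_of_isNoetherianRing_of_isLocalRing_of_isDomain (Localization.AtPrime m)).out 4 3).mp
  exact (h43 hprinc).1

end Main

end Fermat.Agent.S18.H67
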