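import Mathlib
import Fermat.Agent.S18.H67_QuotientRegular

/-!
# From "étale over the auxiliary line" to the hypotheses of Lemma Q'

`exists_mul_mem_of_isRadical` : if `I` is a radical ideal and `𝔵` is a minimal prime over `I`,
then `𝔵` is generated by `I` locally at `𝔵`.

`regular_pair_of_radical` : `R → B` integral, `p = (π, f)` a maximal ideal of `R` with `p B`
radical (e.g. unit discriminant), `𝔵` a prime of `B` over `p`: then `𝔵` is locally generated by
`π` and `f`.

`isIntegrallyClosed_special_fibre` : the packaged consequence via Lemma Q'.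
-/

namespace Fermat.Agent.S18.H67

section Radical

variable {B : Type*} [CommRing B]

/-- A minimal prime over a radical ideal `I` is generated by `I` locally. -/
theorem exists_mul_mem_of_isRadical (I 𝔵 : Ideal B) (hI : I.IsRadical)
    (h𝔵 : 𝔵 ∈ I.minimalPrimes) (c : B) (hc : c ∈ 𝔵) : ∃ u, u ∉ 𝔵 ∧ u * c ∈ I := by
  obtain ⟨⟨hp₁, hp₂⟩, hp₃⟩ := h𝔵
  have : 𝔵.map (algebraMap B (Localization.AtPrime 𝔵)) ≤
      (I.map (algebraMap B (Localization.AtPrime 𝔵))).radical := by
    rw [Ideal.radical_eq_sInf, le_sInf_iff]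
    rintro q ⟨hq', hq⟩
    obtain ⟨h₁, h₂⟩ := ((IsLocalization.AtPrime.orderIsoOfPrime _ 𝔵) ⟨q, hq⟩).2
    rw [Ideal.map_le_iff_le_comap] at hq' ⊢
    exact hp₃ ⟨h₁, hq'⟩ h₂
  obtain ⟨n, hn⟩ := this (Ideal.mem_map_of_mem _ hc)
  rw [IsLocalization.mem_map_algebraMap_iff (M := 𝔵.primeCompl)] at hn
  obtain ⟨⟨a, b⟩, hn⟩ := hn
  rw [← map_pow, ← map_mul, IsLocalization.eq_iff_exists 𝔵.primeCompl] at hn
  obtain ⟨t, ht⟩ := hn
  simp only at ht
  refine ⟨t * b, (t * b).2, ?_⟩
  apply hI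
  refine ⟨n + 1, ?_⟩
  have : ((t : B) * (b : B) * c) ^ (n + 1) = (t.1 ^ n * b.1 ^ n * c * t.1) * a := by
    have h := ht
    calc ((t : B) * (b : B) * c) ^ (n + 1)
        = (t.1 ^ n * b.1 ^ n * c) * (t.1 * (c ^ n * b.1)) := by ring
      _ = (t.1 ^ n * b.1 ^ n * c) * (t.1 * a) := by rw [h]
      _ = (t.1 ^ n * b.1 ^ n * c * t.1) * a := by ring
  rw [this]
  exact I.mul_mem_left _ a.2

end Radical

section Pair

variable {R B : Type*} [CommRing R] [CommRing B] [Algebra R B] [Algebra.IsIntegral R B]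

/-- If `p = (π, f)` is a maximal ideal of `R`, `p B` is radical and `𝔵` is a prime of `B` over
`p`, then `𝔵` is locally generated by `π` and `f`. -/
theorem regular_pair_of_radical (p : Ideal R) [hp : p.IsMaximal] (π f : R)
    (hpf : p = Ideal.span {π, f}) (hrad : (p.map (algebraMap R B)).IsRadical)
    (𝔵 : Ideal B) [h𝔵 : 𝔵.IsPrime] (hover : 𝔵.comap (algebraMap R B) = p) (c : B) (hc : c ∈ 𝔵) :
    ∃ u, u ∉ 𝔵 ∧ u * c ∈ Ideal.span {algebraMap R B π, algebraMap R B f} := by
  have hmap : p.map (algebraMap R B) = Ideal.span {algebraMap R B π, algebraMap R B f} := by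
    rw [hpf, Ideal.map_span]
    congr 1
    ext z
    simp [Set.image_insert_eq, Set.image_singleton]
  have hle : p.map (algebraMap R B) ≤ 𝔵 := by
    rw [Ideal.map_le_iff_le_comap, hover]
  have hmin : 𝔵 ∈ (p.map (algebraMap R B)).minimalPrimes := by
    refine ⟨⟨h𝔵, hle⟩, ?_⟩
    rintro q ⟨hq, hq'⟩ hq𝔵
    -- `q` lies over `p`, hence is maximal, hence equals `𝔵`
    have hqp : q.comap (algebraMap R B) = p := by
      have h1 : p ≤ q.comap (algebraMap R B) := Ideal.map_le_iff_le_comap.mp hq'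
      have hne : q.comap (algebraMap R B) ≠ ⊤ := (Ideal.comap_ne_top _ hq.ne_top)
      exact (hp.eq_of_le hne h1).symm
    have hqmax : q.IsMaximal :=
      Ideal.isMaximal_of_isIntegral_of_isMaximal_comap (R := R) q (by rw [hqp]; exact hp)
    exact (hqmax.eq_of_le h𝔵.ne_top hq𝔵).symm.le
  rw [← hmap]
  exact exists_mul_mem_of_isRadical _ 𝔵 hrad hmin c hc

end Pair

section Packaged

variable {A₁ R A B : Type*} [CommRing A₁] [CommRing R] [CommRing A] [CommRing B] [IsDomain B]
  [Algebra A₁ R] [Algebra A₁ A] [Algebra A₁ B] [Algebra R B] [Algebra A B]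
  [IsScalarTower A₁ R B] [IsScalarTower A₁ A B]
  [FaithfulSMul A B] [Module.Finite A B] [IsNoetherianRing A]
  [Algebra.IsIntegral R B]
  (G : Type*) [Group G] [Finite G] [MulSemiringAction G B] [IsGaloisGroup G A B]

include G in
/-- **Normal special fibre of a quotient of an étale cover of a line.**
`A₁` the base (a DVR in the application), `ϖ` its uniformiser, `R` the coordinate ring of the
auxiliary line, `B` a domain integral over `R`, `A = B^G`.  If every maximal ideal `p ∋ ϖ` of `R`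
is generated by `ϖ` and one more element and `p B` is radical (unit discriminant), and the residue
fields of `B` at the closed points of the special fibre are those of `A₁`, then `A ⧸ (ϖ)` is
integrally closed (as soon as `(ϖ)` is a prime ideal of the noetherian ring `A`). -/
theorem isIntegrallyClosed_special_fibre (ϖ : A₁)
    [hI : (Ideal.span {algebraMap A₁ A ϖ}).IsPrime]
    (hline : ∀ p : Ideal R, p.IsMaximal → algebraMap A₁ R ϖ ∈ p →
      (∃ f : R, p = Ideal.span {algebraMap A₁ R ϖ, f}) ∧ (p.map (algebraMap R B)).IsRadical)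
    (hres : ∀ 𝔵 : Ideal B, 𝔵.IsMaximal → algebraMap A₁ B ϖ ∈ 𝔵 →
      ∀ b : B, ∃ a : A₁, b - algebraMap A₁ B a ∈ 𝔵) :
    IsIntegrallyClosed (A ⧸ Ideal.span {algebraMap A₁ A ϖ}) := by
  have hint : Algebra.IsIntegral A B := inferInstance
  have hinj : Function.Injective (algebraMap A B) := FaithfulSMul.algebraMap_injective A B
  refine isIntegrallyClosed_quotient_span (A := A) (B := B) G (algebraMap A₁ A ϖ)
    (fun M hM hπM => ?_)
  obtain ⟨𝔵, h𝔵max, h𝔵M⟩ := Ideal.exists_ideal_over_maximal_of_isIntegral (S := B) M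
    (by rw [(RingHom.injective_iff_ker_eq_bot _).mp hinj]; exact bot_le)
  have hϖB : algebraMap A₁ B ϖ ∈ 𝔵 := by
    rw [IsScalarTower.algebraMap_apply A₁ A B, ← Ideal.mem_comap, h𝔵M]
    exact hπM
  have h𝔵p : 𝔵.IsPrime := h𝔵max.isPrime
  set p : Ideal R := 𝔵.comap (algebraMap R B) with hp
  have hpmax : p.IsMaximal := Ideal.isMaximal_comap_of_isIntegral_of_isMaximal (R := R) 𝔵
  have hϖp : algebraMap A₁ R ϖ ∈ p := by
    rw [hp, Ideal.mem_comap, ← IsScalarTower.algebraMap_apply A₁ R B]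
    exact hϖB
  obtain ⟨⟨f, hpf⟩, hrad⟩ := hline p hpmax hϖp
  refine ⟨𝔵, h𝔵p, h𝔵M, fun b => ?_, algebraMap R B f, ?_, fun c hc => ?_⟩
  · obtain ⟨a, ha⟩ := hres 𝔵 h𝔵max hϖB b
    exact ⟨algebraMap A₁ A a, by rwa [← IsScalarTower.algebraMap_apply A₁ A B]⟩
  · rw [← Ideal.mem_comap, ← hp, hpf]
    exact Ideal.subset_span (Set.mem_insert_of_mem _ rfl)
  · obtain ⟨u, hu, huc⟩ := regular_pair_of_radical p (algebraMap A₁ R ϖ) f hpf hrad 𝔵 rfl c hc
    refine ⟨u, hu, ?_⟩
    rwa [← IsScalarTower.algebraMap_apply A₁ R B, IsScalarTower.algebraMap_apply A₁ A B] at huc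

end Packaged

end Fermat.Agent.S18.H67
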