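import Mathlib
import Fermat.Agent.S18.H67_EtaleGlue
import Fermat.Agent.S18.H70_CompositumGalois

/-!
# S18 / route Q, INST-3 → INST-6: group-free wrappers of helper67's Lemma Q'

In the AKLB setup (`A` integrally closed noetherian with fraction field `K`, `E / K` finite Galois,
`B` the integral closure of `A` in `E`) the group `Gal(E/K)` acts on `B` with `B^G = A`
(`H70.isGaloisGroup_integralClosure`), so helper67's `isIntegrallyClosed_quotient_span` and
`isIntegrallyClosed_special_fibre` apply.  The statements below do not mention the group.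
-/

set_option autoImplicit false
set_option linter.unusedSectionVars false
set_option linter.style.haveILetI false

namespace Fermat.Agent.S18.H70

open Fermat.Agent.S18

section AKLB

variable (A K E B : Type*) [CommRing A] [CommRing B] [Field K] [Field E]
  [Algebra A K] [Algebra B E] [IsFractionRing A K] [IsFractionRing B E]
  [Algebra A B] [Algebra K E] [Algebra A E] [IsScalarTower A K E] [IsScalarTower A B E]
  [IsIntegrallyClosed A] [IsIntegralClosure B A E] [FiniteDimensional K E] [IsGalois K E]
  [IsNoetherianRing A]

include K E in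
/-- **Lemma Q', group-free.** `A` noetherian integrally closed, `B` its integral closure in a
finite Galois extension `E` of `K = Frac A`; `π` a prime element of `A`.  If every maximal ideal
`M ∋ π` of `A` has ONE prime `x₁` of `B` above it with the same residue field and locally generated
by `π` and one more element, then `A ⧸ (π)` is integrally closed. -/
theorem isIntegrallyClosed_quotient_span_of_isGalois (π : A)
    [hI : (Ideal.span {π}).IsPrime]
    (h : ∀ M : Ideal A, M.IsMaximal → π ∈ M → ∃ x₁ : Ideal B, x₁.IsPrime ∧
      x₁.comap (algebraMap A B) = M ∧ (∀ b : B, ∃ a : A, b - algebraMap A B a ∈ x₁) ∧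
      ∃ s₁ ∈ x₁, ∀ c ∈ x₁, ∃ u, u ∉ x₁ ∧ u * c ∈ Ideal.span {algebraMap A B π, s₁}) :
    IsIntegrallyClosed (A ⧸ Ideal.span {π}) := by
  letI := IsIntegralClosure.MulSemiringAction A K E B
  haveI := isGaloisGroup_integralClosure A K E B
  haveI := faithfulSMul_integralClosure A K E B
  haveI := isDomain_integralClosure A E B
  haveI := moduleFinite_integralClosure A K E B
  exact H67.isIntegrallyClosed_quotient_span (A := A) (B := B) Gal(E/K) π h

variable {A₁ R : Type*} [CommRing A₁] [CommRing R]
  [Algebra A₁ R] [Algebra A₁ A] [Algebra A₁ B] [Algebra R B]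
  [IsScalarTower A₁ R B] [IsScalarTower A₁ A B] [Algebra.IsIntegral R B]

include K E in
/-- **Normal special fibre of a Galois quotient of an étale cover of a line, group-free.**
Same as `H67.isIntegrallyClosed_special_fibre`, with the group action supplied by the AKLB setup. -/
theorem isIntegrallyClosed_special_fibre_of_isGalois (ϖ : A₁)
    [hI : (Ideal.span {algebraMap A₁ A ϖ}).IsPrime]
    (hline : ∀ p : Ideal R, p.IsMaximal → algebraMap A₁ R ϖ ∈ p →
      (∃ f : R, p = Ideal.span {algebraMap A₁ R ϖ, f}) ∧ (p.map (algebraMap R B)).IsRadical)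
    (hres : ∀ 𝔵 : Ideal B, 𝔵.IsMaximal → algebraMap A₁ B ϖ ∈ 𝔵 →
      ∀ b : B, ∃ a : A₁, b - algebraMap A₁ B a ∈ 𝔵) :
    IsIntegrallyClosed (A ⧸ Ideal.span {algebraMap A₁ A ϖ}) := by
  letI := IsIntegralClosure.MulSemiringAction A K E B
  haveI := isGaloisGroup_integralClosure A K E B
  haveI := faithfulSMul_integralClosure A K E B
  haveI := isDomain_integralClosure A E B
  haveI := moduleFinite_integralClosure A K E B
  exact H67.isIntegrallyClosed_special_fibre (A₁ := A₁) (R := R) (A := A) (B := B)
    Gal(E/K) ϖ hline hres

end AKLB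

end Fermat.Agent.S18.H70
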