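/-
S18 project, route Q, package INST-5 (helper96).  Mathlib + helper41's PURITY + helper9's DISC.

**(RAD)**: under helper41's conditions `VertCond` and `HorCond`, for every maximal ideal `p` of the
two-dimensional base `R` containing the prime element `π`, the extended ideal `p B` of the integral
closure `B` of `R` in `L` is radical.  This is the second half of the hypothesis `hline` of
helper67's `H67.isIntegrallyClosed_special_fibre`.
-/
import Fermat.Agent.S18.H41_PurityMain
import Fermat.Agent.S18.H9_DiscrNormal

set_option autoImplicit false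
set_option linter.unusedSectionVars false

open Module

namespace Fermat.Agent.S18.H96

variable {R K L B : Type*} [CommRing R] [IsDomain R] [IsNoetherianRing R] [IsIntegrallyClosed R]
  [Field K] [Algebra R K] [IsFractionRing R K] [Field L] [Algebra K L] [Algebra R L]
  [IsScalarTower R K L]
  [CommRing B] [Algebra R B] [Algebra B L] [IsScalarTower R B L]
  [IsIntegralClosure B R L] [FiniteDimensional K L] [Algebra.IsSeparable K L]
  {π : R}

variable (K L B) in
include K L in
/-- **(RAD)**: PURITY gives that `p B` is radical for every maximal ideal `p ∋ π` of the base. -/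
theorem isRadical_map_of_purity (hπ : Prime π) [IsPrincipalIdealRing (R ⧸ Ideal.span {π})]
    (hV : H41.VertCond R K L π) (hH : H41.HorCond R K L π)
    (p : Ideal R) [hp : p.IsPrime] (hπp : π ∈ p) :
    (p.map (algebraMap R B)).IsRadical := by
  classical
  set I : Ideal R := Ideal.span {π} with hI
  set J : Ideal B := I.map (algebraMap R B) with hJ
  have hfree := H41.free_quotient' K L B hπ
  have hfinq := H41.finite_quotient K L B π
  have hprime : I.IsPrime := (Ideal.span_singleton_prime hπ.ne_zero).mpr hπ
  have : IsDomain (R ⧸ I) := Ideal.Quotient.isDomain _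
  let eb := Module.Free.chooseBasis (R ⧸ I) (B ⧸ J)
  have hunit : IsUnit (Algebra.discr (R ⧸ I) eb) :=
    H41.isUnit_discr_quotient (K := K) (L := L) hπ hV hH eb
  -- the image of `p` in `R ⧸ π`
  have hIp : I ≤ p := by
    rw [hI, Ideal.span_le, Set.singleton_subset_iff]
    exact hπp
  set pbar : Ideal (R ⧸ I) := p.map (Ideal.Quotient.mk I) with hpbar
  have hpbar_prime : pbar.IsPrime :=
    Ideal.map_isPrime_of_surjective Ideal.Quotient.mk_surjective (by rwa [Ideal.mk_ker])
  have hrad : (pbar.map (algebraMap (R ⧸ I) (B ⧸ J))).IsRadical :=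
    H9.isRadical_map_of_isUnit_discr hpbar_prime.isRadical eb hunit
  -- compare with `p B`
  have hsq : (algebraMap (R ⧸ I) (B ⧸ J)).comp (Ideal.Quotient.mk I) =
      (Ideal.Quotient.mk J).comp (algebraMap R B) := by
    ext r
    rfl
  have hmap : pbar.map (algebraMap (R ⧸ I) (B ⧸ J)) =
      (p.map (algebraMap R B)).map (Ideal.Quotient.mk J) := by
    rw [hpbar, Ideal.map_map, Ideal.map_map, hsq]
  have hJp : J ≤ p.map (algebraMap R B) := Ideal.map_mono hIp
  have hcomap : (p.map (algebraMap R B)) =
      Ideal.comap (Ideal.Quotient.mk J) (pbar.map (algebraMap (R ⧸ I) (B ⧸ J))) := by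
    rw [hmap, Ideal.comap_map_of_surjective _ Ideal.Quotient.mk_surjective,
      ← RingHom.ker_eq_comap_bot, Ideal.mk_ker, sup_eq_left.mpr hJp]
  rw [hcomap]
  exact hrad.comap _

end Fermat.Agent.S18.H96
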