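/-
S18 project, route Q (helper96): **abstract assembly of one chart**.

PURITY (helper41) + DISC (helper9) + Lemma Q' (helper67, group-free wrapper of helper70) in ONE
statement, to be instantiated by the Hesse chart (`ℓ = 2`), the Legendre chart (`ℓ` odd) and the
cusp chart.

Setting: `A₁` a base ring with an element `ϖ` (a DVR with its uniformiser);
* `R0` the chart ring (`A₁[j]`), noetherian integrally closed domain, `K0 = Frac R0`, `F1 / K0`
  finite separable, `A := integralClosure R0 F1`;
* `R'` the auxiliary base line (`A₁[μ, 1/(μ³-1)]`), integral over `R0`, noetherian integrally closed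
  domain with `ϖ` prime and `R' ⧸ ϖ` a PID, `K' = Frac R'`, `F' / K'` finite separable,
  `B := integralClosure R' F'`;
* `F' / F1` finite Galois.
Hypotheses: (VERT) and (HOR) for `(R', K', F', ϖ)`; the maximal ideals of `R'` over `ϖ` are
`(ϖ, f)` with algebraically closed residue field `= A₁ / ϖ`; `(ϖ)` is prime in `A`.
Conclusion: the special fibre `A ⧸ ϖ` is integrally closed.
-/
import Fermat.Agent.S18.H96_PurityRad
import Fermat.Agent.S18.H70_GaloisQuotient
import Fermat.Agent.S18.H9_DiscrReg

set_option autoImplicit false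
set_option linter.unusedSectionVars false
set_option linter.style.haveILetI false

namespace Fermat.Agent.S18.H96

open Fermat.Agent.S18

variable {A₁ R0 R' : Type*} [CommRing A₁] [CommRing R0] [CommRing R']
  [Algebra A₁ R0] [Algebra A₁ R'] [Algebra R0 R'] [IsScalarTower A₁ R0 R']
  [IsDomain R0] [IsNoetherianRing R0] [IsIntegrallyClosed R0]
  [IsDomain R'] [IsNoetherianRing R'] [IsIntegrallyClosed R']
  [Algebra.IsIntegral R0 R']
  {K0 F1 K' F' : Type*} [Field K0] [Field F1] [Field K'] [Field F']
  [Algebra R0 K0] [IsFractionRing R0 K0] [Algebra K0 F1] [Algebra R0 F1] [IsScalarTower R0 K0 F1]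
  [FiniteDimensional K0 F1] [Algebra.IsSeparable K0 F1]
  [Algebra R' K'] [IsFractionRing R' K'] [Algebra K' F'] [Algebra R' F'] [IsScalarTower R' K' F']
  [FiniteDimensional K' F'] [Algebra.IsSeparable K' F']
  [Algebra F1 F'] [Algebra R0 F'] [IsScalarTower R0 F1 F'] [IsScalarTower R0 R' F']
  [FiniteDimensional F1 F'] [IsGalois F1 F']

variable (K0 K') in
include K0 K' in
/-- **Route Q, one chart.**  The special fibre of the integral closure `A` of the chart ring `R0`
in `F1` is integrally closed. -/
theorem isIntegrallyClosed_specialFibre (ϖ : A₁)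
    (hϖR' : Prime (algebraMap A₁ R' ϖ))
    [IsPrincipalIdealRing (R' ⧸ Ideal.span {algebraMap A₁ R' ϖ})]
    (hV : H41.VertCond R' K' F' (algebraMap A₁ R' ϖ))
    (hH : H41.HorCond R' K' F' (algebraMap A₁ R' ϖ))
    (hpt : ∀ p : Ideal R', p.IsMaximal → algebraMap A₁ R' ϖ ∈ p →
      (∃ f : R', p = Ideal.span {algebraMap A₁ R' ϖ, f}) ∧
      (∀ r : R', ∃ a : A₁, r - algebraMap A₁ R' a ∈ p) ∧
      ∃ (k : Type) (_ : Field k) (_ : IsAlgClosed k), Nonempty ((R' ⧸ p) ≃+* k))
    (hprime : (Ideal.span {algebraMap R0 (integralClosure R0 F1) (algebraMap A₁ R0 ϖ)}).IsPrime) :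
    IsIntegrallyClosed
      (integralClosure R0 F1 ⧸
        Ideal.span {algebraMap R0 (integralClosure R0 F1) (algebraMap A₁ R0 ϖ)}) := by
  classical
  -- the two integral closures
  set A := integralClosure R0 F1 with hA
  set B := integralClosure R' F' with hB
  letI algAB : Algebra A B := H70.algebraIntegralClosure R0 R' F1 F'
  haveI towABF : IsScalarTower A B F' := H70.isScalarTower_integralClosure R0 R' F1 F'
  haveI : IsFractionRing A F1 := IsIntegralClosure.isFractionRing_of_finite_extension R0 K0 F1 A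
  haveI : IsFractionRing B F' := IsIntegralClosure.isFractionRing_of_finite_extension R' K' F' B
  haveI : IsIntegrallyClosed A := integralClosure.isIntegrallyClosedOfFiniteExtension K0
  haveI : IsIntegralClosure B A F' := H70.isIntegralClosure_integralClosure R0 R' F1 F'
  haveI : IsNoetherianRing A := IsIntegralClosure.isNoetherianRing R0 K0 F1 A
  -- `A₁`-algebra structures
  letI algA₁A : Algebra A₁ A := ((algebraMap R0 A).comp (algebraMap A₁ R0)).toAlgebra
  letI algA₁B : Algebra A₁ B := ((algebraMap R' B).comp (algebraMap A₁ R')).toAlgebra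
  haveI : IsScalarTower A₁ R' B := IsScalarTower.of_algebraMap_eq fun a => rfl
  haveI : IsScalarTower A₁ A B := by
    refine IsScalarTower.of_algebraMap_eq fun a => ?_
    apply Subtype.ext
    show algebraMap R' F' (algebraMap A₁ R' a) =
      algebraMap F1 F' (algebraMap R0 F1 (algebraMap A₁ R0 a))
    rw [IsScalarTower.algebraMap_apply A₁ R0 R', ← IsScalarTower.algebraMap_apply R0 R' F',
      ← IsScalarTower.algebraMap_apply R0 F1 F']
  haveI : Algebra.IsIntegral R' B := inferInstance
  have key := H70.isIntegrallyClosed_special_fibre_of_isGalois A F1 F' B (A₁ := A₁) (R := R') ϖ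
    (hI := hprime) ?_ ?_
  · exact key
  · -- hline
    intro p hp hϖp
    obtain ⟨hf, -, -⟩ := hpt p hp hϖp
    haveI := hp.isPrime
    exact ⟨hf, isRadical_map_of_purity K' F' B hϖR' hV hH p hϖp⟩
  · -- hres
    intro 𝔵 h𝔵 hϖ𝔵 b
    haveI := h𝔵.isPrime
    set p : Ideal R' := 𝔵.comap (algebraMap R' B) with hp
    have hpmax : p.IsMaximal := Ideal.isMaximal_comap_of_isIntegral_of_isMaximal 𝔵
    have hϖp : algebraMap A₁ R' ϖ ∈ p := by
      rw [hp, Ideal.mem_comap]
      exact hϖ𝔵
    obtain ⟨-, hsurj, k, hk1, hk2, ⟨e⟩⟩ := hpt p hpmax hϖp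
    obtain ⟨r, hr⟩ := H9.exists_sub_algebraMap_mem_of_isAlgClosed 𝔵 p rfl k e b
    obtain ⟨a, ha⟩ := hsurj r
    refine ⟨a, ?_⟩
    have h2 : algebraMap R' B (r - algebraMap A₁ R' a) ∈ 𝔵 := ha
    have : b - algebraMap A₁ B a = (b - algebraMap R' B r) +
        algebraMap R' B (r - algebraMap A₁ R' a) := by
      rw [map_sub]
      show _ = _ + (_ - algebraMap R' B (algebraMap A₁ R' a))
      ring_nf
      rfl
    rw [this]
    exact 𝔵.add_mem hr h2

end Fermat.Agent.S18.H96
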