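/-
S18 project, package DISC (helper9): **everywhere unramified ⇒ unit discriminant**.

The bridge between (HOR) "every height-one prime is unramified" and PURITY's hypothesis
"the discriminant of the basis is a unit".

* `isUnit_discr_of_traceDual` : abstract form (the trace-dual of `C` is `C`);
* `isUnit_discr_of_differentIdeal_eq_top` : Dedekind form, different ideal `= ⊤`;
* `isUnit_discr_of_forall_isUnramifiedAt` : Dedekind form, every nonzero prime unramified.
-/
import Mathlib
import Fermat.Agent.S18.H9_DiscrNormal

set_option autoImplicit false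
set_option linter.unusedSectionVars false

open Module Matrix
open scoped nonZeroDivisors

namespace Fermat.Agent.S18.H9

section U1

variable {A C : Type*} [CommRing A] [CommRing C] [Algebra A C] [IsDomain A]
  {ι : Type*} [Fintype ι] [DecidableEq ι]

/-- **Abstract form**: if every element of `L = Frac C` which is trace-dual to `C` lies in `C`,
then the discriminant of any `A`-basis of `C` is a unit. -/
theorem isUnit_discr_of_traceDual
    (K L : Type*) [Field K] [Algebra A K] [IsFractionRing A K]
    [Field L] [Algebra C L] [Algebra K L] [Algebra A L] [IsScalarTower A C L]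
    [IsScalarTower A K L] [IsLocalization (Algebra.algebraMapSubmonoid C A⁰) L]
    [Algebra.IsSeparable K L]
    (b : Basis ι A C)
    (h : ∀ x : L, (∀ i, Algebra.trace K L (x * algebraMap C L (b i)) ∈ (algebraMap A K).range) →
      x ∈ (algebraMap C L).range) :
    IsUnit (Algebra.discr A b) := by
  classical
  have hfin : Module.Finite A C := Module.Finite.of_basis b
  have hfree : Module.Free A C := Module.Free.of_basis b
  set b' : Basis ι K L := b.localizationLocalization K A⁰ L with hb'
  have hfinL : FiniteDimensional K L := Module.Finite.of_basis b'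
  have hb'apply : ∀ i, b' i = algebraMap C L (b i) := fun i => by
    rw [hb', Basis.localizationLocalization_apply]
  -- the dual basis lies in `C`
  have hdual : ∀ i, ∃ c : C, algebraMap C L c = b'.traceDual i := by
    intro i
    refine h (b'.traceDual i) (fun k => ?_)
    rw [← hb'apply, Basis.trace_traceDual_mul]
    split_ifs
    · exact ⟨1, map_one _⟩
    · exact ⟨0, map_zero _⟩
  choose c hc using hdual
  -- `M * T = 1`
  set M : Matrix ι ι A := fun i j => b.repr (c i) j with hM
  have hMT : M * Algebra.traceMatrix A b = 1 := by
    ext i k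
    apply IsFractionRing.injective A K
    rw [Matrix.mul_apply]
    have h1 : ∑ j, M i j * Algebra.traceMatrix A b j k = Algebra.trace A C (c i * b k) :=
      (trace_mul_basis b (c i) k).symm
    rw [h1, ← Algebra.trace_localization A A⁰ (Rₘ := K) (Sₘ := L), map_mul, hc, ← hb'apply,
      Basis.trace_traceDual_mul, Matrix.one_apply]
    by_cases hik : i = k
    · subst hik
      simp
    · rw [if_neg (fun h' => hik h'.symm), if_neg hik, map_zero]
  have hdet : M.det * (Algebra.traceMatrix A b).det = 1 := by
    rw [← Matrix.det_mul, hMT, Matrix.det_one]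
  rw [Algebra.discr_def]
  exact IsUnit.of_mul_eq_one _ (by rw [mul_comm]; exact hdet)

end U1

section Dedekind

attribute [local instance] FractionRing.liftAlgebra FractionRing.isScalarTower_liftAlgebra

variable {A C : Type*} [CommRing A] [CommRing C] [Algebra A C]
  [IsDedekindDomain A] [IsDedekindDomain C] [Module.IsTorsionFree A C] [Module.Finite A C]
  [Algebra.IsSeparable (FractionRing A) (FractionRing C)]
  {ι : Type*} [Fintype ι] [DecidableEq ι]

/-- **Different ideal `= ⊤` ⇒ unit discriminant.** -/
theorem isUnit_discr_of_differentIdeal_eq_top (b : Basis ι A C)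
    (h : differentIdeal A C = ⊤) : IsUnit (Algebra.discr A b) := by
  classical
  have hdual : FractionalIdeal.dual A (FractionRing A) (1 : FractionalIdeal C⁰ (FractionRing C))
      = 1 := by
    have h1 := coeIdeal_differentIdeal A (FractionRing A) (FractionRing C) C
    rw [h, FractionalIdeal.coeIdeal_top] at h1
    exact inv_eq_one.1 h1.symm
  apply isUnit_discr_of_traceDual (FractionRing A) (FractionRing C) b
  intro x hx
  have hx' : x ∈ FractionalIdeal.dual A (FractionRing A)
      (1 : FractionalIdeal C⁰ (FractionRing C)) := by
    rw [FractionalIdeal.mem_dual (by simp)]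
    intro a ha
    rw [FractionalIdeal.mem_one_iff] at ha
    obtain ⟨a, rfl⟩ := ha
    rw [Algebra.traceForm_apply, ← b.sum_repr a, map_sum, Finset.mul_sum, map_sum]
    refine Subring.sum_mem _ fun i _ => ?_
    obtain ⟨t, ht⟩ := hx i
    refine ⟨b.repr a i * t, ?_⟩
    have e1 : algebraMap C (FractionRing C) (b.repr a i • b i) =
        b.repr a i • algebraMap C (FractionRing C) (b i) := by
      rw [Algebra.smul_def, map_mul, ← IsScalarTower.algebraMap_apply, Algebra.smul_def]
    rw [e1, mul_smul_comm, LinearMap.map_smul_of_tower, ← ht, Algebra.smul_def, map_mul]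
  rw [hdual, FractionalIdeal.mem_one_iff] at hx'
  obtain ⟨c, hc⟩ := hx'
  exact ⟨c, hc⟩

/-- **Everywhere unramified ⇒ unit discriminant.** -/
theorem isUnit_discr_of_forall_isUnramifiedAt (b : Basis ι A C)
    (h : ∀ (P : Ideal C) [P.IsPrime], P ≠ ⊥ → Algebra.IsUnramifiedAt A P) :
    IsUnit (Algebra.discr A b) := by
  apply isUnit_discr_of_differentIdeal_eq_top b
  by_contra hne
  obtain ⟨P, hP, hle⟩ := Ideal.exists_le_maximal _ hne
  have hPprime : P.IsPrime := hP.isPrime
  have hdvd : P ∣ differentIdeal A C := Ideal.dvd_iff_le.2 hle
  by_cases hbot : P = ⊥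
  · rw [hbot] at hle
    exact differentIdeal_ne_bot (A := A) (B := C) (le_bot_iff.1 hle)
  · exact (not_dvd_differentIdeal_iff (A := A)).2 (h P hbot) hdvd

end Dedekind

section Corollaries

attribute [local instance] FractionRing.liftAlgebra FractionRing.isScalarTower_liftAlgebra

variable {A C : Type*} [CommRing A] [CommRing C] [Algebra A C]
  [IsDedekindDomain A] [IsDedekindDomain C] [Module.IsTorsionFree A C] [Module.Finite A C]
  {ι : Type*} [Fintype ι] [DecidableEq ι]

/-- **All ramification indices `1` (perfect residue fields) ⇒ unit discriminant.** -/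
theorem isUnit_discr_of_forall_ramificationIdx_eq_one
    [Algebra.IsSeparable (FractionRing A) (FractionRing C)] (b : Basis ι A C)
    (hperf : ∀ (P : Ideal C) [P.IsPrime], P ≠ ⊥ → PerfectField (P.under A).ResidueField)
    (h : ∀ (P : Ideal C) [P.IsPrime], P ≠ ⊥ → P.ramificationIdx A = 1) :
    IsUnit (Algebra.discr A b) := by
  apply isUnit_discr_of_forall_isUnramifiedAt b
  intro P _ hP
  have := hperf P hP
  exact Ideal.ramificationIdx_eq_one_iff.1 (h P hP)

/-- **Characteristic zero**: all ramification indices `1` ⇒ unit discriminant. -/
theorem isUnit_discr_of_forall_ramificationIdx_eq_one_of_algebraRat [Algebra ℚ A]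
    (b : Basis ι A C)
    (h : ∀ (P : Ideal C) [P.IsPrime], P ≠ ⊥ → P.ramificationIdx A = 1) :
    IsUnit (Algebra.discr A b) := by
  have hcz : CharZero A := algebraRat.charZero A
  have hczK : CharZero (FractionRing A) :=
    charZero_of_injective_algebraMap (IsFractionRing.injective A (FractionRing A))
  have hfd : FiniteDimensional (FractionRing A) (FractionRing C) := inferInstance
  have hsep : Algebra.IsSeparable (FractionRing A) (FractionRing C) := inferInstance
  apply isUnit_discr_of_forall_ramificationIdx_eq_one b _ h
  intro P _ _
  have : Algebra ℚ (P.under A).ResidueField :=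
    ((algebraMap A (P.under A).ResidueField).comp (algebraMap ℚ A)).toAlgebra
  have : CharZero (P.under A).ResidueField := algebraRat.charZero _
  infer_instance

end Corollaries

end Fermat.Agent.S18.H9
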