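/-
S18 project, PURITY-MAIN (helper41 + helper9), the HOR-LOCAL lemma (helper9).

* `isUnit_discr_of_forall_isUnramifiedAt_of_algebraRat` : (U3') char-0 form of (U3);
* `isUnramifiedAt_of_forall_valuation_le` : a prime `P` of a Dedekind extension `C / A` (char 0) whose
  `P`-adic valuation has a uniformiser coming from `A` is unramified;
* `not_dvd_discr_of_hor` : (HL) at a "horizontal" prime element `q` of the base `R`, the hypothesis
  (HOR) "every valuation ring of `L` over `R[1/π]` has a uniformiser coming from `R`" implies that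
  `q` does not divide the discriminant of a `K`-basis of `L` which is an `R_(q)`-basis of the
  integral closure.
-/
import Mathlib
import Fermat.Agent.S18.H9_DiscrUnram
import Fermat.Agent.S18.H9_DiscrDVR

set_option autoImplicit false
set_option linter.unusedSectionVars false
set_option linter.style.haveILetI false

open Module IsDedekindDomain
open scoped nonZeroDivisors

namespace Fermat.Agent.S18.H9

section U3'

attribute [local instance] FractionRing.liftAlgebra FractionRing.isScalarTower_liftAlgebra

variable {A C : Type*} [CommRing A] [CommRing C] [Algebra A C]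
  [IsDedekindDomain A] [IsDedekindDomain C] [Module.IsTorsionFree A C] [Module.Finite A C]
  {ι : Type*} [Fintype ι] [DecidableEq ι]

/-- (U3') **Characteristic zero**: every nonzero prime unramified ⇒ unit discriminant. -/
theorem isUnit_discr_of_forall_isUnramifiedAt_of_charZero [CharZero A]
    (b : Basis ι A C)
    (h : ∀ (P : Ideal C) [P.IsPrime], P ≠ ⊥ → Algebra.IsUnramifiedAt A P) :
    IsUnit (Algebra.discr A b) := by
  have hczK : CharZero (FractionRing A) :=
    charZero_of_injective_algebraMap (IsFractionRing.injective A (FractionRing A))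
  have hfd : FiniteDimensional (FractionRing A) (FractionRing C) := inferInstance
  have hsep : Algebra.IsSeparable (FractionRing A) (FractionRing C) := inferInstance
  exact isUnit_discr_of_forall_isUnramifiedAt b h

theorem isUnit_discr_of_forall_isUnramifiedAt_of_algebraRat [Algebra ℚ A]
    (b : Basis ι A C)
    (h : ∀ (P : Ideal C) [P.IsPrime], P ≠ ⊥ → Algebra.IsUnramifiedAt A P) :
    IsUnit (Algebra.discr A b) := by
  have hcz : CharZero A := algebraRat.charZero A
  exact isUnit_discr_of_forall_isUnramifiedAt_of_charZero b h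

end U3'

section Local

variable {A C L : Type*} [CommRing A] [CommRing C] [Algebra A C]
  [IsDedekindDomain A] [IsDedekindDomain C] [Module.IsTorsionFree A C] [Module.Finite A C]
  [Field L] [Algebra C L] [IsFractionRing C L]

/-- **A uniformiser from the base ⇒ unramified** (residue characteristic zero: every nonzero natural
number is a unit of `A`). -/
theorem isUnramifiedAt_of_forall_valuation_le
    (hnat : ∀ n : ℕ, n ≠ 0 → IsUnit ((n : ℕ) : A)) (v : HeightOneSpectrum C) (t : A)
    (htP : algebraMap A C t ∈ v.asIdeal)
    (hmax : ∀ y : L, v.valuation L y < 1 →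
      v.valuation L y ≤ v.valuation L (algebraMap C L (algebraMap A C t))) :
    Algebra.IsUnramifiedAt A v.asIdeal := by
  set P : Ideal C := v.asIdeal with hPdef
  have hPprime : P.IsPrime := v.isPrime
  have hP : P ≠ ⊥ := v.ne_bot
  set w := v.valuation L with hw
  -- `t ≠ 0`
  obtain ⟨x, hxP, hx0⟩ : ∃ x ∈ P, x ≠ 0 := by
    by_contra hcon
    apply hP
    rw [eq_bot_iff]
    intro x hx
    by_contra hx0
    exact hcon ⟨x, hx, hx0⟩
  have hwx : w (algebraMap C L x) < 1 := (v.valuation_lt_one_iff_mem x).2 hxP
  have hwx0 : w (algebraMap C L x) ≠ 0 := by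
    rw [Ne, map_eq_zero, map_eq_zero_iff _ (IsFractionRing.injective C L)]
    exact hx0
  have hwt0 : w (algebraMap C L (algebraMap A C t)) ≠ 0 := by
    intro h0
    have := hmax _ hwx
    rw [h0] at this
    exact hwx0 (le_antisymm this zero_le)
  have hwt1 : w (algebraMap C L (algebraMap A C t)) < 1 := (v.valuation_lt_one_iff_mem _).2 htP
  -- elements of `P * P` have valuation `≤ w(t)^2`
  have hsq : ∀ z ∈ P * P, w (algebraMap C L z) ≤
      w (algebraMap C L (algebraMap A C t)) * w (algebraMap C L (algebraMap A C t)) := by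
    intro z hz
    refine Submodule.mul_induction_on hz ?_ ?_
    · intro a ha c hc
      rw [map_mul, map_mul]
      exact mul_le_mul' (hmax _ ((v.valuation_lt_one_iff_mem a).2 ha))
        (hmax _ ((v.valuation_lt_one_iff_mem c).2 hc))
    · intro a c ha hc
      rw [map_add]
      exact le_trans (w.map_add _ _) (max_le ha hc)
  have hp : P.under A ≠ ⊥ := mt Ideal.eq_bot_of_comap_eq_bot hP
  have hPmax : P.IsMaximal := Ideal.IsPrime.isMaximal inferInstance hP
  have hpmax : (P.under A).IsMaximal := Ideal.IsPrime.isMaximal inferInstance hp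
  -- the ramification index is one
  have hram : (P.under A).ramificationIdx' P = 1 := by
    apply Ideal.ramificationIdx'_spec
    · rw [pow_one]
      exact Ideal.map_comap_le
    · intro hle
      have h1 : algebraMap A C t ∈ P ^ 2 := hle (Ideal.mem_map_of_mem _ htP)
      rw [pow_two] at h1
      have h2 := hsq _ h1
      have h3 : w (algebraMap C L (algebraMap A C t)) * w (algebraMap C L (algebraMap A C t)) <
          w (algebraMap C L (algebraMap A C t)) := by
        have := mul_lt_mul_of_pos_left hwt1 (zero_lt_iff.2 hwt0)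
        rwa [mul_one] at this
      exact absurd h2 (not_le.2 h3)
  have hmapeq := (Ideal.IsDedekindDomain.ramificationIdx'_eq_one_iff hP Ideal.map_comap_le).1 hram
  -- conclude
  let Ap := Localization.AtPrime (P.under A)
  let CP := Localization.AtPrime P
  letI := Localization.AtPrime.algebraOfLiesOver (P.under A) P
  have := Algebra.EssFiniteType.of_comp A Ap CP
  suffices Algebra.FormallyUnramified Ap CP from Algebra.FormallyUnramified.comp A Ap CP
  rw [Algebra.FormallyUnramified.iff_map_maximalIdeal_eq,
    ← Localization.AtPrime.map_eq_maximalIdeal, Ideal.map_map, ← IsScalarTower.algebraMap_eq]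
  have hczres : CharZero (P.under A).ResidueField := by
    apply charZero_of_inj_zero
    intro n hn
    by_contra hn0
    have hu := (hnat n hn0).map (algebraMap A (P.under A).ResidueField)
    rw [map_natCast] at hu
    exact hu.ne_zero hn
  exact ⟨Algebra.IsAlgebraic.isSeparable_of_perfectField, hmapeq⟩

end Local

section Route2

variable {R L : Type*} [CommRing R] [Field L] [Algebra R L]

/-- (HU) **(HOR) ⇒ every nonzero prime of the integral closure over `A = R[1/π]` is unramified.**
`A` is any Dedekind `R`-algebra in which `π` and all nonzero natural numbers are units, `C` any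
Dedekind domain finite over `A` with fraction field `L` (the integral closure of `A` in `L`). -/
theorem isUnramifiedAt_of_hHOR (π : R)
    (A C : Type*) [CommRing A] [CommRing C] [Algebra R A] [Algebra A C] [Algebra R C]
    [IsScalarTower R A C] [Algebra C L] [IsScalarTower R C L]
    [IsDedekindDomain A] [IsDedekindDomain C] [Module.IsTorsionFree A C] [Module.Finite A C]
    [IsFractionRing C L]
    (hπA : IsUnit (algebraMap R A π))
    (hnat : ∀ n : ℕ, n ≠ 0 → IsUnit ((n : ℕ) : A))
    (hHOR : ∀ V : ValuationSubring L, V ≠ ⊤ → (∀ r : R, algebraMap R L r ∈ V) →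
      (algebraMap R L π)⁻¹ ∈ V → ∃ g : R, V.valuation (algebraMap R L g) < 1 ∧
        ∀ y : L, V.valuation y < 1 → V.valuation y ≤ V.valuation (algebraMap R L g))
    (P : Ideal C) [hPprime : P.IsPrime] (hPbot : P ≠ ⊥) : Algebra.IsUnramifiedAt A P := by
  have hwtower : ∀ r : R, algebraMap R L r = algebraMap C L (algebraMap A C (algebraMap R A r)) :=
    fun r => by
      rw [← IsScalarTower.algebraMap_apply R A C, ← IsScalarTower.algebraMap_apply R C L]
  let v : HeightOneSpectrum C := ⟨P, hPprime, hPbot⟩
  set w := v.valuation L with hw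
  let V : ValuationSubring L := w.valuationSubring
  have hequiv : w.IsEquiv V.valuation := Valuation.isEquiv_valuation_valuationSubring w
  have hwC : ∀ c : C, w (algebraMap C L c) ≤ 1 := v.valuation_le_one
  have hwR : ∀ r : R, w (algebraMap R L r) ≤ 1 := fun r => by
    rw [hwtower]
    exact hwC _
  have hVtop : V ≠ ⊤ := by
    intro htop
    obtain ⟨x, hxP, hx0⟩ := Submodule.exists_mem_ne_zero_of_ne_bot hPbot
    have hwx : w (algebraMap C L x) < 1 := (v.valuation_lt_one_iff_mem x).2 hxP
    have hx0L : algebraMap C L x ≠ 0 := by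
      rw [Ne, map_eq_zero_iff _ (IsFractionRing.injective C L)]
      exact hx0
    have hmem : (algebraMap C L x)⁻¹ ∈ V := by
      rw [htop]
      exact ValuationSubring.mem_top _
    rw [Valuation.mem_valuationSubring_iff, map_inv₀] at hmem
    have hpos : 0 < w (algebraMap C L x) := zero_lt_iff.2 ((Valuation.ne_zero_iff w).2 hx0L)
    exact absurd hmem (not_le.2 ((one_lt_inv₀ hpos).2 hwx))
  have hRV : ∀ r : R, algebraMap R L r ∈ V := fun r =>
    (Valuation.mem_valuationSubring_iff _ _).2 (hwR r)
  have hπV : (algebraMap R L π)⁻¹ ∈ V := by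
    obtain ⟨u, hu⟩ := hπA
    have h5 : (algebraMap R L π)⁻¹ = algebraMap C L (algebraMap A C ((u⁻¹ : Aˣ) : A)) := by
      rw [hwtower, ← hu]
      symm
      apply eq_inv_of_mul_eq_one_left
      rw [← map_mul, ← map_mul, Units.inv_mul, map_one, map_one]
    rw [h5]
    exact (Valuation.mem_valuationSubring_iff _ _).2 (hwC _)
  obtain ⟨g, hg1, hgmax⟩ := hHOR V hVtop hRV hπV
  have hg1' : w (algebraMap R L g) < 1 := hequiv.lt_one_iff_lt_one.2 hg1
  have hgmax' : ∀ y, w y < 1 → w y ≤ w (algebraMap R L g) := fun y hy =>
    (hequiv _ _).2 (hgmax y (hequiv.lt_one_iff_lt_one.1 hy))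
  have hgP : algebraMap A C (algebraMap R A g) ∈ v.asIdeal := by
    rw [hwtower] at hg1'
    exact (v.valuation_lt_one_iff_mem _).1 hg1'
  apply isUnramifiedAt_of_forall_valuation_le (L := L) hnat v (algebraMap R A g) hgP
  intro y hy
  rw [← hwtower]
  exact hgmax' y hy

end Route2

section HL

variable {R K L : Type*} [CommRing R] [IsDomain R] [IsNoetherianRing R]
  [IsIntegrallyClosed R]
  [Field K] [Algebra R K] [IsFractionRing R K] [Field L] [Algebra K L] [Algebra R L]
  [IsScalarTower R K L] [FiniteDimensional K L]
  {ι : Type*} [Fintype ι] [DecidableEq ι]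

/-- (HL) **HOR-LOCAL.** -/
theorem not_dvd_discr_of_hor (π q : R) (hq : Prime q) (hqπ : ¬ q ∣ π)
    (hq0 : ∀ n : ℕ, n ≠ 0 → ¬ q ∣ ((n : ℕ) : R))
    (bK : Basis ι K L) (hint : ∀ i, IsIntegral R (bK i))
    (hspan : ∀ y : L, IsIntegral R y → ∃ s : R, ¬ q ∣ s ∧ ∃ c : ι → R,
      algebraMap R L s * y = ∑ i, algebraMap R L (c i) * bK i)
    (hHOR : ∀ V : ValuationSubring L, V ≠ ⊤ → (∀ r : R, algebraMap R L r ∈ V) →
      (algebraMap R L π)⁻¹ ∈ V → ∃ g : R, V.valuation (algebraMap R L g) < 1 ∧
        ∀ y : L, V.valuation y < 1 → V.valuation y ≤ V.valuation (algebraMap R L g))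
    (δ : R) (hδ : algebraMap R K δ = Algebra.discr K bK) : ¬ q ∣ δ := by
  classical
  have hP0 : (Ideal.span {q} : Ideal R).IsPrime := (Ideal.span_singleton_prime hq.ne_zero).2 hq
  let A := Localization.AtPrime (Ideal.span {q} : Ideal R)
  letI algAK : Algebra A K := (IsLocalization.lift (M := (Ideal.span {q} : Ideal R).primeCompl)
    (g := algebraMap R K) (fun y => by
      apply IsUnit.mk0
      rw [Ne, map_eq_zero_iff _ (IsFractionRing.injective R K)]
      rintro h0
      exact y.2 (by rw [h0]; exact Ideal.zero_mem _))).toAlgebra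
  have towerRAK : IsScalarTower R A K := IsScalarTower.of_algebraMap_eq
    (fun x => (IsLocalization.lift_eq _ x).symm)
  have fracAK : IsFractionRing A K :=
    IsFractionRing.isFractionRing_of_isDomain_of_isLocalization
      (Ideal.span {q} : Ideal R).primeCompl A K
  letI algAL : Algebra A L := ((algebraMap K L).comp (algebraMap A K)).toAlgebra
  have towerAKL : IsScalarTower A K L := IsScalarTower.of_algebraMap_eq (fun _ => rfl)
  have towerRAL : IsScalarTower R A L := IsScalarTower.of_algebraMap_eq (fun x => by
    rw [IsScalarTower.algebraMap_apply R K L, IsScalarTower.algebraMap_apply R A K]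
    rfl)
  have hcz : CharZero R := by
    apply charZero_of_inj_zero
    intro n hn
    by_contra hn0
    exact hq0 n hn0 (by rw [hn]; exact dvd_zero q)
  have hczK : CharZero K := charZero_of_injective_algebraMap (IsFractionRing.injective R K)
  have hsepKL : Algebra.IsSeparable K L := inferInstance
  -- `A` is a DVR
  have hmaxA : IsLocalRing.maximalIdeal A = Ideal.span {algebraMap R A q} := by
    rw [← IsLocalization.AtPrime.map_eq_maximalIdeal (Ideal.span {q} : Ideal R) A, Ideal.map_span,
      Set.image_singleton]
  have hinjRA : Function.Injective (algebraMap R A) := IsLocalization.injective A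
    (Ideal.primeCompl_le_nonZeroDivisors (Ideal.span {q} : Ideal R))
  have hq0A : algebraMap R A q ≠ 0 := by
    rw [Ne, map_eq_zero_iff _ hinjRA]
    exact hq.ne_zero
  have hdvrA : IsDiscreteValuationRing A :=
    isDiscreteValuationRing_of_maximalIdeal_eq_span hmaxA hq0A
  have hdedA : IsDedekindDomain A := inferInstance
  have hinjAK : Function.Injective (algebraMap A K) := IsFractionRing.injective A K
  have hinjAL : Function.Injective (algebraMap A L) :=
    (algebraMap K L).injective.comp hinjAK
  have htfAL : Module.IsTorsionFree A L := isTorsionFree_iff_algebraMap_injective.2 hinjAL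
  let C := integralClosure A L
  have hdedC : IsDedekindDomain C := integralClosure.isDedekindDomain A K L
  have hfinC : Module.Finite A C := IsIntegralClosure.finite A K L C
  have hfracC : IsFractionRing C L := integralClosure.isFractionRing_of_finite_extension K L
  have htfC : Module.IsTorsionFree A C := inferInstance
  -- units of `A`
  have hunit : ∀ s : R, ¬ q ∣ s → IsUnit (algebraMap R A s) := by
    intro s hs
    rw [IsLocalization.AtPrime.isUnit_to_map_iff A (Ideal.span {q} : Ideal R)]
    intro hmem
    exact hs (Ideal.mem_span_singleton.1 hmem)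
  have hnatA : ∀ n : ℕ, n ≠ 0 → IsUnit ((n : ℕ) : A) := by
    intro n hn
    have := hunit ((n : ℕ) : R) (hq0 n hn)
    rwa [map_natCast] at this
  have hczA : CharZero A := charZero_of_injective_algebraMap hinjRA
  -- the basis of `C` over `A`
  have hintA : ∀ i, IsIntegral A (bK i) := fun i => (hint i).tower_top
  let vb : ι → C := fun i => ⟨bK i, hintA i⟩
  have hval : ∀ (a : A) (i : ι), algebraMap C L (a • vb i) = algebraMap A L a * bK i := by
    intro a i
    rw [Algebra.smul_def, map_mul, ← IsScalarTower.algebraMap_apply A C L]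
    rfl
  have hli : LinearIndependent A vb := by
    rw [Fintype.linearIndependent_iff]
    intro g hg i
    have h1 : ∑ j, algebraMap A K (g j) • bK j = 0 := by
      have h2 := congrArg (algebraMap C L) hg
      rw [map_sum, map_zero] at h2
      rw [← h2]
      refine Finset.sum_congr rfl fun j _ => ?_
      rw [hval, Algebra.smul_def]
      rfl
    have h3 := (Fintype.linearIndependent_iff.1 bK.linearIndependent) _ h1 i
    exact (map_eq_zero_iff _ hinjAK).1 h3
  have hsp : ⊤ ≤ Submodule.span A (Set.range vb) := by
    rintro ⟨y, hy⟩ -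
    obtain ⟨m, hm⟩ := IsIntegral.exists_multiple_integral_of_isLocalization
      (Ideal.span {q} : Ideal R).primeCompl y hy
    obtain ⟨s, hs, c, hc⟩ := hspan _ hm
    have hmq : ¬ q ∣ (m : R) := fun h => m.2 (Ideal.mem_span_singleton.2 h)
    have hsm : IsUnit (algebraMap R A (s * m)) := hunit _ (fun h => by
      rcases hq.dvd_or_dvd h with h' | h'
      · exact hs h'
      · exact hmq h')
    obtain ⟨u, hu⟩ := hsm
    have hH : algebraMap A L (u : A) * y = ∑ i, algebraMap R L (c i) * bK i := by
      rw [← hc, hu, ← IsScalarTower.algebraMap_apply R A L, map_mul, mul_assoc]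
      congr 1
      rw [Submonoid.smul_def, Algebra.smul_def]
    have hy' : (⟨y, hy⟩ : C) = ∑ i, (((u⁻¹ : Aˣ) : A) * algebraMap R A (c i)) • vb i := by
      apply Subtype.val_injective
      change y = algebraMap C L (∑ i, (((u⁻¹ : Aˣ) : A) * algebraMap R A (c i)) • vb i)
      rw [map_sum]
      have h4 : ∀ i, algebraMap C L ((((u⁻¹ : Aˣ) : A) * algebraMap R A (c i)) • vb i) =
          algebraMap A L ((u⁻¹ : Aˣ) : A) * (algebraMap R L (c i) * bK i) := by
        intro i
        rw [hval, map_mul, ← IsScalarTower.algebraMap_apply R A L, mul_assoc]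
      rw [Finset.sum_congr rfl (fun i _ => h4 i), ← Finset.mul_sum, ← hH, ← mul_assoc, ← map_mul,
        Units.inv_mul, map_one, one_mul]
    rw [hy']
    exact Submodule.sum_mem _ fun i _ =>
      Submodule.smul_mem _ _ (Submodule.subset_span ⟨i, rfl⟩)
  let b : Basis ι A C := Basis.mk hli hsp
  have hbapply : ∀ i, bK i = algebraMap C L (b i) := fun i => by
    rw [Basis.mk_apply]
    rfl
  -- every nonzero prime of `C` is unramified
  have hwtower : ∀ r : R, algebraMap R L r = algebraMap C L (algebraMap A C (algebraMap R A r)) :=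
    fun r => by
      rw [← IsScalarTower.algebraMap_apply A C L, ← IsScalarTower.algebraMap_apply R A L]
  have hunram : ∀ (P : Ideal C) [P.IsPrime], P ≠ ⊥ → Algebra.IsUnramifiedAt A P := by
    intro P hPprime hPbot
    let v : HeightOneSpectrum C := ⟨P, hPprime, hPbot⟩
    set w := v.valuation L with hw
    let V : ValuationSubring L := w.valuationSubring
    have hequiv : w.IsEquiv V.valuation := Valuation.isEquiv_valuation_valuationSubring w
    have hwC : ∀ c : C, w (algebraMap C L c) ≤ 1 := v.valuation_le_one
    have hwR : ∀ r : R, w (algebraMap R L r) ≤ 1 := fun r => by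
      rw [hwtower]
      exact hwC _
    have hVtop : V ≠ ⊤ := by
      intro htop
      obtain ⟨x, hxP, hx0⟩ := Submodule.exists_mem_ne_zero_of_ne_bot hPbot
      have hwx : w (algebraMap C L x) < 1 := (v.valuation_lt_one_iff_mem x).2 hxP
      have hx0L : algebraMap C L x ≠ 0 := by
        rw [Ne, map_eq_zero_iff _ (IsFractionRing.injective C L)]
        exact hx0
      have hmem : (algebraMap C L x)⁻¹ ∈ V := by
        rw [htop]
        exact ValuationSubring.mem_top _
      rw [Valuation.mem_valuationSubring_iff, map_inv₀] at hmem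
      have hpos : 0 < w (algebraMap C L x) := zero_lt_iff.2 ((Valuation.ne_zero_iff w).2 hx0L)
      exact absurd hmem (not_le.2 ((one_lt_inv₀ hpos).2 hwx))
    have hRV : ∀ r : R, algebraMap R L r ∈ V := fun r =>
      (Valuation.mem_valuationSubring_iff _ _).2 (hwR r)
    have hπV : (algebraMap R L π)⁻¹ ∈ V := by
      obtain ⟨u, hu⟩ := hunit π hqπ
      have h5 : (algebraMap R L π)⁻¹ = algebraMap C L (algebraMap A C ((u⁻¹ : Aˣ) : A)) := by
        rw [← IsScalarTower.algebraMap_apply A C L, IsScalarTower.algebraMap_apply R A L, ← hu]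
        symm
        apply eq_inv_of_mul_eq_one_left
        rw [← map_mul, Units.inv_mul, map_one]
      rw [h5]
      exact (Valuation.mem_valuationSubring_iff _ _).2 (hwC _)
    obtain ⟨g, hg1, hgmax⟩ := hHOR V hVtop hRV hπV
    have hg1' : w (algebraMap R L g) < 1 := hequiv.lt_one_iff_lt_one.2 hg1
    have hgmax' : ∀ y, w y < 1 → w y ≤ w (algebraMap R L g) := fun y hy =>
      (hequiv _ _).2 (hgmax y (hequiv.lt_one_iff_lt_one.1 hy))
    have hunderprime : (P.under A).IsPrime := inferInstance
    have hgq : q ∣ g := by
      have h1 : algebraMap R A g ∈ P.under A := by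
        rw [Ideal.under_def, Ideal.mem_comap]
        rw [hwtower] at hg1'
        exact (v.valuation_lt_one_iff_mem _).1 hg1'
      have h2 : P.under A ≤ IsLocalRing.maximalIdeal A :=
        IsLocalRing.le_maximalIdeal hunderprime.ne_top
      have h3 := h2 h1
      rw [IsLocalization.AtPrime.to_map_mem_maximal_iff A (Ideal.span {q} : Ideal R)] at h3
      exact Ideal.mem_span_singleton.1 h3
    have hqP : algebraMap A C (algebraMap R A q) ∈ v.asIdeal := by
      have hp : P.under A ≠ ⊥ := mt Ideal.eq_bot_of_comap_eq_bot hPbot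
      have hpmax : (P.under A).IsMaximal := Ideal.IsPrime.isMaximal inferInstance hp
      have h6 : P.under A = IsLocalRing.maximalIdeal A := IsLocalRing.eq_maximalIdeal hpmax
      have h7 : algebraMap R A q ∈ P.under A := by
        rw [h6, hmaxA]
        exact Ideal.mem_span_singleton_self _
      exact h7
    apply isUnramifiedAt_of_forall_valuation_le (L := L) hnatA v (algebraMap R A q) hqP
    intro y hy
    obtain ⟨g', rfl⟩ := hgq
    calc w y ≤ w (algebraMap R L (q * g')) := hgmax' y hy
      _ = w (algebraMap R L q) * w (algebraMap R L g') := by rw [map_mul, map_mul]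
      _ ≤ w (algebraMap R L q) * 1 := mul_le_mul' le_rfl (hwR g')
      _ = w (algebraMap C L (algebraMap A C (algebraMap R A q))) := by rw [mul_one, hwtower]
  -- conclusion
  have hdiscr : Algebra.discr K bK = algebraMap A K (Algebra.discr A b) :=
    discr_map_of_basis (algebraMap A K) (algebraMap C L) (fun a => by
      rw [← IsScalarTower.algebraMap_apply A C L]
      rfl) b bK hbapply
  have hU : IsUnit (Algebra.discr A b) :=
    isUnit_discr_of_forall_isUnramifiedAt_of_charZero b hunram
  have heq : Algebra.discr A b = algebraMap R A δ := by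
    apply hinjAK
    rw [← hdiscr, ← hδ, ← IsScalarTower.algebraMap_apply R A K]
  rw [heq, IsLocalization.AtPrime.isUnit_to_map_iff A (Ideal.span {q} : Ideal R)] at hU
  intro hdvd
  exact hU (Ideal.mem_span_singleton.2 hdvd)

end HL

end Fermat.Agent.S18.H9
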