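/-
S18 project, PURITY-MAIN, route 2 (helper9): **(HOR) ⇒ `H41.HorCond`**.

`horCond_of_hHOR` : for `A = R[1/π]` a Dedekind domain in which every nonzero natural number is a
unit, the valuation-ring form (hHOR) of "the generic fibre is unramified in codimension one"
implies helper41's `HorCond R K L π` (the codifferent of the integral closure is contained in
`B[1/π]`).
-/
import Mathlib
import Fermat.Agent.S18.H9_HorLocal
import Fermat.Agent.S18.H41_PurityMain

set_option autoImplicit false
set_option linter.unusedSectionVars false
set_option linter.style.haveILetI false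

open Module IsDedekindDomain
open scoped nonZeroDivisors

namespace Fermat.Agent.S18.H9

section DualOne

attribute [local instance] FractionRing.liftAlgebra FractionRing.isScalarTower_liftAlgebra

variable {A C : Type*} [CommRing A] [CommRing C] [Algebra A C]
  [IsDedekindDomain A] [IsDedekindDomain C] [Module.IsTorsionFree A C] [Module.Finite A C]

/-- Every nonzero prime unramified ⇒ the different ideal is `⊤` (characteristic zero). -/
theorem differentIdeal_eq_top_of_forall_isUnramifiedAt [CharZero A]
    (h : ∀ (P : Ideal C) [P.IsPrime], P ≠ ⊥ → Algebra.IsUnramifiedAt A P) :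
    differentIdeal A C = ⊤ := by
  have hczK : CharZero (FractionRing A) :=
    charZero_of_injective_algebraMap (IsFractionRing.injective A (FractionRing A))
  have hfd : FiniteDimensional (FractionRing A) (FractionRing C) := inferInstance
  have hsep : Algebra.IsSeparable (FractionRing A) (FractionRing C) := inferInstance
  by_contra hne
  obtain ⟨P, hP, hle⟩ := Ideal.exists_le_maximal _ hne
  have hPprime : P.IsPrime := hP.isPrime
  have hdvd : P ∣ differentIdeal A C := Ideal.dvd_iff_le.2 hle
  by_cases hbot : P = ⊥
  · rw [hbot] at hle
    exact differentIdeal_ne_bot (A := A) (B := C) (le_bot_iff.1 hle)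
  · exact (not_dvd_differentIdeal_iff (A := A)).2 (h P hbot) hdvd

end DualOne

section TraceDual

variable {A C K L : Type*} [CommRing A] [CommRing C] [Algebra A C]
  [IsDedekindDomain A] [IsDedekindDomain C] [Module.IsTorsionFree A C] [Module.Finite A C]
  [Field K] [Algebra A K] [IsFractionRing A K] [Field L] [Algebra C L] [IsFractionRing C L]
  [Algebra K L] [Algebra A L] [IsScalarTower A K L] [IsScalarTower A C L]
  [FiniteDimensional K L] [Algebra.IsSeparable K L] [IsIntegralClosure C A L]

/-- Different ideal `= ⊤` ⇒ the trace dual of `C` is `C`. -/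
theorem mem_range_of_forall_trace_mem (hdiff : differentIdeal A C = ⊤) (x : L)
    (hx : ∀ c : C, Algebra.trace K L (x * algebraMap C L c) ∈ (algebraMap A K).range) :
    x ∈ (algebraMap C L).range := by
  have hdual : FractionalIdeal.dual A K (1 : FractionalIdeal C⁰ L) = 1 := by
    have h1 := coeIdeal_differentIdeal A K L C
    rw [hdiff, FractionalIdeal.coeIdeal_top] at h1
    exact inv_eq_one.1 h1.symm
  have hx' : x ∈ FractionalIdeal.dual A K (1 : FractionalIdeal C⁰ L) := by
    rw [FractionalIdeal.mem_dual (by simp)]
    intro a ha
    rw [FractionalIdeal.mem_one_iff] at ha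
    obtain ⟨a, rfl⟩ := ha
    rw [Algebra.traceForm_apply]
    exact hx a
  rw [hdual, FractionalIdeal.mem_one_iff] at hx'
  obtain ⟨c, hc⟩ := hx'
  exact ⟨c, hc⟩

end TraceDual

section HorCond

variable {R K L : Type*} [CommRing R] [IsDomain R]
  [Field K] [Algebra R K] [IsFractionRing R K] [Field L] [Algebra K L] [Algebra R L]
  [IsScalarTower R K L] [FiniteDimensional K L]

/-- **(HOR) ⇒ `HorCond`.** -/
theorem horCond_of_hHOR (π : R) (hπ0 : π ≠ 0)
    (A : Type*) [CommRing A] [Algebra R A] [IsLocalization.Away π A] [IsDedekindDomain A]
    (hnat : ∀ n : ℕ, n ≠ 0 → IsUnit ((n : ℕ) : A))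
    (hHOR : ∀ V : ValuationSubring L, V ≠ ⊤ → (∀ r : R, algebraMap R L r ∈ V) →
      (algebraMap R L π)⁻¹ ∈ V → ∃ g : R, V.valuation (algebraMap R L g) < 1 ∧
        ∀ y : L, V.valuation y < 1 → V.valuation y ≤ V.valuation (algebraMap R L g)) :
    H41.HorCond R K L π := by
  classical
  have hpow : Submonoid.powers π ≤ R⁰ := powers_le_nonZeroDivisors_of_noZeroDivisors hπ0
  letI algAK : Algebra A K := (IsLocalization.lift (M := Submonoid.powers π)
    (g := algebraMap R K) (fun y => by
      apply IsUnit.mk0
      rw [Ne, map_eq_zero_iff _ (IsFractionRing.injective R K)]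
      exact nonZeroDivisors.ne_zero (hpow y.2))).toAlgebra
  have towerRAK : IsScalarTower R A K := IsScalarTower.of_algebraMap_eq
    (fun x => (IsLocalization.lift_eq _ x).symm)
  have fracAK : IsFractionRing A K :=
    IsFractionRing.isFractionRing_of_isDomain_of_isLocalization (Submonoid.powers π) A K
  letI algAL : Algebra A L := ((algebraMap K L).comp (algebraMap A K)).toAlgebra
  have towerAKL : IsScalarTower A K L := IsScalarTower.of_algebraMap_eq (fun _ => rfl)
  have towerRAL : IsScalarTower R A L := IsScalarTower.of_algebraMap_eq (fun x => by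
    rw [IsScalarTower.algebraMap_apply R K L, IsScalarTower.algebraMap_apply R A K]
    rfl)
  have hinjAK : Function.Injective (algebraMap A K) := IsFractionRing.injective A K
  have hczA : CharZero A := by
    apply charZero_of_inj_zero
    intro n hn
    by_contra hn0
    exact (hnat n hn0).ne_zero hn
  have hczK : CharZero K := charZero_of_injective_algebraMap hinjAK
  have hsepKL : Algebra.IsSeparable K L := inferInstance
  have hinjAL : Function.Injective (algebraMap A L) :=
    (algebraMap K L).injective.comp hinjAK
  have htfAL : Module.IsTorsionFree A L := isTorsionFree_iff_algebraMap_injective.2 hinjAL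
  let C := integralClosure A L
  have hdedC : IsDedekindDomain C := integralClosure.isDedekindDomain A K L
  have hfinC : Module.Finite A C := IsIntegralClosure.finite A K L C
  have hfracC : IsFractionRing C L := integralClosure.isFractionRing_of_finite_extension K L
  have htfC : Module.IsTorsionFree A C := inferInstance
  have hπA : IsUnit (algebraMap R A π) :=
    IsLocalization.map_units A (⟨π, Submonoid.mem_powers π⟩ : Submonoid.powers π)
  have hunram : ∀ (P : Ideal C) [P.IsPrime], P ≠ ⊥ → Algebra.IsUnramifiedAt A P := by
    intro P _ hPbot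
    exact isUnramifiedAt_of_hHOR π A C hπA hnat hHOR P hPbot
  have hdiff : differentIdeal A C = ⊤ := differentIdeal_eq_top_of_forall_isUnramifiedAt hunram
  intro y hy
  -- `y` is trace-dual to `C`
  have hyC : y ∈ (algebraMap C L).range := by
    apply mem_range_of_forall_trace_mem (A := A) (K := K) hdiff
    intro c
    obtain ⟨m, hm⟩ := IsIntegral.exists_multiple_integral_of_isLocalization
      (Submonoid.powers π) (c : L) c.2
    obtain ⟨r, hr⟩ := hy _ hm
    obtain ⟨u, hu⟩ := IsLocalization.map_units A m
    refine ⟨((u⁻¹ : Aˣ) : A) * algebraMap R A r, ?_⟩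
    have h1 : Algebra.trace K L (y * (m • (c : L))) =
        algebraMap A K (u : A) * Algebra.trace K L (y * algebraMap C L c) := by
      have h2 : y * (m • (c : L)) = algebraMap A K (u : A) • (y * algebraMap C L c) := by
        rw [Submonoid.smul_def, Algebra.smul_def, Algebra.smul_def, hu,
          ← IsScalarTower.algebraMap_apply R A K, ← IsScalarTower.algebraMap_apply R K L]
        change _ = _ * (y * (c : L))
        ring
      rw [h2, map_smul, smul_eq_mul]
    rw [map_mul, ← IsScalarTower.algebraMap_apply R A K, ← hr, h1, ← mul_assoc, ← map_mul,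
      Units.inv_mul, map_one, one_mul]
  obtain ⟨c, rfl⟩ := hyC
  obtain ⟨m, hm⟩ := IsIntegral.exists_multiple_integral_of_isLocalization
    (Submonoid.powers π) (algebraMap C L c) c.2
  obtain ⟨k, hk⟩ := m.2
  refine ⟨k, ?_⟩
  have : (π ^ k) • algebraMap C L c = m • algebraMap C L c := by
    rw [Submonoid.smul_def, ← hk]
  rw [this]
  exact hm

end HorCond

end Fermat.Agent.S18.H9
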