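/-
S18 project, route Q (helper96): **one auxiliary-line chart, chart-parametric**.

`A₁` a DVR with uniformiser `ϖ`, fraction field `L1` (char. 0), residue map `res : A₁ → k` onto an
algebraically closed field; `F1 = L1(j1, θ)` a function field; `F' = F1(μ)` a finite Galois
extension, `μ` a coordinate of the auxiliary line `R' = A₁[μ, 1/f(μ)] = H26.LineRing f` with
`j1 = jY(μ)`, `jY ∈ R'`.  From (VERT) (a monic `Φ ∈ R'[X]` with root `θ`, separable mod `ϖ`),
(HOR) in the `Place` form of `H96.exists_uniformizer_of_places`, integrality of `μ, 1/f(μ)` over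
`A₁[j1]` and `(ϖ)` prime in the integral closure `A` of `A₁[j1]` in `F1`, we get:
`A ⧸ ϖ` is integrally closed.

Instances: Hesse (`f = X³ - 1`, `ℓ = 2`), Legendre (`f = X (X - 1)`, `ℓ` odd).
-/
import Fermat.Agent.S18.H96_RouteQAbstract
import Fermat.Agent.S18.H96_HorBridge
import Fermat.Agent.S18.H26_BaseLine
import Fermat.Agent.S18.H1_VertCond
import Fermat.Agent.S18.H9_HorCond
import Fermat.Agent.S18.H70_AuxCompositum
import Fermat.Agent.S18.H40_CechFG

set_option autoImplicit false
set_option linter.unusedSectionVars false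
set_option linter.style.haveILetI false

namespace Fermat.Agent.S18.H96

open Polynomial IntermediateField AlgebraicCurve Fermat.Agent.S18

/-! ### The closed points of the special fibre of the line ring (`hpt`) -/

section Hpt

variable {A₁ : Type*} [CommRing A₁] [IsDomain A₁]

/-- `hpt` of `H96.isIntegrallyClosed_specialFibre` for the line ring `A₁[X][1/f]`. -/
theorem hpt_lineRing (f : A₁[X]) {ϖ : A₁}
    {k : Type} [Field k] [IsAlgClosed k] (res : A₁ →+* k) (hres : Function.Surjective res)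
    (hker : RingHom.ker res = Ideal.span {ϖ}) :
    ∀ p : Ideal (H26.LineRing f), p.IsMaximal → algebraMap A₁ (H26.LineRing f) ϖ ∈ p →
      (∃ g : H26.LineRing f, p = Ideal.span {algebraMap A₁ (H26.LineRing f) ϖ, g}) ∧
      (∀ r : H26.LineRing f, ∃ a : A₁, r - algebraMap A₁ (H26.LineRing f) a ∈ p) ∧
      ∃ (k : Type) (_ : Field k) (_ : IsAlgClosed k), Nonempty ((H26.LineRing f ⧸ p) ≃+* k) := by
  intro p hp hϖp
  obtain ⟨a, -, hpa, hcong⟩ := H26.LineRing.exists_eq_span_of_isMaximal f res hres hker p hp hϖp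
  refine ⟨⟨_, hpa⟩, hcong, k, inferInstance, inferInstance, ?_⟩
  -- the residue field is `k`
  let g : A₁ →+* H26.LineRing f ⧸ p := (Ideal.Quotient.mk p).comp (algebraMap A₁ (H26.LineRing f))
  have hgsurj : Function.Surjective g := by
    intro x
    obtain ⟨r, rfl⟩ := Ideal.Quotient.mk_surjective x
    obtain ⟨a', ha'⟩ := hcong r
    exact ⟨a', (Ideal.Quotient.eq.mpr ha').symm⟩
  have hmax : (RingHom.ker res).IsMaximal := RingHom.ker_isMaximal_of_surjective res hres
  have hle : RingHom.ker res ≤ RingHom.ker g := by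
    rw [hker, Ideal.span_singleton_le_iff_mem, RingHom.mem_ker]
    exact Ideal.Quotient.eq_zero_iff_mem.mpr hϖp
  have hne : RingHom.ker g ≠ ⊤ := by
    have : Nontrivial (H26.LineRing f ⧸ p) := Ideal.Quotient.nontrivial_iff.mpr hp.ne_top
    exact RingHom.ker_ne_top g
  have hkg : RingHom.ker res = RingHom.ker g := hmax.eq_of_le hne hle
  exact ⟨(RingHom.quotientKerEquivOfSurjective hgsurj).symm.trans
    ((Ideal.quotEquivOfEq hkg.symm).trans (RingHom.quotientKerEquivOfSurjective hres))⟩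

end Hpt

/-! ### Natural numbers are units in `R[1/ϖ]` -/

section Hnat

variable {A₁ R : Type*} [CommRing A₁] [IsDomain A₁] [IsDiscreteValuationRing A₁] [CharZero A₁]
  [CommRing R] [Algebra A₁ R]

/-- In `R[1/ϖ]`, `R` an algebra over the DVR `A₁` of characteristic zero with uniformiser `ϖ`,
every nonzero natural number is a unit. -/
theorem isUnit_natCast_away {ϖ : A₁} (hϖ : Irreducible ϖ) (A : Type*) [CommRing A] [Algebra R A]
    [IsLocalization.Away (algebraMap A₁ R ϖ) A] (n : ℕ) (hn : n ≠ 0) : IsUnit ((n : ℕ) : A) := by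
  have hn0 : ((n : ℕ) : A₁) ≠ 0 := Nat.cast_ne_zero.mpr hn
  obtain ⟨a, ha⟩ := IsDiscreteValuationRing.associated_pow_irreducible hn0 hϖ
  obtain ⟨u, hu⟩ := ha.symm
  have hϖA : IsUnit (algebraMap R A (algebraMap A₁ R ϖ)) :=
    IsLocalization.map_units A (⟨algebraMap A₁ R ϖ, Submonoid.mem_powers _⟩ :
      Submonoid.powers (algebraMap A₁ R ϖ))
  have h1 : ((n : ℕ) : A) = algebraMap R A (algebraMap A₁ R ((n : ℕ) : A₁)) := by
    rw [map_natCast, map_natCast]
  rw [h1, ← hu, map_mul, map_mul, map_pow, map_pow]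
  exact (hϖA.pow a).mul ((u.isUnit.map (algebraMap A₁ R)).map (algebraMap R A))

end Hnat

/-! ### Generation and finiteness of `F'` over the fraction field of the line -/

section Gen

variable {A₁ L1 F1 F' R' K' : Type*} [CommRing A₁] [IsDomain A₁]
  [Field L1] [Algebra A₁ L1] [IsFractionRing A₁ L1]
  [Field F1] [Algebra L1 F1]
  [Field F'] [Algebra F1 F'] [Algebra L1 F'] [IsScalarTower L1 F1 F'] [Algebra A₁ F']
  [IsScalarTower A₁ L1 F']
  [CommRing R'] [Algebra A₁ R'] [Algebra R' F'] [IsScalarTower A₁ R' F']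
  [Field K'] [Algebra R' K'] [Algebra K' F'] [IsScalarTower R' K' F']

/-- `F' = K'(θ)` and `[F' : K'] < ∞` for `K'` a field containing the line ring `R' ∋ μ, jY`. -/
theorem adjoin_eq_top_and_finiteDimensional_of_line
    (hinj : Function.Injective ((algebraMap R' K').comp (algebraMap A₁ R')))
    {j θ : F1} (hgen : L1⟮j⟯⟮θ⟯ = ⊤) (hθ : IsAlgebraic L1⟮j⟯ θ) {μ : F'} (hμtop : F1⟮μ⟯ = ⊤)
    (m jY : R') (hm : algebraMap R' F' m = μ) (hjY : algebraMap R' F' jY = algebraMap F1 F' j) :
    K'⟮algebraMap F1 F' θ⟯ = ⊤ ∧ FiniteDimensional K' F' := by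
  letI algL1K' : Algebra L1 K' := (IsFractionRing.lift (K := L1) hinj).toAlgebra
  have htower : IsScalarTower L1 K' F' := by
    refine IsScalarTower.of_algebraMap_eq' ?_
    refine IsLocalization.ringHom_ext (nonZeroDivisors A₁) ?_
    ext a
    rw [RingHom.comp_apply, RingHom.comp_apply, RingHom.comp_apply,
      ← IsScalarTower.algebraMap_apply A₁ L1 F']
    change _ = algebraMap K' F' (IsFractionRing.lift hinj (algebraMap A₁ L1 a))
    rw [IsFractionRing.lift_algebraMap, RingHom.comp_apply,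
      ← IsScalarTower.algebraMap_apply R' K' F', ← IsScalarTower.algebraMap_apply A₁ R' F']
  have hμr : μ ∈ (algebraMap K' F').range :=
    ⟨algebraMap R' K' m, by rw [← IsScalarTower.algebraMap_apply R' K' F', hm]⟩
  have hjr : algebraMap F1 F' j ∈ (algebraMap K' F').range :=
    ⟨algebraMap R' K' jY, by rw [← IsScalarTower.algebraMap_apply R' K' F', hjY]⟩
  exact ⟨H70.adjoin_eq_top_of_compositum (L := L1) hgen hμtop hμr hjr,
    H70.finiteDimensional_of_compositum (L := L1) hgen hθ hμtop hμr hjr⟩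

end Gen

/-! ### Integrality over `A₁[j1]` seen inside `F1` -/

section Integral

variable {A₁ F1 F' : Type*} [CommRing A₁] [CommRing F1] [CommRing F'] [Algebra A₁ F1]
  [Algebra A₁ F'] [Algebra F1 F'] [IsScalarTower A₁ F1 F']

/-- Integrality over the subalgebra `A₁[φ j1] ⊆ F'` is integrality over `A₁[j1] ⊆ F1` acting on
`F'` through `φ = algebraMap F1 F'`. -/
theorem isIntegral_adjoin_of_isIntegral_adjoin_image (j1 : F1)
    [Algebra ↥(Algebra.adjoin A₁ {j1}) F']
    (hcomp : ∀ x : ↥(Algebra.adjoin A₁ {j1}),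
      algebraMap ↥(Algebra.adjoin A₁ {j1}) F' x = algebraMap F1 F' (x : F1)) {y : F'}
    (hy : IsIntegral (Algebra.adjoin A₁ {algebraMap F1 F' j1}) y) :
    IsIntegral ↥(Algebra.adjoin A₁ {j1}) y := by
  obtain ⟨p, hpm, hp⟩ := hy
  set T : Subalgebra A₁ F' := Algebra.adjoin A₁ {algebraMap F1 F' j1} with hT
  have hTmap : T = (Algebra.adjoin A₁ {j1}).map (IsScalarTower.toAlgHom A₁ F1 F') := by
    rw [hT, AlgHom.map_adjoin, Set.image_singleton]
    rfl
  set P : F'[X] := p.map (algebraMap T F') with hP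
  have hPm : P.Monic := hpm.map _
  have hlifts : P ∈ Polynomial.lifts (algebraMap ↥(Algebra.adjoin A₁ {j1}) F') := by
    rw [Polynomial.lifts_iff_coeff_lifts]
    intro i
    rw [hP, Polynomial.coeff_map]
    have hc : ((p.coeff i : T) : F') ∈ (Algebra.adjoin A₁ {j1}).map
        (IsScalarTower.toAlgHom A₁ F1 F') := by
      rw [← hTmap]; exact (p.coeff i).2
    obtain ⟨c', hc', hcc'⟩ := hc
    refine ⟨⟨c', hc'⟩, ?_⟩
    rw [hcomp]
    exact hcc'
  obtain ⟨q, hq, -, hqm⟩ := Polynomial.lifts_and_natDegree_eq_and_monic hlifts hPm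
  refine ⟨q, hqm, ?_⟩
  rw [← Polynomial.eval_map, hq, hP, Polynomial.eval_map]
  exact hp

end Integral

/-! ### `L1(j)` is the fraction field of `A₁[j]` -/

section FracAdjoin

variable {R K F : Type*} [CommRing R] [IsDomain R] [Field K] [Algebra R K] [IsFractionRing R K]
  [Field F] [Algebra R F] [Algebra K F] [IsScalarTower R K F]

/-- (extracted from `H40.integralClosure_adjoin_fg`) -/
theorem isFractionRing_adjoinToSimple (j : F) :
    letI : Algebra (Algebra.adjoin R {j}) K⟮j⟯ := (H40.adjoinToSimple (K := K) j).toAlgebra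
    IsFractionRing (Algebra.adjoin R {j}) K⟮j⟯ := by
  letI : Algebra (Algebra.adjoin R {j}) K⟮j⟯ := (H40.adjoinToSimple (K := K) j).toAlgebra
  have hinjRF : Function.Injective (algebraMap R F) := by
    rw [IsScalarTower.algebraMap_eq R K F]
    exact (algebraMap K F).injective.comp (IsFractionRing.injective R K)
  have hfs : FaithfulSMul (Algebra.adjoin R {j}) K⟮j⟯ :=
    (faithfulSMul_iff_algebraMap_injective _ _).2 (by
      intro a b hab
      apply Subtype.ext
      exact congrArg (fun z : K⟮j⟯ => (z : F)) hab)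
  refine IsFractionRing.of_field (Algebra.adjoin R {j}) K⟮j⟯ ?_
  rintro ⟨z, hz⟩
  obtain ⟨r, s, hrs⟩ := (mem_adjoin_simple_iff K z).1 hz
  obtain ⟨c, r', hc, hr'⟩ := H40.exists_aeval_eq_div (R := R) j r
  obtain ⟨d, s', hd, hs'⟩ := H40.exists_aeval_eq_div (R := R) j s
  have hcF : algebraMap R F c ≠ 0 := fun h => hc (hinjRF (by rw [h, map_zero]))
  have hdF : algebraMap R F d ≠ 0 := fun h => hd (hinjRF (by rw [h, map_zero]))
  refine ⟨⟨aeval j (C d * r'), ?_⟩, ⟨aeval j (C c * s'), ?_⟩, ?_⟩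
  · rw [Algebra.adjoin_singleton_eq_range_aeval]; exact ⟨_, rfl⟩
  · rw [Algebra.adjoin_singleton_eq_range_aeval]; exact ⟨_, rfl⟩
  · apply Subtype.ext
    change z = aeval j (C d * r') / aeval j (C c * s')
    rw [map_mul, map_mul, aeval_C, aeval_C, ← hr', ← hs', hrs]
    by_cases hs0 : aeval j s = 0
    · rw [hs0]; simp
    · field_simp

end FracAdjoin

/-! ### The chart -/

section Main

universe u v

variable {A₁ : Type*} {L1 : Type u} {F1 : Type*} {F' : Type v}
  [CommRing A₁] [IsDomain A₁] [IsDiscreteValuationRing A₁]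
  [Field L1] [Algebra A₁ L1] [IsFractionRing A₁ L1] [CharZero L1]
  [Field F1] [Algebra L1 F1] [Algebra A₁ F1] [IsScalarTower A₁ L1 F1]
  [Field F'] [Algebra F1 F'] [Algebra L1 F'] [IsScalarTower L1 F1 F'] [Algebra A₁ F']
  [IsScalarTower A₁ L1 F']

set_option maxHeartbeats 1600000 in
set_option synthInstance.maxHeartbeats 400000 in
/-- **Route Q, one auxiliary-line chart (chart-parametric).** -/
theorem isIntegrallyClosed_specialFibre_of_auxLine
    {ϖ : A₁} (hϖ : Irreducible ϖ)
    {k : Type} [Field k] [IsAlgClosed k] (res : A₁ →+* k) (hres : Function.Surjective res)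
    (hker : RingHom.ker res = Ideal.span {ϖ})
    -- the function field `F1 = L1(j1, θ)`
    (j1 θ : F1) (hj1 : Transcendental L1 j1) (hgen : L1⟮j1⟯⟮θ⟯ = ⊤)
    [FiniteDimensional L1⟮j1⟯ F1]
    -- the auxiliary cover `F' = F1(μ)`
    [FiniteDimensional F1 F'] [IsGalois F1 F']
    (μ : F') (hμ : Transcendental L1 μ) (hμtop : F1⟮μ⟯ = ⊤) [FiniteDimensional L1⟮μ⟯ F']
    -- the auxiliary line `A₁[μ, 1/f(μ)]` and `j1 = jY(μ)`
    (f : A₁[X]) (hf : f.map res ≠ 0) (hfμ : IsUnit (aeval μ f))
    (jY : H26.LineRing f) (hjY : H26.LineRing.liftAlg f μ hfμ jY = algebraMap F1 F' j1)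
    -- the auxiliary line is integral over the `j`-line
    (hintμ : IsIntegral (Algebra.adjoin A₁ {algebraMap F1 F' j1}) μ)
    (hintw : IsIntegral (Algebra.adjoin A₁ {algebraMap F1 F' j1})
      (H26.LineRing.liftAlg f μ hfμ (H26.LineRing.inv f)))
    -- (VERT)
    (Φ : (H26.LineRing f)[X]) (hΦ : Φ.Monic)
    (hroot : Φ.eval₂ (H26.LineRing.liftAlg f μ hfμ).toRingHom (algebraMap F1 F' θ) = 0)
    (hsep : (Φ.map (H26.LineRing.toRatFunc f res hf)).Separable)
    -- (HOR)
    (hDed : IsDedekindDomain (Localization.Away (algebraMap A₁ (H26.LineRing f) ϖ)))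
    (hunr : ∀ (v : Place L1 F') (g₀ : L1[X]), Irreducible g₀ →
      ¬ g₀ ∣ f.map (algebraMap A₁ L1) → 0 < v.ord (aeval μ g₀) → v.ord (aeval μ g₀) = 1)
    -- (INST-2) `(ϖ)` is prime in the integral closure
    (hprime : (Ideal.span {algebraMap ↥(Algebra.adjoin A₁ {j1})
      (integralClosure ↥(Algebra.adjoin A₁ {j1}) F1)
      (algebraMap A₁ ↥(Algebra.adjoin A₁ {j1}) ϖ)}).IsPrime) :
    IsIntegrallyClosed
      (integralClosure ↥(Algebra.adjoin A₁ {j1}) F1 ⧸
        Ideal.span {algebraMap ↥(Algebra.adjoin A₁ {j1})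
          (integralClosure ↥(Algebra.adjoin A₁ {j1}) F1)
          (algebraMap A₁ ↥(Algebra.adjoin A₁ {j1}) ϖ)}) := by
  classical
  have hcz : CharZero A₁ := by
    refine ⟨fun a b hab => ?_⟩
    have : ((a : ℕ) : L1) = ((b : ℕ) : L1) := by
      rw [← map_natCast (algebraMap A₁ L1), ← map_natCast (algebraMap A₁ L1), hab]
    exact Nat.cast_injective this
  have hϖ0 : ϖ ≠ 0 := hϖ.ne_zero
  have hf0 : f ≠ 0 := H26.LineRing.ne_zero_of_map_ne_zero f res hf
  have htAF : IsScalarTower A₁ F1 F' := IsScalarTower.of_algebraMap_eq (fun a => by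
    rw [IsScalarTower.algebraMap_apply A₁ L1 F', IsScalarTower.algebraMap_apply L1 F1 F',
      ← IsScalarTower.algebraMap_apply A₁ L1 F1])
  have hj1A : Transcendental A₁ j1 := H40.transcendental_of_tower (K := L1) j1 hj1
  have hμA : Transcendental A₁ μ := H40.transcendental_of_tower (K := L1) μ hμ
  -- ## the chart ring `R0 = A₁[j1]`, `K0 = L1(j1)`
  let e : A₁[X] ≃ₐ[A₁] Algebra.adjoin A₁ {j1} := Polynomial.algEquivOfTranscendental A₁ j1 hj1A
  have hR0noeth : IsNoetherianRing (Algebra.adjoin A₁ {j1}) :=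
    isNoetherianRing_of_ringEquiv A₁[X] e.toRingEquiv
  have hR0ic : IsIntegrallyClosed (Algebra.adjoin A₁ {j1}) :=
    IsIntegrallyClosed.of_equiv e.toRingEquiv
  letI algR0K0 : Algebra (Algebra.adjoin A₁ {j1}) L1⟮j1⟯ :=
    (H40.adjoinToSimple (K := L1) j1).toAlgebra
  have hst0 : IsScalarTower (Algebra.adjoin A₁ {j1}) L1⟮j1⟯ F1 :=
    IsScalarTower.of_algebraMap_eq (fun a => rfl)
  have hfr0 : IsFractionRing (Algebra.adjoin A₁ {j1}) L1⟮j1⟯ :=
    isFractionRing_adjoinToSimple (R := A₁) (K := L1) j1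
  have hczK0 : CharZero L1⟮j1⟯ := charZero_of_injective_algebraMap (algebraMap L1 L1⟮j1⟯).injective
  have hsep0 : Algebra.IsSeparable L1⟮j1⟯ F1 := inferInstance
  -- ## the auxiliary line `R' = A₁[μ, 1/f(μ)]`, `K' = Frac R'`
  have hR'dom : IsDomain (H26.LineRing f) := H26.LineRing.isDomain f hf0
  letI algR'F' : Algebra (H26.LineRing f) F' := H26.LineRing.algebraOfCoord f μ hfμ
  have htR' : IsScalarTower A₁ (H26.LineRing f) F' :=
    H26.LineRing.isScalarTower_algebraOfCoord f μ hfμ
  have hfaith : FaithfulSMul (H26.LineRing f) F' :=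
    H26.LineRing.faithfulSMul_algebraOfCoord f μ hfμ hμA
  have hinjR'F' : Function.Injective (algebraMap (H26.LineRing f) F') :=
    (faithfulSMul_iff_algebraMap_injective _ _).mp hfaith
  letI algK'F' : Algebra (FractionRing (H26.LineRing f)) F' := FractionRing.liftAlgebra _ _
  have htK' : IsScalarTower (H26.LineRing f) (FractionRing (H26.LineRing f)) F' :=
    FractionRing.isScalarTower_liftAlgebra _ _
  have halgR'F' : ∀ r : H26.LineRing f,
      algebraMap (H26.LineRing f) F' r = H26.LineRing.liftAlg f μ hfμ r := fun _ => rfl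
  -- ## `R0 → R'`, `j1 ↦ jY`
  let ψ : Algebra.adjoin A₁ {j1} →ₐ[A₁] H26.LineRing f :=
    (Polynomial.aeval jY : A₁[X] →ₐ[A₁] H26.LineRing f).comp e.symm.toAlgHom
  letI algR0R' : Algebra (Algebra.adjoin A₁ {j1}) (H26.LineRing f) := ψ.toRingHom.toAlgebra
  have htA01 : IsScalarTower A₁ (Algebra.adjoin A₁ {j1}) (H26.LineRing f) :=
    IsScalarTower.of_algebraMap_eq (fun a => (ψ.commutes a).symm)
  have htR0F1F' : IsScalarTower (Algebra.adjoin A₁ {j1}) F1 F' := inferInstance
  have halgR0F' : ∀ x : Algebra.adjoin A₁ {j1},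
      algebraMap (Algebra.adjoin A₁ {j1}) F' x = algebraMap F1 F' (x : F1) := fun _ => rfl
  have hψ : ∀ x : Algebra.adjoin A₁ {j1},
      algebraMap (H26.LineRing f) F' (ψ x) = algebraMap F1 F' (x : F1) := by
    intro x
    obtain ⟨p, rfl⟩ := e.surjective x
    have h1 : ψ (e p) = Polynomial.aeval jY p := by
      change Polynomial.aeval jY (e.symm (e p)) = _
      rw [AlgEquiv.symm_apply_apply]
    have h2 : ((e p : Algebra.adjoin A₁ {j1}) : F1) = Polynomial.aeval j1 p := by
      change ((Polynomial.aeval (⟨j1, Algebra.self_mem_adjoin_singleton A₁ j1⟩ :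
        Algebra.adjoin A₁ {j1}) p : Algebra.adjoin A₁ {j1}) : F1) = _
      rw [← Subalgebra.coe_val, ← Polynomial.aeval_algHom_apply]
      rfl
    rw [h1, h2, halgR'F', ← Polynomial.aeval_algHom_apply, hjY,
      ← Polynomial.aeval_algebraMap_apply]
  have htR0R'F' : IsScalarTower (Algebra.adjoin A₁ {j1}) (H26.LineRing f) F' :=
    IsScalarTower.of_algebraMap_eq (fun x => by rw [halgR0F']; exact (hψ x).symm)
  -- ## `R'` is integral over `R0`
  have hintR' : Algebra.IsIntegral (Algebra.adjoin A₁ {j1}) (H26.LineRing f) := by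
    refine ⟨fun r => ?_⟩
    have h1 : IsIntegral (Algebra.adjoin A₁ {algebraMap F1 F' j1})
        (H26.LineRing.liftAlg f μ hfμ r) := H26.LineRing.isIntegral_liftAlg f μ hfμ hintμ hintw r
    have h2 : IsIntegral (Algebra.adjoin A₁ {j1}) (algebraMap (H26.LineRing f) F' r) :=
      isIntegral_adjoin_of_isIntegral_adjoin_image j1 halgR0F' h1
    exact (isIntegral_algebraMap_iff hinjR'F').mp h2
  -- ## `F' = K'(θ)`, finite separable
  have hθalg : IsAlgebraic L1⟮j1⟯ θ := Algebra.IsAlgebraic.isAlgebraic θ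
  have hinjAK' : Function.Injective ((algebraMap (H26.LineRing f)
      (FractionRing (H26.LineRing f))).comp (algebraMap A₁ (H26.LineRing f))) :=
    (IsFractionRing.injective (H26.LineRing f) (FractionRing (H26.LineRing f))).comp
      (H26.LineRing.algebraMap_injective f hf0)
  obtain ⟨hgen', hfin'⟩ := adjoin_eq_top_and_finiteDimensional_of_line (A₁ := A₁) (L1 := L1)
    (R' := H26.LineRing f) (K' := FractionRing (H26.LineRing f)) hinjAK' hgen hθalg hμtop
    (H26.LineRing.coord f) jY (H26.LineRing.liftAlg_coord f μ hfμ) hjY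
  have hczR' : CharZero (H26.LineRing f) :=
    charZero_of_injective_algebraMap (H26.LineRing.algebraMap_injective f hf0)
  have hczK' : CharZero (FractionRing (H26.LineRing f)) :=
    charZero_of_injective_algebraMap
      (IsFractionRing.injective (H26.LineRing f) (FractionRing (H26.LineRing f)))
  have hsep' : Algebra.IsSeparable (FractionRing (H26.LineRing f)) F' := inferInstance
  -- ## (VERT)
  have hresϖ : res ϖ = 0 := by
    rw [← RingHom.mem_ker, hker]; exact Ideal.mem_span_singleton_self ϖ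
  have hV : H41.VertCond (H26.LineRing f) (FractionRing (H26.LineRing f)) F'
      (algebraMap A₁ (H26.LineRing f) ϖ) := by
    refine H1.vertCond_of_separable (algebraMap F1 F' θ) hgen' hΦ ?_
      (H26.LineRing.toRatFunc f res hf) hsep ?_
    · rw [Polynomial.aeval_def]; exact hroot
    · rw [H26.LineRing.toRatFunc_algebraMap, hresϖ, map_zero]
  -- ## (HOR)
  have hϖR' : Prime (algebraMap A₁ (H26.LineRing f) ϖ) :=
    H26.LineRing.prime_algebraMap f res hker hϖ0 hf
  have hH : H41.HorCond (H26.LineRing f) (FractionRing (H26.LineRing f)) F'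
      (algebraMap A₁ (H26.LineRing f) ϖ) := by
    haveI := hDed
    refine H9.horCond_of_hHOR (algebraMap A₁ (H26.LineRing f) ϖ) hϖR'.ne_zero
      (Localization.Away (algebraMap A₁ (H26.LineRing f) ϖ))
      (fun n hn => isUnit_natCast_away (R := H26.LineRing f) hϖ _ n hn) ?_
    intro V hV hRV hϖV
    refine exists_uniformizer_of_places (K0 := L1) hϖ μ hμ (f.map (algebraMap A₁ L1)) hunr
      (H26.LineRing.coord f) (H26.LineRing.liftAlg_coord f μ hfμ) ?_ V hV hRV hϖV
    refine ⟨H26.LineRing.inv f, ?_⟩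
    rw [Polynomial.aeval_map_algebraMap]
    exact H26.LineRing.liftAlg_inv_mul f μ hfμ
  -- ## assembly
  haveI hPID : IsPrincipalIdealRing
      (H26.LineRing f ⧸ Ideal.span {algebraMap A₁ (H26.LineRing f) ϖ}) :=
    H26.LineRing.isPrincipalIdealRing_quotient f res hres hker hf
  exact isIntegrallyClosed_specialFibre L1⟮j1⟯ (FractionRing (H26.LineRing f)) ϖ hϖR' hV hH
    (hpt_lineRing f res hres hker) hprime

end Main

end Fermat.Agent.S18.H96
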