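/-
S18 project, route Q of (GR) (helper9): **the generic fibre of a chart base line is Dedekind**.

`A₁` a domain with an element `ϖ ≠ 0` such that every nonzero element of `A₁` divides a power of
`ϖ` (e.g. a DVR with uniformiser `ϖ`), `R` ANY localisation of `A₁[X]` at a submonoid
`M ≤ (A₁[X])⁰` (`Localization.Away f` for the Hesse / Legendre base lines, the localisation at the
prime `(ϖ, X)` for the cusp line), `A := R[1/ϖ]`.  Then `A` is a localisation of the PID
`A₁[1/ϖ][X]`, hence a Dedekind domain, and every nonzero natural number is a unit of `A` when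
`A₁` has characteristic zero.  These are the two chart-side inputs `[IsDedekindDomain A]` and
`hnat` of `H9.horCond_of_hHOR`; the composite `horCond_of_hHOR_of_isLocalization_polynomial` needs
only `(hHOR)`.
-/
import Fermat.Agent.S18.H9_HorCond

set_option autoImplicit false
set_option linter.unusedSectionVars false
set_option linter.style.haveILetI false

open Polynomial

namespace Fermat.Agent.S18.H9

section GenericFibre

variable {A₁ : Type*} [CommRing A₁] [IsDomain A₁]

/-- In a DVR every nonzero element divides a power of a uniformiser. -/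
theorem exists_dvd_pow_of_irreducible [IsDiscreteValuationRing A₁] {ϖ : A₁} (hϖ : Irreducible ϖ)
    (a : A₁) (ha : a ≠ 0) : ∃ n : ℕ, a ∣ ϖ ^ n := by
  obtain ⟨n, u, rfl⟩ := IsDiscreteValuationRing.eq_unit_mul_pow_irreducible ha hϖ
  exact ⟨n, ⟨((u⁻¹ : A₁ˣ) : A₁), by
    rw [mul_comm ((u : A₁) * ϖ ^ n), ← mul_assoc, Units.inv_mul, one_mul]⟩⟩

/-- If every nonzero element of `A₁` divides a power of `ϖ`, then `A₁[1/ϖ]` is the fraction
field. -/
theorem isFractionRing_away_of_dvd_pow (ϖ : A₁) (hϖ0 : ϖ ≠ 0)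
    (hdiv : ∀ a : A₁, a ≠ 0 → ∃ n : ℕ, a ∣ ϖ ^ n)
    (L : Type*) [CommRing L] [Algebra A₁ L] [IsLocalization.Away ϖ L] : IsFractionRing A₁ L := by
  refine IsLocalization.of_le (Submonoid.powers ϖ) (nonZeroDivisors A₁)
    (powers_le_nonZeroDivisors_of_noZeroDivisors hϖ0) ?_
  intro r hr
  obtain ⟨n, hn⟩ := hdiv r (nonZeroDivisors.ne_zero hr)
  refine isUnit_of_dvd_unit (map_dvd (algebraMap A₁ L) hn) ?_
  rw [map_pow]
  exact (IsLocalization.Away.algebraMap_isUnit ϖ).pow n

/-- Nonzero natural numbers are units in `R[1/ϖ]` for ANY `A₁`-algebra `R`. -/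
theorem isUnit_natCast_away_of_dvd_pow [CharZero A₁] (ϖ : A₁)
    (hdiv : ∀ a : A₁, a ≠ 0 → ∃ n : ℕ, a ∣ ϖ ^ n)
    (R : Type*) [CommRing R] [Algebra A₁ R]
    (A : Type*) [CommRing A] [Algebra R A] [IsLocalization.Away (algebraMap A₁ R ϖ) A]
    (n : ℕ) (hn : n ≠ 0) : IsUnit ((n : ℕ) : A) := by
  obtain ⟨k, hk⟩ := hdiv (n : A₁) (Nat.cast_ne_zero.2 hn)
  have h1 : ((n : ℕ) : A) = algebraMap R A (algebraMap A₁ R (n : A₁)) := by
    rw [map_natCast, map_natCast]
  rw [h1]
  refine isUnit_of_dvd_unit (map_dvd (algebraMap R A) (map_dvd (algebraMap A₁ R) hk)) ?_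
  rw [map_pow, map_pow]
  exact (IsLocalization.Away.algebraMap_isUnit (algebraMap A₁ R ϖ)).pow k

/-- **The generic fibre of a localisation of `A₁[X]` is Dedekind.** -/
theorem isDedekindDomain_away_of_isLocalization_polynomial (ϖ : A₁) (hϖ0 : ϖ ≠ 0)
    (hdiv : ∀ a : A₁, a ≠ 0 → ∃ n : ℕ, a ∣ ϖ ^ n)
    (M : Submonoid A₁[X]) (hM : M ≤ nonZeroDivisors A₁[X])
    (R : Type*) [CommRing R] [Algebra A₁[X] R] [IsLocalization M R]
    [Algebra A₁ R] [IsScalarTower A₁ A₁[X] R]
    (A : Type*) [CommRing A] [Algebra R A] [IsLocalization.Away (algebraMap A₁ R ϖ) A] :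
    IsDedekindDomain A := by
  classical
  -- the field `L = A₁[1/ϖ]`
  let L := Localization.Away ϖ
  haveI : IsFractionRing A₁ L := isFractionRing_away_of_dvd_pow ϖ hϖ0 hdiv L
  letI : Field L := IsFractionRing.toField A₁
  haveI : IsDedekindDomain L[X] := inferInstance
  letI algPoly : Algebra A₁[X] L[X] := Polynomial.algebra A₁ L
  haveI h1 : IsLocalization ((Submonoid.powers ϖ).map (C : A₁ →+* A₁[X])) L[X] :=
    Polynomial.isLocalization (Submonoid.powers ϖ) L
  -- `A` as a localisation of `A₁[X]`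
  haveI : IsDomain R := IsLocalization.isDomain_of_le_nonZeroDivisors R hM
  have hinjR : Function.Injective (algebraMap A₁[X] R) := IsLocalization.injective R hM
  letI algA : Algebra A₁[X] A := ((algebraMap R A).comp (algebraMap A₁[X] R)).toAlgebra
  haveI : IsScalarTower A₁[X] R A := IsScalarTower.of_algebraMap_eq fun _ => rfl
  set N : Submonoid A₁[X] :=
    IsLocalization.localizationLocalizationSubmodule M (Submonoid.powers (algebraMap A₁ R ϖ))
    with hN
  haveI h2 : IsLocalization N A :=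
    IsLocalization.localization_localization_isLocalization M
      (Submonoid.powers (algebraMap A₁ R ϖ)) A
  have hCϖ : algebraMap A₁[X] R (C ϖ) = algebraMap A₁ R ϖ := by
    rw [IsScalarTower.algebraMap_apply A₁ A₁[X] R, Polynomial.algebraMap_apply,
      Algebra.algebraMap_self_apply]
  have hle : (Submonoid.powers ϖ).map (C : A₁ →+* A₁[X]) ≤ N := by
    rintro _ ⟨_, ⟨n, rfl⟩, rfl⟩
    rw [hN, IsLocalization.mem_localizationLocalizationSubmodule]
    refine ⟨⟨(algebraMap A₁ R ϖ) ^ n, ⟨n, rfl⟩⟩, 1, ?_⟩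
    simp only [map_pow, OneMemClass.coe_one, map_one, mul_one]
    rw [← hCϖ]
  letI algLA : Algebra L[X] A :=
    IsLocalization.localizationAlgebraOfSubmonoidLe L[X] A _ N hle
  haveI : IsScalarTower A₁[X] L[X] A :=
    IsLocalization.localization_isScalarTower_of_submonoid_le L[X] A _ N hle
  haveI h3 : IsLocalization (N.map (algebraMap A₁[X] L[X])) A :=
    IsLocalization.isLocalization_of_submonoid_le L[X] A _ N hle
  -- `N` consists of nonzero elements
  have hπ0 : algebraMap A₁ R ϖ ≠ 0 := by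
    rw [← hCϖ, Ne, map_eq_zero_iff _ hinjR, C_eq_zero]
    exact hϖ0
  have hN0 : N ≤ nonZeroDivisors A₁[X] := by
    intro x hx
    rw [hN, IsLocalization.mem_localizationLocalizationSubmodule] at hx
    obtain ⟨⟨y, n, rfl⟩, z, hxyz⟩ := hx
    refine mem_nonZeroDivisors_of_ne_zero ?_
    rintro rfl
    rw [map_zero] at hxyz
    have hz : algebraMap A₁[X] R z ≠ 0 := by
      rw [Ne, map_eq_zero_iff _ hinjR]
      exact nonZeroDivisors.ne_zero (hM z.2)
    exact mul_ne_zero (pow_ne_zero n hπ0) hz hxyz.symm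
  have hinjL : Function.Injective (algebraMap A₁[X] L[X]) :=
    IsLocalization.injective L[X]
      (M := (Submonoid.powers ϖ).map (C : A₁ →+* A₁[X])) (le_trans hle hN0)
  have hN' : N.map (algebraMap A₁[X] L[X]) ≤ nonZeroDivisors L[X] := by
    rintro _ ⟨x, hx, rfl⟩
    refine mem_nonZeroDivisors_of_ne_zero ?_
    rw [Ne, map_eq_zero_iff _ hinjL]
    exact nonZeroDivisors.ne_zero (hN0 hx)
  haveI : IsDomain A := IsLocalization.isDomain_of_le_nonZeroDivisors A hN'
  exact IsLocalization.isDedekindDomain L[X] hN' A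

/-- `Localization.Away f` form (Hesse / Legendre base lines `A₁[μ, 1/f(μ)]`). -/
theorem isDedekindDomain_away_of_away_polynomial (ϖ : A₁) (hϖ0 : ϖ ≠ 0)
    (hdiv : ∀ a : A₁, a ≠ 0 → ∃ n : ℕ, a ∣ ϖ ^ n) (f : A₁[X]) (hf : f ≠ 0)
    (R : Type*) [CommRing R] [Algebra A₁[X] R] [IsLocalization.Away f R]
    [Algebra A₁ R] [IsScalarTower A₁ A₁[X] R]
    (A : Type*) [CommRing A] [Algebra R A] [IsLocalization.Away (algebraMap A₁ R ϖ) A] :
    IsDedekindDomain A :=
  isDedekindDomain_away_of_isLocalization_polynomial ϖ hϖ0 hdiv (Submonoid.powers f)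
    (powers_le_nonZeroDivisors_of_noZeroDivisors hf) R A

/-- `IsLocalization.AtPrime` form (the cusp line: `A₁[X]` localised at `(ϖ, X)`). -/
theorem isDedekindDomain_away_of_atPrime_polynomial (ϖ : A₁) (hϖ0 : ϖ ≠ 0)
    (hdiv : ∀ a : A₁, a ≠ 0 → ∃ n : ℕ, a ∣ ϖ ^ n) (P : Ideal A₁[X]) [P.IsPrime]
    (R : Type*) [CommRing R] [Algebra A₁[X] R] [IsLocalization.AtPrime R P]
    [Algebra A₁ R] [IsScalarTower A₁ A₁[X] R]
    (A : Type*) [CommRing A] [Algebra R A] [IsLocalization.Away (algebraMap A₁ R ϖ) A] :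
    IsDedekindDomain A :=
  isDedekindDomain_away_of_isLocalization_polynomial ϖ hϖ0 hdiv P.primeCompl
    (Ideal.primeCompl_le_nonZeroDivisors P) R A

end GenericFibre

section Composite

variable {A₁ : Type*} [CommRing A₁] [IsDomain A₁] [CharZero A₁]
  {R K L : Type*} [CommRing R] [IsDomain R]
  [Field K] [Algebra R K] [IsFractionRing R K] [Field L] [Algebra K L] [Algebra R L]
  [IsScalarTower R K L] [FiniteDimensional K L]
  [Algebra A₁[X] R] [Algebra A₁ R] [IsScalarTower A₁ A₁[X] R]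

/-- **(HOR) ⇒ `HorCond` for a chart whose base line is a localisation of `A₁[X]`**: no Dedekind
or `hnat` side condition left. -/
theorem horCond_of_hHOR_of_isLocalization_polynomial (ϖ : A₁) (hϖ0 : ϖ ≠ 0)
    (hdiv : ∀ a : A₁, a ≠ 0 → ∃ n : ℕ, a ∣ ϖ ^ n)
    (M : Submonoid A₁[X]) (hM : M ≤ nonZeroDivisors A₁[X]) [IsLocalization M R]
    (hHOR : ∀ V : ValuationSubring L, V ≠ ⊤ → (∀ r : R, algebraMap R L r ∈ V) →
      (algebraMap R L (algebraMap A₁ R ϖ))⁻¹ ∈ V →
      ∃ g : R, V.valuation (algebraMap R L g) < 1 ∧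
        ∀ y : L, V.valuation y < 1 → V.valuation y ≤ V.valuation (algebraMap R L g)) :
    H41.HorCond R K L (algebraMap A₁ R ϖ) := by
  have hinjR : Function.Injective (algebraMap A₁[X] R) := IsLocalization.injective R hM
  have hπ0 : algebraMap A₁ R ϖ ≠ 0 := by
    rw [IsScalarTower.algebraMap_apply A₁ A₁[X] R, Ne, map_eq_zero_iff _ hinjR,
      Polynomial.algebraMap_apply, Algebra.algebraMap_self_apply, C_eq_zero]
    exact hϖ0
  haveI : IsDedekindDomain (Localization.Away (algebraMap A₁ R ϖ)) :=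
    isDedekindDomain_away_of_isLocalization_polynomial ϖ hϖ0 hdiv M hM R _
  exact horCond_of_hHOR (algebraMap A₁ R ϖ) hπ0 (Localization.Away (algebraMap A₁ R ϖ))
    (isUnit_natCast_away_of_dvd_pow ϖ hdiv R _) hHOR

/-- DVR + `Localization.Away f` form. -/
theorem horCond_of_hHOR_of_away_polynomial [IsDiscreteValuationRing A₁] (ϖ : A₁)
    (hϖ : Irreducible ϖ) (f : A₁[X]) (hf : f ≠ 0) [IsLocalization.Away f R]
    (hHOR : ∀ V : ValuationSubring L, V ≠ ⊤ → (∀ r : R, algebraMap R L r ∈ V) →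
      (algebraMap R L (algebraMap A₁ R ϖ))⁻¹ ∈ V →
      ∃ g : R, V.valuation (algebraMap R L g) < 1 ∧
        ∀ y : L, V.valuation y < 1 → V.valuation y ≤ V.valuation (algebraMap R L g)) :
    H41.HorCond R K L (algebraMap A₁ R ϖ) :=
  horCond_of_hHOR_of_isLocalization_polynomial ϖ hϖ.ne_zero
    (exists_dvd_pow_of_irreducible hϖ) (Submonoid.powers f)
    (powers_le_nonZeroDivisors_of_noZeroDivisors hf) hHOR

/-- DVR + `IsLocalization.AtPrime` form (cusp line). -/
theorem horCond_of_hHOR_of_atPrime_polynomial [IsDiscreteValuationRing A₁] (ϖ : A₁)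
    (hϖ : Irreducible ϖ) (P : Ideal A₁[X]) [P.IsPrime] [IsLocalization.AtPrime R P]
    (hHOR : ∀ V : ValuationSubring L, V ≠ ⊤ → (∀ r : R, algebraMap R L r ∈ V) →
      (algebraMap R L (algebraMap A₁ R ϖ))⁻¹ ∈ V →
      ∃ g : R, V.valuation (algebraMap R L g) < 1 ∧
        ∀ y : L, V.valuation y < 1 → V.valuation y ≤ V.valuation (algebraMap R L g)) :
    H41.HorCond R K L (algebraMap A₁ R ϖ) :=
  horCond_of_hHOR_of_isLocalization_polynomial ϖ hϖ.ne_zero
    (exists_dvd_pow_of_irreducible hϖ) P.primeCompl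
    (Ideal.primeCompl_le_nonZeroDivisors P) hHOR

end Composite

end Fermat.Agent.S18.H9
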