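/-
helper34 — S18 route Q: **the Legendre chart** (`ℓ` odd), instance of helper96's
`H96.isIntegrallyClosed_specialFibre_of_auxLine` with `f = X (X - 1)`, `F' = F1(λ)`,
`j1 = 256 (λ² - λ + 1)³ / (λ² (λ - 1)²)`.

* `isIntegrallyClosed_specialFibre_legendre` : abstract in the arithmetic data `(A₁, L1, F1)`
  (a DVR, its fraction field `⊆ Qbar`, a model `F1 → F_N` of the modular function field), so that all
  instance searches run over type variables; (VERT), (HOR) and the integrality of the Legendre line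
  over the `j`-line are discharged from the landed packages (helper16 `H16_VertSep`, helper69
  `H69_HorInstCharts`, helper26 `H26_BaseLineHes`, helper70 `H70_AuxCompositum`, helper9
  `H9_GenericFibre`).  Remaining hypothesis: `hprime` (INST-2).
-/
import Fermat.Agent.S18.H96_AuxChart
import Fermat.Agent.S18.H16_VertSep
import Fermat.Agent.S18.H26_BaseLineHes
import Fermat.Agent.S18.H69_HorInstCharts
import Fermat.Agent.S18.H9_GenericFibre

set_option autoImplicit false
set_option linter.unusedSectionVars false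
set_option linter.style.haveILetI false

noncomputable section

namespace Fermat.Agent.S18.H34

open Polynomial IntermediateField AlgebraicCurve ModularCurve
open Fermat.Agent.S28 Fermat.Agent.S18 Fermat.Agent.S24

section Abstract

universe u

variable (N : ℕ) [NeZero N] {A₁ : Type*} {L1 : Type u} {F1 : Type*}
  [CommRing A₁] [IsDomain A₁] [IsDiscreteValuationRing A₁]
  [Field L1] [Algebra A₁ L1] [IsFractionRing A₁ L1] [CharZero L1]
  [Field F1] [Algebra L1 F1] [Algebra A₁ F1] [IsScalarTower A₁ L1 F1] [CharZero F1]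
  [Algebra L1 Qbar] [Algebra.IsAlgebraic L1 Qbar] [Algebra L1 (FN N)] [Algebra F1 (FN N)]
  [IsScalarTower L1 F1 (FN N)] [IsScalarTower L1 Qbar (FN N)]

/-- **Route Q, the Legendre chart**, abstract in the arithmetic data. -/
theorem isIntegrallyClosed_specialFibre_legendre
    {ϖ : A₁} (hϖ : Irreducible ϖ)
    {k : Type} [Field k] [IsAlgClosed k] (res : A₁ →+* k) (hres : Function.Surjective res)
    (hker : RingHom.ker res = Ideal.span {ϖ}) (h2 : IsUnit (2 : A₁))
    (j1 θ : F1) (hj1 : Transcendental L1 j1) (hgen : L1⟮j1⟯⟮θ⟯ = ⊤)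
    [FiniteDimensional L1⟮j1⟯ F1] (hj1bar : algebraMap F1 (FN N) j1 = jBar N)
    (D : ModularPolynomialData N) (hrootD : (H16.modPolyAt D j1).eval θ = 0)
    (hsepD : (redModPoly k D.Φ).Separable)
    (hprime : (Ideal.span {algebraMap ↥(Algebra.adjoin A₁ {j1})
      (integralClosure ↥(Algebra.adjoin A₁ {j1}) F1)
      (algebraMap A₁ ↥(Algebra.adjoin A₁ {j1}) ϖ)}).IsPrime) :
    IsIntegrallyClosed
      (integralClosure ↥(Algebra.adjoin A₁ {j1}) F1 ⧸
        Ideal.span {algebraMap ↥(Algebra.adjoin A₁ {j1})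
          (integralClosure ↥(Algebra.adjoin A₁ {j1}) F1)
          (algebraMap A₁ ↥(Algebra.adjoin A₁ {j1}) ϖ)}) := by
  classical
  -- the Legendre field
  haveI hGal : IsGalois F1 (H70.LegField j1) := H70.isGalois_legField j1
  have hμtr : Transcendental L1 (H70.legMu j1) := H70.transcendental_legMu (L := L1) hj1
  have hμtop : F1⟮H70.legMu j1⟯ = ⊤ := H70.adjoin_legMu j1
  have hθalg : IsAlgebraic L1⟮j1⟯ θ := Algebra.IsAlgebraic.isAlgebraic θ
  haveI hfinμ : FiniteDimensional L1⟮H70.legMu j1⟯ (H70.LegField j1) :=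
    H70.finiteDimensional_legField_over (L := L1) (KY := L1⟮H70.legMu j1⟯) hgen hθalg
      ⟨H70.legMu j1, mem_adjoin_simple_self L1 _⟩ rfl
  -- the Legendre line
  have hf : (H26.legLineF A₁).map res ≠ 0 := H26.LegLine.map_ne_zero res
  have hB : H26.legB (H70.legMu j1) ≠ 0 := H70.legB_legMu_ne_zero j1
  have hfμ : IsUnit (aeval (H70.legMu j1) (H26.legLineF A₁)) := by
    rw [H26.aeval_legLineF, isUnit_iff_ne_zero]
    intro h
    apply hB
    have : H26.legB (H70.legMu j1) = (H70.legMu j1 * (H70.legMu j1 - 1)) ^ 2 := by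
      unfold H26.legB; ring
    rw [this, h, zero_pow two_ne_zero]
  have hjY : H26.LineRing.liftAlg (H26.legLineF A₁) (H70.legMu j1) hfμ (H26.LegLine.jY A₁) =
      algebraMap F1 (H70.LegField j1) j1 := by
    rw [H26.LegLine.liftAlg_jY, H70.legJ_legMu]
  -- the Legendre line is integral over the `j`-line
  have hintμ : IsIntegral (Algebra.adjoin A₁ {algebraMap F1 (H70.LegField j1) j1})
      (H70.legMu j1) := by
    have h := H26.LegLine.isIntegral_liftAlg_adjoin_legJ h2 (H70.legMu j1) hfμ (H26.LegLine.lam A₁)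
    rwa [H70.legJ_legMu, H26.LegLine.lam, H26.LineRing.liftAlg_coord] at h
  have hintw : IsIntegral (Algebra.adjoin A₁ {algebraMap F1 (H70.LegField j1) j1})
      (H26.LineRing.liftAlg (H26.legLineF A₁) (H70.legMu j1) hfμ
        (H26.LineRing.inv (H26.legLineF A₁))) := by
    have h := H26.LegLine.isIntegral_liftAlg_adjoin_legJ h2 (H70.legMu j1) hfμ
      (H26.LineRing.inv (H26.legLineF A₁))
    rwa [H70.legJ_legMu] at h
  -- (VERT)
  have hroot : (H16.modPolyAt D (H26.LegLine.jY A₁)).eval₂
      (H26.LineRing.liftAlg (H26.legLineF A₁) (H70.legMu j1) hfμ).toRingHom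
      (algebraMap F1 (H70.LegField j1) θ) = 0 := by
    rw [← Polynomial.eval_map, H16.modPolyAt_map]
    show (H16.modPolyAt D (H26.LineRing.liftAlg (H26.legLineF A₁) (H70.legMu j1) hfμ
      (H26.LegLine.jY A₁))).eval _ = 0
    rw [hjY, H16.eval_modPolyAt_map, hrootD, map_zero]
  have h2k : (2 : k) ≠ 0 := by
    have h := h2.map res
    rw [map_ofNat] at h
    exact h.ne_zero
  have hsep : ((H16.modPolyAt D (H26.LegLine.jY A₁)).map
      (H26.LineRing.toRatFunc (H26.legLineF A₁) res hf)).Separable := by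
    rw [H16.modPolyAt_map, H26.LegLine.toRatFunc_jY]
    have hy : Transcendental k (H26.legJ (RatFunc.X : RatFunc k)) :=
      H26.transcendental_legJ RatFunc.transcendental_X h2k
    rw [← H16.redModPoly_map_ratFuncHom D hy]
    exact hsepD.map
  -- (HOR)
  have hf0 : H26.legLineF A₁ ≠ 0 := H26.legLineF_ne_zero
  have hDed : IsDedekindDomain
      (Localization.Away (algebraMap A₁ (H26.LineRing (H26.legLineF A₁)) ϖ)) :=
    H9.isDedekindDomain_away_of_away_polynomial ϖ hϖ.ne_zero (H9.exists_dvd_pow_of_irreducible hϖ)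
      (H26.legLineF A₁) hf0 (H26.LineRing (H26.legLineF A₁)) _
  haveI halgF' : Algebra.IsAlgebraic F1 (H70.LegField j1) := inferInstance
  have hunr : ∀ (v : Place L1 (H70.LegField j1)) (g₀ : L1[X]), Irreducible g₀ →
      ¬ g₀ ∣ (H26.legLineF A₁).map (algebraMap A₁ L1) →
      0 < v.ord (aeval (H70.legMu j1) g₀) → v.ord (aeval (H70.legMu j1) g₀) = 1 := by
    intro v g₀ hirr hnd hpos
    rw [H26.legLineF_map] at hnd
    exact H69.ord_aeval_eq_one_of_legendre_cover N (K := L1) (F1 := F1) (E := H70.LegField j1)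
      j1 hj1bar hj1 (H70.legMu j1) (H70.legJ_legMu j1) hμtop v g₀ hirr hnd hpos
  exact H96.isIntegrallyClosed_specialFibre_of_auxLine (L1 := L1) (F' := H70.LegField j1) hϖ res
    hres hker j1 θ hj1 hgen (H70.legMu j1) hμtr hμtop (H26.legLineF A₁) hf hfμ (H26.LegLine.jY A₁)
    hjY hintμ hintw (H16.modPolyAt D (H26.LegLine.jY A₁)) (H16.modPolyAt_monic D _) hroot hsep
    hDed hunr hprime

end Abstract

end Fermat.Agent.S18.H34
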