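/-
S18 / route Q, HOR-INST (helper55), part 1: the COEFFICIENT EMBEDDING
`F_K = modularFunctionFieldFullC K N  →  F_N = modularFunctionFieldBar N`
for any field `K` with a ring map `K → Qbar` (e.g. `K = L₁ = H45.unrCyclo ℓ`), coefficientwise.
`j_K ↦ jBar N`, `j_{N,K} ↦ jd N N`, constants `c ↦ algebraMap K Qbar c`.
-/
import Mathlib
import Fermat.Agent.S24.Defs
import Fermat.Agent.S18.H16_FbarBasics

set_option autoImplicit false

noncomputable section

namespace Fermat.Agent.S18.H55

open ModularCurve IntermediateField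
open Fermat.Agent.S24

variable (K : Type*) [Field K] [Algebra K Qbar] (N : ℕ) [NeZero N]

theorem coeffMap_algebraMap_gen (c : K) :
    coeffMap (algebraMap K Qbar) (algebraMap K (LaurentSeries K) c) =
      algebraMap Qbar (LaurentSeries Qbar) (algebraMap K Qbar c) := by
  rw [algebraMap_laurentSeries_eq_single, algebraMap_laurentSeries_eq_single, coeffMap_single]

theorem coeffMap_qExpand_jqModC (d : ℕ) [NeZero d] :
    coeffMap (algebraMap K Qbar) (qExpand K d (jqModC K)) = coeffEmb Qbar (qExpand ℚ d jq) := by
  rw [coeffMap_qExpand, coeffMap_jqModC, coeffEmb, coeffMap_qExpand]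
  congr 1
  exact (coeffMap_jqModC (algebraMap ℚ Qbar)).symm

/-- The coefficientwise map carries `F_K` into `F_N`. -/
theorem coeffMap_mem_bar {x : LaurentSeries K} (hx : x ∈ modularFunctionFieldFullC K N) :
    coeffMap (algebraMap K Qbar) x ∈ modularFunctionFieldBar N := by
  unfold modularFunctionFieldFullC at hx
  induction hx using IntermediateField.adjoin_induction with
  | mem x hx =>
    obtain ⟨d, hd0, hd, rfl⟩ := hx
    have := hd0
    rw [coeffMap_qExpand_jqModC]
    exact (jd N d hd).2
  | algebraMap c =>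
    rw [coeffMap_algebraMap_gen]
    exact (modularFunctionFieldBar N).algebraMap_mem _
  | add x y _ _ hx hy => rw [map_add]; exact add_mem hx hy
  | inv x _ hx => rw [map_inv₀]; exact inv_mem hx
  | mul x y _ _ hx hy => rw [map_mul]; exact mul_mem hx hy

/-- **The coefficient embedding** `F_K →+* F_N`. -/
def fullCEmb : ↥(modularFunctionFieldFullC K N) →+* FN N where
  toFun x := ⟨coeffMap (algebraMap K Qbar) x.1, coeffMap_mem_bar K N x.2⟩
  map_one' := Subtype.ext (map_one _)
  map_mul' _ _ := Subtype.ext (map_mul _ _ _)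
  map_zero' := Subtype.ext (map_zero _)
  map_add' _ _ := Subtype.ext (map_add _ _ _)

@[simp] theorem coe_fullCEmb (x : ↥(modularFunctionFieldFullC K N)) :
    ((fullCEmb K N x : FN N) : LaurentSeries Qbar) = coeffMap (algebraMap K Qbar) x.1 := rfl

theorem fullCEmb_injective : Function.Injective (fullCEmb K N) := (fullCEmb K N).injective

theorem fullCEmb_algebraMap (c : K) :
    fullCEmb K N (algebraMap K ↥(modularFunctionFieldFullC K N) c) =
      algebraMap Qbar (FN N) (algebraMap K Qbar c) :=
  Subtype.ext (coeffMap_algebraMap_gen K c)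

theorem fullCEmb_jK : fullCEmb K N (H16.jK K N) = jBar N := by
  apply Subtype.ext
  show coeffMap (algebraMap K Qbar) (jqModC K) = coeffEmb Qbar jq
  rw [coeffMap_jqModC]
  exact (coeffMap_jqModC (algebraMap ℚ Qbar)).symm

theorem fullCEmb_jNK : fullCEmb K N (H16.jNK K N) = jd N N dvd_rfl :=
  Subtype.ext (coeffMap_qExpand_jqModC K N)

end Fermat.Agent.S18.H55
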