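/-
S18 / route Q, HOR-INST (helper55), part 2: the hypothesis `hunr` of
`H96.exists_uniformizer_of_places` for the three charts (Hesse, Legendre, cusp) over the MODEL
`(K, F_K, j_K)`, `F_K = modularFunctionFieldFullC K N`, `K` any subfield-like `K → Qbar` algebraic
(in the application `K = L₁ = H45.unrCyclo ℓ`), with the chart fields of helper70
(`H70.HesField j_K`, `H70.LegField j_K`, `H70.CuspField N j_K⁻¹`).

Inputs: the coefficient embedding `H55.fullCEmb` (part 1), helper69's chart theorems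
(`H69_HorInstCharts`, `H69_HorInstGeneric`; compositum built internally), helper95's (HOR-OUT).
-/
import Mathlib
import Fermat.Agent.S18.H55_CoeffEmb
import Fermat.Agent.S18.H69_HorInstCharts
import Fermat.Agent.S18.H45_A0Instances

set_option autoImplicit false
set_option linter.unusedSectionVars false
set_option linter.style.haveILetI false

noncomputable section

namespace Fermat.Agent.S18.H55

open AlgebraicCurve Polynomial IntermediateField ModularCurve
open Fermat.Agent.S24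

section General

variable (K : Type*) [Field K] [Algebra K Qbar] (N : ℕ) [NeZero N]
  [Algebra K (FN N)] [IsScalarTower K Qbar (FN N)]

/-- `F_K → F_N` is compatible with the constants. -/
theorem isScalarTower_fullCEmb :
    letI : Algebra ↥(modularFunctionFieldFullC K N) (FN N) := (fullCEmb K N).toAlgebra
    IsScalarTower K ↥(modularFunctionFieldFullC K N) (FN N) := by
  letI : Algebra ↥(modularFunctionFieldFullC K N) (FN N) := (fullCEmb K N).toAlgebra
  refine IsScalarTower.of_algebraMap_eq fun c => ?_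
  rw [RingHom.algebraMap_toAlgebra, fullCEmb_algebraMap, ← IsScalarTower.algebraMap_apply]

variable [Algebra.IsAlgebraic K Qbar] [CharZero K]

/-- **`hunr`, Hesse chart** (`D = X ^ 3 - 1`), model `(K, F_K, j_K)`. -/
theorem hunr_hesse_gen :
    ∀ (w : Place K (H70.HesField (H16.jK K N))) (g₀ : K[X]), Irreducible g₀ →
      ¬ g₀ ∣ (X ^ 3 - 1 : K[X]) → 0 < w.ord (aeval (H70.hesMu (H16.jK K N)) g₀) →
      w.ord (aeval (H70.hesMu (H16.jK K N)) g₀) = 1 := by
  letI : Algebra ↥(modularFunctionFieldFullC K N) (FN N) := (fullCEmb K N).toAlgebra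
  haveI : IsScalarTower K ↥(modularFunctionFieldFullC K N) (FN N) := isScalarTower_fullCEmb K N
  intro w g₀ hirr hnd hw
  exact H69.ord_aeval_eq_one_of_hesse_cover N (K := K) (F1 := ↥(modularFunctionFieldFullC K N))
    (E := H70.HesField (H16.jK K N)) (H16.jK K N) (fullCEmb_jK K N) (H16.transcendental_jK K N)
    (H70.hesMu (H16.jK K N)) (H70.hesJ_hesMu _) (H70.adjoin_hesMu _) w g₀ hirr hnd hw

/-- **`hunr`, Legendre chart** (`D = X (X - 1)`), model `(K, F_K, j_K)`. -/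
theorem hunr_legendre_gen :
    ∀ (w : Place K (H70.LegField (H16.jK K N))) (g₀ : K[X]), Irreducible g₀ →
      ¬ g₀ ∣ (X * (X - 1) : K[X]) → 0 < w.ord (aeval (H70.legMu (H16.jK K N)) g₀) →
      w.ord (aeval (H70.legMu (H16.jK K N)) g₀) = 1 := by
  letI : Algebra ↥(modularFunctionFieldFullC K N) (FN N) := (fullCEmb K N).toAlgebra
  haveI : IsScalarTower K ↥(modularFunctionFieldFullC K N) (FN N) := isScalarTower_fullCEmb K N
  intro w g₀ hirr hnd hw
  exact H69.ord_aeval_eq_one_of_legendre_cover N (K := K)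
    (F1 := ↥(modularFunctionFieldFullC K N)) (E := H70.LegField (H16.jK K N)) (H16.jK K N)
    (fullCEmb_jK K N) (H16.transcendental_jK K N)
    (H70.legMu (H16.jK K N)) (H70.legJ_legMu _) (H70.adjoin_legMu _) w g₀ hirr hnd hw

theorem jK_ne_zero : H16.jK K N ≠ 0 := fun h =>
  (H16.transcendental_jK K N) (h ▸ isAlgebraic_zero)

/-- **`hunr`, cusp chart** (`D = 1728 X ^ N - 1`), model `(K, F_K, j_K)`, `τ ^ N = 1 / j_K`. -/
theorem hunr_cusp_gen :
    ∀ (w : Place K (H70.CuspField N (H16.jK K N)⁻¹)) (g₀ : K[X]), Irreducible g₀ →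
      ¬ g₀ ∣ (C (1728 : K) * X ^ N - 1 : K[X]) →
      0 < w.ord (aeval (H70.cuspTau N (H16.jK K N)⁻¹) g₀) →
      w.ord (aeval (H70.cuspTau N (H16.jK K N)⁻¹) g₀) = 1 := by
  letI : Algebra ↥(modularFunctionFieldFullC K N) (FN N) := (fullCEmb K N).toAlgebra
  haveI : IsScalarTower K ↥(modularFunctionFieldFullC K N) (FN N) := isScalarTower_fullCEmb K N
  intro w g₀ hirr hnd hw
  refine H69.ord_aeval_eq_one_of_cusp_cover N (K := K)
    (F1 := ↥(modularFunctionFieldFullC K N)) (E := H70.CuspField N (H16.jK K N)⁻¹) (H16.jK K N)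
    (fullCEmb_jK K N) (H16.transcendental_jK K N)
    (H70.cuspTau N (H16.jK K N)⁻¹) ?_ (H70.adjoin_cuspTau _ _) w g₀ hirr hnd hw
  rw [H70.cuspTau_pow (NeZero.ne N), ← map_mul, inv_mul_cancel₀ (jK_ne_zero K N), map_one]

end General

/-! ### The model of route Q: `K = L₁ = H45.unrCyclo ℓ` -/

section Model

variable (ℓ : ℕ) (N : ℕ) [NeZero N]

/-- **`hunr`, Hesse chart, over `L₁`.** -/
theorem hunr_hesse :
    ∀ (w : Place ↥(H45.unrCyclo ℓ) (H70.HesField (H16.jK ↥(H45.unrCyclo ℓ) N)))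
      (g₀ : (↥(H45.unrCyclo ℓ))[X]), Irreducible g₀ → ¬ g₀ ∣ (X ^ 3 - 1 : (↥(H45.unrCyclo ℓ))[X]) →
      0 < w.ord (aeval (H70.hesMu (H16.jK ↥(H45.unrCyclo ℓ) N)) g₀) →
      w.ord (aeval (H70.hesMu (H16.jK ↥(H45.unrCyclo ℓ) N)) g₀) = 1 :=
  hunr_hesse_gen ↥(H45.unrCyclo ℓ) N

/-- **`hunr`, Legendre chart, over `L₁`.** -/
theorem hunr_legendre :
    ∀ (w : Place ↥(H45.unrCyclo ℓ) (H70.LegField (H16.jK ↥(H45.unrCyclo ℓ) N)))
      (g₀ : (↥(H45.unrCyclo ℓ))[X]), Irreducible g₀ →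
      ¬ g₀ ∣ (X * (X - 1) : (↥(H45.unrCyclo ℓ))[X]) →
      0 < w.ord (aeval (H70.legMu (H16.jK ↥(H45.unrCyclo ℓ) N)) g₀) →
      w.ord (aeval (H70.legMu (H16.jK ↥(H45.unrCyclo ℓ) N)) g₀) = 1 :=
  hunr_legendre_gen ↥(H45.unrCyclo ℓ) N

/-- **`hunr`, cusp chart, over `L₁`.** -/
theorem hunr_cusp :
    ∀ (w : Place ↥(H45.unrCyclo ℓ) (H70.CuspField N (H16.jK ↥(H45.unrCyclo ℓ) N)⁻¹))
      (g₀ : (↥(H45.unrCyclo ℓ))[X]), Irreducible g₀ →
      ¬ g₀ ∣ (C (1728 : ↥(H45.unrCyclo ℓ)) * X ^ N - 1 : (↥(H45.unrCyclo ℓ))[X]) →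
      0 < w.ord (aeval (H70.cuspTau N (H16.jK ↥(H45.unrCyclo ℓ) N)⁻¹) g₀) →
      w.ord (aeval (H70.cuspTau N (H16.jK ↥(H45.unrCyclo ℓ) N)⁻¹) g₀) = 1 :=
  hunr_cusp_gen ↥(H45.unrCyclo ℓ) N

end Model

end Fermat.Agent.S18.H55
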