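/-
S18 project, INST-4 (hedge, helper79): the closed points of the special fibre of the auxiliary line.

`A₁` a commutative ring, `π : A₁ →+* k` a surjection onto an algebraically closed field with kernel
`(ϖ)` (in the application `A₁` is the strictly henselian DVR `H45.A0 A l`, `ϖ = l`).

* `exists_sub_algebraMap_mem_of_finiteType` : Zariski's lemma over `A₁`: for a finite type
  `A₁`-algebra `R` and a maximal ideal `p ⊇ (ker π) R`, `A₁ → R ⧸ p` is surjective.
* `exists_sub_algebraMap_mem_of_isIntegral` : the same for `B ⧸ 𝔵`, `B` integral over such an `R`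
  (= hypothesis `hres` of `H67.isIntegrallyClosed_special_fibre`, verbatim).
* `Away.exists_eq_span_pair` : for `R = A₁[X][1/f]`, every maximal ideal `p ∋ ϖ` of `R` is
  `(ϖ, x - a)` for some `a : A₁` (= first half of `hline` of
  `H67.isIntegrallyClosed_special_fibre`).
* `Away.isMaximal_span_pair` : conversely `(ϖ, x - a)` is maximal when `π (f a) ≠ 0`.
* `AtPrime.*` : the twin statements for the cusp line `R = A₁[X]_(ϖ, X)`.
-/
import Mathlib

set_option autoImplicit false

namespace Fermat.Agent.S18.H79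

open Polynomial

section Core

variable {A₁ : Type*} [CommRing A₁] {k : Type*} [Field k] [IsAlgClosed k]
  (π : A₁ →+* k) (hπ : Function.Surjective π)

include hπ in
/-- A ring homomorphism `φ : A₁ → κ` to a field which kills `ker π` and whose factorisation through
`k` is integral is surjective (`k` algebraically closed). -/
theorem surjective_of_lift_isIntegral {κ : Type*} [Field κ] (φ : A₁ →+* κ)
    (hker : RingHom.ker π ≤ RingHom.ker φ)
    (hint : (RingHom.liftOfSurjective π hπ ⟨φ, hker⟩).IsIntegral) : Function.Surjective φ := by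
  set ψ : k →+* κ := RingHom.liftOfSurjective π hπ ⟨φ, hker⟩ with hψ
  have hψπ : ψ.comp π = φ := RingHom.liftOfRightInverse_comp _ _ _ _
  have hψsurj : Function.Surjective ψ := by
    algebraize [ψ]
    have : Algebra.IsIntegral k κ := Algebra.isIntegral_def.2 hint
    exact (IsAlgClosed.algebraMap_bijective_of_isIntegral (k := k) (K := κ)).2
  rw [← hψπ]
  exact hψsurj.comp hπ

include hπ in
/-- Variant: `φ` itself integral. -/
theorem surjective_of_isIntegral {κ : Type*} [Field κ] (φ : A₁ →+* κ)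
    (hker : RingHom.ker π ≤ RingHom.ker φ) (hint : φ.IsIntegral) : Function.Surjective φ := by
  refine surjective_of_lift_isIntegral π hπ φ hker ?_
  have hψπ : (RingHom.liftOfSurjective π hπ ⟨φ, hker⟩).comp π = φ :=
    RingHom.liftOfRightInverse_comp _ _ _ _
  rw [← hψπ] at hint
  exact RingHom.IsIntegral.tower_top _ _ hint

include hπ in
/-- **Closed points of the special fibre have residue field `k`** (Zariski's lemma).
`R` a finite type `A₁`-algebra, `p` a maximal ideal containing the kernel of the surjection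
`π : A₁ → k` onto an algebraically closed field: then `A₁ → R ⧸ p` is surjective. -/
theorem exists_sub_algebraMap_mem_of_finiteType {R : Type*} [CommRing R] [Algebra A₁ R]
    [Algebra.FiniteType A₁ R] (p : Ideal R) [hp : p.IsMaximal]
    (hle : ∀ a : A₁, π a = 0 → algebraMap A₁ R a ∈ p) (r : R) :
    ∃ a : A₁, r - algebraMap A₁ R a ∈ p := by
  let _ : Field (R ⧸ p) := Ideal.Quotient.field p
  set φ : A₁ →+* R ⧸ p := (Ideal.Quotient.mk p).comp (algebraMap A₁ R) with hφ
  have hker : RingHom.ker π ≤ RingHom.ker φ := by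
    intro a ha
    rw [RingHom.mem_ker] at ha ⊢
    rw [hφ, RingHom.comp_apply, Ideal.Quotient.eq_zero_iff_mem]
    exact hle a ha
  set ψ : k →+* R ⧸ p := RingHom.liftOfSurjective π hπ ⟨φ, hker⟩ with hψ
  have hψπ : ψ.comp π = φ := RingHom.liftOfRightInverse_comp _ _ _ _
  have hφft : φ.FiniteType := by
    rw [hφ]
    refine RingHom.FiniteType.comp ?_ ?_
    · exact RingHom.FiniteType.of_surjective _ Ideal.Quotient.mk_surjective
    · exact RingHom.finiteType_algebraMap.2 inferInstance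
  have hψft : ψ.FiniteType := by
    rw [← hψπ] at hφft
    exact RingHom.FiniteType.of_comp_finiteType hφft
  have hψfin : ψ.Finite := RingHom.finite_iff_finiteType_of_isJacobsonRing.2 hψft
  have hsurj : Function.Surjective φ :=
    surjective_of_lift_isIntegral π hπ φ hker hψfin.to_isIntegral
  obtain ⟨a, ha⟩ := hsurj (Ideal.Quotient.mk p r)
  refine ⟨a, ?_⟩
  rw [← Ideal.Quotient.eq, ← ha]
  rfl

include hπ in
/-- **Residue fields upstairs** (= `hres` of `H67.isIntegrallyClosed_special_fibre`).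
`R` an `A₁`-algebra, `B` integral over `R`, `𝔵` a maximal ideal of `B` containing `(ker π) B`, and
`A₁ → R ⧸ (𝔵 ∩ R)` surjective: then `A₁ → B ⧸ 𝔵` is surjective. -/
theorem exists_sub_algebraMap_mem_of_isIntegral {R B : Type*} [CommRing R] [CommRing B]
    [Algebra A₁ R] [Algebra A₁ B] [Algebra R B] [IsScalarTower A₁ R B] [Algebra.IsIntegral R B]
    (𝔵 : Ideal B) [h𝔵 : 𝔵.IsMaximal]
    (hle : ∀ a : A₁, π a = 0 → algebraMap A₁ B a ∈ 𝔵)
    (hR : ∀ r : R, ∃ a : A₁, r - algebraMap A₁ R a ∈ 𝔵.comap (algebraMap R B)) (b : B) :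
    ∃ a : A₁, b - algebraMap A₁ B a ∈ 𝔵 := by
  let _ : Field (B ⧸ 𝔵) := Ideal.Quotient.field 𝔵
  set φ : A₁ →+* B ⧸ 𝔵 := (Ideal.Quotient.mk 𝔵).comp (algebraMap A₁ B) with hφ
  have hker : RingHom.ker π ≤ RingHom.ker φ := by
    intro a ha
    rw [RingHom.mem_ker] at ha ⊢
    rw [hφ, RingHom.comp_apply, Ideal.Quotient.eq_zero_iff_mem]
    exact hle a ha
  set χ : R →+* B ⧸ 𝔵 := (Ideal.Quotient.mk 𝔵).comp (algebraMap R B) with hχ
  have hχint : χ.IsIntegral :=
    RingHom.IsIntegral.trans _ _ (algebraMap_isIntegral_iff.2 inferInstance)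
      (RingHom.isIntegral_of_surjective _ Ideal.Quotient.mk_surjective)
  have hφint : φ.IsIntegral := by
    intro y
    obtain ⟨P, hPm, hP⟩ := hχint y
    -- lift the coefficients of `P` to `A₁` modulo `𝔵 ∩ R`
    choose c hc using hR
    refine ⟨X ^ P.natDegree + ∑ i ∈ Finset.range P.natDegree, C (c (P.coeff i)) * X ^ i, ?_, ?_⟩
    · refine Polynomial.monic_X_pow_add ?_
      refine (Polynomial.degree_sum_le _ _).trans_lt ?_
      rw [Finset.sup_lt_iff (by exact WithBot.bot_lt_coe _)]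
      intro i hi
      refine (Polynomial.degree_C_mul_X_pow_le _ _).trans_lt ?_
      exact_mod_cast Finset.mem_range.1 hi
    · have hcχ : ∀ r : R, φ (c r) = χ r := by
        intro r
        have := hc r
        rw [Ideal.mem_comap, map_sub, ← IsScalarTower.algebraMap_apply,
          ← Ideal.Quotient.eq_zero_iff_mem, map_sub, sub_eq_zero] at this
        exact this.symm
      have hP' : P = X ^ P.natDegree + ∑ i ∈ Finset.range P.natDegree, C (P.coeff i) * X ^ i := by
        conv_lhs => rw [hPm.as_sum]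
      rw [hP', Polynomial.eval₂_add, Polynomial.eval₂_pow, Polynomial.eval₂_X,
        Polynomial.eval₂_finsetSum] at hP
      rw [Polynomial.eval₂_add, Polynomial.eval₂_pow, Polynomial.eval₂_X,
        Polynomial.eval₂_finsetSum, ← hP]
      congr 1
      refine Finset.sum_congr rfl fun i _ => ?_
      simp only [Polynomial.eval₂_mul, Polynomial.eval₂_C, Polynomial.eval₂_pow,
        Polynomial.eval₂_X, hcχ]
  have hsurj : Function.Surjective φ := surjective_of_isIntegral π hπ φ hker hφint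
  obtain ⟨a, ha⟩ := hsurj (Ideal.Quotient.mk 𝔵 b)
  refine ⟨a, ?_⟩
  rw [← Ideal.Quotient.eq, ← ha]
  rfl

end Core

section Line

variable {A₁ : Type*} [CommRing A₁] {k : Type*} [Field k]
  (π : A₁ →+* k) (hπ : Function.Surjective π) (ϖ : A₁) (hϖ : RingHom.ker π = Ideal.span {ϖ})

/-- The point `X = a` of the special fibre of the affine line over `A₁`. -/
noncomputable def pointHom (a : A₁) : A₁[X] →+* k := π.comp (Polynomial.evalRingHom a)

include hπ in
theorem pointHom_surjective (a : A₁) : Function.Surjective (pointHom π a) := by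
  intro c
  obtain ⟨b, rfl⟩ := hπ c
  exact ⟨C b, by simp [pointHom]⟩

include hϖ in
theorem ker_pointHom (a : A₁) :
    RingHom.ker (pointHom π a) = Ideal.span {C ϖ, X - C a} := by
  apply le_antisymm
  · intro g hg
    rw [RingHom.mem_ker, pointHom, RingHom.comp_apply, ← RingHom.mem_ker, hϖ,
      Ideal.mem_span_singleton'] at hg
    obtain ⟨c, hc⟩ := hg
    rw [Polynomial.coe_evalRingHom] at hc
    have h1 : g = (X - C a) * (g /ₘ (X - C a)) + C ϖ * C c := by
      have := Polynomial.modByMonic_add_div g (X - C a)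
      rw [Polynomial.modByMonic_X_sub_C_eq_C_eval, ← hc, map_mul] at this
      linear_combination -this
    rw [h1, Ideal.mem_span_pair]
    exact ⟨C c, g /ₘ (X - C a), by ring⟩
  · rw [Ideal.span_le]
    rintro g (rfl | rfl)
    · have : ϖ ∈ RingHom.ker π := by rw [hϖ]; exact Ideal.mem_span_singleton_self ϖ
      simpa [pointHom] using this
    · simp [pointHom]

include hπ hϖ in
theorem isMaximal_span_pair (a : A₁) : (Ideal.span {C ϖ, X - C a} : Ideal A₁[X]).IsMaximal := by
  rw [← ker_pointHom π ϖ hϖ a]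
  exact RingHom.ker_isMaximal_of_surjective _ (pointHom_surjective π hπ a)

end Line

section Localized

variable {A₁ : Type*} [CommRing A₁] {k : Type*} [Field k]
  (π : A₁ →+* k) (hπ : Function.Surjective π) (ϖ : A₁) (hϖ : RingHom.ker π = Ideal.span {ϖ})
  (M : Submonoid A₁[X]) {R : Type*} [CommRing R] [Algebra A₁[X] R] [IsLocalization M R]
  [Algebra A₁ R] [IsScalarTower A₁ A₁[X] R]

include hϖ in
theorem algebraMap_mem_of_pi_eq_zero {S : Type*} [CommRing S] [Algebra A₁ S] (p : Ideal S)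
    (hϖp : algebraMap A₁ S ϖ ∈ p) (a : A₁) (ha : π a = 0) : algebraMap A₁ S a ∈ p := by
  rw [← RingHom.mem_ker, hϖ, Ideal.mem_span_singleton'] at ha
  obtain ⟨c, rfl⟩ := ha
  rw [map_mul]
  exact p.mul_mem_left _ hϖp

include hπ hϖ in
/-- A prime ideal `p` of a localisation `R` of `A₁[X]` which contains `ϖ` and `x - a` is
`(ϖ, x - a)`, and `a` avoids (the reduction of) the inverted polynomials. -/
theorem eq_span_pair_of_mem (p : Ideal R) (hp : p ≠ ⊤) (hϖp : algebraMap A₁ R ϖ ∈ p) (a : A₁)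
    (ha : algebraMap A₁[X] R X - algebraMap A₁ R a ∈ p) :
    (∀ g ∈ M, π (g.eval a) ≠ 0) ∧
      p = Ideal.span {algebraMap A₁ R ϖ, algebraMap A₁[X] R X - algebraMap A₁ R a} := by
  have hJmax := isMaximal_span_pair π hπ ϖ hϖ a
  set J : Ideal A₁[X] := Ideal.span {C ϖ, X - C a} with hJ
  set q : Ideal A₁[X] := p.comap (algebraMap A₁[X] R) with hq
  have hqtop : q ≠ ⊤ := by
    intro h
    apply hp
    rw [Ideal.eq_top_iff_one] at h ⊢
    rw [hq, Ideal.mem_comap, map_one] at h
    exact h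
  have hCϖ : algebraMap A₁[X] R (C ϖ) = algebraMap A₁ R ϖ := by
    rw [IsScalarTower.algebraMap_apply A₁ A₁[X] R, Polynomial.algebraMap_eq]
  have hCa : algebraMap A₁[X] R (C a) = algebraMap A₁ R a := by
    rw [IsScalarTower.algebraMap_apply A₁ A₁[X] R, Polynomial.algebraMap_eq]
  have hJq : J ≤ q := by
    rw [hJ, Ideal.span_le]
    rintro g (rfl | rfl)
    · change algebraMap A₁[X] R (C ϖ) ∈ p
      rw [hCϖ]
      exact hϖp
    · change algebraMap A₁[X] R (X - C a) ∈ p
      rw [map_sub, hCa]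
      exact ha
  have hJeq : J = q := hJmax.eq_of_le hqtop hJq
  refine ⟨fun g hg hzero => ?_, ?_⟩
  · have hgJ : g ∈ J := by
      rw [hJ, ← ker_pointHom π ϖ hϖ a, RingHom.mem_ker]
      exact hzero
    rw [hJeq, hq, Ideal.mem_comap] at hgJ
    exact hp (Ideal.eq_top_of_isUnit_mem _ hgJ (IsLocalization.map_units R ⟨g, hg⟩))
  · have h1 : p = q.map (algebraMap A₁[X] R) := (IsLocalization.map_under M R p).symm
    rw [h1, ← hJeq, hJ, Ideal.map_span, Set.image_pair, hCϖ, map_sub, hCa]

include hπ hϖ in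
/-- Conversely `(ϖ, x - a)` is a maximal ideal of the localisation `R = M⁻¹ A₁[X]` as soon as the
elements of `M` do not vanish at the point `a` of the special fibre. -/
theorem isMaximal_span_pair_of_forall_ne (a : A₁) (ha : ∀ g ∈ M, π (g.eval a) ≠ 0) :
    (Ideal.span {algebraMap A₁ R ϖ, algebraMap A₁[X] R X - algebraMap A₁ R a} :
      Ideal R).IsMaximal := by
  have hJmax := isMaximal_span_pair π hπ ϖ hϖ a
  set J : Ideal A₁[X] := Ideal.span {C ϖ, X - C a} with hJ
  have hJprime : J.IsPrime := hJmax.isPrime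
  have hCϖ : algebraMap A₁[X] R (C ϖ) = algebraMap A₁ R ϖ := by
    rw [IsScalarTower.algebraMap_apply A₁ A₁[X] R, Polynomial.algebraMap_eq]
  have hCa : algebraMap A₁[X] R (C a) = algebraMap A₁ R a := by
    rw [IsScalarTower.algebraMap_apply A₁ A₁[X] R, Polynomial.algebraMap_eq]
  have hdisj : Disjoint (M : Set A₁[X]) (J : Set A₁[X]) := by
    rw [Set.disjoint_left]
    intro g hgM hgJ
    apply ha g hgM
    have : g ∈ RingHom.ker (pointHom π a) := by rw [ker_pointHom π ϖ hϖ a]; exact hgJ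
    exact this
  have hmap : J.map (algebraMap A₁[X] R) =
      Ideal.span {algebraMap A₁ R ϖ, algebraMap A₁[X] R X - algebraMap A₁ R a} := by
    rw [hJ, Ideal.map_span, Set.image_pair, hCϖ, map_sub, hCa]
  rw [← hmap]
  have hprime : (J.map (algebraMap A₁[X] R)).IsPrime :=
    IsLocalization.isPrime_of_isPrime_disjoint M R J hJprime hdisj
  have hcomap : (J.map (algebraMap A₁[X] R)).comap (algebraMap A₁[X] R) = J :=
    IsLocalization.under_map_of_isPrime_disjoint M R hJprime hdisj
  rw [Ideal.isMaximal_def]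
  refine ⟨hprime.ne_top, fun P hP => ?_⟩
  by_contra hPtop
  have hle : J ≤ P.comap (algebraMap A₁[X] R) := by
    rw [← hcomap]
    exact Ideal.comap_mono hP.le
  have hne : P.comap (algebraMap A₁[X] R) ≠ ⊤ := by
    intro h
    apply hPtop
    rw [Ideal.eq_top_iff_one] at h ⊢
    rw [Ideal.mem_comap, map_one] at h
    exact h
  have heq : J = P.comap (algebraMap A₁[X] R) := hJmax.eq_of_le hne hle
  have : P = J.map (algebraMap A₁[X] R) := by
    rw [heq]
    exact (IsLocalization.map_under M R P).symm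
  exact hP.ne this.symm

end Localized

section Away

variable {A₁ : Type*} [CommRing A₁] {k : Type*} [Field k] [IsAlgClosed k]
  (π : A₁ →+* k) (hπ : Function.Surjective π) (ϖ : A₁) (hϖ : RingHom.ker π = Ideal.span {ϖ})
  (f : A₁[X]) {R : Type*} [CommRing R] [Algebra A₁[X] R] [IsLocalization.Away f R]
  [Algebra A₁ R] [IsScalarTower A₁ A₁[X] R]

include f in
/-- `A₁[X][1/f]` is of finite type over `A₁`. -/
theorem Away.finiteType : Algebra.FiniteType A₁ R := by
  have h0 : Algebra.FinitePresentation A₁[X] R := IsLocalization.Away.finitePresentation (S := R) f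
  have h1 : Algebra.FiniteType A₁[X] R := Algebra.FiniteType.of_finitePresentation
  exact Algebra.FiniteType.trans (inferInstance : Algebra.FiniteType A₁ A₁[X]) h1

include hπ hϖ f in
/-- (L2) **Residue fields of the closed points of the special fibre of `Spec A₁[X][1/f]`**: every
element of `R` is congruent to a constant modulo a maximal ideal containing `ϖ`. -/
theorem Away.exists_sub_algebraMap_mem (p : Ideal R) (hp : p.IsMaximal)
    (hϖp : algebraMap A₁ R ϖ ∈ p) (r : R) : ∃ a : A₁, r - algebraMap A₁ R a ∈ p := by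
  have := Away.finiteType (A₁ := A₁) f (R := R)
  exact exists_sub_algebraMap_mem_of_finiteType π hπ p
    (algebraMap_mem_of_pi_eq_zero π ϖ hϖ p hϖp) r

include hπ hϖ in
/-- (L1) **Closed points of the special fibre of `Spec A₁[X][1/f]`** (= first half of `hline` of
`H67.isIntegrallyClosed_special_fibre`): every maximal ideal `p ∋ ϖ` of `R = A₁[X][1/f]` is
`(ϖ, x - a)` for some `a : A₁` with `f(a) ≢ 0`. -/
theorem Away.exists_eq_span_pair (p : Ideal R) (hp : p.IsMaximal)
    (hϖp : algebraMap A₁ R ϖ ∈ p) :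
    ∃ a : A₁, π (f.eval a) ≠ 0 ∧
      p = Ideal.span {algebraMap A₁ R ϖ, algebraMap A₁[X] R X - algebraMap A₁ R a} := by
  obtain ⟨a, ha⟩ := Away.exists_sub_algebraMap_mem π hπ ϖ hϖ f p hp hϖp (algebraMap A₁[X] R X)
  obtain ⟨h1, h2⟩ := eq_span_pair_of_mem π hπ ϖ hϖ (Submonoid.powers f) p hp.ne_top hϖp a ha
  exact ⟨a, h1 f (Submonoid.mem_powers f), h2⟩

include hπ hϖ f in
/-- (L1'), the `∃ f` form consumed by `H67.isIntegrallyClosed_special_fibre`. -/
theorem Away.exists_eq_span_pair' (p : Ideal R) (hp : p.IsMaximal)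
    (hϖp : algebraMap A₁ R ϖ ∈ p) : ∃ g : R, p = Ideal.span {algebraMap A₁ R ϖ, g} := by
  obtain ⟨a, -, h⟩ := Away.exists_eq_span_pair π hπ ϖ hϖ f p hp hϖp
  exact ⟨_, h⟩

omit [IsAlgClosed k] in
include hπ hϖ in
/-- (L4) Conversely `(ϖ, x - a)` is a maximal ideal of `A₁[X][1/f]` when `f(a) ≢ 0`. -/
theorem Away.isMaximal_span_pair (a : A₁) (ha : π (f.eval a) ≠ 0) :
    (Ideal.span {algebraMap A₁ R ϖ, algebraMap A₁[X] R X - algebraMap A₁ R a} :
      Ideal R).IsMaximal := by
  refine isMaximal_span_pair_of_forall_ne π hπ ϖ hϖ (Submonoid.powers f) a ?_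
  rintro g ⟨n, rfl⟩
  rw [Polynomial.eval_pow, map_pow]
  exact pow_ne_zero _ ha

include hπ hϖ f in
/-- (L3) = `hres` of `H67.isIntegrallyClosed_special_fibre`, verbatim: for `B` integral over
`R = A₁[X][1/f]`, the residue field of `B` at every maximal ideal containing `ϖ` is `k`. -/
theorem Away.hres {B : Type*} [CommRing B] [Algebra A₁ B] [Algebra R B] [IsScalarTower A₁ R B]
    [Algebra.IsIntegral R B] :
    ∀ 𝔵 : Ideal B, 𝔵.IsMaximal → algebraMap A₁ B ϖ ∈ 𝔵 →
      ∀ b : B, ∃ a : A₁, b - algebraMap A₁ B a ∈ 𝔵 := by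
  intro 𝔵 h𝔵 hϖ𝔵 b
  have hpmax : (𝔵.comap (algebraMap R B)).IsMaximal :=
    Ideal.isMaximal_comap_of_isIntegral_of_isMaximal (R := R) 𝔵
  have hϖp : algebraMap A₁ R ϖ ∈ 𝔵.comap (algebraMap R B) := by
    rw [Ideal.mem_comap, ← IsScalarTower.algebraMap_apply A₁ R B]
    exact hϖ𝔵
  exact exists_sub_algebraMap_mem_of_isIntegral π hπ (R := R) 𝔵
    (algebraMap_mem_of_pi_eq_zero π ϖ hϖ 𝔵 hϖ𝔵)
    (Away.exists_sub_algebraMap_mem π hπ ϖ hϖ f _ hpmax hϖp) b

end Away

section AtPrime

variable {A₁ : Type*} [CommRing A₁] {k : Type*} [Field k]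
  (π : A₁ →+* k) (hπ : Function.Surjective π) (ϖ : A₁) (hϖ : RingHom.ker π = Ideal.span {ϖ})
  (a : A₁) (J : Ideal A₁[X]) [hJp : J.IsPrime] (hJ : J = Ideal.span {C ϖ, X - C a})
  {R : Type*} [CommRing R] [Algebra A₁[X] R] [IsLocalization.AtPrime R J]
  [Algebra A₁ R] [IsScalarTower A₁ A₁[X] R]

include hJ in
/-- **The cusp line** `R = A₁[X]_(ϖ, X - a)`: its maximal ideal is `(ϖ, x - a)`. -/
theorem AtPrime.eq_span_pair (p : Ideal R) (hp : p.IsMaximal) :
    p = Ideal.span {algebraMap A₁ R ϖ, algebraMap A₁[X] R X - algebraMap A₁ R a} := by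
  have hloc : IsLocalRing R := IsLocalization.AtPrime.isLocalRing R J
  have hCϖ : algebraMap A₁[X] R (C ϖ) = algebraMap A₁ R ϖ := by
    rw [IsScalarTower.algebraMap_apply A₁ A₁[X] R, Polynomial.algebraMap_eq]
  have hCa : algebraMap A₁[X] R (C a) = algebraMap A₁ R a := by
    rw [IsScalarTower.algebraMap_apply A₁ A₁[X] R, Polynomial.algebraMap_eq]
  rw [IsLocalRing.eq_maximalIdeal hp, ← IsLocalization.AtPrime.map_eq_maximalIdeal J R]
  conv_lhs => rw [hJ]
  rw [Ideal.map_span, Set.image_pair, hCϖ, map_sub, hCa]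

include hJ in
theorem AtPrime.exists_eq_span_pair' (p : Ideal R) (hp : p.IsMaximal) :
    ∃ g : R, p = Ideal.span {algebraMap A₁ R ϖ, g} :=
  ⟨_, AtPrime.eq_span_pair ϖ a J hJ p hp⟩

include hπ hϖ hJ in
/-- **The cusp line**: the residue field of `R = A₁[X]_(ϖ, X - a)` is `k`. -/
theorem AtPrime.exists_sub_algebraMap_mem (p : Ideal R) (hp : p.IsMaximal) (r : R) :
    ∃ c : A₁, r - algebraMap A₁ R c ∈ p := by
  have hloc : IsLocalRing R := IsLocalization.AtPrime.isLocalRing R J
  have hpJ : p = J.map (algebraMap A₁[X] R) := by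
    rw [IsLocalRing.eq_maximalIdeal hp, ← IsLocalization.AtPrime.map_eq_maximalIdeal J R]
  have hker : RingHom.ker (pointHom π a) = J := by rw [hJ]; exact ker_pointHom π ϖ hϖ a
  obtain ⟨g, s, rfl⟩ := IsLocalization.exists_mk'_eq J.primeCompl r
  have hs : pointHom π a s ≠ 0 := by
    intro h
    have h' : (s : A₁[X]) ∈ RingHom.ker (pointHom π a) := h
    exact s.2 (hker.le h')
  obtain ⟨c, hc⟩ := hπ (pointHom π a g / pointHom π a s)
  refine ⟨c, ?_⟩
  have hmem : g - C c * s ∈ J := by
    refine hker.le ?_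
    rw [RingHom.mem_ker, map_sub, map_mul]
    have : pointHom π a (C c) = π c := by simp [pointHom]
    rw [this, hc, div_mul_cancel₀ _ hs, sub_self]
  have hCc : algebraMap A₁[X] R (C c) = algebraMap A₁ R c := by
    rw [IsScalarTower.algebraMap_apply A₁ A₁[X] R, Polynomial.algebraMap_eq]
  have heq : IsLocalization.mk' R g s - algebraMap A₁ R c = IsLocalization.mk' R (g - C c * s) s := by
    rw [IsLocalization.eq_mk'_iff_mul_eq, sub_mul, IsLocalization.mk'_spec, map_sub, map_mul, hCc]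
  rw [heq, IsLocalization.mk'_mem_iff, hpJ]
  exact Ideal.mem_map_of_mem _ hmem

include hπ hϖ hJ in
/-- **The cusp line**, `hres` of `H67.isIntegrallyClosed_special_fibre` verbatim. -/
theorem AtPrime.hres [IsAlgClosed k] {B : Type*} [CommRing B] [Algebra A₁ B] [Algebra R B]
    [IsScalarTower A₁ R B] [Algebra.IsIntegral R B] :
    ∀ 𝔵 : Ideal B, 𝔵.IsMaximal → algebraMap A₁ B ϖ ∈ 𝔵 →
      ∀ b : B, ∃ c : A₁, b - algebraMap A₁ B c ∈ 𝔵 := by
  intro 𝔵 h𝔵 hϖ𝔵 b
  have hpmax : (𝔵.comap (algebraMap R B)).IsMaximal :=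
    Ideal.isMaximal_comap_of_isIntegral_of_isMaximal (R := R) 𝔵
  exact exists_sub_algebraMap_mem_of_isIntegral π hπ (R := R) 𝔵
    (algebraMap_mem_of_pi_eq_zero π ϖ hϖ 𝔵 hϖ𝔵)
    (AtPrime.exists_sub_algebraMap_mem π hπ ϖ hϖ a J hJ _ hpmax) b

end AtPrime

end Fermat.Agent.S18.H79
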