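/-
S18 project, INST-4 (hedge, helper79): the ring half of the auxiliary base line
`R = A₁[X][1/f]` over a DVR (more generally a noetherian UFD) `A₁` with a surjection
`π : A₁ → k` onto a field with kernel `(ϖ)`, `f mod ϖ ≠ 0`:

* `isPrincipalIdealRing_of_isLocalization`, `uniqueFactorizationMonoid_of_isLocalization` :
  localisations of PIDs / UFDs;
* `Away.isDomain`, `Away.isNoetherianRing`, `Away.isIntegrallyClosed`,
  `Away.uniqueFactorizationMonoid` ;
* `Away.prime_algebraMap` : `ϖ` is a prime element of `R` ;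
* `Away.isPrincipalIdealRing_quotient` : `R ⧸ (ϖ)` is a PID (it is `k[X][1/f̄]`) ;
* `Away.toField` : the map `R → F'`, `x ↦ μ` for `μ` with `f(μ)` invertible; injective for `μ`
  transcendental.

These are the instance arguments of `H41` PURITY-MAIN for `R = R_Y`.
-/
import Mathlib
import Fermat.Agent.S18.H79_BaseLine

set_option autoImplicit false
set_option linter.unusedSectionVars false

namespace Fermat.Agent.S18.H79

open Polynomial

section LocGeneral

variable {S : Type*} [CommRing S] (M : Submonoid S) (T : Type*) [CommRing T] [Algebra S T]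
  [IsLocalization M T]

include M in
/-- A localisation of a principal ideal ring is a principal ideal ring. -/
theorem isPrincipalIdealRing_of_isLocalization [IsPrincipalIdealRing S] :
    IsPrincipalIdealRing T := by
  refine ⟨fun J => ?_⟩
  obtain ⟨g, hg⟩ := IsPrincipalIdealRing.principal (J.comap (algebraMap S T))
  refine ⟨algebraMap S T g, ?_⟩
  have h1 : J = (J.comap (algebraMap S T)).map (algebraMap S T) :=
    (IsLocalization.map_under M T J).symm
  rw [h1, hg, Ideal.submodule_span_eq, Ideal.map_span, Set.image_singleton,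
    Ideal.submodule_span_eq]

include M in
/-- A localisation of a UFD is a UFD (Kaplansky's criterion). -/
theorem uniqueFactorizationMonoid_of_isLocalization [IsDomain S] [UniqueFactorizationMonoid S]
    [IsDomain T] (hM : M ≤ nonZeroDivisors S) : UniqueFactorizationMonoid T := by
  rw [UniqueFactorizationMonoid.iff_exists_prime_mem_of_isPrime]
  intro P hP0 hPprime
  have hinj : Function.Injective (algebraMap S T) := IsLocalization.injective T hM
  set Q : Ideal S := P.comap (algebraMap S T) with hQ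
  have hQprime : Q.IsPrime := Ideal.comap_isPrime _ P
  have hPQ : P = Q.map (algebraMap S T) := (IsLocalization.map_under M T P).symm
  have hQ0 : Q ≠ ⊥ := by
    intro h
    apply hP0
    rw [hPQ, h, Ideal.map_bot]
  obtain ⟨q, hqQ, hq⟩ := hQprime.exists_mem_prime_of_ne_bot hQ0
  have hqprime : (Ideal.span {q}).IsPrime := (Ideal.span_singleton_prime hq.ne_zero).2 hq
  have hdisjQ : Disjoint (M : Set S) (Q : Set S) :=
    (IsLocalization.disjoint_under_iff M T P).2 hPprime.ne_top
  have hdisj : Disjoint (M : Set S) ((Ideal.span {q} : Ideal S) : Set S) := by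
    refine hdisjQ.mono_right ?_
    intro s hs
    exact (Ideal.span_singleton_le_iff_mem (I := Q)).2 hqQ hs
  have hmapprime : ((Ideal.span {q}).map (algebraMap S T)).IsPrime :=
    IsLocalization.isPrime_of_isPrime_disjoint M T _ hqprime hdisj
  rw [Ideal.map_span, Set.image_singleton] at hmapprime
  have hq0 : algebraMap S T q ≠ 0 := by
    intro h
    exact hq.ne_zero (hinj (by rw [h, map_zero]))
  exact ⟨algebraMap S T q, hqQ, (Ideal.span_singleton_prime hq0).1 hmapprime⟩

end LocGeneral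

section RingHalf

variable {A₁ : Type*} [CommRing A₁] [IsDomain A₁] {k : Type*} [Field k]
  (π : A₁ →+* k) (hπ : Function.Surjective π) (ϖ : A₁) (hϖ : RingHom.ker π = Ideal.span {ϖ})
  (f : A₁[X]) (hf : f.map π ≠ 0) {R : Type*} [CommRing R] [Algebra A₁[X] R]
  [IsLocalization.Away f R] [Algebra A₁ R] [IsScalarTower A₁ A₁[X] R]

include hf in
theorem Away.ne_zero_of_map_ne_zero : f ≠ 0 := by
  rintro rfl
  exact hf (Polynomial.map_zero _)

include hf in
theorem Away.powers_le_nonZeroDivisors : Submonoid.powers f ≤ nonZeroDivisors A₁[X] :=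
  powers_le_nonZeroDivisors_of_noZeroDivisors (Away.ne_zero_of_map_ne_zero π f hf)

include π hf in
theorem Away.isDomain : IsDomain R :=
  IsLocalization.isDomain_of_le_nonZeroDivisors R (Away.powers_le_nonZeroDivisors π f hf)

include π hf in
theorem Away.algebraMap_polynomial_injective : Function.Injective (algebraMap A₁[X] R) :=
  IsLocalization.injective R (Away.powers_le_nonZeroDivisors π f hf)

include π hf in
theorem Away.algebraMap_injective : Function.Injective (algebraMap A₁ R) := by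
  rw [IsScalarTower.algebraMap_eq A₁ A₁[X] R]
  exact (Away.algebraMap_polynomial_injective π f hf).comp Polynomial.C_injective

include f in
theorem Away.isNoetherianRing [IsNoetherianRing A₁] : IsNoetherianRing R :=
  IsLocalization.isNoetherianRing (Submonoid.powers f) R inferInstance

include π hf in
theorem Away.isIntegrallyClosed [UniqueFactorizationMonoid A₁] : IsIntegrallyClosed R :=
  isIntegrallyClosed_of_isLocalization R (Submonoid.powers f)
    (Away.powers_le_nonZeroDivisors π f hf)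

include π hf in
theorem Away.uniqueFactorizationMonoid [UniqueFactorizationMonoid A₁] [IsDomain R] :
    UniqueFactorizationMonoid R :=
  uniqueFactorizationMonoid_of_isLocalization (Submonoid.powers f) R
    (Away.powers_le_nonZeroDivisors π f hf)

include hπ hϖ in
/-- `ϖ` is a prime element of `A₁` (if nonzero). -/
theorem prime_of_ker_eq (hϖ0 : ϖ ≠ 0) : Prime ϖ := by
  have hmax : (RingHom.ker π).IsMaximal := RingHom.ker_isMaximal_of_surjective π hπ
  rw [hϖ] at hmax
  exact (Ideal.span_singleton_prime hϖ0).1 hmax.isPrime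

include hϖ in
theorem map_eq_zero_of_C_dvd (g : A₁[X]) (h : C ϖ ∣ g) : g.map π = 0 := by
  obtain ⟨h', rfl⟩ := h
  have : π ϖ = 0 := by
    rw [← RingHom.mem_ker, hϖ]
    exact Ideal.mem_span_singleton_self ϖ
  rw [Polynomial.map_mul, Polynomial.map_C, this, map_zero, zero_mul]

include hϖ in
theorem C_dvd_of_map_eq_zero (g : A₁[X]) (h : g.map π = 0) : C ϖ ∣ g := by
  rw [Polynomial.C_dvd_iff_dvd_coeff]
  intro i
  have : π (g.coeff i) = 0 := by
    rw [← Polynomial.coeff_map, h, Polynomial.coeff_zero]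
  rw [← RingHom.mem_ker, hϖ, Ideal.mem_span_singleton] at this
  exact this

include hπ hϖ hf in
/-- `ϖ` is a prime element of `R = A₁[X][1/f]` when `f mod ϖ ≠ 0`. -/
theorem Away.prime_algebraMap (hϖ0 : ϖ ≠ 0) : Prime (algebraMap A₁ R ϖ) := by
  have hCprime : Prime (C ϖ : A₁[X]) := Polynomial.prime_C_iff.2 (prime_of_ker_eq π hπ ϖ hϖ hϖ0)
  have hIprime : (Ideal.span {(C ϖ : A₁[X])}).IsPrime :=
    (Ideal.span_singleton_prime hCprime.ne_zero).2 hCprime
  have hdisj : Disjoint (Submonoid.powers f : Set A₁[X])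
      ((Ideal.span {(C ϖ : A₁[X])} : Ideal A₁[X]) : Set A₁[X]) := by
    rw [Set.disjoint_left]
    rintro g ⟨n, rfl⟩ hg
    rw [SetLike.mem_coe, Ideal.mem_span_singleton] at hg
    exact hf (map_eq_zero_of_C_dvd π ϖ hϖ f (hCprime.dvd_of_dvd_pow hg))
  have hmap : ((Ideal.span {(C ϖ : A₁[X])}).map (algebraMap A₁[X] R)).IsPrime :=
    IsLocalization.isPrime_of_isPrime_disjoint (Submonoid.powers f) R _ hIprime hdisj
  have hCϖ : algebraMap A₁[X] R (C ϖ) = algebraMap A₁ R ϖ := by
    rw [IsScalarTower.algebraMap_apply A₁ A₁[X] R, Polynomial.algebraMap_eq]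
  rw [Ideal.map_span, Set.image_singleton, hCϖ] at hmap
  have h0 : algebraMap A₁ R ϖ ≠ 0 := by
    intro h
    exact hϖ0 (Away.algebraMap_injective π f hf (by rw [h, map_zero]))
  exact (Ideal.span_singleton_prime h0).1 hmap

include hπ hϖ in
/-- `A₁[X] ⧸ (ϖ) ≅ k[X]` is a PID. -/
theorem isPrincipalIdealRing_polynomial_quotient :
    IsPrincipalIdealRing (A₁[X] ⧸ (Ideal.span {(C ϖ : A₁[X])})) := by
  have hker : RingHom.ker (Polynomial.mapRingHom π) = Ideal.span {(C ϖ : A₁[X])} := by
    rw [Polynomial.ker_mapRingHom, hϖ, Ideal.map_span, Set.image_singleton]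
  have hsurj : Function.Surjective (Polynomial.mapRingHom π) := Polynomial.map_surjective π hπ
  let e : k[X] ≃+* A₁[X] ⧸ (Ideal.span {(C ϖ : A₁[X])}) :=
    (RingHom.quotientKerEquivOfSurjective hsurj).symm.trans (Ideal.quotEquivOfEq hker)
  exact IsPrincipalIdealRing.of_surjective e.toRingHom e.surjective

include hπ hϖ f in
/-- `R ⧸ (ϖ)` is a PID (a localisation of `k[X]`). -/
theorem Away.isPrincipalIdealRing_quotient :
    IsPrincipalIdealRing (R ⧸ Ideal.span {algebraMap A₁ R ϖ}) := by
  have h1 := isPrincipalIdealRing_polynomial_quotient π hπ ϖ hϖ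
  have h2 : IsPrincipalIdealRing
      (R ⧸ (Ideal.span {(C ϖ : A₁[X])}).map (algebraMap A₁[X] R)) :=
    isPrincipalIdealRing_of_isLocalization
      (Algebra.algebraMapSubmonoid (A₁[X] ⧸ (Ideal.span {(C ϖ : A₁[X])})) (Submonoid.powers f)) _
  have hCϖ : algebraMap A₁[X] R (C ϖ) = algebraMap A₁ R ϖ := by
    rw [IsScalarTower.algebraMap_apply A₁ A₁[X] R, Polynomial.algebraMap_eq]
  have heq : (Ideal.span {(C ϖ : A₁[X])}).map (algebraMap A₁[X] R) =
      Ideal.span {algebraMap A₁ R ϖ} := by
    rw [Ideal.map_span, Set.image_singleton, hCϖ]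
  exact IsPrincipalIdealRing.of_surjective (Ideal.quotEquivOfEq heq).toRingHom
    (Ideal.quotEquivOfEq heq).surjective

end RingHalf

section ToField

variable {A₁ : Type*} [CommRing A₁] (f : A₁[X]) {R : Type*} [CommRing R] [Algebra A₁[X] R]
  [IsLocalization.Away f R] [Algebra A₁ R] [IsScalarTower A₁ A₁[X] R]
  {F' : Type*} [Field F'] [Algebra A₁ F']

/-- The evaluation `R = A₁[X][1/f] → F'`, `x ↦ μ`, for `μ` with `f(μ) ≠ 0`. -/
noncomputable def Away.toField (μ : F') (hμ : aeval μ f ≠ 0) : R →+* F' :=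
  IsLocalization.Away.lift (S := R) f (g := (aeval μ : A₁[X] →ₐ[A₁] F').toRingHom)
    (IsUnit.mk0 _ hμ)

theorem Away.toField_algebraMap_polynomial (μ : F') (hμ : aeval μ f ≠ 0) (p : A₁[X]) :
    Away.toField f μ hμ (algebraMap A₁[X] R p) = aeval μ p := by
  rw [Away.toField, IsLocalization.Away.lift_eq]
  rfl

theorem Away.toField_X (μ : F') (hμ : aeval μ f ≠ 0) :
    Away.toField f μ hμ (algebraMap A₁[X] R X) = μ := by
  rw [Away.toField_algebraMap_polynomial, aeval_X]

theorem Away.toField_algebraMap (μ : F') (hμ : aeval μ f ≠ 0) (a : A₁) :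
    Away.toField f μ hμ (algebraMap A₁ R a) = algebraMap A₁ F' a := by
  rw [IsScalarTower.algebraMap_apply A₁ A₁[X] R, Polynomial.algebraMap_eq,
    Away.toField_algebraMap_polynomial, aeval_C]

theorem Away.toField_injective (μ : F') (hμ : aeval μ f ≠ 0) (htr : Transcendental A₁ μ) :
    Function.Injective (Away.toField (R := R) f μ hμ) := by
  have hinj : Function.Injective (aeval μ : A₁[X] →ₐ[A₁] F') :=
    transcendental_iff_injective.1 htr
  have key : ∀ p : A₁[X], Away.toField (R := R) f μ hμ (algebraMap A₁[X] R p) = aeval μ p :=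
    Away.toField_algebraMap_polynomial f μ hμ
  intro r s hrs
  obtain ⟨p, m, rfl⟩ := IsLocalization.exists_mk'_eq (Submonoid.powers f) r
  obtain ⟨q, n, rfl⟩ := IsLocalization.exists_mk'_eq (Submonoid.powers f) s
  rw [IsLocalization.mk'_eq_iff_eq]
  have h1 := IsLocalization.mk'_spec R p m
  have h2 := IsLocalization.mk'_spec R q n
  have h3 : aeval μ (p * (n : A₁[X])) = aeval μ (q * (m : A₁[X])) := by
    rw [← key, ← key, map_mul (algebraMap A₁[X] R), map_mul (algebraMap A₁[X] R), ← h1, ← h2,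
      map_mul, map_mul, map_mul, map_mul, hrs]
    ring
  have h4 := hinj h3
  rw [mul_comm (n : A₁[X]) p, mul_comm (m : A₁[X]) q, h4]

end ToField

section ResidueEquiv

variable {A₁ : Type*} [CommRing A₁] {k : Type*} [Field k]
  (π : A₁ →+* k) (hπ : Function.Surjective π)

include hπ in
/-- If `A₁ → R ⧸ p` is surjective and kills `ker π`, then `R ⧸ p ≃+* k`. -/
theorem nonempty_quotient_equiv_of_surjective {R : Type*} [CommRing R] [Algebra A₁ R]
    (p : Ideal R) (hp : p.IsMaximal)
    (hle : ∀ a : A₁, π a = 0 → algebraMap A₁ R a ∈ p)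
    (hsurj : ∀ r : R, ∃ a : A₁, r - algebraMap A₁ R a ∈ p) : Nonempty ((R ⧸ p) ≃+* k) := by
  set φ : A₁ →+* R ⧸ p := (Ideal.Quotient.mk p).comp (algebraMap A₁ R) with hφ
  have hφsurj : Function.Surjective φ := by
    intro y
    obtain ⟨r, rfl⟩ := Ideal.Quotient.mk_surjective y
    obtain ⟨a, ha⟩ := hsurj r
    refine ⟨a, ?_⟩
    rw [hφ, RingHom.comp_apply, eq_comm, Ideal.Quotient.eq]
    exact ha
  have hker : RingHom.ker π ≤ RingHom.ker φ := by
    intro a ha
    rw [RingHom.mem_ker] at ha ⊢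
    rw [hφ, RingHom.comp_apply, Ideal.Quotient.eq_zero_iff_mem]
    exact hle a ha
  have hmax : (RingHom.ker π).IsMaximal := RingHom.ker_isMaximal_of_surjective π hπ
  have hne : RingHom.ker φ ≠ ⊤ := by
    have : Nontrivial (R ⧸ p) := Ideal.Quotient.nontrivial_iff.2 hp.ne_top
    exact RingHom.ker_ne_top φ
  have heq : RingHom.ker π = RingHom.ker φ := hmax.eq_of_le hne hker
  exact ⟨((RingHom.quotientKerEquivOfSurjective hφsurj).symm.trans
    (Ideal.quotEquivOfEq heq.symm)).trans (RingHom.quotientKerEquivOfSurjective hπ)⟩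

end ResidueEquiv

section Hpt

variable {A₁ : Type*} [CommRing A₁] {k : Type} [Field k] [IsAlgClosed k]
  (π : A₁ →+* k) (hπ : Function.Surjective π) (ϖ : A₁) (hϖ : RingHom.ker π = Ideal.span {ϖ})

include hπ hϖ in
/-- Hypothesis `hpt` of `H96.isIntegrallyClosed_specialFibre`, verbatim, for `R = A₁[X][1/f]`. -/
theorem Away.hpt (f : A₁[X]) {R : Type*} [CommRing R] [Algebra A₁[X] R]
    [IsLocalization.Away f R] [Algebra A₁ R] [IsScalarTower A₁ A₁[X] R] :
    ∀ p : Ideal R, p.IsMaximal → algebraMap A₁ R ϖ ∈ p →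
      (∃ g, p = Ideal.span {algebraMap A₁ R ϖ, g}) ∧
      (∀ r : R, ∃ a : A₁, r - algebraMap A₁ R a ∈ p) ∧
      ∃ (k : Type) (_ : Field k) (_ : IsAlgClosed k), Nonempty ((R ⧸ p) ≃+* k) := by
  intro p hp hϖp
  refine ⟨Away.exists_eq_span_pair' π hπ ϖ hϖ f p hp hϖp,
    Away.exists_sub_algebraMap_mem π hπ ϖ hϖ f p hp hϖp, k, inferInstance, inferInstance, ?_⟩
  exact nonempty_quotient_equiv_of_surjective π hπ p hp
    (algebraMap_mem_of_pi_eq_zero π ϖ hϖ p hϖp)
    (Away.exists_sub_algebraMap_mem π hπ ϖ hϖ f p hp hϖp)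

include hπ hϖ in
/-- Hypothesis `hpt` of `H96.isIntegrallyClosed_specialFibre`, verbatim, for the cusp line
`R = A₁[X]_(ϖ, X - a)`. -/
theorem AtPrime.hpt (a : A₁) (J : Ideal A₁[X]) [hJp : J.IsPrime]
    (hJ : J = Ideal.span {C ϖ, X - C a})
    {R : Type*} [CommRing R] [Algebra A₁[X] R] [IsLocalization.AtPrime R J]
    [Algebra A₁ R] [IsScalarTower A₁ A₁[X] R] :
    ∀ p : Ideal R, p.IsMaximal → algebraMap A₁ R ϖ ∈ p →
      (∃ g, p = Ideal.span {algebraMap A₁ R ϖ, g}) ∧
      (∀ r : R, ∃ a : A₁, r - algebraMap A₁ R a ∈ p) ∧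
      ∃ (k : Type) (_ : Field k) (_ : IsAlgClosed k), Nonempty ((R ⧸ p) ≃+* k) := by
  intro p hp hϖp
  refine ⟨AtPrime.exists_eq_span_pair' ϖ a J hJ p hp,
    AtPrime.exists_sub_algebraMap_mem π hπ ϖ hϖ a J hJ p hp, k, inferInstance, inferInstance, ?_⟩
  exact nonempty_quotient_equiv_of_surjective π hπ p hp
    (algebraMap_mem_of_pi_eq_zero π ϖ hϖ p hϖp)
    (AtPrime.exists_sub_algebraMap_mem π hπ ϖ hϖ a J hJ p hp)

end Hpt

end Fermat.Agent.S18.H79
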