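/-
S18 project, HOR chain item (a) of helper9 #2065 (helper79): the generic fibre of a localisation of
the affine line over a DVR is a PID.

`A₁` a domain, `ϖ ∈ A₁` nonzero with `A₁[1/ϖ] = K0` a field (a DVR with uniformiser `ϖ` and
`K0 = Frac A₁`), `R` ANY localisation of `A₁[X]` (`Localization.Away D` for the Hesse / Legendre
lines, the localisation at `(ϖ, X)` for the cusp line), `A = R[1/ϖ]`.  Then `A` is a localisation of
`K0[X]`, hence a principal ideal domain, hence a Dedekind domain.

* `isLocalization_map_of_away` : `A` is a localisation of `K0[X]`;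
* `isPrincipalIdealRing_away`, `isDomain_away`, `isDedekindDomain_away`;
* `isLocalization_away_fractionRing_of_irreducible` : for a DVR `A₁` with uniformiser `ϖ`,
  `Frac A₁ = A₁[1/ϖ]`.
-/
import Mathlib
import Fermat.Agent.S18.H79_BaseLineRing

set_option autoImplicit false
set_option linter.unusedSectionVars false
set_option linter.style.haveILetI false

namespace Fermat.Agent.S18.H79

open Polynomial

attribute [local instance] Polynomial.algebra

section GenericFibre

variable {A₁ : Type*} [CommRing A₁] [IsDomain A₁] (ϖ : A₁)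
  (K0 : Type*) [Field K0] [Algebra A₁ K0] [IsLocalization.Away ϖ K0]
  (M : Submonoid A₁[X]) {R : Type*} [CommRing R] [Algebra A₁[X] R] [IsLocalization M R]
  (A : Type*) [CommRing A] [Algebra R A] [IsLocalization.Away (algebraMap A₁[X] R (C ϖ)) A]

include ϖ K0 M R in
/-- `R[1/ϖ]` is a principal ideal ring, for any localisation `R` of `A₁[X]` (where
`A₁[1/ϖ] = K0` is a field). -/
theorem isPrincipalIdealRing_away : IsPrincipalIdealRing A := by
  letI : Algebra A₁[X] A := ((algebraMap R A).comp (algebraMap A₁[X] R)).toAlgebra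
  haveI : IsScalarTower A₁[X] R A := IsScalarTower.of_algebraMap_eq (fun _ => rfl)
  set ϖR : R := algebraMap A₁[X] R (C ϖ) with hϖR
  set N : Submonoid A₁[X] :=
    IsLocalization.localizationLocalizationSubmodule M (Submonoid.powers ϖR) with hN
  haveI hNloc : IsLocalization N A :=
    IsLocalization.localization_localization_isLocalization M (Submonoid.powers ϖR) A
  set M0 : Submonoid A₁[X] := (Submonoid.powers ϖ).map (C : A₁ →+* A₁[X]) with hM0
  haveI hM0loc : IsLocalization M0 K0[X] := Polynomial.isLocalization (Submonoid.powers ϖ) K0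
  have hle : M0 ≤ N := by
    rintro _ ⟨_, ⟨n, rfl⟩, rfl⟩
    rw [hN, IsLocalization.mem_localizationLocalizationSubmodule]
    refine ⟨⟨ϖR ^ n, ⟨n, rfl⟩⟩, 1, ?_⟩
    rw [map_pow, map_pow, ← hϖR, OneMemClass.coe_one, map_one, mul_one]
  have hunits : ∀ y : M0, IsUnit (algebraMap A₁[X] A y) := fun y =>
    IsLocalization.map_units A (⟨y.1, hle y.2⟩ : N)
  letI : Algebra K0[X] A := (IsLocalization.lift (M := M0) (S := K0[X]) hunits).toAlgebra
  haveI : IsScalarTower A₁[X] K0[X] A :=
    IsScalarTower.of_algebraMap_eq (fun x => (IsLocalization.lift_eq hunits x).symm)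
  haveI : IsLocalization (N.map (algebraMap A₁[X] K0[X])) A :=
    IsLocalization.isLocalization_of_submonoid_le K0[X] A M0 N hle
  exact isPrincipalIdealRing_of_isLocalization (N.map (algebraMap A₁[X] K0[X])) A

include ϖ M R in
/-- `R[1/ϖ]` is a domain when `0 ∉ M`, `ϖ ≠ 0`. -/
theorem isDomain_away (hM : (0 : A₁[X]) ∉ M) (hϖ0 : ϖ ≠ 0) : IsDomain A := by
  have hMle : M ≤ nonZeroDivisors A₁[X] := by
    intro g hg
    refine mem_nonZeroDivisors_of_ne_zero ?_
    rintro rfl
    exact hM hg
  haveI : IsDomain R := IsLocalization.isDomain_of_le_nonZeroDivisors R hMle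
  have hinj : Function.Injective (algebraMap A₁[X] R) := IsLocalization.injective R hMle
  have hne : algebraMap A₁[X] R (C ϖ) ≠ 0 := by
    intro h
    apply hϖ0
    have : (C ϖ : A₁[X]) = 0 := hinj (by rw [h, map_zero])
    exact Polynomial.C_eq_zero.1 this
  exact IsLocalization.isDomain_of_le_nonZeroDivisors A
    (powers_le_nonZeroDivisors_of_noZeroDivisors hne)

include ϖ K0 M R in
/-- **(a) of the HOR chain**: `R[1/ϖ]` is a Dedekind domain, for any localisation `R` of `A₁[X]`
at a submonoid not containing `0`. -/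
theorem isDedekindDomain_away (hM : (0 : A₁[X]) ∉ M) (hϖ0 : ϖ ≠ 0) : IsDedekindDomain A := by
  haveI := isDomain_away ϖ M (R := R) A hM hϖ0
  haveI := isPrincipalIdealRing_away ϖ K0 M (R := R) A
  infer_instance

end GenericFibre

section GenericFibre'

variable {A₁ : Type*} [CommRing A₁] [IsDomain A₁] (ϖ : A₁)
  (K0 : Type*) [Field K0] [Algebra A₁ K0] [IsLocalization.Away ϖ K0]
  (M : Submonoid A₁[X]) {R : Type*} [CommRing R] [Algebra A₁[X] R] [IsLocalization M R]
  [Algebra A₁ R] [IsScalarTower A₁ A₁[X] R]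
  (A : Type*) [CommRing A] [Algebra R A] [IsLocalization.Away (algebraMap A₁ R ϖ) A]

include ϖ K0 M R in
/-- `isDedekindDomain_away` in the form consumed by `H9.horCond_of_hHOR` (`π := algebraMap A₁ R ϖ`,
`A` any model of `R[1/π]`). -/
theorem isDedekindDomain_away' (hM : (0 : A₁[X]) ∉ M) (hϖ0 : ϖ ≠ 0) : IsDedekindDomain A := by
  have hCϖ : algebraMap A₁[X] R (C ϖ) = algebraMap A₁ R ϖ := by
    rw [IsScalarTower.algebraMap_apply A₁ A₁[X] R, Polynomial.algebraMap_eq]
  haveI : IsLocalization.Away (algebraMap A₁[X] R (C ϖ)) A := by rw [hCϖ]; infer_instance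
  exact isDedekindDomain_away ϖ K0 M (R := R) A hM hϖ0

include ϖ K0 M R in
theorem isPrincipalIdealRing_away' : IsPrincipalIdealRing A := by
  have hCϖ : algebraMap A₁[X] R (C ϖ) = algebraMap A₁ R ϖ := by
    rw [IsScalarTower.algebraMap_apply A₁ A₁[X] R, Polynomial.algebraMap_eq]
  haveI : IsLocalization.Away (algebraMap A₁[X] R (C ϖ)) A := by rw [hCϖ]; infer_instance
  exact isPrincipalIdealRing_away ϖ K0 M (R := R) A

include ϖ M R in
theorem isDomain_away' (hM : (0 : A₁[X]) ∉ M) (hϖ0 : ϖ ≠ 0) : IsDomain A := by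
  have hCϖ : algebraMap A₁[X] R (C ϖ) = algebraMap A₁ R ϖ := by
    rw [IsScalarTower.algebraMap_apply A₁ A₁[X] R, Polynomial.algebraMap_eq]
  haveI : IsLocalization.Away (algebraMap A₁[X] R (C ϖ)) A := by rw [hCϖ]; infer_instance
  exact isDomain_away ϖ M (R := R) A hM hϖ0

end GenericFibre'

section Hnat

variable {R : Type*} [CommRing R] (π : R) (A : Type*) [CommRing A] [Algebra R A]
  [IsLocalization.Away π A]

include π in
/-- (b) of the HOR chain: if every nonzero natural number is `π ^ a * unit` in `R`, then every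
nonzero natural number is a unit of `R[1/π]`. -/
theorem isUnit_natCast_away
    (hnat : ∀ n : ℕ, n ≠ 0 → ∃ (a : ℕ) (u : Rˣ), ((n : ℕ) : R) = π ^ a * u) :
    ∀ n : ℕ, n ≠ 0 → IsUnit ((n : ℕ) : A) := by
  intro n hn
  obtain ⟨a, u, hu⟩ := hnat n hn
  have h1 : ((n : ℕ) : A) = algebraMap R A ((n : ℕ) : R) := (map_natCast (algebraMap R A) n).symm
  rw [h1, hu, map_mul, map_pow]
  exact ((IsLocalization.Away.algebraMap_isUnit (S := A) π).pow a).mul (u.isUnit.map _)

end Hnat

section DVR

variable {A₁ : Type*} [CommRing A₁] [IsDomain A₁] [IsDiscreteValuationRing A₁]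

/-- For a DVR with uniformiser `ϖ`, the fraction field is `A₁[1/ϖ]`. -/
theorem isLocalization_away_of_irreducible {ϖ : A₁} (hϖ : Irreducible ϖ)
    (K0 : Type*) [Field K0] [Algebra A₁ K0] [IsFractionRing A₁ K0] :
    IsLocalization.Away ϖ K0 := by
  have hle : Submonoid.powers ϖ ≤ nonZeroDivisors A₁ :=
    powers_le_nonZeroDivisors_of_noZeroDivisors hϖ.ne_zero
  have h1 : IsLocalization (nonZeroDivisors A₁) (Localization.Away ϖ) := by
    refine IsLocalization.isLocalization_of_is_exists_mul_mem (Localization.Away ϖ)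
      (Submonoid.powers ϖ) (nonZeroDivisors A₁) hle (fun x => ?_)
    have hx0 : (x : A₁) ≠ 0 := nonZeroDivisors.ne_zero x.2
    obtain ⟨n, u, hu⟩ := IsDiscreteValuationRing.eq_unit_mul_pow_irreducible hx0 hϖ
    refine ⟨((u⁻¹ : A₁ˣ) : A₁), n, ?_⟩
    rw [hu, ← mul_assoc, Units.inv_mul, one_mul]
  let e : Localization.Away ϖ ≃ₐ[A₁] K0 :=
    IsLocalization.algEquiv (nonZeroDivisors A₁) (Localization.Away ϖ) K0
  exact IsLocalization.isLocalization_of_algEquiv (Submonoid.powers ϖ) e

end DVR

end Fermat.Agent.S18.H79
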