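/-
S18 project, route Q (helper96): `H96.isIntegrallyClosed_specialFibre_of_auxLine` with the
Dedekind hypothesis on the generic fibre of the line discharged (helper79's
`H79.isDedekindDomain_away'`).
-/
import Fermat.Agent.S18.H96_AuxChart
import Fermat.Agent.S18.H79_GenericFibreDedekind

set_option autoImplicit false
set_option linter.unusedSectionVars false
set_option linter.style.haveILetI false

namespace Fermat.Agent.S18.H96

open Polynomial IntermediateField AlgebraicCurve Fermat.Agent.S18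

section Main

universe u v

variable {A₁ : Type*} {L1 : Type u} {F1 : Type*} {F' : Type v}
  [CommRing A₁] [IsDomain A₁] [IsDiscreteValuationRing A₁]
  [Field L1] [Algebra A₁ L1] [IsFractionRing A₁ L1] [CharZero L1]
  [Field F1] [Algebra L1 F1] [Algebra A₁ F1] [IsScalarTower A₁ L1 F1]
  [Field F'] [Algebra F1 F'] [Algebra L1 F'] [IsScalarTower L1 F1 F'] [Algebra A₁ F']
  [IsScalarTower A₁ L1 F']

/-- The generic fibre `A₁[μ, 1/f(μ)][1/ϖ]` of the auxiliary line is a Dedekind domain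
(helper79's code, #2174). -/
theorem isDedekindDomain_away_lineRing (L1 : Type*) [Field L1] [Algebra A₁ L1]
    [IsFractionRing A₁ L1] {ϖ : A₁} (hϖ : Irreducible ϖ) (f : A₁[X]) (hf0 : f ≠ 0) :
    IsDedekindDomain (Localization.Away (algebraMap A₁ (H26.LineRing f) ϖ)) := by
  have := H79.isLocalization_away_of_irreducible hϖ L1
  refine H79.isDedekindDomain_away' ϖ L1 (Submonoid.powers f) (R := H26.LineRing f) _ ?_ hϖ.ne_zero
  rintro ⟨n, hn⟩
  exact hf0 (pow_eq_zero_iff (M₀ := A₁[X]) (n := n) (by rintro rfl; simp at hn) |>.1 hn)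

/-- **Route Q, one auxiliary-line chart (chart-parametric)**, final form. -/
theorem isIntegrallyClosed_specialFibre_of_auxLine'
    {ϖ : A₁} (hϖ : Irreducible ϖ)
    {k : Type} [Field k] [IsAlgClosed k] (res : A₁ →+* k) (hres : Function.Surjective res)
    (hker : RingHom.ker res = Ideal.span {ϖ})
    (j1 θ : F1) (hj1 : Transcendental L1 j1) (hgen : L1⟮j1⟯⟮θ⟯ = ⊤)
    [FiniteDimensional L1⟮j1⟯ F1]
    [FiniteDimensional F1 F'] [IsGalois F1 F']
    (μ : F') (hμ : Transcendental L1 μ) (hμtop : F1⟮μ⟯ = ⊤) [FiniteDimensional L1⟮μ⟯ F']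
    (f : A₁[X]) (hf : f.map res ≠ 0) (hfμ : IsUnit (aeval μ f))
    (jY : H26.LineRing f) (hjY : H26.LineRing.liftAlg f μ hfμ jY = algebraMap F1 F' j1)
    (hintμ : IsIntegral (Algebra.adjoin A₁ {algebraMap F1 F' j1}) μ)
    (hintw : IsIntegral (Algebra.adjoin A₁ {algebraMap F1 F' j1})
      (H26.LineRing.liftAlg f μ hfμ (H26.LineRing.inv f)))
    (Φ : (H26.LineRing f)[X]) (hΦ : Φ.Monic)
    (hroot : Φ.eval₂ (H26.LineRing.liftAlg f μ hfμ).toRingHom (algebraMap F1 F' θ) = 0)
    (hsep : (Φ.map (H26.LineRing.toRatFunc f res hf)).Separable)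
    (hunr : ∀ (v : Place L1 F') (g₀ : L1[X]), Irreducible g₀ →
      ¬ g₀ ∣ f.map (algebraMap A₁ L1) → 0 < v.ord (aeval μ g₀) → v.ord (aeval μ g₀) = 1)
    (hprime : (Ideal.span {algebraMap ↥(Algebra.adjoin A₁ {j1})
      (integralClosure ↥(Algebra.adjoin A₁ {j1}) F1)
      (algebraMap A₁ ↥(Algebra.adjoin A₁ {j1}) ϖ)}).IsPrime) :
    IsIntegrallyClosed
      (integralClosure ↥(Algebra.adjoin A₁ {j1}) F1 ⧸
        Ideal.span {algebraMap ↥(Algebra.adjoin A₁ {j1})
          (integralClosure ↥(Algebra.adjoin A₁ {j1}) F1)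
          (algebraMap A₁ ↥(Algebra.adjoin A₁ {j1}) ϖ)}) :=
  isIntegrallyClosed_specialFibre_of_auxLine hϖ res hres hker j1 θ hj1 hgen μ hμ hμtop f hf hfμ jY
    hjY hintμ hintw Φ hΦ hroot hsep
    (isDedekindDomain_away_lineRing L1 hϖ f (H26.LineRing.ne_zero_of_map_ne_zero f res hf))
    hunr hprime

end Main

end Fermat.Agent.S18.H96
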