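/-
S18 project, route Q (helper96): the two statements about the special fibre of the chart
`A = integralClosure A₁[j1] F1`, as `Prop`-valued definitions elaborated ONCE in a generic context
(so that consumers at the concrete types `A₁ = H45.A0 A ℓ`, `F1 = modularFunctionFieldFullC L1 N`
never have to unify two different instance paths), and the chart theorems / Gauss-model adapters in
this vocabulary.
-/
import Fermat.Agent.S18.H96_AuxChartDed
import Fermat.Agent.S18.H67_GaussLift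

set_option autoImplicit false
set_option linter.unusedSectionVars false
set_option linter.style.haveILetI false

namespace Fermat.Agent.S18.H96

open Polynomial IntermediateField AlgebraicCurve Fermat.Agent.S18

section Defs

variable (A₁ F1 : Type*) [CommRing A₁] [Field F1] [Algebra A₁ F1]

/-- `(ϖ)` is a prime ideal of `A = integralClosure A₁[j1] F1`. -/
def SpecialFibrePrime (j1 : F1) (ϖ : A₁) : Prop :=
  (Ideal.span {algebraMap ↥(Algebra.adjoin A₁ {j1})
    (integralClosure ↥(Algebra.adjoin A₁ {j1}) F1)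
    (algebraMap A₁ ↥(Algebra.adjoin A₁ {j1}) ϖ)}).IsPrime

/-- `A ⧸ (ϖ)` is integrally closed, `A = integralClosure A₁[j1] F1`. -/
def SpecialFibreIC (j1 : F1) (ϖ : A₁) : Prop :=
  IsIntegrallyClosed
    (integralClosure ↥(Algebra.adjoin A₁ {j1}) F1 ⧸
      Ideal.span {algebraMap ↥(Algebra.adjoin A₁ {j1})
        (integralClosure ↥(Algebra.adjoin A₁ {j1}) F1)
        (algebraMap A₁ ↥(Algebra.adjoin A₁ {j1}) ϖ)})

end Defs

/-! ### Gauss-model adapters (generic `F1`) -/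

section Gauss

variable {A₁ k F1 Fk : Type*} [CommRing A₁] [Field k] [Field F1] [Algebra A₁ F1]
  [Field Fk] [Algebra k Fk] {ϖ : A₁} {π0 : A₁ →+* k} {x1 θ : F1} {xb θb : Fk}
  (M : H3.GaussModel ϖ π0 x1 θ xb θb)

/-- `hprime` from a Gauss model and its saturation. -/
theorem specialFibrePrime_of_gaussModel
    (hsat : ∀ y ∈ M.O1, IsIntegral (Algebra.adjoin A₁ {x1}) (algebraMap A₁ F1 ϖ * y) →
      IsIntegral (Algebra.adjoin A₁ {x1}) y) :
    SpecialFibrePrime A₁ F1 x1 ϖ := by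
  unfold SpecialFibrePrime
  refine M.span_isPrime
    ((integralClosure ↥(Algebra.adjoin A₁ {x1}) F1).val.toRingHom) Subtype.val_injective _ rfl
    (fun b => M.hBO _ b.2) ?_
  rintro y hy ⟨b, hb⟩
  have hint : IsIntegral (Algebra.adjoin A₁ {x1}) (algebraMap A₁ F1 ϖ * y) := by
    rw [← hb]; exact b.2
  exact ⟨⟨y, hsat y hy hint⟩, rfl⟩

/-- `hGRfin` from `SpecialFibreIC` (helper67's `H67.exists_lift_of_gaussModel`). -/
theorem exists_lift_of_specialFibreIC [IsDomain A₁] [IsIntegrallyClosed A₁]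
    (hϖ : Prime ϖ) (hπϖ : π0 ϖ = 0) (hx1 : Transcendental A₁ x1)
    (Φ : A₁[X][X]) (hΦ : Φ.Monic) (hroot : H3.eval2 x1 θ Φ = 0)
    (hgen : ∀ y : F1, ∃ s : A₁[X], s ≠ 0 ∧ ∃ g : A₁[X][X], aeval x1 s * y = H3.eval2 x1 θ g)
    (hπ0 : Function.Surjective π0)
    (hgenk : ∀ γ : Fk, ∃ s : k[X], aeval xb s ≠ 0 ∧ ∃ g : k[X][X],
      aeval xb s * γ = g.eval₂ ((aeval xb : k[X] →ₐ[k] Fk) : k[X] →+* Fk) θb)
    (hIC : SpecialFibreIC A₁ F1 x1 ϖ)
    (γ : Fk) (hγ : IsIntegral (Algebra.adjoin k {xb}) γ) :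
    ∃ (b : F1) (hb : IsIntegral (Algebra.adjoin A₁ {x1}) b), M.res1 ⟨b, M.hBO b hb⟩ = γ := by
  unfold SpecialFibreIC at hIC
  haveI := hIC
  exact H67.exists_lift_of_gaussModel M hϖ hπϖ hx1 Φ hΦ hroot hgen hπ0 hgenk γ hγ

end Gauss

/-! ### The aux-line chart theorem in this vocabulary -/

section Chart

universe u v

variable {A₁ : Type*} {L1 : Type u} {F1 : Type*} {F' : Type v}
  [CommRing A₁] [IsDomain A₁] [IsDiscreteValuationRing A₁]
  [Field L1] [Algebra A₁ L1] [IsFractionRing A₁ L1] [CharZero L1]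
  [Field F1] [Algebra L1 F1] [Algebra A₁ F1] [IsScalarTower A₁ L1 F1]
  [Field F'] [Algebra F1 F'] [Algebra L1 F'] [IsScalarTower L1 F1 F'] [Algebra A₁ F']
  [IsScalarTower A₁ L1 F']

/-- `H96.isIntegrallyClosed_specialFibre_of_auxLine'` with `hprime` and the conclusion in the
`SpecialFibrePrime / SpecialFibreIC` vocabulary. -/
theorem specialFibreIC_of_auxLine
    {ϖ : A₁} (hϖ : Irreducible ϖ)
    {k : Type} [Field k] [IsAlgClosed k] (res : A₁ →+* k) (hres : Function.Surjective res)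
    (hker : RingHom.ker res = Ideal.span {ϖ})
    (j1 θ : F1) (hj1 : Transcendental L1 j1) (hgen : L1⟮j1⟯⟮θ⟯ = ⊤)
    [FiniteDimensional L1⟮j1⟯ F1]
    [FiniteDimensional F1 F'] [IsGalois F1 F']
    (μ : F') (hμ : Transcendental L1 μ) (hμtop : F1⟮μ⟯ = ⊤) [FiniteDimensional L1⟮μ⟯ F']
    (f : A₁[X]) (hf : f.map res ≠ 0) (hfμ : IsUnit (aeval μ f))
    (jY : H26.LineRing f) (hjY : H26.LineRing.liftAlg f μ hfμ jY = algebraMap F1 F' j1)
    (hintμ : IsIntegral (Algebra.adjoin A₁ {algebraMap F1 F' j1}) μ)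
    (hintw : IsIntegral (Algebra.adjoin A₁ {algebraMap F1 F' j1})
      (H26.LineRing.liftAlg f μ hfμ (H26.LineRing.inv f)))
    (Φ : (H26.LineRing f)[X]) (hΦ : Φ.Monic)
    (hroot : Φ.eval₂ (H26.LineRing.liftAlg f μ hfμ).toRingHom (algebraMap F1 F' θ) = 0)
    (hsep : (Φ.map (H26.LineRing.toRatFunc f res hf)).Separable)
    (hunr : ∀ (v : Place L1 F') (g₀ : L1[X]), Irreducible g₀ →
      ¬ g₀ ∣ f.map (algebraMap A₁ L1) → 0 < v.ord (aeval μ g₀) → v.ord (aeval μ g₀) = 1)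
    (hprime : SpecialFibrePrime A₁ F1 j1 ϖ) : SpecialFibreIC A₁ F1 j1 ϖ :=
  isIntegrallyClosed_specialFibre_of_auxLine' hϖ res hres hker j1 θ hj1 hgen μ hμ hμtop f hf hfμ jY
    hjY hintμ hintw Φ hΦ hroot hsep hunr hprime

end Chart

end Fermat.Agent.S18.H96
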