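/-
helper34 — S18 route Q, ITEM (III): **(GR) for the finite chart from the Legendre cover**
(`2` invertible, i.e. `ℓ` odd, in particular `ℓ = 3`), exact twin of helper96's
`H96_InstHesse` / `H96_GRFinHesse`: generic in the DVR `A₁` and its fraction field `L1`
(so that instance search stays cheap; instantiate with `A₁ = H45.A0 A ℓ`, `L1 = H45.unrCyclo ℓ`
at the very end), `F1 = modularFunctionFieldFullC L1 N`, `j1 = H16.jK L1 N`, `θ = H16.jNK L1 N`,
`F' = H70.LegField j1`, `μ = H70.legMu j1`, line `f = X (X - 1)`.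

* `isIntegrallyClosed_specialFibre_legendre_fullC` : the chart theorem (inputs `hunr`, `hprime`);
* `specialFibreIC_legendre` : the same in helper96's `SpecialFibrePrime / SpecialFibreIC` vocabulary;
* `hGRfin_legendre` : `hGRfin` in the `M.res1` vocabulary of helper3's `H3.GaussModel`;
* primed versions: `hunr` discharged from `[Algebra L1 Qbar]` (helper55's `H55.hunr_legendre_gen`).
-/
import Fermat.Agent.S18.H34_InstLegendre
import Fermat.Agent.S18.H96_SpecialFibre
import Fermat.Agent.S18.H16_FKGen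
import Fermat.Agent.S18.H55_HorInst

set_option autoImplicit false
set_option linter.unusedSectionVars false
set_option linter.style.haveILetI false

namespace Fermat.Agent.S18.H34

open Polynomial IntermediateField AlgebraicCurve ModularCurve Fermat.Agent.S18 Fermat.Agent.S24

noncomputable section

variable {A₁ L1 : Type} [CommRing A₁] [IsDomain A₁] [IsDiscreteValuationRing A₁]
  [Field L1] [Algebra A₁ L1] [IsFractionRing A₁ L1] [CharZero L1] (N : ℕ) [NeZero N]
  [Algebra A₁ ↥(modularFunctionFieldFullC L1 N)]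
  [IsScalarTower A₁ L1 ↥(modularFunctionFieldFullC L1 N)]

set_option maxHeartbeats 1600000 in
set_option synthInstance.maxHeartbeats 400000 in
/-- **Legendre chart** (`2` invertible): the special fibre of the integral closure of `A₁[j1]` in
`F1` is integrally closed. -/
theorem isIntegrallyClosed_specialFibre_legendre_fullC {ϖ : A₁} (hϖ : Irreducible ϖ)
    {k : Type} [Field k] [IsAlgClosed k] (res : A₁ →+* k) (hres : Function.Surjective res)
    (hker : RingHom.ker res = Ideal.span {ϖ})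
    (h2 : IsUnit (2 : A₁)) (hNk : ((N : ℕ) : k) ≠ 0)
    (hunr : ∀ (v : Place L1 (H70.LegField (H16.jK L1 N)))
      (g₀ : L1[X]), Irreducible g₀ → ¬ g₀ ∣ (X * (X - 1) : L1[X]) →
      0 < v.ord (aeval (H70.legMu (H16.jK L1 N)) g₀) →
      v.ord (aeval (H70.legMu (H16.jK L1 N)) g₀) = 1)
    (hprime : (Ideal.span {algebraMap ↥(Algebra.adjoin A₁ {H16.jK L1 N})
      (integralClosure ↥(Algebra.adjoin A₁ {H16.jK L1 N}) (modularFunctionFieldFullC L1 N))
      (algebraMap A₁ ↥(Algebra.adjoin A₁ {H16.jK L1 N}) ϖ)}).IsPrime) :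
    IsIntegrallyClosed
      (integralClosure ↥(Algebra.adjoin A₁ {H16.jK L1 N}) (modularFunctionFieldFullC L1 N) ⧸
        Ideal.span {algebraMap ↥(Algebra.adjoin A₁ {H16.jK L1 N})
          (integralClosure ↥(Algebra.adjoin A₁ {H16.jK L1 N}) (modularFunctionFieldFullC L1 N))
          (algebraMap A₁ ↥(Algebra.adjoin A₁ {H16.jK L1 N}) ϖ)}) := by
  classical
  have hNL : ((N : ℕ) : L1) ≠ 0 := Nat.cast_ne_zero.mpr (NeZero.ne N)
  haveI hfin1 : FiniteDimensional L1⟮H16.jK L1 N⟯ (modularFunctionFieldFullC L1 N) :=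
    H16.finiteDimensional_fullC_gen N L1 hNL
  have hj1 : Transcendental L1 (H16.jK L1 N) := H16.transcendental_jK L1 N
  have hgen : L1⟮H16.jK L1 N⟯⟮H16.jNK L1 N⟯ = ⊤ := H16.adjoin_jNK_eq_top_gen N L1 hNL
  have hθalg : IsAlgebraic L1⟮H16.jK L1 N⟯ (H16.jNK L1 N) := Algebra.IsAlgebraic.isAlgebraic _
  haveI hczF1 : CharZero ↥(modularFunctionFieldFullC L1 N) :=
    charZero_of_injective_algebraMap (algebraMap L1 _).injective
  -- the Legendre field
  haveI hgal : IsGalois ↥(modularFunctionFieldFullC L1 N) (H70.LegField (H16.jK L1 N)) :=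
    H70.isGalois_legField (H16.jK L1 N)
  have hμ : Transcendental L1 (H70.legMu (H16.jK L1 N)) := H70.transcendental_legMu (L := L1) hj1
  have hμtop : (↥(modularFunctionFieldFullC L1 N))⟮H70.legMu (H16.jK L1 N)⟯ = ⊤ :=
    H70.adjoin_legMu (H16.jK L1 N)
  haveI hfinμ : FiniteDimensional L1⟮H70.legMu (H16.jK L1 N)⟯ (H70.LegField (H16.jK L1 N)) :=
    H70.finiteDimensional_legField_over (L := L1) (KY := L1⟮H70.legMu (H16.jK L1 N)⟯) hgen hθalg
      (AdjoinSimple.gen L1 (H70.legMu (H16.jK L1 N)))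
      (AdjoinSimple.algebraMap_gen L1 (H70.legMu (H16.jK L1 N)))
  -- the Legendre line
  have hB : H26.legB (H70.legMu (H16.jK L1 N)) ≠ 0 := H70.legB_legMu_ne_zero (H16.jK L1 N)
  have hfμ : IsUnit (aeval (H70.legMu (H16.jK L1 N)) (H26.legLineF A₁)) := by
    rw [H26.aeval_legLineF]
    refine IsUnit.mk0 _ fun h0 => hB ?_
    have : H26.legB (H70.legMu (H16.jK L1 N)) =
        (H70.legMu (H16.jK L1 N) * (H70.legMu (H16.jK L1 N) - 1)) ^ 2 := by
      unfold H26.legB; ring
    rw [this, h0, zero_pow two_ne_zero]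
  have hJ : H26.legJ (H70.legMu (H16.jK L1 N)) =
      algebraMap ↥(modularFunctionFieldFullC L1 N) (H70.LegField (H16.jK L1 N)) (H16.jK L1 N) :=
    H70.legJ_legMu (H16.jK L1 N)
  have hjY : H26.LineRing.liftAlg (H26.legLineF A₁) (H70.legMu (H16.jK L1 N)) hfμ
      (H26.LegLine.jY A₁) =
      algebraMap ↥(modularFunctionFieldFullC L1 N) (H70.LegField (H16.jK L1 N)) (H16.jK L1 N) := by
    rw [H26.LegLine.liftAlg_jY, hJ]
  have hint : ∀ r : H26.LegLine A₁, IsIntegral (Algebra.adjoin A₁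
      {algebraMap ↥(modularFunctionFieldFullC L1 N) (H70.LegField (H16.jK L1 N)) (H16.jK L1 N)})
      (H26.LineRing.liftAlg (H26.legLineF A₁) (H70.legMu (H16.jK L1 N)) hfμ r) := by
    intro r
    rw [← hJ]
    exact H26.LegLine.isIntegral_liftAlg_adjoin_legJ h2 _ hfμ r
  have hintμ := hint (H26.LineRing.coord (H26.legLineF A₁))
  rw [H26.LineRing.liftAlg_coord] at hintμ
  -- (VERT)
  obtain ⟨D, hD, -⟩ := H16.exists_modPoly_gen N
  have h2k : (2 : k) ≠ 0 := by
    have := h2.map res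
    rw [map_ofNat] at this
    exact this.ne_zero
  have hsep : ((H16.modPolyAt D (H26.LegLine.jY A₁)).map
      (H26.LineRing.toRatFunc (H26.legLineF A₁) res (H26.LegLine.map_ne_zero res))).Separable := by
    refine H16.separable_map_modPolyAt (K := k) hNk D hD _ _ ?_
    rw [H26.LegLine.toRatFunc_jY]
    exact H26.transcendental_legJ RatFunc.transcendental_X h2k
  have hroot : (H16.modPolyAt D (H26.LegLine.jY A₁)).eval₂
      (H26.LineRing.liftAlg (H26.legLineF A₁) (H70.legMu (H16.jK L1 N)) hfμ).toRingHom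
      (algebraMap ↥(modularFunctionFieldFullC L1 N) (H70.LegField (H16.jK L1 N))
        (H16.jNK L1 N)) = 0 := by
    rw [← Polynomial.eval_map, H16.modPolyAt_map]
    have : (H26.LineRing.liftAlg (H26.legLineF A₁) (H70.legMu (H16.jK L1 N)) hfμ).toRingHom
        (H26.LegLine.jY A₁) = algebraMap ↥(modularFunctionFieldFullC L1 N)
          (H70.LegField (H16.jK L1 N)) (H16.jK L1 N) := hjY
    rw [this]
    exact H16.eval_modPolyAt_of_hom N D L1
      (algebraMap ↥(modularFunctionFieldFullC L1 N) (H70.LegField (H16.jK L1 N)))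
  -- assembly
  refine H96.isIntegrallyClosed_specialFibre_of_auxLine' (L1 := L1) hϖ res hres hker
    (H16.jK L1 N) (H16.jNK L1 N) hj1 hgen (H70.legMu (H16.jK L1 N)) hμ hμtop
    (H26.legLineF A₁) (H26.LegLine.map_ne_zero res) hfμ (H26.LegLine.jY A₁) hjY hintμ
    (hint (H26.LineRing.inv (H26.legLineF A₁)))
    (H16.modPolyAt D (H26.LegLine.jY A₁)) (H16.modPolyAt_monic D _) hroot hsep ?_ hprime
  intro v g₀ hirr hnd
  rw [H26.legLineF_map] at hnd
  exact hunr v g₀ hirr hnd

set_option maxHeartbeats 1600000 in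
set_option synthInstance.maxHeartbeats 400000 in
/-- The Legendre chart in the `SpecialFibrePrime / SpecialFibreIC` vocabulary. -/
theorem specialFibreIC_legendre {ϖ : A₁} (hϖ : Irreducible ϖ)
    {k : Type} [Field k] [IsAlgClosed k] (res : A₁ →+* k) (hres : Function.Surjective res)
    (hker : RingHom.ker res = Ideal.span {ϖ})
    (h2 : IsUnit (2 : A₁)) (hNk : ((N : ℕ) : k) ≠ 0)
    (hunr : ∀ (v : Place L1 (H70.LegField (H16.jK L1 N)))
      (g₀ : L1[X]), Irreducible g₀ → ¬ g₀ ∣ (X * (X - 1) : L1[X]) →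
      0 < v.ord (aeval (H70.legMu (H16.jK L1 N)) g₀) →
      v.ord (aeval (H70.legMu (H16.jK L1 N)) g₀) = 1)
    (hprime : H96.SpecialFibrePrime A₁ ↥(modularFunctionFieldFullC L1 N) (H16.jK L1 N) ϖ) :
    H96.SpecialFibreIC A₁ ↥(modularFunctionFieldFullC L1 N) (H16.jK L1 N) ϖ := by
  unfold H96.SpecialFibrePrime at hprime
  unfold H96.SpecialFibreIC
  exact isIntegrallyClosed_specialFibre_legendre_fullC N hϖ res hres hker h2 hNk hunr hprime

set_option maxHeartbeats 1600000 in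
set_option synthInstance.maxHeartbeats 400000 in
/-- **`hGRfin` from the Legendre chart** (`2` invertible). -/
theorem hGRfin_legendre {ϖ : A₁} (hϖ : Irreducible ϖ)
    {k : Type} [Field k] [IsAlgClosed k] (res : A₁ →+* k) (hres : Function.Surjective res)
    (hker : RingHom.ker res = Ideal.span {ϖ})
    (h2 : IsUnit (2 : A₁)) (hNk : ((N : ℕ) : k) ≠ 0)
    (hunr : ∀ (v : Place L1 (H70.LegField (H16.jK L1 N)))
      (g₀ : L1[X]), Irreducible g₀ → ¬ g₀ ∣ (X * (X - 1) : L1[X]) →
      0 < v.ord (aeval (H70.legMu (H16.jK L1 N)) g₀) →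
      v.ord (aeval (H70.legMu (H16.jK L1 N)) g₀) = 1)
    {Fk : Type*} [Field Fk] [Algebra k Fk] {xb θb : Fk}
    (M : H3.GaussModel (R0 := A₁) (F1 := ↥(modularFunctionFieldFullC L1 N)) ϖ res
      (H16.jK L1 N) (H16.jNK L1 N) xb θb)
    (Φ : A₁[X][X]) (hΦ : Φ.Monic) (hroot : H3.eval2 (H16.jK L1 N) (H16.jNK L1 N) Φ = 0)
    (hgen : ∀ y : ↥(modularFunctionFieldFullC L1 N), ∃ s : A₁[X], s ≠ 0 ∧ ∃ g : A₁[X][X],
      aeval (H16.jK L1 N) s * y = H3.eval2 (H16.jK L1 N) (H16.jNK L1 N) g)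
    (hgenk : ∀ γ : Fk, ∃ s : k[X], aeval xb s ≠ 0 ∧ ∃ g : k[X][X],
      aeval xb s * γ = g.eval₂ ((aeval xb : k[X] →ₐ[k] Fk) : k[X] →+* Fk) θb)
    (γ : Fk) (hγ : IsIntegral (Algebra.adjoin k {xb}) γ) :
    ∃ (b : ↥(modularFunctionFieldFullC L1 N))
      (hb : IsIntegral (Algebra.adjoin A₁ {H16.jK L1 N}) b), M.res1 ⟨b, M.hBO b hb⟩ = γ := by
  have hϖp : Prime ϖ := hϖ.prime
  have hπϖ : res ϖ = 0 := by
    rw [← RingHom.mem_ker, hker]; exact Ideal.mem_span_singleton_self ϖ
  have hx1 : Transcendental A₁ (H16.jK L1 N) :=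
    H40.transcendental_of_tower (K := L1) _ (H16.transcendental_jK L1 N)
  have hsat := M.hsat hϖp hπϖ hx1 Φ hΦ hroot hgen
  have hIC := specialFibreIC_legendre N hϖ res hres hker h2 hNk hunr
    (H96.specialFibrePrime_of_gaussModel M hsat)
  exact H96.exists_lift_of_specialFibreIC M hϖp hπϖ hx1 Φ hΦ hroot hgen hres hgenk hIC γ hγ

end

end Fermat.Agent.S18.H34
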