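/-
helper1 — S18 route Q / CECH-GENUS: the saturation hypothesis `hsat`
(`x ∈ O_v`, `π x` integral over `R`  ⟹  `x` integral over `R`), abstract, Mathlib only
(on top of `H1_Vert`).
-/
import Fermat.Agent.S18.H1_Vert

set_option linter.unusedSectionVars false

namespace Fermat.Agent.S18.H1

open Polynomial Module
open scoped nonZeroDivisors

/-! ### The two-element saturation lemma -/

section TwoElt

variable {R K L : Type*} [CommRing R] [IsDomain R] [IsIntegrallyClosed R] [Field K] [Algebra R K]
  [IsFractionRing R K] [Field L] [Algebra K L] [Algebra R L] [IsScalarTower R K L]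

/-- `minpoly K (α • y) = scaleRoots (minpoly K y) α` for `α ≠ 0`. -/
theorem minpoly_smul_eq_scaleRoots {y : L} (hy : IsIntegral K y) {α : K} (hα : α ≠ 0) :
    minpoly K (α • y) = (minpoly K y).scaleRoots α := by
  have hy' : IsIntegral K (α • y) := hy.smul α
  have h1 : minpoly K (α • y) ∣ (minpoly K y).scaleRoots α := by
    apply minpoly.dvd
    have := scaleRoots_aeval_eq_zero (r := α) (minpoly.aeval K y)
    rwa [← Algebra.smul_def] at this
  have h2 : minpoly K y ∣ (minpoly K (α • y)).scaleRoots α⁻¹ := by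
    apply minpoly.dvd
    have := scaleRoots_aeval_eq_zero (r := α⁻¹) (minpoly.aeval K (α • y))
    rwa [← Algebra.smul_def, smul_smul, inv_mul_cancel₀ hα, one_smul] at this
  have hm1 : ((minpoly K y).scaleRoots α).Monic := (monic_scaleRoots_iff α).mpr (minpoly.monic hy)
  have hm2 : ((minpoly K (α • y)).scaleRoots α⁻¹).Monic :=
    (monic_scaleRoots_iff α⁻¹).mpr (minpoly.monic hy')
  have hd2 := natDegree_le_of_dvd h2 hm2.ne_zero
  rw [natDegree_scaleRoots] at hd2
  refine (eq_of_monic_of_dvd_of_natDegree_le (minpoly.monic hy') hm1 h1 ?_).symm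
  rwa [natDegree_scaleRoots]

/-- If `a • y` is integral over the integrally closed `R` (`a ≠ 0`), the coefficients of
`minpoly K y`, scaled by the appropriate powers of `a`, lie in `R`. -/
theorem exists_coeff_minpoly_mul_pow {y : L} (hy : IsIntegral K y) {a : R} (ha : a ≠ 0)
    (hay : IsIntegral R (a • y)) (i : ℕ) :
    ∃ r : R, algebraMap R K r =
      (minpoly K y).coeff i * algebraMap R K a ^ ((minpoly K y).natDegree - i) := by
  have hα : algebraMap R K a ≠ 0 := by
    simpa using (map_ne_zero_iff _ (IsFractionRing.injective R K)).mpr ha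
  have h1 : a • y = algebraMap R K a • y := (algebraMap_smul K a y).symm
  rw [h1] at hay
  have h2 := minpoly.isIntegrallyClosed_eq_field_fractions' K hay
  rw [minpoly_smul_eq_scaleRoots hy hα] at h2
  refine ⟨(minpoly R (algebraMap R K a • y)).coeff i, ?_⟩
  rw [← coeff_scaleRoots, h2, coeff_map]

/-- **Two-element saturation** (= helper41's (P-A)): `π` prime, `π ∤ f`, `π • y` and `f • y`
integral over the integrally closed domain `R` ⟹ `y` integral over `R`. -/
theorem isIntegral_of_isIntegral_smul_smul [Algebra.IsAlgebraic K L] {π f : R} (hπ : Prime π)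
    (hf : ¬ π ∣ f) {y : L} (h1 : IsIntegral R (π • y)) (h2 : IsIntegral R (f • y)) :
    IsIntegral R y := by
  have hy : IsIntegral K y := Algebra.IsIntegral.isIntegral y
  have hf0 : f ≠ 0 := fun h => hf (h ▸ dvd_zero π)
  have hinj := IsFractionRing.injective R K
  -- all coefficients of `minpoly K y` are in `R`
  have hcoeff : ∀ i, (minpoly K y).coeff i ∈ Set.range (algebraMap R K) := by
    intro i
    set e := (minpoly K y).natDegree - i with he
    obtain ⟨r, hr⟩ := exists_coeff_minpoly_mul_pow hy hπ.ne_zero h1 i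
    obtain ⟨s, hs⟩ := exists_coeff_minpoly_mul_pow hy hf0 h2 i
    rw [← he] at hr hs
    have hrs : r * f ^ e = s * π ^ e := by
      apply hinj
      rw [map_mul, map_mul, map_pow, map_pow, hr, hs]; ring
    have hdvd : π ^ e ∣ r :=
      hπ.pow_dvd_of_dvd_mul_right e (fun h => hf (hπ.dvd_of_dvd_pow h)) ⟨s, by rw [hrs, mul_comm]⟩
    obtain ⟨t, ht⟩ := hdvd
    refine ⟨t, ?_⟩
    have hπe : algebraMap R K π ^ e ≠ 0 :=
      pow_ne_zero _ ((map_ne_zero_iff _ hinj).mpr hπ.ne_zero)
    apply mul_right_cancel₀ hπe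
    rw [← hr, ht, map_mul, map_pow, mul_comm]
  obtain ⟨q, hq, -, hqm⟩ := lifts_and_degree_eq_and_monic
    ((lifts_iff_coeff_lifts _).mpr hcoeff) (minpoly.monic hy)
  refine ⟨q, hqm, ?_⟩
  have : aeval y (q.map (algebraMap R K)) = 0 := by rw [hq]; exact minpoly.aeval K y
  rwa [aeval_map_algebraMap, aeval_def] at this

end TwoElt

/-! ### Saturation of the integral closure inside a subring `O` (the Gauss valuation ring) -/

section Sat

variable {R K L : Type*} [CommRing R] [IsDomain R] [IsIntegrallyClosed R] [Field K] [Algebra R K]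
  [IsFractionRing R K] [Field L] [Algebra K L] [Algebra R L] [IsScalarTower R K L]
  [FiniteDimensional K L] [Algebra.IsSeparable K L]

/-- Every element of `R[θ]` is `p(θ)` with `natDegree p < [L:K]` (`θ` primitive, integral). -/
theorem exists_aeval_eq_of_mem_adjoin (θ : L) (hgen : IntermediateField.adjoin K {θ} = ⊤)
    (hint : IsIntegral R θ) {w : L} (hw : w ∈ Algebra.adjoin R ({θ} : Set L)) :
    ∃ p : R[X], p.natDegree < finrank K L ∧ aeval θ p = w := by
  rw [Algebra.adjoin_singleton_eq_range_aeval] at hw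
  obtain ⟨q, rfl⟩ := hw
  have hdeg : (minpoly R θ).natDegree = finrank K L := by
    have h1 := (pbOf θ hgen).natDegree_minpoly
    rw [pbOf_gen, (pbOf θ hgen).finrank.symm,
      minpoly.isIntegrallyClosed_eq_field_fractions' K hint,
      (minpoly.monic hint).natDegree_map] at h1
    exact h1
  have hne1 : minpoly R θ ≠ 1 := by
    intro h
    have : (minpoly R θ).natDegree = 0 := by rw [h]; simp
    rw [hdeg] at this
    exact (Module.finrank_pos (R := K) (M := L)).ne' this
  refine ⟨q %ₘ minpoly R θ, ?_, ?_⟩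
  · rw [← hdeg]; exact natDegree_modByMonic_lt q (minpoly.monic hint) hne1
  · exact aeval_modByMonic_eq_self_of_root (minpoly.aeval R θ)

/-- **(SAT)**, abstract form.  `O ⊆ L` a subring containing `R`, `π ∈ R` prime with `π ∤ ρ(Φ)`,
and the *residual independence* hypothesis `hindep`: a polynomial expression `p(θ)` of degree
`< [L:K]` lying in `π O` has all its coefficients divisible by `π`.  Then `O ∩ π⁻¹ B ⊆ B` for the
integral closure `B` of `R` in `L`. -/
theorem isIntegral_of_mem_of_isIntegral_smul (θ : L) (hgen : IntermediateField.adjoin K {θ} = ⊤)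
    {Φ : R[X]} (hΦ : Φ.Monic) (hroot : aeval θ Φ = 0) {π : R} (hπ : Prime π)
    (hπρ : ¬ π ∣ rho Φ) (O : Subring L) (hRO : ∀ r : R, algebraMap R L r ∈ O)
    (hindep : ∀ p : R[X], p.natDegree < finrank K L →
      (∃ y ∈ O, aeval θ p = algebraMap R L π * y) → ∀ i, π ∣ p.coeff i)
    {x : L} (hx : x ∈ O) (hπx : IsIntegral R (π • x)) : IsIntegral R x := by
  have hint : IsIntegral R θ := isIntegral_of_monic_root hΦ hroot
  set n := finrank K L with hn
  have hmem := resultant_pow_smul_mem_adjoin θ hgen hΦ hroot hπx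
  obtain ⟨p, hpdeg, hp⟩ := exists_aeval_eq_of_mem_adjoin θ hgen hint hmem
  -- `p(θ) = π * (ρ^n x)` with `ρ^n x ∈ O`
  have hp' : aeval θ p = algebraMap R L π * (algebraMap R L (rho Φ ^ n) * x) := by
    rw [hp, Algebra.smul_def, Algebra.smul_def]; ring
  have hdiv := hindep p hpdeg ⟨_, O.mul_mem (hRO _) hx, hp'⟩
  -- divide `p` by `π`
  choose c hc using hdiv
  let p₁ : R[X] := ∑ i ∈ Finset.range (p.natDegree + 1), C (c i) * X ^ i
  have hpp : p = C π * p₁ := by
    conv_lhs => rw [p.as_sum_range_C_mul_X_pow]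
    rw [Finset.mul_sum]
    refine Finset.sum_congr rfl fun i _ => ?_
    rw [hc i, C_mul, mul_assoc]
  have hπL : algebraMap R L π ≠ 0 := by
    have : Function.Injective (algebraMap R L) := by
      rw [IsScalarTower.algebraMap_eq R K L]
      exact (algebraMap K L).injective.comp (IsFractionRing.injective R K)
    exact (map_ne_zero_iff _ this).mpr hπ.ne_zero
  have hp₁ : aeval θ p₁ = (rho Φ ^ n) • x := by
    apply mul_left_cancel₀ hπL
    rw [Algebra.smul_def, ← hp', hpp, map_mul, aeval_C]
  have hρx : IsIntegral R ((rho Φ ^ n) • x) := hp₁ ▸ isIntegral_aeval hint p₁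
  exact isIntegral_of_isIntegral_smul_smul (K := K) hπ
    (fun h => hπρ (hπ.dvd_of_dvd_pow h)) hπx hρx


/-- **(SAT)**, consumer form: `O ⊆ L` a subring containing `R` and `θ`, with a reduction map
`red : O →+* Fk` compatible with `φ : R →+* κ` (`ker φ = (π)`), such that `Φ mod π` is
irreducible and separable over `κ` and `Φ` has degree `[L:K]`.  Then `x ∈ O`, `π • x` integral
over `R` ⟹ `x` integral over `R`.  (Instance: `R = A₁[j]`, `π = ℓ`, `O` the Gauss valuation ring,
`κ = k(j̄)`, `Φ = Φ_N(X, j)`.) -/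
theorem isIntegral_of_mem_of_isIntegral_smul_of_red (θ : L)
    (hgen : IntermediateField.adjoin K {θ} = ⊤)
    {Φ : R[X]} (hΦ : Φ.Monic) (hroot : aeval θ Φ = 0) (hdegΦ : Φ.natDegree = finrank K L)
    {π : R} (hπ : Prime π) (O : Subring L) (hRO : ∀ r : R, algebraMap R L r ∈ O) (hθO : θ ∈ O)
    {κ Fk : Type*} [Field κ] [Field Fk] [Algebra κ Fk] (φ : R →+* κ) (red : O →+* Fk)
    (hcomp : ∀ r : R, red ⟨algebraMap R L r, hRO r⟩ = algebraMap κ Fk (φ r))
    (hφπ : φ π = 0) (hkerφ : ∀ r, φ r = 0 → π ∣ r)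
    (hirr : Irreducible (Φ.map φ)) (hsep : (Φ.map φ).Separable)
    {x : L} (hx : x ∈ O) (hπx : IsIntegral R (π • x)) : IsIntegral R x := by
  have hπρ : ¬ π ∣ rho Φ := by
    rintro ⟨c, hc⟩
    exact map_rho_ne_zero φ hΦ hsep (by rw [hc, map_mul, hφπ, zero_mul])
  -- the structure map `R → O`
  let ψ : R →+* O :=
    { toFun := fun r => ⟨algebraMap R L r, hRO r⟩
      map_one' := Subtype.ext (map_one _)
      map_mul' := fun a b => Subtype.ext (map_mul _ a b)
      map_zero' := Subtype.ext (map_zero _)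
      map_add' := fun a b => Subtype.ext (map_add _ a b) }
  set θO : O := ⟨θ, hθO⟩ with hθOdef
  set θb : Fk := red θO with hθb
  have hsub : ∀ p : R[X], (O.subtype) (p.eval₂ ψ θO) = aeval θ p := by
    intro p
    rw [hom_eval₂, aeval_def]
    rfl
  have hred : ∀ p : R[X], red (p.eval₂ ψ θO) = aeval θb (p.map φ) := by
    intro p
    rw [hom_eval₂, aeval_def, eval₂_map]
    congr 1
    ext r
    exact hcomp r
  -- `Φ mod π` is the minimal polynomial of `θb`
  have hrootb : aeval θb (Φ.map φ) = 0 := by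
    rw [← hred, ← map_zero red]
    congr 1
    apply Subtype.ext
    have := hsub Φ
    rw [hroot] at this
    simpa using this
  have hmin : Φ.map φ = minpoly κ θb :=
    minpoly.eq_of_irreducible_of_monic hirr hrootb (hΦ.map φ)
  refine isIntegral_of_mem_of_isIntegral_smul (K := K) θ hgen hΦ hroot hπ hπρ O hRO ?_ hx hπx
  intro p hpdeg ⟨y, hyO, hy⟩ i
  apply hkerφ
  have hpb : aeval θb (p.map φ) = 0 := by
    rw [← hred]
    have : p.eval₂ ψ θO = ψ π * ⟨y, hyO⟩ := by
      apply Subtype.ext
      have h := hsub p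
      rw [hy] at h
      exact h
    rw [this, map_mul]
    have : red (ψ π) = 0 := by
      have := hcomp π
      rw [hφπ, map_zero] at this
      exact this
    rw [this, zero_mul]
  have hzero : p.map φ = 0 := by
    by_contra hne
    have h1 := minpoly.degree_le_of_ne_zero κ θb hne hpb
    rw [← hmin] at h1
    have h2 : (Φ.map φ).natDegree ≤ (p.map φ).natDegree := natDegree_le_natDegree h1
    rw [(hΦ.natDegree_map φ), hdegΦ] at h2
    have h3 : (p.map φ).natDegree ≤ p.natDegree := natDegree_map_le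
    omega
  have := congrArg (fun q => q.coeff i) hzero
  simpa [coeff_map] using this


/-- `hsat` in the literal shape of `H40.lift_of_saturated` (helper33 #1768 (ii)) for
`B := (integralClosure R L).toSubring`. -/
theorem hsat_integralClosure (θ : L)
    (hgen : IntermediateField.adjoin K {θ} = ⊤)
    {Φ : R[X]} (hΦ : Φ.Monic) (hroot : aeval θ Φ = 0) (hdegΦ : Φ.natDegree = finrank K L)
    {π : R} (hπ : Prime π) (O : Subring L) (hRO : ∀ r : R, algebraMap R L r ∈ O) (hθO : θ ∈ O)
    {κ Fk : Type*} [Field κ] [Field Fk] [Algebra κ Fk] (φ : R →+* κ) (red : O →+* Fk)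
    (hcomp : ∀ r : R, red ⟨algebraMap R L r, hRO r⟩ = algebraMap κ Fk (φ r))
    (hφπ : φ π = 0) (hkerφ : ∀ r, φ r = 0 → π ∣ r)
    (hirr : Irreducible (Φ.map φ)) (hsep : (Φ.map φ).Separable) :
    ∀ x ∈ O, algebraMap R L π * x ∈ (integralClosure R L).toSubring →
      x ∈ (integralClosure R L).toSubring := by
  intro x hx hπx
  have h1 : IsIntegral R (π • x) := by
    rw [Algebra.smul_def]; exact hπx
  exact isIntegral_of_mem_of_isIntegral_smul_of_red (K := K) θ hgen hΦ hroot hdegΦ hπ O hRO hθO
    φ red hcomp hφπ hkerφ hirr hsep hx h1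

end Sat

end Fermat.Agent.S18.H1
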