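import Mathlib
import Fermat.Agent.S28.H98_UnramClosure

/-!
# S18 / INST-2 (helper3): the Gauss valuation ring of `F1 = Frac(R0)(x1)(θ)`, algebraic model

`R0` a noetherian domain with a prime element `ϖ` and a reduction map `π0 : R0 →+* k` onto (a
subring of) a field with kernel `(ϖ)`; `F1 ⊇ R0` a field generated by a transcendental `x1` and a
root `θ` of a bivariate polynomial `Φ ∈ R0[X][Y]`, monic in `Y`, whose reduction `Φ̄(X, Y)` is
irreducible over `k(X)`; `Fk ⊇ k` a field with elements `xb` (transcendental), `θb`,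
`Φ̄(xb, θb) = 0`.

`exists_gaussModel`: there is a subring `O1 ⊆ F1` (the localisation of `R0[x1]` at `(ϖ)`, with `θ`
adjoined; a DVR with uniformiser `ϖ`) and a ring hom `res1 : O1 →+* Fk` with
`res1 (s(x1)) = s̄(xb)`, `res1 θ = θb`, kernel `ϖ O1`, elements with non-zero residue invertible,
`O1` integrally closed in `F1`, and every element of `O1` of the form `g(x1, θ) / s(x1)` with
`s̄ ≠ 0`.

Layers: (0) localisation of a noetherian domain at a principal prime is a DVR; (1) abstract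
unramified model on top of `S28.H98_UnramDVR / H98_UnramClosure`; (2) the Gauss instance.
-/

set_option autoImplicit false
set_option linter.unusedSectionVars false
set_option linter.style.haveILetI false

namespace Fermat.Agent.S18.H3

open Polynomial IsLocalRing Fermat.Agent.S28

/-! ### Layer 0: localisation of a noetherian domain at a principal prime is a DVR -/

section Layer0

theorem maximalIdeal_atPrime_span {S : Type*} [CommRing S] (p : S)
    [hP : (Ideal.span {p}).IsPrime] :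
    maximalIdeal (Localization.AtPrime (Ideal.span {p})) =
      Ideal.span {algebraMap S (Localization.AtPrime (Ideal.span {p})) p} := by
  rw [← IsLocalization.AtPrime.map_eq_maximalIdeal (Ideal.span {p})
    (Localization.AtPrime (Ideal.span {p})), Ideal.map_span, Set.image_singleton]

theorem isDiscreteValuationRing_atPrime_span {S : Type*} [CommRing S] [IsDomain S]
    [IsNoetherianRing S] (p : S) (hp0 : p ≠ 0) [hP : (Ideal.span {p}).IsPrime] :
    IsDiscreteValuationRing (Localization.AtPrime (Ideal.span {p})) := by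
  have hmax := maximalIdeal_atPrime_span p
  have hinj : Function.Injective (algebraMap S (Localization.AtPrime (Ideal.span {p}))) :=
    IsLocalization.injective _ (Ideal.primeCompl_le_nonZeroDivisors (Ideal.span {p}))
  have hnf : ¬ IsField (Localization.AtPrime (Ideal.span {p})) := by
    intro hF
    have h0 : maximalIdeal (Localization.AtPrime (Ideal.span {p})) = ⊥ :=
      IsLocalRing.isField_iff_maximalIdeal_eq.mp hF
    have : algebraMap S (Localization.AtPrime (Ideal.span {p})) p ∈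
        maximalIdeal (Localization.AtPrime (Ideal.span {p})) := by
      rw [hmax]; exact Ideal.mem_span_singleton_self _
    rw [h0, Ideal.mem_bot] at this
    exact hp0 (hinj (by rw [this, map_zero]))
  have hprinc : (maximalIdeal (Localization.AtPrime (Ideal.span {p}))).IsPrincipal := by
    rw [hmax]; exact ⟨⟨_, rfl⟩⟩
  exact ((IsDiscreteValuationRing.TFAE (Localization.AtPrime (Ideal.span {p})) hnf).out 4 0).mp
    hprinc

end Layer0

/-! ### Layer 1: the abstract unramified model `O[θ] ⊆ L` with its reduction map -/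

section Layer1

variable {O : Type*} [CommRing O] [IsDomain O] [IsDiscreteValuationRing O]
variable {K : Type*} [Field K] [Algebra O K] [IsFractionRing O K]
variable {L : Type*} [Field L] [Algebra O L] [Algebra K L] [IsScalarTower O K L]
variable {Fk : Type*} [Field Fk]

/-- kernel of a reduction map on `O[X]/(f)`: it is generated by the uniformiser of `O`. -/
theorem lift_eq_zero_iff {f : O[X]} (hf : f.Monic) (hirr : Irreducible (f.map (residue O)))
    {ϖ : O} (hϖ : maximalIdeal O = Ideal.span {ϖ})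
    (i : O →+* Fk) (hiϖ : i ϖ = 0) (θb : Fk) (hθb : f.eval₂ i θb = 0) (a : AdjoinRoot f) :
    AdjoinRoot.lift i θb hθb a = 0 ↔ ∃ z : AdjoinRoot f, a = AdjoinRoot.of f ϖ * z := by
  letI := H98.isDomain_adjoinRoot hf hirr
  letI := H98.isLocalRing_adjoinRoot hf hirr
  have hmax : maximalIdeal (AdjoinRoot f) = Ideal.span {AdjoinRoot.of f ϖ} := by
    rw [H98.maximalIdeal_adjoinRoot hf hirr, hϖ, Ideal.map_span, Set.image_singleton]
  have hker : RingHom.ker (AdjoinRoot.lift i θb hθb) = maximalIdeal (AdjoinRoot f) := by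
    have hprime : (RingHom.ker (AdjoinRoot.lift i θb hθb)).IsPrime := RingHom.ker_isPrime _
    have hle : maximalIdeal (AdjoinRoot f) ≤ RingHom.ker (AdjoinRoot.lift i θb hθb) := by
      rw [hmax, Ideal.span_singleton_le_iff_mem, RingHom.mem_ker, AdjoinRoot.lift_of, hiϖ]
    exact ((maximalIdeal.isMaximal (AdjoinRoot f)).eq_of_le hprime.ne_top hle).symm
  rw [← RingHom.mem_ker, hker, hmax, Ideal.mem_span_singleton']
  constructor
  · rintro ⟨z, hz⟩; exact ⟨z, by rw [← hz, mul_comm]⟩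
  · rintro ⟨z, hz⟩; exact ⟨z, by rw [hz, mul_comm]⟩

theorem isUnit_of_lift_ne_zero {f : O[X]} (hf : f.Monic) (hirr : Irreducible (f.map (residue O)))
    {ϖ : O} (hϖ : maximalIdeal O = Ideal.span {ϖ})
    (i : O →+* Fk) (hiϖ : i ϖ = 0) (θb : Fk) (hθb : f.eval₂ i θb = 0) (a : AdjoinRoot f)
    (ha : AdjoinRoot.lift i θb hθb a ≠ 0) : IsUnit a := by
  letI := H98.isDomain_adjoinRoot hf hirr
  letI := H98.isLocalRing_adjoinRoot hf hirr
  by_contra hnu
  have hmem : a ∈ maximalIdeal (AdjoinRoot f) := (IsLocalRing.mem_maximalIdeal a).mpr hnu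
  have hmax : maximalIdeal (AdjoinRoot f) = Ideal.span {AdjoinRoot.of f ϖ} := by
    rw [H98.maximalIdeal_adjoinRoot hf hirr, hϖ, Ideal.map_span, Set.image_singleton]
  rw [hmax, Ideal.mem_span_singleton'] at hmem
  obtain ⟨z, rfl⟩ := hmem
  exact ha (by rw [map_mul, AdjoinRoot.lift_of, hiϖ, mul_zero])

/-- `O[θ]` is integrally closed in `L = K[θ]`. -/
theorem exists_evalRoot_eq_of_isIntegral {f : O[X]} (hf : f.Monic)
    (hirr : Irreducible (f.map (residue O))) (θ : L) (hθ : aeval θ f = 0)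
    (hgen : Algebra.adjoin K {θ} = ⊤) {y : L} (hy : IsIntegral O y) :
    ∃ a : AdjoinRoot f, H98.evalRoot f θ hθ a = y := by
  have h := H98.mem_adjoin_of_isIntegral (K := K) hf hirr θ hθ hy (by rw [hgen]; trivial)
  rw [← H98.range_evalRoot f θ hθ] at h
  exact h

/-- transitivity of integrality through `O[X]/(f) → L`. -/
theorem isIntegral_of_isIntegralElem_evalRoot {f : O[X]} (hf : f.Monic) (θ : L)
    (hθ : aeval θ f = 0) {y : L}
    (hy : ((H98.evalRoot f θ hθ : AdjoinRoot f →ₐ[O] L) : AdjoinRoot f →+* L).IsIntegralElem y) :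
    IsIntegral O y := by
  set φ : AdjoinRoot f →ₐ[O] L := H98.evalRoot f θ hθ with hφ
  letI : Algebra (AdjoinRoot f) L := (φ : AdjoinRoot f →+* L).toAlgebra
  haveI : IsScalarTower O (AdjoinRoot f) L :=
    IsScalarTower.of_algebraMap_eq fun r => (φ.commutes r).symm
  haveI : Module.Finite O (AdjoinRoot f) := hf.finite_adjoinRoot
  haveI : Algebra.IsIntegral O (AdjoinRoot f) := inferInstance
  exact isIntegral_trans (R := O) (A := AdjoinRoot f) y hy

/-- **Abstract model**: the subring `O[θ]` of `L` with its reduction map. -/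
theorem exists_unramModel {f : O[X]} (hf : f.Monic) (hirr : Irreducible (f.map (residue O)))
    {ϖ : O} (hϖ : maximalIdeal O = Ideal.span {ϖ})
    (θ : L) (hθ : aeval θ f = 0) (hgen : Algebra.adjoin K {θ} = ⊤)
    (i : O →+* Fk) (hiϖ : i ϖ = 0) (θb : Fk) (hθb : f.eval₂ i θb = 0) :
    ∃ (O1 : Subring L) (res1 : O1 →+* Fk),
      (∀ a : O, ∃ h : algebraMap O L a ∈ O1, res1 ⟨_, h⟩ = i a) ∧
      (∃ h : θ ∈ O1, res1 ⟨θ, h⟩ = θb) ∧
      (∀ (y : L) (hy : y ∈ O1), res1 ⟨y, hy⟩ = 0 ↔ ∃ z ∈ O1, y = algebraMap O L ϖ * z) ∧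
      (∀ (y : L) (hy : y ∈ O1), res1 ⟨y, hy⟩ ≠ 0 → y⁻¹ ∈ O1) ∧
      (∀ y : L, IsIntegral O1 y → y ∈ O1) ∧
      (∀ y ∈ O1, ∃ g : O[X], y = aeval θ g) := by
  have hOL : Function.Injective (algebraMap O L) := H98.algebraMap_injective_of_tower K
  set φ : AdjoinRoot f →ₐ[O] L := H98.evalRoot f θ hθ with hφ
  have hinj : Function.Injective φ := H98.evalRoot_injective hf hirr hOL θ hθ
  set ρ : AdjoinRoot f →+* Fk := AdjoinRoot.lift i θb hθb with hρ
  let φr : AdjoinRoot f →+* L := φ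
  have hbij : Function.Bijective φr.rangeRestrict :=
    ⟨fun a b h => hinj (congrArg Subtype.val h), φr.rangeRestrict_surjective⟩
  let e : AdjoinRoot f ≃+* φr.range := RingEquiv.ofBijective φr.rangeRestrict hbij
  have he : ∀ a : AdjoinRoot f, ((e a : φr.range) : L) = φ a := fun a => rfl
  have hes : ∀ (a : AdjoinRoot f) (h : φ a ∈ φr.range), e.symm ⟨φ a, h⟩ = a := by
    intro a h
    apply e.injective
    rw [RingEquiv.apply_symm_apply]
    exact Subtype.ext (he a).symm
  let res1 : φr.range →+* Fk := ρ.comp (e.symm : φr.range →+* AdjoinRoot f)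
  have hres : ∀ (a : AdjoinRoot f) (h : φ a ∈ φr.range), res1 ⟨φ a, h⟩ = ρ a := by
    intro a h
    change ρ (e.symm ⟨φ a, h⟩) = ρ a
    rw [hes]
  have hmemr : ∀ a : AdjoinRoot f, φ a ∈ φr.range := fun a => ⟨a, rfl⟩
  refine ⟨φr.range, res1, ?_, ?_, ?_, ?_, ?_, ?_⟩
  · intro a
    have h1 : φ (AdjoinRoot.of f a) = algebraMap O L a := H98.evalRoot_of f θ hθ a
    refine ⟨h1 ▸ hmemr _, ?_⟩
    have h2 := hres (AdjoinRoot.of f a) (hmemr _)
    rw [hρ, AdjoinRoot.lift_of] at h2
    rw [← h2]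
    congr 1
    exact Subtype.ext h1.symm
  · have h1 : φ (AdjoinRoot.root f) = θ := H98.evalRoot_root f θ hθ
    refine ⟨h1 ▸ hmemr _, ?_⟩
    have h2 := hres (AdjoinRoot.root f) (hmemr _)
    rw [hρ, AdjoinRoot.lift_root] at h2
    rw [← h2]
    congr 1
    exact Subtype.ext h1.symm
  · rintro y ⟨a, rfl⟩
    have h2 := hres a (hmemr a)
    change res1 ⟨φ a, _⟩ = 0 ↔ _
    rw [h2, hρ, lift_eq_zero_iff hf hirr hϖ i hiϖ θb hθb a]
    constructor
    · rintro ⟨z, rfl⟩
      refine ⟨φ z, hmemr z, ?_⟩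
      rw [map_mul]
      congr 1
      exact H98.evalRoot_of f θ hθ ϖ
    · rintro ⟨_, ⟨z, rfl⟩, hz⟩
      refine ⟨z, hinj ?_⟩
      change φ a = _ at hz
      rw [hz, map_mul]
      congr 1
      exact (H98.evalRoot_of f θ hθ ϖ).symm
  · rintro y ⟨a, rfl⟩ hne
    have h2 := hres a (hmemr a)
    change res1 ⟨φ a, _⟩ ≠ 0 at hne
    rw [h2] at hne
    obtain ⟨u, rfl⟩ := isUnit_of_lift_ne_zero hf hirr hϖ i hiϖ θb hθb a hne
    refine ⟨((u⁻¹ : (AdjoinRoot f)ˣ) : AdjoinRoot f), ?_⟩
    change φ _ = (φ _)⁻¹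
    rw [eq_comm, inv_eq_iff_eq_inv, ← mul_eq_one_iff_eq_inv₀, ← map_mul, Units.mul_inv, map_one]
    · intro h0
      have : (1 : L) = 0 := by
        rw [← map_one φ, ← Units.mul_inv u, map_mul]
        rw [show φ ((u⁻¹ : (AdjoinRoot f)ˣ) : AdjoinRoot f) = 0 from h0, mul_zero]
      exact one_ne_zero this
  · intro y hy
    -- integral over `O1 ≅ O[X]/(f)`, hence over `O`
    have hyA : φr.IsIntegralElem y := by
      obtain ⟨q, hqm, hq⟩ := hy
      refine ⟨q.map (e.symm : φr.range →+* AdjoinRoot f), hqm.map _, ?_⟩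
      rw [eval₂_map]
      have hcomp : φr.comp (e.symm : φr.range →+* AdjoinRoot f) = algebraMap φr.range L := by
        ext z
        change φ (e.symm z) = (z : L)
        rw [← he (e.symm z), RingEquiv.apply_symm_apply]
      rw [hcomp]
      exact hq
    have hyO : IsIntegral O y := isIntegral_of_isIntegralElem_evalRoot hf θ hθ hyA
    obtain ⟨a, ha⟩ := exists_evalRoot_eq_of_isIntegral (K := K) hf hirr θ hθ hgen hyO
    exact ⟨a, ha⟩
  · rintro y ⟨a, rfl⟩
    obtain ⟨g, rfl⟩ := AdjoinRoot.mk_surjective a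
    exact ⟨g, rfl⟩

end Layer1

/-! ### Layer 2: the Gauss instance -/

section Layer2

variable {R0 : Type*} [CommRing R0] [IsDomain R0] [IsNoetherianRing R0]
variable {k : Type*} [Field k]
variable {F1 : Type*} [Field F1] [Algebra R0 F1]
variable {Fk : Type*} [Field Fk] [Algebra k Fk]

omit [IsNoetherianRing R0] in
theorem span_C_isPrime {ϖ : R0} (hϖ : Prime ϖ) : (Ideal.span {(C ϖ : R0[X])}).IsPrime := by
  have h1 : (Ideal.span {ϖ}).IsPrime := (Ideal.span_singleton_prime hϖ.ne_zero).mpr hϖ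
  have h2 : (Ideal.span {(C ϖ : R0[X])}) = (Ideal.span {ϖ}).map (C : R0 →+* R0[X]) := by
    rw [Ideal.map_span, Set.image_singleton]
  rw [h2]
  exact Ideal.isPrime_map_C_of_isPrime

omit [IsNoetherianRing R0] in
theorem mem_span_C_iff {ϖ : R0} {p : R0[X]} :
    p ∈ Ideal.span {(C ϖ : R0[X])} ↔ ∀ n, ϖ ∣ p.coeff n := by
  have h2 : (Ideal.span {(C ϖ : R0[X])}) = (Ideal.span {ϖ}).map (C : R0 →+* R0[X]) := by
    rw [Ideal.map_span, Set.image_singleton]
  rw [h2, Ideal.mem_map_C_iff]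
  simp only [Ideal.mem_span_singleton]

omit [IsNoetherianRing R0] in
theorem map_ne_zero_of_notMem {ϖ : R0} (π0 : R0 →+* k) (hker0 : ∀ r, π0 r = 0 → ϖ ∣ r)
    {p : R0[X]} (hp : p ∉ Ideal.span {(C ϖ : R0[X])}) : p.map π0 ≠ 0 := by
  intro h0
  apply hp
  rw [mem_span_C_iff]
  intro n
  apply hker0
  have := congrArg (fun q => q.coeff n) h0
  simpa [coeff_map] using this

omit [IsNoetherianRing R0] in
theorem notMem_of_map_ne_zero {ϖ : R0} (π0 : R0 →+* k) (hπϖ : π0 ϖ = 0)
    {p : R0[X]} (hp : p.map π0 ≠ 0) : p ∉ Ideal.span {(C ϖ : R0[X])} := by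
  intro hmem
  apply hp
  rw [mem_span_C_iff] at hmem
  ext n
  obtain ⟨c, hc⟩ := hmem n
  rw [coeff_map, hc, map_mul, hπϖ, zero_mul, coeff_zero]

/-- the bivariate evaluation `R0[X][Y] → F1`, `X ↦ x1`, `Y ↦ θ`. -/
noncomputable def eval2 (x1 θ : F1) (g : R0[X][X]) : F1 :=
  g.eval₂ ((aeval x1 : R0[X] →ₐ[R0] F1) : R0[X] →+* F1) θ

/-- the reduced bivariate evaluation `R0[X][Y] → Fk`. -/
noncomputable def eval2b (π0 : R0 →+* k) (xb θb : Fk) (g : R0[X][X]) : Fk :=
  g.eval₂ (((aeval xb : k[X] →ₐ[k] Fk) : k[X] →+* Fk).comp (mapRingHom π0)) θb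

/-- **The Gauss model.** -/
theorem exists_gaussModel {ϖ : R0} (hϖ : Prime ϖ) (π0 : R0 →+* k) (hπϖ : π0 ϖ = 0)
    (hker0 : ∀ r, π0 r = 0 → ϖ ∣ r)
    (x1 θ : F1) (hx1 : Transcendental R0 x1)
    (Φ : R0[X][X]) (hΦ : Φ.Monic) (hroot : eval2 x1 θ Φ = 0)
    (hgen : ∀ y : F1, ∃ s : R0[X], s ≠ 0 ∧ ∃ g : R0[X][X], aeval x1 s * y = eval2 x1 θ g)
    (xb θb : Fk) (hxb : Transcendental k xb) (hrootb : eval2b π0 xb θb Φ = 0)
    (hirr : Irreducible (Φ.map ((algebraMap k[X] (RatFunc k)).comp (mapRingHom π0)))) :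
    ∃ (O1 : Subring F1) (res1 : O1 →+* Fk),
      (∀ s : R0[X], ∃ h : aeval x1 s ∈ O1, res1 ⟨_, h⟩ = aeval xb (s.map π0)) ∧
      (∃ h : θ ∈ O1, res1 ⟨θ, h⟩ = θb) ∧
      (∀ (y : F1) (hy : y ∈ O1), res1 ⟨y, hy⟩ = 0 ↔ ∃ z ∈ O1, y = algebraMap R0 F1 ϖ * z) ∧
      (∀ (y : F1) (hy : y ∈ O1), res1 ⟨y, hy⟩ ≠ 0 → y⁻¹ ∈ O1) ∧
      (∀ y : F1, IsIntegral O1 y → y ∈ O1) ∧
      (∀ y ∈ O1, ∃ s : R0[X], s.map π0 ≠ 0 ∧ ∃ g : R0[X][X],
        aeval x1 s * y = eval2 x1 θ g) := by
  classical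
  -- the ring `S = R0[X]`, its prime `(ϖ)`, the Gauss DVR `O0`, the field `K = Frac S`
  haveI hP : (Ideal.span {(C ϖ : R0[X])}).IsPrime := span_C_isPrime hϖ
  have hCϖ0 : (C ϖ : R0[X]) ≠ 0 := by
    rw [Ne, C_eq_zero]; exact hϖ.ne_zero
  let O0 := Localization.AtPrime (Ideal.span {(C ϖ : R0[X])})
  let K := FractionRing R0[X]
  haveI hdvr : IsDiscreteValuationRing O0 := isDiscreteValuationRing_atPrime_span (C ϖ) hCϖ0
  have hmax : maximalIdeal O0 = Ideal.span {algebraMap R0[X] O0 (C ϖ)} :=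
    maximalIdeal_atPrime_span (C ϖ)
  -- the structure maps to `F1`
  let g1 : R0[X] →+* F1 := ((aeval x1 : R0[X] →ₐ[R0] F1) : R0[X] →+* F1)
  have hg1inj : Function.Injective g1 := transcendental_iff_injective.mp hx1
  letI algSF : Algebra R0[X] F1 := g1.toAlgebra
  letI algKF : Algebra K F1 := (IsFractionRing.lift hg1inj).toAlgebra
  haveI towSKF : IsScalarTower R0[X] K F1 :=
    IsScalarTower.of_algebraMap_eq fun s => (IsFractionRing.lift_algebraMap hg1inj s).symm
  letI algOF : Algebra O0 F1 := ((algebraMap K F1).comp (algebraMap O0 K)).toAlgebra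
  haveI towOKF : IsScalarTower O0 K F1 := IsScalarTower.of_algebraMap_eq fun _ => rfl
  have hSOF : ∀ s : R0[X], algebraMap O0 F1 (algebraMap R0[X] O0 s) = g1 s := by
    intro s
    change algebraMap K F1 (algebraMap O0 K (algebraMap R0[X] O0 s)) = g1 s
    rw [← IsScalarTower.algebraMap_apply R0[X] O0 K]
    exact IsFractionRing.lift_algebraMap hg1inj s
  -- the polynomial `f`
  set f : O0[X] := Φ.map (algebraMap R0[X] O0) with hf_def
  have hf : f.Monic := hΦ.map _
  have hcompF : (algebraMap O0 F1).comp (algebraMap R0[X] O0) = g1 := RingHom.ext hSOF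
  have hθ : aeval θ f = 0 := by
    rw [hf_def, aeval_def, eval₂_map, hcompF]
    exact hroot
  -- reduction maps
  let gk : R0[X] →+* Fk := ((aeval xb : k[X] →ₐ[k] Fk) : k[X] →+* Fk).comp (mapRingHom π0)
  have hxbinj : Function.Injective (aeval xb : k[X] →ₐ[k] Fk) :=
    transcendental_iff_injective.mp hxb
  have hgk_ne : ∀ s : R0[X], s ∉ Ideal.span {(C ϖ : R0[X])} → gk s ≠ 0 := by
    intro s hs h0
    apply map_ne_zero_of_notMem π0 hker0 hs
    apply hxbinj
    rw [map_zero]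
    exact h0
  have hunits : ∀ y : (Ideal.span {(C ϖ : R0[X])}).primeCompl, IsUnit (gk y) :=
    fun y => (hgk_ne y y.2).isUnit
  let i : O0 →+* Fk := IsLocalization.lift hunits
  have hi : ∀ s : R0[X], i (algebraMap R0[X] O0 s) = gk s := IsLocalization.lift_eq hunits
  have hgkC : gk (C ϖ) = 0 := by
    change aeval xb ((C ϖ).map π0) = 0
    rw [Polynomial.map_C, hπϖ, C_0, map_zero]
  have hiϖ : i (algebraMap R0[X] O0 (C ϖ)) = 0 := by rw [hi, hgkC]
  have hθb : f.eval₂ i θb = 0 := by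
    rw [hf_def, eval₂_map]
    have : i.comp (algebraMap R0[X] O0) = gk := IsLocalization.lift_comp hunits
    rw [this]
    exact hrootb
  -- irreducibility of the reduction over the residue field of `O0`
  let gR : R0[X] →+* RatFunc k := (algebraMap k[X] (RatFunc k)).comp (mapRingHom π0)
  have hgR_ne : ∀ s : R0[X], s ∉ Ideal.span {(C ϖ : R0[X])} → gR s ≠ 0 := by
    intro s hs h0
    apply map_ne_zero_of_notMem π0 hker0 hs
    apply IsFractionRing.injective k[X] (RatFunc k)
    rw [map_zero]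
    exact h0
  have hunitsR : ∀ y : (Ideal.span {(C ϖ : R0[X])}).primeCompl, IsUnit (gR y) :=
    fun y => (hgR_ne y y.2).isUnit
  let iR : O0 →+* RatFunc k := IsLocalization.lift hunitsR
  have hiR : ∀ s : R0[X], iR (algebraMap R0[X] O0 s) = gR s := IsLocalization.lift_eq hunitsR
  have hgRC : gR (C ϖ) = 0 := by
    change algebraMap k[X] (RatFunc k) ((C ϖ).map π0) = 0
    rw [Polynomial.map_C, hπϖ, C_0, map_zero]
  have hiRmax : ∀ a ∈ maximalIdeal O0, iR a = 0 := by
    intro a ha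
    rw [hmax, Ideal.mem_span_singleton'] at ha
    obtain ⟨z, rfl⟩ := ha
    rw [map_mul, hiR, hgRC, mul_zero]
  let eR : ResidueField O0 →+* RatFunc k := Ideal.Quotient.lift (maximalIdeal O0) iR hiRmax
  have heR : eR.comp (residue O0) = iR := by
    ext a
    rfl
  have hirr' : Irreducible (f.map (residue O0)) := by
    apply Monic.irreducible_of_irreducible_map eR _ (hf.map _)
    rw [Polynomial.map_map, heR, hf_def, Polynomial.map_map]
    have : iR.comp (algebraMap R0[X] O0) = gR := IsLocalization.lift_comp hunitsR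
    rw [this]
    exact hirr
  -- generation over `K`
  have hgenK : Algebra.adjoin K {θ} = ⊤ := by
    rw [eq_top_iff]
    intro y _
    obtain ⟨s, hs0, g, hg⟩ := hgen y
    have hs1 : g1 s ≠ 0 := fun h => hs0 (hg1inj (by rw [h, map_zero]))
    have hy : y = algebraMap K F1 ((algebraMap R0[X] K s)⁻¹) * eval2 x1 θ g := by
      rw [← hg, map_inv₀, ← IsScalarTower.algebraMap_apply R0[X] K F1]
      change y = (g1 s)⁻¹ * (g1 s * y)
      rw [inv_mul_cancel_left₀ hs1]
    rw [hy]
    refine Subalgebra.mul_mem _ (Subalgebra.algebraMap_mem _ _) ?_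
    have : eval2 x1 θ g = aeval θ (g.map (algebraMap R0[X] K)) := by
      rw [aeval_def, eval₂_map, ← IsScalarTower.algebraMap_eq R0[X] K F1]
      rfl
    rw [this]
    exact aeval_mem_adjoin_singleton _ _
  obtain ⟨O1, res1, ha, hθ', hker, hinv, hint, hrepr⟩ :=
    exists_unramModel (K := K) hf hirr' hmax θ hθ hgenK i hiϖ θb hθb
  refine ⟨O1, res1, ?_, hθ', ?_, hinv, hint, ?_⟩
  · intro s
    obtain ⟨h, hh⟩ := ha (algebraMap R0[X] O0 s)
    have hs : algebraMap O0 F1 (algebraMap R0[X] O0 s) = aeval x1 s := hSOF s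
    revert h hh
    rw [hs]
    intro h hh
    exact ⟨h, hh.trans (hi s)⟩
  · intro y hy
    rw [hker y hy]
    have hϖF : algebraMap O0 F1 (algebraMap R0[X] O0 (C ϖ)) = algebraMap R0 F1 ϖ := by
      rw [hSOF]
      change aeval x1 (C ϖ) = _
      rw [aeval_C]
    rw [hϖF]
  · intro y hy
    obtain ⟨G, rfl⟩ := hrepr y hy
    obtain ⟨b, hbM, hb⟩ := IsLocalization.integerNormalization_spec
      (Ideal.span {(C ϖ : R0[X])}).primeCompl G
    refine ⟨b, map_ne_zero_of_notMem π0 hker0 hbM,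
      IsLocalization.integerNormalization (Ideal.span {(C ϖ : R0[X])}).primeCompl G, ?_⟩
    have h1 : eval2 x1 θ (IsLocalization.integerNormalization
        (Ideal.span {(C ϖ : R0[X])}).primeCompl G) =
        aeval θ ((IsLocalization.integerNormalization
          (Ideal.span {(C ϖ : R0[X])}).primeCompl G).map (algebraMap R0[X] O0)) := by
      rw [aeval_def, eval₂_map, hcompF]
      rfl
    rw [h1, hb, ← algebraMap_smul O0 b G, map_smul, Algebra.smul_def, hSOF]
    rfl

end Layer2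

end Fermat.Agent.S18.H3
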