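import Mathlib
import Fermat.Agent.S18.H3_GaussModel
import Fermat.Agent.S18.H1_Sat

/-!
# S18 / INST-2 (helper3): the chart ring inside the Gauss model

`GaussModel ϖ π0 x1 θ xb θb` packages the output of `exists_gaussModel` (the Gauss valuation ring
`O1 ⊆ F1` with its reduction `res1 : O1 →+* Fk`).  Consumer lemmas, in the shapes of
`H33.exists_forall_finrank_riemannRochSpace_le` and `H67.isIntegrallyClosed_special_fibre`:

* `hBO`, `hBinfO` : elements integral over `R0[x1]`, `R0[x1⁻¹]` lie in `O1`;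
* `isIntegral_res1`, `isIntegral_res1_inv` : their residues are integral over `k[xb]`, `k[xb⁻¹]`;
* `hsat` : `y ∈ O1`, `ϖ y` integral over `R0[x1]` ⟹ `y` integral over `R0[x1]`;
* `span_isPrime` : `(ϖ)` is prime in any saturated subring of `O1` (e.g. the integral closure of
  `R0[x1]`);
* `comparison`, `hker_of_comparison` : transfer of `res1` to a bigger valuation ring `O ⊆ F ⊇ F1`
  with a compatible reduction (the Gauss ring over `A ⊆ Qbar`).
-/

set_option autoImplicit false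
set_option linter.unusedSectionVars false
set_option linter.style.haveILetI false

namespace Fermat.Agent.S18.H3

open Polynomial IsLocalRing

/-! ### Generic: evaluation inside a subring with a reduction map -/

section Generic

theorem eval₂_mem_res {T F Fk : Type*} [CommRing T] [CommRing F] [CommRing Fk] (O : Subring F)
    (res : O →+* Fk) (c : T →+* F) (d : T →+* Fk)
    (hc : ∀ t, ∃ h : c t ∈ O, res ⟨c t, h⟩ = d t) (v : F) (hv : v ∈ O) (p : T[X]) :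
    ∃ h : p.eval₂ c v ∈ O, res ⟨p.eval₂ c v, h⟩ = p.eval₂ d (res ⟨v, hv⟩) := by
  let cO : T →+* O := c.codRestrict O fun t => (hc t).1
  have h1 : O.subtype.comp cO = c := by ext t; rfl
  have h2 : res.comp cO = d := by
    ext t
    obtain ⟨h, hh⟩ := hc t
    exact hh
  have h3 : p.eval₂ c v = ((p.eval₂ cO ⟨v, hv⟩ : O) : F) := by
    have := Polynomial.hom_eval₂ p cO O.subtype ⟨v, hv⟩
    rw [h1] at this
    exact this.symm
  have hmem : p.eval₂ c v ∈ O := h3 ▸ (p.eval₂ cO ⟨v, hv⟩).2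
  refine ⟨hmem, ?_⟩
  have h4 : (⟨p.eval₂ c v, hmem⟩ : O) = p.eval₂ cO ⟨v, hv⟩ := Subtype.ext h3
  rw [h4, Polynomial.hom_eval₂, h2]

end Generic

/-! ### Integrality over `R0[x1]` in polynomial form -/

section Integral

variable {R0 : Type*} [CommRing R0] {F1 : Type*} [Field F1] [Algebra R0 F1]

/-- `aeval x1` as a ring hom onto `R0[x1]`. -/
noncomputable def aevalAdjoin (x1 : F1) : R0[X] →+* Algebra.adjoin R0 {x1} :=
  ((aeval x1 : R0[X] →ₐ[R0] F1) : R0[X] →+* F1).codRestrict (Algebra.adjoin R0 {x1}).toSubring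
    fun _ => aeval_mem_adjoin_singleton R0 x1

theorem aevalAdjoin_surjective (x1 : F1) : Function.Surjective (aevalAdjoin (R0 := R0) x1) := by
  rintro ⟨y, hy⟩
  rw [Algebra.adjoin_singleton_eq_range_aeval] at hy
  obtain ⟨s, rfl⟩ := hy
  exact ⟨s, rfl⟩

theorem algebraMap_comp_aevalAdjoin (x1 : F1) :
    (algebraMap (Algebra.adjoin R0 {x1}) F1).comp (aevalAdjoin x1) =
      ((aeval x1 : R0[X] →ₐ[R0] F1) : R0[X] →+* F1) := rfl

/-- integrality over `R0[x1]` in polynomial form. -/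
theorem isIntegral_adjoin_iff (x1 b : F1) :
    IsIntegral (Algebra.adjoin R0 {x1}) b ↔
      ∃ q : R0[X][X], q.Monic ∧ q.eval₂ ((aeval x1 : R0[X] →ₐ[R0] F1) : R0[X] →+* F1) b = 0 := by
  constructor
  · rintro ⟨p, hpm, hp⟩
    have hl : p ∈ Polynomial.lifts (aevalAdjoin (R0 := R0) x1) := by
      rw [Polynomial.lifts_iff_coeff_lifts]
      intro n
      exact aevalAdjoin_surjective x1 _
    obtain ⟨q, hq, -, hqm⟩ := lifts_and_degree_eq_and_monic hl hpm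
    refine ⟨q, hqm, ?_⟩
    rw [← algebraMap_comp_aevalAdjoin, ← eval₂_map, hq]
    exact hp
  · rintro ⟨q, hqm, hq⟩
    refine ⟨q.map (aevalAdjoin x1), hqm.map _, ?_⟩
    rw [eval₂_map, algebraMap_comp_aevalAdjoin]
    exact hq

end Integral

/-! ### Saturation, two-element form (on top of helper1's `H1.isIntegral_of_isIntegral_smul_smul`) -/

section Sat

variable {R0 : Type*} [CommRing R0] [IsDomain R0] [IsIntegrallyClosed R0]
variable {F1 : Type*} [Field F1] [Algebra R0 F1]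

/-- **Saturation** (two-element form): `y = g(x1, θ)/s(x1)` with `ϖ ∤ s`, and `ϖ y` integral over
`R0[x1]` ⟹ `y` integral over `R0[x1]`. -/
theorem exists_monic_of_two {ϖ : R0} (hϖ : Prime ϖ) (x1 θ : F1) (hx1 : Transcendental R0 x1)
    (Φ : R0[X][X]) (hΦ : Φ.Monic) (hroot : eval2 x1 θ Φ = 0)
    (hgen : ∀ y : F1, ∃ s : R0[X], s ≠ 0 ∧ ∃ g : R0[X][X], aeval x1 s * y = eval2 x1 θ g)
    {y : F1} {s : R0[X]} (hs : ¬ (C ϖ : R0[X]) ∣ s) {g : R0[X][X]}
    (hy : aeval x1 s * y = eval2 x1 θ g)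
    (hπy : ∃ q : R0[X][X], q.Monic ∧
      q.eval₂ ((aeval x1 : R0[X] →ₐ[R0] F1) : R0[X] →+* F1) (algebraMap R0 F1 ϖ * y) = 0) :
    ∃ q : R0[X][X], q.Monic ∧
      q.eval₂ ((aeval x1 : R0[X] →ₐ[R0] F1) : R0[X] →+* F1) y = 0 := by
  let K := FractionRing R0[X]
  let g1 : R0[X] →+* F1 := ((aeval x1 : R0[X] →ₐ[R0] F1) : R0[X] →+* F1)
  have hg1inj : Function.Injective g1 := transcendental_iff_injective.mp hx1
  letI algSF : Algebra R0[X] F1 := g1.toAlgebra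
  letI algKF : Algebra K F1 := (IsFractionRing.lift hg1inj).toAlgebra
  haveI towSKF : IsScalarTower R0[X] K F1 :=
    IsScalarTower.of_algebraMap_eq fun s => (IsFractionRing.lift_algebraMap hg1inj s).symm
  -- `θ` is integral over `R0[X]`, `F1 = K[θ]` is algebraic over `K`
  have hθint : IsIntegral R0[X] θ := ⟨Φ, hΦ, hroot⟩
  have hθK : IsIntegral K θ := hθint.tower_top
  have hgenK : Algebra.adjoin K {θ} = ⊤ := by
    rw [eq_top_iff]
    intro y _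
    obtain ⟨s, hs0, g, hg⟩ := hgen y
    have hs1 : g1 s ≠ 0 := fun h => hs0 (hg1inj (by rw [h, map_zero]))
    have hy : y = algebraMap K F1 ((algebraMap R0[X] K s)⁻¹) * eval2 x1 θ g := by
      rw [← hg, map_inv₀, ← IsScalarTower.algebraMap_apply R0[X] K F1]
      change y = (g1 s)⁻¹ * (g1 s * y)
      rw [inv_mul_cancel_left₀ hs1]
    rw [hy]
    refine Subalgebra.mul_mem _ (Subalgebra.algebraMap_mem _ _) ?_
    have : eval2 x1 θ g = aeval θ (g.map (algebraMap R0[X] K)) := by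
      rw [aeval_def, eval₂_map, ← IsScalarTower.algebraMap_eq R0[X] K F1]
      rfl
    rw [this]
    exact aeval_mem_adjoin_singleton _ _
  haveI hfinK : Module.Finite K F1 := by
    have h := hθK.fg_adjoin_singleton
    rw [hgenK] at h
    exact Module.finite_def.mpr h
  haveI : Algebra.IsAlgebraic K F1 := Algebra.IsAlgebraic.of_finite K F1
  have hπ : Prime (C ϖ : R0[X]) := by
    have := span_C_isPrime hϖ
    rw [Ideal.span_singleton_prime] at this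
    · exact this
    · rw [Ne, C_eq_zero]; exact hϖ.ne_zero
  have h1 : IsIntegral R0[X] ((C ϖ : R0[X]) • y) := by
    obtain ⟨q, hqm, hq⟩ := hπy
    refine ⟨q, hqm, ?_⟩
    have : (C ϖ : R0[X]) • y = algebraMap R0 F1 ϖ * y := by
      rw [Algebra.smul_def]
      change aeval x1 (C ϖ) * y = _
      rw [aeval_C]
    rw [this]
    exact hq
  have h2 : IsIntegral R0[X] (s • y) := by
    have : s • y = aeval θ g := by
      rw [Algebra.smul_def]
      exact hy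
    rw [this]
    exact H1.isIntegral_aeval hθint g
  obtain ⟨q, hqm, hq⟩ := H1.isIntegral_of_isIntegral_smul_smul (K := K) hπ hs h1 h2
  exact ⟨q, hqm, hq⟩

end Sat

/-! ### The Gauss model as a structure -/

/-- The Gauss valuation ring `O1 ⊆ F1` with its reduction map `res1 : O1 →+* Fk`. -/
structure GaussModel {R0 k F1 Fk : Type*} [CommRing R0] [Field k] [Field F1] [Algebra R0 F1]
    [Field Fk] [Algebra k Fk] (ϖ : R0) (π0 : R0 →+* k) (x1 θ : F1) (xb θb : Fk) where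
  /-- the Gauss valuation ring -/
  O1 : Subring F1
  /-- its reduction map -/
  res1 : O1 →+* Fk
  aeval_mem : ∀ s : R0[X], aeval x1 s ∈ O1
  res1_aeval : ∀ s : R0[X], res1 ⟨aeval x1 s, aeval_mem s⟩ = aeval xb (s.map π0)
  θ_mem : θ ∈ O1
  res1_θ : res1 ⟨θ, θ_mem⟩ = θb
  res1_eq_zero_iff : ∀ (y : F1) (hy : y ∈ O1),
    res1 ⟨y, hy⟩ = 0 ↔ ∃ z ∈ O1, y = algebraMap R0 F1 ϖ * z
  inv_mem : ∀ (y : F1) (hy : y ∈ O1), res1 ⟨y, hy⟩ ≠ 0 → y⁻¹ ∈ O1
  mem_of_isIntegral : ∀ y : F1, IsIntegral O1 y → y ∈ O1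
  exists_repr : ∀ y ∈ O1, ∃ s : R0[X], s.map π0 ≠ 0 ∧ ∃ g : R0[X][X],
    aeval x1 s * y = eval2 x1 θ g

section Exists

variable {R0 : Type*} [CommRing R0] [IsDomain R0] [IsNoetherianRing R0]
variable {k : Type*} [Field k]
variable {F1 : Type*} [Field F1] [Algebra R0 F1]
variable {Fk : Type*} [Field Fk] [Algebra k Fk]

theorem nonempty_gaussModel {ϖ : R0} (hϖ : Prime ϖ) (π0 : R0 →+* k) (hπϖ : π0 ϖ = 0)
    (hker0 : ∀ r, π0 r = 0 → ϖ ∣ r)
    (x1 θ : F1) (hx1 : Transcendental R0 x1)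
    (Φ : R0[X][X]) (hΦ : Φ.Monic) (hroot : eval2 x1 θ Φ = 0)
    (hgen : ∀ y : F1, ∃ s : R0[X], s ≠ 0 ∧ ∃ g : R0[X][X], aeval x1 s * y = eval2 x1 θ g)
    (xb θb : Fk) (hxb : Transcendental k xb) (hrootb : eval2b π0 xb θb Φ = 0)
    (hirr : Irreducible (Φ.map ((algebraMap k[X] (RatFunc k)).comp (mapRingHom π0)))) :
    Nonempty (GaussModel ϖ π0 x1 θ xb θb) := by
  obtain ⟨O1, res1, h1, ⟨h2, h2'⟩, h3, h4, h5, h6⟩ :=
    exists_gaussModel hϖ π0 hπϖ hker0 x1 θ hx1 Φ hΦ hroot hgen xb θb hxb hrootb hirr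
  exact ⟨⟨O1, res1, fun s => (h1 s).1, fun s => (h1 s).2, h2, h2', h3, h4, h5, h6⟩⟩

end Exists

namespace GaussModel

variable {R0 k F1 Fk : Type*} [CommRing R0] [Field k] [Field F1] [Algebra R0 F1]
  [Field Fk] [Algebra k Fk] {ϖ : R0} {π0 : R0 →+* k} {x1 θ : F1} {xb θb : Fk}
  (M : GaussModel ϖ π0 x1 θ xb θb)

theorem res1_congr {y z : F1} (hy : y ∈ M.O1) (hz : z ∈ M.O1) (h : y = z) :
    M.res1 ⟨y, hy⟩ = M.res1 ⟨z, hz⟩ := by
  subst h; rfl

theorem algebraMap_mem (r : R0) : algebraMap R0 F1 r ∈ M.O1 := by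
  have := M.aeval_mem (C r)
  rwa [aeval_C] at this

theorem res1_algebraMap (r : R0) :
    M.res1 ⟨algebraMap R0 F1 r, M.algebraMap_mem r⟩ = algebraMap k Fk (π0 r) := by
  have h := M.res1_aeval (C r)
  have e2 : aeval xb ((C r).map π0) = algebraMap k Fk (π0 r) := by
    rw [Polynomial.map_C, aeval_C]
  exact (M.res1_congr _ _ (aeval_C x1 r).symm).trans (h.trans e2)

theorem x_mem : x1 ∈ M.O1 := by
  have := M.aeval_mem X
  rwa [aeval_X] at this

theorem res1_x : M.res1 ⟨x1, M.x_mem⟩ = xb := by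
  have h := M.res1_aeval X
  have e2 : aeval xb ((X : R0[X]).map π0) = xb := by
    rw [Polynomial.map_X, aeval_X]
  exact (M.res1_congr _ _ (aeval_X x1).symm).trans (h.trans e2)

theorem x_inv_mem (hxb : xb ≠ 0) : x1⁻¹ ∈ M.O1 :=
  M.inv_mem x1 M.x_mem (by rw [M.res1_x]; exact hxb)

include M in
theorem x_ne_zero (hxb : xb ≠ 0) : x1 ≠ 0 := by
  rintro rfl
  apply hxb
  rw [← M.res1_x]
  exact map_zero M.res1

theorem res1_x_inv (hxb : xb ≠ 0) : M.res1 ⟨x1⁻¹, M.x_inv_mem hxb⟩ = xb⁻¹ := by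
  have h1 : (⟨x1, M.x_mem⟩ : M.O1) * ⟨x1⁻¹, M.x_inv_mem hxb⟩ = 1 :=
    Subtype.ext (mul_inv_cancel₀ (M.x_ne_zero hxb))
  have h2 := congrArg M.res1 h1
  rw [map_mul, map_one, M.res1_x] at h2
  exact eq_inv_of_mul_eq_one_right h2

/-- the structure map `R0 → O1`. -/
noncomputable def toO1 : R0 →+* M.O1 :=
  (algebraMap R0 F1).codRestrict M.O1 M.algebraMap_mem

theorem res1_comp_toO1 : M.res1.comp M.toO1 = (algebraMap k Fk).comp π0 := by
  ext r
  exact M.res1_algebraMap r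

/-- polynomial expressions in an element of `O1`. -/
theorem aeval_mem_of_mem {u : F1} (hu : u ∈ M.O1) (s : R0[X]) :
    ∃ h : aeval u s ∈ M.O1, M.res1 ⟨aeval u s, h⟩ = aeval (M.res1 ⟨u, hu⟩) (s.map π0) := by
  obtain ⟨h, hh⟩ := eval₂_mem_res M.O1 M.res1 (algebraMap R0 F1) ((algebraMap k Fk).comp π0)
    (fun r => ⟨M.algebraMap_mem r, M.res1_algebraMap r⟩) u hu s
  have e : aeval u s = s.eval₂ (algebraMap R0 F1) u := aeval_def u s
  have hmem : aeval u s ∈ M.O1 := e ▸ h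
  refine ⟨hmem, ?_⟩
  rw [M.res1_congr hmem h e, hh, aeval_def, eval₂_map]

/-- bivariate polynomial expressions in `x1`, `θ`. -/
theorem eval2_mem (g : R0[X][X]) :
    ∃ h : eval2 x1 θ g ∈ M.O1, M.res1 ⟨eval2 x1 θ g, h⟩ = eval2b π0 xb θb g := by
  obtain ⟨h, hh⟩ := eval₂_mem_res M.O1 M.res1
    ((aeval x1 : R0[X] →ₐ[R0] F1) : R0[X] →+* F1)
    (((aeval xb : k[X] →ₐ[k] Fk) : k[X] →+* Fk).comp (mapRingHom π0))
    (fun s => ⟨M.aeval_mem s, M.res1_aeval s⟩) θ M.θ_mem g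
  refine ⟨h, hh.trans ?_⟩
  rw [M.res1_θ]
  rfl

/-- integrality over `R0[u]`, `u ∈ O1`, implies membership in `O1`. -/
theorem mem_of_isIntegral_adjoin {u : F1} (hu : u ∈ M.O1) {b : F1}
    (hb : IsIntegral (Algebra.adjoin R0 {u}) b) : b ∈ M.O1 := by
  obtain ⟨q, hqm, hq⟩ := (isIntegral_adjoin_iff u b).mp hb
  apply M.mem_of_isIntegral
  let c : R0[X] →+* M.O1 :=
    ((aeval u : R0[X] →ₐ[R0] F1) : R0[X] →+* F1).codRestrict M.O1
      fun s => (M.aeval_mem_of_mem hu s).1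
  refine ⟨q.map c, hqm.map _, ?_⟩
  rw [eval₂_map]
  exact hq

/-- `hBO` of `H33.exists_forall_finrank_riemannRochSpace_le`. -/
theorem hBO (b : F1) (hb : IsIntegral (Algebra.adjoin R0 {x1}) b) : b ∈ M.O1 :=
  M.mem_of_isIntegral_adjoin M.x_mem hb

/-- `hBinfO` of `H33.exists_forall_finrank_riemannRochSpace_le`. -/
theorem hBinfO (hxb : xb ≠ 0) (b : F1) (hb : IsIntegral (Algebra.adjoin R0 {x1⁻¹}) b) :
    b ∈ M.O1 :=
  M.mem_of_isIntegral_adjoin (M.x_inv_mem hxb) hb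

/-- residues of elements integral over `R0[u]` are integral over `k[ū]`. -/
theorem isIntegral_res1_adjoin {u : F1} (hu : u ∈ M.O1) {b : F1}
    (hb : IsIntegral (Algebra.adjoin R0 {u}) b) :
    IsIntegral (Algebra.adjoin k {M.res1 ⟨u, hu⟩})
      (M.res1 ⟨b, M.mem_of_isIntegral_adjoin hu hb⟩) := by
  obtain ⟨q, hqm, hq⟩ := (isIntegral_adjoin_iff u b).mp hb
  rw [isIntegral_adjoin_iff]
  refine ⟨q.map (mapRingHom π0), hqm.map _, ?_⟩
  rw [eval₂_map]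
  obtain ⟨h, hh⟩ := eval₂_mem_res M.O1 M.res1
    ((aeval u : R0[X] →ₐ[R0] F1) : R0[X] →+* F1)
    (((aeval (M.res1 ⟨u, hu⟩) : k[X] →ₐ[k] Fk) : k[X] →+* Fk).comp (mapRingHom π0))
    (fun s => M.aeval_mem_of_mem hu s) b (M.mem_of_isIntegral_adjoin hu hb) q
  rw [← hh]
  have : (⟨q.eval₂ ((aeval u : R0[X] →ₐ[R0] F1) : R0[X] →+* F1) b, h⟩ : M.O1) = 0 :=
    Subtype.ext hq
  rw [this, map_zero]

theorem isIntegral_res1 (b : F1) (hb : IsIntegral (Algebra.adjoin R0 {x1}) b) :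
    IsIntegral (Algebra.adjoin k {xb}) (M.res1 ⟨b, M.hBO b hb⟩) := by
  have h := M.isIntegral_res1_adjoin M.x_mem hb
  rw [M.res1_x] at h
  exact h

theorem isIntegral_res1_inv (hxb : xb ≠ 0) (b : F1)
    (hb : IsIntegral (Algebra.adjoin R0 {x1⁻¹}) b) :
    IsIntegral (Algebra.adjoin k {xb⁻¹}) (M.res1 ⟨b, M.hBinfO hxb b hb⟩) := by
  have h := M.isIntegral_res1_adjoin (M.x_inv_mem hxb) hb
  rw [M.res1_x_inv hxb] at h
  exact h

/-- `hsat` of `H33.exists_forall_finrank_riemannRochSpace_le`. -/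
theorem hsat [IsDomain R0] [IsIntegrallyClosed R0] (hϖ : Prime ϖ) (hπϖ : π0 ϖ = 0)
    (hx1 : Transcendental R0 x1) (Φ : R0[X][X]) (hΦ : Φ.Monic) (hroot : eval2 x1 θ Φ = 0)
    (hgen : ∀ y : F1, ∃ s : R0[X], s ≠ 0 ∧ ∃ g : R0[X][X], aeval x1 s * y = eval2 x1 θ g) :
    ∀ y ∈ M.O1, IsIntegral (Algebra.adjoin R0 {x1}) (algebraMap R0 F1 ϖ * y) →
      IsIntegral (Algebra.adjoin R0 {x1}) y := by
  intro y hy hπy
  obtain ⟨s, hs, g, hg⟩ := M.exists_repr y hy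
  rw [isIntegral_adjoin_iff] at hπy ⊢
  refine exists_monic_of_two hϖ x1 θ hx1 Φ hΦ hroot hgen ?_ hg hπy
  rintro ⟨c, rfl⟩
  apply hs
  rw [Polynomial.map_mul, Polynomial.map_C, hπϖ, C_0, zero_mul]

/-- `(ϖ)` is a prime ideal of every saturated ring `B ⊆ O1` (e.g. the integral closure of
`R0[x1]` in `F1`): `B/ϖB` embeds into `Fk`. -/
theorem span_isPrime {B : Type*} [CommRing B] (j : B →+* F1) (hj : Function.Injective j)
    (ϖB : B) (hϖB : j ϖB = algebraMap R0 F1 ϖ) (hjO : ∀ b, j b ∈ M.O1)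
    (hsatB : ∀ y ∈ M.O1, (∃ b, j b = algebraMap R0 F1 ϖ * y) → ∃ b', j b' = y) :
    (Ideal.span {ϖB}).IsPrime := by
  let ρ : B →+* Fk := M.res1.comp (j.codRestrict M.O1 hjO)
  have hker : Ideal.span {ϖB} = RingHom.ker ρ := by
    ext b
    rw [Ideal.mem_span_singleton', RingHom.mem_ker]
    change _ ↔ M.res1 ⟨j b, hjO b⟩ = 0
    rw [M.res1_eq_zero_iff]
    constructor
    · rintro ⟨a, rfl⟩
      exact ⟨j a, hjO a, by rw [map_mul, hϖB, mul_comm]⟩
    · rintro ⟨z, hz, hbz⟩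
      obtain ⟨b', rfl⟩ := hsatB z hz ⟨b, hbz⟩
      exact ⟨b', hj (by rw [map_mul, hbz, hϖB, mul_comm])⟩
  rw [hker]
  exact RingHom.ker_isPrime ρ

/-- **Comparison** with a bigger valuation ring: if `ι : F1 →+* F` and `O ⊆ F` carries a
reduction `res : O →+* Fk` compatible with `res1` on `R0[x1]` and `θ`, and elements of `O` with
non-zero residue are invertible in `O`, then `ι` maps `O1` into `O` and `res ∘ ι = res1`. -/
theorem comparison {F : Type*} [Field F] (ι : F1 →+* F) (O : Subring F) (res : O →+* Fk)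
    (hxb : Transcendental k xb)
    (hc : ∀ s : R0[X], ∃ h : ι (aeval x1 s) ∈ O, res ⟨_, h⟩ = aeval xb (s.map π0))
    (hθ : ∃ h : ι θ ∈ O, res ⟨_, h⟩ = θb)
    (hinv : ∀ (u : F) (hu : u ∈ O), res ⟨u, hu⟩ ≠ 0 → u⁻¹ ∈ O) (y : F1) (hy : y ∈ M.O1) :
    ∃ h : ι y ∈ O, res ⟨ι y, h⟩ = M.res1 ⟨y, hy⟩ := by
  obtain ⟨s, hs, g, hg⟩ := M.exists_repr y hy
  obtain ⟨ha, hares⟩ := hc s
  have hxbinj : Function.Injective (aeval xb : k[X] →ₐ[k] Fk) :=
    transcendental_iff_injective.mp hxb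
  have hsb : aeval xb (s.map π0) ≠ 0 := fun h => hs (hxbinj (by rw [h, map_zero]))
  have hainv : (ι (aeval x1 s))⁻¹ ∈ O := hinv _ ha (by rw [hares]; exact hsb)
  -- `ι (g(x1, θ)) ∈ O` with the expected residue
  obtain ⟨hθO, hθres⟩ := hθ
  obtain ⟨hb, hbres⟩ := eval₂_mem_res O res
    (ι.comp ((aeval x1 : R0[X] →ₐ[R0] F1) : R0[X] →+* F1))
    (((aeval xb : k[X] →ₐ[k] Fk) : k[X] →+* Fk).comp (mapRingHom π0))
    (fun s => hc s) (ι θ) hθO g
  have hιg : ι (eval2 x1 θ g) =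
      g.eval₂ (ι.comp ((aeval x1 : R0[X] →ₐ[R0] F1) : R0[X] →+* F1)) (ι θ) := by
    unfold eval2
    rw [Polynomial.hom_eval₂]
  have ha0 : ι (aeval x1 s) ≠ 0 := by
    intro h0
    apply hsb
    rw [← hares]
    have : (⟨ι (aeval x1 s), ha⟩ : O) = 0 := Subtype.ext h0
    rw [this, map_zero]
  have hιy : ι y = (ι (aeval x1 s))⁻¹ *
      g.eval₂ (ι.comp ((aeval x1 : R0[X] →ₐ[R0] F1) : R0[X] →+* F1)) (ι θ) := by
    rw [← hιg, ← hg, map_mul, inv_mul_cancel_left₀ ha0]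
  have hmem : ι y ∈ O := hιy ▸ O.mul_mem hainv hb
  refine ⟨hmem, ?_⟩
  -- compare residues after multiplying by the residue of `s(x1)`
  have h1 : (⟨ι (aeval x1 s), ha⟩ : O) * ⟨ι y, hmem⟩ =
      ⟨g.eval₂ (ι.comp ((aeval x1 : R0[X] →ₐ[R0] F1) : R0[X] →+* F1)) (ι θ), hb⟩ := by
    apply Subtype.ext
    change ι (aeval x1 s) * ι y =
      g.eval₂ (ι.comp ((aeval x1 : R0[X] →ₐ[R0] F1) : R0[X] →+* F1)) (ι θ)
    rw [← hιg, ← hg, map_mul]
  have h2 := congrArg res h1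
  rw [map_mul, hares, hbres, hθres] at h2
  obtain ⟨hg1, hg1res⟩ := M.eval2_mem g
  have h3 : (⟨aeval x1 s, M.aeval_mem s⟩ : M.O1) * ⟨y, hy⟩ = ⟨eval2 x1 θ g, hg1⟩ :=
    Subtype.ext hg
  have h4 := congrArg M.res1 h3
  rw [map_mul, M.res1_aeval, hg1res] at h4
  apply mul_left_cancel₀ hsb
  rw [h2, h4]
  rfl

/-- `hker` of `H33.exists_forall_finrank_riemannRochSpace_le` from `comparison`. -/
theorem hker_of_comparison {F : Type*} [Field F] (ι : F1 →+* F) (O : Subring F) (res : O →+* Fk)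
    (hO1 : ∀ y ∈ M.O1, ι y ∈ O)
    (hcomp : ∀ (y : F1) (hy : y ∈ M.O1), res ⟨ι y, hO1 y hy⟩ = M.res1 ⟨y, hy⟩)
    (y : F1) (hy : y ∈ M.O1) :
    res ⟨ι y, hO1 y hy⟩ = 0 ↔ ∃ z ∈ M.O1, y = algebraMap R0 F1 ϖ * z := by
  rw [hcomp y hy, M.res1_eq_zero_iff]

/-- `hc` of `comparison` from compatibility on constants and on `x1`. -/
theorem hc_of_const {F : Type*} [Field F] (ι : F1 →+* F) (O : Subring F) (res : O →+* Fk)
    (hconst : ∀ r : R0, ∃ h : ι (algebraMap R0 F1 r) ∈ O,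
      res ⟨_, h⟩ = algebraMap k Fk (π0 r))
    (hx : ∃ h : ι x1 ∈ O, res ⟨_, h⟩ = xb) (s : R0[X]) :
    ∃ h : ι (aeval x1 s) ∈ O, res ⟨_, h⟩ = aeval xb (s.map π0) := by
  obtain ⟨hxO, hxres⟩ := hx
  obtain ⟨h, hh⟩ := eval₂_mem_res O res (ι.comp (algebraMap R0 F1))
    ((algebraMap k Fk).comp π0) (fun r => hconst r) (ι x1) hxO s
  have h1 : ι (aeval x1 s) = s.eval₂ (ι.comp (algebraMap R0 F1)) (ι x1) := by
    rw [aeval_def, Polynomial.hom_eval₂]
  have hmem : ι (aeval x1 s) ∈ O := h1 ▸ h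
  refine ⟨hmem, ?_⟩
  have h2 : (⟨ι (aeval x1 s), hmem⟩ : O) = ⟨s.eval₂ (ι.comp (algebraMap R0 F1)) (ι x1), h⟩ :=
    Subtype.ext h1
  rw [h2, hh, hxres, aeval_def, eval₂_map]

end GaussModel

end Fermat.Agent.S18.H3
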