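import Mathlib
import Fermat.Agent.S18.H3_ChartRing
import Fermat.Agent.S18.H16_FKGen
import Fermat.Agent.S18.H45_StrictDVRResidue

/-!
# S18 / INST-2 (helper3): the Gauss model for `F₁ = modularFunctionFieldFullC L₁ N` over `A₁`

`A₁ = H45.A0 A ℓ` (DVR, uniformiser `ℓ`, residue map `H45.resA0 A ℓ` onto `k = ResidueField A`),
`L₁ = H45.unrCyclo ℓ`, `F₁ = modularFunctionFieldFullC L₁ N`, `j₁ = H16.jK L₁ N`,
`jN₁ = H16.jNK L₁ N`, `Fk = modularFunctionFieldFullC k N`, `jk = H16.jK k N`, `jNk = H16.jNK k N`.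

* `isFrac_of_adjoin_eq_top` (generic): `F = K(x)(θ)` ⟹ every element is `g(x,θ)/s(x)` with
  `g ∈ R[X][Y]`, `s ∈ R[X]` (`K = Frac R`).
* `eval₂_jNK_eq_zero` (generic): `Φ_N(j_N, j) = 0` in `modularFunctionFieldFullC K' N`.
* `nonempty_gaussModel_inst` : `Nonempty (GaussModel (ℓ : A₁) (resA0 A ℓ) j₁ jN₁ jk jNk)`.
-/

set_option autoImplicit false
set_option linter.unusedSectionVars false
set_option linter.style.haveILetI false
set_option synthInstance.maxHeartbeats 400000

namespace Fermat.Agent.S18.H3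

open Polynomial IntermediateField ModularCurve Fermat.Agent.S28

noncomputable section

/-! ### Generic: generation in fraction form -/

section GenFrac

variable {R : Type*} [CommRing R] [IsDomain R] {K : Type*} [Field K] [Algebra R K]
  [IsFractionRing R K] {F : Type*} [Field F] [Algebra R F] [Algebra K F] [IsScalarTower R K F]

/-- the set of elements of `F` of the form `g(x, θ) / s(x)` with `g ∈ R[X][Y]`, `s ∈ R[X]`. -/
def IsFrac (x θ y : F) : Prop :=
  ∃ s : R[X], aeval x s ≠ 0 ∧ ∃ g : R[X][X], aeval x s * y = eval2 x θ g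

theorem eval2_add (x θ : F) (g h : R[X][X]) : eval2 x θ (g + h) = eval2 x θ g + eval2 x θ h :=
  Polynomial.eval₂_add _ _

theorem eval2_mul (x θ : F) (g h : R[X][X]) : eval2 x θ (g * h) = eval2 x θ g * eval2 x θ h :=
  Polynomial.eval₂_mul _ _

theorem eval2_C (x θ : F) (s : R[X]) : eval2 x θ (C s) = aeval x s :=
  Polynomial.eval₂_C _ _

theorem eval2_X (x θ : F) : eval2 (R0 := R) x θ X = θ :=
  Polynomial.eval₂_X _ _

theorem IsFrac.add {x θ y z : F} (hy : IsFrac (R := R) x θ y) (hz : IsFrac (R := R) x θ z) :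
    IsFrac (R := R) x θ (y + z) := by
  obtain ⟨s, hs, g, hg⟩ := hy
  obtain ⟨t, ht, h, hh⟩ := hz
  refine ⟨s * t, by rw [map_mul]; exact mul_ne_zero hs ht, C t * g + C s * h, ?_⟩
  rw [eval2_add, eval2_mul, eval2_mul, eval2_C, eval2_C, ← hg, ← hh, map_mul]
  ring

theorem IsFrac.mul {x θ y z : F} (hy : IsFrac (R := R) x θ y) (hz : IsFrac (R := R) x θ z) :
    IsFrac (R := R) x θ (y * z) := by
  obtain ⟨s, hs, g, hg⟩ := hy
  obtain ⟨t, ht, h, hh⟩ := hz
  refine ⟨s * t, by rw [map_mul]; exact mul_ne_zero hs ht, g * h, ?_⟩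
  rw [eval2_mul, ← hg, ← hh, map_mul]
  ring

theorem IsFrac.pow {x θ y : F} (hy : IsFrac (R := R) x θ y) (n : ℕ) :
    IsFrac (R := R) x θ (y ^ n) := by
  induction n with
  | zero => exact ⟨1, by rw [map_one]; exact one_ne_zero, 1, by
      rw [pow_zero, map_one, mul_one]; exact (Polynomial.eval₂_one _ _).symm⟩
  | succ n ih => rw [pow_succ]; exact ih.mul hy

theorem isFrac_theta (x θ : F) : IsFrac (R := R) x θ θ :=
  ⟨1, by rw [map_one]; exact one_ne_zero, X, by rw [map_one, one_mul, eval2_X]⟩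

/-- elements of `K(x)` are fractions. -/
theorem isFrac_of_mem_adjoin_simple (x θ : F) {c : F} (hc : c ∈ K⟮x⟯) :
    IsFrac (R := R) x θ c := by
  rw [IntermediateField.mem_adjoin_simple_iff] at hc
  obtain ⟨r, s, rfl⟩ := hc
  by_cases hs : aeval x s = 0
  · rw [hs, div_zero]
    exact ⟨1, by rw [map_one]; exact one_ne_zero, 0, by
      rw [mul_zero]; exact (Polynomial.eval₂_zero _ _).symm⟩
  · obtain ⟨a, ha, hr'⟩ := IsLocalization.integerNormalization_spec (nonZeroDivisors R) r
    obtain ⟨b, hb, hs'⟩ := IsLocalization.integerNormalization_spec (nonZeroDivisors R) s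
    set r' := IsLocalization.integerNormalization (nonZeroDivisors R) r
    set s' := IsLocalization.integerNormalization (nonZeroDivisors R) s
    have hinjRF : Function.Injective (algebraMap R F) := by
      rw [IsScalarTower.algebraMap_eq R K F]
      exact (algebraMap K F).injective.comp (IsFractionRing.injective R K)
    have ha0 : algebraMap R F a ≠ 0 := fun h =>
      nonZeroDivisors.ne_zero ha (hinjRF (by rw [h, map_zero]))
    have hb0 : algebraMap R F b ≠ 0 := fun h =>
      nonZeroDivisors.ne_zero hb (hinjRF (by rw [h, map_zero]))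
    have hr'' : aeval x r' = algebraMap R F a * aeval x r := by
      have h1 := congrArg (aeval x) hr'
      rw [aeval_map_algebraMap] at h1
      rw [h1, ← algebraMap_smul K a r, map_smul, Algebra.smul_def,
        ← IsScalarTower.algebraMap_apply]
    have hs'' : aeval x s' = algebraMap R F b * aeval x s := by
      have h1 := congrArg (aeval x) hs'
      rw [aeval_map_algebraMap] at h1
      rw [h1, ← algebraMap_smul K b s, map_smul, Algebra.smul_def,
        ← IsScalarTower.algebraMap_apply]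
    refine ⟨C a * s', ?_, C (C b * r'), ?_⟩
    · rw [map_mul, aeval_C, hs'']
      exact mul_ne_zero ha0 (mul_ne_zero hb0 hs)
    · rw [eval2_C, map_mul, map_mul, aeval_C, aeval_C, hs'', hr'']
      field_simp

/-- **generation in fraction form**: if `F = K(x)(θ)` with `θ` integral over `K(x)`, every element
of `F` is `g(x, θ) / s(x)` with `g ∈ R[X][Y]`, `s ∈ R[X]`. -/
theorem isFrac_of_adjoin_eq_top (x θ : F) (hθ : IsIntegral K⟮x⟯ θ) (htop : K⟮x⟯⟮θ⟯ = ⊤) (y : F) :
    IsFrac (R := R) x θ y := by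
  have hy : y ∈ K⟮x⟯⟮θ⟯ := by rw [htop]; trivial
  have h1 : (K⟮x⟯⟮θ⟯).toSubalgebra = Algebra.adjoin K⟮x⟯ {θ} :=
    IntermediateField.adjoin_simple_toSubalgebra_of_isAlgebraic hθ.isAlgebraic
  have hy' : y ∈ Algebra.adjoin K⟮x⟯ {θ} := by
    rw [← h1]; exact hy
  rw [Algebra.adjoin_singleton_eq_range_aeval] at hy'
  obtain ⟨P, hP⟩ := hy'
  have key : ∀ P : K⟮x⟯[X], IsFrac (R := R) x θ (aeval θ P) := by
    intro P
    induction P using Polynomial.induction_on' with
    | add p q hp hq => rw [map_add]; exact hp.add hq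
    | monomial n c =>
      rw [aeval_monomial]
      exact (isFrac_of_mem_adjoin_simple (K := K) x θ c.2).mul ((isFrac_theta x θ).pow n)
  rw [← hP]
  exact key P

end GenFrac

/-! ### Generic: the modular equation in the function field -/

/-- `Φ_N(j_N, j) = 0` in the function field, for any way of evaluating `ℤ[X]` at `j`. -/
theorem eval₂_jNK_eq_zero (N : ℕ) [NeZero N] (K' : Type*) [Field K']
    (D : ModularPolynomialData N)
    (ψ : ℤ[X] →+* ↥(modularFunctionFieldFullC K' N)) (hψ : ψ X = H16.jK K' N) :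
    D.Φ.eval₂ ψ (H16.jNK K' N) = 0 := by
  apply Subtype.ext
  have h1 := Polynomial.hom_eval₂ D.Φ ψ
    ((modularFunctionFieldFullC K' N).val : ↥(modularFunctionFieldFullC K' N) →+* LaurentSeries K')
    (H16.jNK K' N)
  have h2 : (((modularFunctionFieldFullC K' N).val :
      ↥(modularFunctionFieldFullC K' N) →+* LaurentSeries K').comp ψ) = evalJ (jqModC K') := by
    apply Polynomial.ringHom_ext
    · intro a
      simp
    · rw [RingHom.comp_apply, hψ, evalJ_X]
      rfl
  rw [h2] at h1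
  change ((modularFunctionFieldFullC K' N).val (D.Φ.eval₂ ψ (H16.jNK K' N))) = 0
  rw [show ((modularFunctionFieldFullC K' N).val (D.Φ.eval₂ ψ (H16.jNK K' N))) =
    D.Φ.eval₂ (evalJ (jqModC K')) ((modularFunctionFieldFullC K' N).val (H16.jNK K' N)) from h1]
  exact H16.modPoly_root N D K'

/-! ### The instance -/

section Inst

variable (N : ℕ) [NeZero N] {ℓ : ℕ} [hℓ : Fact ℓ.Prime] (hℓN : ¬ ℓ ∣ N)
variable (A : ValuationSubring (AlgebraicClosure ℚ)) (hA : A.LiesOverPrime ℓ)

local notation "kA" => IsLocalRing.ResidueField A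
local notation "L₁" => H45.unrCyclo ℓ
local notation "A₁" => H45.A0 A ℓ
local notation "F₁" => modularFunctionFieldFullC (H45.unrCyclo ℓ) N
local notation "j₁" => H16.jK (H45.unrCyclo ℓ) N
local notation "jN₁" => H16.jNK (H45.unrCyclo ℓ) N
local notation "Fk" => modularFunctionFieldFullC (IsLocalRing.ResidueField A) N

include hℓN hA in
set_option maxHeartbeats 4000000 in
/-- **The Gauss model of `F₁` over `A₁`.** -/
theorem nonempty_gaussModel_inst :
    Nonempty (GaussModel (((ℓ : ℕ) : A₁)) (H45.resA0 A ℓ) j₁ jN₁ (H16.jK kA N) (H16.jNK kA N)) := by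
  haveI hdvr : IsDiscreteValuationRing A₁ := H45.isDiscreteValuationRing_A0 hℓ.out hA
  haveI hchar : CharP kA ℓ := H45.charP_residueField hℓ.out hA
  have hϖ : Prime (((ℓ : ℕ) : A₁)) := (H45.irreducible_natCast_A0 hℓ.out hA).prime
  have hkerspan := H45.ker_resA0_eq_span (A := A) hℓ.out hA
  have hπϖ : H45.resA0 A ℓ (((ℓ : ℕ) : A₁)) = 0 := by
    rw [← RingHom.mem_ker, hkerspan]
    exact Ideal.mem_span_singleton_self _
  have hker0 : ∀ r : A₁, H45.resA0 A ℓ r = 0 → (((ℓ : ℕ) : A₁)) ∣ r := by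
    intro r hr
    rw [← RingHom.mem_ker, hkerspan, Ideal.mem_span_singleton] at hr
    exact hr
  have hNL : ((N : ℕ) : L₁) ≠ 0 := H16.natCast_ne_zero_of_charZero N L₁
  have hNk : ((N : ℕ) : kA) ≠ 0 := by
    rw [Ne, CharP.cast_eq_zero_iff kA ℓ]
    exact hℓN
  obtain ⟨D, -, hirrD⟩ := H16.exists_modPoly_gen N
  have hx1 : Transcendental A₁ j₁ := by
    intro h
    exact H16.transcendental_jK L₁ N (h.extendScalars (IsFractionRing.injective A₁ L₁))
  -- the polynomial
  set Φ : (A₁)[X][X] := D.Φ.map (Polynomial.mapRingHom (Int.castRingHom A₁)) with hΦdef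
  have hΦ : Φ.Monic := D.monic.map _
  have hroot : eval2 j₁ jN₁ Φ = 0 := by
    unfold eval2
    rw [hΦdef, Polynomial.eval₂_map]
    apply eval₂_jNK_eq_zero N L₁ D
    rw [RingHom.comp_apply]
    change aeval j₁ ((X : ℤ[X]).map (Int.castRingHom A₁)) = j₁
    rw [Polynomial.map_X, aeval_X]
  have hrootb : eval2b (H45.resA0 A ℓ) (H16.jK kA N) (H16.jNK kA N) Φ = 0 := by
    unfold eval2b
    rw [hΦdef, Polynomial.eval₂_map]
    apply eval₂_jNK_eq_zero N kA D
    rw [RingHom.comp_apply, RingHom.comp_apply]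
    change aeval (H16.jK kA N) (((X : ℤ[X]).map (Int.castRingHom A₁)).map (H45.resA0 A ℓ)) = _
    rw [Polynomial.map_X, Polynomial.map_X, aeval_X]
  have hirr : Irreducible (Φ.map ((algebraMap kA[X] (RatFunc kA)).comp
      (Polynomial.mapRingHom (H45.resA0 A ℓ)))) := by
    have h := hirrD kA hNk
    rw [redModPoly] at h
    rw [hΦdef, Polynomial.map_map]
    have hcomp : ((algebraMap kA[X] (RatFunc kA)).comp
        (Polynomial.mapRingHom (H45.resA0 A ℓ))).comp
          (Polynomial.mapRingHom (Int.castRingHom A₁)) =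
        (algebraMap kA[X] (RatFunc kA)).comp (Polynomial.mapRingHom (Int.castRingHom kA)) := by
      rw [RingHom.comp_assoc, Polynomial.mapRingHom_comp]
      congr 2
    rw [hcomp]
    exact h
  have hgen : ∀ y : F₁, ∃ s : (A₁)[X], s ≠ 0 ∧ ∃ g : (A₁)[X][X],
      aeval j₁ s * y = eval2 j₁ jN₁ g := by
    intro y
    obtain ⟨s, hs, g, hg⟩ := isFrac_of_adjoin_eq_top (R := A₁) (K := L₁) j₁ jN₁
      (H16.isIntegral_jNK_gen N L₁ hNL) (H16.adjoin_jNK_eq_top_gen N L₁ hNL) y
    exact ⟨s, fun h => hs (by rw [h, map_zero]), g, hg⟩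
  exact nonempty_gaussModel hϖ (H45.resA0 A ℓ) hπϖ hker0 j₁ jN₁ hx1 Φ hΦ hroot hgen
    (H16.jK kA N) (H16.jNK kA N) (H16.transcendental_jK kA N) hrootb hirr

end Inst

end

end Fermat.Agent.S18.H3
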