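/-
  helper13 — S18 / package (NS): generic non-special divisors on a function field,
  in the prelude vocabulary (`AlgebraicCurve.Place`, `Divisor`, `riemannRochSpace`).

  From the UPPER half of Riemann's theorem (`l(D) ≤ deg D + 1 - g` for `deg D ≥ c`),
  `l(0) = 1`, places of degree one and infinitely many places, we get: for every finite set `S`
  of places there are `g` distinct places outside `S` whose sum `E` has `l(E) = 1`.
  No differentials are used (one point at a time, linear independence by pole orders).
-/
import Fermat.Prelude.Def_AlgebraicCurve_Repartitions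

set_option autoImplicit false

noncomputable section

open AlgebraicCurve WithZero

open Classical

namespace Fermat.Agent.S18.H13

variable {K F : Type*} [Field K] [Field F] [Algebra K F]

/-- The sum of the places of a finset, each with multiplicity one. -/
def sumPlaces (T : Finset (Place K F)) : Divisor K F :=
  ∑ x ∈ T, Finsupp.single x (1 : ℤ)

theorem sumPlaces_apply (T : Finset (Place K F)) (y : Place K F) :
    sumPlaces T y = if y ∈ T then 1 else 0 := by
  classical
  unfold sumPlaces
  rw [Finsupp.finsetSum_apply]
  simp only [Finsupp.single_apply]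
  rw [Finset.sum_ite_eq' T y]

theorem sumPlaces_nonneg (T : Finset (Place K F)) : 0 ≤ sumPlaces T := by
  classical
  rw [Finsupp.le_def]
  intro y
  rw [sumPlaces_apply, Finsupp.zero_apply]
  split_ifs <;> norm_num

theorem sumPlaces_empty : sumPlaces (∅ : Finset (Place K F)) = 0 := by
  simp [sumPlaces]

theorem sumPlaces_insert {T : Finset (Place K F)} {Q : Place K F} (hQ : Q ∉ T) :
    sumPlaces (insert Q T) = sumPlaces T + Finsupp.single Q 1 := by
  classical
  unfold sumPlaces
  rw [Finset.sum_insert hQ, add_comm]

theorem degree_sumPlaces (hdeg : ∀ v : Place K F, v.deg = 1) (T : Finset (Place K F)) :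
    Divisor.degree (sumPlaces T) = T.card := by
  classical
  unfold sumPlaces
  rw [map_sum]
  simp only [Divisor.degree_single, hdeg, Nat.cast_one, mul_one]
  simp

theorem riemannRochSpace_mono {D D' : Divisor K F} (h : D ≤ D') :
    riemannRochSpace D ≤ riemannRochSpace D' := by
  intro f hf v
  exact (hf v).trans (exp_le_exp.mpr (Finsupp.le_def.mp h v))

theorem mem_riemannRochSpace_iff_val {D : Divisor K F} {f : F} :
    f ∈ riemannRochSpace D ↔ ∀ v : Place K F, v.adicValuation f ≤ exp (D v) := Iff.rfl

theorem one_mem_riemannRochSpace {E : Divisor K F} (hE : 0 ≤ E) :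
    (1 : F) ∈ riemannRochSpace E := by
  intro v
  rw [map_one]
  have h : (0 : ℤ) ≤ E v := by simpa using Finsupp.le_def.mp hE v
  calc (1 : ℤᵐ⁰) = exp (0 : ℤ) := by simp
    _ ≤ exp (E v) := exp_le_exp.mpr h

/-- The local condition at one place, as a `K`-submodule. -/
def localSpace (v : Place K F) (n : ℤ) : Submodule K F where
  carrier := {f | v.adicValuation f ≤ exp n}
  zero_mem' := by simp
  add_mem' := by
    intro f g hf hg
    have hf1 : v.adicValuation f ≤ exp n := hf
    have hg1 : v.adicValuation g ≤ exp n := hg
    show v.adicValuation (f + g) ≤ exp n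
    exact (Valuation.map_add _ _ _).trans (max_le hf1 hg1)
  smul_mem' := by
    intro c f hf
    have hf1 : v.adicValuation f ≤ exp n := hf
    show v.adicValuation (c • f) ≤ exp n
    rw [Algebra.smul_def, map_mul]
    exact (mul_le_of_le_one_left' (v.adicValuation_algebraMap_le_one c)).trans hf1

theorem mem_localSpace {v : Place K F} {n : ℤ} {f : F} :
    f ∈ localSpace v n ↔ v.adicValuation f ≤ exp n := Iff.rfl

theorem riemannRochSpace_le_localSpace (D : Divisor K F) (v : Place K F) :
    riemannRochSpace D ≤ localSpace v (D v) := fun _ hf => hf v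

/-- An element of `L(E + Q) \ L(E)` violates the local condition of `E` exactly at `Q`. -/
theorem not_mem_localSpace_of_not_mem {E : Divisor K F} {Q : Place K F} {f : F}
    (hf : f ∈ riemannRochSpace (E + Finsupp.single Q 1)) (hf' : f ∉ riemannRochSpace E) :
    f ∉ localSpace Q (E Q) := by
  classical
  intro hQ
  apply hf'
  intro v
  by_cases hv : v = Q
  · subst hv; exact hQ
  · have h := hf v
    rwa [Finsupp.add_apply, Finsupp.single_apply, if_neg (Ne.symm hv), add_zero] at h

/-- **Linear independence by pole orders.** `E ≥ 0`, `T` a finset of places outside the support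
of `E`, and for each `x ∈ T` a function `f x ∈ L(E + x) \ L(E)`: then `1` and the `f x` are
linearly independent, so `l(E + ∑ T) ≥ |T| + 1`. -/
theorem card_succ_le_finrank {E : Divisor K F} (hE : 0 ≤ E) (T : Finset (Place K F))
    (hT : ∀ x ∈ T, E x = 0)
    (hfinT : Module.Finite K (riemannRochSpace (E + sumPlaces T)))
    (f : Place K F → F)
    (hf : ∀ x ∈ T, f x ∈ riemannRochSpace (E + Finsupp.single x 1))
    (hf' : ∀ x ∈ T, f x ∉ riemannRochSpace E) :
    T.card + 1 ≤ Module.finrank K (riemannRochSpace (E + sumPlaces T)) := by
  classical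
  -- the family indexed by `Option T`
  let w : Option {x // x ∈ T} → F := fun o => Option.elim o 1 (fun x => f x.1)
  have hle : ∀ x ∈ T, E + Finsupp.single x 1 ≤ E + sumPlaces T := by
    intro x hx
    refine add_le_add (le_refl E) ?_
    rw [Finsupp.le_def]
    intro y
    rw [sumPlaces_apply, Finsupp.single_apply]
    by_cases hxy : x = y
    · subst hxy; simp [hx]
    · rw [if_neg hxy]; split_ifs <;> norm_num
  have hwmem : ∀ o, w o ∈ riemannRochSpace (E + sumPlaces T) := by
    intro o
    cases o with
    | none =>
      exact one_mem_riemannRochSpace (add_nonneg hE (sumPlaces_nonneg T))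
    | some x => exact riemannRochSpace_mono (hle x.1 x.2) (hf x.1 x.2)
  -- every member other than `f x` satisfies the local condition `≤ 1` at `x`
  have hlocal : ∀ (x : {x // x ∈ T}) (o : Option {x // x ∈ T}), o ≠ some x →
      w o ∈ localSpace x.1 0 := by
    intro x o ho
    cases o with
    | none =>
      show x.1.adicValuation (1 : F) ≤ exp 0
      simp
    | some y =>
      have hyx : y.1 ≠ x.1 := fun h => ho (by rw [Subtype.ext h])
      have h := hf y.1 y.2 x.1
      rw [Finsupp.add_apply, hT x.1 x.2, Finsupp.single_apply, if_neg hyx, add_zero] at h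
      exact h
  have hnot : ∀ x : {x // x ∈ T}, w (some x) ∉ localSpace x.1 0 := by
    intro x
    have h := not_mem_localSpace_of_not_mem (hf x.1 x.2) (hf' x.1 x.2)
    rwa [hT x.1 x.2] at h
  have hli : LinearIndependent K w := by
    rw [Fintype.linearIndependent_iff]
    intro c hc
    have hsome : ∀ x : {x // x ∈ T}, c (some x) = 0 := by
      intro x
      by_contra hcx
      apply hnot x
      -- solve for `w (some x)`
      have hsplit : c (some x) • w (some x) +
          ∑ o ∈ Finset.univ.erase (some x), c o • w o = 0 := by
        have h := Finset.add_sum_erase Finset.univ (fun o => c o • w o)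
          (Finset.mem_univ (some x))
        exact h.trans hc
      have hrest : ∑ o ∈ Finset.univ.erase (some x), c o • w o ∈ localSpace x.1 0 := by
        refine Submodule.sum_mem _ fun o ho => Submodule.smul_mem _ _ ?_
        exact hlocal x o (Finset.ne_of_mem_erase ho)
      have hx : w (some x) = -(c (some x))⁻¹ •
          ∑ o ∈ Finset.univ.erase (some x), c o • w o := by
        have h1 : c (some x) • w (some x) =
            -∑ o ∈ Finset.univ.erase (some x), c o • w o :=
          eq_neg_of_add_eq_zero_left hsplit
        calc w (some x) = (c (some x))⁻¹ • (c (some x) • w (some x)) := by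
              rw [smul_smul, inv_mul_cancel₀ hcx, one_smul]
          _ = _ := by rw [h1, smul_neg, neg_smul]
      rw [hx]
      exact Submodule.smul_mem _ _ hrest
    intro o
    cases o with
    | some x => exact hsome x
    | none =>
      have hsum : ∑ o : Option {x // x ∈ T}, c o • w o = c none • w none := by
        rw [Fintype.sum_option]
        simp [hsome]
      rw [hsum] at hc
      have : c none • (1 : F) = 0 := hc
      rcases smul_eq_zero.mp this with h | h
      · exact h
      · exact absurd h one_ne_zero
  -- transfer to the submodule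
  let w' : Option {x // x ∈ T} → riemannRochSpace (E + sumPlaces T) := fun o => ⟨w o, hwmem o⟩
  have hli' : LinearIndependent K w' := by
    apply LinearIndependent.of_comp (riemannRochSpace (E + sumPlaces T)).subtype
    exact hli
  have hcard := hli'.fintype_card_le_finrank
  have hc : Fintype.card (Option {x // x ∈ T}) = T.card + 1 := by
    rw [Fintype.card_option, Fintype.card_coe]
  rwa [hc] at hcard

/-- **One point at a time.** If `E ≥ 0` has degree `< g` and the upper Riemann bound holds with
`g`, then outside any finite set there is a place `Q` with `L(E + Q) = L(E)`. -/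
theorem exists_place_riemannRochSpace_eq (g : ℕ) (c : ℤ)
    (hfin : ∀ D : Divisor K F, Module.Finite K (riemannRochSpace D))
    (hupper : ∀ D : Divisor K F, c ≤ Divisor.degree D →
      (Module.finrank K (riemannRochSpace D) : ℤ) ≤ Divisor.degree D + 1 - g)
    (hdeg : ∀ v : Place K F, v.deg = 1)
    (hinf : (Set.univ : Set (Place K F)).Infinite)
    {E : Divisor K F} (hE : 0 ≤ E) (hEg : Divisor.degree E < g)
    (S : Set (Place K F)) (hS : S.Finite) :
    ∃ Q : Place K F, Q ∉ S ∧ E Q = 0 ∧
      riemannRochSpace (E + Finsupp.single Q 1) = riemannRochSpace E := by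
  classical
  by_contra hcon
  push Not at hcon
  -- bad set: all places outside `S ∪ supp E`
  have hbad : (S ∪ (E.support : Set (Place K F))).Finite := hS.union E.support.finite_toSet
  have hgood : ((Set.univ : Set (Place K F)) \ (S ∪ (E.support : Set (Place K F)))).Infinite :=
    hinf.sdiff hbad
  -- choose `s` with `deg E + s ≥ c`
  set s : ℕ := (c - Divisor.degree E).toNat with hs
  obtain ⟨T, hTsub, hTcard⟩ := hgood.exists_subset_card_eq s
  have hTS : ∀ x ∈ T, x ∉ S ∧ E x = 0 := by
    intro x hx
    have h := hTsub (Finset.mem_coe.mpr hx)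
    rw [Set.mem_sdiff, Set.mem_union, not_or] at h
    refine ⟨h.2.1, ?_⟩
    have := h.2.2
    rw [Finset.mem_coe, Finsupp.mem_support_iff, not_not] at this
    exact this
  -- for every `x ∈ T` pick `f x ∈ L(E + x) \ L(E)`
  have hex : ∀ x ∈ T, ∃ f : F, f ∈ riemannRochSpace (E + Finsupp.single x 1) ∧
      f ∉ riemannRochSpace E := by
    intro x hx
    have hne := hcon x (hTS x hx).1 (hTS x hx).2
    have hle : riemannRochSpace E ≤ riemannRochSpace (E + Finsupp.single x 1) := by
      apply riemannRochSpace_mono
      have : (0 : Divisor K F) ≤ Finsupp.single x 1 := by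
        rw [Finsupp.le_def]; intro y; rw [Finsupp.single_apply, Finsupp.zero_apply]
        split_ifs <;> norm_num
      have h2 := add_le_add (le_refl E) this
      rwa [add_zero] at h2
    by_contra hall
    push Not at hall
    exact hne (le_antisymm (fun f hf => hall f hf) hle)
  choose! f hf hf' using hex
  have hcard := card_succ_le_finrank hE T (fun x hx => (hTS x hx).2) (hfin _) f hf hf'
  have hdegT : Divisor.degree (E + sumPlaces T) = Divisor.degree E + s := by
    rw [map_add, degree_sumPlaces hdeg, hTcard]
  have hc : c ≤ Divisor.degree (E + sumPlaces T) := by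
    rw [hdegT, hs]
    have := Int.self_le_toNat (c - Divisor.degree E)
    omega
  have hup := hupper _ hc
  rw [hdegT] at hup
  have : ((T.card + 1 : ℕ) : ℤ) ≤ Divisor.degree E + s + 1 - g := by
    exact (Int.ofNat_le.mpr hcard).trans hup
  rw [hTcard] at this
  push_cast at this
  omega

/-- **(NS), finset form.** For every finite set `S` of places and every `i ≤ g` there is a finset
`T` of `i` places outside `S` with `l(∑ T) = 1`. -/
theorem exists_finset_nonspecial (g : ℕ) (c : ℤ)
    (hfin : ∀ D : Divisor K F, Module.Finite K (riemannRochSpace D))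
    (hupper : ∀ D : Divisor K F, c ≤ Divisor.degree D →
      (Module.finrank K (riemannRochSpace D) : ℤ) ≤ Divisor.degree D + 1 - g)
    (hdeg : ∀ v : Place K F, v.deg = 1)
    (h0 : Module.finrank K (riemannRochSpace (0 : Divisor K F)) = 1)
    (hinf : (Set.univ : Set (Place K F)).Infinite)
    (S : Set (Place K F)) (hS : S.Finite) (i : ℕ) (hi : i ≤ g) :
    ∃ T : Finset (Place K F), T.card = i ∧ (∀ x ∈ T, x ∉ S) ∧
      Module.finrank K (riemannRochSpace (sumPlaces T)) = 1 := by
  classical
  induction i with
  | zero =>
    exact ⟨∅, rfl, fun x hx => absurd hx (Finset.notMem_empty x), by rw [sumPlaces_empty, h0]⟩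
  | succ i ih =>
    obtain ⟨T, hTcard, hTS, hT1⟩ := ih (Nat.le_of_succ_le hi)
    have hEg : Divisor.degree (sumPlaces T) < g := by
      rw [degree_sumPlaces hdeg, hTcard]
      exact_mod_cast Nat.lt_of_succ_le hi
    obtain ⟨Q, hQS, hQE, hQeq⟩ := exists_place_riemannRochSpace_eq g c hfin hupper hdeg hinf
      (sumPlaces_nonneg T) hEg S hS
    have hQT : Q ∉ T := by
      intro hQT
      rw [sumPlaces_apply, if_pos hQT] at hQE
      exact one_ne_zero hQE
    refine ⟨insert Q T, ?_, ?_, ?_⟩
    · rw [Finset.card_insert_of_notMem hQT, hTcard]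
    · intro x hx
      rcases Finset.mem_insert.mp hx with rfl | hx
      · exact hQS
      · exact hTS x hx
    · rw [sumPlaces_insert hQT, hQeq, hT1]

/-- **(NS).** From the upper half of Riemann's theorem with the constant `g`, `l(0) = 1`, places of
degree one and infinitely many places: for every finite set `S` of places there are `g` DISTINCT
places outside `S` whose sum `E` satisfies `l(E) = 1`. -/
theorem exists_nonspecial (g : ℕ) (c : ℤ)
    (hfin : ∀ D : Divisor K F, Module.Finite K (riemannRochSpace D))
    (hupper : ∀ D : Divisor K F, c ≤ Divisor.degree D →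
      (Module.finrank K (riemannRochSpace D) : ℤ) ≤ Divisor.degree D + 1 - g)
    (hdeg : ∀ v : Place K F, v.deg = 1)
    (h0 : Module.finrank K (riemannRochSpace (0 : Divisor K F)) = 1)
    (hinf : (Set.univ : Set (Place K F)).Infinite)
    (S : Set (Place K F)) (hS : S.Finite) :
    ∃ Q : Fin g → Place K F, Function.Injective Q ∧ (∀ i, Q i ∉ S) ∧
      Module.finrank K (riemannRochSpace (∑ i, Finsupp.single (Q i) (1 : ℤ))) = 1 := by
  classical
  obtain ⟨T, hTcard, hTS, hT1⟩ :=
    exists_finset_nonspecial g c hfin hupper hdeg h0 hinf S hS g le_rfl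
  let e : Fin g ≃ {x // x ∈ T} := (T.equivFinOfCardEq hTcard).symm
  refine ⟨fun i => (e i).1, ?_, fun i => hTS _ (e i).2, ?_⟩
  · intro i j hij
    exact e.injective (Subtype.ext hij)
  · have hsum : ∑ i, Finsupp.single ((e i).1) (1 : ℤ) = sumPlaces T := by
      unfold sumPlaces
      rw [← Finset.sum_coe_sort T (fun x => Finsupp.single x (1 : ℤ))]
      exact Equiv.sum_comp e (fun x : {x // x ∈ T} => Finsupp.single x.1 (1 : ℤ))
    rw [hsum, hT1]

end Fermat.Agent.S18.H13

end
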