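import Mathlib
import Fermat.Agent.RR.H76_Riemann
import Fermat.Agent.S18.H13_NonSpecial

/-!
# S18 / ASSEMBLY glue (helper61): the Riemann genus `gR` as the interface between (GR) and FINAL

Everything here is abstract (`FFBase` of the RR bank, prelude `Place`/`Divisor`).

* `gR_nonneg`                 : `0 ≤ gR` as soon as `l(0) ≤ 1`;
* `exists_ne_zero_mem_of_gR_le_degree` : Riemann's inequality in the consumer form
                                `gR ≤ deg D → ∃ f ≠ 0, f ∈ L(D)`;
* `gR_le_of_forall_ell_le`    : if `B`, `B'` are divisors of the same positive degree on two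
                                function fields and `l(n B') ≤ l(n B)` for all `n`, then
                                `gR(F) ≤ gR(F')`  (this turns the output of CECH-GENUS into
                                `genus_le` without `H¹`, repartitions or `genusFF`);
* `exists_nonspecial_of_gR_le` : helper13's (NS) with `g := gR(F)` from Riemann's theorem on the
                                special fibre and `gR(F) ≤ gR(F')`.
-/

set_option autoImplicit false

noncomputable section

open AlgebraicCurve

namespace Fermat.Agent.S18.H61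

open Fermat.Agent.RR.H76

section One

variable {K F : Type*} [Field K] [Field F] [Algebra K F]

/-- `gR ≥ 1 - l(0)`; in particular `gR ≥ 0` when `l(0) ≤ 1`. -/
theorem one_sub_ell_zero_le_gR (h : FFBase K F) : 1 - (ell (0 : Divisor K F) : ℤ) ≤ h.gR := by
  have := h.riemann_inequality (0 : Divisor K F)
  rw [map_zero] at this
  linarith

theorem gR_nonneg (h : FFBase K F) (h0 : ell (0 : Divisor K F) ≤ 1) : 0 ≤ h.gR := by
  have h1 := one_sub_ell_zero_le_gR h
  have h2 : (ell (0 : Divisor K F) : ℤ) ≤ 1 := by exact_mod_cast h0
  linarith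

/-- Riemann's inequality in the form used by the final step. -/
theorem exists_ne_zero_mem_of_gR_le_degree (h : FFBase K F) (D : Divisor K F)
    (hD : h.gR ≤ Divisor.degree D) : ∃ f : F, f ≠ 0 ∧ f ∈ riemannRochSpace D := by
  have h1 := h.riemann_inequality D
  have h2 : 0 < ell D := by
    have : (0 : ℤ) < ell D := by linarith
    exact_mod_cast this
  exact FFBase.exists_ne_zero_of_ell_pos h2

end One

section Two

variable {K F : Type*} [Field K] [Field F] [Algebra K F]
variable {K' F' : Type*} [Field K'] [Field F'] [Algebra K' F']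

/-- **From lattices to genera.** If `B` on `F/K` and `B'` on `F'/K'` have the same positive
degree and `l(n B') ≤ l(n B)` for all `n`, then `gR(F/K) ≤ gR(F'/K')`. -/
theorem gR_le_of_forall_ell_le (h : FFBase K F) (h' : FFBase K' F')
    (B : Divisor K F) (B' : Divisor K' F')
    (hdeg : Divisor.degree B = Divisor.degree B') (hpos : 0 < Divisor.degree B)
    (hle : ∀ n : ℕ, ell (n • B') ≤ ell (n • B)) : h.gR ≤ h'.gR := by
  obtain ⟨c, hc⟩ := h.exists_riemann_degree_bound
  obtain ⟨c', hc'⟩ := h'.exists_riemann_degree_bound
  -- choose `n` with `n * deg B ≥ max c c'`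
  obtain ⟨n, hn⟩ : ∃ n : ℕ, max c c' ≤ (n : ℤ) * Divisor.degree B := by
    refine ⟨(max c c').toNat, ?_⟩
    have h1 : max c c' ≤ ((max c c').toNat : ℤ) := Int.self_le_toNat _
    have h2 : (0 : ℤ) ≤ ((max c c').toNat : ℤ) := Int.natCast_nonneg _
    nlinarith
  have hdn : Divisor.degree (n • B) = (n : ℤ) * Divisor.degree B := by
    rw [map_nsmul, nsmul_eq_mul]
  have hdn' : Divisor.degree (n • B') = (n : ℤ) * Divisor.degree B := by
    rw [map_nsmul, nsmul_eq_mul, hdeg]
  have e1 := hc (n • B) (by rw [hdn]; exact le_trans (le_max_left _ _) hn)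
  have e2 := hc' (n • B') (by rw [hdn']; exact le_trans (le_max_right _ _) hn)
  have e3 : (ell (n • B') : ℤ) ≤ ell (n • B) := by exact_mod_cast hle n
  rw [hdn] at e1
  rw [hdn'] at e2
  linarith

end Two

section NS

variable {K F : Type*} [Field K] [Field F] [Algebra K F]

/-- helper13's (NS) on a function field `F/K` satisfying Riemann's theorem with Riemann genus
`h.gR ≥ g`. -/
theorem exists_nonspecial_of_le_gR (h : FFBase K F) (g : ℕ) (hg : (g : ℤ) ≤ h.gR)
    (hdeg : ∀ v : Place K F, v.deg = 1)
    (h0 : ell (0 : Divisor K F) = 1)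
    (hinf : (Set.univ : Set (Place K F)).Infinite)
    (S : Set (Place K F)) (hS : S.Finite) :
    ∃ Q : Fin g → Place K F, Function.Injective Q ∧ (∀ i, Q i ∉ S) ∧
      ell (∑ i, Finsupp.single (Q i) (1 : ℤ)) = 1 := by
  obtain ⟨c, hc⟩ := h.exists_riemann_degree_bound
  refine Fermat.Agent.S18.H13.exists_nonspecial g c
    (fun D => h.finiteDimensional_riemannRochSpace D) ?_ hdeg h0 hinf S hS
  intro D hD
  have := hc D hD
  unfold ell at this
  linarith

end NS

end Fermat.Agent.S18.H61
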