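/-
S18 / CECH-GENUS (helper33): the "eventually" variant of helper61's
`H61.gR_le_of_forall_ell_le` (CECH-GENUS produces `l(n B') ≤ l(n B)` only for `n ≥ c0`).
-/
import Mathlib
import Fermat.Agent.S18.H61_GenusBridge

set_option autoImplicit false

namespace Fermat.Agent.S18.H33

open AlgebraicCurve Fermat.Agent.RR.H76

variable {K F : Type*} [Field K] [Field F] [Algebra K F]
variable {K' F' : Type*} [Field K'] [Field F'] [Algebra K' F']

/-- If `B` on `F/K` and `B'` on `F'/K'` have the same positive degree and `l(n B') ≤ l(n B)`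
for all `n ≥ n0`, then `gR(F/K) ≤ gR(F'/K')`. -/
theorem gR_le_of_eventually_ell_le (h : FFBase K F) (h' : FFBase K' F')
    (B : Divisor K F) (B' : Divisor K' F')
    (hdeg : Divisor.degree B = Divisor.degree B') (hpos : 0 < Divisor.degree B)
    (n0 : ℕ) (hle : ∀ n : ℕ, n0 ≤ n → ell (n • B') ≤ ell (n • B)) : h.gR ≤ h'.gR := by
  obtain ⟨c, hc⟩ := h.exists_riemann_degree_bound
  obtain ⟨c', hc'⟩ := h'.exists_riemann_degree_bound
  obtain ⟨n, hn0, hn⟩ : ∃ n : ℕ, n0 ≤ n ∧ max c c' ≤ (n : ℤ) * Divisor.degree B := by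
    refine ⟨n0 + (max c c').toNat, Nat.le_add_right _ _, ?_⟩
    have h1 : max c c' ≤ ((max c c').toNat : ℤ) := Int.self_le_toNat _
    have h2 : (0 : ℤ) ≤ ((max c c').toNat : ℤ) := Int.natCast_nonneg _
    have h3 : (0 : ℤ) ≤ (n0 : ℤ) := Int.natCast_nonneg _
    push_cast
    nlinarith
  have hdn : Divisor.degree (n • B) = (n : ℤ) * Divisor.degree B := by
    rw [map_nsmul, nsmul_eq_mul]
  have hdn' : Divisor.degree (n • B') = (n : ℤ) * Divisor.degree B := by
    rw [map_nsmul, nsmul_eq_mul, hdeg]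
  have e1 := hc (n • B) (by rw [hdn]; exact le_trans (le_max_left _ _) hn)
  have e2 := hc' (n • B') (by rw [hdn']; exact le_trans (le_max_right _ _) hn)
  have e3 : (ell (n • B') : ℤ) ≤ ell (n • B) := by exact_mod_cast hle n hn0
  rw [hdn] at e1
  rw [hdn'] at e2
  linarith

end Fermat.Agent.S18.H33
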