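/-
S18 / CECH-GENUS (helper33): Mathlib-only chart lemmas for the two integral closures
`B := integral closure of R[x]`, `B_oo := integral closure of R[1/x]` inside a field `F`.

* `exists_pow_mul_mem_adjoin`      : `s ∈ R[1/x] → ∃ a, ∀ a' ≥ a, x^a' s ∈ R[x]`
* `exists_pow_mul_isIntegral`      : `y` integral over `R[1/x]` ⟹ `x^a y` integral over `R[x]`  (hloc)
* `exists_inv_pow_mul_isIntegral`  : `b` integral over `R[x]` ⟹ `x⁻¹^c b` integral over `R[1/x]` (c0)
* `isIntegral_adjoin_of_tower`     : integral over `R[x]` ⟹ integral over `K[x]`               (hBint)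
-/
import Mathlib

set_option autoImplicit false

namespace Fermat.Agent.S18.H33

open Polynomial

variable (R : Type*) {F : Type*} [CommRing R] [Field F] [Algebra R F]

/-- `s ∈ R[1/x] → x^a' s ∈ R[x]` for all large `a'`. -/
theorem exists_pow_mul_mem_adjoin {x : F} (hx : x ≠ 0) {s : F}
    (hs : s ∈ Algebra.adjoin R {x⁻¹}) :
    ∃ a : ℕ, ∀ a' : ℕ, a ≤ a' → x ^ a' * s ∈ Algebra.adjoin R {x} := by
  have hxmem : x ∈ Algebra.adjoin R {x} := Algebra.subset_adjoin rfl
  induction hs using Algebra.adjoin_induction with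
  | mem y hy =>
    rw [Set.mem_singleton_iff] at hy
    subst hy
    refine ⟨1, fun a' ha' => ?_⟩
    obtain ⟨e, rfl⟩ := Nat.exists_eq_add_of_le ha'
    have : x ^ (1 + e) * x⁻¹ = x ^ e := by
      rw [pow_add, pow_one]; field_simp
    rw [this]
    exact Subalgebra.pow_mem _ hxmem e
  | algebraMap r =>
    exact ⟨0, fun a' _ => Subalgebra.mul_mem _ (Subalgebra.pow_mem _ hxmem a')
      (Subalgebra.algebraMap_mem _ r)⟩
  | add s t _ _ hs ht =>
    obtain ⟨a, ha⟩ := hs
    obtain ⟨b, hb⟩ := ht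
    refine ⟨max a b, fun a' ha' => ?_⟩
    rw [mul_add]
    exact Subalgebra.add_mem _ (ha a' (le_trans (le_max_left _ _) ha'))
      (hb a' (le_trans (le_max_right _ _) ha'))
  | mul s t _ _ hs ht =>
    obtain ⟨a, ha⟩ := hs
    obtain ⟨b, hb⟩ := ht
    refine ⟨a + b, fun a' ha' => ?_⟩
    obtain ⟨e, rfl⟩ := Nat.exists_eq_add_of_le ha'
    have : x ^ (a + b + e) * (s * t) = (x ^ a * s) * (x ^ (b + e) * t) := by
      rw [pow_add, pow_add, pow_add]; ring
    rw [this]
    exact Subalgebra.mul_mem _ (ha a le_rfl) (hb (b + e) (Nat.le_add_right _ _))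

/-- A monic polynomial over `F` all of whose coefficients lie in a subalgebra `S` and which
kills `z` witnesses integrality of `z` over `S`. -/
theorem isIntegral_of_monic_coeff_mem (S : Subalgebra R F) {z : F} (P : F[X]) (hP : P.Monic)
    (hcoeff : ∀ i, P.coeff i ∈ S) (hz : P.eval z = 0) : IsIntegral S z := by
  have hlifts : P ∈ Polynomial.lifts (algebraMap S F) := by
    rw [Polynomial.lifts_iff_coeff_lifts]
    intro i
    exact ⟨⟨P.coeff i, hcoeff i⟩, rfl⟩
  obtain ⟨q, hq, -, hqm⟩ := Polynomial.lifts_and_natDegree_eq_and_monic hlifts hP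
  refine ⟨q, hqm, ?_⟩
  rw [← Polynomial.eval_map, hq, hz]

/-- **(hloc)**: if `y` is integral over `R[1/x]` then `x^a y` is integral over `R[x]` for
some `a`. -/
theorem exists_pow_mul_isIntegral {x : F} (hx : x ≠ 0) {y : F}
    (hy : IsIntegral (Algebra.adjoin R {x⁻¹}) y) :
    ∃ a : ℕ, IsIntegral (Algebra.adjoin R {x}) (x ^ a * y) := by
  classical
  obtain ⟨p, hpm, hp⟩ := hy
  set P : F[X] := p.map (algebraMap (Algebra.adjoin R {x⁻¹}) F) with hPdef
  have hPm : P.Monic := hpm.map _
  have hPy : P.eval y = 0 := by rw [hPdef, Polynomial.eval_map]; exact hp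
  have hPc : ∀ i, P.coeff i ∈ Algebra.adjoin R {x⁻¹} := fun i => by
    rw [hPdef, Polynomial.coeff_map]; exact (p.coeff i).2
  -- a uniform exponent
  choose e he using fun i => exists_pow_mul_mem_adjoin R hx (hPc i)
  set a : ℕ := (Finset.range P.natDegree).sup e with ha
  refine ⟨a, ?_⟩
  apply isIntegral_of_monic_coeff_mem R _ (Polynomial.scaleRoots P (x ^ a))
    ((Polynomial.monic_scaleRoots_iff _).mpr hPm)
  · intro i
    rw [Polynomial.coeff_scaleRoots]
    rcases lt_trichotomy i P.natDegree with hi | hi | hi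
    · -- `i < natDegree`
      have h1 : e i ≤ a * (P.natDegree - i) := by
        have : e i ≤ a := Finset.le_sup (f := e) (Finset.mem_range.mpr hi)
        have h2 : 1 ≤ P.natDegree - i := by omega
        calc e i ≤ a := this
          _ = a * 1 := (mul_one a).symm
          _ ≤ a * (P.natDegree - i) := Nat.mul_le_mul_left a h2
      have := he i (a * (P.natDegree - i)) h1
      rwa [mul_comm, ← pow_mul]
    · rw [hi, Nat.sub_self, pow_zero, mul_one, ← Polynomial.leadingCoeff, hPm.leadingCoeff]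
      exact Subalgebra.one_mem _
    · rw [Polynomial.coeff_eq_zero_of_natDegree_lt hi, zero_mul]
      exact Subalgebra.zero_mem _
  · have := Polynomial.scaleRoots_eval₂_mul (p := P) (f := RingHom.id F) (r := y) (s := x ^ a)
    simp only [Polynomial.eval₂_id, RingHom.id_apply] at this
    rw [this, hPy, mul_zero]

/-- **(c0)**: if `b` is integral over `R[x]` then `x⁻¹^c b` is integral over `R[1/x]` for
some `c`. -/
theorem exists_inv_pow_mul_isIntegral {x : F} (hx : x ≠ 0) {b : F}
    (hb : IsIntegral (Algebra.adjoin R {x}) b) :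
    ∃ c : ℕ, IsIntegral (Algebra.adjoin R {x⁻¹}) (x⁻¹ ^ c * b) := by
  have hb' : IsIntegral (Algebra.adjoin R {(x⁻¹)⁻¹}) b := by rwa [inv_inv]
  exact exists_pow_mul_isIntegral R (inv_ne_zero hx) hb'

/-- Monotonicity of the exponent in `exists_inv_pow_mul_isIntegral`. -/
theorem isIntegral_inv_pow_mul_of_le {x : F} {b : F} {c c' : ℕ} (hcc : c ≤ c')
    (hb : IsIntegral (Algebra.adjoin R {x⁻¹}) (x⁻¹ ^ c * b)) :
    IsIntegral (Algebra.adjoin R {x⁻¹}) (x⁻¹ ^ c' * b) := by
  obtain ⟨e, rfl⟩ := Nat.exists_eq_add_of_le hcc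
  have : x⁻¹ ^ (c + e) * b = x⁻¹ ^ e * (x⁻¹ ^ c * b) := by rw [pow_add]; ring
  rw [this]
  have hxi : IsIntegral (Algebra.adjoin R {x⁻¹}) (x⁻¹ ^ e) := by
    have : x⁻¹ ^ e = algebraMap (Algebra.adjoin R {x⁻¹}) F
        (⟨x⁻¹, Algebra.subset_adjoin rfl⟩ ^ e) := by simp
    rw [this]
    exact isIntegral_algebraMap
  exact hxi.mul hb

/-- Uniform `c0` for finitely many elements. -/
theorem exists_uniform_inv_pow_mul_isIntegral {x : F} (hx : x ≠ 0) {ι : Type*} [Fintype ι]
    (β : ι → F) (hβ : ∀ i, IsIntegral (Algebra.adjoin R {x}) (β i)) :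
    ∃ c0 : ℕ, ∀ i, IsIntegral (Algebra.adjoin R {x⁻¹}) (x⁻¹ ^ c0 * β i) := by
  classical
  choose c hc using fun i => exists_inv_pow_mul_isIntegral R hx (hβ i)
  exact ⟨Finset.univ.sup c, fun i =>
    isIntegral_inv_pow_mul_of_le R (Finset.le_sup (f := c) (Finset.mem_univ i)) (hc i)⟩

/-- **(hBint)**: integrality over `R[x]` implies integrality over `K[x]`. -/
theorem isIntegral_adjoin_of_tower (K : Type*) [Field K] [Algebra R K] [Algebra K F]
    [IsScalarTower R K F] {x b : F} (hb : IsIntegral (Algebra.adjoin R {x}) b) :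
    IsIntegral (Algebra.adjoin K {x}) b := by
  obtain ⟨p, hpm, hp⟩ := hb
  have hle : ∀ s ∈ Algebra.adjoin R {x}, s ∈ Algebra.adjoin K {x} := by
    intro s hs
    induction hs using Algebra.adjoin_induction with
    | mem y hy => exact Algebra.subset_adjoin hy
    | algebraMap r =>
      rw [IsScalarTower.algebraMap_apply R K F]
      exact Subalgebra.algebraMap_mem _ _
    | add s t _ _ hs ht => exact Subalgebra.add_mem _ hs ht
    | mul s t _ _ hs ht => exact Subalgebra.mul_mem _ hs ht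
  let φ : Algebra.adjoin R {x} →+* Algebra.adjoin K {x} :=
    ((Algebra.adjoin R {x}).val : _ →+* F).codRestrict (Algebra.adjoin K {x}).toSubring
      fun s => hle s s.2
  refine ⟨p.map φ, hpm.map φ, ?_⟩
  rw [Polynomial.eval₂_map]
  exact hp

end Fermat.Agent.S18.H33
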