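/-
S18 / CECH-GENUS (helper33), part (CG4)+(CG5): the dictionary between Riemann-Roch spaces
`L(n (x)_oo)` in the prelude vocabulary and integral closures of `K[x]`, `K[1/x]`;
the final arithmetic `g ≤ gbar` from Riemann's theorem on both fibres.
-/
import Mathlib
import Fermat.Prelude.Def_AlgebraicCurve_Repartitions

set_option autoImplicit false

namespace Fermat.Agent.S18.H33

open AlgebraicCurve

variable {K F : Type*} [Field K] [Field F] [Algebra K F]

/-- The valuation ring of a place, as a `K`-subalgebra of `F`. -/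
def placeSubalgebra (v : Place K F) : Subalgebra K F :=
  { v.toValuationSubring.toSubring with
    algebraMap_mem' := v.algebraMap_mem' }

@[simp]
theorem mem_placeSubalgebra {v : Place K F} {f : F} :
    f ∈ placeSubalgebra v ↔ f ∈ v.toValuationSubring := Iff.rfl

/-- An element integral over a subalgebra contained in a valuation subring lies in it. -/
theorem mem_valuationSubring_of_isIntegral (O : ValuationSubring F) (S : Subalgebra K F)
    (hS : ∀ s ∈ S, s ∈ O) {f : F} (hf : IsIntegral S f) : f ∈ O := by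
  obtain ⟨p, hpm, hp⟩ := hf
  let φ : S →+* O := (S.val : S →+* F).codRestrict O.toSubring fun s => hS s s.2
  have hint : IsIntegral O f := by
    refine ⟨p.map φ, hpm.map φ, ?_⟩
    rw [Polynomial.eval₂_map]
    exact hp
  obtain ⟨y, hy⟩ := (IsIntegrallyClosed.isIntegral_iff (R := O) (K := F)).mp hint
  rw [← hy]
  exact y.2

theorem mem_place_iff_ord_nonneg (v : Place K F) {f : F} (hf : f ≠ 0) :
    f ∈ v.toValuationSubring ↔ 0 ≤ v.ord f := by
  constructor
  · intro h
    have := (v.adicValuation_le_one_iff).mp (v.adicValuation_le_one_of_mem h)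
    exact this.resolve_left hf
  · intro h
    by_contra hmem
    have hinv : f⁻¹ ∈ v.toValuationSubring :=
      (v.toValuationSubring.mem_or_inv_mem f).resolve_left hmem
    have h1 : 0 ≤ v.ord f⁻¹ :=
      ((v.adicValuation_le_one_iff).mp (v.adicValuation_le_one_of_mem hinv)).resolve_left
        (inv_ne_zero hf)
    rw [v.ord_inv] at h1
    have h0 : v.ord f = 0 := le_antisymm (by linarith) h
    -- then `f⁻¹` is a unit of the valuation ring, so `f` lies in it
    have hval : v.adicValuation ((⟨f⁻¹, hinv⟩ : v.toValuationSubring) : F) = 1 := by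
      have hne : v.adicValuation f⁻¹ ≠ 0 := v.adicValuation_ne_zero (inv_ne_zero hf)
      have hlog : WithZero.log (v.adicValuation f⁻¹) = 0 := by
        have : v.ord f⁻¹ = 0 := by rw [v.ord_inv, h0, neg_zero]
        unfold Place.ord at this
        linarith
      rw [← WithZero.exp_log hne, hlog, WithZero.exp_zero]
    have hunit : IsUnit (⟨f⁻¹, hinv⟩ : v.toValuationSubring) :=
      (v.adicValuation_coe_eq_one_iff _).mp hval
    obtain ⟨u, hu⟩ := hunit
    apply hmem
    have : ((u⁻¹ : v.toValuationSubringˣ) : v.toValuationSubring) * ⟨f⁻¹, hinv⟩ = 1 := by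
      rw [← hu]; simp
    have h2 := congrArg (Subtype.val) this
    simp only [MulMemClass.coe_mul, OneMemClass.coe_one] at h2
    have h3 : (((u⁻¹ : v.toValuationSubringˣ) : v.toValuationSubring) : F) = f := by
      field_simp at h2
      exact h2
    rw [← h3]
    exact ((u⁻¹ : v.toValuationSubringˣ) : v.toValuationSubring).2

/-- `D` is the pole divisor of `x`. -/
def IsPoleDivisor (x : F) (D : Divisor K F) : Prop :=
  ∀ v : Place K F, D v = max 0 (-v.ord x)

/-- **(CG4a)** (easy direction): if `f` is integral over `K[x]` and `f / x^n` is integral over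
`K[1/x]`, then `f ∈ L(n (x)_oo)`. -/
theorem mem_riemannRochSpace_of_isIntegral {x : F} (hx : x ≠ 0) {D : Divisor K F}
    (hD : IsPoleDivisor x D) (n : ℕ) {f : F}
    (hf : IsIntegral (Algebra.adjoin K {x}) f)
    (hf' : IsIntegral (Algebra.adjoin K {x⁻¹}) (f / x ^ n)) :
    f ∈ riemannRochSpace (n • D) := by
  rw [mem_riemannRochSpace_iff]
  intro v
  by_cases hf0 : f = 0
  · exact Or.inl hf0
  right
  have hDv : (n • D) v = n * D v := by
    rw [Finsupp.smul_apply, nsmul_eq_mul]
  rw [hDv, hD v]
  by_cases hxv : x ∈ v.toValuationSubring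
  · have hle : Algebra.adjoin K {x} ≤ placeSubalgebra v :=
      Algebra.adjoin_le (Set.singleton_subset_iff.mpr hxv)
    have hfv : f ∈ v.toValuationSubring :=
      mem_valuationSubring_of_isIntegral _ _ (fun s hs => hle hs) hf
    have h0 : 0 ≤ v.ord f := (mem_place_iff_ord_nonneg v hf0).mp hfv
    have : (0 : ℤ) ≤ (n : ℤ) * max 0 (-v.ord x) :=
      mul_nonneg (Int.natCast_nonneg n) (le_max_left _ _)
    linarith
  · have hxinv : x⁻¹ ∈ v.toValuationSubring :=
      (v.toValuationSubring.mem_or_inv_mem x).resolve_left hxv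
    have hle : Algebra.adjoin K {x⁻¹} ≤ placeSubalgebra v :=
      Algebra.adjoin_le (Set.singleton_subset_iff.mpr hxinv)
    have hgv : f / x ^ n ∈ v.toValuationSubring :=
      mem_valuationSubring_of_isIntegral _ _ (fun s hs => hle hs) hf'
    have hg0 : f / x ^ n ≠ 0 := div_ne_zero hf0 (pow_ne_zero n hx)
    have h0 : 0 ≤ v.ord (f / x ^ n) := (mem_place_iff_ord_nonneg v hg0).mp hgv
    rw [div_eq_mul_inv, v.ord_mul hf0 (inv_ne_zero (pow_ne_zero n hx)), v.ord_inv,
      ← zpow_natCast, v.ord_zpow] at h0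
    have h1 : (n : ℤ) * (-v.ord x) ≤ (n : ℤ) * max 0 (-v.ord x) :=
      mul_le_mul_of_nonneg_left (le_max_right _ _) (Int.natCast_nonneg n)
    linarith

/-- **(CG4b)** (converse, needs that every valuation ring of `F/K` is a place): if
`f ∈ L(n (x)_oo)` then `f` is integral over `K[x]` and `f / x^n` is integral over `K[1/x]`. -/
theorem isIntegral_of_mem_riemannRochSpace
    (hplace : ∀ O : ValuationSubring F, (∀ a : K, algebraMap K F a ∈ O) → O ≠ ⊤ →
      IsPrincipalIdealRing O)
    {x : F} (hx : x ≠ 0) {D : Divisor K F}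
    (hD : IsPoleDivisor x D) (n : ℕ) {f : F} (hf : f ∈ riemannRochSpace (n • D)) :
    IsIntegral (Algebra.adjoin K {x}) f ∧ IsIntegral (Algebra.adjoin K {x⁻¹}) (f / x ^ n) := by
  rw [mem_riemannRochSpace_iff] at hf
  have hDv : ∀ v : Place K F, (n • D) v = n * max 0 (-v.ord x) := fun v => by
    rw [Finsupp.smul_apply, nsmul_eq_mul, hD v]
  -- general principle
  have key : ∀ (S : Subalgebra K F) (g : F),
      (∀ v : Place K F, (∀ s ∈ S, s ∈ v.toValuationSubring) → g ∈ v.toValuationSubring) →
      IsIntegral S g := by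
    intro S g hg
    have hmem : g ∈ (integralClosure (Subring.closure (S : Set F)) F).toSubring := by
      rw [← iInf_valuationSubring_superset]
      rw [Subring.mem_iInf]
      rintro ⟨V, hV⟩
      by_cases htop : V = ⊤
      · show g ∈ V
        rw [htop]; trivial
      have hK : ∀ a : K, algebraMap K F a ∈ V := fun a => hV (S.algebraMap_mem a)
      exact hg ⟨V, hK, htop, hplace V hK htop⟩ fun s hs => hV hs
    have hcl : Subring.closure (S : Set F) = S.toSubring := Subring.closure_eq S.toSubring
    obtain ⟨p, hpm, hp⟩ := hmem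
    -- transport the monic polynomial along the identification of the two subrings
    let φ : Subring.closure (S : Set F) →+* S :=
      (Subring.subtype _).codRestrict S.toSubring fun s => by
        exact hcl.le s.2
    refine ⟨p.map φ, hpm.map φ, ?_⟩
    rw [Polynomial.eval₂_map]
    exact hp
  constructor
  · apply key
    intro v hv
    by_cases hf0 : f = 0
    · rw [hf0]; exact v.toValuationSubring.zero_mem
    have hxv : x ∈ v.toValuationSubring := hv x (Algebra.subset_adjoin rfl)
    have hox : 0 ≤ v.ord x := (mem_place_iff_ord_nonneg v hx).mp hxv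
    have := (hf v).resolve_left hf0
    rw [hDv, max_eq_left (by linarith), mul_zero, neg_zero] at this
    exact (mem_place_iff_ord_nonneg v hf0).mpr this
  · apply key
    intro v hv
    by_cases hf0 : f = 0
    · rw [hf0, zero_div]; exact v.toValuationSubring.zero_mem
    have hxv : x⁻¹ ∈ v.toValuationSubring := hv x⁻¹ (Algebra.subset_adjoin rfl)
    have hox : 0 ≤ v.ord x⁻¹ := (mem_place_iff_ord_nonneg v (inv_ne_zero hx)).mp hxv
    rw [v.ord_inv] at hox
    have h1 := (hf v).resolve_left hf0
    rw [hDv, max_eq_right (by linarith)] at h1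
    have hg0 : f / x ^ n ≠ 0 := div_ne_zero hf0 (pow_ne_zero n hx)
    rw [mem_place_iff_ord_nonneg v hg0, div_eq_mul_inv,
      v.ord_mul hf0 (inv_ne_zero (pow_ne_zero n hx)), v.ord_inv, ← zpow_natCast, v.ord_zpow]
    linarith

/-- **(CG5)** the final arithmetic: Riemann's theorem on both fibres, equal positive degrees of the
pole divisors and `l_k(n Dbar) ≤ l_K(n D)` for all large `n` give `g ≤ gbar`. -/
theorem genus_le_of_riemann {K' F' : Type*} [Field K'] [Field F'] [Algebra K' F']
    (g gbar : ℤ)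
    (hR : ∃ c : ℤ, ∀ D : Divisor K F, c ≤ Divisor.degree D →
      (Module.finrank K (riemannRochSpace D) : ℤ) = Divisor.degree D + 1 - g)
    (hRbar : ∃ c : ℤ, ∀ D : Divisor K' F', c ≤ Divisor.degree D →
      (Module.finrank K' (riemannRochSpace D) : ℤ) = Divisor.degree D + 1 - gbar)
    (D : Divisor K F) (Dbar : Divisor K' F')
    (hdeg : Divisor.degree D = Divisor.degree Dbar) (hpos : 0 < Divisor.degree D)
    (hle : ∃ n0 : ℕ, ∀ n : ℕ, n0 ≤ n →
      Module.finrank K' (riemannRochSpace (n • Dbar)) ≤ Module.finrank K (riemannRochSpace (n • D))) :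
    g ≤ gbar := by
  obtain ⟨c, hc⟩ := hR
  obtain ⟨c', hc'⟩ := hRbar
  obtain ⟨n0, hn0⟩ := hle
  -- choose `n` large
  set d := Divisor.degree D with hd
  obtain ⟨n, hn1, hn2, hn3⟩ : ∃ n : ℕ, n0 ≤ n ∧ c ≤ n * d ∧ c' ≤ n * d := by
    refine ⟨n0 + c.toNat + c'.toNat, by omega, ?_, ?_⟩
    · have h1 : c ≤ (c.toNat : ℤ) := Int.self_le_toNat c
      have h2 : ((n0 + c.toNat + c'.toNat : ℕ) : ℤ) * 1 ≤ ((n0 + c.toNat + c'.toNat : ℕ) : ℤ) * d :=
        mul_le_mul_of_nonneg_left (by omega) (Int.natCast_nonneg _)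
      push_cast at h2 ⊢
      nlinarith
    · have h1 : c' ≤ (c'.toNat : ℤ) := Int.self_le_toNat c'
      have h2 : ((n0 + c.toNat + c'.toNat : ℕ) : ℤ) * 1 ≤ ((n0 + c.toNat + c'.toNat : ℕ) : ℤ) * d :=
        mul_le_mul_of_nonneg_left (by omega) (Int.natCast_nonneg _)
      push_cast at h2 ⊢
      nlinarith
  have hdegn : Divisor.degree (n • D) = n * d := by rw [map_nsmul, nsmul_eq_mul]
  have hdegn' : Divisor.degree (n • Dbar) = n * d := by rw [map_nsmul, nsmul_eq_mul, ← hdeg]
  have e1 := hc (n • D) (by rw [hdegn]; exact hn2)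
  have e2 := hc' (n • Dbar) (by rw [hdegn']; exact hn3)
  have e3 : (Module.finrank K' (riemannRochSpace (n • Dbar)) : ℤ)
      ≤ Module.finrank K (riemannRochSpace (n • D)) := by exact_mod_cast hn0 n hn1
  rw [e1, e2, hdegn, hdegn'] at e3
  linarith

end Fermat.Agent.S18.H33
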