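/-
S18 / CECH-GENUS (helper33).  Mathlib-only abstract core.

* `mem_splitModule_of_mem`  (CG1, Laurent split):  `B[1/j] = B + j^n B_oo` for `n ≥ c0`, when `B` is
  generated as a module over `R[j]` by finitely many `β i` with `j⁻¹ ^ c0 * β i ∈ B_oo`.
* `exists_lift_of_saturated` (CG2): if moreover `B` is saturated in the (Gauss) valuation ring `O`
  with respect to the uniformiser `ϖ`, then every element of `red B ∩ (red j)^n red B_oo`
  is the reduction of an element of `B ∩ j^n B_oo`.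
-/
import Mathlib

set_option autoImplicit false

namespace Fermat.Agent.S18.H33

open Polynomial

variable {R F : Type*} [CommRing R] [Field F] [Algebra R F]

/-- The `R`-submodule `B + j^n B_oo` of `F`. -/
def splitModule (B Binf : Subalgebra R F) (j : F) (n : ℕ) : Submodule R F :=
  Subalgebra.toSubmodule B ⊔ (Subalgebra.toSubmodule Binf).map (LinearMap.mulLeft R (j ^ n))

theorem mem_splitModule {B Binf : Subalgebra R F} {j : F} {n : ℕ} {y : F} :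
    y ∈ splitModule B Binf j n ↔ ∃ x1 ∈ B, ∃ x2 ∈ Binf, y = x1 + j ^ n * x2 := by
  unfold splitModule
  rw [Submodule.mem_sup]
  constructor
  · rintro ⟨x1, hx1, z, hz, rfl⟩
    rw [Submodule.mem_map] at hz
    obtain ⟨x2, hx2, rfl⟩ := hz
    exact ⟨x1, hx1, x2, hx2, rfl⟩
  · rintro ⟨x1, hx1, x2, hx2, rfl⟩
    exact ⟨x1, hx1, j ^ n * x2, Submodule.mem_map.mpr ⟨x2, hx2, rfl⟩, rfl⟩

theorem mem_splitModule_of_mem_left {B Binf : Subalgebra R F} {j : F} {n : ℕ} {y : F}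
    (hy : y ∈ B) : y ∈ splitModule B Binf j n :=
  mem_splitModule.mpr ⟨y, hy, 0, Binf.zero_mem, by simp⟩

theorem mem_splitModule_of_mem_right {B Binf : Subalgebra R F} {j : F} {n : ℕ} {y : F}
    (hy : y ∈ Binf) : j ^ n * y ∈ splitModule B Binf j n :=
  mem_splitModule.mpr ⟨0, B.zero_mem, y, hy, by simp⟩

/-- Monomial case of the Laurent split. -/
theorem monomial_mem_splitModule (B Binf : Subalgebra R F) {j : F} (hj : j ≠ 0) (hjB : j ∈ B)
    (hjinv : j⁻¹ ∈ Binf) {β : F} (hβB : β ∈ B) {c0 : ℕ} (hc : j⁻¹ ^ c0 * β ∈ Binf)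
    {n : ℕ} (hn : c0 ≤ n) (a d : ℕ) :
    j⁻¹ ^ a * (j ^ d * β) ∈ splitModule B Binf j n := by
  rcases le_or_gt a d with had | had
  · -- nonnegative power of `j`
    apply mem_splitModule_of_mem_left
    have : j⁻¹ ^ a * (j ^ d * β) = j ^ (d - a) * β := by
      obtain ⟨e, rfl⟩ := Nat.exists_eq_add_of_le had
      rw [Nat.add_sub_cancel_left, pow_add, inv_pow]
      field_simp
    rw [this]
    exact B.mul_mem (B.pow_mem hjB _) hβB
  · -- negative power of `j`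
    obtain ⟨e, rfl⟩ := Nat.exists_eq_add_of_lt had
    have h1 : j⁻¹ ^ (d + e + 1) * (j ^ d * β)
        = j ^ n * (j⁻¹ ^ (e + 1 + (n - c0)) * (j⁻¹ ^ c0 * β)) := by
      obtain ⟨m, rfl⟩ := Nat.exists_eq_add_of_le hn
      rw [Nat.add_sub_cancel_left]
      simp only [inv_pow, pow_add, pow_one]
      field_simp
    rw [h1]
    apply mem_splitModule_of_mem_right
    exact Binf.mul_mem (Binf.pow_mem hjinv _) hc

/-- **(CG1) Laurent split**: if `B = ∑ R[j] β i` and `j⁻¹ ^ c0 * β i ∈ B_oo`, then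
`j⁻¹ ^ a * b ∈ B + j ^ n * B_oo` for all `b ∈ B`, all `a` and all `n ≥ c0`. -/
theorem mem_splitModule_of_mem (B Binf : Subalgebra R F) {j : F} (hj : j ≠ 0) (hjB : j ∈ B)
    (hjinv : j⁻¹ ∈ Binf) {ι : Type*} [Fintype ι] (β : ι → F) (hβmem : ∀ i, β i ∈ B)
    (hβ : ∀ b ∈ B, ∃ p : ι → R[X], b = ∑ i, aeval j (p i) * β i)
    {c0 : ℕ} (hc : ∀ i, j⁻¹ ^ c0 * β i ∈ Binf) {n : ℕ} (hn : c0 ≤ n) (a : ℕ) {b : F}
    (hb : b ∈ B) : j⁻¹ ^ a * b ∈ splitModule B Binf j n := by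
  obtain ⟨p, rfl⟩ := hβ b hb
  rw [Finset.mul_sum]
  refine Submodule.sum_mem _ fun i _ => ?_
  rw [aeval_eq_sum_range, Finset.sum_mul, Finset.mul_sum]
  refine Submodule.sum_mem _ fun d _ => ?_
  have : j⁻¹ ^ a * ((p i).coeff d • j ^ d * β i) = (p i).coeff d • (j⁻¹ ^ a * (j ^ d * β i)) := by
    rw [smul_mul_assoc, mul_smul_comm]
  rw [this]
  exact Submodule.smul_mem _ _
    (monomial_mem_splitModule B Binf hj hjB hjinv (hβmem i) (hc i) hn a d)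

/-- Existential form of (CG1). -/
theorem laurent_split (B Binf : Subalgebra R F) {j : F} (hj : j ≠ 0) (hjB : j ∈ B)
    (hjinv : j⁻¹ ∈ Binf) {ι : Type*} [Fintype ι] (β : ι → F) (hβmem : ∀ i, β i ∈ B)
    (hβ : ∀ b ∈ B, ∃ p : ι → R[X], b = ∑ i, aeval j (p i) * β i)
    {c0 : ℕ} (hc : ∀ i, j⁻¹ ^ c0 * β i ∈ Binf) {n : ℕ} (hn : c0 ≤ n) (a : ℕ) {b : F}
    (hb : b ∈ B) : ∃ x1 ∈ B, ∃ x2 ∈ Binf, j⁻¹ ^ a * b = x1 + j ^ n * x2 :=
  mem_splitModule.mp (mem_splitModule_of_mem B Binf hj hjB hjinv β hβmem hβ hc hn a hb)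

/-- **(CG2) lifting from saturation**.  `O` is a subring of `F` (the Gauss valuation ring),
`red : O →+* Fk` a ring hom whose kernel is `ϖ O`, `B, B_oo ⊆ O`, `B` saturated
(`x ∈ O`, `ϖ x ∈ B` imply `x ∈ B`), `B_oo ⊆ B[1/j]`, and `B[1/j] = B + j^n B_oo` (e.g. from `(CG1)`).
Then every element of `red B ∩ (red j)^n red B_oo` is the reduction of an element of
`B ∩ j^n B_oo`. -/
theorem exists_lift_of_saturated {Fk : Type*} [CommRing Fk]
    (O : Subring F) (ϖ : R) (red : O →+* Fk)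
    (hker : ∀ x : O, red x = 0 ↔ ∃ y : O, (x : F) = algebraMap R F ϖ * y)
    (B Binf : Subalgebra R F) (hBO : ∀ x ∈ B, x ∈ O) (hBinfO : ∀ x ∈ Binf, x ∈ O)
    (hsat : ∀ x ∈ O, algebraMap R F ϖ * x ∈ B → x ∈ B)
    {j : F} (hj : j ≠ 0) (hjB : j ∈ B)
    (hloc : ∀ y ∈ Binf, ∃ a : ℕ, j ^ a * y ∈ B)
    {n : ℕ} (hsplit : ∀ (a : ℕ) (b : F), b ∈ B → j⁻¹ ^ a * b ∈ splitModule B Binf j n)
    {b b' : F} (hb : b ∈ B) (hb' : b' ∈ Binf)
    (hred : red ⟨b, hBO b hb⟩ = red ⟨j, hBO j hjB⟩ ^ n * red ⟨b', hBinfO b' hb'⟩) :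
    ∃ (f : F) (hf : f ∈ B), j⁻¹ ^ n * f ∈ Binf ∧ red ⟨f, hBO f hf⟩ = red ⟨b, hBO b hb⟩ := by
  set π : F := algebraMap R F ϖ with hπ
  have hπB : ∀ x ∈ B, π * x ∈ B := fun x hx => by
    rw [hπ, ← Algebra.smul_def]; exact B.smul_mem hx ϖ
  have hπBinf : ∀ x ∈ Binf, π * x ∈ Binf := fun x hx => by
    rw [hπ, ← Algebra.smul_def]; exact Binf.smul_mem hx ϖ
  -- the difference lies in the kernel of `red`
  have hjO : j ∈ O := hBO j hjB
  have hx0O : b - j ^ n * b' ∈ O :=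
    O.sub_mem (hBO b hb) (O.mul_mem (O.pow_mem hjO n) (hBinfO b' hb'))
  have hx0 : red ⟨b - j ^ n * b', hx0O⟩ = 0 := by
    have : (⟨b - j ^ n * b', hx0O⟩ : O)
        = ⟨b, hBO b hb⟩ - ⟨j, hjO⟩ ^ n * ⟨b', hBinfO b' hb'⟩ := by
      ext; simp
    rw [this, map_sub, map_mul, map_pow, hred, sub_self]
  obtain ⟨x, hx⟩ := (hker _).mp hx0
  have hx' : b - j ^ n * b' = π * (x : F) := hx
  -- `j^a x ∈ B` by saturation
  obtain ⟨a, ha⟩ := hloc b' hb'
  have hjax : j ^ a * (x : F) ∈ B := by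
    apply hsat _ (O.mul_mem (O.pow_mem hjO a) x.2)
    have : π * (j ^ a * (x : F)) = j ^ a * b - j ^ n * (j ^ a * b') := by
      rw [mul_left_comm, ← hx']; ring
    rw [this]
    exact B.sub_mem (B.mul_mem (B.pow_mem hjB a) hb) (B.mul_mem (B.pow_mem hjB n) ha)
  have hxsplit : (x : F) ∈ splitModule B Binf j n := by
    have := hsplit a _ hjax
    rwa [inv_pow, ← mul_assoc, inv_mul_cancel₀ (pow_ne_zero a hj), one_mul] at this
  obtain ⟨x1, hx1, x2, hx2, hx12⟩ := mem_splitModule.mp hxsplit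
  refine ⟨b - π * x1, B.sub_mem hb (hπB x1 hx1), ?_, ?_⟩
  · have : j⁻¹ ^ n * (b - π * x1) = b' + π * x2 := by
      have hb_eq : b = j ^ n * b' + π * (x1 + j ^ n * x2) := by
        rw [← hx12, ← hx']; ring
      rw [hb_eq, inv_pow]
      field_simp
      ring
    rw [this]
    exact Binf.add_mem hb' (hπBinf x2 hx2)
  · have hπx1O : π * x1 ∈ O := hBO _ (hπB x1 hx1)
    have h0 : red ⟨π * x1, hπx1O⟩ = 0 :=
      (hker _).mpr ⟨⟨x1, hBO x1 hx1⟩, rfl⟩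
    have : (⟨b - π * x1, hBO _ (B.sub_mem hb (hπB x1 hx1))⟩ : O)
        = ⟨b, hBO b hb⟩ - ⟨π * x1, hπx1O⟩ := by
      ext; simp
    rw [this, map_sub, h0, sub_zero]

end Fermat.Agent.S18.H33
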