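/-
S18 / CECH-GENUS (helper33), part (CG3'): abstract independence lifting for a valuation ring
`O` of a field `F` lying over a valuation ring `A` of `L`.
-/
import Mathlib

set_option autoImplicit false

namespace Fermat.Agent.S18.H33

/-- **(CG3')**: let `A` be a valuation ring of `L`, `O` a subring of an `L`-algebra `F` containing
the image of `A`, and `res : O →+* Fk`, `π : A →+* k` compatible ring homs (`Fk` a `k`-algebra).
If `f i ∈ O` have `k`-linearly independent residues, then the `f i` are `L`-linearly independent.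
(No discreteness, no completeness.) -/
theorem linearIndependent_of_res {L F : Type*} [Field L] [Field F] [Algebra L F]
    (A : ValuationSubring L) (O : Subring F) (hAO : ∀ a : A, algebraMap L F (a : L) ∈ O)
    {k Fk : Type*} [Field k] [CommRing Fk] [Algebra k Fk] (π : A →+* k) (res : O →+* Fk)
    (hcompat : ∀ a : A, res ⟨algebraMap L F (a : L), hAO a⟩ = algebraMap k Fk (π a))
    {ι : Type*} (f : ι → O)
    (h : LinearIndependent k (fun i => res (f i))) :
    LinearIndependent L (fun i => ((f i : O) : F)) := by
  classical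
  rw [linearIndependent_iff'] at h ⊢
  intro s c hc
  by_contra hne
  push Not at hne
  obtain ⟨i1, hi1s, hi1⟩ := hne
  obtain ⟨i0, hi0s, hi0max⟩ := s.exists_max_image (fun i => A.valuation (c i)) ⟨i1, hi1s⟩
  have hc0 : c i0 ≠ 0 := by
    intro h0
    have := hi0max i1 hi1s
    rw [h0, map_zero, le_zero_iff, map_eq_zero] at this
    exact hi1 this
  have hmem : ∀ i ∈ s, c i / c i0 ∈ A := by
    intro i hi
    rw [← A.valuation_le_one_iff, map_div₀]
    exact div_le_one_of_le₀ (hi0max i hi) zero_le
  let d : ι → A := fun i => if hi : i ∈ s then ⟨c i / c i0, hmem i hi⟩ else 0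
  have hd : ∀ i ∈ s, ((d i : A) : L) = c i / c i0 := fun i hi => by simp [d, hi]
  -- relation inside `O`
  have hrelO : ∑ i ∈ s, (⟨algebraMap L F (d i : L), hAO (d i)⟩ : O) * f i = 0 := by
    apply Subtype.ext
    rw [AddSubmonoidClass.coe_finsetSum]
    simp only [MulMemClass.coe_mul, ZeroMemClass.coe_zero]
    have : ∑ i ∈ s, algebraMap L F (d i : L) * ((f i : O) : F)
        = (c i0)⁻¹ • ∑ i ∈ s, c i • ((f i : O) : F) := by
      rw [Finset.smul_sum]
      refine Finset.sum_congr rfl fun i hi => ?_
      rw [hd i hi, smul_smul, Algebra.smul_def, div_eq_inv_mul]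
    rw [this, hc, smul_zero]
  have hrelk : ∑ i ∈ s, π (d i) • res (f i) = 0 := by
    have := congrArg res hrelO
    rw [map_sum, map_zero] at this
    rw [← this]
    refine Finset.sum_congr rfl fun i _ => ?_
    rw [map_mul, hcompat, Algebra.smul_def]
  have h0 := h s (fun i => π (d i)) hrelk i0 hi0s
  have hd0 : d i0 = 1 := by
    apply Subtype.ext
    rw [hd i0 hi0s, div_self hc0]
    rfl
  rw [hd0, map_one] at h0
  exact one_ne_zero h0

end Fermat.Agent.S18.H33
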