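/-
S18 / CECH-GENUS (helper33), abstract final step (CG6):
`dim_k Lbar(n (xbar)_oo) ≤ dim_K L(n (x)_oo)` for `n ≥ c0`, from
* a model `B, B_oo` over a ring `R` (the DVR `A1`) inside the Gauss valuation ring `O1` of the
  model field, finitely generated + saturated (CG1, CG2),
* (GR): every element of `Fk` integral over `k[xbar]` (resp. `k[1/xbar]`) is the residue of an
  element of `B` (resp. `B_oo`),
* a valuation ring `O ⊇ O1` of `F` over a valuation ring `A` of `K` with residue map `res`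
  (independence lifting CG3').
-/
import Mathlib
import Fermat.Agent.S18.H33_CechGenus
import Fermat.Agent.S18.H33_CechIndepVal
import Fermat.Agent.S18.H33_CechDict

set_option autoImplicit false

namespace Fermat.Agent.S18.H33

open AlgebraicCurve Polynomial

theorem finrank_riemannRochSpace_le_of_lattice
    {K F k Fk R : Type*} [Field K] [Field F] [Algebra K F] [Field k] [Field Fk] [Algebra k Fk]
    [CommRing R] [Algebra R F]
    -- generic fibre
    {x : F} (hx : x ≠ 0) {D : Divisor K F} (hD : IsPoleDivisor x D)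
    (hfin : ∀ n : ℕ, Module.Finite K (riemannRochSpace (n • D)))
    -- special fibre
    {xb : Fk} (hxb : xb ≠ 0) {Db : Divisor k Fk} (hDb : IsPoleDivisor xb Db)
    (hplace : ∀ V : ValuationSubring Fk, (∀ a : k, algebraMap k Fk a ∈ V) → V ≠ ⊤ →
      IsPrincipalIdealRing V)
    -- the valuation ring `O` of `F` over the valuation ring `A` of `K`
    (A : ValuationSubring K) (π : A →+* k) (O : Subring F)
    (hAO : ∀ a : A, algebraMap K F (a : K) ∈ O) (res : O →+* Fk)
    (hcompat : ∀ a : A, res ⟨algebraMap K F (a : K), hAO a⟩ = algebraMap k Fk (π a))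
    -- the model over `R`
    (O1 : Subring F) (hO1 : O1 ≤ O) (ϖ : R)
    (hker : ∀ y : F, ∀ hy : y ∈ O1, res ⟨y, hO1 hy⟩ = 0 ↔
      ∃ z ∈ O1, y = algebraMap R F ϖ * z)
    (B Binf : Subalgebra R F) (hBO : ∀ b ∈ B, b ∈ O1) (hBinfO : ∀ b ∈ Binf, b ∈ O1)
    (hsat : ∀ y ∈ O1, algebraMap R F ϖ * y ∈ B → y ∈ B)
    (hxB : x ∈ B) (hxinv : x⁻¹ ∈ Binf)
    (hloc : ∀ y ∈ Binf, ∃ a : ℕ, x ^ a * y ∈ B)
    {ι : Type*} [Fintype ι] (β : ι → F) (hβmem : ∀ i, β i ∈ B)
    (hβ : ∀ b ∈ B, ∃ p : ι → R[X], b = ∑ i, aeval x (p i) * β i)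
    {c0 : ℕ} (hc : ∀ i, x⁻¹ ^ c0 * β i ∈ Binf)
    (hresx : res ⟨x, hO1 (hBO x hxB)⟩ = xb)
    -- integrality on the generic fibre
    (hBint : ∀ b ∈ B, IsIntegral (Algebra.adjoin K {x}) b)
    (hBinfint : ∀ b ∈ Binf, IsIntegral (Algebra.adjoin K {x⁻¹}) b)
    -- (GR)
    (hGRfin : ∀ γ : Fk, IsIntegral (Algebra.adjoin k {xb}) γ →
      ∃ (b : F) (hb : b ∈ B), res ⟨b, hO1 (hBO b hb)⟩ = γ)
    (hGRinf : ∀ γ : Fk, IsIntegral (Algebra.adjoin k {xb⁻¹}) γ →
      ∃ (b : F) (hb : b ∈ Binf), res ⟨b, hO1 (hBinfO b hb)⟩ = γ)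
    {n : ℕ} (hn : c0 ≤ n) :
    Module.finrank k (riemannRochSpace (n • Db)) ≤ Module.finrank K (riemannRochSpace (n • D)) := by
  classical
  by_cases hfk : Module.Finite k (riemannRochSpace (n • Db))
  swap
  · rw [Module.finrank_of_not_finite hfk]; exact Nat.zero_le _
  -- the reduction map on `O1`
  let red : O1 →+* Fk := res.comp (Subring.inclusion hO1)
  have hred : ∀ (y : F) (hy : y ∈ O1), red ⟨y, hy⟩ = res ⟨y, hO1 hy⟩ := fun y hy => rfl
  have hker' : ∀ y : O1, red y = 0 ↔ ∃ z : O1, (y : F) = algebraMap R F ϖ * z := by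
    rintro ⟨y, hy⟩
    rw [hred, hker y hy]
    constructor
    · rintro ⟨z, hz, h⟩; exact ⟨⟨z, hz⟩, h⟩
    · rintro ⟨⟨z, hz⟩, h⟩; exact ⟨z, hz, h⟩
  have hsplit : ∀ (a : ℕ) (b : F), b ∈ B → x⁻¹ ^ a * b ∈ splitModule B Binf x n :=
    fun a b hb => mem_splitModule_of_mem B Binf hx hxB hxinv β hβmem hβ hc hn a hb
  -- a basis of the special Riemann-Roch space
  let bs := Module.finBasis k (riemannRochSpace (n • Db))
  set r := Module.finrank k (riemannRochSpace (n • Db)) with hr
  -- lift each basis element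
  have hlift : ∀ i : Fin r, ∃ (f : F) (hf : f ∈ B), x⁻¹ ^ n * f ∈ Binf ∧
      res ⟨f, hO1 (hBO f hf)⟩ = ((bs i : riemannRochSpace (n • Db)) : Fk) := by
    intro i
    obtain ⟨h1, h2⟩ := isIntegral_of_mem_riemannRochSpace hplace hxb hDb n (bs i).2
    obtain ⟨b, hb, hbres⟩ := hGRfin _ h1
    obtain ⟨b', hb', hb'res⟩ := hGRinf _ h2
    have hredeq : red ⟨b, hBO b hb⟩ = red ⟨x, hBO x hxB⟩ ^ n * red ⟨b', hBinfO b' hb'⟩ := by
      rw [hred, hred, hred, hbres, hb'res, hresx]
      field_simp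
    obtain ⟨f, hf, hf1, hf2⟩ := exists_lift_of_saturated O1 ϖ red hker' B Binf hBO hBinfO hsat
      hx hxB hloc hsplit hb hb' hredeq
    refine ⟨f, hf, hf1, ?_⟩
    rw [← hred f (hBO f hf), hf2, hred, hbres]
  choose f hfB hfinf hfres using hlift
  -- the lifts lie in `L(n D)`
  have hfL : ∀ i, f i ∈ riemannRochSpace (n • D) := by
    intro i
    apply mem_riemannRochSpace_of_isIntegral hx hD n (hBint _ (hfB i))
    have : f i / x ^ n = x⁻¹ ^ n * f i := by rw [inv_pow, div_eq_inv_mul]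
    rw [this]
    exact hBinfint _ (hfinf i)
  -- and are linearly independent
  have hindepk : LinearIndependent k
      (fun i : Fin r => res ⟨f i, hO1 (hBO (f i) (hfB i))⟩) := by
    have h1 : LinearIndependent k (fun i : Fin r => ((bs i : riemannRochSpace (n • Db)) : Fk)) :=
      bs.linearIndependent.map' (riemannRochSpace (n • Db)).subtype
        (Submodule.ker_subtype _)
    convert h1 using 2 with i
    exact hfres i
  have hindepK : LinearIndependent K (fun i : Fin r => f i) :=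
    linearIndependent_of_res A O hAO π res hcompat
      (fun i : Fin r => (⟨f i, hO1 (hBO (f i) (hfB i))⟩ : O)) hindepk
  have hindepL : LinearIndependent K
      (fun i : Fin r => (⟨f i, hfL i⟩ : riemannRochSpace (n • D))) := by
    apply LinearIndependent.of_comp (riemannRochSpace (n • D)).subtype
    exact hindepK
  have := hfin n
  have := hindepL.fintype_card_le_finrank
  simpa using this

end Fermat.Agent.S18.H33
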