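/-
S18 / CECH-GENUS (helper33): instance-facing wrapper of `finrank_riemannRochSpace_le_of_lattice`.
The model lives in a separate field `F1` (e.g. `modularFunctionFieldFullC L1 N`) with an embedding
`ι : F1 →+* F`; the charts are `{b : F1 | IsIntegral R[x1] b}` and `{b | IsIntegral R[1/x1] b}`.
-/
import Mathlib
import Fermat.Agent.S18.H33_CechLattice
import Fermat.Agent.S18.H33_CechCharts

set_option autoImplicit false

namespace Fermat.Agent.S18.H33

open AlgebraicCurve Polynomial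

/-- The chart `{b | IsIntegral R[x] b}` as an `R`-subalgebra. -/
def chartAlg (R : Type*) {F : Type*} [CommRing R] [Field F] [Algebra R F] (x : F) :
    Subalgebra R F :=
  (integralClosure (Algebra.adjoin R {x}) F).restrictScalars R

theorem mem_chartAlg {R F : Type*} [CommRing R] [Field F] [Algebra R F] {x b : F} :
    b ∈ chartAlg R x ↔ IsIntegral (Algebra.adjoin R {x}) b := by
  unfold chartAlg
  rw [Subalgebra.mem_restrictScalars, mem_integralClosure_iff]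

theorem self_mem_chartAlg {R F : Type*} [CommRing R] [Field F] [Algebra R F] (x : F) :
    x ∈ chartAlg R x := by
  rw [mem_chartAlg]
  have : x = algebraMap (Algebra.adjoin R {x}) F ⟨x, Algebra.subset_adjoin rfl⟩ := rfl
  rw [this]
  exact isIntegral_algebraMap

theorem isIntegral_map_of_isIntegral_adjoin
    {R K F F1 : Type*} [CommRing R] [Field K] [Field F] [Algebra K F] [Field F1] [Algebra R F1]
    [Algebra R K] (ι : F1 →+* F)
    (hRK : ∀ r : R, ι (algebraMap R F1 r) = algebraMap K F (algebraMap R K r))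
    {x1 b1 : F1} (hb : IsIntegral (Algebra.adjoin R {x1}) b1) :
    IsIntegral (Algebra.adjoin K {ι x1}) (ι b1) := by
  obtain ⟨p, hpm, hp⟩ := hb
  have hle : ∀ s ∈ Algebra.adjoin R {x1}, ι s ∈ Algebra.adjoin K {ι x1} := by
    intro s hs
    induction hs using Algebra.adjoin_induction with
    | mem y hy =>
      rw [Set.mem_singleton_iff] at hy
      subst hy
      exact Algebra.subset_adjoin rfl
    | algebraMap r =>
      rw [hRK]
      exact Subalgebra.algebraMap_mem _ _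
    | add s t _ _ hs ht => rw [map_add]; exact Subalgebra.add_mem _ hs ht
    | mul s t _ _ hs ht => rw [map_mul]; exact Subalgebra.mul_mem _ hs ht
  let φ : Algebra.adjoin R {x1} →+* Algebra.adjoin K {ι x1} :=
    (ι.comp (Algebra.adjoin R {x1}).val.toRingHom).codRestrict
      (Algebra.adjoin K {ι x1}).toSubring fun s => hle s s.2
  refine ⟨p.map φ, hpm.map φ, ?_⟩
  rw [Polynomial.eval₂_map]
  have h1 : (algebraMap (Algebra.adjoin K {ι x1}) F).comp φ
      = ι.comp (algebraMap (Algebra.adjoin R {x1}) F1) := by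
    ext s; rfl
  rw [h1, ← Polynomial.hom_eval₂, hp, map_zero]

/-- **CECH-GENUS, instance-facing form.** -/
theorem exists_forall_finrank_riemannRochSpace_le
    {K F k Fk : Type*} [Field K] [Field F] [Algebra K F] [Field k] [Field Fk] [Algebra k Fk]
    -- generic fibre
    {x : F} (hx : x ≠ 0) {D : Divisor K F} (hD : ∀ v : Place K F, D v = max (-v.ord x) 0)
    (hfin : ∀ n : ℕ, Module.Finite K (riemannRochSpace (n • D)))
    -- special fibre
    {xb : Fk} (hxb : xb ≠ 0) {Db : Divisor k Fk}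
    (hDb : ∀ v : Place k Fk, Db v = max (-v.ord xb) 0)
    (hplace : ∀ V : ValuationSubring Fk, (∀ a : k, algebraMap k Fk a ∈ V) → V ≠ ⊤ →
      IsPrincipalIdealRing V)
    -- the valuation ring `O` of `F` over the valuation ring `A` of `K`
    (A : ValuationSubring K) (π : A →+* k) (O : Subring F)
    (hAO : ∀ a : A, algebraMap K F (a : K) ∈ O) (res : O →+* Fk)
    (hcompat : ∀ a : A, res ⟨algebraMap K F (a : K), hAO a⟩ = algebraMap k Fk (π a))
    -- the model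
    {R F1 : Type*} [CommRing R] [Field F1] [Algebra R F1] [Algebra R K] (ι : F1 →+* F)
    (hRK : ∀ r : R, ι (algebraMap R F1 r) = algebraMap K F (algebraMap R K r))
    {x1 : F1} (hx1 : ι x1 = x) (ϖ : R)
    (O1 : Subring F1) (hO1 : ∀ y ∈ O1, ι y ∈ O)
    (hker : ∀ (y : F1) (hy : y ∈ O1), res ⟨ι y, hO1 y hy⟩ = 0 ↔
      ∃ z ∈ O1, y = algebraMap R F1 ϖ * z)
    (hBO : ∀ b : F1, IsIntegral (Algebra.adjoin R {x1}) b → b ∈ O1)
    (hBinfO : ∀ b : F1, IsIntegral (Algebra.adjoin R {x1⁻¹}) b → b ∈ O1)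
    (hsat : ∀ y ∈ O1, IsIntegral (Algebra.adjoin R {x1}) (algebraMap R F1 ϖ * y) →
      IsIntegral (Algebra.adjoin R {x1}) y)
    (hfg : ∃ (ι' : Type) (_ : Fintype ι') (β : ι' → F1),
      (∀ i, IsIntegral (Algebra.adjoin R {x1}) (β i)) ∧
      ∀ b : F1, IsIntegral (Algebra.adjoin R {x1}) b →
        ∃ p : ι' → R[X], b = ∑ i, aeval x1 (p i) * β i)
    (hresx : ∀ h : ι x1 ∈ O, res ⟨ι x1, h⟩ = xb)
    -- (GR)
    (hGRfin : ∀ γ : Fk, IsIntegral (Algebra.adjoin k {xb}) γ →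
      ∃ (b : F1) (hb : IsIntegral (Algebra.adjoin R {x1}) b),
        res ⟨ι b, hO1 b (hBO b hb)⟩ = γ)
    (hGRinf : ∀ γ : Fk, IsIntegral (Algebra.adjoin k {xb⁻¹}) γ →
      ∃ (b : F1) (hb : IsIntegral (Algebra.adjoin R {x1⁻¹}) b),
        res ⟨ι b, hO1 b (hBinfO b hb)⟩ = γ) :
    ∃ n0 : ℕ, ∀ n : ℕ, n0 ≤ n →
      Module.finrank k (riemannRochSpace (n • Db)) ≤
        Module.finrank K (riemannRochSpace (n • D)) := by
  classical
  obtain ⟨ι', hι'fin, β1, hβ1mem, hβ1⟩ := hfg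
  have hx1ne : x1 ≠ 0 := by
    rintro rfl
    exact hx (by rw [← hx1, map_zero])
  obtain ⟨c0, hc0⟩ := exists_uniform_inv_pow_mul_isIntegral R hx1ne β1 hβ1mem
  refine ⟨c0, fun n hn => ?_⟩
  -- the `R`-algebra structure on `F` through `ι`
  let algRF : Algebra R F := (ι.comp (algebraMap R F1)).toAlgebra
  let ιA : F1 →ₐ[R] F := { ι with commutes' := fun r => rfl }
  have hιA : ∀ y, ιA y = ι y := fun y => rfl
  have hinj : Function.Injective ι := ι.injective
  have hD' : IsPoleDivisor x D := fun v => by rw [hD v, max_comm]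
  have hDb' : IsPoleDivisor xb Db := fun v => by rw [hDb v, max_comm]
  have hO1' : O1.map ι ≤ O := by
    rintro _ ⟨y, hy, rfl⟩
    exact hO1 y hy
  have hxx : ι x1⁻¹ = x⁻¹ := by rw [map_inv₀, hx1]
  refine finrank_riemannRochSpace_le_of_lattice (R := R) hx hD' hfin hxb hDb' hplace A π O hAO res
    hcompat (O1.map ι) hO1' ϖ ?_ ((chartAlg R x1).map ιA) ((chartAlg R x1⁻¹).map ιA)
    ?_ ?_ ?_ ?_ ?_ ?_ (fun i => ι (β1 i)) ?_ ?_ (c0 := c0) ?_ ?_ ?_ ?_ ?_ ?_ hn
  · -- hker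
    rintro _ ⟨y, hy, rfl⟩
    rw [hker y hy]
    constructor
    · rintro ⟨z, hz, rfl⟩
      exact ⟨ι z, ⟨z, hz, rfl⟩, by rw [map_mul]; rfl⟩
    · rintro ⟨_, ⟨z, hz, rfl⟩, h⟩
      refine ⟨z, hz, hinj ?_⟩
      rw [h, map_mul]; rfl
  · -- hBO
    rintro _ ⟨b, hb, rfl⟩
    exact ⟨b, hBO b (mem_chartAlg.mp hb), rfl⟩
  · -- hBinfO
    rintro _ ⟨b, hb, rfl⟩
    exact ⟨b, hBinfO b (mem_chartAlg.mp hb), rfl⟩
  · -- hsat
    rintro _ ⟨y, hy, rfl⟩ ⟨b, hb, hbe⟩
    refine ⟨y, mem_chartAlg.mpr (hsat y hy ?_), rfl⟩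
    have : b = algebraMap R F1 ϖ * y := hinj (by
      change ι b = _ at hbe
      rw [hbe, map_mul]; rfl)
    rw [← this]
    exact mem_chartAlg.mp hb
  · -- hxB
    exact ⟨x1, self_mem_chartAlg x1, hx1⟩
  · -- hxinv
    exact ⟨x1⁻¹, self_mem_chartAlg x1⁻¹, hxx⟩
  · -- hloc
    rintro _ ⟨y, hy, rfl⟩
    obtain ⟨a, ha⟩ := exists_pow_mul_isIntegral R hx1ne (mem_chartAlg.mp hy)
    refine ⟨a, x1 ^ a * y, mem_chartAlg.mpr ha, ?_⟩
    change ι (x1 ^ a * y) = x ^ a * ι y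
    rw [map_mul, map_pow, hx1]
  · -- hβmem
    intro i
    exact ⟨β1 i, mem_chartAlg.mpr (hβ1mem i), rfl⟩
  · -- hβ
    rintro _ ⟨b, hb, rfl⟩
    obtain ⟨p, hp⟩ := hβ1 b (mem_chartAlg.mp hb)
    refine ⟨p, ?_⟩
    rw [hp, map_sum]
    refine Finset.sum_congr rfl fun i _ => ?_
    change ι (aeval x1 (p i) * β1 i) = aeval x (p i) * ι (β1 i)
    rw [map_mul]
    congr 1
    have := Polynomial.aeval_algHom_apply ιA x1 (p i)
    rw [hιA, hx1] at this
    rw [this]; rfl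
  · -- hc
    intro i
    refine ⟨x1⁻¹ ^ c0 * β1 i, mem_chartAlg.mpr (hc0 i), ?_⟩
    change ι (x1⁻¹ ^ c0 * β1 i) = x⁻¹ ^ c0 * ι (β1 i)
    rw [map_mul, map_pow, hxx]
  · -- hresx
    have h := hresx (hO1' ⟨x1, hBO x1 (mem_chartAlg.mp (self_mem_chartAlg x1)), rfl⟩)
    simp only [← hx1]
    exact h
  · -- hBint
    rintro _ ⟨b, hb, rfl⟩
    have := isIntegral_map_of_isIntegral_adjoin (K := K) ι hRK (mem_chartAlg.mp hb)
    rwa [hx1] at this
  · -- hBinfint
    rintro _ ⟨b, hb, rfl⟩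
    have := isIntegral_map_of_isIntegral_adjoin (K := K) ι hRK (mem_chartAlg.mp hb)
    rwa [hxx] at this
  · -- hGRfin
    intro γ hγ
    obtain ⟨b, hb, hbres⟩ := hGRfin γ hγ
    exact ⟨ι b, ⟨b, mem_chartAlg.mpr hb, rfl⟩, hbres⟩
  · -- hGRinf
    intro γ hγ
    obtain ⟨b, hb, hbres⟩ := hGRinf γ hγ
    exact ⟨ι b, ⟨b, mem_chartAlg.mpr hb, rfl⟩, hbres⟩

end Fermat.Agent.S18.H33
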