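/-
S18 / INST-7 (helper33): CECH-GENUS with BOTH fibres instantiated
(`F = modularFunctionFieldBar N` over `ℚ̄`, `Fk = modularFunctionFieldFullC k N` over
`k = ResidueField A`), the RR bank and the degrees `ψ(N) = ψ(N)` discharged.  What remains as
hypotheses is exactly the model data (R0 + INST-1 + INST-2 + (S) + (FG) + (GR)).
-/
import Mathlib
import Fermat.Agent.S18.H33_CechModel
import Fermat.Agent.S18.H33_CechBridge
import Fermat.Agent.S18.H16_FbarBasics
import Fermat.Agent.S18.H45_StrictDVRResidue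
import Fermat.Agent.S28.H40_Degree
import Fermat.Agent.RR.H76_InstFN

set_option autoImplicit false
set_option synthInstance.maxHeartbeats 400000

noncomputable section

namespace Fermat.Agent.S18.H33

open AlgebraicCurve ModularCurve IntermediateField Polynomial
open Fermat.Agent.S24 Fermat.Agent.RR

section Fk

variable (N : ℕ) [NeZero N] (ℓ : ℕ) [Fact ℓ.Prime] (hℓN : ¬ ℓ ∣ N)
variable (k : Type) [Field k] [CharP k ℓ]

include hℓN

/-- The place-theoretic inputs of the RR bank for the characteristic `ℓ` fibre. -/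
theorem ffInputs_Fk : H43.FFInputs k (modularFunctionFieldFullC k N) := by
  have := H16.finiteDimensional_fullC N ℓ hℓN k
  exact H76.ffInputs_of_transcendental (H16.jK k N) (H16.transcendental_jK k N)

theorem ffBase_Fk : H76.FFBase k (modularFunctionFieldFullC k N) :=
  (ffInputs_Fk N ℓ hℓN k).ffBase

theorem degree_divPole_jK :
    Divisor.degree ((ffInputs_Fk N ℓ hℓN k).divPole (H16.jK k N)) = (dedekindPsi N : ℤ) := by
  rw [(ffInputs_Fk N ℓ hℓN k).degree_divPole_eq (H16.transcendental_jK k N),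
    H16.finrank_fullC N ℓ hℓN k]

theorem isPrincipalIdealRing_of_valuationSubring_Fk
    (V : ValuationSubring (modularFunctionFieldFullC k N))
    (hV : ∀ a : k, algebraMap k (modularFunctionFieldFullC k N) a ∈ V) (_hne : V ≠ ⊤) :
    IsPrincipalIdealRing V := by
  have := H16.finiteDimensional_fullC N ℓ hℓN k
  exact H52.isPrincipalIdealRing_of_valuationSubring (K := k) V hV (H16.jK k N)
    (H16.transcendental_jK k N)

end Fk

section FN

variable (N : ℕ) [NeZero N]

theorem degree_divPole_jBar :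
    Divisor.degree ((H76.ffInputs_FN N).divPole (jBar N)) = (dedekindPsi N : ℤ) := by
  rw [(H76.ffInputs_FN N).degree_divPole_eq (S24.H40.transcendental_jBar N),
    S28.H40.finrank_FN_eq_psi N]

end FN

section Main

variable (N : ℕ) [NeZero N] {ℓ : ℕ} [hℓ : Fact ℓ.Prime] (hℓN : ¬ ℓ ∣ N)
variable (A : ValuationSubring (AlgebraicClosure ℚ)) (hA : A.LiesOverPrime ℓ)

local notation "kA" => IsLocalRing.ResidueField A

/-- **INST-7 (named-hypotheses form).**  The Riemann genus of `X₀(N)` over `ℚ̄` is at most the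
Riemann genus of its reduction mod `ℓ`, given the model data. -/
theorem gR_FN_le_gR_Fk_of_model [CharP kA ℓ]
    -- the valuation ring `O` of `FN N` over `A` with its residue map (helper92 R0)
    (O : Subring (FN N))
    (hAO : ∀ a : A, algebraMap Qbar (FN N) (a : Qbar) ∈ O)
    (res : O →+* modularFunctionFieldFullC kA N)
    (hcompat : ∀ a : A, res ⟨algebraMap Qbar (FN N) (a : Qbar), hAO a⟩
      = algebraMap kA (modularFunctionFieldFullC kA N) (IsLocalRing.residue A a))
    -- the model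
    {R F1 : Type*} [CommRing R] [Field F1] [Algebra R F1] [Algebra R Qbar] (ι : F1 →+* FN N)
    (hRK : ∀ r : R, ι (algebraMap R F1 r) = algebraMap Qbar (FN N) (algebraMap R Qbar r))
    {x1 : F1} (hx1 : ι x1 = jBar N) (ϖ : R)
    (O1 : Subring F1) (hO1 : ∀ y ∈ O1, ι y ∈ O)
    (hker : ∀ (y : F1) (hy : y ∈ O1), res ⟨ι y, hO1 y hy⟩ = 0 ↔
      ∃ z ∈ O1, y = algebraMap R F1 ϖ * z)
    (hBO : ∀ b : F1, IsIntegral (Algebra.adjoin R {x1}) b → b ∈ O1)
    (hBinfO : ∀ b : F1, IsIntegral (Algebra.adjoin R {x1⁻¹}) b → b ∈ O1)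
    (hsat : ∀ y ∈ O1, IsIntegral (Algebra.adjoin R {x1}) (algebraMap R F1 ϖ * y) →
      IsIntegral (Algebra.adjoin R {x1}) y)
    (hfg : ∃ (ι' : Type) (_ : Fintype ι') (β : ι' → F1),
      (∀ i, IsIntegral (Algebra.adjoin R {x1}) (β i)) ∧
      ∀ b : F1, IsIntegral (Algebra.adjoin R {x1}) b →
        ∃ p : ι' → R[X], b = ∑ i, aeval x1 (p i) * β i)
    (hresx : ∀ h : ι x1 ∈ O, res ⟨ι x1, h⟩ = H16.jK kA N)
    -- (GR)
    (hGRfin : ∀ γ : modularFunctionFieldFullC kA N,
      IsIntegral (Algebra.adjoin kA {H16.jK kA N}) γ →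
      ∃ (b : F1) (hb : IsIntegral (Algebra.adjoin R {x1}) b),
        res ⟨ι b, hO1 b (hBO b hb)⟩ = γ)
    (hGRinf : ∀ γ : modularFunctionFieldFullC kA N,
      IsIntegral (Algebra.adjoin kA {(H16.jK kA N)⁻¹}) γ →
      ∃ (b : F1) (hb : IsIntegral (Algebra.adjoin R {x1⁻¹}) b),
        res ⟨ι b, hO1 b (hBinfO b hb)⟩ = γ) :
    (H76.ffBase_FN N).gR ≤ (ffBase_Fk N ℓ hℓN kA).gR := by
  have hjb : jBar N ≠ 0 := by
    intro h0
    exact S24.H40.transcendental_jBar N (h0 ▸ isAlgebraic_zero)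
  have hjk : H16.jK kA N ≠ 0 := by
    intro h0
    exact H16.transcendental_jK kA N (h0 ▸ isAlgebraic_zero)
  obtain ⟨n0, hn0⟩ := exists_forall_finrank_riemannRochSpace_le
    (K := Qbar) (F := FN N) (k := kA) (Fk := modularFunctionFieldFullC kA N)
    hjb (D := (H76.ffInputs_FN N).divPole (jBar N))
    (fun v => (H76.ffInputs_FN N).divPole_apply (jBar N) v)
    (fun n => (H76.ffBase_FN N).finiteDimensional_riemannRochSpace _)
    hjk (Db := (ffInputs_Fk N ℓ hℓN kA).divPole (H16.jK kA N))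
    (fun v => (ffInputs_Fk N ℓ hℓN kA).divPole_apply (H16.jK kA N) v)
    (isPrincipalIdealRing_of_valuationSubring_Fk N ℓ hℓN kA)
    A (IsLocalRing.residue A) O hAO res hcompat ι hRK hx1 ϖ O1 hO1 hker hBO hBinfO hsat hfg
    hresx hGRfin hGRinf
  refine gR_le_of_eventually_ell_le (H76.ffBase_FN N) (ffBase_Fk N ℓ hℓN kA)
    ((H76.ffInputs_FN N).divPole (jBar N)) ((ffInputs_Fk N ℓ hℓN kA).divPole (H16.jK kA N))
    ?_ ?_ n0 hn0
  · rw [degree_divPole_jBar, degree_divPole_jK N ℓ hℓN kA]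
  · rw [degree_divPole_jBar]
    exact_mod_cast H16.dedekindPsi_pos' N

end Main

end Fermat.Agent.S18.H33
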