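import Mathlib
import Fermat.Prelude.Def_ModularCurve_ReductionModL
import Fermat.Prelude.Thm_ModularCurve_coeffMap_qExpand
import Fermat.Agent.S24.Defs
import Fermat.Agent.S18.H45_StrictDVR
import Fermat.Agent.S18.H40_CechFG
import Fermat.Agent.S18.H16_FbarBasics
import Fermat.Agent.S18.H33_LatticeInst

/-!
# INST-7, model side: the model `(A₁, L₁, F₁, j₁, ι)` of `H33.gR_FN_le_gR_Fk_of_model`

`L₁ = H45.unrCyclo ℓ`, `A₁ = H45.A0 A ℓ` (a DVR with uniformiser `ℓ`),
`F₁ = modularFunctionFieldFullC L₁ N`, `j₁ = H16.jK L₁ N`, `ι = barEmb N` the coefficientwise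
embedding `F₁ →+* FN N`.

* `barEmb N : modularFunctionFieldFullC K N →+* FN N` for any field `K` with `[Algebra K Qbar]`;
  `barEmb_jK`, `barEmb_jNK`, `barEmb_algebraMap`, `barEmb_injective`.
* `hfg_model`: the hypothesis `hfg` for the model from `FiniteDimensional L₁⟮j₁⟯ F₁` (INST-1).
* `hRK_model`: the hypothesis `hRK`.
* `gR_FN_le_gR_Fk_of_inst`: `H33.gR_FN_le_gR_Fk_of_model` specialised to the model; what remains
  is R0 (`O`, `res`), INST-2 (`O1`, `hO1`, `hker`, `hBO`, `hBinfO`, `hsat`, `hresx`), (GR).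
-/

namespace Fermat.Agent.S18.H40

open ModularCurve IntermediateField Polynomial Fermat.Agent.S24

noncomputable section

section Emb

variable {K : Type*} [Field K] [Algebra K Qbar] (N : ℕ) [NeZero N]

set_option linter.unusedSectionVars false
set_option linter.unusedVariables false

/-- a generator of `modularFunctionFieldFullC K N` maps to the corresponding generator of
`modularFunctionFieldBar N`. -/
theorem coeffMap_gen_mem_bar (d : ℕ) [NeZero d] (hd : d ∣ N) :
    coeffMap (algebraMap K Qbar) (qExpand K d (jqModC K)) ∈ modularFunctionFieldBar N := by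
  have h1 : coeffMap (algebraMap K Qbar) (qExpand K d (jqModC K))
      = coeffEmb Qbar (qExpand ℚ d jq) := by
    rw [ModularCurve.coeffMap_qExpand, coeffMap_jqModC, coeffEmb, ModularCurve.coeffMap_qExpand,
      ← jqModC_rat, coeffMap_jqModC]
  rw [h1]
  exact coeffEmb_mem_laurentBaseChange Qbar (jqd_mem_full N hd)

theorem coeffMap_mem_bar {x : LaurentSeries K} (hx : x ∈ modularFunctionFieldFullC K N) :
    coeffMap (algebraMap K Qbar) x ∈ modularFunctionFieldBar N := by
  let S : Subfield (LaurentSeries K) :=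
    (modularFunctionFieldBar N).toSubfield.comap (coeffMap (algebraMap K Qbar))
  have hS : ∀ c : K, algebraMap K (LaurentSeries K) c ∈ S := by
    intro c
    change coeffMap (algebraMap K Qbar) (algebraMap K (LaurentSeries K) c) ∈
      modularFunctionFieldBar N
    rw [algebraMap_laurentSeries_eq_single, coeffMap_single,
      ← algebraMap_laurentSeries_eq_single]
    exact (modularFunctionFieldBar N).algebraMap_mem _
  have hle : modularFunctionFieldFullC K N ≤ S.toIntermediateField hS := by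
    rw [modularFunctionFieldFullC, adjoin_le_iff]
    rintro y ⟨d, hdne, hd, rfl⟩
    have := hdne
    exact coeffMap_gen_mem_bar N d hd
  exact hle hx

/-- **the coefficient embedding** `modularFunctionFieldFullC K N →+* FN N` for `K ⊆ Qbar`. -/
def barEmb : ↥(modularFunctionFieldFullC K N) →+* FN N where
  toFun x := ⟨coeffMap (algebraMap K Qbar) (x : LaurentSeries K), coeffMap_mem_bar N x.2⟩
  map_one' := Subtype.ext (map_one _)
  map_mul' x y := Subtype.ext (map_mul _ _ _)
  map_zero' := Subtype.ext (map_zero _)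
  map_add' x y := Subtype.ext (map_add _ _ _)

@[simp] theorem coe_barEmb (x : ↥(modularFunctionFieldFullC K N)) :
    ((barEmb N x : FN N) : LaurentSeries Qbar) =
      coeffMap (algebraMap K Qbar) (x : LaurentSeries K) := rfl

theorem barEmb_jK : barEmb N (H16.jK K N) = jBar N := by
  apply Subtype.ext
  change coeffMap (algebraMap K Qbar) (jqModC K) = coeffEmb Qbar jq
  rw [coeffMap_jqModC, coeffEmb, ← jqModC_rat, coeffMap_jqModC]

theorem barEmb_algebraMap (c : K) :
    barEmb N (algebraMap K ↥(modularFunctionFieldFullC K N) c) =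
      algebraMap Qbar (FN N) (algebraMap K Qbar c) := by
  apply Subtype.ext
  change coeffMap (algebraMap K Qbar) (algebraMap K (LaurentSeries K) c) =
    algebraMap Qbar (LaurentSeries Qbar) (algebraMap K Qbar c)
  rw [algebraMap_laurentSeries_eq_single, coeffMap_single, ← algebraMap_laurentSeries_eq_single]

theorem barEmb_jNK : barEmb N (H16.jNK K N) = jd N N dvd_rfl := by
  apply Subtype.ext
  change coeffMap (algebraMap K Qbar) (qExpand K N (jqModC K)) = coeffEmb Qbar (qExpand ℚ N jq)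
  rw [ModularCurve.coeffMap_qExpand, coeffMap_jqModC, coeffEmb, ModularCurve.coeffMap_qExpand,
    ← jqModC_rat, coeffMap_jqModC]

theorem barEmb_injective : Function.Injective (barEmb (K := K) N) := (barEmb N).injective

end Emb

section Model

variable (A : ValuationSubring Qbar) {ℓ : ℕ} (hℓ : ℓ.Prime) (hA : A.LiesOverPrime ℓ)
variable (N : ℕ) [NeZero N]

include hℓ hA in
set_option synthInstance.maxHeartbeats 400000 in
set_option maxHeartbeats 1000000 in
/-- **hfg for the model `(A₁, L₁, F₁, j₁)`.** -/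
theorem hfg_model
    [FiniteDimensional (H45.unrCyclo ℓ)⟮H16.jK (H45.unrCyclo ℓ) N⟯
      (modularFunctionFieldFullC (H45.unrCyclo ℓ) N)] :
    ∃ (ι : Type) (_ : Fintype ι) (β : ι → modularFunctionFieldFullC (H45.unrCyclo ℓ) N),
      (∀ i, IsIntegral (Algebra.adjoin (H45.A0 A ℓ) {H16.jK (H45.unrCyclo ℓ) N}) (β i)) ∧
      ∀ b, IsIntegral (Algebra.adjoin (H45.A0 A ℓ) {H16.jK (H45.unrCyclo ℓ) N}) b →
        ∃ p : ι → (H45.A0 A ℓ)[X], b = ∑ i, aeval (H16.jK (H45.unrCyclo ℓ) N) (p i) * β i := by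
  have hdvr : IsDiscreteValuationRing (H45.A0 A ℓ) := H45.isDiscreteValuationRing_A0 hℓ hA
  exact exists_finite_generators_of_finite (R := H45.A0 A ℓ) (K := H45.unrCyclo ℓ)
    (F := modularFunctionFieldFullC (H45.unrCyclo ℓ) N) (H16.jK (H45.unrCyclo ℓ) N)
    (H16.transcendental_jK (H45.unrCyclo ℓ) N)

set_option synthInstance.maxHeartbeats 400000 in
/-- **hRK for the model.** -/
theorem hRK_model (r : H45.A0 A ℓ) :
    barEmb (K := H45.unrCyclo ℓ) N
        (algebraMap (H45.A0 A ℓ) (modularFunctionFieldFullC (H45.unrCyclo ℓ) N) r) =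
      algebraMap Qbar (FN N) (algebraMap (H45.A0 A ℓ) Qbar r) :=
  barEmb_algebraMap N (r : H45.unrCyclo ℓ)

end Model

section Final

variable (N : ℕ) [NeZero N] {ℓ : ℕ} [hℓ : Fact ℓ.Prime] (hℓN : ¬ ℓ ∣ N)
variable (A : ValuationSubring Qbar) (hA : A.LiesOverPrime ℓ)

local notation "kA" => IsLocalRing.ResidueField A
local notation "L₁" => H45.unrCyclo ℓ
local notation "A₁" => H45.A0 A ℓ
local notation "F₁" => modularFunctionFieldFullC (H45.unrCyclo ℓ) N
local notation "j₁" => H16.jK (H45.unrCyclo ℓ) N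

include hA in
set_option synthInstance.maxHeartbeats 400000 in
set_option maxHeartbeats 1000000 in
/-- **INST-7 with the model `(A₁, L₁, F₁, j₁, barEmb)` plugged in.**  Remaining inputs:
INST-1 (`FiniteDimensional L₁⟮j₁⟯ F₁`), R0 (`O`, `res`), INST-2 (`O1`, ...), (S), (GR). -/
theorem gR_FN_le_gR_Fk_of_inst [CharP kA ℓ]
    [FiniteDimensional L₁⟮j₁⟯ F₁]
    -- R0: the valuation ring `O` of `FN N` over `A` with its residue map
    (O : Subring (FN N))
    (hAO : ∀ a : A, algebraMap Qbar (FN N) (a : Qbar) ∈ O)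
    (res : O →+* modularFunctionFieldFullC kA N)
    (hcompat : ∀ a : A, res ⟨algebraMap Qbar (FN N) (a : Qbar), hAO a⟩
      = algebraMap kA (modularFunctionFieldFullC kA N) (IsLocalRing.residue A a))
    -- INST-2: the DVR `O1` of `F₁`
    (O1 : Subring F₁) (hO1 : ∀ y ∈ O1, barEmb N y ∈ O)
    (hker : ∀ (y : F₁) (hy : y ∈ O1), res ⟨barEmb N y, hO1 y hy⟩ = 0 ↔
      ∃ z ∈ O1, y = algebraMap A₁ F₁ ((ℓ : ℕ) : A₁) * z)
    (hBO : ∀ b : F₁, IsIntegral (Algebra.adjoin A₁ {j₁}) b → b ∈ O1)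
    (hBinfO : ∀ b : F₁, IsIntegral (Algebra.adjoin A₁ {j₁⁻¹}) b → b ∈ O1)
    (hsat : ∀ y ∈ O1, IsIntegral (Algebra.adjoin A₁ {j₁}) (algebraMap A₁ F₁ ((ℓ : ℕ) : A₁) * y) →
      IsIntegral (Algebra.adjoin A₁ {j₁}) y)
    (hresx : ∀ h : barEmb N j₁ ∈ O, res ⟨barEmb N j₁, h⟩ = H16.jK kA N)
    -- (GR)
    (hGRfin : ∀ γ : modularFunctionFieldFullC kA N,
      IsIntegral (Algebra.adjoin kA {H16.jK kA N}) γ →
      ∃ (b : F₁) (hb : IsIntegral (Algebra.adjoin A₁ {j₁}) b),
        res ⟨barEmb N b, hO1 b (hBO b hb)⟩ = γ)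
    (hGRinf : ∀ γ : modularFunctionFieldFullC kA N,
      IsIntegral (Algebra.adjoin kA {(H16.jK kA N)⁻¹}) γ →
      ∃ (b : F₁) (hb : IsIntegral (Algebra.adjoin A₁ {j₁⁻¹}) b),
        res ⟨barEmb N b, hO1 b (hBinfO b hb)⟩ = γ) :
    (RR.H76.ffBase_FN N).gR ≤ (H33.ffBase_Fk N ℓ hℓN kA).gR :=
  H33.gR_FN_le_gR_Fk_of_model N hℓN A O hAO res hcompat
    (R := A₁) (F1 := F₁) (barEmb N) (hRK_model A N) (x1 := j₁) (barEmb_jK N)
    ((ℓ : ℕ) : A₁) O1 hO1 hker hBO hBinfO hsat (hfg_model A hℓ.out hA N) hresx hGRfin hGRinf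

end Final

end

end Fermat.Agent.S18.H40
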