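import Mathlib
import Fermat.Agent.S18.H40_LatticeInstModel
import Fermat.Agent.S18.H16_FKGen

/-!
# INST-7, model side, with INST-1 discharged

`gR_FN_le_gR_Fk_of_inst'` = `gR_FN_le_gR_Fk_of_inst` without the `FiniteDimensional L₁⟮j₁⟯ F₁`
hypothesis (helper16's characteristic-free `H16.finiteDimensional_fullC_gen`).
-/

namespace Fermat.Agent.S18.H40

open ModularCurve IntermediateField Polynomial Fermat.Agent.S24

noncomputable section

section Final

variable (N : ℕ) [NeZero N] {ℓ : ℕ} [hℓ : Fact ℓ.Prime] (hℓN : ¬ ℓ ∣ N)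
variable (A : ValuationSubring Qbar) (hA : A.LiesOverPrime ℓ)

local notation "kA" => IsLocalRing.ResidueField A
local notation "L₁" => H45.unrCyclo ℓ
local notation "A₁" => H45.A0 A ℓ
local notation "F₁" => modularFunctionFieldFullC (H45.unrCyclo ℓ) N
local notation "j₁" => H16.jK (H45.unrCyclo ℓ) N

omit hℓ in
set_option synthInstance.maxHeartbeats 400000 in
/-- INST-1 for the model: `F₁ / L₁(j₁)` is finite. -/
theorem finiteDimensional_model : FiniteDimensional L₁⟮j₁⟯ F₁ :=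
  H16.finiteDimensional_fullC_gen N (H45.unrCyclo ℓ)
    (Nat.cast_ne_zero.2 (NeZero.ne N))

include hA in
set_option synthInstance.maxHeartbeats 400000 in
set_option maxHeartbeats 1000000 in
/-- **INST-7 with the model plugged in and INST-1 discharged.**  Remaining inputs:
R0 (`O`, `res`), INST-2 (`O1`, ...), (S), (GR). -/
theorem gR_FN_le_gR_Fk_of_inst' [CharP kA ℓ]
    (O : Subring (FN N))
    (hAO : ∀ a : A, algebraMap Qbar (FN N) (a : Qbar) ∈ O)
    (res : O →+* modularFunctionFieldFullC kA N)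
    (hcompat : ∀ a : A, res ⟨algebraMap Qbar (FN N) (a : Qbar), hAO a⟩
      = algebraMap kA (modularFunctionFieldFullC kA N) (IsLocalRing.residue A a))
    (O1 : Subring F₁) (hO1 : ∀ y ∈ O1, barEmb N y ∈ O)
    (hker : ∀ (y : F₁) (hy : y ∈ O1), res ⟨barEmb N y, hO1 y hy⟩ = 0 ↔
      ∃ z ∈ O1, y = algebraMap A₁ F₁ ((ℓ : ℕ) : A₁) * z)
    (hBO : ∀ b : F₁, IsIntegral (Algebra.adjoin A₁ {j₁}) b → b ∈ O1)
    (hBinfO : ∀ b : F₁, IsIntegral (Algebra.adjoin A₁ {j₁⁻¹}) b → b ∈ O1)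
    (hsat : ∀ y ∈ O1, IsIntegral (Algebra.adjoin A₁ {j₁}) (algebraMap A₁ F₁ ((ℓ : ℕ) : A₁) * y) →
      IsIntegral (Algebra.adjoin A₁ {j₁}) y)
    (hresx : ∀ h : barEmb N j₁ ∈ O, res ⟨barEmb N j₁, h⟩ = H16.jK kA N)
    (hGRfin : ∀ γ : modularFunctionFieldFullC kA N,
      IsIntegral (Algebra.adjoin kA {H16.jK kA N}) γ →
      ∃ (b : F₁) (hb : IsIntegral (Algebra.adjoin A₁ {j₁}) b),
        res ⟨barEmb N b, hO1 b (hBO b hb)⟩ = γ)
    (hGRinf : ∀ γ : modularFunctionFieldFullC kA N,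
      IsIntegral (Algebra.adjoin kA {(H16.jK kA N)⁻¹}) γ →
      ∃ (b : F₁) (hb : IsIntegral (Algebra.adjoin A₁ {j₁⁻¹}) b),
        res ⟨barEmb N b, hO1 b (hBinfO b hb)⟩ = γ) :
    (RR.H76.ffBase_FN N).gR ≤ (H33.ffBase_Fk N ℓ hℓN kA).gR := by
  have := finiteDimensional_model N (ℓ := ℓ)
  exact gR_FN_le_gR_Fk_of_inst N hℓN A hA O hAO res hcompat O1 hO1 hker hBO hBinfO hsat hresx
    hGRfin hGRinf

end Final

end

end Fermat.Agent.S18.H40
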