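import Mathlib
import Fermat.Prelude.Def_ModularCurve_ReductionModL
import Fermat.Prelude.Def_EllipticCurve_FrobeniusTrace

set_option autoImplicit false
set_option synthInstance.maxHeartbeats 400000
set_option linter.unusedSectionVars false

noncomputable section

namespace Fermat.Agent.S18.H16

open ModularCurve AlgebraicCurve HahnSeries


section Abstract

variable {K F : Type*} [Field K] [Field F] [Algebra K F]

theorem ord_div_mul_pow_eq_zero (Q : Place K F) {a b g : F} (ha : a ≠ 0) (hb : b ≠ 0)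
    (hg : g ≠ 0) (m : ℕ) (key : Q.ord a - Q.ord b = m * Q.ord g) :
    Q.ord (a / (b * g ^ m)) = 0 := by
  have hgm : g ^ m ≠ 0 := pow_ne_zero _ hg
  rw [div_eq_mul_inv, Q.ord_mul ha (inv_ne_zero (mul_ne_zero hb hgm)), Q.ord_inv,
    Q.ord_mul hb hgm, ← zpow_natCast, Q.ord_zpow, ← key]
  ring

theorem ord_algebraMap_eq_zero (P : Place K F) {c : K} (hc : c ≠ 0) :
    P.ord (algebraMap K F c) = 0 := by
  have h1 := P.algebraMap_mem' c
  have h2 := P.algebraMap_mem' c⁻¹
  let u : P.toValuationSubringˣ :=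
    ⟨⟨_, h1⟩, ⟨_, h2⟩, Subtype.ext (by
        show algebraMap K F c * algebraMap K F c⁻¹ = 1
        rw [← map_mul, mul_inv_cancel₀ hc, map_one]),
      Subtype.ext (by
        show algebraMap K F c⁻¹ * algebraMap K F c = 1
        rw [← map_mul, inv_mul_cancel₀ hc, map_one])⟩
  exact P.ord_coe_unit u

theorem ord_pow_nat (P : Place K F) (f : F) (n : ℕ) : P.ord (f ^ n) = n * P.ord f := by
  rw [← zpow_natCast, P.ord_zpow]

theorem ord_mul_mul_inv (P : Place K F) {g p q : F} (hg : g ≠ 0) (hp : p ≠ 0) (hq : q ≠ 0) :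
    P.ord (g * p * q⁻¹) = P.ord g + P.ord p + -P.ord q := by
  rw [P.ord_mul (mul_ne_zero hg hp) (inv_ne_zero hq), P.ord_mul hg hp, P.ord_inv]

end Abstract

variable (N : ℕ) [NeZero N] (A : ValuationSubring (AlgebraicClosure ℚ))

abbrev red : LaurentSeries A →+* LaurentSeries (IsLocalRing.ResidueField A) :=
  coeffMap (IsLocalRing.residue A)

abbrev up : LaurentSeries A →+* LaurentSeries (AlgebraicClosure ℚ) :=
  coeffMap A.subtype

abbrev Fbar : IntermediateField (AlgebraicClosure ℚ) (LaurentSeries (AlgebraicClosure ℚ)) :=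
  modularFunctionFieldBar N

abbrev Fk : IntermediateField (IsLocalRing.ResidueField A)
    (LaurentSeries (IsLocalRing.ResidueField A)) :=
  modularFunctionFieldFullC (IsLocalRing.ResidueField A) N

theorem up_injective : Function.Injective (up A) := by
  intro x y hxy
  ext k
  have := congrArg (fun z => z.coeff k) hxy
  simpa using this

/-- integral `q`-series lying in `Fbar N` whose reduction is a nonzero element of `Fk`. -/
def Good (Y : LaurentSeries A) : Prop :=
  up A Y ∈ Fbar N ∧ red A Y ∈ Fk N A ∧ red A Y ≠ 0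

variable {N A}


theorem Good.up_ne_zero {Y : LaurentSeries A} (hY : Good N A Y) : up A Y ≠ 0 := by
  intro h0
  have : Y = 0 := up_injective A (by rw [h0, map_zero])
  exact hY.2.2 (by rw [this, map_zero])

theorem Good.one : Good N A 1 := by
  refine ⟨?_, ?_, ?_⟩
  · rw [map_one]; exact one_mem _
  · rw [map_one]; exact one_mem _
  · rw [map_one]; exact one_ne_zero

theorem Good.mul {Y Z : LaurentSeries A} (hY : Good N A Y) (hZ : Good N A Z) :
    Good N A (Y * Z) := by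
  refine ⟨?_, ?_, ?_⟩
  · rw [map_mul]; exact mul_mem hY.1 hZ.1
  · rw [map_mul]; exact mul_mem hY.2.1 hZ.2.1
  · rw [map_mul]; exact mul_ne_zero hY.2.2 hZ.2.2

theorem Good.pow {Y : LaurentSeries A} (hY : Good N A Y) (n : ℕ) : Good N A (Y ^ n) := by
  induction n with
  | zero => rw [pow_zero]; exact Good.one
  | succ n ih => rw [pow_succ]; exact ih.mul hY



/-- the level-`d` `j`-function over `A` lies in `Fbar N` and reduces to the one over `k`. -/
theorem up_jd_mem {d : ℕ} [NeZero d] (hd : d ∣ N) :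
    up A (qExpand A d (jqModC A)) ∈ Fbar N := by
  have h1 : up A (qExpand A d (jqModC A)) =
      coeffEmb (AlgebraicClosure ℚ) (qExpand ℚ d jq) := by
    rw [up, coeffMap_qExpand, coeffMap_jqModC, coeffEmb, coeffMap_qExpand, ← jqModC_rat,
      coeffMap_jqModC]
  rw [h1]
  exact coeffEmb_mem_laurentBaseChange _ (jqd_mem_full N hd)

theorem red_jd {d : ℕ} [NeZero d] :
    red A (qExpand A d (jqModC A)) =
      qExpand (IsLocalRing.ResidueField A) d (jqModC (IsLocalRing.ResidueField A)) := by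
  rw [red, coeffMap_qExpand, coeffMap_jqModC]

theorem up_const_mem (a : A) : up A (HahnSeries.single 0 a) ∈ Fbar N := by
  rw [up, coeffMap_single]
  have : (HahnSeries.single (0:ℤ) (A.subtype a) : LaurentSeries (AlgebraicClosure ℚ)) =
      algebraMap (AlgebraicClosure ℚ) (LaurentSeries (AlgebraicClosure ℚ)) (a : AlgebraicClosure ℚ) := by
    rw [algebraMap_laurentSeries_eq_single]; rfl
  rw [this]
  exact (Fbar N).algebraMap_mem _

theorem red_const (a : A) :
    red A (HahnSeries.single 0 a) =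
      algebraMap (IsLocalRing.ResidueField A) (LaurentSeries (IsLocalRing.ResidueField A))
        (IsLocalRing.residue A a) := by
  rw [red, coeffMap_single, algebraMap_laurentSeries_eq_single]

/-- every element of the `k`-subalgebra generated by the `j(q^d)` lifts. -/
theorem exists_lift_of_mem_algebraAdjoin {x : LaurentSeries (IsLocalRing.ResidueField A)}
    (hx : x ∈ Algebra.adjoin (IsLocalRing.ResidueField A)
      (divisorExpansionsC (IsLocalRing.ResidueField A) N)) :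
    ∃ Y : LaurentSeries A, up A Y ∈ Fbar N ∧ red A Y = x := by
  induction hx using Algebra.adjoin_induction with
  | mem x hx =>
    obtain ⟨d, hne, hd, rfl⟩ := hx
    have := hne
    exact ⟨qExpand A d (jqModC A), up_jd_mem hd, red_jd⟩
  | algebraMap c =>
    obtain ⟨a, rfl⟩ := IsLocalRing.residue_surjective c
    exact ⟨HahnSeries.single 0 a, up_const_mem a, red_const a⟩
  | add x y _ _ hx hy =>
    obtain ⟨X, hX, rfl⟩ := hx
    obtain ⟨Y, hY, rfl⟩ := hy
    exact ⟨X + Y, by rw [map_add]; exact add_mem hX hY, map_add _ _ _⟩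
  | mul x y _ _ hx hy =>
    obtain ⟨X, hX, rfl⟩ := hx
    obtain ⟨Y, hY, rfl⟩ := hy
    exact ⟨X * Y, by rw [map_mul]; exact mul_mem hX hY, map_mul _ _ _⟩

theorem mem_Fk_of_mem_algebraAdjoin {x : LaurentSeries (IsLocalRing.ResidueField A)}
    (hx : x ∈ Algebra.adjoin (IsLocalRing.ResidueField A)
      (divisorExpansionsC (IsLocalRing.ResidueField A) N)) : x ∈ Fk N A :=
  IntermediateField.algebra_adjoin_le_adjoin _ _ hx



variable (N A) in
/-- The `r`-free, divisor-free core of S18. -/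
def Star (m : ℕ) : Prop :=
  ∀ (Y₁ Y₂ : LaurentSeries A) (h₁ : up A Y₁ ∈ Fbar N) (h₂ : up A Y₂ ∈ Fbar N),
    red A Y₁ = red A Y₂ → red A Y₁ ∈ Fk N A → red A Y₁ ≠ 0 →
    (∀ P : Place (AlgebraicClosure ℚ) (Fbar N),
      (m : ℤ) ∣ P.ord (⟨up A Y₁, h₁⟩ : Fbar N) - P.ord (⟨up A Y₂, h₂⟩ : Fbar N)) →
    ∃ g : Fbar N, g ≠ 0 ∧ ∀ P : Place (AlgebraicClosure ℚ) (Fbar N),
      P.ord (⟨up A Y₁, h₁⟩ : Fbar N) - P.ord (⟨up A Y₂, h₂⟩ : Fbar N) = m * P.ord g

variable (N A) in
/-- On the special fibre: no zeros and no poles implies constant. -/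
def ConstK : Prop :=
  ∀ x : Fk N A, x ≠ 0 →
    (∀ Q : Place (IsLocalRing.ResidueField A) (Fk N A), Q.ord x = 0) →
    ∃ c : IsLocalRing.ResidueField A, x = algebraMap (IsLocalRing.ResidueField A) (Fk N A) c

variable (N A) in
/-- `E` is the difference of the divisors of two good series. -/
def IsGoodDiff (E : Divisor (AlgebraicClosure ℚ) (Fbar N)) : Prop :=
  ∃ (Ya Yb : LaurentSeries A) (ha : Good N A Ya) (hb : Good N A Yb)
    (Da Db : Divisor (AlgebraicClosure ℚ) (Fbar N)),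
    (∀ P, Da P = P.ord (⟨up A Ya, ha.1⟩ : Fbar N)) ∧
    (∀ P, Db P = P.ord (⟨up A Yb, hb.1⟩ : Fbar N)) ∧ E = Da - Db

theorem ord_up_mul (P : Place (AlgebraicClosure ℚ) (Fbar N)) {Y Z : LaurentSeries A}
    (hY : Good N A Y) (hZ : Good N A Z) :
    P.ord (⟨up A (Y * Z), (hY.mul hZ).1⟩ : Fbar N) =
      P.ord (⟨up A Y, hY.1⟩ : Fbar N) + P.ord (⟨up A Z, hZ.1⟩ : Fbar N) := by
  have h : (⟨up A (Y * Z), (hY.mul hZ).1⟩ : Fbar N) =
      (⟨up A Y, hY.1⟩ : Fbar N) * (⟨up A Z, hZ.1⟩ : Fbar N) :=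
    Subtype.ext (map_mul _ _ _)
  rw [h, P.ord_mul]
  · intro h0; exact hY.up_ne_zero (congrArg Subtype.val h0)
  · intro h0; exact hZ.up_ne_zero (congrArg Subtype.val h0)

theorem ord_up_one (P : Place (AlgebraicClosure ℚ) (Fbar N)) :
    P.ord (⟨up A 1, (Good.one (N := N) (A := A)).1⟩ : Fbar N) = 0 := by
  have h : (⟨up A 1, (Good.one (N := N) (A := A)).1⟩ : Fbar N) = 1 := Subtype.ext (map_one _)
  rw [h, P.ord_one]

theorem IsGoodDiff.zero : IsGoodDiff N A 0 :=
  ⟨1, 1, Good.one, Good.one, 0, 0, fun P => by rw [ord_up_one]; rfl,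
    fun P => by rw [ord_up_one]; rfl, by rw [sub_zero]⟩

theorem IsGoodDiff.neg {E : Divisor (AlgebraicClosure ℚ) (Fbar N)} (hE : IsGoodDiff N A E) :
    IsGoodDiff N A (-E) := by
  obtain ⟨Ya, Yb, ha, hb, Da, Db, hDa, hDb, rfl⟩ := hE
  exact ⟨Yb, Ya, hb, ha, Db, Da, hDb, hDa, by rw [neg_sub]⟩

theorem IsGoodDiff.add {E E' : Divisor (AlgebraicClosure ℚ) (Fbar N)} (hE : IsGoodDiff N A E)
    (hE' : IsGoodDiff N A E') : IsGoodDiff N A (E + E') := by
  obtain ⟨Ya, Yb, ha, hb, Da, Db, hDa, hDb, rfl⟩ := hE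
  obtain ⟨Ya', Yb', ha', hb', Da', Db', hDa', hDb', rfl⟩ := hE'
  refine ⟨Ya * Ya', Yb * Yb', ha.mul ha', hb.mul hb', Da + Da', Db + Db', fun P => ?_, fun P => ?_,
    by abel⟩
  · rw [ord_up_mul P ha ha', Finsupp.add_apply, hDa, hDa']
  · rw [ord_up_mul P hb hb', Finsupp.add_apply, hDb, hDb']

theorem isGoodDiff_of_mem_principal
    (hgen : PrincipalGeneratedByIntegral A (IsLocalRing.residue A) N)
    {E : Divisor (AlgebraicClosure ℚ) (Fbar N)}
    (hE : E ∈ Divisor.principal (K := AlgebraicClosure ℚ) (F := Fbar N)) : IsGoodDiff N A E := by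
  have hE' := hgen hE
  clear hE
  induction hE' using AddSubgroup.closure_induction with
  | mem E hE =>
    obtain ⟨y, hy, hyk, hne, hDy⟩ := hE
    exact ⟨y, 1, ⟨hy, hyk, hne⟩, Good.one, E, 0, hDy, fun P => by rw [ord_up_one]; rfl,
      by rw [sub_zero]⟩
  | zero => exact IsGoodDiff.zero
  | add E E' _ _ hE hE' => exact hE.add hE'
  | neg E _ hE => exact hE.neg



set_option maxHeartbeats 1000000 in
theorem S18_of_star {ℓ : ℕ} [Fact ℓ.Prime] (_hℓN : ¬ ℓ ∣ N) (_hA : A.LiesOverPrime ℓ)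
    (h : ReductionInputsModL A N) (m : ℕ) (hm : ¬ ℓ ∣ m) (hconst : ConstK N A)
    (hstar : Star N A m) (z : JZero N) (hmz : m • z = 0) (hz : reductionModL A N z = 0) :
    z = 0 := by
  have hm0 : m ≠ 0 := fun h0 => hm (h0 ▸ dvd_zero ℓ)
  have hm0' : (m : ℤ) ≠ 0 := by exact_mod_cast hm0
  obtain ⟨D, rfl⟩ := Pic0.mk_surjective z
  have hr : IsPlaceReductionModL A N (placeReductionModL h) :=
    isPlaceReductionModL_placeReductionModL h
  have hgen : PrincipalGeneratedByIntegral A (IsLocalRing.residue A) N := h.choose_spec.2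
  set r := placeReductionModL h with hrdef
  -- `m • D` is principal
  have hmD : (m • (D : Divisor (AlgebraicClosure ℚ) (Fbar N))) ∈
      Divisor.principal (K := AlgebraicClosure ℚ) (F := Fbar N) := by
    have h1 : Pic0.mk (m • D) = 0 := by
      rw [← hmz]; exact QuotientAddGroup.mk_nsmul _ D m
    have h2 := (QuotientAddGroup.eq_zero_iff _).mp h1
    rw [AddSubgroup.mem_addSubgroupOf] at h2
    simpa using h2
  -- `r_* D` is principal
  have hrD : Finsupp.mapDomain r (D : Divisor (AlgebraicClosure ℚ) (Fbar N)) ∈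
      Divisor.principal (K := IsLocalRing.ResidueField A) (F := Fk N A) := by
    rw [reductionModL_mk h D] at hz
    have h2 := (QuotientAddGroup.eq_zero_iff _).mp hz
    rw [AddSubgroup.mem_addSubgroupOf] at h2
    simpa using h2
  obtain ⟨Ya, Yb, ha, hb, Da, Db, hDa, hDb, hE⟩ := isGoodDiff_of_mem_principal hgen hmD
  obtain ⟨gbar, hg0, hgD⟩ := hrD
  have hra : ∀ Q, Finsupp.mapDomain r Da Q = Q.ord (⟨red A Ya, ha.2.1⟩ : Fk N A) :=
    hr.2 Ya ha.1 ha.2.1 ha.2.2 Da hDa
  have hrb : ∀ Q, Finsupp.mapDomain r Db Q = Q.ord (⟨red A Yb, hb.2.1⟩ : Fk N A) :=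
    hr.2 Yb hb.1 hb.2.1 hb.2.2 Db hDb
  have hak : (⟨red A Ya, ha.2.1⟩ : Fk N A) ≠ 0 := fun h0 => ha.2.2 (congrArg Subtype.val h0)
  have hbk : (⟨red A Yb, hb.2.1⟩ : Fk N A) ≠ 0 := fun h0 => hb.2.2 (congrArg Subtype.val h0)
  have key : ∀ Q : Place (IsLocalRing.ResidueField A) (Fk N A),
      Q.ord (⟨red A Ya, ha.2.1⟩ : Fk N A) - Q.ord (⟨red A Yb, hb.2.1⟩ : Fk N A) =
        m * Q.ord gbar := by
    intro Q
    rw [← hra, ← hrb, ← hgD Q, ← Finsupp.sub_apply, ← Finsupp.mapDomain_sub, ← hE,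
      Finsupp.mapDomain_smul, Finsupp.smul_apply, nsmul_eq_mul]
  -- the quotient has trivial divisor, hence is constant
  have hgm : gbar ^ m ≠ 0 := pow_ne_zero _ hg0
  obtain ⟨c, hc⟩ := hconst
    ((⟨red A Ya, ha.2.1⟩ : Fk N A) / ((⟨red A Yb, hb.2.1⟩ : Fk N A) * gbar ^ m))
    (div_ne_zero hak (mul_ne_zero hbk hgm))
    (fun Q => ord_div_mul_pow_eq_zero Q hak hbk hg0 m (key Q))
  have hc0 : c ≠ 0 := by
    rintro rfl
    rw [map_zero] at hc
    exact div_ne_zero hak (mul_ne_zero hbk hgm) hc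
  -- lift `gbar = Pbar / Qbar`
  obtain ⟨pbar, hp, qbar, hq, hpq⟩ := IntermediateField.mem_adjoin_iff_div.mp gbar.2
  obtain ⟨Pl, hPl, hPred⟩ := exists_lift_of_mem_algebraAdjoin (N := N) hp
  obtain ⟨Ql, hQl, hQred⟩ := exists_lift_of_mem_algebraAdjoin (N := N) hq
  have hg0' : (gbar : LaurentSeries (IsLocalRing.ResidueField A)) ≠ 0 :=
    fun h0 => hg0 (Subtype.ext h0)
  have hq0 : qbar ≠ 0 := by
    rintro rfl
    rw [div_zero] at hpq
    exact hg0' hpq
  have hp0 : pbar ≠ 0 := by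
    rintro rfl
    rw [zero_div] at hpq
    exact hg0' hpq
  have hPg : Good N A Pl := ⟨hPl, by rw [hPred]; exact mem_Fk_of_mem_algebraAdjoin hp,
    by rw [hPred]; exact hp0⟩
  have hQg : Good N A Ql := ⟨hQl, by rw [hQred]; exact mem_Fk_of_mem_algebraAdjoin hq,
    by rw [hQred]; exact hq0⟩
  obtain ⟨c1, hc1⟩ := IsLocalRing.residue_surjective c
  have hCg : Good N A (HahnSeries.single 0 c1) := by
    refine ⟨up_const_mem c1, ?_, ?_⟩
    · rw [red_const]; exact (Fk N A).algebraMap_mem _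
    · rw [red_const, hc1]
      intro h0
      exact hc0 ((algebraMap (IsLocalRing.ResidueField A)
        (LaurentSeries (IsLocalRing.ResidueField A))).injective (by rw [h0, map_zero]))
  have hc1ne : (c1 : AlgebraicClosure ℚ) ≠ 0 := by
    intro h0
    have : c1 = 0 := Subtype.ext h0
    rw [this, map_zero] at hc1
    exact hc0 hc1.symm
  -- the two series
  have hY1 : Good N A (Ya * Ql ^ m) := ha.mul (hQg.pow m)
  have hY2 : Good N A (HahnSeries.single 0 c1 * (Yb * Pl ^ m)) := hCg.mul (hb.mul (hPg.pow m))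
  have hredeq : red A (Ya * Ql ^ m) = red A (HahnSeries.single 0 c1 * (Yb * Pl ^ m)) := by
    have hc' := congrArg Subtype.val hc
    simp only [IntermediateField.coe_div, IntermediateField.coe_mul, IntermediateField.coe_pow]
      at hc'
    rw [map_mul, map_mul, map_mul, map_pow, map_pow, hPred, hQred, red_const, hc1]
    have hcc : ((algebraMap (IsLocalRing.ResidueField A) (Fk N A) c : Fk N A) :
        LaurentSeries (IsLocalRing.ResidueField A)) =
        algebraMap (IsLocalRing.ResidueField A) (LaurentSeries (IsLocalRing.ResidueField A)) c :=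
      rfl
    rw [hcc, hpq] at hc'
    have hx0 : (red A) Yb * (pbar / qbar) ^ m ≠ 0 :=
      mul_ne_zero hb.2.2 (pow_ne_zero _ (div_ne_zero hp0 hq0))
    have e1 : (red A) Ya = algebraMap (IsLocalRing.ResidueField A)
        (LaurentSeries (IsLocalRing.ResidueField A)) c * ((red A) Yb * (pbar / qbar) ^ m) := by
      rw [← hc', div_mul_cancel₀ _ hx0]
    have e2 : (pbar / qbar) ^ m * qbar ^ m = pbar ^ m := by
      rw [← mul_pow, div_mul_cancel₀ _ hq0]
    rw [e1, mul_assoc, mul_assoc, e2]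
  -- ords of the pieces
  have hordC : ∀ P : Place (AlgebraicClosure ℚ) (Fbar N),
      P.ord (⟨up A (HahnSeries.single 0 c1), hCg.1⟩ : Fbar N) = 0 := by
    intro P
    have : (⟨up A (HahnSeries.single 0 c1), hCg.1⟩ : Fbar N) =
        algebraMap (AlgebraicClosure ℚ) (Fbar N) (c1 : AlgebraicClosure ℚ) := by
      apply Subtype.ext
      show up A (HahnSeries.single 0 c1) = algebraMap (AlgebraicClosure ℚ) _ (c1 : AlgebraicClosure ℚ)
      rw [up, coeffMap_single, algebraMap_laurentSeries_eq_single]; rfl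
    rw [this]
    exact ord_algebraMap_eq_zero P hc1ne
  have hordpow : ∀ (P : Place (AlgebraicClosure ℚ) (Fbar N)) {Y : LaurentSeries A}
      (hY : Good N A Y) (n : ℕ),
      P.ord (⟨up A (Y ^ n), (hY.pow n).1⟩ : Fbar N) = n * P.ord (⟨up A Y, hY.1⟩ : Fbar N) := by
    intro P Y hY n
    have : (⟨up A (Y ^ n), (hY.pow n).1⟩ : Fbar N) = (⟨up A Y, hY.1⟩ : Fbar N) ^ n :=
      Subtype.ext (map_pow _ _ _)
    rw [this, ord_pow_nat]
  have hord1 : ∀ P : Place (AlgebraicClosure ℚ) (Fbar N),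
      P.ord (⟨up A (Ya * Ql ^ m), hY1.1⟩ : Fbar N) =
        P.ord (⟨up A Ya, ha.1⟩ : Fbar N) + m * P.ord (⟨up A Ql, hQg.1⟩ : Fbar N) := by
    intro P
    rw [ord_up_mul P ha (hQg.pow m), hordpow P hQg m]
  have hord2 : ∀ P : Place (AlgebraicClosure ℚ) (Fbar N),
      P.ord (⟨up A (HahnSeries.single 0 c1 * (Yb * Pl ^ m)), hY2.1⟩ : Fbar N) =
        P.ord (⟨up A Yb, hb.1⟩ : Fbar N) + m * P.ord (⟨up A Pl, hPg.1⟩ : Fbar N) := by
    intro P
    rw [ord_up_mul P hCg (hb.mul (hPg.pow m)), hordC P, zero_add, ord_up_mul P hb (hPg.pow m),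
      hordpow P hPg m]
  have hDP : ∀ P : Place (AlgebraicClosure ℚ) (Fbar N),
      (m : ℤ) * (D : Divisor (AlgebraicClosure ℚ) (Fbar N)) P =
        P.ord (⟨up A Ya, ha.1⟩ : Fbar N) - P.ord (⟨up A Yb, hb.1⟩ : Fbar N) := by
    intro P
    have := congrArg (fun E => E P) hE
    simp only [Finsupp.smul_apply, Finsupp.sub_apply, nsmul_eq_mul] at this
    rw [this, hDa, hDb]
  obtain ⟨g, hg, hgP⟩ := hstar (Ya * Ql ^ m) (HahnSeries.single 0 c1 * (Yb * Pl ^ m)) hY1.1 hY2.1
    hredeq hY1.2.1 hY1.2.2 (fun P => by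
      rw [hord1, hord2]
      refine ⟨(D : Divisor (AlgebraicClosure ℚ) (Fbar N)) P +
        P.ord (⟨up A Ql, hQg.1⟩ : Fbar N) - P.ord (⟨up A Pl, hPg.1⟩ : Fbar N), ?_⟩
      have := hDP P
      linear_combination -this)
  -- conclusion
  have hPF : (⟨up A Pl, hPg.1⟩ : Fbar N) ≠ 0 := fun h0 => hPg.up_ne_zero (congrArg Subtype.val h0)
  have hQF : (⟨up A Ql, hQg.1⟩ : Fbar N) ≠ 0 := fun h0 => hQg.up_ne_zero (congrArg Subtype.val h0)
  have hprin : (D : Divisor (AlgebraicClosure ℚ) (Fbar N)) ∈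
      Divisor.principal (K := AlgebraicClosure ℚ) (F := Fbar N) := by
    refine ⟨g * (⟨up A Pl, hPg.1⟩ : Fbar N) * (⟨up A Ql, hQg.1⟩ : Fbar N)⁻¹,
      mul_ne_zero (mul_ne_zero hg hPF) (inv_ne_zero hQF), fun P => ?_⟩
    rw [ord_mul_mul_inv P hg hPF hQF]
    have h1 := hgP P
    rw [hord1, hord2] at h1
    have h2 := hDP P
    have h3 : (m : ℤ) * ((D : Divisor (AlgebraicClosure ℚ) (Fbar N)) P) =
        (m : ℤ) * (P.ord g + P.ord (⟨up A Pl, hPg.1⟩ : Fbar N) +
          -P.ord (⟨up A Ql, hQg.1⟩ : Fbar N)) := by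
      linear_combination h2 + h1
    exact mul_left_cancel₀ hm0' h3
  show Pic0.mk D = 0
  rw [Pic0.mk, QuotientAddGroup.eq_zero_iff, AddSubgroup.mem_addSubgroupOf]
  exact hprin

end Fermat.Agent.S18.H16
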