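import Mathlib
import Fermat.Prelude.Def_ModularCurve_ReductionModL
import Fermat.Agent.S18.H92_GaussModel
import Fermat.Agent.S18.H16_Step0
import Fermat.Agent.S18.H95_BranchData
import Fermat.Agent.S28.H99_Degree
import Fermat.Agent.S24.H40_Generation

/-!
# S18 / R0 (helper92): the Gauss valuation ring of `X₀(N)` over a valuation subring of `Qbar`

Instance of `H92_GaussModel` for `x = j`, `y = j_N`, `Φ = Φ_N`.  The only external input is the
linear independence `IndepK k N` of `1, j̄_N, …, j̄_N^(ψ-1)` over `k[j̄]` in `k((q))`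
(S28: `Φ_N mod ℓ` is irreducible; helper16's (B5)).
-/

set_option autoImplicit false
set_option synthInstance.maxHeartbeats 400000

noncomputable section

namespace Fermat.Agent.S18.H92

open ModularCurve Polynomial AlgebraicCurve

/-- `(V1)`: the powers `1, j_N, …, j_N^(ψ(N)-1)` are linearly independent over `k[j]` in
`k((q))`. -/
def IndepK (k : Type*) [Field k] (N : ℕ) [NeZero N] : Prop :=
  ∀ P : k[X][X], P.degree < dedekindPsi N → ev2 (jqModC k) (jqNModC k N) P = 0 → P = 0

section Root

variable (N : ℕ) [NeZero N]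

theorem ev2_int_eq_zero (D : ModularPolynomialData N) :
    ev2 (jqModC ℤ) (jqNModC ℤ N) D.Φ = 0 := by
  have hinj : Function.Injective (coeffMap (Int.castRingHom ℚ)) :=
    coeffMap_injective (RingHom.injective_int _)
  apply hinj
  rw [map_zero, coeffMap_ev2, coeffMap_jqModC, coeffMap_jqNModC]
  have h := D.eval_eq_zero
  rw [← h]
  show ev2 (jqModC ℚ) (jqNModC ℚ N) _ = _
  rw [ev2_apply, Polynomial.eval₂_map]
  congr 1
  apply Polynomial.ringHom_ext
  · intro a
    simp [evalAtJ]
  · simp [evalAtJ, jqModC_rat]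

theorem ev2_map_eq_zero (D : ModularPolynomialData N) (R : Type*) [CommRing R] :
    ev2 (jqModC R) (jqNModC R N) (D.Φ.map (Polynomial.mapRingHom (Int.castRingHom R))) = 0 := by
  rw [← coeffMap_jqModC (Int.castRingHom R), ← coeffMap_jqNModC (Int.castRingHom R),
    ← coeffMap_ev2, ev2_int_eq_zero, map_zero]

end Root

section Inst

variable (A : ValuationSubring (AlgebraicClosure ℚ)) (N : ℕ) [NeZero N]

/-- The two-generator datum of `X₀(N)` over `A`. -/
def twoGen (D : ModularPolynomialData N) (hind : IndepK (IsLocalRing.ResidueField A) N) :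
    TwoGen A (IsLocalRing.residue A) where
  x := jqModC A
  y := jqNModC A N
  n := dedekindPsi N
  Φ := D.Φ.map (Polynomial.mapRingHom (Int.castRingHom A))
  monic := D.monic.map _
  natDegree_eq := by rw [D.monic.natDegree_map, D.natDegree_eq]
  root := ev2_map_eq_zero N D A
  indep := by
    intro P hdeg h
    rw [coeffMap_jqModC, coeffMap_jqNModC] at h
    exact hind P hdeg h
  surj := IsLocalRing.residue_surjective

variable (D : ModularPolynomialData N) (hind : IndepK (IsLocalRing.ResidueField A) N)

theorem twoGen_xL : (twoGen A N D hind).xL = jqModC (AlgebraicClosure ℚ) :=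
  coeffMap_jqModC _

theorem twoGen_yL : (twoGen A N D hind).yL = jqNModC (AlgebraicClosure ℚ) N :=
  coeffMap_jqNModC _ _

theorem twoGen_xk : (twoGen A N D hind).xk = jqModC (IsLocalRing.ResidueField A) :=
  coeffMap_jqModC _

theorem twoGen_yk : (twoGen A N D hind).yk = jqNModC (IsLocalRing.ResidueField A) N :=
  coeffMap_jqNModC _ _

/-- **generation in characteristic zero**: `F_N Qbar = Qbar(j, j_N)`. -/
theorem FL_eq : modularFunctionFieldBar N = (twoGen A N D hind).FL := by
  show laurentBaseChange (AlgebraicClosure ℚ) (modularFunctionFieldFull N) = _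
  rw [← Fermat.Agent.S28.H99.modularFunctionField_eq_full, modularFunctionField,
    Fermat.Agent.S24.H40.laurentBaseChange_adjoin, Set.image_pair, TwoGen.FL, twoGen_xL, twoGen_yL]
  congr 2
  · rw [coeffEmb, ← jqModC_rat, coeffMap_jqModC]
  · rw [coeffEmb, ← jqModC_rat, coeffMap_qExpand, coeffMap_jqModC]; rfl

/-- **generation in characteristic `ℓ`** (for free from the Gauss model): `F̄_N = k(j̄, j̄_N)`. -/
theorem Fk_eq :
    modularFunctionFieldFullC (IsLocalRing.ResidueField A) N = (twoGen A N D hind).Fk := by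
  apply le_antisymm
  · rw [modularFunctionFieldFullC, IntermediateField.adjoin_le_iff]
    rintro x ⟨d, hne, hd, rfl⟩
    haveI := hne
    have hz : up A (qExpand A d (jqModC A)) ∈ (twoGen A N D hind).FL := by
      rw [← FL_eq]; exact Fermat.Agent.S18.H16.up_jd_mem hd
    obtain ⟨-, h2⟩ := (twoGen A N D hind).up_mem_ball hz
    have h3 := (twoGen A N D hind).resFun_mem_Fk (up A (qExpand A d (jqModC A)))
    rw [h2] at h3
    have h4 : (twoGen A N D hind).red (qExpand A d (jqModC A)) =
        qExpand (IsLocalRing.ResidueField A) d (jqModC (IsLocalRing.ResidueField A)) :=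
      Fermat.Agent.S18.H16.red_jd
    rw [h4] at h3
    exact h3
  · rw [TwoGen.Fk, IntermediateField.adjoin_le_iff]
    rintro x (rfl | rfl)
    · rw [twoGen_xk]; exact jqModC_mem_full _ _
    · rw [twoGen_yk]; exact jqModCd_mem_full _ _ dvd_rfl

/-- **The Gauss valuation ring** of `F_N Qbar` attached to `A`. -/
def gaussO : ValuationSubring (modularFunctionFieldBar N) :=
  (twoGen A N D hind).unitBall (modularFunctionFieldBar N) (FL_eq A N D hind)

/-- **The reduction map** `O_v → F̄_N`. -/
def gaussRes : gaussO A N D hind →+* modularFunctionFieldFullC (IsLocalRing.ResidueField A) N :=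
  (twoGen A N D hind).resHom _ (FL_eq A N D hind) _ (Fk_eq A N D hind)

theorem gaussRes_surjective : Function.Surjective (gaussRes A N D hind) :=
  (twoGen A N D hind).resHom_surjective _ _ _ _

theorem gaussRes_eq_zero_iff (f : gaussO A N D hind) :
    gaussRes A N D hind f = 0 ↔ ¬ IsUnit f :=
  (twoGen A N D hind).resHom_eq_zero_iff _ _ _ _ f

/-- **(C)** -/
theorem algebraMap_mem_gaussO_iff (c : AlgebraicClosure ℚ) :
    algebraMap (AlgebraicClosure ℚ) (modularFunctionFieldBar N) c ∈ gaussO A N D hind ↔ c ∈ A :=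
  (twoGen A N D hind).algebraMap_mem_unitBall_iff _ _ c

theorem gaussRes_algebraMap (a : A) :
    gaussRes A N D hind ⟨algebraMap (AlgebraicClosure ℚ) (modularFunctionFieldBar N) a,
        (algebraMap_mem_gaussO_iff A N D hind a).mpr a.2⟩ =
      algebraMap (IsLocalRing.ResidueField A) _ (IsLocalRing.residue A a) :=
  (twoGen A N D hind).resHom_algebraMap _ _ _ _ a

/-- **(V4)** -/
theorem exists_const_mul_mem_gaussO (f : modularFunctionFieldBar N) (hf : f ≠ 0) :
    ∃ c : AlgebraicClosure ℚ, c ≠ 0 ∧
      ∃ h : algebraMap (AlgebraicClosure ℚ) (modularFunctionFieldBar N) c * f ∈ gaussO A N D hind,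
        gaussRes A N D hind ⟨_, h⟩ ≠ 0 :=
  (twoGen A N D hind).exists_const_mul_mem _ _ _ _ f hf

/-- **(V3)**: an `A`-integral `q`-expansion in `F_N Qbar` lies in `O_v` and its residue is its
coefficientwise reduction (in particular the latter lies in `F̄_N`). -/
theorem up_mem_gaussO {z : LaurentSeries A}
    (hz : coeffMap A.subtype z ∈ modularFunctionFieldBar N) :
    ∃ h : (⟨coeffMap A.subtype z, hz⟩ : modularFunctionFieldBar N) ∈ gaussO A N D hind,
      ((gaussRes A N D hind ⟨_, h⟩ : modularFunctionFieldFullC (IsLocalRing.ResidueField A) N) :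
        LaurentSeries (IsLocalRing.ResidueField A)) = coeffMap (IsLocalRing.residue A) z :=
  (twoGen A N D hind).up_mem_unitBall _ _ _ _ hz

include D hind in
/-- the frozen side condition `hyk` is automatic. -/
theorem red_mem_of_up_mem {z : LaurentSeries A}
    (hz : coeffMap A.subtype z ∈ modularFunctionFieldBar N) :
    coeffMap (IsLocalRing.residue A) z ∈
      modularFunctionFieldFullC (IsLocalRing.ResidueField A) N := by
  obtain ⟨h, h2⟩ := up_mem_gaussO A N D hind hz
  rw [← h2]
  exact Subtype.property _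

/-- an `A`-integral `q`-expansion in `F_N Qbar` with nonzero reduction is a unit of `O_v`. -/
theorem isUnit_of_red_ne_zero {z : LaurentSeries A}
    (hz : coeffMap A.subtype z ∈ modularFunctionFieldBar N)
    (hne : coeffMap (IsLocalRing.residue A) z ≠ 0) :
    ∃ h : (⟨coeffMap A.subtype z, hz⟩ : modularFunctionFieldBar N) ∈ gaussO A N D hind,
      IsUnit (⟨_, h⟩ : gaussO A N D hind) ∧
      ((gaussRes A N D hind ⟨_, h⟩ : modularFunctionFieldFullC (IsLocalRing.ResidueField A) N) :
        LaurentSeries (IsLocalRing.ResidueField A)) = coeffMap (IsLocalRing.residue A) z := by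
  obtain ⟨h, h2⟩ := up_mem_gaussO A N D hind hz
  refine ⟨h, ?_, h2⟩
  by_contra hnu
  have h0 := (gaussRes_eq_zero_iff A N D hind ⟨_, h⟩).mpr hnu
  apply hne
  rw [← h2, h0]; rfl

include D hind in
/-- **(PGI)** principal divisors of `F_N Qbar` are generated by divisors of `A`-integral
`q`-expansions with nonzero reduction. -/
theorem principalGeneratedByIntegral :
    PrincipalGeneratedByIntegral A (IsLocalRing.residue A) N := by
  intro D' hD'
  obtain ⟨f, hf0, hDf⟩ := hD'
  obtain ⟨c, a, b, ha, hb, hc, ha0, hb0, hak, hbk, h⟩ :=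
    (twoGen A N D hind).exists_integral_frac (modularFunctionFieldBar N) (FL_eq A N D hind)
      (modularFunctionFieldFullC (IsLocalRing.ResidueField A) N) (Fk_eq A N D hind) f hf0
  set a' : modularFunctionFieldBar N := ⟨up A a, ha⟩ with ha'
  set b' : modularFunctionFieldBar N := ⟨up A b, hb⟩ with hb'
  have ha'0 : a' ≠ 0 := by
    intro h0
    have h1 : up A a = 0 := congrArg Subtype.val h0
    have h2 : a = 0 := up_injective A (by rw [h1, map_zero])
    exact ha0 (by rw [h2, map_zero])
  have hb'0 : b' ≠ 0 := by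
    intro h0
    have h1 : up A b = 0 := congrArg Subtype.val h0
    have h2 : b = 0 := up_injective A (by rw [h1, map_zero])
    exact hb0 (by rw [h2, map_zero])
  obtain ⟨Da, hDa, -⟩ := Fermat.Agent.S18.H95.exists_principal_divisor N a' ha'0
  obtain ⟨Db, hDb, -⟩ := Fermat.Agent.S18.H95.exists_principal_divisor N b' hb'0
  have hcF : algebraMap (AlgebraicClosure ℚ) (modularFunctionFieldBar N) c ≠ 0 := by
    rw [Ne, map_eq_zero]; exact hc
  have hD : D' = Da - Db := by
    ext P
    rw [Finsupp.sub_apply, hDf, hDa, hDb, ← h, P.ord_mul (mul_ne_zero hcF hf0) hb'0,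
      P.ord_mul hcF hf0, Fermat.Agent.S18.H16.ord_algebraMap_eq_zero P hc]
    ring
  rw [hD]
  refine AddSubgroup.sub_mem _ (AddSubgroup.subset_closure ?_) (AddSubgroup.subset_closure ?_)
  · exact ⟨a, ha, hak, ha0, hDa⟩
  · exact ⟨b, hb, hbk, hb0, hDb⟩

end Inst

end Fermat.Agent.S18.H92
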