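import Mathlib
import Fermat.Agent.S18.H92_GaussInst
import Fermat.Agent.S18.H16_FKGen

/-!
# S18 / R0 (helper92): discharge of `IndepK` from helper16's (B5), and the hypothesis-free
Gauss model of `X₀(N)` at a valuation subring of `Qbar` over `ℓ ∤ N`.
-/

set_option autoImplicit false
set_option synthInstance.maxHeartbeats 400000

noncomputable section

namespace Fermat.Agent.S18.H92

open ModularCurve Polynomial AlgebraicCurve

/-- `(V1)` for every field in which `N ≠ 0` (S28 + helper16's `eval_map_iotaJ_ne_zero_gen`). -/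
theorem indepK (N : ℕ) [NeZero N] (K : Type) [Field K] (hNK : ((N : ℕ) : K) ≠ 0) :
    IndepK K N := by
  intro P hdeg h
  by_contra hP
  have hinj : Function.Injective (algebraMap K[X] (RatFunc K)) :=
    IsFractionRing.injective K[X] (RatFunc K)
  have hP' : P.map (algebraMap K[X] (RatFunc K)) ≠ 0 :=
    (Polynomial.map_ne_zero_iff hinj).mpr hP
  have hdeg' : (P.map (algebraMap K[X] (RatFunc K))).natDegree < dedekindPsi N := by
    rw [Polynomial.natDegree_map_eq_of_injective hinj]
    rw [Polynomial.degree_eq_natDegree hP] at hdeg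
    exact_mod_cast hdeg
  apply Fermat.Agent.S18.H16.eval_map_iotaJ_ne_zero_gen N K hNK hP' hdeg'
  rw [Polynomial.map_map, Polynomial.eval_map]
  rw [ev2_apply] at h
  rw [← h]
  congr 1
  apply RingHom.ext
  intro p
  show Fermat.Agent.S18.H16.iotaJ K (algebraMap K[X] (RatFunc K) p) = Polynomial.aeval (jqModC K) p
  exact Fermat.Agent.S28.H16.ratFuncToLaurent_algebraMap _ _ p

section Residue

variable (N : ℕ) [NeZero N] {ℓ : ℕ} [Fact ℓ.Prime] (hℓN : ¬ ℓ ∣ N)
  (A : ValuationSubring (AlgebraicClosure ℚ)) (hA : A.LiesOverPrime ℓ)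

include hA in
theorem charP_residueField : CharP (IsLocalRing.ResidueField A) ℓ := by
  have hℓ : (ℓ : AlgebraicClosure ℚ) ∈ A := A.nonunits_le hA
  have h0 : ((ℓ : ℕ) : IsLocalRing.ResidueField A) = 0 := by
    have h1 : IsLocalRing.residue A ⟨(ℓ : AlgebraicClosure ℚ), hℓ⟩ = 0 := by
      rw [IsLocalRing.residue_eq_zero_iff]
      exact (A.mem_nonunits_iff_exists_mem_maximalIdeal.mp hA).2
    have h2 : (⟨(ℓ : AlgebraicClosure ℚ), hℓ⟩ : A) = ((ℓ : ℕ) : A) := by
      apply Subtype.ext; simp
    rw [h2, map_natCast] at h1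
    exact h1
  exact (CharP.charP_iff_prime_eq_zero (Fact.out : ℓ.Prime)).mpr h0

include hℓN hA in
theorem natCast_residueField_ne_zero : ((N : ℕ) : IsLocalRing.ResidueField A) ≠ 0 := by
  haveI := charP_residueField A hA
  rw [Ne, CharP.cast_eq_zero_iff (IsLocalRing.ResidueField A) ℓ]
  exact hℓN

include hℓN hA in
/-- `(V1)` at the residue field of a valuation subring of `Qbar` over `ℓ ∤ N`. -/
theorem indepK_residueField : IndepK (IsLocalRing.ResidueField A) N :=
  indepK N _ (natCast_residueField_ne_zero N hℓN A hA)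

/-- a fixed modular polynomial datum of level `N` -/
def modData : ModularPolynomialData N := (Fermat.Agent.S18.H16.exists_modPoly_gen N).choose

/-- **The two-generator datum of `X₀(N)` over `A`, hypothesis-free.** -/
def stdTwoGen : TwoGen A (IsLocalRing.residue A) :=
  twoGen A N (modData N) (indepK_residueField N hℓN A hA)

theorem stdTwoGen_FL : modularFunctionFieldBar N = (stdTwoGen N hℓN A hA).FL :=
  FL_eq A N _ _

theorem stdTwoGen_Fk :
    modularFunctionFieldFullC (IsLocalRing.ResidueField A) N = (stdTwoGen N hℓN A hA).Fk :=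
  Fk_eq A N _ _

/-- **The Gauss valuation ring of `F_N Qbar` at `A`, hypothesis-free.** -/
def stdO : ValuationSubring (modularFunctionFieldBar N) :=
  gaussO A N (modData N) (indepK_residueField N hℓN A hA)

/-- **The reduction map, hypothesis-free.** -/
def stdRes : stdO N hℓN A hA →+* modularFunctionFieldFullC (IsLocalRing.ResidueField A) N :=
  gaussRes A N (modData N) (indepK_residueField N hℓN A hA)

include hℓN hA in
/-- **(PGI), hypothesis-free**: the second half of `ReductionInputsModL A N`. -/
theorem principalGeneratedByIntegral_modL :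
    PrincipalGeneratedByIntegral A (IsLocalRing.residue A) N :=
  principalGeneratedByIntegral A N (modData N) (indepK_residueField N hℓN A hA)

end Residue

end Fermat.Agent.S18.H92
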