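import Mathlib
import Fermat.Agent.S18.H40_LatticeInstFinal
import Fermat.Agent.S18.H92_IndepK

/-!
# INST-7 with the model, INST-1 and R0 plugged in

`gR_FN_le_gR_Fk_of_chart`: the genus inequality from INST-2 (`O1`, ...), (S) and (GR), stated
against helper92's hypothesis-free Gauss valuation ring `H92.stdO` and reduction map `H92.stdRes`.
-/

namespace Fermat.Agent.S18.H40

open ModularCurve IntermediateField Polynomial Fermat.Agent.S24

noncomputable section

section R0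

variable (N : ℕ) [NeZero N] {ℓ : ℕ} [hℓ : Fact ℓ.Prime] (hℓN : ¬ ℓ ∣ N)
variable (A : ValuationSubring Qbar) (hA : A.LiesOverPrime ℓ)

local notation "kA" => IsLocalRing.ResidueField A
local notation "L₁" => H45.unrCyclo ℓ
local notation "A₁" => H45.A0 A ℓ
local notation "F₁" => modularFunctionFieldFullC (H45.unrCyclo ℓ) N
local notation "j₁" => H16.jK (H45.unrCyclo ℓ) N

/-- `jBar N` lies in the Gauss ring and reduces to `jK`. -/
theorem stdRes_jBar :
    ∃ h : jBar N ∈ H92.stdO N hℓN A hA, H92.stdRes N hℓN A hA ⟨jBar N, h⟩ = H16.jK kA N := by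
  have hz : coeffMap A.subtype (jqModC A) ∈ modularFunctionFieldBar N := by
    rw [coeffMap_jqModC]
    have := (jBar N).2
    rwa [show ((jBar N : FN N) : LaurentSeries Qbar) = jqModC Qbar from by
      change coeffEmb Qbar jq = jqModC Qbar
      rw [coeffEmb, ← jqModC_rat, coeffMap_jqModC]] at this
  obtain ⟨h, h2⟩ := H92.up_mem_gaussO A N (H92.modData N)
    (H92.indepK_residueField N hℓN A hA) hz
  have he : (⟨coeffMap A.subtype (jqModC A), hz⟩ : modularFunctionFieldBar N) = jBar N := by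
    apply Subtype.ext
    change coeffMap A.subtype (jqModC A) = coeffEmb Qbar jq
    rw [coeffMap_jqModC, coeffEmb, ← jqModC_rat, coeffMap_jqModC]
  refine ⟨he ▸ h, ?_⟩
  apply Subtype.ext
  rw [H16.coe_jK, ← coeffMap_jqModC (IsLocalRing.residue A), ← h2]
  congr 2
  exact Subtype.ext he.symm

include hA in
set_option synthInstance.maxHeartbeats 400000 in
set_option maxHeartbeats 1000000 in
/-- **INST-7 with the model, INST-1 and R0 plugged in.**  Remaining inputs: INST-2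
(`O1`, `hO1`, `hker`, `hBO`, `hBinfO`), (S) `hsat`, (GR) `hGRfin`/`hGRinf`. -/
theorem gR_FN_le_gR_Fk_of_chart [CharP kA ℓ]
    (O1 : Subring F₁) (hO1 : ∀ y ∈ O1, barEmb N y ∈ H92.stdO N hℓN A hA)
    (hker : ∀ (y : F₁) (hy : y ∈ O1),
      H92.stdRes N hℓN A hA ⟨barEmb N y, hO1 y hy⟩ = 0 ↔
        ∃ z ∈ O1, y = algebraMap A₁ F₁ ((ℓ : ℕ) : A₁) * z)
    (hBO : ∀ b : F₁, IsIntegral (Algebra.adjoin A₁ {j₁}) b → b ∈ O1)
    (hBinfO : ∀ b : F₁, IsIntegral (Algebra.adjoin A₁ {j₁⁻¹}) b → b ∈ O1)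
    (hsat : ∀ y ∈ O1, IsIntegral (Algebra.adjoin A₁ {j₁}) (algebraMap A₁ F₁ ((ℓ : ℕ) : A₁) * y) →
      IsIntegral (Algebra.adjoin A₁ {j₁}) y)
    (hGRfin : ∀ γ : modularFunctionFieldFullC kA N,
      IsIntegral (Algebra.adjoin kA {H16.jK kA N}) γ →
      ∃ (b : F₁) (hb : IsIntegral (Algebra.adjoin A₁ {j₁}) b),
        H92.stdRes N hℓN A hA ⟨barEmb N b, hO1 b (hBO b hb)⟩ = γ)
    (hGRinf : ∀ γ : modularFunctionFieldFullC kA N,
      IsIntegral (Algebra.adjoin kA {(H16.jK kA N)⁻¹}) γ →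
      ∃ (b : F₁) (hb : IsIntegral (Algebra.adjoin A₁ {j₁⁻¹}) b),
        H92.stdRes N hℓN A hA ⟨barEmb N b, hO1 b (hBinfO b hb)⟩ = γ) :
    (RR.H76.ffBase_FN N).gR ≤ (H33.ffBase_Fk N ℓ hℓN kA).gR := by
  have hAO : ∀ a : A, algebraMap Qbar (FN N) (a : Qbar) ∈ (H92.stdO N hℓN A hA).toSubring :=
    fun a => (H92.algebraMap_mem_gaussO_iff A N (H92.modData N)
      (H92.indepK_residueField N hℓN A hA) a).mpr a.2
  refine gR_FN_le_gR_Fk_of_inst' N hℓN A hA (H92.stdO N hℓN A hA).toSubring hAO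
    (H92.stdRes N hℓN A hA) (fun a => ?_) O1 hO1 hker hBO hBinfO hsat (fun h => ?_) hGRfin hGRinf
  · exact H92.gaussRes_algebraMap A N (H92.modData N) (H92.indepK_residueField N hℓN A hA) a
  · obtain ⟨h', h2⟩ := stdRes_jBar N hℓN A hA
    have hj : barEmb N j₁ = jBar N := barEmb_jK N
    rw [← h2]
    congr 1
    exact Subtype.ext hj

end R0

end

end Fermat.Agent.S18.H40
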