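import Mathlib
import Fermat.Agent.S18.H40_LatticeInstR0
import Fermat.Agent.S18.H3_ChartRing
import Fermat.Agent.S18.H45_StrictDVRResidue

/-!
# INST-7 / INST-2 seam: (COMP) between helper3's Gauss model over `A₁` and helper92's Gauss ring
over `A`

* `comp_hconst`, `comp_hx`, `comp_hθ`, `comp_hinv`: the four inputs of
  `H3.GaussModel.comparison` / `hc_of_const` for `ι := barEmb N`, `O := stdO`, `res := stdRes`.
* `gR_FN_le_gR_Fk_of_gaussModel`: the genus inequality from a Gauss model `M` of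
  `(A₁, F₁, j₁, jN₁)` (helper3's structure), `hsat` and (GR) stated through `M.res1`.
-/

set_option synthInstance.maxHeartbeats 400000

namespace Fermat.Agent.S18.H40

open ModularCurve IntermediateField Polynomial Fermat.Agent.S24

noncomputable section

section Comp

variable (N : ℕ) [NeZero N] {ℓ : ℕ} [hℓ : Fact ℓ.Prime] (hℓN : ¬ ℓ ∣ N)
variable (A : ValuationSubring Qbar) (hA : A.LiesOverPrime ℓ)

local notation "kA" => IsLocalRing.ResidueField A
local notation "L₁" => H45.unrCyclo ℓ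
local notation "A₁" => H45.A0 A ℓ
local notation "F₁" => modularFunctionFieldFullC (H45.unrCyclo ℓ) N
local notation "j₁" => H16.jK (H45.unrCyclo ℓ) N
local notation "jN₁" => H16.jNK (H45.unrCyclo ℓ) N
local notation "FkA" => modularFunctionFieldFullC (IsLocalRing.ResidueField A) N

/-- `jd N N` (`= j(q^N)` over `Qbar`) lies in the Gauss ring and reduces to `jNK`. -/
theorem stdRes_jNBar :
    ∃ h : jd N N dvd_rfl ∈ H92.stdO N hℓN A hA,
      H92.stdRes N hℓN A hA ⟨jd N N dvd_rfl, h⟩ = H16.jNK kA N := by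
  have key : coeffMap A.subtype (qExpand A N (jqModC A)) = coeffEmb Qbar (qExpand ℚ N jq) := by
    rw [ModularCurve.coeffMap_qExpand, coeffMap_jqModC, coeffEmb,
      ModularCurve.coeffMap_qExpand, ← jqModC_rat, coeffMap_jqModC]
  have hz : coeffMap A.subtype (qExpand A N (jqModC A)) ∈ modularFunctionFieldBar N := by
    rw [key]
    exact (jd N N dvd_rfl).2
  obtain ⟨h, h2⟩ := H92.up_mem_gaussO A N (H92.modData N)
    (H92.indepK_residueField N hℓN A hA) hz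
  have he : (⟨coeffMap A.subtype (qExpand A N (jqModC A)), hz⟩ : modularFunctionFieldBar N) =
      jd N N dvd_rfl := Subtype.ext key
  refine ⟨he ▸ h, ?_⟩
  apply Subtype.ext
  rw [H16.coe_jNK, ← coeffMap_jqModC (IsLocalRing.residue A), ← ModularCurve.coeffMap_qExpand, ← h2]
  congr 2
  exact Subtype.ext he.symm

set_option synthInstance.maxHeartbeats 400000 in
/-- (COMP), constants. -/
theorem comp_hconst (r : A₁) :
    ∃ h : barEmb N (algebraMap A₁ F₁ r) ∈ (H92.stdO N hℓN A hA).toSubring,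
      H92.stdRes N hℓN A hA ⟨_, h⟩ = algebraMap kA FkA (H45.resA0 A ℓ r) := by
  have h1 : barEmb N (algebraMap A₁ F₁ r) =
      algebraMap Qbar (FN N) ((H45.inclA0 A ℓ r : A) : Qbar) := hRK_model A N r
  have hmem : algebraMap Qbar (FN N) ((H45.inclA0 A ℓ r : A) : Qbar) ∈
      (H92.stdO N hℓN A hA).toSubring :=
    (H92.algebraMap_mem_gaussO_iff A N (H92.modData N)
      (H92.indepK_residueField N hℓN A hA) _).mpr (H45.inclA0 A ℓ r).2
  refine ⟨h1 ▸ hmem, ?_⟩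
  have h2 := H92.gaussRes_algebraMap A N (H92.modData N)
    (H92.indepK_residueField N hℓN A hA) (H45.inclA0 A ℓ r)
  rw [H45.resA0_apply, ← h2]
  congr 1
  exact Subtype.ext h1

/-- (COMP), `j`. -/
theorem comp_hx :
    ∃ h : barEmb N j₁ ∈ (H92.stdO N hℓN A hA).toSubring,
      H92.stdRes N hℓN A hA ⟨_, h⟩ = H16.jK kA N := by
  obtain ⟨h, h2⟩ := stdRes_jBar N hℓN A hA
  have hj : barEmb N j₁ = jBar N := barEmb_jK N
  refine ⟨hj ▸ h, ?_⟩
  rw [← h2]
  congr 1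
  exact Subtype.ext hj

/-- (COMP), `j_N`. -/
theorem comp_hθ :
    ∃ h : barEmb N jN₁ ∈ (H92.stdO N hℓN A hA).toSubring,
      H92.stdRes N hℓN A hA ⟨_, h⟩ = H16.jNK kA N := by
  obtain ⟨h, h2⟩ := stdRes_jNBar N hℓN A hA
  have hj : barEmb N jN₁ = jd N N dvd_rfl := barEmb_jNK N
  refine ⟨hj ▸ h, ?_⟩
  rw [← h2]
  congr 1
  exact Subtype.ext hj

/-- (COMP), units of the Gauss ring. -/
theorem comp_hinv (u : FN N) (hu : u ∈ (H92.stdO N hℓN A hA).toSubring)
    (hne : H92.stdRes N hℓN A hA ⟨u, hu⟩ ≠ 0) : u⁻¹ ∈ (H92.stdO N hℓN A hA).toSubring := by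
  have hunit : IsUnit (⟨u, hu⟩ : H92.stdO N hℓN A hA) := by
    by_contra hnu
    exact hne ((H92.gaussRes_eq_zero_iff A N (H92.modData N)
      (H92.indepK_residueField N hℓN A hA) ⟨u, hu⟩).mpr hnu)
  obtain ⟨v, hv⟩ := hunit
  have h1 : u * ((v⁻¹ : (H92.stdO N hℓN A hA)ˣ) : H92.stdO N hℓN A hA) = 1 := by
    have := congrArg (fun z : H92.stdO N hℓN A hA => (z : FN N)) (v.mul_inv)
    simpa [hv] using this
  have h2 : u⁻¹ = ((v⁻¹ : (H92.stdO N hℓN A hA)ˣ) : H92.stdO N hℓN A hA) :=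
    (eq_inv_of_mul_eq_one_right h1).symm ▸ rfl
  rw [h2]
  exact ((v⁻¹ : (H92.stdO N hℓN A hA)ˣ) : H92.stdO N hℓN A hA).2

section Model


set_option maxHeartbeats 2000000 in
/-- **(COMP)**: `barEmb` maps helper3's Gauss ring `M.O1 ⊆ F₁` into helper92's Gauss ring
`stdO ⊆ FN N`, compatibly with the two reduction maps. -/
theorem comp_gaussModel
    (M : H3.GaussModel (R0 := A₁) (k := kA) (F1 := F₁) (Fk := FkA)
      (((ℓ : ℕ) : A₁)) (H45.resA0 A ℓ) j₁ jN₁ (H16.jK kA N) (H16.jNK kA N))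
    (y : F₁) (hy : y ∈ M.O1) :
    ∃ h : barEmb N y ∈ (H92.stdO N hℓN A hA).toSubring,
      H92.stdRes N hℓN A hA ⟨barEmb N y, h⟩ = M.res1 ⟨y, hy⟩ :=
  M.comparison (barEmb N) (H92.stdO N hℓN A hA).toSubring (H92.stdRes N hℓN A hA)
    (H16.transcendental_jK kA N)
    (fun s => H3.GaussModel.hc_of_const (barEmb N) _ _ (comp_hconst N hℓN A hA)
      (comp_hx N hℓN A hA) s)
    (comp_hθ N hℓN A hA) (comp_hinv N hℓN A hA) y hy

include hA in
set_option synthInstance.maxHeartbeats 400000 in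
set_option maxHeartbeats 1000000 in
/-- **The genus inequality from a Gauss model of `(A₁, F₁, j₁, jN₁)`**: only `hsat` and (GR),
stated through the model's own reduction map `M.res1`, are left. -/
theorem gR_FN_le_gR_Fk_of_gaussModel [CharP kA ℓ]
    (M : H3.GaussModel (R0 := A₁) (k := kA) (F1 := F₁) (Fk := FkA)
      (((ℓ : ℕ) : A₁)) (H45.resA0 A ℓ) j₁ jN₁ (H16.jK kA N) (H16.jNK kA N))
    (hsat : ∀ y ∈ M.O1,
      IsIntegral (Algebra.adjoin A₁ {j₁}) (algebraMap A₁ F₁ ((ℓ : ℕ) : A₁) * y) →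
      IsIntegral (Algebra.adjoin A₁ {j₁}) y)
    (hGRfin : ∀ γ : FkA, IsIntegral (Algebra.adjoin kA {H16.jK kA N}) γ →
      ∃ (b : F₁) (hb : IsIntegral (Algebra.adjoin A₁ {j₁}) b), M.res1 ⟨b, M.hBO b hb⟩ = γ)
    (hGRinf : ∀ γ : FkA, IsIntegral (Algebra.adjoin kA {(H16.jK kA N)⁻¹}) γ →
      ∃ (b : F₁) (hb : IsIntegral (Algebra.adjoin A₁ {j₁⁻¹}) b),
        M.res1 ⟨b, M.hBinfO
          (fun h0 => H16.transcendental_jK kA N (h0 ▸ isAlgebraic_zero)) b hb⟩ = γ) :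
    (RR.H76.ffBase_FN N).gR ≤ (H33.ffBase_Fk N ℓ hℓN kA).gR := by
  have hjk : H16.jK kA N ≠ 0 := fun h0 => H16.transcendental_jK kA N (h0 ▸ isAlgebraic_zero)
  have hO1 : ∀ y ∈ M.O1, barEmb N y ∈ H92.stdO N hℓN A hA :=
    fun y hy => (comp_gaussModel N hℓN A hA M y hy).1
  have hcomp : ∀ (y : F₁) (hy : y ∈ M.O1),
      H92.stdRes N hℓN A hA ⟨barEmb N y, hO1 y hy⟩ = M.res1 ⟨y, hy⟩ :=
    fun y hy => (comp_gaussModel N hℓN A hA M y hy).2
  refine gR_FN_le_gR_Fk_of_chart N hℓN A hA M.O1 hO1 (fun y hy => ?_) M.hBO (M.hBinfO hjk) hsat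
    (fun γ hγ => ?_) (fun γ hγ => ?_)
  · rw [hcomp y hy]
    exact M.res1_eq_zero_iff y hy
  · obtain ⟨b, hb, hbγ⟩ := hGRfin γ hγ
    exact ⟨b, hb, (hcomp b _).trans hbγ⟩
  · obtain ⟨b, hb, hbγ⟩ := hGRinf γ hγ
    exact ⟨b, hb, (hcomp b _).trans hbγ⟩

end Model

end Comp

end

end Fermat.Agent.S18.H40
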