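import Mathlib
import Fermat.Agent.S18.H3_ChartRingInst
import Fermat.Agent.S18.H40_Comp

/-!
# S18 / INST-2 (helper3): `hsat`, `hprime` and the genus inequality for the instance

* `GaussModel.span_isPrime_integralClosure` (generic): `hprime` of route Q from `hsat`.
* `inst_facts` : the instance facts (`ℓ` prime in `A₁`, `resA0`, transcendence, `Φ_N`, generation).
* `hsat_inst`, `hprime_inst` : `hsat` of CECH-GENUS and `hprime` of route Q (finite chart) for
  `(A₁, F₁, j₁)`.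
* `gR_FN_le_gR_Fk_of_GR` : the genus inequality with ONLY (GR) left (stated for an arbitrary
  Gauss model `M` through `M.res1`).
-/

set_option autoImplicit false
set_option linter.unusedSectionVars false
set_option linter.style.haveILetI false
set_option synthInstance.maxHeartbeats 400000

namespace Fermat.Agent.S18.H3

open Polynomial IntermediateField ModularCurve Fermat.Agent.S28 Fermat.Agent.S24

noncomputable section

namespace GaussModel

variable {R0 k F1 Fk : Type*} [CommRing R0] [Field k] [Field F1] [Algebra R0 F1]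
  [Field Fk] [Algebra k Fk] {ϖ : R0} {π0 : R0 →+* k} {x1 θ : F1} {xb θb : Fk}
  (M : GaussModel ϖ π0 x1 θ xb θb)

/-- **`hprime` of route Q (finite chart)**: `(ϖ)` is a prime ideal of the integral closure of
`R0[x1]` in `F1`, in the literal shape of `H96.isIntegrallyClosed_specialFibre_of_auxLine`. -/
theorem span_isPrime_integralClosure
    (hsat : ∀ y ∈ M.O1, IsIntegral (Algebra.adjoin R0 {x1}) (algebraMap R0 F1 ϖ * y) →
      IsIntegral (Algebra.adjoin R0 {x1}) y) :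
    (Ideal.span {algebraMap ↥(Algebra.adjoin R0 {x1})
      (integralClosure ↥(Algebra.adjoin R0 {x1}) F1)
      (algebraMap R0 ↥(Algebra.adjoin R0 {x1}) ϖ)}).IsPrime := by
  refine M.span_isPrime
    (algebraMap (integralClosure ↥(Algebra.adjoin R0 {x1}) F1) F1)
    Subtype.val_injective _ ?_ (fun b => M.hBO _ b.2) ?_
  · rfl
  · rintro y hy ⟨b, hb⟩
    have h1 : IsIntegral (Algebra.adjoin R0 {x1}) (algebraMap R0 F1 ϖ * y) := by
      rw [← hb]; exact b.2
    exact ⟨⟨y, hsat y hy h1⟩, rfl⟩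

end GaussModel

section Inst

variable (N : ℕ) [NeZero N] {ℓ : ℕ} [hℓ : Fact ℓ.Prime] (hℓN : ¬ ℓ ∣ N)
variable (A : ValuationSubring (AlgebraicClosure ℚ)) (hA : A.LiesOverPrime ℓ)

local notation "kA" => IsLocalRing.ResidueField A
local notation "L₁" => H45.unrCyclo ℓ
local notation "A₁" => H45.A0 A ℓ
local notation "F₁" => modularFunctionFieldFullC (H45.unrCyclo ℓ) N
local notation "j₁" => H16.jK (H45.unrCyclo ℓ) N
local notation "jN₁" => H16.jNK (H45.unrCyclo ℓ) N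
local notation "FkA" => modularFunctionFieldFullC (IsLocalRing.ResidueField A) N

include hA in
set_option maxHeartbeats 4000000 in
/-- the instance facts used by `hsat`. -/
theorem inst_facts :
    Prime (((ℓ : ℕ) : A₁)) ∧ H45.resA0 A ℓ (((ℓ : ℕ) : A₁)) = 0 ∧
      Transcendental A₁ j₁ ∧
      ∃ Φ : (A₁)[X][X], Φ.Monic ∧ eval2 j₁ jN₁ Φ = 0 ∧
        ∀ y : F₁, ∃ s : (A₁)[X], s ≠ 0 ∧ ∃ g : (A₁)[X][X], aeval j₁ s * y = eval2 j₁ jN₁ g := by
  haveI hdvr : IsDiscreteValuationRing A₁ := H45.isDiscreteValuationRing_A0 hℓ.out hA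
  have hϖ : Prime (((ℓ : ℕ) : A₁)) := (H45.irreducible_natCast_A0 hℓ.out hA).prime
  have hkerspan := H45.ker_resA0_eq_span (A := A) hℓ.out hA
  have hπϖ : H45.resA0 A ℓ (((ℓ : ℕ) : A₁)) = 0 := by
    rw [← RingHom.mem_ker, hkerspan]
    exact Ideal.mem_span_singleton_self _
  have hNL : ((N : ℕ) : L₁) ≠ 0 := H16.natCast_ne_zero_of_charZero N L₁
  obtain ⟨D, -, -⟩ := H16.exists_modPoly_gen N
  have hx1 : Transcendental A₁ j₁ := by
    intro h
    exact H16.transcendental_jK L₁ N (h.extendScalars (IsFractionRing.injective A₁ L₁))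
  refine ⟨hϖ, hπϖ, hx1, D.Φ.map (Polynomial.mapRingHom (Int.castRingHom A₁)), D.monic.map _,
    ?_, ?_⟩
  · unfold eval2
    rw [Polynomial.eval₂_map]
    apply eval₂_jNK_eq_zero N L₁ D
    rw [RingHom.comp_apply]
    change aeval j₁ ((X : ℤ[X]).map (Int.castRingHom A₁)) = j₁
    rw [Polynomial.map_X, aeval_X]
  · intro y
    obtain ⟨s, hs, g, hg⟩ := isFrac_of_adjoin_eq_top (R := A₁) (K := L₁) j₁ jN₁
      (H16.isIntegral_jNK_gen N L₁ hNL) (H16.adjoin_jNK_eq_top_gen N L₁ hNL) y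
    exact ⟨s, fun h => hs (by rw [h, map_zero]), g, hg⟩

include hA in
set_option maxHeartbeats 4000000 in
/-- **`hsat` for the instance.** -/
theorem hsat_inst
    (M : GaussModel (R0 := A₁) (k := kA) (F1 := F₁) (Fk := FkA)
      (((ℓ : ℕ) : A₁)) (H45.resA0 A ℓ) j₁ jN₁ (H16.jK kA N) (H16.jNK kA N)) :
    ∀ y ∈ M.O1,
      IsIntegral (Algebra.adjoin A₁ {j₁}) (algebraMap A₁ F₁ ((ℓ : ℕ) : A₁) * y) →
      IsIntegral (Algebra.adjoin A₁ {j₁}) y := by
  haveI hdvr : IsDiscreteValuationRing A₁ := H45.isDiscreteValuationRing_A0 hℓ.out hA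
  obtain ⟨hϖ, hπϖ, hx1, Φ, hΦ, hroot, hgen⟩ := inst_facts N A hA
  exact M.hsat hϖ hπϖ hx1 Φ hΦ hroot hgen

include hℓN hA in
set_option maxHeartbeats 4000000 in
/-- **`hprime` of route Q, finite chart, for the instance** (the literal hypothesis of
`H96.isIntegrallyClosed_specialFibre_of_auxLine` with `A₁ := A0 A ℓ`, `F1 := F₁`, `j1 := j₁`,
`ϖ := ℓ`). -/
theorem hprime_inst :
    (Ideal.span {algebraMap ↥(Algebra.adjoin A₁ {j₁})
      (integralClosure ↥(Algebra.adjoin A₁ {j₁}) F₁)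
      (algebraMap A₁ ↥(Algebra.adjoin A₁ {j₁}) (((ℓ : ℕ) : A₁)))}).IsPrime := by
  obtain ⟨M⟩ := nonempty_gaussModel_inst N hℓN A hA
  exact M.span_isPrime_integralClosure (hsat_inst N A hA M)

include hℓN hA in
set_option maxHeartbeats 4000000 in
/-- **The genus inequality with only (GR) left.** -/
theorem gR_FN_le_gR_Fk_of_GR [CharP kA ℓ]
    (hGR : ∀ M : GaussModel (R0 := A₁) (k := kA) (F1 := F₁) (Fk := FkA)
        (((ℓ : ℕ) : A₁)) (H45.resA0 A ℓ) j₁ jN₁ (H16.jK kA N) (H16.jNK kA N),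
      (∀ γ : FkA, IsIntegral (Algebra.adjoin kA {H16.jK kA N}) γ →
        ∃ (b : F₁) (hb : IsIntegral (Algebra.adjoin A₁ {j₁}) b), M.res1 ⟨b, M.hBO b hb⟩ = γ) ∧
      (∀ γ : FkA, IsIntegral (Algebra.adjoin kA {(H16.jK kA N)⁻¹}) γ →
        ∃ (b : F₁) (hb : IsIntegral (Algebra.adjoin A₁ {j₁⁻¹}) b),
          M.res1 ⟨b, M.hBinfO
            (fun h0 => H16.transcendental_jK kA N (h0 ▸ isAlgebraic_zero)) b hb⟩ = γ)) :
    (RR.H76.ffBase_FN N).gR ≤ (H33.ffBase_Fk N ℓ hℓN kA).gR := by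
  obtain ⟨M⟩ := nonempty_gaussModel_inst N hℓN A hA
  exact H40.gR_FN_le_gR_Fk_of_gaussModel N hℓN A hA M (hsat_inst N A hA M) (hGR M).1 (hGR M).2

end Inst

end

end Fermat.Agent.S18.H3
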