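/-
S18 / DVR foundation (helper45), part 6: the small arithmetic facts the chart instances need about
`A₁ := A0 A ℓ`, `L1 := unrCyclo ℓ`, `k := ResidueField A`:

* `isUnit_two_A0` (`ℓ ≠ 2`), `isUnit_three_A0` (`ℓ ≠ 3`);
* `natCast_ne_zero_residueField` (`ℓ ∤ n`), `two_ne_zero_residueField`, `three_ne_zero_residueField`;
* `exists_cubeRoot_A0`, `exists_cubeRoot_unrCyclo` (`ℓ ≠ 3`): a root of `w ^ 2 + w + 1`.
-/
import Mathlib
import Fermat.Agent.S18.H45_A0Instances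

set_option autoImplicit false
set_option linter.unusedSectionVars false
set_option linter.style.haveILetI false

namespace Fermat.Agent.S18.H45

open IsLocalRing

noncomputable section

local notation "Qbar" => AlgebraicClosure ℚ

variable {A : ValuationSubring Qbar} {ℓ : ℕ} (hℓ : ℓ.Prime) (hA : A.LiesOverPrime ℓ)

include hℓ in
theorem not_dvd_two (h2 : ℓ ≠ 2) : ¬ ℓ ∣ 2 := fun h =>
  h2 ((Nat.prime_dvd_prime_iff_eq hℓ Nat.prime_two).mp h)

include hℓ in
theorem not_dvd_three (h3 : ℓ ≠ 3) : ¬ ℓ ∣ 3 := fun h =>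
  h3 ((Nat.prime_dvd_prime_iff_eq hℓ Nat.prime_three).mp h)

include hℓ hA in
theorem isUnit_two_A0 (h2 : ℓ ≠ 2) : IsUnit (2 : A0 A ℓ) := by
  have := isUnit_natCast_A0 hℓ hA (not_dvd_two hℓ h2)
  simpa using this

include hℓ hA in
theorem isUnit_three_A0 (h3 : ℓ ≠ 3) : IsUnit (3 : A0 A ℓ) := by
  have := isUnit_natCast_A0 hℓ hA (not_dvd_three hℓ h3)
  simpa using this

include hℓ hA in
theorem natCast_ne_zero_residueField {n : ℕ} (hn : ¬ ℓ ∣ n) : ((n : ℕ) : ResidueField A) ≠ 0 := by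
  haveI := charP_residueField hℓ hA
  rw [Ne, CharP.cast_eq_zero_iff (ResidueField A) ℓ]
  exact hn

include hℓ hA in
theorem natCast_eq_zero_residueField_iff {n : ℕ} : ((n : ℕ) : ResidueField A) = 0 ↔ ℓ ∣ n := by
  haveI := charP_residueField hℓ hA
  exact CharP.cast_eq_zero_iff (ResidueField A) ℓ n

include hℓ hA in
theorem two_ne_zero_residueField (h2 : ℓ ≠ 2) : (2 : ResidueField A) ≠ 0 := by
  have := natCast_ne_zero_residueField hℓ hA (not_dvd_two hℓ h2)
  simpa using this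

include hℓ hA in
theorem three_ne_zero_residueField (h3 : ℓ ≠ 3) : (3 : ResidueField A) ≠ 0 := by
  have := natCast_ne_zero_residueField hℓ hA (not_dvd_three hℓ h3)
  simpa using this

theorem sq_add_self_add_one_eq_zero_of_isPrimitiveRoot {R : Type*} [CommRing R] [IsDomain R]
    {w : R} (hw : IsPrimitiveRoot w 3) : w ^ 2 + w + 1 = 0 := by
  have h1 : w ^ 3 = 1 := hw.pow_eq_one
  have h2 : w ≠ 1 := hw.ne_one (by norm_num)
  have h3 : (w - 1) * (w ^ 2 + w + 1) = 0 := by ring_nf; rw [h1]; ring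
  rcases mul_eq_zero.mp h3 with h | h
  · exact absurd (sub_eq_zero.mp h) h2
  · exact h

include hℓ in
/-- `A0` contains a primitive cube root of unity when `ℓ ≠ 3`. -/
theorem exists_cubeRoot_A0 (A : ValuationSubring Qbar) (h3 : ℓ ≠ 3) :
    ∃ w : A0 A ℓ, IsPrimitiveRoot w 3 ∧ w ^ 2 + w + 1 = 0 := by
  obtain ⟨w, hw⟩ := exists_isPrimitiveRoot_A0 (ℓ := ℓ) A (n := 3) (by norm_num)
    (not_dvd_three hℓ h3)
  exact ⟨w, hw, sq_add_self_add_one_eq_zero_of_isPrimitiveRoot hw⟩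

include hℓ in
/-- `ℚ(μ_m : ℓ ∤ m)` contains a primitive cube root of unity when `ℓ ≠ 3`. -/
theorem exists_cubeRoot_unrCyclo (h3 : ℓ ≠ 3) :
    ∃ w : unrCyclo ℓ, IsPrimitiveRoot w 3 ∧ w ^ 2 + w + 1 = 0 := by
  obtain ⟨w, hw⟩ := exists_isPrimitiveRoot_unrCyclo (ℓ := ℓ) (n := 3) (by norm_num)
    (not_dvd_three hℓ h3)
  exact ⟨w, hw, sq_add_self_add_one_eq_zero_of_isPrimitiveRoot hw⟩

include hℓ hA in
/-- The image of `n` in the residue field, through `resA0`. -/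
theorem resA0_natCast_ne_zero {n : ℕ} (hn : ¬ ℓ ∣ n) : resA0 A ℓ ((n : ℕ) : A0 A ℓ) ≠ 0 := by
  rw [map_natCast]
  exact natCast_ne_zero_residueField hℓ hA hn

end

end Fermat.Agent.S18.H45
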