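/-
S18 / CECH-GENUS (helper33): adapter from `IsIntegrallyClosed (B ⧸ (ϖ))` (output of
`H67.isIntegrallyClosed_special_fibre`) to the lifting form of (GR) consumed by
`H33.exists_forall_finrank_riemannRochSpace_le`.
-/
import Mathlib

set_option autoImplicit false

namespace Fermat.Agent.S18.H33

open Polynomial

/-- If `red : B →+* Fk` has kernel `(ϖ)`, `B ⧸ (ϖ)` is integrally closed and every element of the
field `Fk` is a quotient of elements of `red B`, then every element of `Fk` that is integral over a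
subring `S ⊆ red B` is in `red B`. -/
theorem exists_lift_of_isIntegrallyClosed_quotient
    {B Fk : Type*} [CommRing B] [Field Fk] (ϖ : B) (red : B →+* Fk)
    (hϖ : red ϖ = 0) (hker : ∀ b : B, red b = 0 → ∃ c : B, b = ϖ * c)
    [hIC : IsIntegrallyClosed (B ⧸ Ideal.span {ϖ})]
    (hfrac : ∀ γ : Fk, ∃ a b : B, red b ≠ 0 ∧ γ * red b = red a)
    (S : Subring Fk) (hS : ∀ s ∈ S, ∃ b : B, red b = s) {γ : Fk} (hγ : IsIntegral S γ) :
    ∃ b : B, red b = γ := by
  classical
  -- the induced injective map on the quotient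
  let ψ : B ⧸ Ideal.span {ϖ} →+* Fk :=
    Ideal.Quotient.lift (Ideal.span {ϖ}) red (fun a ha => by
      obtain ⟨c, rfl⟩ := Ideal.mem_span_singleton'.mp ha
      rw [map_mul, hϖ, mul_zero])
  have hψmk : ∀ b : B, ψ (Ideal.Quotient.mk _ b) = red b := fun b => rfl
  have hψinj : Function.Injective ψ := by
    rw [injective_iff_map_eq_zero]
    intro x hx
    obtain ⟨b, rfl⟩ := Ideal.Quotient.mk_surjective x
    rw [hψmk] at hx
    obtain ⟨c, rfl⟩ := hker b hx
    rw [Ideal.Quotient.eq_zero_iff_mem]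
    exact Ideal.mem_span_singleton'.mpr ⟨c, mul_comm _ _⟩
  let _ : Algebra (B ⧸ Ideal.span {ϖ}) Fk := ψ.toAlgebra
  have halg : ∀ x : B ⧸ Ideal.span {ϖ}, algebraMap (B ⧸ Ideal.span {ϖ}) Fk x = ψ x := fun _ => rfl
  have : FaithfulSMul (B ⧸ Ideal.span {ϖ}) Fk :=
    (faithfulSMul_iff_algebraMap_injective _ _).mpr hψinj
  have : IsFractionRing (B ⧸ Ideal.span {ϖ}) Fk := by
    apply IsFractionRing.of_field
    intro z
    obtain ⟨a, b, hb, hab⟩ := hfrac z
    refine ⟨Ideal.Quotient.mk _ a, Ideal.Quotient.mk _ b, ?_⟩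
    rw [halg, halg, hψmk, hψmk, eq_div_iff hb, hab]
  -- `γ` is integral over the quotient
  have hint : IsIntegral (B ⧸ Ideal.span {ϖ}) γ := by
    obtain ⟨p, hpm, hp⟩ := hγ
    set P : Fk[X] := p.map (algebraMap S Fk) with hP
    have hPm : P.Monic := hpm.map _
    have hlifts : P ∈ Polynomial.lifts (algebraMap (B ⧸ Ideal.span {ϖ}) Fk) := by
      rw [Polynomial.lifts_iff_coeff_lifts]
      intro i
      rw [hP, Polynomial.coeff_map]
      obtain ⟨b, hb⟩ := hS _ (p.coeff i).2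
      exact ⟨Ideal.Quotient.mk _ b, by rw [halg, hψmk, hb]; rfl⟩
    obtain ⟨q, hq, -, hqm⟩ := Polynomial.lifts_and_natDegree_eq_and_monic hlifts hPm
    refine ⟨q, hqm, ?_⟩
    rw [← Polynomial.eval_map, hq, hP, Polynomial.eval_map]
    exact hp
  obtain ⟨y, hy⟩ := (IsIntegrallyClosed.isIntegral_iff (R := B ⧸ Ideal.span {ϖ}) (K := Fk)).mp hint
  obtain ⟨b, rfl⟩ := Ideal.Quotient.mk_surjective y
  exact ⟨b, by rw [← hy, halg, hψmk]⟩

end Fermat.Agent.S18.H33
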