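/-
S18 project, route Q, package GRFIN-ADAPTER (helper67): **from the integrally closed special fibre
of a chart ring to the lifting form (GR), in helper3's `GaussModel` vocabulary**.

`H96.isIntegrallyClosed_specialFibre_of_auxLine` (helper96/helper34) ends in
`IsIntegrallyClosed (integralClosure ↥(Algebra.adjoin A₁ {j₁}) F₁ ⧸ (ϖ))`; INST-2 (helper3) lands as a
`H3.GaussModel ϖ π0 x1 θ xb θb` (the DVR `O1 ⊆ F1` with `res1 : O1 →+* Fk`).  This file composes
the two: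

* `exists_repr_of_adjoin_eq_top` : clearing denominators in `k(x)(θ)`
  (`hgenk` from `H16.adjoin_jNK_eq_top_gen` + `H16.isIntegral_jNK_gen`);
* `exists_lift_of_gaussModel_chart` : GENERIC chart base ring `R` (`A₁[j]`, `A₁[1/j]`, the LOCAL
  cusp ring): if `integralClosure R F1 ⊆ O1` is saturated, its residues generate `Fk` as a field
  and `integralClosure R F1 ⧸ (ϖ)` is integrally closed, then every `γ ∈ Fk` integral over a
  subring of residues is a residue of an element integral over `R`;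
* `exists_lift_of_gaussModel` : the FINITE chart `R = R0[x1]`, all hypotheses discharged from the
  model: this is `hGR1` of `H34.hGR_of_compat` (hence `hGRfin` of
  `H40.gR_FN_le_gR_Fk_of_chart`) verbatim.
-/
import Mathlib
import Fermat.Agent.S18.H3_ChartRing
import Fermat.Agent.S18.H33_CechGRAdapter

set_option autoImplicit false
set_option linter.unusedSectionVars false

namespace Fermat.Agent.S18.H67

open Polynomial IntermediateField

/-! ### 1. Clearing denominators in `k(x)(θ)` -/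

section Clear

variable {k Fk : Type*} [Field k] [Field Fk] [Algebra k Fk]

/-- every element of `k⟮x⟯` is a fraction of polynomial expressions in `x`. -/
theorem exists_aeval_mul_eq_of_mem_adjoin_simple (x : Fk) {c : Fk} (hc : c ∈ k⟮x⟯) :
    ∃ s r : k[X], aeval x s ≠ 0 ∧ aeval x s * c = aeval x r := by
  obtain ⟨r, s, rfl⟩ := (IntermediateField.mem_adjoin_simple_iff k c).mp hc
  by_cases hs : aeval x s = 0
  · exact ⟨1, 0, by simp, by simp [hs]⟩
  · exact ⟨s, r, hs, by field_simp⟩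

/-- **Clearing denominators**: if `Fk = k(x)(θ)` with `θ` algebraic over `k(x)`, every element of
`Fk` is `g(x, θ) / s(x)` with `g ∈ k[X][Y]`, `s(x) ≠ 0`. -/
theorem exists_repr_of_adjoin_eq_top (x θ : Fk) (hθ : IsIntegral k⟮x⟯ θ)
    (htop : k⟮x⟯⟮θ⟯ = ⊤) (γ : Fk) :
    ∃ s : k[X], aeval x s ≠ 0 ∧ ∃ g : k[X][X],
      aeval x s * γ = g.eval₂ ((aeval x : k[X] →ₐ[k] Fk) : k[X] →+* Fk) θ := by
  have key : ∀ P : (k⟮x⟯)[X], ∃ s : k[X], aeval x s ≠ 0 ∧ ∃ g : k[X][X],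
      aeval x s * aeval θ P = g.eval₂ ((aeval x : k[X] →ₐ[k] Fk) : k[X] →+* Fk) θ := by
    intro P
    induction P using Polynomial.induction_on' with
    | add p q hp hq =>
      obtain ⟨s₁, hs₁, g₁, h₁⟩ := hp
      obtain ⟨s₂, hs₂, g₂, h₂⟩ := hq
      refine ⟨s₁ * s₂, by rw [map_mul]; exact mul_ne_zero hs₁ hs₂, C s₂ * g₁ + C s₁ * g₂, ?_⟩
      rw [eval₂_add, eval₂_mul, eval₂_mul, eval₂_C, eval₂_C, ← h₁, ← h₂, map_add, map_mul]
      simp only [RingHom.coe_coe]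
      ring
    | monomial n c =>
      obtain ⟨s, r, hs, hsr⟩ := exists_aeval_mul_eq_of_mem_adjoin_simple (k := k) x c.2
      refine ⟨s, hs, monomial n r, ?_⟩
      rw [aeval_monomial, eval₂_monomial, IntermediateField.algebraMap_apply, ← mul_assoc, hsr]
      rfl
  have hγ : γ ∈ k⟮x⟯⟮θ⟯ := by rw [htop]; trivial
  have hγ' : γ ∈ (k⟮x⟯⟮θ⟯).toSubalgebra := hγ
  rw [IntermediateField.adjoin_simple_toSubalgebra_of_isAlgebraic hθ.isAlgebraic,
    Algebra.adjoin_singleton_eq_range_aeval] at hγ'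
  obtain ⟨P, rfl⟩ := hγ'
  exact key P

end Clear

/-! ### 2. Lifting through a Gauss model -/

section Lift

variable {R0 k F1 Fk : Type*} [CommRing R0] [Field k] [Field F1] [Algebra R0 F1]
  [Field Fk] [Algebra k Fk] {ϖ : R0} {π0 : R0 →+* k} {x1 θ : F1} {xb θb : Fk}
  (M : H3.GaussModel ϖ π0 x1 θ xb θb)

/-- the reduction `res1` of a Gauss model restricted to a chart ring `integralClosure R F1 ⊆ O1`. -/
noncomputable def gaussRed {R : Type*} [CommRing R] [Algebra R F1]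
    (hRO : ∀ b : F1, IsIntegral R b → b ∈ M.O1) : integralClosure R F1 →+* Fk :=
  M.res1.comp ((integralClosure R F1).val.toRingHom.codRestrict M.O1 (fun b => hRO b b.2))

theorem gaussRed_apply {R : Type*} [CommRing R] [Algebra R F1]
    (hRO : ∀ b : F1, IsIntegral R b → b ∈ M.O1) (b : integralClosure R F1) :
    gaussRed M hRO b = M.res1 ⟨(b : F1), hRO b b.2⟩ := rfl

/-- **(GR) for a generic chart.**  `R` is the chart base ring (`A₁[j]`, `A₁[1/j]`, the local cusp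
ring ...), `B = integralClosure R F1 ⊆ O1`. -/
theorem exists_lift_of_gaussModel_chart {R : Type*} [CommRing R] [Algebra R F1]
    (hRO : ∀ b : F1, IsIntegral R b → b ∈ M.O1)
    (ϖR : R) (hϖR : algebraMap R F1 ϖR = algebraMap R0 F1 ϖ)
    (hsatR : ∀ y ∈ M.O1, IsIntegral R (algebraMap R0 F1 ϖ * y) → IsIntegral R y)
    (hfrac : ∀ γ : Fk, ∃ (a b : F1) (ha : IsIntegral R a) (hb : IsIntegral R b),
      M.res1 ⟨b, hRO b hb⟩ ≠ 0 ∧ γ * M.res1 ⟨b, hRO b hb⟩ = M.res1 ⟨a, hRO a ha⟩)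
    [IsIntegrallyClosed
      (integralClosure R F1 ⧸ Ideal.span {algebraMap R (integralClosure R F1) ϖR})]
    (S : Subring Fk)
    (hS : ∀ s ∈ S, ∃ (b : F1) (hb : IsIntegral R b), M.res1 ⟨b, hRO b hb⟩ = s)
    {γ : Fk} (hγ : IsIntegral S γ) :
    ∃ (b : F1) (hb : IsIntegral R b), M.res1 ⟨b, hRO b hb⟩ = γ := by
  classical
  have hϖcoe : ((algebraMap R (integralClosure R F1) ϖR : integralClosure R F1) : F1) =
      algebraMap R0 F1 ϖ := hϖR
  have hϖ0 : gaussRed M hRO (algebraMap R (integralClosure R F1) ϖR) = 0 := by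
    rw [gaussRed_apply, M.res1_eq_zero_iff]
    exact ⟨1, M.O1.one_mem, by rw [mul_one]; exact hϖcoe⟩
  have hker : ∀ b : integralClosure R F1, gaussRed M hRO b = 0 →
      ∃ c : integralClosure R F1, b = algebraMap R (integralClosure R F1) ϖR * c := by
    intro b hb
    rw [gaussRed_apply, M.res1_eq_zero_iff] at hb
    obtain ⟨z, hz, hbz⟩ := hb
    have hzint : IsIntegral R z := hsatR z hz (hbz ▸ b.2)
    refine ⟨⟨z, hzint⟩, Subtype.ext ?_⟩
    rw [hbz]
    change _ = ((algebraMap R (integralClosure R F1) ϖR : integralClosure R F1) : F1) * z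
    rw [hϖcoe]
  have hfrac' : ∀ γ : Fk, ∃ a b : integralClosure R F1,
      gaussRed M hRO b ≠ 0 ∧ γ * gaussRed M hRO b = gaussRed M hRO a := by
    intro γ
    obtain ⟨a, b, ha, hb, h1, h2⟩ := hfrac γ
    exact ⟨⟨a, ha⟩, ⟨b, hb⟩, h1, h2⟩
  have hS' : ∀ s ∈ S, ∃ b : integralClosure R F1, gaussRed M hRO b = s := by
    intro s hs
    obtain ⟨b, hb, h⟩ := hS s hs
    exact ⟨⟨b, hb⟩, h⟩
  obtain ⟨b, hb⟩ := H33.exists_lift_of_isIntegrallyClosed_quotient
    (algebraMap R (integralClosure R F1) ϖR) (gaussRed M hRO) hϖ0 hker hfrac' S hS' hγ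
  exact ⟨(b : F1), b.2, hb⟩

end Lift

/-! ### 3. The finite chart `R = R0[x1]` -/

section Finite

variable {R0 k F1 Fk : Type*} [CommRing R0] [Field k] [Field F1] [Algebra R0 F1]
  [Field Fk] [Algebra k Fk] {ϖ : R0} {π0 : R0 →+* k} {x1 θ : F1} {xb θb : Fk}
  (M : H3.GaussModel ϖ π0 x1 θ xb θb)

/-- `s(x1)` is integral over `R0[x1]`. -/
theorem isIntegral_adjoin_aeval (s : R0[X]) : IsIntegral (Algebra.adjoin R0 {x1}) (aeval x1 s) := by
  have : aeval x1 s = algebraMap (Algebra.adjoin R0 {x1}) F1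
      ⟨aeval x1 s, aeval_mem_adjoin_singleton R0 x1⟩ := rfl
  rw [this]
  exact isIntegral_algebraMap

/-- `g(x1, θ)` is integral over `R0[x1]` when `θ` is. -/
theorem isIntegral_adjoin_eval2 (hθ : IsIntegral (Algebra.adjoin R0 {x1}) θ) (g : R0[X][X]) :
    IsIntegral (Algebra.adjoin R0 {x1}) (H3.eval2 x1 θ g) := by
  unfold H3.eval2
  rw [eval₂_eq_sum_range]
  refine IsIntegral.sum _ fun i _ => IsIntegral.mul ?_ (hθ.pow i)
  exact isIntegral_adjoin_aeval (g.coeff i)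

/-- **(GR) for the finite chart**, in the `M.res1` vocabulary: `hGR1` of `H34.hGR_of_compat` with
`P := IsIntegral (Algebra.adjoin R0 {x1})`, `Pk := IsIntegral (Algebra.adjoin k {xb})`,
`hP := M.hBO`. -/
theorem exists_lift_of_gaussModel [IsDomain R0] [IsIntegrallyClosed R0]
    (hϖ : Prime ϖ) (hπϖ : π0 ϖ = 0) (hx1 : Transcendental R0 x1)
    (Φ : R0[X][X]) (hΦ : Φ.Monic) (hroot : H3.eval2 x1 θ Φ = 0)
    (hgen : ∀ y : F1, ∃ s : R0[X], s ≠ 0 ∧ ∃ g : R0[X][X], aeval x1 s * y = H3.eval2 x1 θ g)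
    (hπ0 : Function.Surjective π0)
    (hgenk : ∀ γ : Fk, ∃ s : k[X], aeval xb s ≠ 0 ∧ ∃ g : k[X][X],
      aeval xb s * γ = g.eval₂ ((aeval xb : k[X] →ₐ[k] Fk) : k[X] →+* Fk) θb)
    [IsIntegrallyClosed (integralClosure (Algebra.adjoin R0 {x1}) F1 ⧸
      Ideal.span {algebraMap (Algebra.adjoin R0 {x1}) (integralClosure (Algebra.adjoin R0 {x1}) F1)
        (algebraMap R0 (Algebra.adjoin R0 {x1}) ϖ)})]
    (γ : Fk) (hγ : IsIntegral (Algebra.adjoin k {xb}) γ) :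
    ∃ (b : F1) (hb : IsIntegral (Algebra.adjoin R0 {x1}) b), M.res1 ⟨b, M.hBO b hb⟩ = γ := by
  classical
  have hθint : IsIntegral (Algebra.adjoin R0 {x1}) θ :=
    (H3.isIntegral_adjoin_iff x1 θ).mpr ⟨Φ, hΦ, hroot⟩
  have hmapsurj : Function.Surjective (Polynomial.map π0 : R0[X] → k[X]) :=
    Polynomial.map_surjective π0 hπ0
  have hmap2surj : Function.Surjective
      (Polynomial.map (mapRingHom π0) : R0[X][X] → k[X][X]) :=
    Polynomial.map_surjective (mapRingHom π0) hmapsurj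
  -- residues of `s(x1)` and `g(x1, θ)`
  have hres_s : ∀ s : R0[X], M.res1 ⟨aeval x1 s, M.hBO _ (isIntegral_adjoin_aeval s)⟩ =
      aeval xb (s.map π0) := fun s => M.res1_aeval s
  have hres_g : ∀ g : R0[X][X],
      M.res1 ⟨H3.eval2 x1 θ g, M.hBO _ (isIntegral_adjoin_eval2 hθint g)⟩ =
        (g.map (mapRingHom π0)).eval₂ ((aeval xb : k[X] →ₐ[k] Fk) : k[X] →+* Fk) θb := by
    intro g
    obtain ⟨h, hh⟩ := M.eval2_mem g
    rw [eval₂_map]
    exact hh
  refine exists_lift_of_gaussModel_chart M (R := Algebra.adjoin R0 {x1}) M.hBO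
    (algebraMap R0 (Algebra.adjoin R0 {x1}) ϖ) rfl
    (M.hsat hϖ hπϖ hx1 Φ hΦ hroot hgen) ?_ (Algebra.adjoin k {xb}).toSubring ?_ ?_
  · -- hfrac
    intro γ'
    obtain ⟨sb, hsb, gb, hgb⟩ := hgenk γ'
    obtain ⟨s, rfl⟩ := hmapsurj sb
    obtain ⟨g, rfl⟩ := hmap2surj gb
    refine ⟨H3.eval2 x1 θ g, aeval x1 s, isIntegral_adjoin_eval2 hθint g,
      isIntegral_adjoin_aeval s, ?_, ?_⟩
    · rw [hres_s]; exact hsb
    · rw [hres_s, hres_g, ← hgb, mul_comm]
  · -- hS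
    intro s hs
    have hs' : s ∈ Algebra.adjoin k {xb} := hs
    rw [Algebra.adjoin_singleton_eq_range_aeval] at hs'
    obtain ⟨pb, rfl⟩ := hs'
    obtain ⟨p, rfl⟩ := hmapsurj pb
    exact ⟨aeval x1 p, isIntegral_adjoin_aeval p, hres_s p⟩
  · -- integrality over the subring
    obtain ⟨p, hpm, hp⟩ := hγ
    exact ⟨p, hpm, hp⟩

/-- **`hGRfin` verbatim** (`H33.exists_forall_finrank_riemannRochSpace_le` /
`H40.gR_FN_le_gR_Fk_of_chart`): the lifting through a bigger Gauss ring `O ⊆ F ⊇ ι F1` whose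
reduction `res` is compatible with `res1` (`hc` = `H3.GaussModel.comparison` /
`H34.compat_of_frac`). -/
theorem hGRfin_of_gaussModel [IsDomain R0] [IsIntegrallyClosed R0]
    (hϖ : Prime ϖ) (hπϖ : π0 ϖ = 0) (hx1 : Transcendental R0 x1)
    (Φ : R0[X][X]) (hΦ : Φ.Monic) (hroot : H3.eval2 x1 θ Φ = 0)
    (hgen : ∀ y : F1, ∃ s : R0[X], s ≠ 0 ∧ ∃ g : R0[X][X], aeval x1 s * y = H3.eval2 x1 θ g)
    (hπ0 : Function.Surjective π0)
    (hgenk : ∀ γ : Fk, ∃ s : k[X], aeval xb s ≠ 0 ∧ ∃ g : k[X][X],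
      aeval xb s * γ = g.eval₂ ((aeval xb : k[X] →ₐ[k] Fk) : k[X] →+* Fk) θb)
    [IsIntegrallyClosed (integralClosure (Algebra.adjoin R0 {x1}) F1 ⧸
      Ideal.span {algebraMap (Algebra.adjoin R0 {x1}) (integralClosure (Algebra.adjoin R0 {x1}) F1)
        (algebraMap R0 (Algebra.adjoin R0 {x1}) ϖ)})]
    {F : Type*} [Field F] (ι : F1 →+* F) (O : Subring F) (res : O →+* Fk)
    (hO1 : ∀ y ∈ M.O1, ι y ∈ O)
    (hc : ∀ (y : F1) (hy : y ∈ M.O1), res ⟨ι y, hO1 y hy⟩ = M.res1 ⟨y, hy⟩)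
    (γ : Fk) (hγ : IsIntegral (Algebra.adjoin k {xb}) γ) :
    ∃ (b : F1) (hb : IsIntegral (Algebra.adjoin R0 {x1}) b),
      res ⟨ι b, hO1 b (M.hBO b hb)⟩ = γ := by
  obtain ⟨b, hb, e⟩ := exists_lift_of_gaussModel M hϖ hπϖ hx1 Φ hΦ hroot hgen hπ0 hgenk γ hγ
  exact ⟨b, hb, (hc b (M.hBO b hb)).trans e⟩

end Finite

end Fermat.Agent.S18.H67
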