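import Mathlib
import Fermat.Agent.S18.H70_AuxCompositum

/-!
# S18 / INST-CUSP (helper13): the Kummer field `F' = F(τ)`, `τ^N = u`, of the cusp chart

`CuspField u N := H70.RootField (X^N - C u)` (helper70's root field), `cuspTau u N` its canonical
root.  For a field `F` containing a primitive `N`-th root of unity (and perfect, e.g. of
characteristic zero) it is a finite Galois extension of `F` generated by `τ`, with `τ^N = u`.
In the application `F = F1 = modularFunctionFieldFullC L1 N`, `u = 1/j1`.
-/

set_option autoImplicit false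
set_option linter.unusedSectionVars false

open Polynomial IntermediateField

namespace Fermat.Agent.S18.H13

open Fermat.Agent.S18

section CuspField

variable {F : Type*} [Field F]

/-- The Kummer polynomial `X^N - u`. -/
noncomputable def cuspPolyK (u : F) (N : ℕ) : F[X] := X ^ N - C u

theorem natDegree_cuspPolyK (u : F) (N : ℕ) [NeZero N] : (cuspPolyK u N).natDegree = N :=
  natDegree_X_pow_sub_C

theorem map_cuspPolyK {E : Type*} [Field E] (f : F →+* E) (u : F) (N : ℕ) :
    (cuspPolyK u N).map f = X ^ N - C (f u) := by
  unfold cuspPolyK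
  rw [Polynomial.map_sub, Polynomial.map_pow, Polynomial.map_X, Polynomial.map_C]

theorem aeval_cuspPolyK {E : Type*} [Field E] [Algebra F E] (x : E) (u : F) (N : ℕ) :
    aeval x (cuspPolyK u N) = x ^ N - algebraMap F E u := by
  unfold cuspPolyK
  rw [map_sub, map_pow, aeval_X, aeval_C]

theorem natDegree_cuspPolyK_ne_zero (u : F) (N : ℕ) [NeZero N] :
    (cuspPolyK u N).natDegree ≠ 0 := by
  rw [natDegree_cuspPolyK]; exact NeZero.ne N

/-- `F(τ)` with `τ^N = u`. -/
abbrev CuspField (u : F) (N : ℕ) : Type _ := H70.RootField (cuspPolyK u N)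

/-- The Kummer generator `τ`. -/
noncomputable def cuspTau (u : F) (N : ℕ) : CuspField u N := H70.rootMu (cuspPolyK u N)

theorem cuspTau_pow (u : F) (N : ℕ) [NeZero N] :
    cuspTau u N ^ N = algebraMap F (CuspField u N) u := by
  have h := H70.aeval_rootMu (natDegree_cuspPolyK_ne_zero u N)
  rw [aeval_cuspPolyK] at h
  exact sub_eq_zero.mp h

theorem adjoin_cuspTau (u : F) (N : ℕ) : F⟮cuspTau u N⟯ = ⊤ := H70.adjoin_rootMu _

theorem cuspTau_ne_zero {u : F} (hu : u ≠ 0) (N : ℕ) [NeZero N] : cuspTau u N ≠ 0 := by
  intro h
  have := cuspTau_pow u N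
  rw [h, zero_pow (NeZero.ne N)] at this
  exact hu ((algebraMap F (CuspField u N)).injective (by rw [← this, map_zero]))

/-- The Kummer polynomial splits in the Kummer field when `F` contains a primitive `N`-th root of
unity. -/
theorem splits_cuspPolyK (u : F) (N : ℕ) [NeZero N] {ζ : F} (hζ : IsPrimitiveRoot ζ N) :
    ((cuspPolyK u N).map (algebraMap F (CuspField u N))).Splits := by
  rw [map_cuspPolyK]
  exact X_pow_sub_C_splits_of_isPrimitiveRoot
    (hζ.map_of_injective (algebraMap F (CuspField u N)).injective) (cuspTau_pow u N)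

/-- The Kummer field is Galois over `F`. -/
theorem isGalois_cuspField [PerfectField F] (u : F) (N : ℕ) [NeZero N] {ζ : F}
    (hζ : IsPrimitiveRoot ζ N) : IsGalois F (CuspField u N) :=
  H70.isGalois_rootField (natDegree_cuspPolyK_ne_zero u N) (splits_cuspPolyK u N hζ)

/-- `τ` is transcendental over a subfield `L` over which `u` is transcendental. -/
theorem transcendental_cuspTau {L : Type*} [Field L] [Algebra L F] {u : F} {N : ℕ} [NeZero N]
    (hu : Transcendental L u) : Transcendental L (cuspTau u N) := by
  have h1 : Transcendental L (algebraMap F (CuspField u N) u) := by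
    intro h
    apply hu
    exact (isAlgebraic_algebraMap_iff (algebraMap F (CuspField u N)).injective).mp h
  refine H70.transcendental_of_mem_adjoin_simple h1 ?_
  rw [← cuspTau_pow]
  exact pow_mem (IntermediateField.mem_adjoin_simple_self L _) N

end CuspField

end Fermat.Agent.S18.H13
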