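import Fermat.Agent.S18.H8_FullCBridge
import Fermat.Agent.S18.H16_FbarBasics
import Fermat.Agent.S18.H45_StrictDVR

set_option autoImplicit false
set_option linter.unusedSectionVars false

/-!
S18 / INST-1, fifth bullet, in helper16's (`H16.jK`, `H16.jNK`) and helper45's (`H45.unrCyclo`)
vocabulary: the coefficient embedding `F1 →+* modularFunctionFieldBar N`, injective,
`j1 ↦ jBar`, `jN1 ↦ j_N`.
-/

noncomputable section

namespace Fermat.Agent.S18.H8

open ModularCurve Fermat.Agent.S24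

section

variable (N : ℕ) [NeZero N] (K : Type*) [Field K] [Algebra K Qbar]

theorem toBar_jK : toBar N K (H16.jK K N) = jBar N := toBar_j N K

theorem toBar_jNK : toBar N K (H16.jNK K N) = jd N N dvd_rfl := toBar_jN N K

end

section

variable {K K' : Type*} [Field K] [Field K'] (φ : K →+* K') (N : ℕ) [NeZero N]

theorem fullCMap_jK : fullCMap φ N (H16.jK K N) = H16.jK K' N := fullCMap_j φ N

theorem fullCMap_jNK : fullCMap φ N (H16.jNK K N) = H16.jNK K' N := fullCMap_jd φ N N dvd_rfl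

end

section L1

variable (N : ℕ) [NeZero N] (ℓ : ℕ)

/-- The coefficient embedding of `F1 = L1(j(q^d) : d ∣ N)`, `L1 = H45.unrCyclo ℓ ⊆ Qbar`, into
`FN N = modularFunctionFieldBar N`. -/
def toBarL1 : modularFunctionFieldFullC ↥(H45.unrCyclo ℓ) N →+* FN N :=
  toBar N ↥(H45.unrCyclo ℓ)

theorem toBarL1_injective : Function.Injective (toBarL1 N ℓ) := (toBarL1 N ℓ).injective

@[simp] theorem coe_toBarL1 (x : modularFunctionFieldFullC ↥(H45.unrCyclo ℓ) N) :
    ((toBarL1 N ℓ x : FN N) : LaurentSeries Qbar) =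
      coeffMap (algebraMap ↥(H45.unrCyclo ℓ) Qbar) (x : LaurentSeries ↥(H45.unrCyclo ℓ)) := rfl

theorem toBarL1_jK : toBarL1 N ℓ (H16.jK ↥(H45.unrCyclo ℓ) N) = jBar N :=
  toBar_jK N ↥(H45.unrCyclo ℓ)

theorem toBarL1_jNK : toBarL1 N ℓ (H16.jNK ↥(H45.unrCyclo ℓ) N) = jd N N dvd_rfl :=
  toBar_jNK N ↥(H45.unrCyclo ℓ)

theorem toBarL1_algebraMap (c : ↥(H45.unrCyclo ℓ)) :
    toBarL1 N ℓ (algebraMap ↥(H45.unrCyclo ℓ) (modularFunctionFieldFullC ↥(H45.unrCyclo ℓ) N) c) =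
      algebraMap Qbar (FN N) (c : Qbar) :=
  toBar_algebraMap N ↥(H45.unrCyclo ℓ) c

end L1

end Fermat.Agent.S18.H8
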