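import Mathlib
import Fermat.Agent.S18.H69_HorInstGeneric
import Fermat.Agent.S18.H69_HorInstCharts
import Fermat.Agent.S18.H8_FullCBridgeInst
import Fermat.Agent.S18.H13_CuspField
import Fermat.Agent.S18.H45_A0Instances

/-!
helper69 — S18 / (HOR-INST), concrete: the hypothesis `hunr` of
`H96.exists_uniformizer_of_places` for `K0 := L1 = H45.unrCyclo ℓ`,
`F1 := modularFunctionFieldFullC L1 N`, `j1 := H16.jK L1 N` and the three auxiliary covers
(Hesse `H70.HesField j1`, Legendre `H70.LegField j1`, cusp `H13.CuspField j1⁻¹ N`).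
-/

set_option autoImplicit false
set_option linter.unusedSectionVars false
set_option linter.style.haveILetI false
set_option synthInstance.maxHeartbeats 400000
set_option maxHeartbeats 2000000

noncomputable section

namespace Fermat.Agent.S18.H69

open AlgebraicCurve Polynomial IntermediateField ModularCurve
open Fermat.Agent.S24

section L1

variable (N : ℕ) [NeZero N] (ℓ : ℕ)

/-- the `F1`-algebra structure of `FN N` given by the coefficient embedding (not an instance). -/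
@[instance_reducible]
def algebraModelFN : Algebra (modularFunctionFieldFullC ↥(H45.unrCyclo ℓ) N) (FN N) :=
  (H8.toBarL1 N ℓ).toAlgebra

theorem isScalarTower_model_FN :
    letI := algebraModelFN N ℓ
    IsScalarTower ↥(H45.unrCyclo ℓ) (modularFunctionFieldFullC ↥(H45.unrCyclo ℓ) N) (FN N) := by
  letI := algebraModelFN N ℓ
  refine IsScalarTower.of_algebraMap_eq fun c => ?_
  show algebraMap ↥(H45.unrCyclo ℓ) (FN N) c = H8.toBarL1 N ℓ (algebraMap _ _ c)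
  rw [H8.toBarL1_algebraMap]
  rfl

/-- **(HOR-INST), Hesse chart over `L1`**: `hunr` of `H96.exists_uniformizer_of_places` with
`K0 := L1`, `F' := H70.HesField j1`, `μ := H70.hesMu j1`, `D := X ^ 3 - 1`. -/
theorem hunr_hesse (w : Place ↥(H45.unrCyclo ℓ) (H70.HesField (H16.jK ↥(H45.unrCyclo ℓ) N)))
    (g₀ : (↥(H45.unrCyclo ℓ))[X]) (hirr : Irreducible g₀)
    (hnd : ¬ g₀ ∣ (X ^ 3 - 1 : (↥(H45.unrCyclo ℓ))[X]))
    (hw : 0 < w.ord (aeval (H70.hesMu (H16.jK ↥(H45.unrCyclo ℓ) N)) g₀)) :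
    w.ord (aeval (H70.hesMu (H16.jK ↥(H45.unrCyclo ℓ) N)) g₀) = 1 := by
  letI := algebraModelFN N ℓ
  haveI := isScalarTower_model_FN N ℓ
  exact ord_aeval_eq_one_of_hesse_cover N (H16.jK ↥(H45.unrCyclo ℓ) N) (H8.toBarL1_jK N ℓ)
    (H16.transcendental_jK _ N) (H70.hesMu _) (H70.hesJ_hesMu _) (H70.adjoin_hesMu _)
    w g₀ hirr hnd hw

/-- **(HOR-INST), Legendre chart over `L1`**: `hunr` of `H96.exists_uniformizer_of_places` with
`K0 := L1`, `F' := H70.LegField j1`, `μ := H70.legMu j1`, `D := X * (X - 1)`. -/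
theorem hunr_legendre (w : Place ↥(H45.unrCyclo ℓ) (H70.LegField (H16.jK ↥(H45.unrCyclo ℓ) N)))
    (g₀ : (↥(H45.unrCyclo ℓ))[X]) (hirr : Irreducible g₀)
    (hnd : ¬ g₀ ∣ (X * (X - 1) : (↥(H45.unrCyclo ℓ))[X]))
    (hw : 0 < w.ord (aeval (H70.legMu (H16.jK ↥(H45.unrCyclo ℓ) N)) g₀)) :
    w.ord (aeval (H70.legMu (H16.jK ↥(H45.unrCyclo ℓ) N)) g₀) = 1 := by
  letI := algebraModelFN N ℓ
  haveI := isScalarTower_model_FN N ℓ
  exact ord_aeval_eq_one_of_legendre_cover N (H16.jK ↥(H45.unrCyclo ℓ) N) (H8.toBarL1_jK N ℓ)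
    (H16.transcendental_jK _ N) (H70.legMu _) (H70.legJ_legMu _) (H70.adjoin_legMu _)
    w g₀ hirr hnd hw

/-- **(HOR-INST), cusp chart over `L1`**: `hunr` of `H96.exists_uniformizer_of_places` with
`K0 := L1`, `F' := H13.CuspField j1⁻¹ N`, `μ := H13.cuspTau j1⁻¹ N`, `D := C 1728 * X ^ N - 1`. -/
theorem hunr_cusp
    (w : Place ↥(H45.unrCyclo ℓ) (H13.CuspField (H16.jK ↥(H45.unrCyclo ℓ) N)⁻¹ N))
    (g₀ : (↥(H45.unrCyclo ℓ))[X]) (hirr : Irreducible g₀)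
    (hnd : ¬ g₀ ∣ (C (1728 : ↥(H45.unrCyclo ℓ)) * X ^ N - 1))
    (hw : 0 < w.ord (aeval (H13.cuspTau (H16.jK ↥(H45.unrCyclo ℓ) N)⁻¹ N) g₀)) :
    w.ord (aeval (H13.cuspTau (H16.jK ↥(H45.unrCyclo ℓ) N)⁻¹ N) g₀) = 1 := by
  letI := algebraModelFN N ℓ
  haveI := isScalarTower_model_FN N ℓ
  have hj0 : H16.jK ↥(H45.unrCyclo ℓ) N ≠ 0 := by
    intro h
    exact (H16.transcendental_jK ↥(H45.unrCyclo ℓ) N) (h ▸ isAlgebraic_zero)
  have htau : H13.cuspTau (H16.jK ↥(H45.unrCyclo ℓ) N)⁻¹ N ^ N *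
      algebraMap _ (H13.CuspField (H16.jK ↥(H45.unrCyclo ℓ) N)⁻¹ N)
        (H16.jK ↥(H45.unrCyclo ℓ) N) = 1 := by
    rw [H13.cuspTau_pow, ← map_mul, inv_mul_cancel₀ hj0, map_one]
  exact ord_aeval_eq_one_of_cusp_cover N (H16.jK ↥(H45.unrCyclo ℓ) N) (H8.toBarL1_jK N ℓ)
    (H16.transcendental_jK _ N) (H13.cuspTau _ N) htau (H13.adjoin_cuspTau _ N)
    w g₀ hirr hnd hw

end L1

end Fermat.Agent.S18.H69
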