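/-
S18 project, route Q (helper96): **(GR) for the finite chart from the Hesse cover** (`3` invertible,
in particular `ℓ = 2`), in the `M.res1` vocabulary of helper3's `H3.GaussModel`
(= `hGRfin` of `H33.s18_of_gaussModel`), generic in the DVR `A₁` and its fraction field `L1`.

`H96.isIntegrallyClosed_specialFibre_hesse` (PURITY + quotient by `A₄`)  +  `M.span_isPrime`
(`hprime` from the saturation `M.hsat`)  +  helper67's `H67.exists_lift_of_gaussModel`.
-/
import Fermat.Agent.S18.H96_InstHesse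
import Fermat.Agent.S18.H96_SpecialFibre

set_option autoImplicit false
set_option linter.unusedSectionVars false
set_option linter.style.haveILetI false

namespace Fermat.Agent.S18.H96

open Polynomial IntermediateField AlgebraicCurve ModularCurve Fermat.Agent.S18

noncomputable section

variable {A₁ L1 : Type} [CommRing A₁] [IsDomain A₁] [IsDiscreteValuationRing A₁]
  [Field L1] [Algebra A₁ L1] [IsFractionRing A₁ L1] [CharZero L1] (N : ℕ) [NeZero N]
  [Algebra A₁ ↥(modularFunctionFieldFullC L1 N)]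
  [IsScalarTower A₁ L1 ↥(modularFunctionFieldFullC L1 N)]

set_option maxHeartbeats 1600000 in
set_option synthInstance.maxHeartbeats 400000 in
/-- The Hesse chart in the `SpecialFibrePrime / SpecialFibreIC` vocabulary. -/
theorem specialFibreIC_hesse {ϖ : A₁} (hϖ : Irreducible ϖ)
    {k : Type} [Field k] [IsAlgClosed k] (res : A₁ →+* k) (hres : Function.Surjective res)
    (hker : RingHom.ker res = Ideal.span {ϖ})
    (h3 : IsUnit (3 : A₁)) (hNk : ((N : ℕ) : k) ≠ 0) (w : L1) (hw : w ^ 2 + w + 1 = 0)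
    (hunr : ∀ (v : Place L1 (H70.HesField (H16.jK L1 N)))
      (g₀ : L1[X]), Irreducible g₀ → ¬ g₀ ∣ (X ^ 3 - 1 : L1[X]) →
      0 < v.ord (aeval (H70.hesMu (H16.jK L1 N)) g₀) →
      v.ord (aeval (H70.hesMu (H16.jK L1 N)) g₀) = 1)
    (hprime : SpecialFibrePrime A₁ ↥(modularFunctionFieldFullC L1 N) (H16.jK L1 N) ϖ) :
    SpecialFibreIC A₁ ↥(modularFunctionFieldFullC L1 N) (H16.jK L1 N) ϖ := by
  unfold SpecialFibrePrime at hprime
  unfold SpecialFibreIC
  exact isIntegrallyClosed_specialFibre_hesse N hϖ res hres hker h3 hNk w hw hunr hprime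

set_option maxHeartbeats 1600000 in
set_option synthInstance.maxHeartbeats 400000 in
/-- **`hGRfin` from the Hesse chart** (`3` invertible). -/
theorem hGRfin_hesse {ϖ : A₁} (hϖ : Irreducible ϖ)
    {k : Type} [Field k] [IsAlgClosed k] (res : A₁ →+* k) (hres : Function.Surjective res)
    (hker : RingHom.ker res = Ideal.span {ϖ})
    (h3 : IsUnit (3 : A₁)) (hNk : ((N : ℕ) : k) ≠ 0) (w : L1) (hw : w ^ 2 + w + 1 = 0)
    (hunr : ∀ (v : Place L1 (H70.HesField (H16.jK L1 N)))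
      (g₀ : L1[X]), Irreducible g₀ → ¬ g₀ ∣ (X ^ 3 - 1 : L1[X]) →
      0 < v.ord (aeval (H70.hesMu (H16.jK L1 N)) g₀) →
      v.ord (aeval (H70.hesMu (H16.jK L1 N)) g₀) = 1)
    {Fk : Type*} [Field Fk] [Algebra k Fk] {xb θb : Fk}
    (M : H3.GaussModel (R0 := A₁) (F1 := ↥(modularFunctionFieldFullC L1 N)) ϖ res
      (H16.jK L1 N) (H16.jNK L1 N) xb θb)
    (Φ : A₁[X][X]) (hΦ : Φ.Monic) (hroot : H3.eval2 (H16.jK L1 N) (H16.jNK L1 N) Φ = 0)
    (hgen : ∀ y : ↥(modularFunctionFieldFullC L1 N), ∃ s : A₁[X], s ≠ 0 ∧ ∃ g : A₁[X][X],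
      aeval (H16.jK L1 N) s * y = H3.eval2 (H16.jK L1 N) (H16.jNK L1 N) g)
    (hgenk : ∀ γ : Fk, ∃ s : k[X], aeval xb s ≠ 0 ∧ ∃ g : k[X][X],
      aeval xb s * γ = g.eval₂ ((aeval xb : k[X] →ₐ[k] Fk) : k[X] →+* Fk) θb)
    (γ : Fk) (hγ : IsIntegral (Algebra.adjoin k {xb}) γ) :
    ∃ (b : ↥(modularFunctionFieldFullC L1 N))
      (hb : IsIntegral (Algebra.adjoin A₁ {H16.jK L1 N}) b), M.res1 ⟨b, M.hBO b hb⟩ = γ := by
  have hϖp : Prime ϖ := hϖ.prime
  have hπϖ : res ϖ = 0 := by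
    rw [← RingHom.mem_ker, hker]; exact Ideal.mem_span_singleton_self ϖ
  have hx1 : Transcendental A₁ (H16.jK L1 N) :=
    H40.transcendental_of_tower (K := L1) _ (H16.transcendental_jK L1 N)
  have hsat := M.hsat hϖp hπϖ hx1 Φ hΦ hroot hgen
  have hIC := specialFibreIC_hesse N hϖ res hres hker h3 hNk w hw hunr
    (specialFibrePrime_of_gaussModel M hsat)
  exact exists_lift_of_specialFibreIC M hϖp hπϖ hx1 Φ hΦ hroot hgen hres hgenk hIC γ hγ

end

end Fermat.Agent.S18.H96
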