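import Mathlib
import Fermat.Agent.S18.H96_GRFinHesse
import Fermat.Agent.S18.H34_GRFinLegendre
import Fermat.Agent.S18.H69_HorInstL1
import Fermat.Agent.S18.H3_ChartFinal
import Fermat.Agent.S18.H45_A0Units
import Fermat.Agent.S18.H67_GaussLift

/-!
# S18 (helper13): `hGRfin` at the concrete model

For every Gauss model `M` of `(A₁, F₁, j₁, jN₁)`: the lifting property on the finite chart, from
the Hesse chart (`ℓ = 2`, `3` invertible; helper96's `H96.hGRfin_hesse`) or the Legendre chart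
(`ℓ ≠ 2`, `2` invertible; helper34's `H34.hGRfin_legendre`), with (HOR) from helper69's
`H69.hunr_hesse` / `H69.hunr_legendre` and the model data from helper3's `H3.inst_facts`.
-/

set_option autoImplicit false
set_option linter.unusedSectionVars false
set_option linter.style.haveILetI false
set_option synthInstance.maxHeartbeats 400000
set_option maxHeartbeats 3200000

open Polynomial IntermediateField AlgebraicCurve ModularCurve

namespace Fermat.Agent.S18.H13

open Fermat.Agent.S18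

noncomputable section

section GRFin

variable (N : ℕ) [NeZero N] {ℓ : ℕ} [hℓ : Fact ℓ.Prime] (hℓN : ¬ ℓ ∣ N)
  (A : ValuationSubring (AlgebraicClosure ℚ)) (hA : A.LiesOverPrime ℓ)

local notation "kA" => IsLocalRing.ResidueField A
local notation "A₁" => H45.A0 A ℓ
local notation "L₁" => H45.unrCyclo ℓ
local notation "F₁" => modularFunctionFieldFullC (H45.unrCyclo ℓ) N
local notation "j₁" => H16.jK (H45.unrCyclo ℓ) N
local notation "jN₁" => H16.jNK (H45.unrCyclo ℓ) N
local notation "FkA" => modularFunctionFieldFullC (IsLocalRing.ResidueField A) N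

include hℓN hA in
/-- **`hGRfin`** at the concrete model, `M.res1` form. -/
theorem hGRfin_A0
    (M : H3.GaussModel (R0 := A₁) (k := kA) (F1 := F₁) (Fk := FkA)
      ((ℓ : ℕ) : A₁) (H45.resA0 A ℓ) j₁ jN₁ (H16.jK kA N) (H16.jNK kA N))
    (γ : FkA) (hγ : IsIntegral (Algebra.adjoin kA {H16.jK kA N}) γ) :
    ∃ (b : F₁) (hb : IsIntegral (Algebra.adjoin A₁ {j₁}) b), M.res1 ⟨b, M.hBO b hb⟩ = γ := by
  classical
  haveI hdvr : IsDiscreteValuationRing A₁ := H45.isDiscreteValuationRing_A0 hℓ.out hA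
  obtain ⟨-, -, -, Φ, hΦ, hroot, hgen⟩ := H3.inst_facts N A hA
  have hNk : ((N : ℕ) : kA) ≠ 0 := H45.natCast_ne_zero_residueField hℓ.out hA hℓN
  have hgenk := H67.exists_repr_of_adjoin_eq_top (H16.jK kA N) (H16.jNK kA N)
    (H16.isIntegral_jNK_gen N kA hNk) (H16.adjoin_jNK_eq_top_gen N kA hNk)
  have hϖ : Irreducible ((ℓ : ℕ) : A₁) := H45.irreducible_natCast_A0 hℓ.out hA
  by_cases h2 : ℓ = 2
  · -- Hesse chart
    have h3 : ℓ ≠ 3 := by rw [h2]; norm_num
    obtain ⟨w, -, hw⟩ := H45.exists_cubeRoot_unrCyclo hℓ.out h3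
    exact H96.hGRfin_hesse N hϖ (H45.resA0 A ℓ) (H45.resA0_surjective hℓ.out hA)
      (H45.ker_resA0_eq_span hℓ.out hA) (H45.isUnit_three_A0 hℓ.out hA h3) hNk w hw
      (H69.hunr_hesse N ℓ) M Φ hΦ hroot hgen hgenk γ hγ
  · -- Legendre chart
    exact H34.hGRfin_legendre N hϖ (H45.resA0 A ℓ) (H45.resA0_surjective hℓ.out hA)
      (H45.ker_resA0_eq_span hℓ.out hA) (H45.isUnit_two_A0 hℓ.out hA h2) hNk
      (H69.hunr_legendre N ℓ) M Φ hΦ hroot hgen hgenk γ hγ

end GRFin

end

end Fermat.Agent.S18.H13
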