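/-
S18 project, route Q of (GR), package (CUSP-AUX) (helper42).  Mathlib only.

The `t`-line at a cusp.  `A` a domain, `π ∈ A` prime, `P = (π, X) ⊆ A[X]`, and `R` any
localisation of `A[X]` at `P` (a two-dimensional regular local ring when `A` is a DVR with
uniformiser `π`).
* (C1) `R` is a local domain, noetherian / UFD / integrally closed when `A` is.
* (C2) `π` and `t = X` are prime elements of `R`, `𝔪_R = (π, t)`, `R ⧸ π` is a PID,
  residue field `A ⧸ π`.
* (C3) the rotations `X ↦ ζ X`; for a primitive `N`-th root of unity `ζ` the invariants are the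
  polynomials in `X ^ N`.
* (C4) the map `R₀ → R` induced by `Y ↦ t ^ N` is injective and integral.
-/
import Mathlib

set_option autoImplicit false
set_option linter.unusedSectionVars false
set_option linter.style.haveILetI false

open Polynomial

namespace Fermat.Agent.S18.H42

/-! ## (C0) the ideal `(π, X)` -/

section CuspIdeal

variable {A : Type*} [CommRing A]

/-- The ideal `(π, X)` of `A[X]`. -/
noncomputable def cuspIdeal (π : A) : Ideal A[X] := Ideal.span {C π, X}

theorem cuspIdeal_eq_comap (π : A) :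
    cuspIdeal π = (Ideal.span {π}).comap (constantCoeff : A[X] →+* A) := by
  apply le_antisymm
  · rw [cuspIdeal, Ideal.span_le]
    rintro p (rfl | rfl)
    · simp
    · simp
  · intro p hp
    rw [Ideal.mem_comap, Ideal.mem_span_singleton] at hp
    obtain ⟨c, hc⟩ := hp
    have hpd : p = C π * C c + X * p.divX := by
      conv_lhs => rw [← p.divX_mul_X_add]
      rw [constantCoeff_apply] at hc
      rw [hc, C_mul]
      ring
    rw [hpd]
    refine Ideal.add_mem _ (Ideal.mul_mem_right _ _ (Ideal.subset_span (by simp)))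
      (Ideal.mul_mem_right _ _ (Ideal.subset_span (by simp)))

theorem mem_cuspIdeal_iff (π : A) (p : A[X]) : p ∈ cuspIdeal π ↔ π ∣ p.coeff 0 := by
  rw [cuspIdeal_eq_comap, Ideal.mem_comap, Ideal.mem_span_singleton, constantCoeff_apply]

theorem C_mem_cuspIdeal (π : A) : C π ∈ cuspIdeal π := Ideal.subset_span (by simp)

theorem X_mem_cuspIdeal (π : A) : (X : A[X]) ∈ cuspIdeal π := Ideal.subset_span (by simp)

theorem cuspIdeal_isPrime [IsDomain A] {π : A} (hπ : Prime π) : (cuspIdeal π).IsPrime := by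
  rw [cuspIdeal_eq_comap]
  have : (Ideal.span {π}).IsPrime := (Ideal.span_singleton_prime hπ.ne_zero).mpr hπ
  exact Ideal.comap_isPrime _ _

theorem cuspIdeal_isMaximal {π : A} (hπ : (Ideal.span {π}).IsMaximal) :
    (cuspIdeal π).IsMaximal := by
  rw [cuspIdeal_eq_comap]
  exact Ideal.comap_isMaximal_of_surjective _ (fun a => ⟨C a, by simp⟩)

end CuspIdeal


/-! ## (C1) ring-theoretic properties of the localisation at `(π, X)` -/

section Loc

variable {A : Type*} [CommRing A] [IsDomain A] {π : A}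
variable (R : Type*) [CommRing R] [Algebra A[X] R]

variable [hP : (cuspIdeal π).IsPrime] [IsLocalization.AtPrime R (cuspIdeal π)]

include hP in
theorem cuspRing_isDomain : IsDomain R :=
  IsLocalization.isDomain_of_le_nonZeroDivisors R
    (Ideal.primeCompl_le_nonZeroDivisors (cuspIdeal π))

include hP in
theorem cuspRing_algebraMap_injective : Function.Injective (algebraMap A[X] R) :=
  IsLocalization.injective R (Ideal.primeCompl_le_nonZeroDivisors (cuspIdeal π))

include hP in
theorem cuspRing_isLocalRing : IsLocalRing R :=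
  IsLocalization.AtPrime.isLocalRing R (cuspIdeal π)

include hP in
theorem cuspRing_isNoetherianRing [IsNoetherianRing A] : IsNoetherianRing R :=
  IsLocalization.isNoetherianRing (cuspIdeal π).primeCompl R inferInstance

include hP in
theorem cuspRing_ufd [UniqueFactorizationMonoid A] : UniqueFactorizationMonoid R :=
  UniqueFactorizationMonoid.of_isLocalization (cuspIdeal π).primeCompl R

include hP in
theorem cuspRing_isIntegrallyClosed [UniqueFactorizationMonoid A] : IsIntegrallyClosed R := by
  haveI := cuspRing_isDomain (π := π) R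
  haveI := cuspRing_ufd (π := π) R
  infer_instance

include hP in
/-- Any fraction field of `A[X]` is a fraction field of `R`. -/
theorem cuspRing_isFractionRing (E : Type*) [Field E] [Algebra A[X] E] [IsFractionRing A[X] E]
    [Algebra R E] [IsScalarTower A[X] R E] : IsFractionRing R E := by
  haveI := cuspRing_isDomain (π := π) R
  exact IsFractionRing.isFractionRing_of_isDomain_of_isLocalization (cuspIdeal π).primeCompl R E

end Loc


/-! ## (C2) the prime elements `π`, `t` and the special fibre -/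

section Special

open IsLocalRing

variable {A : Type*} [CommRing A] [IsDomain A] {π : A}
variable (R : Type*) [CommRing R] [Algebra A[X] R]
variable [hP : (cuspIdeal π).IsPrime] [IsLocalization.AtPrime R (cuspIdeal π)]

include hP in
/-- A prime element of `A[X]` lying in `(π, X)` stays prime in `R`. -/
theorem cuspRing_prime_of_prime {f : A[X]} (hf : Prime f) (hfP : f ∈ cuspIdeal π) :
    Prime (algebraMap A[X] R f) := by
  have hinj := cuspRing_algebraMap_injective (π := π) R
  have hne : algebraMap A[X] R f ≠ 0 := by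
    rw [Ne, map_eq_zero_iff _ hinj]
    exact hf.ne_zero
  rw [← Ideal.span_singleton_prime hne]
  have hprime : (Ideal.span {f}).IsPrime := (Ideal.span_singleton_prime hf.ne_zero).mpr hf
  have hdisj : Disjoint ((cuspIdeal π).primeCompl : Set A[X]) (Ideal.span {f} : Ideal A[X]) := by
    rw [Set.disjoint_left]
    intro x hx hxf
    apply hx
    obtain ⟨c, rfl⟩ := Ideal.mem_span_singleton.mp hxf
    exact Ideal.mul_mem_right _ _ hfP
  have := IsLocalization.isPrime_of_isPrime_disjoint (cuspIdeal π).primeCompl R _ hprime hdisj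
  rwa [Ideal.map_span, Set.image_singleton] at this

include hP in
theorem cuspRing_prime_C (hπ : Prime π) : Prime (algebraMap A[X] R (C π)) :=
  cuspRing_prime_of_prime R (Polynomial.prime_C_iff.mpr hπ) (C_mem_cuspIdeal π)

include hP in
theorem cuspRing_prime_X : Prime (algebraMap A[X] R X) :=
  cuspRing_prime_of_prime R Polynomial.prime_X (X_mem_cuspIdeal π)

include hP in
theorem cuspRing_maximalIdeal_eq :
    haveI := cuspRing_isLocalRing (π := π) R
    maximalIdeal R = Ideal.span {algebraMap A[X] R (C π), algebraMap A[X] R X} := by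
  haveI := cuspRing_isLocalRing (π := π) R
  rw [← IsLocalization.AtPrime.map_eq_maximalIdeal (cuspIdeal π) R, cuspIdeal, Ideal.map_span,
    Set.image_pair]

include hP in
theorem cuspRing_algebraMap_mem_maximalIdeal_iff (p : A[X]) :
    haveI := cuspRing_isLocalRing (π := π) R
    algebraMap A[X] R p ∈ maximalIdeal R ↔ π ∣ p.coeff 0 := by
  haveI := cuspRing_isLocalRing (π := π) R
  rw [← mem_cuspIdeal_iff, ← IsLocalization.AtPrime.to_map_mem_maximal_iff R (cuspIdeal π)]

include hP in
theorem cuspRing_isUnit_algebraMap_iff (p : A[X]) :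
    IsUnit (algebraMap A[X] R p) ↔ ¬ π ∣ p.coeff 0 := by
  haveI := cuspRing_isLocalRing (π := π) R
  rw [← cuspRing_algebraMap_mem_maximalIdeal_iff (π := π) R, IsLocalRing.mem_maximalIdeal,
    mem_nonunits_iff, not_not]


include hP in
/-- Divisibility by `π` in `R` is divisibility by `π` in `A[X]`. -/
theorem cuspRing_C_dvd_iff (hπ : Prime π) (p : A[X]) :
    algebraMap A[X] R (C π) ∣ algebraMap A[X] R p ↔ C π ∣ p := by
  constructor
  · rintro ⟨r, hr⟩
    obtain ⟨a, s, rfl⟩ := IsLocalization.exists_mk'_eq (cuspIdeal π).primeCompl r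
    have h1 : algebraMap A[X] R (p * s) = algebraMap A[X] R (C π * a) := by
      rw [map_mul, hr, map_mul, mul_assoc, IsLocalization.mk'_spec]
    have h2 := cuspRing_algebraMap_injective (π := π) R h1
    have hprime : Prime (C π) := Polynomial.prime_C_iff.mpr hπ
    rcases hprime.dvd_or_dvd (Dvd.intro _ h2.symm) with h | h
    · exact h
    · exfalso
      apply s.2
      obtain ⟨c, hc⟩ := h
      rw [hc]
      exact Ideal.mul_mem_right _ _ (C_mem_cuspIdeal π)
  · exact fun h => map_dvd _ h

include hP in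
/-- `t` is not divisible by `π`: the special fibre is not a field. -/
theorem cuspRing_not_C_dvd_X (hπ : Prime π) :
    ¬ algebraMap A[X] R (C π) ∣ algebraMap A[X] R X := by
  rw [cuspRing_C_dvd_iff R hπ, C_dvd_iff_dvd_coeff]
  intro h
  have := h 1
  rw [coeff_X_one] at this
  exact hπ.not_isUnit (isUnit_of_dvd_one this)

include hP in
/-- The residue field of `R` is `A ⧸ π` (when the latter is a field). -/
theorem cuspRing_exists_sub_mem_maximalIdeal (hmax : (Ideal.span {π}).IsMaximal) (r : R) :
    haveI := cuspRing_isLocalRing (π := π) R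
    ∃ a : A, r - algebraMap A[X] R (C a) ∈ maximalIdeal R := by
  haveI := cuspRing_isLocalRing (π := π) R
  haveI := cuspIdeal_isMaximal hmax
  obtain ⟨x, hx⟩ := (IsLocalization.AtPrime.equivQuotMaximalIdeal (cuspIdeal π) R).surjective
    (Ideal.Quotient.mk _ r)
  obtain ⟨x, rfl⟩ := Ideal.Quotient.mk_surjective x
  rw [IsLocalization.AtPrime.equivQuotMaximalIdeal_apply_mk, Ideal.Quotient.eq] at hx
  refine ⟨x.coeff 0, ?_⟩
  have h2 : algebraMap A[X] R (x - C (x.coeff 0)) ∈ maximalIdeal R := by
    rw [cuspRing_algebraMap_mem_maximalIdeal_iff (π := π) R]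
    simp
  have : r - algebraMap A[X] R (C (x.coeff 0)) =
      algebraMap A[X] R (x - C (x.coeff 0)) - (algebraMap A[X] R x - r) := by
    rw [map_sub]; ring
  rw [this]
  exact Ideal.sub_mem _ h2 hx

include hP in
/-- The special fibre `R ⧸ π` is a principal ideal domain (a DVR with uniformiser `t`, or a
field). -/
theorem cuspRing_quotient_isPrincipalIdealRing [IsNoetherianRing A] (hπ : Prime π) :
    IsPrincipalIdealRing (R ⧸ Ideal.span {algebraMap A[X] R (C π)}) := by
  haveI := cuspRing_isLocalRing (π := π) R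
  haveI := cuspRing_isNoetherianRing (π := π) R
  set ϖ := algebraMap A[X] R (C π) with hϖdef
  have hϖ : Prime ϖ := cuspRing_prime_C R hπ
  haveI : (Ideal.span {ϖ}).IsPrime := (Ideal.span_singleton_prime hϖ.ne_zero).mpr hϖ
  haveI : IsDomain (R ⧸ Ideal.span {ϖ}) := Ideal.Quotient.isDomain _
  haveI : IsLocalRing (R ⧸ Ideal.span {ϖ}) :=
    IsLocalRing.of_surjective' (Ideal.Quotient.mk _) Ideal.Quotient.mk_surjective
  haveI := IsLocalHom.of_surjective (Ideal.Quotient.mk (Ideal.span {ϖ}))
    Ideal.Quotient.mk_surjective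
  have hle : Ideal.span {ϖ} ≤ maximalIdeal R := by
    rw [Ideal.span_le, Set.singleton_subset_iff]
    exact (cuspRing_algebraMap_mem_maximalIdeal_iff (π := π) R _).mpr (by simp)
  have hmap : (maximalIdeal R).map (Ideal.Quotient.mk (Ideal.span {ϖ})) =
      maximalIdeal (R ⧸ Ideal.span {ϖ}) := by
    ext x
    obtain ⟨x, rfl⟩ := Ideal.Quotient.mk_surjective x
    simp [sup_eq_left.mpr hle]
  have hprinc : (maximalIdeal (R ⧸ Ideal.span {ϖ})).IsPrincipal := by
    refine ⟨⟨Ideal.Quotient.mk _ (algebraMap A[X] R X), ?_⟩⟩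
    rw [← hmap, cuspRing_maximalIdeal_eq (π := π) R, Ideal.map_span, Set.image_pair,
      ← hϖdef]
    have h0 : Ideal.Quotient.mk (Ideal.span {ϖ}) ϖ = 0 :=
      Ideal.Quotient.eq_zero_iff_mem.mpr (Ideal.mem_span_singleton_self ϖ)
    rw [h0]
    apply le_antisymm
    · rw [Ideal.span_le]
      rintro y (rfl | rfl)
      · exact Ideal.zero_mem _
      · exact Ideal.subset_span rfl
    · rw [Ideal.submodule_span_eq, Ideal.span_le, Set.singleton_subset_iff]
      exact Ideal.subset_span (by simp)
  exact ((tfae_of_isNoetherianRing_of_isLocalRing_of_isDomain (R ⧸ Ideal.span {ϖ})).out 0 4).mpr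
    hprinc

include hP in
theorem cuspRing_span_C_isPrime (hπ : Prime π) :
    (Ideal.span {algebraMap A[X] R (C π)}).IsPrime := by
  have hϖ : Prime (algebraMap A[X] R (C π)) := cuspRing_prime_C R hπ
  exact (Ideal.span_singleton_prime hϖ.ne_zero).mpr hϖ

include hP in
/-- The special fibre `R ⧸ π` is a discrete valuation ring (with uniformiser `t`). -/
theorem cuspRing_quotient_isDiscreteValuationRing [IsNoetherianRing A] (hπ : Prime π)
    [(Ideal.span {algebraMap A[X] R (C π)}).IsPrime] :
    IsDiscreteValuationRing (R ⧸ Ideal.span {algebraMap A[X] R (C π)}) := by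
  haveI := cuspRing_isLocalRing (π := π) R
  set ϖ := algebraMap A[X] R (C π) with hϖdef
  haveI : IsLocalRing (R ⧸ Ideal.span {ϖ}) :=
    IsLocalRing.of_surjective' (Ideal.Quotient.mk _) Ideal.Quotient.mk_surjective
  haveI := IsLocalHom.of_surjective (Ideal.Quotient.mk (Ideal.span {ϖ}))
    Ideal.Quotient.mk_surjective
  haveI := cuspRing_quotient_isPrincipalIdealRing (π := π) R hπ
  refine { not_a_field' := ?_ }
  intro hbot
  have hmem : Ideal.Quotient.mk (Ideal.span {ϖ}) (algebraMap A[X] R X) ∈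
      maximalIdeal (R ⧸ Ideal.span {ϖ}) := by
    rw [IsLocalRing.mem_maximalIdeal, mem_nonunits_iff]
    intro hu
    have hu' : IsUnit (algebraMap A[X] R X) := isUnit_of_map_unit _ _ hu
    rw [cuspRing_isUnit_algebraMap_iff (π := π) R] at hu'
    simp at hu'
  rw [hbot, Ideal.mem_bot, Ideal.Quotient.eq_zero_iff_mem, Ideal.mem_span_singleton] at hmem
  exact cuspRing_not_C_dvd_X (π := π) R hπ hmem

end Special


/-! ## (C3) rotations `X ↦ ζ X` and their invariants -/

section Rot

variable {A : Type*} [CommRing A]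

/-- The rotation `X ↦ ζ X` of `A[X]`. -/
noncomputable def rot (ζ : A) : A[X] →ₐ[A] A[X] := aeval (C ζ * X)

theorem rot_apply (ζ : A) (p : A[X]) : rot ζ p = p.comp (C ζ * X) := by
  simp [rot, comp, aeval_def]

@[simp]
theorem coeff_rot (ζ : A) (p : A[X]) (i : ℕ) : (rot ζ p).coeff i = p.coeff i * ζ ^ i := by
  rw [rot_apply, comp_C_mul_X_coeff]

@[simp]
theorem rot_one (p : A[X]) : rot (1 : A) p = p := by
  ext i; simp

theorem rot_rot (ζ ξ : A) (p : A[X]) : rot ζ (rot ξ p) = rot (ζ * ξ) p := by
  ext i; simp [mul_pow]; ring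

@[simp]
theorem rot_X (ζ : A) : rot ζ X = C ζ * X := by simp [rot]

@[simp]
theorem rot_C (ζ a : A) : rot ζ (C a) = C a := by simp [rot]

theorem rot_map {B : Type*} [CommRing B] (f : A →+* B) (ζ : A) (p : A[X]) :
    (rot ζ p).map f = rot (f ζ) (p.map f) := by
  ext i; simp

/-- The rotation by `ζ` is the identity only for `ζ = 1`. -/
theorem rot_X_eq_X_iff [Nontrivial A] (ζ : A) : rot ζ X = X ↔ ζ = 1 := by
  constructor
  · intro h
    have := congrArg (fun p => p.coeff 1) h
    simpa using this
  · rintro rfl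
    simp

theorem rot_expand {N : ℕ} {ζ : A} (hζ : ζ ^ N = 1) (q : A[X]) :
    rot ζ (expand A N q) = expand A N q := by
  rcases Nat.eq_zero_or_pos N with rfl | hN
  · simp
  ext i
  rw [coeff_rot, coeff_expand hN]
  split_ifs with h
  · obtain ⟨c, rfl⟩ := h
    rw [pow_mul, hζ, one_pow, mul_one]
  · simp

theorem exists_expand_eq_of_rot_eq [IsDomain A] {N : ℕ} (hN : 0 < N) {ζ : A}
    (hζ : IsPrimitiveRoot ζ N) {p : A[X]} (hp : rot ζ p = p) : ∃ q, expand A N q = p := by
  refine ⟨contract N p, ?_⟩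
  ext i
  rw [coeff_expand hN]
  split_ifs with h
  · rw [coeff_contract hN.ne', Nat.div_mul_cancel h]
  · have hi := congrArg (fun p => p.coeff i) hp
    simp only [coeff_rot] at hi
    have h1 : p.coeff i * (ζ ^ i - 1) = 0 := by rw [mul_sub, hi, mul_one, sub_self]
    rcases mul_eq_zero.mp h1 with h0 | h0
    · exact h0.symm
    · exact absurd ((hζ.pow_eq_one_iff_dvd i).mp (sub_eq_zero.mp h0)) h

theorem rot_eq_self_iff [IsDomain A] {N : ℕ} (hN : 0 < N) {ζ : A}
    (hζ : IsPrimitiveRoot ζ N) (p : A[X]) : rot ζ p = p ↔ ∃ q, expand A N q = p :=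
  ⟨exists_expand_eq_of_rot_eq hN hζ, fun ⟨q, hq⟩ => hq ▸ rot_expand hζ.pow_eq_one q⟩

/-- The norm `∏_{i < N} s(ζ^i X)`. -/
noncomputable def rotNorm (ζ : A) (N : ℕ) (s : A[X]) : A[X] :=
  ∏ i ∈ Finset.range N, rot (ζ ^ i) s

theorem rot_rotNorm {N : ℕ} {ζ : A} (hζ : ζ ^ N = 1) (s : A[X]) :
    rot ζ (rotNorm ζ N s) = rotNorm ζ N s := by
  rcases Nat.eq_zero_or_pos N with rfl | hN
  · simp [rotNorm]
  obtain ⟨M, rfl⟩ := Nat.exists_eq_succ_of_ne_zero hN.ne'
  unfold rotNorm
  rw [map_prod]
  have h1 : ∀ i, rot ζ (rot (ζ ^ i) s) = rot (ζ ^ (i + 1)) s := fun i => by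
    rw [rot_rot, pow_succ']
  simp_rw [h1]
  rw [Finset.prod_range_succ (fun i => rot (ζ ^ (i + 1)) s), hζ,
    Finset.prod_range_succ' (fun i => rot (ζ ^ i) s), pow_zero]

theorem rotNorm_eq_mul {N : ℕ} (hN : 0 < N) (ζ : A) (s : A[X]) :
    rotNorm ζ N s = s * ∏ i ∈ Finset.range (N - 1), rot (ζ ^ (i + 1)) s := by
  obtain ⟨M, rfl⟩ := Nat.exists_eq_succ_of_ne_zero hN.ne'
  unfold rotNorm
  rw [Finset.prod_range_succ' (fun i => rot (ζ ^ i) s), pow_zero, rot_one, mul_comm]
  rfl

theorem coeff_zero_rotNorm (ζ : A) (N : ℕ) (s : A[X]) :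
    (rotNorm ζ N s).coeff 0 = s.coeff 0 ^ N := by
  unfold rotNorm
  rw [← constantCoeff_apply, map_prod]
  simp [constantCoeff_apply]

/-- **Core lemma of (C4).** Every polynomial divides a polynomial in `X ^ N` with constant
coefficient `s(0) ^ N`. -/
theorem exists_mul_eq_expand [IsDomain A] {N : ℕ} (hN : 0 < N) {ζ : A}
    (hζ : IsPrimitiveRoot ζ N) (s : A[X]) :
    ∃ s' q : A[X], s * s' = expand A N q ∧ q.coeff 0 = s.coeff 0 ^ N := by
  obtain ⟨q, hq⟩ := exists_expand_eq_of_rot_eq hN hζ (rot_rotNorm hζ.pow_eq_one s)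
  refine ⟨_, q, (rotNorm_eq_mul hN ζ s).symm.trans hq.symm, ?_⟩
  rw [← coeff_zero_rotNorm ζ N s, ← hq, coeff_expand hN]
  simp

end Rot


/-! ## (C4) the map from the `Y`-line to the `t`-line, `Y ↦ t ^ N` -/

section Expand

variable {A : Type*} [CommRing A] [IsDomain A] (π : A) [hP : (cuspIdeal π).IsPrime]
variable (R₀ R : Type*) [CommRing R₀] [Algebra A[X] R₀] [IsLocalization.AtPrime R₀ (cuspIdeal π)]
  [CommRing R] [Algebra A[X] R] [IsLocalization.AtPrime R (cuspIdeal π)]
variable (N : ℕ) [NeZero N]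

omit [IsDomain A] hP in
theorem expand_mem_cuspIdeal_iff (q : A[X]) :
    expand A N q ∈ cuspIdeal π ↔ q ∈ cuspIdeal π := by
  rw [mem_cuspIdeal_iff, mem_cuspIdeal_iff, coeff_expand (NeZero.pos N)]
  simp

/-- The local homomorphism `R₀ → R` induced by `Y ↦ t ^ N`. -/
noncomputable def cuspExpand : R₀ →+* R :=
  IsLocalization.map (M := (cuspIdeal π).primeCompl) (T := (cuspIdeal π).primeCompl) R
    ((expand A N : A[X] →ₐ[A] A[X]) : A[X] →+* A[X])
    (fun q hq => by
      rw [Submonoid.mem_comap]
      change _ ∉ cuspIdeal π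
      rw [RingHom.coe_coe, expand_mem_cuspIdeal_iff]
      exact hq)

@[simp]
theorem cuspExpand_algebraMap (p : A[X]) :
    cuspExpand π R₀ R N (algebraMap A[X] R₀ p) = algebraMap A[X] R (expand A N p) := by
  unfold cuspExpand
  rw [IsLocalization.map_eq]
  rfl

theorem cuspExpand_injective : Function.Injective (cuspExpand π R₀ R N) := by
  haveI := cuspRing_isDomain (π := π) R₀
  rw [injective_iff_map_eq_zero]
  intro x hx
  obtain ⟨a, s, rfl⟩ := IsLocalization.exists_mk'_eq (cuspIdeal π).primeCompl x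
  have h1 : IsLocalization.mk' R₀ a s * algebraMap A[X] R₀ s = algebraMap A[X] R₀ a :=
    IsLocalization.mk'_spec _ _ _
  have h2 := congrArg (cuspExpand π R₀ R N) h1
  rw [map_mul, hx, zero_mul, cuspExpand_algebraMap] at h2
  have h3 : expand A N a = 0 :=
    (map_eq_zero_iff _ (cuspRing_algebraMap_injective (π := π) R)).mp h2.symm
  have h4 : a = 0 := by
    have := expand_injective (NeZero.pos N) (h3.trans (map_zero (expand A N)).symm)
    exact this
  rw [h4, IsLocalization.mk'_zero]


/-- Every polynomial is integral over `R₀` (via `Y ↦ t ^ N`). -/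
theorem cuspExpand_isIntegralElem_algebraMap (p : A[X]) :
    (cuspExpand π R₀ R N).IsIntegralElem (algebraMap A[X] R p) := by
  letI : Algebra R₀ R := (cuspExpand π R₀ R N).toAlgebra
  change IsIntegral R₀ (algebraMap A[X] R p)
  induction p using Polynomial.induction_on' with
  | add p q hp hq =>
    rw [map_add]
    exact hp.add hq
  | monomial n a =>
    rw [← C_mul_X_pow_eq_monomial, map_mul, map_pow]
    refine IsIntegral.mul ?_ (IsIntegral.pow ?_ n)
    · have : algebraMap A[X] R (C a) = algebraMap R₀ R (algebraMap A[X] R₀ (C a)) := by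
        rw [RingHom.algebraMap_toAlgebra, cuspExpand_algebraMap]
        simp
      rw [this]
      exact isIntegral_algebraMap
    · refine ⟨X ^ N - C (algebraMap A[X] R₀ X), monic_X_pow_sub_C _ (NeZero.ne N), ?_⟩
      simp [RingHom.algebraMap_toAlgebra, cuspExpand_algebraMap]

/-- **(C4)** `R` is integral over `R₀` via `Y ↦ t ^ N`, if `A` contains a primitive `N`-th root
of unity. -/
theorem cuspExpand_isIntegral (hπ : Prime π) {ζ : A} (hζ : IsPrimitiveRoot ζ N) :
    (cuspExpand π R₀ R N).IsIntegral := by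
  intro r
  obtain ⟨a, s, rfl⟩ := IsLocalization.exists_mk'_eq (cuspIdeal π).primeCompl r
  obtain ⟨s', q, hsq, hq0⟩ := exists_mul_eq_expand (NeZero.pos N) hζ (s : A[X])
  have hqP : q ∈ (cuspIdeal π).primeCompl := by
    change q ∉ cuspIdeal π
    rw [mem_cuspIdeal_iff, hq0]
    intro h
    exact s.2 ((mem_cuspIdeal_iff π _).mpr (hπ.dvd_of_dvd_pow h))
  have hkey : IsLocalization.mk' R a s = algebraMap A[X] R (a * s') *
      cuspExpand π R₀ R N (IsLocalization.mk' R₀ 1 ⟨q, hqP⟩) := by
    rw [IsLocalization.mk'_eq_iff_eq_mul]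
    have h1 : IsLocalization.mk' R₀ (1 : A[X]) ⟨q, hqP⟩ * algebraMap A[X] R₀ q = 1 := by
      have := IsLocalization.mk'_spec R₀ (1 : A[X]) ⟨q, hqP⟩
      rw [map_one] at this
      exact this
    have h2 := congrArg (cuspExpand π R₀ R N) h1
    rw [map_mul, cuspExpand_algebraMap, map_one, ← hsq, map_mul] at h2
    rw [map_mul]
    calc algebraMap A[X] R a = algebraMap A[X] R a * 1 := (mul_one _).symm
      _ = _ := by rw [← h2]; ring
  rw [hkey]
  exact RingHom.IsIntegralElem.mul _ (cuspExpand_isIntegralElem_algebraMap π R₀ R N _)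
    ((cuspExpand π R₀ R N).isIntegralElem_map)

end Expand

end Fermat.Agent.S18.H42
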