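import Mathlib
import Fermat.Agent.S18.H42_CuspAux

/-!
# S18 / INST-CUSP (helper13): the cusp line `R' = A₁[t]_(ϖ,t)` as a base line of route Q

For any model `R'` of the localisation of `A₁[X]` at `(ϖ, X)` (helper42's `H42.cuspIdeal`), with
its `A₁`-algebra structure, this file discharges the "base line" hypotheses of helper96's
`H96.isIntegrallyClosed_specialFibre`:

* `prime_algebraMap`       : `ϖ` is a prime element of `R'`;
* `isPrincipalIdealRing_quotient` : `R' ⧸ ϖ` is a PID;
* `hpt`                    : the only maximal ideal of `R'` is `(ϖ, t)`, `A₁ → R' ⧸ 𝔪` is onto and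
                             `R' ⧸ 𝔪 ≃ k` for the (algebraically closed) residue field `k` of `A₁`.
-/

set_option autoImplicit false
set_option linter.unusedSectionVars false
set_option linter.style.haveILetI false

namespace Fermat.Agent.S18.H13

open Polynomial IsLocalRing Fermat.Agent.S18

section CuspLine

variable {A₁ : Type*} [CommRing A₁] [IsDomain A₁] {ϖ : A₁}
variable (R' : Type*) [CommRing R'] [Algebra A₁[X] R'] [Algebra A₁ R'] [IsScalarTower A₁ A₁[X] R']
variable [hP : (H42.cuspIdeal ϖ).IsPrime] [IsLocalization.AtPrime R' (H42.cuspIdeal ϖ)]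

theorem algebraMap_eq_C (a : A₁) : algebraMap A₁ R' a = algebraMap A₁[X] R' (C a) := by
  rw [IsScalarTower.algebraMap_apply A₁ A₁[X] R', Polynomial.algebraMap_apply,
    Algebra.algebraMap_self, RingHom.id_apply]

include hP in
theorem prime_algebraMap (hϖ : Prime ϖ) : Prime (algebraMap A₁ R' ϖ) := by
  rw [algebraMap_eq_C]
  exact H42.cuspRing_prime_C R' hϖ

include hP in
theorem isPrincipalIdealRing_quotient [IsNoetherianRing A₁] (hϖ : Prime ϖ) :
    IsPrincipalIdealRing (R' ⧸ Ideal.span {algebraMap A₁ R' ϖ}) := by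
  rw [algebraMap_eq_C]
  exact H42.cuspRing_quotient_isPrincipalIdealRing R' hϖ

include hP in
/-- The maximal ideals of the cusp line containing `ϖ`: there is only `(ϖ, t)`. -/
theorem eq_span_pair_of_isMaximal (p : Ideal R') (hp : p.IsMaximal) :
    p = Ideal.span {algebraMap A₁ R' ϖ, algebraMap A₁[X] R' X} := by
  haveI := H42.cuspRing_isLocalRing (π := ϖ) R'
  rw [IsLocalRing.eq_maximalIdeal hp, algebraMap_eq_C]
  exact H42.cuspRing_maximalIdeal_eq (π := ϖ) R'

include hP in
theorem exists_sub_mem_of_isMaximal (hmax : (Ideal.span {ϖ}).IsMaximal) (p : Ideal R')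
    (hp : p.IsMaximal) (r : R') : ∃ a : A₁, r - algebraMap A₁ R' a ∈ p := by
  haveI := H42.cuspRing_isLocalRing (π := ϖ) R'
  rw [IsLocalRing.eq_maximalIdeal hp]
  obtain ⟨a, ha⟩ := H42.cuspRing_exists_sub_mem_maximalIdeal (π := ϖ) R' hmax r
  exact ⟨a, by rwa [algebraMap_eq_C]⟩

include hP in
/-- The residue field of the cusp line is the residue field of `A₁`. -/
theorem nonempty_quotient_equiv {k : Type*} [Field k] (ρ : A₁ →+* k)
    (hρ : Function.Surjective ρ) (hker : RingHom.ker ρ = Ideal.span {ϖ}) (p : Ideal R')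
    (hp : p.IsMaximal) : Nonempty ((R' ⧸ p) ≃+* k) := by
  haveI := H42.cuspRing_isLocalRing (π := ϖ) R'
  -- the evaluation `A₁[X] → k`, `q ↦ ρ (q(0))`
  let ev : A₁[X] →+* k := ρ.comp (Polynomial.evalRingHom 0)
  have hev : ∀ q : A₁[X], ev q = ρ (q.coeff 0) := fun q => by
    show ρ (q.eval 0) = _
    rw [← Polynomial.coeff_zero_eq_eval_zero]
  have hunit : ∀ y : (H42.cuspIdeal ϖ).primeCompl, IsUnit (ev y) := by
    intro y
    apply IsUnit.mk0
    rw [hev]
    intro h0
    apply y.2
    show (y : A₁[X]) ∈ H42.cuspIdeal ϖ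
    rw [H42.mem_cuspIdeal_iff]
    have : (y : A₁[X]).coeff 0 ∈ RingHom.ker ρ := h0
    rw [hker] at this
    exact Ideal.mem_span_singleton.mp this
  let φ : R' →+* k := IsLocalization.lift (M := (H42.cuspIdeal ϖ).primeCompl) hunit
  have hφ : ∀ q : A₁[X], φ (algebraMap A₁[X] R' q) = ρ (q.coeff 0) := fun q => by
    rw [← hev]; exact IsLocalization.lift_eq hunit q
  have hφsurj : Function.Surjective φ := by
    intro c
    obtain ⟨a, rfl⟩ := hρ c
    exact ⟨algebraMap A₁[X] R' (C a), by rw [hφ, coeff_C_zero]⟩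
  have hkerφ : RingHom.ker φ = p := by
    have hkmax : (RingHom.ker φ).IsMaximal := RingHom.ker_isMaximal_of_surjective φ hφsurj
    rw [IsLocalRing.eq_maximalIdeal hp, IsLocalRing.eq_maximalIdeal hkmax]
  exact ⟨(Ideal.quotEquivOfEq hkerφ.symm).trans (RingHom.quotientKerEquivOfSurjective hφsurj)⟩

include hP in
/-- **The hypothesis `hpt` of `H96.isIntegrallyClosed_specialFibre` for the cusp line.** -/
theorem hpt {k : Type} [Field k] [IsAlgClosed k] (ρ : A₁ →+* k) (hρ : Function.Surjective ρ)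
    (hker : RingHom.ker ρ = Ideal.span {ϖ}) :
    ∀ p : Ideal R', p.IsMaximal → algebraMap A₁ R' ϖ ∈ p →
      (∃ f : R', p = Ideal.span {algebraMap A₁ R' ϖ, f}) ∧
      (∀ r : R', ∃ a : A₁, r - algebraMap A₁ R' a ∈ p) ∧
      ∃ (k : Type) (_ : Field k) (_ : IsAlgClosed k), Nonempty ((R' ⧸ p) ≃+* k) := by
  intro p hp _
  have hmax : (Ideal.span {ϖ}).IsMaximal := by
    rw [← hker]
    exact RingHom.ker_isMaximal_of_surjective ρ hρ
  exact ⟨⟨_, eq_span_pair_of_isMaximal R' p hp⟩, exists_sub_mem_of_isMaximal R' hmax p hp,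
    k, inferInstance, inferInstance, nonempty_quotient_equiv R' ρ hρ hker p hp⟩

end CuspLine

end Fermat.Agent.S18.H13
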