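import Mathlib
import Fermat.Agent.S18.H42_CuspAux
import Fermat.Agent.S18.H13_CuspField

/-!
# S18 / INST-CUSP (helper13): the concrete rings and algebra structures of the cusp chart

For a domain `A₁` with a prime element `ϖ` (`[Fact (Prime ϖ)]`), a field `F1 ⊇ A₁` and an element
`u : F1` transcendental over `A₁` (`[Fact (Transcendental A₁ u)]`; in the application
`u = 1/j1`):

* `CuspY ϖ u`   : the `Y`-line local ring `A₁[Y]_(ϖ,Y)` (a copy of `Localization.AtPrime
  (H42.cuspIdeal ϖ)`), with `Algebra (CuspY ϖ u) F1` given by `Y ↦ u`;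
* `CuspT ϖ u N` : the `t`-line local ring `A₁[t]_(ϖ,t)` (a second copy), with
  `Algebra (CuspT ϖ u N) (CuspField u N)` given by `t ↦ τ = cuspTau u N` (`τ^N = u`);
* `Algebra (CuspY ϖ u) (CuspT ϖ u N)` given by helper42's `H42.cuspExpand` (`Y ↦ t^N`);
* the composite `Algebra (CuspY ϖ u) (CuspField u N)` and the scalar towers;
* fraction fields `FractionRing (CuspY ϖ u) → F1`, `FractionRing (CuspT ϖ u N) → CuspField u N`.
-/

set_option autoImplicit false
set_option linter.unusedSectionVars false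
set_option linter.style.haveILetI false

open Polynomial

namespace Fermat.Agent.S18.H13

open Fermat.Agent.S18

noncomputable section

variable {A₁ : Type*} [CommRing A₁] [IsDomain A₁] (ϖ : A₁) [hϖ : Fact (Prime ϖ)]
variable {F1 : Type*} [Field F1] [Algebra A₁ F1]

instance cuspIdeal_isPrime_of_fact : (H42.cuspIdeal ϖ).IsPrime := H42.cuspIdeal_isPrime hϖ.out

/-! ## The `Y`-line -/

/-- The `Y`-line local ring `A₁[Y]_(ϖ,Y)`; the parameter `u` records the image of `Y` in `F1`. -/
def CuspY (ϖ : A₁) [Fact (Prime ϖ)] (_u : F1) : Type _ :=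
  Localization.AtPrime (H42.cuspIdeal ϖ)

variable (u : F1)

instance : CommRing (CuspY ϖ u) :=
  inferInstanceAs (CommRing (Localization.AtPrime (H42.cuspIdeal ϖ)))

instance : Algebra A₁[X] (CuspY ϖ u) :=
  inferInstanceAs (Algebra A₁[X] (Localization.AtPrime (H42.cuspIdeal ϖ)))

instance : IsLocalization.AtPrime (CuspY ϖ u) (H42.cuspIdeal ϖ) :=
  inferInstanceAs (IsLocalization.AtPrime (Localization.AtPrime (H42.cuspIdeal ϖ)) _)

instance : Algebra A₁ (CuspY ϖ u) :=
  inferInstanceAs (Algebra A₁ (Localization.AtPrime (H42.cuspIdeal ϖ)))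

instance : IsScalarTower A₁ A₁[X] (CuspY ϖ u) :=
  inferInstanceAs (IsScalarTower A₁ A₁[X] (Localization.AtPrime (H42.cuspIdeal ϖ)))

instance : IsDomain (CuspY ϖ u) := H42.cuspRing_isDomain (π := ϖ) _

instance [IsNoetherianRing A₁] : IsNoetherianRing (CuspY ϖ u) :=
  H42.cuspRing_isNoetherianRing (π := ϖ) _

instance [UniqueFactorizationMonoid A₁] : IsIntegrallyClosed (CuspY ϖ u) :=
  H42.cuspRing_isIntegrallyClosed (π := ϖ) _

/-! ## The `t`-line -/

/-- The `t`-line local ring `A₁[t]_(ϖ,t)` (a second copy). -/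
def CuspT (ϖ : A₁) [Fact (Prime ϖ)] (_u : F1) (_N : ℕ) : Type _ :=
  Localization.AtPrime (H42.cuspIdeal ϖ)

variable (N : ℕ)

instance : CommRing (CuspT ϖ u N) :=
  inferInstanceAs (CommRing (Localization.AtPrime (H42.cuspIdeal ϖ)))

instance : Algebra A₁[X] (CuspT ϖ u N) :=
  inferInstanceAs (Algebra A₁[X] (Localization.AtPrime (H42.cuspIdeal ϖ)))

instance : IsLocalization.AtPrime (CuspT ϖ u N) (H42.cuspIdeal ϖ) :=
  inferInstanceAs (IsLocalization.AtPrime (Localization.AtPrime (H42.cuspIdeal ϖ)) _)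

instance : Algebra A₁ (CuspT ϖ u N) :=
  inferInstanceAs (Algebra A₁ (Localization.AtPrime (H42.cuspIdeal ϖ)))

instance : IsScalarTower A₁ A₁[X] (CuspT ϖ u N) :=
  inferInstanceAs (IsScalarTower A₁ A₁[X] (Localization.AtPrime (H42.cuspIdeal ϖ)))

instance : IsDomain (CuspT ϖ u N) := H42.cuspRing_isDomain (π := ϖ) _

instance [IsNoetherianRing A₁] : IsNoetherianRing (CuspT ϖ u N) :=
  H42.cuspRing_isNoetherianRing (π := ϖ) _

instance [UniqueFactorizationMonoid A₁] : IsIntegrallyClosed (CuspT ϖ u N) :=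
  H42.cuspRing_isIntegrallyClosed (π := ϖ) _

/-! ## A generic lift: `A₁[X]_(ϖ,X) → E`, `X ↦ x`, for `x` transcendental over `A₁` -/

section Lift

variable {E : Type*} [Field E] [Algebra A₁ E] (R : Type*) [CommRing R] [Algebra A₁[X] R]
  [IsLocalization.AtPrime R (H42.cuspIdeal ϖ)]

theorem isUnit_aeval_of_transcendental {x : E} (hx : Transcendental A₁ x)
    (y : (H42.cuspIdeal ϖ).primeCompl) : IsUnit ((aeval x : A₁[X] →ₐ[A₁] E).toRingHom y) := by
  apply IsUnit.mk0
  intro h0
  have : (y : A₁[X]) = 0 := (transcendental_iff.mp hx) _ h0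
  exact y.2 (by rw [this]; exact Ideal.zero_mem _)

/-- The ring hom `R → E`, `X ↦ x`. -/
def cuspLift {x : E} (hx : Transcendental A₁ x) : R →+* E :=
  IsLocalization.lift (M := (H42.cuspIdeal ϖ).primeCompl)
    (isUnit_aeval_of_transcendental ϖ hx)

theorem cuspLift_algebraMap {x : E} (hx : Transcendental A₁ x) (p : A₁[X]) :
    cuspLift ϖ R hx (algebraMap A₁[X] R p) = aeval x p :=
  IsLocalization.lift_eq _ p

theorem cuspLift_injective {x : E} (hx : Transcendental A₁ x) :
    Function.Injective (cuspLift ϖ R hx) := by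
  unfold cuspLift
  rw [IsLocalization.lift_injective_iff]
  intro p q
  have hinj := H42.cuspRing_algebraMap_injective (π := ϖ) R
  constructor
  · intro h
    rw [hinj h]
  · intro h
    have h1 : aeval x (p - q) = 0 := by
      rw [map_sub]
      exact sub_eq_zero.mpr h
    have := (transcendental_iff.mp hx) _ h1
    rw [sub_eq_zero.mp this]

end Lift

/-! ## `CuspY → F1` -/

variable [hu : Fact (Transcendental A₁ u)]

instance : Algebra (CuspY ϖ u) F1 := (cuspLift ϖ (CuspY ϖ u) hu.out).toAlgebra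

theorem algebraMap_cuspY (p : A₁[X]) :
    algebraMap (CuspY ϖ u) F1 (algebraMap A₁[X] (CuspY ϖ u) p) = aeval u p :=
  cuspLift_algebraMap ϖ _ hu.out p

theorem algebraMap_cuspY_injective : Function.Injective (algebraMap (CuspY ϖ u) F1) :=
  cuspLift_injective ϖ _ hu.out

instance : FaithfulSMul (CuspY ϖ u) F1 :=
  (faithfulSMul_iff_algebraMap_injective _ _).mpr (algebraMap_cuspY_injective ϖ u)

instance : IsScalarTower A₁ (CuspY ϖ u) F1 := by
  refine IsScalarTower.of_algebraMap_eq fun a => ?_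
  rw [IsScalarTower.algebraMap_apply A₁ A₁[X] (CuspY ϖ u), algebraMap_cuspY,
    Polynomial.algebraMap_apply, Algebra.algebraMap_self, RingHom.id_apply, aeval_C]

instance : Algebra (FractionRing (CuspY ϖ u)) F1 := FractionRing.liftAlgebra _ _

instance : IsScalarTower (CuspY ϖ u) (FractionRing (CuspY ϖ u)) F1 :=
  FractionRing.isScalarTower_liftAlgebra _ _

/-! ## `CuspT → CuspField u N` -/

variable [NeZero N]

theorem transcendental_cuspTau_base : Transcendental A₁ (cuspTau u N) := by
  intro halg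
  apply hu.out
  have h1 : IsAlgebraic A₁ (cuspTau u N ^ N) := halg.pow N
  rw [cuspTau_pow] at h1
  exact (isAlgebraic_algebraMap_iff (algebraMap F1 (CuspField u N)).injective).mp h1

instance : Algebra (CuspT ϖ u N) (CuspField u N) :=
  (cuspLift ϖ (CuspT ϖ u N) (transcendental_cuspTau_base u N)).toAlgebra

theorem algebraMap_cuspT (p : A₁[X]) :
    algebraMap (CuspT ϖ u N) (CuspField u N) (algebraMap A₁[X] (CuspT ϖ u N) p) =
      aeval (cuspTau u N) p :=
  cuspLift_algebraMap ϖ _ (transcendental_cuspTau_base u N) p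

theorem algebraMap_cuspT_injective :
    Function.Injective (algebraMap (CuspT ϖ u N) (CuspField u N)) :=
  cuspLift_injective ϖ _ (transcendental_cuspTau_base u N)

instance : FaithfulSMul (CuspT ϖ u N) (CuspField u N) :=
  (faithfulSMul_iff_algebraMap_injective _ _).mpr (algebraMap_cuspT_injective ϖ u N)

instance : IsScalarTower A₁ (CuspT ϖ u N) (CuspField u N) := by
  refine IsScalarTower.of_algebraMap_eq fun a => ?_
  rw [IsScalarTower.algebraMap_apply A₁ A₁[X] (CuspT ϖ u N), algebraMap_cuspT,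
    Polynomial.algebraMap_apply, Algebra.algebraMap_self, RingHom.id_apply, aeval_C]

instance : Algebra (FractionRing (CuspT ϖ u N)) (CuspField u N) := FractionRing.liftAlgebra _ _

instance : IsScalarTower (CuspT ϖ u N) (FractionRing (CuspT ϖ u N)) (CuspField u N) :=
  FractionRing.isScalarTower_liftAlgebra _ _

/-! ## `CuspY → CuspT` (helper42's `cuspExpand`) and the composite to `CuspField u N` -/

instance : Algebra (CuspY ϖ u) (CuspT ϖ u N) :=
  (H42.cuspExpand ϖ (CuspY ϖ u) (CuspT ϖ u N) N).toAlgebra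

theorem algebraMap_cuspY_cuspT (p : A₁[X]) :
    algebraMap (CuspY ϖ u) (CuspT ϖ u N) (algebraMap A₁[X] (CuspY ϖ u) p) =
      algebraMap A₁[X] (CuspT ϖ u N) (expand A₁ N p) :=
  H42.cuspExpand_algebraMap ϖ _ _ N p

instance : IsScalarTower A₁ (CuspY ϖ u) (CuspT ϖ u N) := by
  refine IsScalarTower.of_algebraMap_eq fun a => ?_
  rw [IsScalarTower.algebraMap_apply A₁ A₁[X] (CuspY ϖ u), algebraMap_cuspY_cuspT,
    IsScalarTower.algebraMap_apply A₁ A₁[X] (CuspT ϖ u N), Polynomial.algebraMap_apply,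
    Algebra.algebraMap_self, RingHom.id_apply, expand_C]

example : Algebra (CuspY ϖ u) (CuspField u N) := inferInstance

example : IsScalarTower (CuspY ϖ u) F1 (CuspField u N) := inferInstance

theorem algebraMap_cuspY_cuspField (r : CuspY ϖ u) :
    algebraMap (CuspY ϖ u) (CuspField u N) r =
      algebraMap F1 (CuspField u N) (algebraMap (CuspY ϖ u) F1 r) :=
  IsScalarTower.algebraMap_apply _ _ _ r

instance : IsScalarTower (CuspY ϖ u) (CuspT ϖ u N) (CuspField u N) := by
  refine IsScalarTower.of_algebraMap_eq' ?_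
  apply IsLocalization.ringHom_ext (H42.cuspIdeal ϖ).primeCompl (S := CuspY ϖ u)
  refine RingHom.ext fun p => ?_
  simp only [RingHom.comp_apply]
  rw [algebraMap_cuspY_cuspField, algebraMap_cuspY, algebraMap_cuspY_cuspT, algebraMap_cuspT,
    expand_aeval, cuspTau_pow, Polynomial.aeval_algebraMap_apply]

end

end Fermat.Agent.S18.H13
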