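import Mathlib
import Fermat.Agent.S18.H13_CuspTypes
import Fermat.Agent.S18.H13_CuspLine
import Fermat.Agent.S18.H96_RouteQAbstract

/-!
# S18 / INST-CUSP (helper13): the cusp chart instance of route Q

`H96.isIntegrallyClosed_specialFibre` for `R0 := CuspY ϖ u` (`= A₁[Y]_(ϖ,Y)`, `Y ↦ u = 1/j1`),
`R' := CuspT ϖ u N` (`= A₁[t]_(ϖ,t)`, `t ↦ τ`, `τ^N = u`), `F' := CuspField u N = F1(τ)`.

Everything except (VERT), (HOR) and `hprime` is discharged here.
-/

set_option autoImplicit false
set_option linter.unusedSectionVars false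
set_option linter.style.haveILetI false

open Polynomial IntermediateField

namespace Fermat.Agent.S18.H13

open Fermat.Agent.S18

noncomputable section

/-! ## A fraction field of `A₁` maps into the fraction fields of the two lines -/

section FracMaps

variable {A₁ : Type*} [CommRing A₁] [IsDomain A₁] (ϖ : A₁) [hϖ : Fact (Prime ϖ)]
variable (L1 : Type*) [Field L1] [Algebra A₁ L1] [IsFractionRing A₁ L1]
variable {E : Type*} [Field E] [Algebra A₁ E] [Algebra L1 E] [IsScalarTower A₁ L1 E]

/-- For a domain `R ⊇ A₁` (injectively) with a compatible embedding into a field `E ⊇ L1`,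
`L1 → Frac R`. -/
def fracLift (R : Type*) [CommRing R] [IsDomain R] [Algebra A₁ R]
    (hinj : Function.Injective (algebraMap A₁ R)) : L1 →+* FractionRing R :=
  IsFractionRing.lift (A := A₁) (K := L1) (g := (algebraMap R (FractionRing R)).comp
    (algebraMap A₁ R)) ((IsFractionRing.injective R (FractionRing R)).comp hinj)

theorem fracLift_algebraMap (R : Type*) [CommRing R] [IsDomain R] [Algebra A₁ R]
    (hinj : Function.Injective (algebraMap A₁ R)) (a : A₁) :
    fracLift L1 R hinj (algebraMap A₁ L1 a) =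
      algebraMap R (FractionRing R) (algebraMap A₁ R a) :=
  IsFractionRing.lift_algebraMap _ a

/-- Compatibility of `fracLift` with maps to a field `E`. -/
theorem algebraMap_fracLift (R : Type*) [CommRing R] [IsDomain R] [Algebra A₁ R]
    (hinj : Function.Injective (algebraMap A₁ R)) [Algebra R E] [FaithfulSMul R E]
    [IsScalarTower A₁ R E] (c : L1) :
    letI := FractionRing.liftAlgebra R E
    algebraMap (FractionRing R) E (fracLift L1 R hinj c) = algebraMap L1 E c := by
  letI := FractionRing.liftAlgebra R E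
  haveI := FractionRing.isScalarTower_liftAlgebra R E
  have key : ((algebraMap (FractionRing R) E).comp (fracLift L1 R hinj)) = algebraMap L1 E := by
    apply IsLocalization.ringHom_ext (nonZeroDivisors A₁) (S := L1)
    refine RingHom.ext fun a => ?_
    simp only [RingHom.comp_apply]
    rw [fracLift_algebraMap, ← IsScalarTower.algebraMap_apply R (FractionRing R) E,
      ← IsScalarTower.algebraMap_apply A₁ R E, ← IsScalarTower.algebraMap_apply A₁ L1 E]
  exact congrArg (fun f => f c) key

end FracMaps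

/-! ## Finiteness over a field through which the generators factor -/

section Finite

variable {K0 L1 F1 : Type*} [Field K0] [Field L1] [Field F1] [Algebra K0 F1] [Algebra L1 F1]

theorem adjoin_simple_eq_top_of_range {j θ : F1} (hgen : L1⟮j⟯⟮θ⟯ = ⊤)
    (hL : ∀ c : L1, algebraMap L1 F1 c ∈ (algebraMap K0 F1).range)
    (hj : j ∈ (algebraMap K0 F1).range) : K0⟮θ⟯ = ⊤ := by
  set S : IntermediateField K0 F1 := K0⟮θ⟯ with hS
  have hrange : ∀ y ∈ (algebraMap K0 F1).range, y ∈ S := by
    rintro _ ⟨c, rfl⟩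
    exact S.algebraMap_mem c
  let T : IntermediateField L1 F1 :=
    Subfield.toIntermediateField S.toSubfield (fun c => hrange _ (hL c))
  have hT : (⊤ : IntermediateField L1 F1) ≤ T := by
    have h2 : L1⟮j, θ⟯ = ⊤ := by
      rw [← IntermediateField.adjoin_simple_adjoin_simple, hgen,
        IntermediateField.restrictScalars_top]
    rw [← h2, IntermediateField.adjoin_le_iff]
    rintro x (rfl | rfl)
    · exact hrange _ hj
    · exact IntermediateField.mem_adjoin_simple_self K0 _
  rw [eq_top_iff]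
  intro y _
  exact hT (IntermediateField.mem_top (x := y))

theorem finiteDimensional_of_range {j θ : F1} (hgen : L1⟮j⟯⟮θ⟯ = ⊤)
    (hL : ∀ c : L1, algebraMap L1 F1 c ∈ (algebraMap K0 F1).range)
    (hj : j ∈ (algebraMap K0 F1).range) (hθ : IsIntegral K0 θ) : FiniteDimensional K0 F1 := by
  have htop := adjoin_simple_eq_top_of_range hgen hL hj
  have : FiniteDimensional K0 K0⟮θ⟯ := IntermediateField.adjoin.finiteDimensional hθ
  rw [htop] at this
  exact (IntermediateField.topEquiv (F := K0) (E := F1)).toLinearEquiv.finiteDimensional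

/-- An element algebraic over `L1(j)` is integral over any field `K0` through which `L1` and `j`
factor. -/
theorem isIntegral_of_range {j θ : F1} (hθ : IsAlgebraic L1⟮j⟯ θ)
    (hL : ∀ c : L1, algebraMap L1 F1 c ∈ (algebraMap K0 F1).range)
    (hj : j ∈ (algebraMap K0 F1).range) : IsIntegral K0 θ := by
  obtain ⟨p, hp0, hp⟩ := hθ
  have hLj : ∀ c : L1⟮j⟯, (c : F1) ∈ (algebraMap K0 F1).range := by
    intro c
    let T : IntermediateField L1 F1 :=
      (algebraMap K0 F1).fieldRange.toIntermediateField (fun x => hL x)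
    have hT : L1⟮j⟯ ≤ T := by
      rw [IntermediateField.adjoin_simple_le_iff]
      exact hj
    exact hT c.2
  choose g hg using hLj
  refine IsAlgebraic.isIntegral ?_
  have hq : p.map (algebraMap L1⟮j⟯ F1) ≠ 0 :=
    (Polynomial.map_ne_zero_iff (algebraMap L1⟮j⟯ F1).injective).mpr hp0
  have hroot : (p.map (algebraMap L1⟮j⟯ F1)).eval θ = 0 := by
    rw [Polynomial.eval_map, ← Polynomial.aeval_def, hp]
  have hcoef : p.map (algebraMap L1⟮j⟯ F1) ∈ Polynomial.lifts (algebraMap K0 F1) := by
    rw [Polynomial.lifts_iff_coeff_lifts]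
    intro n
    rw [Polynomial.coeff_map]
    exact ⟨g (p.coeff n), hg (p.coeff n)⟩
  obtain ⟨q, hq'⟩ := hcoef
  rw [Polynomial.coe_mapRingHom] at hq'
  refine ⟨q, ?_, ?_⟩
  · rintro rfl
    rw [Polynomial.map_zero] at hq'
    exact hq hq'.symm
  · rw [Polynomial.aeval_def, ← Polynomial.eval_map, hq', hroot]

end Finite

/-! ## The cusp chart instance -/

section Main

variable {A₁ : Type*} [CommRing A₁] [IsDomain A₁] [IsDiscreteValuationRing A₁] [CharZero A₁]
  (ϖ : A₁) [hϖ : Fact (Prime ϖ)]
variable (L1 : Type*) [Field L1] [Algebra A₁ L1] [IsFractionRing A₁ L1]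
variable {F1 : Type*} [Field F1] [Algebra A₁ F1] [Algebra L1 F1] [IsScalarTower A₁ L1 F1]
variable (u : F1) [hu : Fact (Transcendental A₁ u)] (N : ℕ) [NeZero N]

theorem algebraMap_base_cuspY_injective : Function.Injective (algebraMap A₁ (CuspY ϖ u)) := by
  rw [IsScalarTower.algebraMap_eq A₁ A₁[X] (CuspY ϖ u)]
  exact (H42.cuspRing_algebraMap_injective (π := ϖ) (CuspY ϖ u)).comp Polynomial.C_injective

theorem algebraMap_base_cuspT_injective :
    Function.Injective (algebraMap A₁ (CuspT ϖ u N)) := by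
  rw [IsScalarTower.algebraMap_eq A₁ A₁[X] (CuspT ϖ u N)]
  exact (H42.cuspRing_algebraMap_injective (π := ϖ) (CuspT ϖ u N)).comp Polynomial.C_injective

include L1 in
theorem algebraMap_base_F1_injective : Function.Injective (algebraMap A₁ F1) := by
  rw [IsScalarTower.algebraMap_eq A₁ L1 F1]
  exact (algebraMap L1 F1).injective.comp (IsFractionRing.injective A₁ L1)

/-- `u` is the image of `Y`. -/
theorem algebraMap_cuspY_X : algebraMap (CuspY ϖ u) F1 (algebraMap A₁[X] (CuspY ϖ u) X) = u := by
  rw [algebraMap_cuspY, aeval_X]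

theorem algebraMap_cuspT_X :
    algebraMap (CuspT ϖ u N) (CuspField u N) (algebraMap A₁[X] (CuspT ϖ u N) X) =
      cuspTau u N := by
  rw [algebraMap_cuspT, aeval_X]

include L1 in
/-- **The cusp chart of route Q.**  With `u = 1/j1`: the special fibre of the integral closure of
the local ring `A₁[u]_(ϖ,u)` in `F1` is integrally closed, given (VERT), (HOR) for the Kummer
cover `τ^N = u` over the `t`-line and primality of `ϖ` in the integral closure. -/
theorem isIntegrallyClosed_cuspChart {j1 θ : F1} (hju : j1 * u = 1)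
    (hgen : L1⟮j1⟯⟮θ⟯ = ⊤) (hθ : IsAlgebraic L1⟮j1⟯ θ)
    {ζ : A₁} (hζ : IsPrimitiveRoot ζ N)
    {k : Type} [Field k] [IsAlgClosed k] (ρ : A₁ →+* k) (hρ : Function.Surjective ρ)
    (hker : RingHom.ker ρ = Ideal.span {ϖ})
    (hV : H41.VertCond (CuspT ϖ u N) (FractionRing (CuspT ϖ u N)) (CuspField u N)
      (algebraMap A₁ (CuspT ϖ u N) ϖ))
    (hH : H41.HorCond (CuspT ϖ u N) (FractionRing (CuspT ϖ u N)) (CuspField u N)
      (algebraMap A₁ (CuspT ϖ u N) ϖ))
    (hprime : (Ideal.span {algebraMap (CuspY ϖ u) (integralClosure (CuspY ϖ u) F1)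
      (algebraMap A₁ (CuspY ϖ u) ϖ)}).IsPrime) :
    IsIntegrallyClosed (integralClosure (CuspY ϖ u) F1 ⧸
      Ideal.span {algebraMap (CuspY ϖ u) (integralClosure (CuspY ϖ u) F1)
        (algebraMap A₁ (CuspY ϖ u) ϖ)}) := by
  classical
  have hinjY := algebraMap_base_cuspY_injective ϖ u
  have hinjT := algebraMap_base_cuspT_injective ϖ u N
  have hinjF := algebraMap_base_F1_injective (A₁ := A₁) L1 (F1 := F1)
  -- characteristic zero
  haveI : CharZero (CuspY ϖ u) := charZero_of_injective_algebraMap hinjY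
  haveI : CharZero (CuspT ϖ u N) := charZero_of_injective_algebraMap hinjT
  haveI : CharZero F1 := charZero_of_injective_algebraMap hinjF
  -- `L1 → Frac` of the two lines
  letI algL1K0 : Algebra L1 (FractionRing (CuspY ϖ u)) := (fracLift L1 (CuspY ϖ u) hinjY).toAlgebra
  haveI towL1K0 : IsScalarTower L1 (FractionRing (CuspY ϖ u)) F1 :=
    IsScalarTower.of_algebraMap_eq fun c => (algebraMap_fracLift L1 (CuspY ϖ u) hinjY c).symm
  letI algL1K' : Algebra L1 (FractionRing (CuspT ϖ u N)) :=
    (fracLift L1 (CuspT ϖ u N) hinjT).toAlgebra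
  haveI towL1K' : IsScalarTower L1 (FractionRing (CuspT ϖ u N)) (CuspField u N) :=
    IsScalarTower.of_algebraMap_eq fun c =>
      (algebraMap_fracLift (E := CuspField u N) L1 (CuspT ϖ u N) hinjT c).symm
  -- `u`, `j1` come from the fraction fields
  have hu0 : u ≠ 0 := right_ne_zero_of_mul_eq_one hju
  have huK0 : u ∈ (algebraMap (FractionRing (CuspY ϖ u)) F1).range :=
    ⟨algebraMap (CuspY ϖ u) _ (algebraMap A₁[X] (CuspY ϖ u) X), by
      rw [← IsScalarTower.algebraMap_apply (CuspY ϖ u) (FractionRing (CuspY ϖ u)) F1,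
        algebraMap_cuspY_X]⟩
  have hj1 : j1 = u⁻¹ := eq_inv_of_mul_eq_one_left hju
  have hjK0 : algebraMap F1 F1 j1 ∈ (algebraMap (FractionRing (CuspY ϖ u)) F1).range := by
    obtain ⟨c, hc⟩ := huK0
    exact ⟨c⁻¹, by rw [map_inv₀, hc, hj1]; rfl⟩
  have hτK' : cuspTau u N ∈ (algebraMap (FractionRing (CuspT ϖ u N)) (CuspField u N)).range :=
    ⟨algebraMap (CuspT ϖ u N) _ (algebraMap A₁[X] (CuspT ϖ u N) X), by
      rw [← IsScalarTower.algebraMap_apply (CuspT ϖ u N) (FractionRing (CuspT ϖ u N))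
        (CuspField u N), algebraMap_cuspT_X]⟩
  have hjK' : algebraMap F1 (CuspField u N) j1 ∈
      (algebraMap (FractionRing (CuspT ϖ u N)) (CuspField u N)).range := by
    obtain ⟨c, hc⟩ := hτK'
    refine ⟨(c ^ N)⁻¹, ?_⟩
    rw [map_inv₀, map_pow, hc, cuspTau_pow, hj1, map_inv₀]
  -- finiteness
  have htopF1 : (F1⟮u⟯ : IntermediateField F1 F1) = ⊤ := by
    rw [eq_top_iff]
    intro x _
    have : x = algebraMap F1 F1 x := rfl
    rw [this]
    exact IntermediateField.algebraMap_mem _ x
  haveI finK0 : FiniteDimensional (FractionRing (CuspY ϖ u)) F1 :=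
    H70.finiteDimensional_of_compositum (L := L1) (F := F1) (F' := F1)
      (KY := FractionRing (CuspY ϖ u)) hgen hθ htopF1 huK0 hjK0
  haveI finK' : FiniteDimensional (FractionRing (CuspT ϖ u N)) (CuspField u N) :=
    H70.finiteDimensional_of_compositum (L := L1) (F := F1) (F' := CuspField u N)
      (KY := FractionRing (CuspT ϖ u N)) hgen hθ (adjoin_cuspTau u N) hτK' hjK'
  -- Galois
  haveI : IsGalois F1 (CuspField u N) :=
    isGalois_cuspField u N (hζ.map_of_injective hinjF)
  -- integrality of the `t`-line over the `Y`-line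
  haveI : Algebra.IsIntegral (CuspY ϖ u) (CuspT ϖ u N) :=
    ⟨H42.cuspExpand_isIntegral ϖ (CuspY ϖ u) (CuspT ϖ u N) N hϖ.out hζ⟩
  -- the base line hypotheses
  have hϖR' : Prime (algebraMap A₁ (CuspT ϖ u N) ϖ) := prime_algebraMap (CuspT ϖ u N) hϖ.out
  haveI : IsPrincipalIdealRing (CuspT ϖ u N ⧸ Ideal.span {algebraMap A₁ (CuspT ϖ u N) ϖ}) :=
    isPrincipalIdealRing_quotient (CuspT ϖ u N) hϖ.out
  exact H96.isIntegrallyClosed_specialFibre (FractionRing (CuspY ϖ u))
    (FractionRing (CuspT ϖ u N)) ϖ hϖR' hV hH (hpt (CuspT ϖ u N) ρ hρ hker) hprime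

end Main

end

end Fermat.Agent.S18.H13
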