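import Mathlib
import Fermat.Agent.S18.H13_InstCusp
import Fermat.Agent.S18.H96_HorBridge
import Fermat.Agent.S18.H9_GenericFibre

/-!
# S18 / INST-CUSP (helper13): (HOR) for the cusp chart from `hunr` alone

`H41.HorCond (CuspT ϖ u N) (FractionRing (CuspT ϖ u N)) (CuspField u N) ϖ` from the place-wise
unramifiedness of the Kummer cover `τ^N = 1/j1` over the `τ`-line away from the zeros of
`1728 τ^N - 1` (helper69's `ord_aeval_eq_one_of_cusp_cover`), via helper96's HOR bridge and
helper9's `horCond_of_hHOR_of_atPrime_polynomial`.  The polynomial `1728 t^N - 1` has constant term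
`-1`, hence is a unit of the local ring `A₁[t]_(ϖ,t)`.
-/

set_option autoImplicit false
set_option linter.unusedSectionVars false
set_option linter.style.haveILetI false

open Polynomial IntermediateField AlgebraicCurve

namespace Fermat.Agent.S18.H13

open Fermat.Agent.S18

noncomputable section

section Hor

variable {A₁ : Type*} [CommRing A₁] [IsDomain A₁] [IsDiscreteValuationRing A₁] [CharZero A₁]
  (ϖ : A₁) [hϖ : Fact (Prime ϖ)]
variable (L1 : Type*) [Field L1] [Algebra A₁ L1] [IsFractionRing A₁ L1]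
variable {F1 : Type*} [Field F1] [Algebra A₁ F1] [Algebra L1 F1] [IsScalarTower A₁ L1 F1]
variable (u : F1) [hu : Fact (Transcendental A₁ u)] (N : ℕ) [NeZero N]

/-- The discriminant-locus polynomial `1728 t^N - 1` over `A₁`. -/
def cuspD (A : Type*) [CommRing A] (N : ℕ) : A[X] := C (1728 : A) * X ^ N - 1

theorem map_cuspD {A B : Type*} [CommRing A] [CommRing B] (f : A →+* B) (N : ℕ) :
    (cuspD A N).map f = C (1728 : B) * X ^ N - 1 := by
  unfold cuspD
  rw [Polynomial.map_sub, Polynomial.map_mul, Polynomial.map_pow, Polynomial.map_X,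
    Polynomial.map_C, Polynomial.map_one, map_ofNat]

/-- `1728 t^N - 1` is a unit of the local ring of the `t`-line at `(ϖ, t)`. -/
theorem isUnit_cuspD : IsUnit (algebraMap A₁[X] (CuspT ϖ u N) (cuspD A₁ N)) := by
  have hmem : cuspD A₁ N ∈ (H42.cuspIdeal ϖ).primeCompl := by
    show cuspD A₁ N ∉ H42.cuspIdeal ϖ
    rw [H42.mem_cuspIdeal_iff]
    unfold cuspD
    have h0 : (C (1728 : A₁) * X ^ N - 1 : A₁[X]).coeff 0 = -1 := by
      rw [coeff_sub, coeff_C_mul, coeff_X_pow, if_neg (NeZero.ne' N), mul_zero, coeff_one_zero,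
        zero_sub]
    rw [h0]
    intro h
    exact hϖ.out.not_isUnit (isUnit_of_dvd_unit h (isUnit_one.neg))
  exact IsLocalization.map_units (CuspT ϖ u N) ⟨cuspD A₁ N, hmem⟩

theorem aeval_cuspTau_cuspD :
    aeval (cuspTau u N) (C (1728 : L1) * X ^ N - 1 : L1[X]) =
      algebraMap (CuspT ϖ u N) (CuspField u N) (algebraMap A₁[X] (CuspT ϖ u N) (cuspD A₁ N)) := by
  rw [algebraMap_cuspT]
  unfold cuspD
  simp only [map_sub, map_mul, map_pow, aeval_X, map_one, map_ofNat]

include L1 in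
/-- **(HOR) at the cusp chart from `hunr`.** -/
theorem horCond_cuspT {j1 θ : F1} (hju : j1 * u = 1)
    (hgen : L1⟮j1⟯⟮θ⟯ = ⊤) (hθ : IsAlgebraic L1⟮j1⟯ θ)
    (hunr : ∀ (w : Place L1 (CuspField u N)) (g₀ : L1[X]), Irreducible g₀ →
      ¬ g₀ ∣ (C (1728 : L1) * X ^ N - 1) →
      0 < w.ord (aeval (cuspTau u N) g₀) → w.ord (aeval (cuspTau u N) g₀) = 1) :
    H41.HorCond (CuspT ϖ u N) (FractionRing (CuspT ϖ u N)) (CuspField u N)
      (algebraMap A₁ (CuspT ϖ u N) ϖ) := by
  classical
  have hinjT := algebraMap_base_cuspT_injective ϖ u N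
  have hinjF := algebraMap_base_F1_injective (A₁ := A₁) L1 (F1 := F1)
  haveI : CharZero (CuspT ϖ u N) := charZero_of_injective_algebraMap hinjT
  haveI : CharZero F1 := charZero_of_injective_algebraMap hinjF
  have hj1 : j1 = u⁻¹ := eq_inv_of_mul_eq_one_left hju
  -- transcendence of `τ` over `L1`
  have huL1 : Transcendental L1 u := fun h =>
    hu.out ((IsFractionRing.isAlgebraic_iff A₁ L1 F1).mpr h)
  have hτtr : Transcendental L1 (cuspTau u N) := transcendental_cuspTau huL1
  -- finiteness over `L1(τ)`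
  have hτmem : cuspTau u N ∈ (algebraMap L1⟮cuspTau u N⟯ (CuspField u N)).range :=
    ⟨⟨cuspTau u N, IntermediateField.mem_adjoin_simple_self L1 _⟩, rfl⟩
  have hjmem : algebraMap F1 (CuspField u N) j1 ∈
      (algebraMap L1⟮cuspTau u N⟯ (CuspField u N)).range := by
    refine ⟨⟨(cuspTau u N ^ N)⁻¹, inv_mem (pow_mem (IntermediateField.mem_adjoin_simple_self L1 _) N)⟩,
      ?_⟩
    show (cuspTau u N ^ N)⁻¹ = _
    rw [cuspTau_pow, hj1, map_inv₀]
  haveI finτ : FiniteDimensional L1⟮cuspTau u N⟯ (CuspField u N) :=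
    H70.finiteDimensional_of_compositum (L := L1) (F := F1) (F' := CuspField u N)
      (KY := L1⟮cuspTau u N⟯) hgen hθ (adjoin_cuspTau u N) hτmem hjmem
  -- finiteness over the fraction field of the `t`-line
  letI algL1K' : Algebra L1 (FractionRing (CuspT ϖ u N)) :=
    (fracLift L1 (CuspT ϖ u N) hinjT).toAlgebra
  haveI towL1K' : IsScalarTower L1 (FractionRing (CuspT ϖ u N)) (CuspField u N) :=
    IsScalarTower.of_algebraMap_eq fun c =>
      (algebraMap_fracLift (E := CuspField u N) L1 (CuspT ϖ u N) hinjT c).symm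
  have hτK' : cuspTau u N ∈ (algebraMap (FractionRing (CuspT ϖ u N)) (CuspField u N)).range :=
    ⟨algebraMap (CuspT ϖ u N) _ (algebraMap A₁[X] (CuspT ϖ u N) X), by
      rw [← IsScalarTower.algebraMap_apply (CuspT ϖ u N) (FractionRing (CuspT ϖ u N))
        (CuspField u N), algebraMap_cuspT_X]⟩
  have hjK' : algebraMap F1 (CuspField u N) j1 ∈
      (algebraMap (FractionRing (CuspT ϖ u N)) (CuspField u N)).range := by
    obtain ⟨c, hc⟩ := hτK'
    refine ⟨(c ^ N)⁻¹, ?_⟩
    rw [map_inv₀, map_pow, hc, cuspTau_pow, hj1, map_inv₀]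
  haveI finK' : FiniteDimensional (FractionRing (CuspT ϖ u N)) (CuspField u N) :=
    H70.finiteDimensional_of_compositum (L := L1) (F := F1) (F' := CuspField u N)
      (KY := FractionRing (CuspT ϖ u N)) hgen hθ (adjoin_cuspTau u N) hτK' hjK'
  -- the unit `1728 τ^N - 1`
  obtain ⟨w, hw⟩ := (isUnit_cuspD ϖ u N).exists_left_inv
  have hD : ∃ w : CuspT ϖ u N, algebraMap (CuspT ϖ u N) (CuspField u N) w *
      aeval (cuspTau u N) (C (1728 : L1) * X ^ N - 1 : L1[X]) = 1 :=
    ⟨w, by rw [aeval_cuspTau_cuspD ϖ L1 u N, ← map_mul, hw, map_one]⟩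
  exact H9.horCond_of_hHOR_of_atPrime_polynomial (R := CuspT ϖ u N)
    (K := FractionRing (CuspT ϖ u N)) (L := CuspField u N) ϖ hϖ.out.irreducible
    (H42.cuspIdeal ϖ)
    (fun V hV hRV hϖV => H96.exists_uniformizer_of_places (K0 := L1) hϖ.out.irreducible
      (cuspTau u N) hτtr (C (1728 : L1) * X ^ N - 1) hunr
      (algebraMap A₁[X] (CuspT ϖ u N) X) (algebraMap_cuspT_X ϖ u N) hD V hV hRV hϖV)

end Hor

end

end Fermat.Agent.S18.H13
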