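/-
S18 project, route Q of (GR), the cusp instance of (VERT) (helper42).

`Φ ∈ A[J][X]` monic of degree `d` in `X` whose coefficients have `J`-degree `≤ e`.  With `Y = 1 / J`
the element `θ = Y ^ e * x` (`x` a root of `Φ(·, J)`) is a root of the MONIC polynomial
`cuspPoly Φ e = Y ^ (e d) Φ(X / Y ^ e, 1 / Y) ∈ A[Y][X]`, and `cuspPoly Φ e` is separable over any
field in which `Φ(·, J)` is.  No symmetry of the modular polynomial is used.
-/
import Mathlib
import Fermat.Agent.S18.H42_CuspAux

set_option autoImplicit false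
set_option linter.unusedSectionVars false
set_option linter.style.haveILetI false

open Polynomial

namespace Fermat.Agent.S18.H42

/-! ## (CV4) scaling the roots by a unit preserves separability -/

section ScaleSep

variable {S : Type*} [CommRing S]

theorem scaleRoots_eq_C_mul_comp (p : S[X]) {s u : S} (hsu : s * u = 1) :
    scaleRoots p s = C (s ^ p.natDegree) * p.comp (C u * X) := by
  ext m
  rw [coeff_scaleRoots, coeff_C_mul, comp_C_mul_X_coeff]
  by_cases hm : m ≤ p.natDegree
  · have : s ^ p.natDegree * u ^ m = s ^ (p.natDegree - m) := by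
      conv_lhs => rw [← Nat.sub_add_cancel hm, pow_add, mul_assoc, ← mul_pow, hsu, one_pow, mul_one]
    rw [mul_left_comm, this]
  · rw [coeff_eq_zero_of_natDegree_lt (not_le.mp hm)]
    simp

theorem separable_comp_C_mul_X {p : S[X]} (hp : p.Separable) {s u : S} (hsu : s * u = 1) :
    (p.comp (C u * X)).Separable := by
  obtain ⟨a, b, hab⟩ := hp
  refine ⟨a.comp (C u * X), b.comp (C u * X) * C s, ?_⟩
  have h := congrArg (fun q => q.comp (C u * X)) hab
  simp only [add_comp, mul_comp, one_comp] at h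
  rw [derivative_comp, derivative_mul, derivative_C, zero_mul, zero_add, derivative_X, mul_one]
  rw [← h]
  have hCC : (C s : S[X]) * C u = 1 := by rw [← C_mul, hsu, C_1]
  linear_combination (b.comp (C u * X) * (derivative p).comp (C u * X)) * hCC

/-- Scaling the roots by a unit preserves separability. -/
theorem separable_scaleRoots {p : S[X]} (hp : p.Separable) {s : S} (hs : IsUnit s) :
    (scaleRoots p s).Separable := by
  obtain ⟨u, hu⟩ := hs.exists_right_inv
  rw [scaleRoots_eq_C_mul_comp p hu]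
  exact Separable.unit_mul ((hs.pow _).map C) (separable_comp_C_mul_X hp hu)

end ScaleSep


/-! ## (CV1)-(CV3),(CV5) the scaled polynomial at a cusp -/

section CuspPoly

variable {A : Type*} [CommRing A]

/-- `Y ^ (e d) Φ(X / Y ^ e, 1 / Y)`, as a polynomial in `X` over `A[Y]` (`d` the `X`-degree of
`Φ`, `e` a bound for the `J`-degrees of its coefficients). -/
noncomputable def cuspPoly (Φ : A[X][X]) (e : ℕ) : A[X][X] :=
  X ^ Φ.natDegree + ∑ m : Fin Φ.natDegree,
    C ((X : A[X]) ^ (e * (Φ.natDegree - (m : ℕ) - 1)) * reflect e (Φ.coeff m)) * X ^ (m : ℕ)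

theorem cuspPoly_monic (Φ : A[X][X]) (e : ℕ) : (cuspPoly Φ e).Monic :=
  monic_X_pow_add (degree_sum_fin_lt _)

theorem natDegree_cuspPoly [Nontrivial A] (Φ : A[X][X]) (e : ℕ) :
    (cuspPoly Φ e).natDegree = Φ.natDegree := by
  unfold cuspPoly
  rw [natDegree_add_eq_left_of_degree_lt, natDegree_X_pow]
  rw [degree_X_pow]
  exact degree_sum_fin_lt _

theorem coeff_cuspPoly_of_lt (Φ : A[X][X]) (e : ℕ) {m : ℕ} (hm : m < Φ.natDegree) :
    (cuspPoly Φ e).coeff m =
      (X : A[X]) ^ (e * (Φ.natDegree - m - 1)) * reflect e (Φ.coeff m) := by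
  unfold cuspPoly
  rw [coeff_add, coeff_X_pow, if_neg hm.ne, zero_add, finsetSum_coeff]
  rw [Finset.sum_eq_single (⟨m, hm⟩ : Fin Φ.natDegree)]
  · rw [coeff_C_mul, coeff_X_pow, if_pos rfl, mul_one]
  · intro b _ hb
    rw [coeff_C_mul, coeff_X_pow, if_neg, mul_zero]
    intro h
    exact hb (Fin.ext h.symm)
  · intro h
    exact absurd (Finset.mem_univ _) h

theorem coeff_cuspPoly_natDegree (Φ : A[X][X]) (e : ℕ) :
    (cuspPoly Φ e).coeff Φ.natDegree = 1 := by
  unfold cuspPoly
  rw [coeff_add, coeff_X_pow, if_pos rfl, finsetSum_coeff]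
  rw [Finset.sum_eq_zero, add_zero]
  intro b _
  rw [coeff_C_mul, coeff_X_pow, if_neg b.2.ne', mul_zero]

theorem coeff_cuspPoly_of_gt (Φ : A[X][X]) (e : ℕ) {m : ℕ} (hm : Φ.natDegree < m) :
    (cuspPoly Φ e).coeff m = 0 := by
  unfold cuspPoly
  rw [coeff_add, coeff_X_pow, if_neg hm.ne', zero_add, finsetSum_coeff]
  apply Finset.sum_eq_zero
  intro b _
  rw [coeff_C_mul, coeff_X_pow, if_neg (by have := b.2; omega), mul_zero]

variable {S : Type*} [CommRing S]

/-- A ring hom out of `A[X]` is evaluation at the image of `X`. -/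
theorem ringHom_apply_eq_eval₂ (G : A[X] →+* S) (p : A[X]) :
    G p = eval₂ (G.comp C) (G X) p := by
  conv_lhs => rw [← eval₂_C_X (p := p)]
  rw [hom_eval₂]

/-- `G (reflect e p) = (G X) ^ e * p(j)` when `j * G X = 1` and `deg p ≤ e`. -/
theorem ringHom_reflect (G : A[X] →+* S) {j : S} (hj : j * G X = 1) {e : ℕ} {p : A[X]}
    (hp : p.natDegree ≤ e) : G (reflect e p) = G X ^ e * eval₂ (G.comp C) j p := by
  letI : Invertible j := ⟨G X, by rw [mul_comm]; exact hj, hj⟩
  have h := eval₂_reflect_mul_pow (G.comp C) j e p hp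
  rw [ringHom_apply_eq_eval₂ G (reflect e p)]
  have hinv : ⅟j = G X := rfl
  rw [hinv] at h
  rw [← h, mul_comm, mul_assoc, ← mul_pow, hj, one_pow, mul_one]

/-- **(CV3)** After any ring hom `G : A[Y] → S` with `G Y` invertible (`j * G Y = 1`), the cusp
polynomial is `Φ(·, j)` with its roots scaled by `(G Y) ^ e`. -/
theorem map_cuspPoly [Nontrivial S] {Φ : A[X][X]} (hΦ : Φ.Monic) {e : ℕ}
    (he : ∀ m, (Φ.coeff m).natDegree ≤ e) (G : A[X] →+* S) {j : S} (hj : j * G X = 1) :
    (cuspPoly Φ e).map G = scaleRoots (Φ.map (eval₂RingHom (G.comp C) j)) (G X ^ e) := by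
  have hdeg : (Φ.map (eval₂RingHom (G.comp C) j)).natDegree = Φ.natDegree :=
    hΦ.natDegree_map _
  ext m
  rw [coeff_map, coeff_scaleRoots, hdeg, coeff_map]
  rcases lt_trichotomy m Φ.natDegree with hm | rfl | hm
  · rw [coeff_cuspPoly_of_lt Φ e hm, map_mul, map_pow, ringHom_reflect G hj (he m),
      coe_eval₂RingHom, ← pow_mul, ← mul_assoc, ← pow_add]
    have : e * (Φ.natDegree - m - 1) + e = e * (Φ.natDegree - m) := by
      have h1 : Φ.natDegree - m = (Φ.natDegree - m - 1) + 1 := by omega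
      conv_rhs => rw [h1, mul_add, mul_one]
    rw [this, mul_comm]
  · rw [coeff_cuspPoly_natDegree, map_one, Nat.sub_self, pow_zero, mul_one]
    have := hΦ.coeff_natDegree
    rw [this, map_one]
  · rw [coeff_cuspPoly_of_gt Φ e hm, map_zero, coeff_eq_zero_of_natDegree_lt hm, map_zero,
      zero_mul]


/-- **(CV2)** If `x` is a root of `Φ(·, j)` then `(G Y) ^ e * x` is a root of the cusp polynomial
(`j * G Y = 1`). -/
theorem eval₂_cuspPoly_eq_zero [Nontrivial S] {Φ : A[X][X]} (hΦ : Φ.Monic) {e : ℕ}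
    (he : ∀ m, (Φ.coeff m).natDegree ≤ e) (G : A[X] →+* S) {j : S} (hj : j * G X = 1) {x : S}
    (hx : eval₂ (eval₂RingHom (G.comp C) j) x Φ = 0) :
    eval₂ G (G X ^ e * x) (cuspPoly Φ e) = 0 := by
  rw [← eval_map, map_cuspPoly hΦ he G hj, scaleRoots_eval_mul, eval_map, hx, mul_zero]

/-- **(CV5)** The cusp polynomial is separable wherever `Φ(·, j)` is. -/
theorem separable_map_cuspPoly [Nontrivial S] {Φ : A[X][X]} (hΦ : Φ.Monic) {e : ℕ}
    (he : ∀ m, (Φ.coeff m).natDegree ≤ e) (G : A[X] →+* S) {j : S} (hj : j * G X = 1)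
    (hsep : (Φ.map (eval₂RingHom (G.comp C) j)).Separable) :
    ((cuspPoly Φ e).map G).Separable := by
  rw [map_cuspPoly hΦ he G hj]
  refine separable_scaleRoots hsep (IsUnit.pow _ ?_)
  exact IsUnit.of_mul_eq_one_right _ hj

/-- A bound `e` as required always exists. -/
theorem exists_natDegree_coeff_le (Φ : A[X][X]) : ∃ e : ℕ, ∀ m, (Φ.coeff m).natDegree ≤ e := by
  refine ⟨Φ.support.sup fun m => (Φ.coeff m).natDegree, fun m => ?_⟩
  by_cases hm : m ∈ Φ.support
  · exact Finset.le_sup (f := fun m => (Φ.coeff m).natDegree) hm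
  · rw [notMem_support_iff.mp hm]
    simp

end CuspPoly


/-! ## (B) the reduction `R → k(τ)` of the `t`-line local ring -/

section CuspRes

variable {A : Type*} [CommRing A] [IsDomain A] {π : A}
variable (R : Type*) [CommRing R] [Algebra A[X] R]
variable [hP : (cuspIdeal π).IsPrime] [IsLocalization.AtPrime R (cuspIdeal π)]

/-- Extension to `R` of a ring hom `A[X] → κ` into a field which does not vanish outside
`(π, X)`. -/
noncomputable def cuspLift {κ : Type*} [Field κ] (g : A[X] →+* κ)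
    (hg : ∀ p, p ∉ cuspIdeal π → g p ≠ 0) : R →+* κ :=
  IsLocalization.lift (M := (cuspIdeal π).primeCompl) (g := g)
    (fun s => isUnit_iff_ne_zero.mpr (hg s s.2))

@[simp]
theorem cuspLift_algebraMap {κ : Type*} [Field κ] (g : A[X] →+* κ)
    (hg : ∀ p, p ∉ cuspIdeal π → g p ≠ 0) (p : A[X]) :
    cuspLift R g hg (algebraMap A[X] R p) = g p :=
  IsLocalization.lift_eq _ _

variable {k : Type*} [Field k]

/-- The reduction `R → k(τ)` induced by `ρ : A → k` (`ker ρ ⊆ (π)`). -/
noncomputable def cuspRes (ρ : A →+* k) (hρ : ∀ a, ρ a = 0 → π ∣ a) : R →+* RatFunc k :=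
  cuspLift R ((algebraMap k[X] (RatFunc k)).comp (mapRingHom ρ)) (by
    intro p hp h
    apply hp
    rw [RingHom.comp_apply, map_eq_zero_iff _ (RatFunc.algebraMap_injective k)] at h
    rw [mem_cuspIdeal_iff]
    apply hρ
    have := congrArg (fun q => q.coeff 0) h
    simpa using this)

@[simp]
theorem cuspRes_algebraMap (ρ : A →+* k) (hρ : ∀ a, ρ a = 0 → π ∣ a) (p : A[X]) :
    cuspRes R ρ hρ (algebraMap A[X] R p) = algebraMap k[X] (RatFunc k) (p.map ρ) := by
  unfold cuspRes
  rw [cuspLift_algebraMap]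
  rfl

theorem cuspRes_C (ρ : A →+* k) (hρ : ∀ a, ρ a = 0 → π ∣ a) {a : A} (ha : ρ a = 0) :
    cuspRes R ρ hρ (algebraMap A[X] R (C a)) = 0 := by
  rw [cuspRes_algebraMap, Polynomial.map_C, ha, C_0, map_zero]

theorem cuspRes_X (ρ : A →+* k) (hρ : ∀ a, ρ a = 0 → π ∣ a) :
    cuspRes R ρ hρ (algebraMap A[X] R X) = RatFunc.X := by
  rw [cuspRes_algebraMap, Polynomial.map_X, RatFunc.algebraMap_X]

end CuspRes

/-! ## (C) the substitution `J ↦ (τ ^ N)⁻¹` on `k(J)` -/

section Sigma

variable (k : Type*) [Field k] (N : ℕ) [NeZero N]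

theorem transcendental_inv_X_pow :
    Transcendental k ((RatFunc.X : RatFunc k) ^ N)⁻¹ := by
  rw [Transcendental, IsAlgebraic.inv_iff]
  exact RatFunc.transcendental_X.pow (NeZero.pos N)

/-- The field embedding `k(J) → k(τ)`, `J ↦ (τ ^ N)⁻¹`. -/
noncomputable def cuspSigma : RatFunc k →+* RatFunc k :=
  RatFunc.liftRingHom (eval₂RingHom (algebraMap k (RatFunc k)) ((RatFunc.X : RatFunc k) ^ N)⁻¹)
    (by
      intro p hp
      rw [Submonoid.mem_comap, mem_nonZeroDivisors_iff_ne_zero] at *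
      intro h
      apply hp
      have htr := transcendental_inv_X_pow k N
      rw [transcendental_iff_injective] at htr
      apply htr
      rw [map_zero]
      exact h)

@[simp]
theorem cuspSigma_algebraMap (p : k[X]) :
    cuspSigma k N (algebraMap k[X] (RatFunc k) p) =
      eval₂ (algebraMap k (RatFunc k)) ((RatFunc.X : RatFunc k) ^ N)⁻¹ p := by
  unfold cuspSigma
  rw [RatFunc.liftRingHom_algebraMap]
  rfl

end Sigma


/-! ## The cusp instance of (VERT), in the shape of PURITY-MAIN -/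

section Instance

variable {A : Type*} [CommRing A] [IsDomain A] {π : A}
variable (R : Type*) [CommRing R] [Algebra A[X] R]
variable (N : ℕ)

/-- `ℤ[Y] → R`, `Y ↦ τ ^ N`. -/
noncomputable def cuspY : ℤ[X] →+* R :=
  eval₂RingHom (Int.castRingHom R) (algebraMap A[X] R (X ^ N))

@[simp]
theorem cuspY_X : cuspY (A := A) R N X = algebraMap A[X] R (X ^ N) := by
  simp [cuspY]

/-- The monic polynomial over the `t`-line ring `R` satisfied by `θ = Y ^ e * j_N`. -/
noncomputable def cuspVertPoly (Φ : ℤ[X][X]) (e : ℕ) : R[X] :=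
  (cuspPoly Φ e).map (cuspY (A := A) R N)

theorem cuspVertPoly_monic (Φ : ℤ[X][X]) (e : ℕ) : (cuspVertPoly (A := A) R N Φ e).Monic :=
  (cuspPoly_monic Φ e).map _

theorem natDegree_cuspVertPoly [Nontrivial R] (Φ : ℤ[X][X]) (e : ℕ) :
    (cuspVertPoly (A := A) R N Φ e).natDegree = Φ.natDegree := by
  rw [cuspVertPoly, (cuspPoly_monic Φ e).natDegree_map, natDegree_cuspPoly]

/-- **Root.** In any `R`-algebra `L` in which `τ ^ N` is inverted by `j`, a root `x` of `Φ(·, j)`
gives the root `(τ ^ N) ^ e * x` of `cuspVertPoly`. -/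
theorem aeval_cuspVertPoly_eq_zero {L : Type*} [CommRing L] [Nontrivial L] [Algebra R L]
    {Φ : ℤ[X][X]} (hΦ : Φ.Monic) {e : ℕ} (he : ∀ m, (Φ.coeff m).natDegree ≤ e) {j x : L}
    (hj : j * algebraMap R L (algebraMap A[X] R (X ^ N)) = 1)
    (hx : eval₂ (eval₂RingHom (Int.castRingHom L) j) x Φ = 0) :
    aeval (algebraMap R L (algebraMap A[X] R (X ^ N)) ^ e * x) (cuspVertPoly (A := A) R N Φ e)
      = 0 := by
  set G : ℤ[X] →+* L := (algebraMap R L).comp (cuspY (A := A) R N) with hG
  have hGX : G X = algebraMap R L (algebraMap A[X] R (X ^ N)) := by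
    rw [hG, RingHom.comp_apply, cuspY_X]
  have hGC : G.comp C = Int.castRingHom L := RingHom.ext_int _ _
  rw [aeval_def, cuspVertPoly, eval₂_map, ← hG, ← hGX]
  apply eval₂_cuspPoly_eq_zero hΦ he G (hGX ▸ hj)
  rw [hGC]
  exact hx

variable [hP : (cuspIdeal π).IsPrime] [IsLocalization.AtPrime R (cuspIdeal π)]
variable {k : Type*} [Field k] [NeZero N]

/-- **Separability.** If `Φ mod ρ` is separable over `k(J)` then `cuspVertPoly` is separable
over `k(τ)` after the reduction `cuspRes : R → k(τ)`. -/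
theorem separable_map_cuspVertPoly (ρ : A →+* k) (hρ : ∀ a, ρ a = 0 → π ∣ a)
    {Φ : ℤ[X][X]} (hΦ : Φ.Monic) {e : ℕ} (he : ∀ m, (Φ.coeff m).natDegree ≤ e)
    (hsep : (Φ.map ((algebraMap k[X] (RatFunc k)).comp
      (mapRingHom (Int.castRingHom k)))).Separable) :
    ((cuspVertPoly (A := A) R N Φ e).map (cuspRes R ρ hρ)).Separable := by
  set G : ℤ[X] →+* RatFunc k := (cuspRes R ρ hρ).comp (cuspY (A := A) R N) with hG
  have hGX : G X = (RatFunc.X : RatFunc k) ^ N := by
    rw [hG, RingHom.comp_apply, cuspY_X, map_pow, map_pow, cuspRes_X]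
  have hXN : (RatFunc.X : RatFunc k) ^ N ≠ 0 := pow_ne_zero _ RatFunc.X_ne_zero
  have hj : ((RatFunc.X : RatFunc k) ^ N)⁻¹ * G X = 1 := by
    rw [hGX, inv_mul_cancel₀ hXN]
  rw [cuspVertPoly, map_map, ← hG]
  apply separable_map_cuspPoly hΦ he G hj
  have h1 := hsep.map (f := cuspSigma k N)
  rw [map_map] at h1
  have hhom : eval₂RingHom (G.comp C) ((RatFunc.X : RatFunc k) ^ N)⁻¹ =
      (cuspSigma k N).comp ((algebraMap k[X] (RatFunc k)).comp
        (mapRingHom (Int.castRingHom k))) := by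
    apply Polynomial.ringHom_ext
    · intro a
      exact congrFun (congrArg DFunLike.coe (RingHom.ext_int
        ((eval₂RingHom (G.comp C) ((RatFunc.X : RatFunc k) ^ N)⁻¹).comp C)
        (((cuspSigma k N).comp ((algebraMap k[X] (RatFunc k)).comp
          (mapRingHom (Int.castRingHom k)))).comp C))) a
    · rw [coe_eval₂RingHom, eval₂_X, RingHom.comp_apply, RingHom.comp_apply, coe_mapRingHom,
        Polynomial.map_X, cuspSigma_algebraMap, eval₂_X]
  rw [hhom]
  exact h1

end Instance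

/-! ## Generation: `K(u x) = K(x)` for `u ∈ Kˣ` -/

section Gen

variable {K L : Type*} [Field K] [Field L] [Algebra K L]

theorem adjoin_algebraMap_mul_eq {u : K} (hu : u ≠ 0) (x : L) :
    IntermediateField.adjoin K {algebraMap K L u * x} = IntermediateField.adjoin K {x} := by
  apply le_antisymm
  · rw [IntermediateField.adjoin_le_iff, Set.singleton_subset_iff]
    exact mul_mem (IntermediateField.algebraMap_mem _ u)
      (IntermediateField.mem_adjoin_simple_self K x)
  · rw [IntermediateField.adjoin_le_iff, Set.singleton_subset_iff]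
    have hx : x = algebraMap K L u⁻¹ * (algebraMap K L u * x) := by
      rw [← mul_assoc, ← map_mul, inv_mul_cancel₀ hu, map_one, one_mul]
    have hmem : algebraMap K L u⁻¹ * (algebraMap K L u * x) ∈
        IntermediateField.adjoin K {algebraMap K L u * x} :=
      mul_mem (IntermediateField.algebraMap_mem _ u⁻¹)
        (IntermediateField.mem_adjoin_simple_self K _)
    rw [← hx] at hmem
    exact hmem

theorem adjoin_algebraMap_mul_eq_top {u : K} (hu : u ≠ 0) {x : L}
    (hx : IntermediateField.adjoin K {x} = ⊤) :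
    IntermediateField.adjoin K {algebraMap K L u * x} = ⊤ := by
  rw [adjoin_algebraMap_mul_eq hu, hx]

end Gen

end Fermat.Agent.S18.H42
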