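/-
S18 project, route Q of (GR), cusp chart (helper42): the (VERT) condition `H41.VertCond` for the
`t`-line local ring `R'` at a cusp, in the shape consumed by `H96.isIntegrallyClosed_specialFibre`.
-/
import Fermat.Agent.S18.H1_VertCond
import Fermat.Agent.S18.H42_CuspVert

set_option autoImplicit false
set_option linter.unusedSectionVars false
set_option linter.style.haveILetI false

open Polynomial

namespace Fermat.Agent.S18.H42

section VertCondCusp

variable {A₁ : Type*} [CommRing A₁] [IsDomain A₁] [UniqueFactorizationMonoid A₁] {ϖ : A₁}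
variable (R' : Type*) [CommRing R'] [Algebra A₁[X] R'] [Algebra A₁ R'] [IsScalarTower A₁ A₁[X] R']
variable [hP : (cuspIdeal ϖ).IsPrime] [IsLocalization.AtPrime R' (cuspIdeal ϖ)]
variable (N : ℕ) [NeZero N]
variable {K' F' : Type*} [Field K'] [Algebra R' K'] [IsFractionRing R' K'] [Field F']
  [Algebra K' F'] [Algebra R' F'] [IsScalarTower R' K' F'] [FiniteDimensional K' F']
  [Algebra.IsSeparable K' F']
variable {k : Type*} [Field k]

/-- **(VERT) at a cusp.**  `R'` the localisation of `A₁[τ]` at `(ϖ, τ)`, `K' = Frac R'`,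
`F' ⊇ K'` finite separable, `j, x ∈ F'` with `j τ ^ N = 1`, `Φ(x, j) = 0`, `K'(x) = F'`; if
`Φ mod ρ` is separable over `k(J)` then `H41.VertCond R' K' F' ϖ` holds. -/
theorem vertCond_cusp (ρ : A₁ →+* k) (hρ : ∀ a, ρ a = 0 → ϖ ∣ a) (hρϖ : ρ ϖ = 0)
    {Φ : ℤ[X][X]} (hΦ : Φ.Monic)
    (hsep : (Φ.map ((algebraMap k[X] (RatFunc k)).comp
      (mapRingHom (Int.castRingHom k)))).Separable)
    {j x : F'} (hj : j * algebraMap R' F' (algebraMap A₁[X] R' (X ^ N)) = 1)
    (hx : eval₂ (eval₂RingHom (Int.castRingHom F') j) x Φ = 0)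
    (hgen : IntermediateField.adjoin K' {x} = ⊤) :
    H41.VertCond R' K' F' (algebraMap A₁ R' ϖ) := by
  haveI : IsDomain R' := cuspRing_isDomain (π := ϖ) R'
  haveI : IsIntegrallyClosed R' := cuspRing_isIntegrallyClosed (π := ϖ) R'
  obtain ⟨e, he⟩ := exists_natDegree_coeff_le Φ
  set y : R' := algebraMap A₁[X] R' (X ^ N) with hy
  have hyF : algebraMap R' F' y ≠ 0 := by
    intro h
    rw [h, mul_zero] at hj
    exact zero_ne_one hj
  have hyK : algebraMap R' K' y ^ e ≠ 0 := by
    apply pow_ne_zero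
    intro h
    apply hyF
    rw [IsScalarTower.algebraMap_apply R' K' F', h, map_zero]
  have hθ : algebraMap R' F' y ^ e * x = algebraMap K' F' (algebraMap R' K' y ^ e) * x := by
    rw [map_pow, ← IsScalarTower.algebraMap_apply R' K' F']
  refine H1.vertCond_of_separable (K := K') (algebraMap R' F' y ^ e * x) ?_
    (cuspVertPoly_monic (A := A₁) R' N Φ e)
    (aeval_cuspVertPoly_eq_zero (A := A₁) R' N hΦ he hj hx) (cuspRes R' ρ hρ)
    (separable_map_cuspVertPoly (A := A₁) R' N ρ hρ hΦ he hsep) ?_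
  · rw [hθ]
    exact adjoin_algebraMap_mul_eq_top hyK hgen
  · rw [IsScalarTower.algebraMap_apply A₁ A₁[X] R', algebraMap_eq]
    exact cuspRes_C R' ρ hρ hρϖ

end VertCondCusp

end Fermat.Agent.S18.H42
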