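/-
S18 project, route Q of (GR), cusp chart (helper42): `hV` of `H13.isIntegrallyClosed_cuspChart`
in helper13's exact types (`CuspT ϖ u N`, `FractionRing`, `CuspField u N`), from
`H42.vertCond_cusp`.
-/
import Fermat.Agent.S18.H13_InstCusp
import Fermat.Agent.S18.H42_CuspVertCond

set_option autoImplicit false
set_option linter.unusedSectionVars false
open Polynomial IntermediateField

namespace Fermat.Agent.S18.H42

open Fermat.Agent.S18 Fermat.Agent.S18.H13

variable {A₁ : Type*} [CommRing A₁] [IsDomain A₁] [UniqueFactorizationMonoid A₁]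
  (ϖ : A₁) [hϖ : Fact (Prime ϖ)]
variable {F1 : Type*} [Field F1] [Algebra A₁ F1]
variable (u : F1) [hu : Fact (Transcendental A₁ u)] (N : ℕ) [NeZero N]

/-- (VERT) for the cusp chart, in the types of `H13.isIntegrallyClosed_cuspChart`. -/
theorem hV_cuspChart
    [FiniteDimensional (FractionRing (CuspT ϖ u N)) (CuspField u N)]
    [Algebra.IsSeparable (FractionRing (CuspT ϖ u N)) (CuspField u N)]
    {k : Type*} [Field k] (ρ : A₁ →+* k) (hker : RingHom.ker ρ = Ideal.span {ϖ})
    {Φ : ℤ[X][X]} (hΦ : Φ.Monic)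
    (hsep : (Φ.map ((algebraMap k[X] (RatFunc k)).comp
      (mapRingHom (Int.castRingHom k)))).Separable)
    {j1 θ : F1} (hju : j1 * u = 1)
    (hroot : eval₂ (eval₂RingHom (Int.castRingHom F1) j1) θ Φ = 0)
    (hgen : IntermediateField.adjoin (FractionRing (CuspT ϖ u N))
      {algebraMap F1 (CuspField u N) θ} = ⊤) :
    H41.VertCond (CuspT ϖ u N) (FractionRing (CuspT ϖ u N)) (CuspField u N)
      (algebraMap A₁ (CuspT ϖ u N) ϖ) := by
  have hρ : ∀ a, ρ a = 0 → ϖ ∣ a := fun a ha => by
    have : a ∈ RingHom.ker ρ := ha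
    rw [hker, Ideal.mem_span_singleton] at this
    exact this
  have hρϖ : ρ ϖ = 0 := by
    have : ϖ ∈ RingHom.ker ρ := by rw [hker]; exact Ideal.mem_span_singleton_self ϖ
    exact this
  refine H42.vertCond_cusp (CuspT ϖ u N) N ρ hρ hρϖ hΦ hsep
    (j := algebraMap F1 (CuspField u N) j1) (x := algebraMap F1 (CuspField u N) θ) ?_ ?_ hgen
  · rw [algebraMap_cuspT, map_pow, aeval_X, cuspTau_pow, ← map_mul, hju, map_one]
  · have h := congrArg (algebraMap F1 (CuspField u N)) hroot
    rw [map_zero, hom_eval₂] at h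
    have hh : (algebraMap F1 (CuspField u N)).comp (eval₂RingHom (Int.castRingHom F1) j1) =
        eval₂RingHom (Int.castRingHom (CuspField u N)) (algebraMap F1 (CuspField u N) j1) := by
      apply Polynomial.ringHom_ext
      · intro a
        simp
      · simp
    rw [hh] at h
    exact h

end Fermat.Agent.S18.H42
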