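import Mathlib
import Fermat.Agent.S18.H13_InstCuspHor
import Fermat.Agent.S18.H42_CuspVertInst

/-!
# S18 / INST-CUSP (helper13): the cusp chart instance with (VERT) and (HOR) discharged

`isIntegrallyClosed_cuspChart_of_hunr`: `H13.isIntegrallyClosed_cuspChart` with
* `hV` replaced by the modular-polynomial data `(Φ, hΦ, hsep, hroot)` (helper42's `hV_cuspChart`),
* `hH` replaced by the place-wise statement `hunr` (helper69's `ord_aeval_eq_one_of_cusp_cover`).
The only remaining non-formal hypothesis is `hprime`.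
-/

set_option autoImplicit false
set_option linter.unusedSectionVars false
set_option linter.style.haveILetI false

open Polynomial IntermediateField AlgebraicCurve

namespace Fermat.Agent.S18.H13

open Fermat.Agent.S18

noncomputable section

section Full

variable {A₁ : Type*} [CommRing A₁] [IsDomain A₁] [IsDiscreteValuationRing A₁] [CharZero A₁]
  (ϖ : A₁) [hϖ : Fact (Prime ϖ)]
variable (L1 : Type*) [Field L1] [Algebra A₁ L1] [IsFractionRing A₁ L1]
variable {F1 : Type*} [Field F1] [Algebra A₁ F1] [Algebra L1 F1] [IsScalarTower A₁ L1 F1]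
variable (u : F1) [hu : Fact (Transcendental A₁ u)] (N : ℕ) [NeZero N]

include L1 in
/-- `F' = F1(τ)` is generated by `θ` over the fraction field of the `t`-line, and finite over
it. -/
theorem adjoin_theta_cuspT_and_finite {j1 θ : F1} (hju : j1 * u = 1)
    (hgen : L1⟮j1⟯⟮θ⟯ = ⊤) (hθ : IsAlgebraic L1⟮j1⟯ θ) :
    IntermediateField.adjoin (FractionRing (CuspT ϖ u N))
        {algebraMap F1 (CuspField u N) θ} = ⊤ ∧
      FiniteDimensional (FractionRing (CuspT ϖ u N)) (CuspField u N) := by
  classical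
  have hinjT := algebraMap_base_cuspT_injective ϖ u N
  have hj1 : j1 = u⁻¹ := eq_inv_of_mul_eq_one_left hju
  letI algL1K' : Algebra L1 (FractionRing (CuspT ϖ u N)) :=
    (fracLift L1 (CuspT ϖ u N) hinjT).toAlgebra
  haveI towL1K' : IsScalarTower L1 (FractionRing (CuspT ϖ u N)) (CuspField u N) :=
    IsScalarTower.of_algebraMap_eq fun c =>
      (algebraMap_fracLift (E := CuspField u N) L1 (CuspT ϖ u N) hinjT c).symm
  have hτK' : cuspTau u N ∈ (algebraMap (FractionRing (CuspT ϖ u N)) (CuspField u N)).range :=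
    ⟨algebraMap (CuspT ϖ u N) _ (algebraMap A₁[X] (CuspT ϖ u N) X), by
      rw [← IsScalarTower.algebraMap_apply (CuspT ϖ u N) (FractionRing (CuspT ϖ u N))
        (CuspField u N), algebraMap_cuspT_X]⟩
  have hjK' : algebraMap F1 (CuspField u N) j1 ∈
      (algebraMap (FractionRing (CuspT ϖ u N)) (CuspField u N)).range := by
    obtain ⟨c, hc⟩ := hτK'
    refine ⟨(c ^ N)⁻¹, ?_⟩
    rw [map_inv₀, map_pow, hc, cuspTau_pow, hj1, map_inv₀]
  exact ⟨H70.adjoin_eq_top_of_compositum (L := L1) (F := F1) (F' := CuspField u N)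
      (KY := FractionRing (CuspT ϖ u N)) hgen (adjoin_cuspTau u N) hτK' hjK',
    H70.finiteDimensional_of_compositum (L := L1) (F := F1) (F' := CuspField u N)
      (KY := FractionRing (CuspT ϖ u N)) hgen hθ (adjoin_cuspTau u N) hτK' hjK'⟩

include L1 in
/-- **The cusp chart of route Q, (VERT) and (HOR) discharged.**  With `u = 1/j1`, `θ` a root of
the monic `Φ(·, j1)`, `Φ mod ϖ` separable over `k(J)`, and the Kummer cover `τ^N = u` unramified
over the `τ`-line away from `1728 τ^N = 1` and `τ = 0, ∞`... (`hunr`): the special fibre of the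
integral closure of the local ring `A₁[u]_(ϖ,u)` in `F1` is integrally closed, provided `ϖ` is
prime there. -/
theorem isIntegrallyClosed_cuspChart_of_hunr {j1 θ : F1} (hju : j1 * u = 1)
    (hgen : L1⟮j1⟯⟮θ⟯ = ⊤) (hθ : IsAlgebraic L1⟮j1⟯ θ)
    {ζ : A₁} (hζ : IsPrimitiveRoot ζ N)
    {k : Type} [Field k] [IsAlgClosed k] (ρ : A₁ →+* k) (hρ : Function.Surjective ρ)
    (hker : RingHom.ker ρ = Ideal.span {ϖ})
    {Φ : ℤ[X][X]} (hΦ : Φ.Monic)
    (hsep : (Φ.map ((algebraMap k[X] (RatFunc k)).comp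
      (mapRingHom (Int.castRingHom k)))).Separable)
    (hroot : eval₂ (eval₂RingHom (Int.castRingHom F1) j1) θ Φ = 0)
    (hunr : ∀ (w : Place L1 (CuspField u N)) (g₀ : L1[X]), Irreducible g₀ →
      ¬ g₀ ∣ (C (1728 : L1) * X ^ N - 1) →
      0 < w.ord (aeval (cuspTau u N) g₀) → w.ord (aeval (cuspTau u N) g₀) = 1)
    (hprime : (Ideal.span {algebraMap (CuspY ϖ u) (integralClosure (CuspY ϖ u) F1)
      (algebraMap A₁ (CuspY ϖ u) ϖ)}).IsPrime) :
    IsIntegrallyClosed (integralClosure (CuspY ϖ u) F1 ⧸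
      Ideal.span {algebraMap (CuspY ϖ u) (integralClosure (CuspY ϖ u) F1)
        (algebraMap A₁ (CuspY ϖ u) ϖ)}) := by
  classical
  have hinjT := algebraMap_base_cuspT_injective ϖ u N
  haveI : CharZero (CuspT ϖ u N) := charZero_of_injective_algebraMap hinjT
  haveI : CharZero (FractionRing (CuspT ϖ u N)) :=
    charZero_of_injective_algebraMap
      (IsFractionRing.injective (CuspT ϖ u N) (FractionRing (CuspT ϖ u N)))
  obtain ⟨hgen', hfin⟩ := adjoin_theta_cuspT_and_finite ϖ L1 u N hju hgen hθ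
  haveI := hfin
  haveI : Algebra.IsSeparable (FractionRing (CuspT ϖ u N)) (CuspField u N) := inferInstance
  have hV := H42.hV_cuspChart ϖ u N ρ hker hΦ hsep hju hroot hgen'
  have hH := horCond_cuspT ϖ L1 u N hju hgen hθ hunr
  exact isIntegrallyClosed_cuspChart ϖ L1 u N hju hgen hθ hζ ρ hρ hker hV hH hprime

end Full

end

end Fermat.Agent.S18.H13
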