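import Fermat.Agent.S18.H11_IfaceLift

/-!
# S18 interface, part 3 (helper11): the frozen statement of S18 from the normalised core `CoreE`

* `isAlgClosed_residueField` : the residue field of a valuation subring of an algebraically closed
  field is algebraically closed.
* `exists_rep` : unfolding of `JZero`, `reductionModL`, the chosen place reduction `r` and
  `PrincipalGeneratedByIntegral`.
* `result_of_coreE`, `result_of_coreE_prime` : S18 from `CoreE` (+ two named function-field facts).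
-/

set_option autoImplicit false

noncomputable section

open HahnSeries IntermediateField AlgebraicCurve ModularCurve Polynomial

namespace Fermat.Agent.S18.H11

/-! ### The residue field is algebraically closed -/

theorem isAlgClosed_residueField {K : Type*} [Field K] [IsAlgClosed K] (A : ValuationSubring K) :
    IsAlgClosed (IsLocalRing.ResidueField A) := by
  refine IsAlgClosed.of_exists_root _ fun p hp hirr => ?_
  have hsurj : Function.Surjective (IsLocalRing.residue A) := IsLocalRing.residue_surjective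
  have hlift : p ∈ Polynomial.lifts (IsLocalRing.residue A) := by
    rw [Polynomial.mem_lifts]
    exact Polynomial.map_surjective _ hsurj p
  obtain ⟨q, hq, hdeg, hmonic⟩ := Polynomial.lifts_and_degree_eq_and_monic hlift hp
  have hdegp : p.degree ≠ 0 := Polynomial.degree_pos_of_irreducible hirr |>.ne'
  have hdegq : (q.map (algebraMap A K)).degree ≠ 0 := by
    rw [Polynomial.degree_map_eq_of_injective (FaithfulSMul.algebraMap_injective A K), hdeg]
    exact hdegp
  obtain ⟨x, hx⟩ := IsAlgClosed.exists_root _ hdegq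
  have hint : IsIntegral A x := ⟨q, hmonic, by
    rw [← Polynomial.eval_map]; exact hx⟩
  obtain ⟨y, rfl⟩ := IsIntegrallyClosed.algebraMap_eq_of_integral hint
  refine ⟨IsLocalRing.residue A y, ?_⟩
  have hy : q.eval y = 0 := by
    apply FaithfulSMul.algebraMap_injective A K
    rw [map_zero, ← Polynomial.eval₂_at_apply, Polynomial.eval₂_eq_eval_map]
    exact hx
  rw [← hq, Polynomial.eval_map, Polynomial.eval₂_at_apply, hy, map_zero]

variable {A : ValuationSubring (AlgebraicClosure ℚ)} {N : ℕ}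

/-! ### Place reduction on integral elements -/

theorem IntElt.mapDomain_div
    {r : Place (AlgebraicClosure ℚ) (modularFunctionFieldBar N) →
      Place (IsLocalRing.ResidueField A) (modularFunctionFieldFullC (IsLocalRing.ResidueField A) N)}
    (hr : IsPlaceReductionAlong A (IsLocalRing.residue A) N r) (Y : IntElt A N)
    {E : Divisor (AlgebraicClosure ℚ) (modularFunctionFieldBar N)}
    (hE : ∀ P, E P = P.ord Y.gen) (Q) :
    Finsupp.mapDomain r E Q = Q.ord Y.red :=
  hr.2 Y.y Y.mem Y.memk Y.ne E hE Q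

/-! ### Principal divisors are differences of divisors of integral elements -/

theorem exists_intElt_of_principal
    (hgen : PrincipalGeneratedByIntegral A (IsLocalRing.residue A) N)
    {E : Divisor (AlgebraicClosure ℚ) (modularFunctionFieldBar N)}
    (hE : E ∈ Divisor.principal (K := AlgebraicClosure ℚ) (F := modularFunctionFieldBar N)) :
    ∃ (Y₁ Y₂ : IntElt A N) (E₁ E₂ : Divisor (AlgebraicClosure ℚ) (modularFunctionFieldBar N)),
      (∀ P, E₁ P = P.ord Y₁.gen) ∧ (∀ P, E₂ P = P.ord Y₂.gen) ∧ E = E₁ - E₂ := by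
  have hE' := hgen hE
  clear hE
  induction hE' using AddSubgroup.closure_induction with
  | mem E hE =>
    obtain ⟨y, hy, hyk, hne, hEy⟩ := hE
    refine ⟨⟨y, hy, hyk, hne⟩, IntElt.one, E, 0, hEy, fun P => ?_, (sub_zero E).symm⟩
    rw [IntElt.gen_one, Place.ord_one]; rfl
  | zero =>
    refine ⟨IntElt.one, IntElt.one, 0, 0, fun P => ?_, fun P => ?_, (sub_zero 0).symm⟩ <;>
    · rw [IntElt.gen_one, Place.ord_one]; rfl
  | add E E' _ _ hE hE' =>
    obtain ⟨Y₁, Y₂, E₁, E₂, h₁, h₂, rfl⟩ := hE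
    obtain ⟨Y₁', Y₂', E₁', E₂', h₁', h₂', rfl⟩ := hE'
    refine ⟨Y₁.mul Y₁', Y₂.mul Y₂', E₁ + E₁', E₂ + E₂', fun P => ?_, fun P => ?_, by abel⟩
    · rw [IntElt.ord_gen_mul, Finsupp.add_apply, h₁, h₁']
    · rw [IntElt.ord_gen_mul, Finsupp.add_apply, h₂, h₂']
  | neg E _ hE =>
    obtain ⟨Y₁, Y₂, E₁, E₂, h₁, h₂, rfl⟩ := hE
    exact ⟨Y₂, Y₁, E₂, E₁, h₂, h₁, by abel⟩

/-! ### Unfolding the frozen hypotheses -/

/-- Unfolding of the hypotheses of S18: `z = [D]`, `m D = div (Y₁/Y₂)` with integral `Y_i`,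
`r_* D = div g`, and `m div g = div (Ȳ₁/Ȳ₂)`. -/
theorem exists_rep (h : ReductionInputsModL A N) (m : ℕ) (z : JZero N) (hmz : m • z = 0)
    (hz : reductionModL A N z = 0) :
    ∃ (D : Divisor (AlgebraicClosure ℚ) (modularFunctionFieldBar N))
      (hD : D ∈ Divisor.degZero (K := AlgebraicClosure ℚ) (F := modularFunctionFieldBar N))
      (Y₁ Y₂ : IntElt A N)
      (g : modularFunctionFieldFullC (IsLocalRing.ResidueField A) N),
      z = Pic0.mk ⟨D, hD⟩ ∧ g ≠ 0 ∧
      (∀ P, (m : ℤ) * D P = P.ord Y₁.gen - P.ord Y₂.gen) ∧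
      (∀ Q, Finsupp.mapDomain (placeReductionModL h) D Q = Q.ord g) ∧
      (∀ Q : Place (IsLocalRing.ResidueField A)
          (modularFunctionFieldFullC (IsLocalRing.ResidueField A) N),
        (m : ℤ) * Q.ord g = Q.ord Y₁.red - Q.ord Y₂.red) := by
  have hr := isPlaceReductionModL_placeReductionModL h
  have hgen : PrincipalGeneratedByIntegral A (IsLocalRing.residue A) N := h.choose_spec.2
  obtain ⟨⟨D, hD⟩, rfl⟩ := Pic0.mk_surjective z
  -- `m • D` is principal
  have hmD : m • D ∈ Divisor.principal (K := AlgebraicClosure ℚ) (F := modularFunctionFieldBar N) := by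
    have h1 : ((m • (⟨D, hD⟩ : Divisor.degZero (K := AlgebraicClosure ℚ)
        (F := modularFunctionFieldBar N)) : Divisor.degZero (K := AlgebraicClosure ℚ)
        (F := modularFunctionFieldBar N))) ∈
        (Divisor.principal (K := AlgebraicClosure ℚ) (F := modularFunctionFieldBar N)).addSubgroupOf
          (Divisor.degZero (K := AlgebraicClosure ℚ) (F := modularFunctionFieldBar N)) := by
      rw [← QuotientAddGroup.eq_zero_iff, QuotientAddGroup.mk_nsmul]
      exact hmz
    rw [AddSubgroup.mem_addSubgroupOf, AddSubgroupClass.coe_nsmul] at h1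
    exact h1
  -- `r_* D` is principal
  have hrD : Finsupp.mapDomain (placeReductionModL h) D ∈
      Divisor.principal (K := IsLocalRing.ResidueField A)
        (F := modularFunctionFieldFullC (IsLocalRing.ResidueField A) N) := by
    rw [reductionModL_mk h] at hz
    have h1 := (QuotientAddGroup.eq_zero_iff _).mp hz
    rw [AddSubgroup.mem_addSubgroupOf, coe_reductionDegZeroAlong] at h1
    exact h1
  obtain ⟨g, hg, hgD⟩ := hrD
  obtain ⟨Y₁, Y₂, E₁, E₂, h₁, h₂, hE⟩ := exists_intElt_of_principal hgen hmD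
  have hP : ∀ P, (m : ℤ) * D P = P.ord Y₁.gen - P.ord Y₂.gen := by
    intro P
    have := congrArg (fun E => E P) hE
    simp only [Finsupp.smul_apply, Finsupp.sub_apply, nsmul_eq_mul] at this
    rw [this, h₁, h₂]
  refine ⟨D, hD, Y₁, Y₂, g, rfl, hg, hP, hgD, fun Q => ?_⟩
  have h3 : Finsupp.mapDomain (placeReductionModL h) (m • D) =
      Finsupp.mapDomain (placeReductionModL h) E₁ - Finsupp.mapDomain (placeReductionModL h) E₂ := by
    rw [hE, Finsupp.mapDomain_sub]
  have h4 := congrArg (fun E => E Q) h3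
  simp only [Finsupp.sub_apply] at h4
  rw [Y₁.mapDomain_div hr h₁, Y₂.mapDomain_div hr h₂, Finsupp.mapDomain_smul,
    Finsupp.smul_apply, hgD, nsmul_eq_mul] at h4
  exact h4

/-! ### S18 from the core -/

theorem result_of_coreE (h : ReductionInputsModL A N) (m : ℕ) (hm0 : m ≠ 0)
    (hdiv : ∀ f : modularFunctionFieldBar N,
      ∃ D : Divisor (AlgebraicClosure ℚ) (modularFunctionFieldBar N), ∀ v, D v = v.ord f)
    (hconst : ∀ c : modularFunctionFieldFullC (IsLocalRing.ResidueField A) N, c ≠ 0 →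
      (∀ Q : Place (IsLocalRing.ResidueField A)
        (modularFunctionFieldFullC (IsLocalRing.ResidueField A) N), Q.ord c = 0) →
      ∃ a : IsLocalRing.ResidueField A,
        c = algebraMap _ (modularFunctionFieldFullC (IsLocalRing.ResidueField A) N) a)
    (core : CoreE A N m) (z : JZero N) (hmz : m • z = 0) (hz : reductionModL A N z = 0) :
    z = 0 := by
  obtain ⟨D, hD, Y₁, Y₂, g, rfl, hg, hP, -, hQ⟩ := exists_rep h m z hmz hz
  -- the constant
  set c : modularFunctionFieldFullC (IsLocalRing.ResidueField A) N :=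
    Y₁.red * (Y₂.red)⁻¹ * (g ^ m)⁻¹ with hc
  have hc0 : c ≠ 0 :=
    mul_ne_zero (mul_ne_zero Y₁.red_ne_zero (inv_ne_zero Y₂.red_ne_zero))
      (inv_ne_zero (pow_ne_zero m hg))
  have hcord : ∀ Q : Place (IsLocalRing.ResidueField A)
      (modularFunctionFieldFullC (IsLocalRing.ResidueField A) N), Q.ord c = 0 := by
    intro Q
    rw [hc, Q.ord_mul (mul_ne_zero Y₁.red_ne_zero (inv_ne_zero Y₂.red_ne_zero))
      (inv_ne_zero (pow_ne_zero m hg)), Q.ord_mul Y₁.red_ne_zero (inv_ne_zero Y₂.red_ne_zero),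
      Q.ord_inv, Q.ord_inv, ← zpow_natCast, Q.ord_zpow]
    have := hQ Q
    linarith
  obtain ⟨a, ha⟩ := hconst c hc0 hcord
  haveI : IsAlgClosed (IsLocalRing.ResidueField A) := isAlgClosed_residueField A
  obtain ⟨c₀, hc₀⟩ := IsAlgClosed.exists_pow_nat_eq a (Nat.pos_of_ne_zero hm0)
  have ha0 : a ≠ 0 := by
    rintro rfl
    rw [map_zero] at ha
    exact hc0 ha
  have hc₀0 : c₀ ≠ 0 := by
    rintro rfl
    rw [zero_pow hm0] at hc₀
    exact ha0 hc₀.symm
  set g' : modularFunctionFieldFullC (IsLocalRing.ResidueField A) N :=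
    g * algebraMap _ _ c₀ with hg'
  have hg'0 : g' ≠ 0 :=
    mul_ne_zero hg ((map_ne_zero_iff _ (algebraMap _ _).injective).mpr hc₀0)
  have hg'm : Y₁.red = Y₂.red * g' ^ m := by
    rw [hg', mul_pow, ← map_pow, hc₀, ← ha, hc]
    have h2 := Y₂.red_ne_zero
    have h3 := pow_ne_zero m hg
    field_simp
  obtain ⟨U₁, U₂, hU⟩ := exists_intElt_div g' hg'0
  -- new pair
  set Z₁ := Y₁.mul (U₂.pow m) with hZ₁
  set Z₂ := Y₂.mul (U₁.pow m) with hZ₂
  have hred : Z₁.red = Z₂.red := by
    rw [hZ₁, hZ₂, IntElt.red_mul, IntElt.red_mul, IntElt.red_pow, IntElt.red_pow, hg'm, ← hU]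
    ring
  obtain ⟨G₁, hG₁⟩ := hdiv U₁.gen
  obtain ⟨G₂, hG₂⟩ := hdiv U₂.gen
  have hD' : D - G₁ + G₂ ∈
      Divisor.principal (K := AlgebraicClosure ℚ) (F := modularFunctionFieldBar N) := by
    refine core Z₁ Z₂ hred _ fun P => ?_
    rw [hZ₁, hZ₂, IntElt.ord_gen_mul, IntElt.ord_gen_mul, IntElt.ord_gen_pow, IntElt.ord_gen_pow,
      Finsupp.add_apply, Finsupp.sub_apply, hG₁, hG₂, mul_add, mul_sub, hP P]
    ring
  have hG₁p : G₁ ∈ Divisor.principal (K := AlgebraicClosure ℚ) (F := modularFunctionFieldBar N) :=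
    ⟨U₁.gen, U₁.gen_ne_zero, hG₁⟩
  have hG₂p : G₂ ∈ Divisor.principal (K := AlgebraicClosure ℚ) (F := modularFunctionFieldBar N) :=
    ⟨U₂.gen, U₂.gen_ne_zero, hG₂⟩
  have hDp : D ∈ Divisor.principal (K := AlgebraicClosure ℚ) (F := modularFunctionFieldBar N) := by
    have : D = (D - G₁ + G₂) + G₁ - G₂ := by abel
    rw [this]
    exact AddSubgroup.sub_mem _ (AddSubgroup.add_mem _ hD' hG₁p) hG₂p
  exact (QuotientAddGroup.eq_zero_iff _).mpr (by
    rw [AddSubgroup.mem_addSubgroupOf]; exact hDp)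

/-- Variant: the core is only needed for the PRIME divisors of `m`. -/
theorem result_of_coreE_prime (h : ReductionInputsModL A N) (m : ℕ) (hm0 : m ≠ 0)
    (hdiv : ∀ f : modularFunctionFieldBar N,
      ∃ D : Divisor (AlgebraicClosure ℚ) (modularFunctionFieldBar N), ∀ v, D v = v.ord f)
    (hconst : ∀ c : modularFunctionFieldFullC (IsLocalRing.ResidueField A) N, c ≠ 0 →
      (∀ Q : Place (IsLocalRing.ResidueField A)
        (modularFunctionFieldFullC (IsLocalRing.ResidueField A) N), Q.ord c = 0) →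
      ∃ a : IsLocalRing.ResidueField A,
        c = algebraMap _ (modularFunctionFieldFullC (IsLocalRing.ResidueField A) N) a)
    (core : ∀ p : ℕ, p.Prime → p ∣ m → CoreE A N p) (z : JZero N) (hmz : m • z = 0)
    (hz : reductionModL A N z = 0) :
    z = 0 := by
  by_contra hz0
  have hn_dvd : addOrderOf z ∣ m := addOrderOf_dvd_of_nsmul_eq_zero hmz
  have hn0 : addOrderOf z ≠ 0 := fun h0 => hm0 (by rw [h0] at hn_dvd; exact zero_dvd_iff.mp hn_dvd)
  have hn1 : addOrderOf z ≠ 1 := fun h1 => hz0 (AddMonoid.addOrderOf_eq_one_iff.mp h1)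
  obtain ⟨p, hp, hpn⟩ := Nat.exists_prime_and_dvd hn1
  obtain ⟨t, ht⟩ := hpn
  have ht0 : t ≠ 0 := by
    rintro rfl
    rw [mul_zero] at ht
    exact hn0 ht
  have hz' : t • z = 0 := by
    refine result_of_coreE h p hp.ne_zero hdiv hconst (core p hp (Dvd.dvd.trans ⟨t, ht⟩ hn_dvd))
      (t • z) ?_ ?_
    · rw [← mul_nsmul', ← ht, addOrderOf_nsmul_eq_zero]
    · rw [map_nsmul, hz, nsmul_zero]
  have hdvd : addOrderOf z ∣ t := addOrderOf_dvd_of_nsmul_eq_zero hz'
  have hle : addOrderOf z ≤ t := Nat.le_of_dvd (Nat.pos_of_ne_zero ht0) hdvd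
  have hlt : t < addOrderOf z := by
    rw [ht]
    calc t = 1 * t := (one_mul t).symm
      _ < p * t := Nat.mul_lt_mul_of_pos_right hp.one_lt (Nat.pos_of_ne_zero ht0)
  omega

end Fermat.Agent.S18.H11
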