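import Mathlib
import Fermat.Agent.RR.H52_ZeroDegree
import Fermat.Agent.RR.H76_Local

/-!
# Places of a function field over an algebraically closed constant field (helper79, S18 / B8a)

Generic discharge lemmas for the final assembly of S18, valid in every characteristic
(to be used on BOTH fibres: `F = modularFunctionFieldBar N` over `Qbar` and
`Fk = modularFunctionFieldFullC k N` over `k = ResidueField A`):

* `deg_eq_one_of_finite`, `deg_eq_one` : every place has degree `1`;
* `exists_value`, `exists_value_ne_zero` : every function regular at a place has a value there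
  (the `hval₀` hypothesis of `H71.isPrincipal_of_red_isPrincipal`);
* `exists_place_ord_sub_pos` : a point over every value of the coordinate;
* `infinite_places` : there are infinitely many places.
-/

set_option autoImplicit false

noncomputable section

open AlgebraicCurve IntermediateField

namespace Fermat.Agent.S18.H79

open Fermat.Agent.RR

variable {K F : Type*} [Field K] [Field F] [Algebra K F]

/-! ### One place with finite residue field -/

section OnePlace

variable [IsAlgClosed K] (v : Place K F)

theorem algebraMap_residueField_surjective (hfin : Module.Finite K v.ResidueField) :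
    Function.Surjective (algebraMap K v.ResidueField) := by
  have := hfin
  have : Algebra.IsIntegral K v.ResidueField := Algebra.IsIntegral.of_finite K v.ResidueField
  exact IsAlgClosed.algebraMap_bijective_of_isIntegral.2

/-- over an algebraically closed constant field a place with finite residue field has
degree one. -/
theorem deg_eq_one_of_finite (hfin : Module.Finite K v.ResidueField) : v.deg = 1 := by
  have hsurj := algebraMap_residueField_surjective v hfin
  have hinj : Function.Injective (algebraMap K v.ResidueField) :=
    (algebraMap K v.ResidueField).injective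
  let e : K ≃ₗ[K] v.ResidueField :=
    LinearEquiv.ofBijective (Algebra.linearMap K v.ResidueField) ⟨hinj, hsurj⟩
  unfold Place.deg
  rw [← e.finrank_eq, Module.finrank_self]

/-- every function regular at `v` has a value at `v`. -/
theorem exists_value_of_finite (hfin : Module.Finite K v.ResidueField) {f : F}
    (hf : f ∈ v.toValuationSubring) :
    ∃ c : K, f = algebraMap K F c ∨ 0 < v.ord (f - algebraMap K F c) := by
  obtain ⟨c, hc⟩ := algebraMap_residueField_surjective v hfin
    (IsLocalRing.residue v.toValuationSubring ⟨f, hf⟩)
  refine ⟨c, ?_⟩
  have hcmem : algebraMap K F c ∈ v.toValuationSubring := v.algebraMap_mem' c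
  have hsub : f - algebraMap K F c ∈ v.toValuationSubring := sub_mem hf hcmem
  have hres : H76.resTot v (f - algebraMap K F c) = 0 := by
    rw [H76.resTot_of_mem v hsub]
    have h1 : (⟨f - algebraMap K F c, hsub⟩ : v.toValuationSubring)
        = ⟨f, hf⟩ - algebraMap K v.toValuationSubring c := by
      apply Subtype.ext
      rfl
    rw [h1, map_sub, ← hc, sub_eq_zero]
    rfl
  rcases (H76.resTot_eq_zero_iff v hsub).mp hres with h | h
  · exact Or.inl (sub_eq_zero.mp h)
  · exact Or.inr h

/-- the value of a unit at `v` is nonzero: this is the hypothesis `hval₀` of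
`H71.isPrincipal_of_red_isPrincipal` at the place `v`. -/
theorem exists_value_ne_zero_of_finite (hfin : Module.Finite K v.ResidueField) {f : F}
    (hf0 : f ≠ 0) (hf : v.ord f = 0) :
    ∃ c : K, c ≠ 0 ∧ (f = algebraMap K F c ∨ 0 < v.ord (f - algebraMap K F c)) := by
  have hmem : f ∈ v.toValuationSubring := (H76.mem_valSubring_iff v).mpr (Or.inr hf.ge)
  obtain ⟨c, hc⟩ := exists_value_of_finite v hfin hmem
  refine ⟨c, ?_, hc⟩
  rintro rfl
  rw [map_zero] at hc
  rcases hc with h | h
  · exact hf0 h
  · rw [sub_zero, hf] at h
    exact lt_irrefl _ h

end OnePlace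

/-! ### Function fields: `t` transcendental, `F / K(t)` finite -/

section FunField

variable [IsAlgClosed K] (t : F) (ht : Transcendental K t) [FiniteDimensional K⟮t⟯ F]
include ht

/-- all places of a function field over an algebraically closed field have degree one. -/
theorem deg_eq_one (v : Place K F) : v.deg = 1 :=
  deg_eq_one_of_finite v (H52.finiteResidue t ht v)

theorem exists_value (v : Place K F) {f : F} (hf : f ∈ v.toValuationSubring) :
    ∃ c : K, f = algebraMap K F c ∨ 0 < v.ord (f - algebraMap K F c) :=
  exists_value_of_finite v (H52.finiteResidue t ht v) hf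

theorem exists_value_ne_zero (v : Place K F) {f : F} (hf0 : f ≠ 0) (hf : v.ord f = 0) :
    ∃ c : K, c ≠ 0 ∧ (f = algebraMap K F c ∨ 0 < v.ord (f - algebraMap K F c)) :=
  exists_value_ne_zero_of_finite v (H52.finiteResidue t ht v) hf0 hf

omit [IsAlgClosed K] ht [FiniteDimensional K⟮t⟯ F] in
theorem transcendental_sub_algebraMap {z : F} (hz : Transcendental K z) (c : K) :
    Transcendental K (z - algebraMap K F c) := by
  intro h
  apply hz
  have : z = (z - algebraMap K F c) + algebraMap K F c := by ring
  rw [this]
  exact h.add (isAlgebraic_algebraMap c)

omit [IsAlgClosed K] in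
/-- a point over every value of a transcendental coordinate. -/
theorem exists_place_ord_sub_pos {z : F} (hz : Transcendental K z) (c : K) :
    ∃ v : Place K F, 0 < v.ord (z - algebraMap K F c) := by
  have htr := transcendental_sub_algebraMap hz c
  obtain ⟨v, hv⟩ := H52.exists_place_val_lt_one t ht htr
  refine ⟨v, ?_⟩
  rcases (H76.val_lt_one_iff v).mp hv with h | h
  · exact absurd (h ▸ isAlgebraic_zero) htr
  · exact h

omit [IsAlgClosed K] ht [FiniteDimensional K⟮t⟯ F] in
/-- a place lies over at most one value of `z`. -/
theorem eq_of_ord_sub_pos (v : Place K F) {z : F} {c d : K}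
    (hc : 0 < v.ord (z - algebraMap K F c)) (hd : 0 < v.ord (z - algebraMap K F d)) : c = d := by
  by_contra hne
  have hcd : algebraMap K F (c - d) ≠ 0 := by
    rw [ne_eq, map_eq_zero, sub_eq_zero]; exact hne
  have hval : v.adicValuation (algebraMap K F (c - d)) = 1 :=
    H52.val_algebraMap v (sub_ne_zero.mpr hne)
  have h1 : v.adicValuation (z - algebraMap K F c) < 1 :=
    (H76.val_lt_one_iff v).mpr (Or.inr hc)
  have h2 : v.adicValuation (z - algebraMap K F d) < 1 :=
    (H76.val_lt_one_iff v).mpr (Or.inr hd)
  have h3 : algebraMap K F (c - d) = (z - algebraMap K F d) - (z - algebraMap K F c) := by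
    rw [map_sub]; ring
  have h4 : v.adicValuation (algebraMap K F (c - d)) < 1 := by
    rw [h3]
    exact lt_of_le_of_lt (Valuation.map_sub _ _ _) (max_lt h2 h1)
  rw [hval] at h4
  exact lt_irrefl _ h4

/-- a function field over an algebraically closed field has infinitely many places. -/
theorem infinite_places : (Set.univ : Set (Place K F)).Infinite := by
  have : Infinite K := IsAlgClosed.instInfinite
  choose p hp using fun c : K => exists_place_ord_sub_pos t ht ht c
  have hinj : Function.Injective p := fun c d hcd =>
    eq_of_ord_sub_pos (p c) (hp c) (hcd ▸ hp d)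
  rw [Set.infinite_univ_iff]
  exact Infinite.of_injective p hinj

theorem infinite_place : Infinite (Place K F) :=
  Set.infinite_univ_iff.mp (infinite_places t ht)

end FunField

end Fermat.Agent.S18.H79
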