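import Mathlib
import Fermat.Prelude.Def_ModularCurve_ReductionModL
import Fermat.Prelude.Def_EllipticCurve_FrobeniusTrace
import Fermat.Agent.S18.H16_FbarBasics
import Fermat.Agent.S18.H11_IfaceMain
import Fermat.Agent.RR.H43_FFBase
import Fermat.Agent.RR.H52_FFInst
import Fermat.Agent.S18.H79_AlgClosedPlaces

/-!
S18 / (B5)+(B8) instantiation on the SPECIAL FIBRE (helper16): everything the final assembly needs
about `k := ResidueField A` and `Fk := modularFunctionFieldFullC k N`, for
`A : ValuationSubring Qbar` over `ℓ ∤ N`, in one place and hypothesis-free.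

* `charP_k`, `isAlgClosed_k`
* `jk`, `transcendental_jk`, `finiteDimensional_Fk` (also as a local instance via `haveI`),
  `finrank_Fk`, `isSeparable_Fk`
* `ffBase_Fk : H76.FFBase k Fk`, `hasPrincipalDivisors_Fk`
* `deg_eq_one_Fk`, `infinite_places_Fk`, `ell_zero_Fk`, `exists_value_ne_zero_Fk`
* `constK : ∀ c : Fk, c ≠ 0 → (∀ Q, Q.ord c = 0) → ∃ a : k, c = algebraMap k Fk a`
  (= `hconst` of `H11.result_of_coreE` = `H16.ConstK`)
* `degree_pole_jk` : any divisor `B` with `B v = max (-ord_v jk) 0` has degree `ψ(N)`
-/

set_option autoImplicit false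
set_option linter.unusedSectionVars false
set_option linter.style.haveILetI false
set_option synthInstance.maxHeartbeats 400000

noncomputable section

namespace Fermat.Agent.S18.H16

open ModularCurve AlgebraicCurve HahnSeries IntermediateField Fermat.Agent.RR

section FkInst

variable (N : ℕ) [NeZero N] {ℓ : ℕ} [hℓ : Fact ℓ.Prime] (hℓN : ¬ ℓ ∣ N)
  (A : ValuationSubring (AlgebraicClosure ℚ)) (hA : A.LiesOverPrime ℓ)

include hA in
theorem charP_k : CharP (IsLocalRing.ResidueField A) ℓ := by
  rw [CharP.charP_iff_prime_eq_zero hℓ.out]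
  have h1 : IsLocalRing.residue A ((ℓ : ℕ) : A) = 0 := by
    rw [IsLocalRing.residue_eq_zero_iff, ← ValuationSubring.coe_mem_nonunits_iff]
    have : (((ℓ : ℕ) : A) : AlgebraicClosure ℚ) = (ℓ : AlgebraicClosure ℚ) := by
      push_cast; rfl
    rw [this]
    exact hA
  rwa [map_natCast] at h1

theorem isAlgClosed_k : IsAlgClosed (IsLocalRing.ResidueField A) :=
  H11.isAlgClosed_residueField A

/-- `j mod ℓ` as an element of the function field of the special fibre. -/
abbrev jk : modularFunctionFieldFullC (IsLocalRing.ResidueField A) N :=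
  jK (IsLocalRing.ResidueField A) N

theorem transcendental_jk : Transcendental (IsLocalRing.ResidueField A) (jk N A) :=
  transcendental_jK _ N

include hℓN hA in
theorem finiteDimensional_Fk :
    FiniteDimensional (IsLocalRing.ResidueField A)⟮jk N A⟯
      (modularFunctionFieldFullC (IsLocalRing.ResidueField A) N) := by
  haveI := charP_k A hA
  exact finiteDimensional_fullC N ℓ hℓN _

include hℓN hA in
theorem finrank_Fk :
    Module.finrank (IsLocalRing.ResidueField A)⟮jk N A⟯
      (modularFunctionFieldFullC (IsLocalRing.ResidueField A) N) = dedekindPsi N := by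
  haveI := charP_k A hA
  exact finrank_fullC N ℓ hℓN _

include hℓN hA in
theorem isSeparable_Fk :
    Algebra.IsSeparable (IsLocalRing.ResidueField A)⟮jk N A⟯
      (modularFunctionFieldFullC (IsLocalRing.ResidueField A) N) := by
  haveI := charP_k A hA
  exact isSeparable_fullC N ℓ hℓN _

include hℓN hA in
theorem ffBase_Fk :
    H76.FFBase (IsLocalRing.ResidueField A)
      (modularFunctionFieldFullC (IsLocalRing.ResidueField A) N) := by
  haveI := finiteDimensional_Fk N hℓN A hA
  exact H43.ffBase (jk N A) (transcendental_jk N A)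

include hℓN hA in
theorem hasPrincipalDivisors_Fk :
    HasPrincipalDivisors (IsLocalRing.ResidueField A)
      (modularFunctionFieldFullC (IsLocalRing.ResidueField A) N) := by
  haveI := finiteDimensional_Fk N hℓN A hA
  exact H43.hasPrincipalDivisors (jk N A) (transcendental_jk N A)

include hℓN hA in
theorem deg_eq_one_Fk
    (v : Place (IsLocalRing.ResidueField A)
      (modularFunctionFieldFullC (IsLocalRing.ResidueField A) N)) : v.deg = 1 := by
  haveI := finiteDimensional_Fk N hℓN A hA
  haveI := isAlgClosed_k A
  exact H79.deg_eq_one (jk N A) (transcendental_jk N A) v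

include hℓN hA in
theorem infinite_places_Fk :
    (Set.univ : Set (Place (IsLocalRing.ResidueField A)
      (modularFunctionFieldFullC (IsLocalRing.ResidueField A) N))).Infinite := by
  haveI := finiteDimensional_Fk N hℓN A hA
  haveI := isAlgClosed_k A
  exact H79.infinite_places (jk N A) (transcendental_jk N A)

include hℓN hA in
theorem ell_zero_Fk :
    H76.ell (0 : Divisor (IsLocalRing.ResidueField A)
      (modularFunctionFieldFullC (IsLocalRing.ResidueField A) N)) = 1 := by
  haveI := finiteDimensional_Fk N hℓN A hA
  haveI := isAlgClosed_k A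
  exact H52.ell_zero_eq_one (jk N A) (transcendental_jk N A)

include hℓN hA in
theorem exists_value_ne_zero_Fk
    (v : Place (IsLocalRing.ResidueField A)
      (modularFunctionFieldFullC (IsLocalRing.ResidueField A) N))
    {f : modularFunctionFieldFullC (IsLocalRing.ResidueField A) N} (hf0 : f ≠ 0)
    (hf : v.ord f = 0) :
    ∃ c : IsLocalRing.ResidueField A, c ≠ 0 ∧
      (f = algebraMap _ _ c ∨ 0 < v.ord (f - algebraMap _ _ c)) := by
  haveI := finiteDimensional_Fk N hℓN A hA
  haveI := isAlgClosed_k A
  exact H79.exists_value_ne_zero (jk N A) (transcendental_jk N A) v hf0 hf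

include hℓN hA in
/-- On the special fibre a function without zeros and poles is a constant
(`hconst` of `H11.result_of_coreE`). -/
theorem constK (c : modularFunctionFieldFullC (IsLocalRing.ResidueField A) N) (_hc : c ≠ 0)
    (h : ∀ Q : Place (IsLocalRing.ResidueField A)
      (modularFunctionFieldFullC (IsLocalRing.ResidueField A) N), Q.ord c = 0) :
    ∃ a : IsLocalRing.ResidueField A,
      c = algebraMap (IsLocalRing.ResidueField A)
        (modularFunctionFieldFullC (IsLocalRing.ResidueField A) N) a := by
  haveI := finiteDimensional_Fk N hℓN A hA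
  haveI := isAlgClosed_k A
  exact H52.exists_eq_algebraMap_of_forall_ord_eq_zero (jk N A) (transcendental_jk N A) h

include hℓN hA in
/-- The pole divisor of `j mod ℓ` has degree `ψ(N)`. -/
theorem degree_pole_jk
    (B : Divisor (IsLocalRing.ResidueField A)
      (modularFunctionFieldFullC (IsLocalRing.ResidueField A) N))
    (hB : ∀ v, B v = max (-v.ord (jk N A)) 0) :
    Divisor.degree B = (dedekindPsi N : ℤ) := by
  haveI := finiteDimensional_Fk N hℓN A hA
  rw [H43.degree_eq_finrank_of_forall_eq_pole (jk N A) (transcendental_jk N A)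
    (transcendental_jk N A) B hB, finrank_Fk N hℓN A hA]

end FkInst

end Fermat.Agent.S18.H16
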