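import Mathlib
import Fermat.Agent.S18.H13_InstCuspFull
import Fermat.Agent.S18.H69_HorInstL1
import Fermat.Agent.S18.H16_FKGen
import Fermat.Agent.S18.H16_FkInst
import Fermat.Agent.S18.H16_VertSep
import Fermat.Agent.S18.H45_A0Instances

/-!
# S18 / INST-CUSP (helper13): the cusp chart at the concrete model

`A₁ := H45.A0 A ℓ`, `ϖ := ℓ`, `L₁ := H45.unrCyclo ℓ`, `F₁ := modularFunctionFieldFullC L₁ N`,
`j₁ := H16.jK L₁ N`, `u := j₁⁻¹`, `θ := H16.jNK L₁ N`, `k := ResidueField A`.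

`isIntegrallyClosed_cuspChart_A0` : the special fibre of the integral closure of the local ring
`A₁[1/j₁]_(ℓ, 1/j₁)` in `F₁` is integrally closed, provided `ℓ` is prime there (`hprime`).
All other inputs of `H13.isIntegrallyClosed_cuspChart_of_hunr` are discharged:
(VERT) from the modular polynomial (`H16.exists_modPoly_gen`, `H16.separable_redModPoly`),
(HOR) from helper69's `H69.hunr_cusp`.
-/

set_option autoImplicit false
set_option linter.unusedSectionVars false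
set_option linter.style.haveILetI false
set_option synthInstance.maxHeartbeats 400000
set_option maxHeartbeats 1600000

open Polynomial IntermediateField AlgebraicCurve ModularCurve

namespace Fermat.Agent.S18.H13

open Fermat.Agent.S18

noncomputable section

section A0

variable (N : ℕ) [NeZero N] {ℓ : ℕ} [hℓ : Fact ℓ.Prime] (hℓN : ¬ ℓ ∣ N)
  (A : ValuationSubring (AlgebraicClosure ℚ)) (hA : A.LiesOverPrime ℓ)

local notation "kA" => IsLocalRing.ResidueField A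
local notation "A₁" => H45.A0 A ℓ
local notation "L₁" => H45.unrCyclo ℓ
local notation "F₁" => modularFunctionFieldFullC (H45.unrCyclo ℓ) N
local notation "j₁" => H16.jK (H45.unrCyclo ℓ) N

include hA in
/-- `ℓ` is a prime element of `A₁`, as a `Fact`. -/
theorem fact_prime_natCast_A0 : Fact (Prime ((ℓ : ℕ) : A₁)) :=
  ⟨H45.prime_natCast_A0 hℓ.out hA⟩

theorem jK_unrCyclo_ne_zero : (j₁ : F₁) ≠ 0 := fun h =>
  (H16.transcendental_jK (H45.unrCyclo ℓ) N) (h ▸ isAlgebraic_zero)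

/-- `1/j₁` is transcendental over `A₁`, as a `Fact`. -/
theorem fact_transcendental_inv_jK : Fact (Transcendental A₁ (j₁ : F₁)⁻¹) := by
  refine ⟨fun h => ?_⟩
  have h1 : IsAlgebraic L₁ (j₁ : F₁)⁻¹ := (IsFractionRing.isAlgebraic_iff A₁ L₁ F₁).mp h
  have h2 : IsAlgebraic L₁ (j₁ : F₁) := by
    have := h1.inv
    rwa [inv_inv] at this
  exact H16.transcendental_jK (H45.unrCyclo ℓ) N h2

/-- The root relation `Φ_N(j_N, j) = 0` in the `eval₂RingHom` form of `H42.hV_cuspChart`. -/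
theorem eval₂_modPoly_jNK (D : ModularPolynomialData N) :
    eval₂ (eval₂RingHom (Int.castRingHom F₁) (j₁ : F₁)) (H16.jNK (H45.unrCyclo ℓ) N) D.Φ = 0 := by
  have h := H16.eval_modPolyAt_jK N D (H45.unrCyclo ℓ)
  rw [H16.eval_modPolyAt] at h
  have hh : H16.specY (j₁ : F₁) = eval₂RingHom (Int.castRingHom F₁) (j₁ : F₁) :=
    S28.H50.ringHom_X_ext _ _ (by simp)
  rw [hh] at h
  exact h

include hℓN hA in
/-- **The cusp chart at the concrete model**: only `hprime` is left. -/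
theorem isIntegrallyClosed_cuspChart_A0
    [Fact (Prime ((ℓ : ℕ) : A₁))] [Fact (Transcendental A₁ (j₁ : F₁)⁻¹)]
    (hprime : (Ideal.span {algebraMap (CuspY ((ℓ : ℕ) : A₁) (j₁ : F₁)⁻¹)
      (integralClosure (CuspY ((ℓ : ℕ) : A₁) (j₁ : F₁)⁻¹) F₁)
      (algebraMap A₁ (CuspY ((ℓ : ℕ) : A₁) (j₁ : F₁)⁻¹) ((ℓ : ℕ) : A₁))}).IsPrime) :
    IsIntegrallyClosed (integralClosure (CuspY ((ℓ : ℕ) : A₁) (j₁ : F₁)⁻¹) F₁ ⧸
      Ideal.span {algebraMap (CuspY ((ℓ : ℕ) : A₁) (j₁ : F₁)⁻¹)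
        (integralClosure (CuspY ((ℓ : ℕ) : A₁) (j₁ : F₁)⁻¹) F₁)
        (algebraMap A₁ (CuspY ((ℓ : ℕ) : A₁) (j₁ : F₁)⁻¹) ((ℓ : ℕ) : A₁))}) := by
  classical
  haveI := H45.isDiscreteValuationRing_A0 hℓ.out hA
  haveI := H16.charP_k A hA
  obtain ⟨D, hD, -⟩ := H16.exists_modPoly_gen N
  obtain ⟨ζ, hζ⟩ := H45.exists_isPrimitiveRoot_A0 (ℓ := ℓ) A (NeZero.ne N) hℓN
  have hNL : ((N : ℕ) : L₁) ≠ 0 := Nat.cast_ne_zero.mpr (NeZero.ne N)
  exact isIntegrallyClosed_cuspChart_of_hunr ((ℓ : ℕ) : A₁) L₁ (j₁ : F₁)⁻¹ N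
    (mul_inv_cancel₀ (jK_unrCyclo_ne_zero N))
    (H16.adjoin_jNK_eq_top_gen N L₁ hNL) (H16.isIntegral_jNK_gen N L₁ hNL).isAlgebraic hζ
    (H45.resA0 A ℓ) (H45.resA0_surjective hℓ.out hA) (H45.ker_resA0_eq_span hℓ.out hA)
    D.monic (H16.separable_redModPoly ℓ hℓN D hD) (eval₂_modPoly_jNK N D)
    (H69.hunr_cusp N ℓ) hprime

end A0

end

end Fermat.Agent.S18.H13
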