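/-
S18 project, route Q, package GLUE-INF (helper67): **local cusp chart ⇒ global `hGRinf`**.

`H33.exists_forall_finrank_riemannRochSpace_le` consumes the lifting statement `hGRinf` for the
GLOBAL chart `B_oo` = integral closure of `R[x1⁻¹]` in `F1`.  The cusp instance of the quotient step
is LOCAL (base ring `R[τ]` localised at `(ϖ, τ)`): it controls the special fibre only in a
neighbourhood of `x1⁻¹ = 0`.  Away from `x1⁻¹ = 0` the chart `B_oo` agrees with the finite chart `B`.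
This file glues the two at the level of liftings (no quotient rings, no localisations):

* `lift_inf_of_local` : `hGRfin` + the local cusp lifting `hloc` ⟹ `hGRinf`;
* `lift_inf_of_local'` : the same in the exact vocabulary of `H33_CechModel` (`ι`, `O`, `res`, `O1`).
-/
import Mathlib
import Fermat.Agent.S18.H40_CechFG

set_option autoImplicit false

namespace Fermat.Agent.S18.H67

open Polynomial

section GlueInf

variable {R F1 k Fk : Type*} [CommRing R] [Field F1] [Algebra R F1] [Field k] [Field Fk]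
  [Algebra k Fk]

/-- A polynomial over a field with nonzero constant term is coprime to every power of `X`. -/
theorem isCoprime_X_pow_of_coeff_zero_ne_zero {t : k[X]} (ht : t.coeff 0 ≠ 0) (n : ℕ) :
    IsCoprime t (X ^ n) := by
  apply IsCoprime.pow_right
  have h : ¬ (X : k[X]) ∣ t := by
    rw [X_dvd_iff]
    exact ht
  exact ((irreducible_X (R := k)).coprime_iff_not_dvd.2 h).symm

/-- **(GLUE-INF)**: the global lifting statement for the chart at infinity from the lifting statement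
of the finite chart and a *local* lifting statement at `x1⁻¹ = 0`. -/
theorem lift_inf_of_local
    (π : R →+* k) (hπ : Function.Surjective π) {x1 : F1} (hx1 : x1 ≠ 0)
    (O1 : Subring F1) (red : O1 →+* Fk)
    (hcompat : ∀ (r : R) (h : algebraMap R F1 r ∈ O1),
      red ⟨algebraMap R F1 r, h⟩ = algebraMap k Fk (π r))
    (hBO : ∀ b : F1, IsIntegral (Algebra.adjoin R {x1}) b → b ∈ O1)
    (hBinfO : ∀ b : F1, IsIntegral (Algebra.adjoin R {x1⁻¹}) b → b ∈ O1)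
    {xb : Fk} (hresx : ∀ h : x1 ∈ O1, red ⟨x1, h⟩ = xb)
    (hGRfin : ∀ γ : Fk, IsIntegral (Algebra.adjoin k {xb}) γ →
      ∃ (b : F1) (hb : IsIntegral (Algebra.adjoin R {x1}) b), red ⟨b, hBO b hb⟩ = γ)
    (hloc : ∀ γ : Fk, IsIntegral (Algebra.adjoin k {xb⁻¹}) γ →
      ∃ (tb : k[X]) (b : F1) (hb : IsIntegral (Algebra.adjoin R {x1⁻¹}) b),
        tb.coeff 0 ≠ 0 ∧ red ⟨b, hBinfO b hb⟩ = aeval xb⁻¹ tb * γ) :
    ∀ γ : Fk, IsIntegral (Algebra.adjoin k {xb⁻¹}) γ →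
      ∃ (b : F1) (hb : IsIntegral (Algebra.adjoin R {x1⁻¹}) b), red ⟨b, hBinfO b hb⟩ = γ := by
  classical
  intro γ hγ
  have hRO : ∀ r : R, algebraMap R F1 r ∈ O1 := fun r =>
    hBO _ (H40.mem_chartB.1 (Subalgebra.algebraMap_mem (H40.chartB R x1) r))
  have hx1O : x1 ∈ O1 := hBO x1 (H40.mem_chartB.1 (H40.self_mem_chartB (R := R) x1))
  have hu1O : x1⁻¹ ∈ O1 :=
    hBinfO x1⁻¹ (H40.mem_chartB.1 (H40.self_mem_chartB (R := R) x1⁻¹))
  set X1 : O1 := ⟨x1, hx1O⟩ with hX1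
  set U1 : O1 := ⟨x1⁻¹, hu1O⟩ with hU1
  have hXU : X1 * U1 = 1 := Subtype.ext (mul_inv_cancel₀ hx1)
  have hredX : red X1 = xb := hresx hx1O
  have hredXU : xb * red U1 = 1 := by rw [← hredX, ← map_mul, hXU, map_one]
  have hxb : xb ≠ 0 := left_ne_zero_of_mul_eq_one hredXU
  have hredU : red U1 = xb⁻¹ := eq_inv_of_mul_eq_one_right hredXU
  -- the structure map `R → O1` and evaluation of polynomials at `x1⁻¹` inside `O1`
  let ρ : R →+* O1 := (algebraMap R F1).codRestrict O1 hRO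
  have hρ : ∀ r, red (ρ r) = algebraMap k Fk (π r) := fun r => hcompat r (hRO r)
  have hφcoe : ∀ a : R[X], ((eval₂ ρ U1 a : O1) : F1) = aeval x1⁻¹ a := by
    intro a
    have h := Polynomial.hom_eval₂ a ρ O1.subtype U1
    rw [aeval_def]
    exact h
  have hφred : ∀ a : R[X], red (eval₂ ρ U1 a) = aeval xb⁻¹ (a.map π) := by
    intro a
    rw [Polynomial.hom_eval₂ a ρ red U1, hredU, aeval_def, eval₂_map]
    congr 1
    ext r
    exact hρ r
  -- Step 1: `xb ^ m₀ * γ` is integral over `k[xb]`, lift it to `b₁ ∈ B`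
  obtain ⟨m₀, hm₀⟩ := H40.exists_pow_mul_isIntegral' (R := k) xb hxb hγ
  obtain ⟨b₁, hb₁, hredb₁⟩ := hGRfin _ (hm₀ m₀ le_rfl)
  -- Step 2: `x1⁻¹ ^ m₁ * b₁ ∈ B_oo`
  obtain ⟨m, hm⟩ := H40.exists_pow_mul_isIntegral (R := R) x1 hx1 hb₁
  obtain ⟨n, hn⟩ : ∃ n, max m m₀ = m₀ + n := Nat.exists_eq_add_of_le (le_max_right m m₀)
  have hb₃ : IsIntegral (Algebra.adjoin R {x1⁻¹}) (x1⁻¹ ^ (m₀ + n) * b₁) :=
    hm _ (hn ▸ le_max_left m m₀)
  have hredb₃ : red ⟨x1⁻¹ ^ (m₀ + n) * b₁, hBinfO _ hb₃⟩ = xb⁻¹ ^ n * γ := by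
    have e : (⟨x1⁻¹ ^ (m₀ + n) * b₁, hBinfO _ hb₃⟩ : O1) = U1 ^ (m₀ + n) * ⟨b₁, hBO b₁ hb₁⟩ :=
      Subtype.ext rfl
    rw [e, map_mul, map_pow, hredU, hredb₁, pow_add, inv_pow, inv_pow]
    field_simp
  -- Step 3: the local lift
  obtain ⟨tb, b₂, hb₂, ht0, hredb₂⟩ := hloc γ hγ
  -- Step 4: Bezout in `k[X]`, lifted to `R[X]`
  have hcop : IsCoprime tb (X ^ n) := isCoprime_X_pow_of_coeff_zero_ne_zero ht0 n
  obtain ⟨abar, cbar, hbez⟩ := hcop
  obtain ⟨a, rfl⟩ := Polynomial.map_surjective π hπ abar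
  obtain ⟨c, rfl⟩ := Polynomial.map_surjective π hπ cbar
  -- Step 5: the glued element
  set Bel : O1 := eval₂ ρ U1 a * ⟨b₂, hBinfO b₂ hb₂⟩ +
    eval₂ ρ U1 c * ⟨x1⁻¹ ^ (m₀ + n) * b₁, hBinfO _ hb₃⟩ with hBel
  have hBelcoe : (Bel : F1) = aeval x1⁻¹ a * b₂ + aeval x1⁻¹ c * (x1⁻¹ ^ (m₀ + n) * b₁) := by
    rw [hBel, Subring.coe_add, Subring.coe_mul, Subring.coe_mul, hφcoe, hφcoe]
  have hBelint : IsIntegral (Algebra.adjoin R {x1⁻¹}) (Bel : F1) := by
    rw [hBelcoe, ← H40.mem_chartB]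
    have hmem : ∀ p : R[X], aeval x1⁻¹ p ∈ H40.chartB R x1⁻¹ := fun p =>
      H40.adjoin_le_chartB x1⁻¹ (by
        rw [Algebra.adjoin_singleton_eq_range_aeval]
        exact ⟨p, rfl⟩)
    exact Subalgebra.add_mem _
      (Subalgebra.mul_mem _ (hmem a) (H40.mem_chartB.2 hb₂))
      (Subalgebra.mul_mem _ (hmem c) (H40.mem_chartB.2 hb₃))
  refine ⟨(Bel : F1), hBelint, ?_⟩
  have e : (⟨(Bel : F1), hBinfO _ hBelint⟩ : O1) = Bel := Subtype.ext rfl
  rw [e, hBel, map_add, map_mul, map_mul, hφred, hφred, hredb₂, hredb₃]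
  have h2 : aeval xb⁻¹ (a.map π * tb + c.map π * X ^ n) = 1 := by
    rw [hbez, map_one]
  rw [map_add, map_mul, map_mul, map_pow, aeval_X] at h2
  calc aeval xb⁻¹ (a.map π) * (aeval xb⁻¹ tb * γ) +
        aeval xb⁻¹ (c.map π) * (xb⁻¹ ^ n * γ)
      = (aeval xb⁻¹ (a.map π) * aeval xb⁻¹ tb +
          aeval xb⁻¹ (c.map π) * xb⁻¹ ^ n) * γ := by ring
    _ = γ := by rw [h2, one_mul]

/-- Integrality over `R[X]` through `aeval u` is integrality over the subalgebra `R[u]`. -/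
theorem isIntegral_adjoin_of_isIntegralElem_aeval (u y : F1)
    (h : ((aeval u : R[X] →ₐ[R] F1) : R[X] →+* F1).IsIntegralElem y) :
    IsIntegral (Algebra.adjoin R {u}) y := by
  obtain ⟨p, hpm, hp⟩ := h
  let ψ : R[X] →ₐ[R] Algebra.adjoin R {u} :=
    (aeval u : R[X] →ₐ[R] F1).codRestrict (Algebra.adjoin R {u}) (fun q => by
      rw [Algebra.adjoin_singleton_eq_range_aeval]
      exact ⟨q, rfl⟩)
  refine ⟨p.map (ψ : R[X] →+* Algebra.adjoin R {u}), hpm.map _, ?_⟩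
  rw [eval₂_map]
  have e : (algebraMap (Algebra.adjoin R {u}) F1).comp (ψ : R[X] →+* Algebra.adjoin R {u})
      = ((aeval u : R[X] →ₐ[R] F1) : R[X] →+* F1) := by
    ext q <;> rfl
  rw [e]
  exact hp

/-- **Denominators**: an element of `F1` integral over a localisation `Rloc = M⁻¹ R[X]` (mapping to
`F1` by `X ↦ u`) becomes integral over `R[u]` after multiplication by some `t(u)`, `t ∈ M`. -/
theorem exists_aeval_mul_isIntegral_of_isLocalization {Rloc : Type*} [CommRing Rloc]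
    [Algebra R[X] Rloc] (M : Submonoid R[X]) [IsLocalization M Rloc] (u : F1)
    (g : Rloc →+* F1) (hg : ∀ p : R[X], g (algebraMap R[X] Rloc p) = aeval u p) (s : F1)
    (hs : g.IsIntegralElem s) :
    ∃ t ∈ M, IsIntegral (Algebra.adjoin R {u}) (aeval u t * s) := by
  let : Algebra R[X] F1 := ((aeval u : R[X] →ₐ[R] F1) : R[X] →+* F1).toAlgebra
  let : Algebra Rloc F1 := g.toAlgebra
  have : IsScalarTower R[X] Rloc F1 := IsScalarTower.of_algebraMap_eq (fun p => (hg p).symm)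
  obtain ⟨m, hm⟩ := IsIntegral.exists_multiple_integral_of_isLocalization M s hs
  refine ⟨m, m.2, isIntegral_adjoin_of_isIntegralElem_aeval u _ ?_⟩
  have e : aeval u (m : R[X]) * s = m • s := by
    rw [Submonoid.smul_def, Algebra.smul_def]
    rfl
  rw [e]
  exact hm

/-- **The local hypothesis `hloc` of `lift_inf_of_local`** from a set `S ⊆ O1` (the local chart
ring at the cusps) whose elements lift every `γ` integral over `k[xb⁻¹]` and which is contained in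
the localisation of the chart at infinity at polynomials in `x1⁻¹` with unit constant term mod `π`. -/
theorem hloc_of_cover (π : R →+* k) {x1 : F1}
    (O1 : Subring F1) (red : O1 →+* Fk)
    (hcompat : ∀ (r : R) (h : algebraMap R F1 r ∈ O1),
      red ⟨algebraMap R F1 r, h⟩ = algebraMap k Fk (π r))
    (hBinfO : ∀ b : F1, IsIntegral (Algebra.adjoin R {x1⁻¹}) b → b ∈ O1)
    {xb : Fk} (hresu : ∀ h : x1⁻¹ ∈ O1, red ⟨x1⁻¹, h⟩ = xb⁻¹)
    (S : Set F1) (hSO : ∀ s ∈ S, s ∈ O1)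
    (hlift : ∀ γ : Fk, IsIntegral (Algebra.adjoin k {xb⁻¹}) γ →
      ∃ (s : F1) (hs : s ∈ S), red ⟨s, hSO s hs⟩ = γ)
    (hden : ∀ s ∈ S, ∃ t : R[X], π (t.coeff 0) ≠ 0 ∧
      IsIntegral (Algebra.adjoin R {x1⁻¹}) (aeval x1⁻¹ t * s)) :
    ∀ γ : Fk, IsIntegral (Algebra.adjoin k {xb⁻¹}) γ →
      ∃ (tb : k[X]) (b : F1) (hb : IsIntegral (Algebra.adjoin R {x1⁻¹}) b),
        tb.coeff 0 ≠ 0 ∧ red ⟨b, hBinfO b hb⟩ = aeval xb⁻¹ tb * γ := by
  classical
  intro γ hγ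
  obtain ⟨s, hs, hreds⟩ := hlift γ hγ
  obtain ⟨t, ht0, htint⟩ := hden s hs
  have hRO : ∀ r : R, algebraMap R F1 r ∈ O1 := fun r =>
    hBinfO _ (H40.mem_chartB.1 (Subalgebra.algebraMap_mem (H40.chartB R x1⁻¹) r))
  have hu1O : x1⁻¹ ∈ O1 :=
    hBinfO x1⁻¹ (H40.mem_chartB.1 (H40.self_mem_chartB (R := R) x1⁻¹))
  let ρ : R →+* O1 := (algebraMap R F1).codRestrict O1 hRO
  set U1 : O1 := ⟨x1⁻¹, hu1O⟩ with hU1
  have hφcoe : ((eval₂ ρ U1 t : O1) : F1) = aeval x1⁻¹ t := by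
    have h := Polynomial.hom_eval₂ t ρ O1.subtype U1
    rw [aeval_def]
    exact h
  have hφred : red (eval₂ ρ U1 t) = aeval xb⁻¹ (t.map π) := by
    rw [Polynomial.hom_eval₂ t ρ red U1, hresu hu1O, aeval_def, eval₂_map]
    congr 1
    ext r
    exact hcompat r (hRO r)
  refine ⟨t.map π, aeval x1⁻¹ t * s, htint, by rwa [coeff_map], ?_⟩
  have e : (⟨aeval x1⁻¹ t * s, hBinfO _ htint⟩ : O1) = eval₂ ρ U1 t * ⟨s, hSO s hs⟩ :=
    Subtype.ext (by rw [Subring.coe_mul, hφcoe])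
  rw [e, map_mul, hφred, hreds]

end GlueInf

section CechModelShape

variable {K F k Fk : Type*} [Field K] [Field F] [Algebra K F] [Field k] [Field Fk] [Algebra k Fk]

/-- **(GLUE-INF) in the vocabulary of `H33.exists_forall_finrank_riemannRochSpace_le`**: its
hypothesis `hGRinf` from its hypothesis `hGRfin` and the local lifting statement at the cusps. -/
theorem lift_inf_of_local' (A : ValuationSubring K) (π : A →+* k) (O : Subring F)
    (hAO : ∀ a : A, algebraMap K F (a : K) ∈ O) (res : O →+* Fk)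
    (hcompat : ∀ a : A, res ⟨algebraMap K F (a : K), hAO a⟩ = algebraMap k Fk (π a))
    {R F1 : Type*} [CommRing R] [Field F1] [Algebra R F1] [Algebra R K] (ι : F1 →+* F)
    (hRK : ∀ r : R, ι (algebraMap R F1 r) = algebraMap K F (algebraMap R K r))
    (hRA : ∀ r : R, algebraMap R K r ∈ A)
    (hπ : ∀ c : k, ∃ r : R, π ⟨algebraMap R K r, hRA r⟩ = c)
    {x1 : F1} (hx1 : x1 ≠ 0)
    (O1 : Subring F1) (hO1 : ∀ y ∈ O1, ι y ∈ O)
    (hBO : ∀ b : F1, IsIntegral (Algebra.adjoin R {x1}) b → b ∈ O1)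
    (hBinfO : ∀ b : F1, IsIntegral (Algebra.adjoin R {x1⁻¹}) b → b ∈ O1)
    {xb : Fk} (hresx : ∀ h : ι x1 ∈ O, res ⟨ι x1, h⟩ = xb)
    (hGRfin : ∀ γ : Fk, IsIntegral (Algebra.adjoin k {xb}) γ →
      ∃ (b : F1) (hb : IsIntegral (Algebra.adjoin R {x1}) b),
        res ⟨ι b, hO1 b (hBO b hb)⟩ = γ)
    (hloc : ∀ γ : Fk, IsIntegral (Algebra.adjoin k {xb⁻¹}) γ →
      ∃ (tb : k[X]) (b : F1) (hb : IsIntegral (Algebra.adjoin R {x1⁻¹}) b),
        tb.coeff 0 ≠ 0 ∧ res ⟨ι b, hO1 b (hBinfO b hb)⟩ = aeval xb⁻¹ tb * γ) :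
    ∀ γ : Fk, IsIntegral (Algebra.adjoin k {xb⁻¹}) γ →
      ∃ (b : F1) (hb : IsIntegral (Algebra.adjoin R {x1⁻¹}) b),
        res ⟨ι b, hO1 b (hBinfO b hb)⟩ = γ := by
  classical
  let πR : R →+* k := π.comp ((algebraMap R K).codRestrict A.toSubring hRA)
  have hπR : Function.Surjective πR := fun c => by
    obtain ⟨r, hr⟩ := hπ c
    exact ⟨r, hr⟩
  let red : O1 →+* Fk := res.comp ((ι.comp O1.subtype).codRestrict O (fun y => hO1 y y.2))
  have hred : ∀ (b : F1) (h : b ∈ O1), red ⟨b, h⟩ = res ⟨ι b, hO1 b h⟩ := fun b h => rfl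
  have hcompat' : ∀ (r : R) (h : algebraMap R F1 r ∈ O1),
      red ⟨algebraMap R F1 r, h⟩ = algebraMap k Fk (πR r) := by
    intro r h
    rw [hred]
    have e : (⟨ι (algebraMap R F1 r), hO1 _ h⟩ : O) =
        ⟨algebraMap K F ((⟨algebraMap R K r, hRA r⟩ : A) : K), hAO _⟩ := Subtype.ext (hRK r)
    rw [e, hcompat]
    rfl
  have key := lift_inf_of_local πR hπR hx1 O1 red hcompat' hBO hBinfO
    (xb := xb) (fun h => by rw [hred]; exact hresx _)
    (fun γ hγ => by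
      obtain ⟨b, hb, h⟩ := hGRfin γ hγ
      exact ⟨b, hb, by rw [hred]; exact h⟩)
    (fun γ hγ => by
      obtain ⟨tb, b, hb, h0, h⟩ := hloc γ hγ
      exact ⟨tb, b, hb, h0, by rw [hred]; exact h⟩)
  intro γ hγ
  obtain ⟨b, hb, h⟩ := key γ hγ
  exact ⟨b, hb, by rw [← hred]; exact h⟩

end CechModelShape

end Fermat.Agent.S18.H67
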