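/-
S18 project, route Q, package CUSP-PKG (helper67), generic part: **the chart at the cusp inside
helper3's Gauss model**.

`M : H3.GaussModel ϖ π0 x1 θ xb θb` is the Gauss DVR `O1 ⊆ F1` built on the FINITE chart
(`x1 = j`, `θ = j_N`).  The chart ring at the cusp is `B_c = integralClosure R F1` for a ring `R`
receiving `R0[X]` by `X ↦ x1⁻¹` (`R0[x1⁻¹]`, or its localisation at `(ϖ, x1⁻¹)`).  This file proves,
from the model alone plus integrality of `x1⁻¹ ^ e * θ` over `R`: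

* `inv_pow_mul_aeval`, `exists_isIntegral_inv_pow_mul_eval2` : `x1⁻¹ ^ m * g(x1, θ)` is integral
  over `R` for `m` large;
* `isIntegral_of_mem_of_isIntegral_mul_inv` : **saturation** of `B_c` in `O1`
  (`y ∈ O1`, `ϖ y ∈ B_c ⟹ y ∈ B_c`), by helper1's two-element lemma with `f = x1⁻¹ ^ m * s(x1)`;
* `mem_O1_of_isIntegral_inv`, `algebraMap_mem_O1_of_isLocalization` : `B_c ⊆ O1`;
* `span_isPrime_inv` : `(ϖ)` is prime in `B_c` (`hprime` of `H96.isIntegrallyClosed_specialFibre`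
  / `H13.isIntegrallyClosed_cuspChart`);
* `exists_lift_inv` : (GR) at the cusp, from `IsIntegrallyClosed (B_c ⧸ (ϖ))`;
* `hloc_of_gaussModel` : the hypothesis `hloc` of `H67.lift_inf_of_local` in `M.res1` form.
-/
import Mathlib
import Fermat.Agent.S18.H3_ChartRing
import Fermat.Agent.S18.H67_GaussLift
import Fermat.Agent.S18.H67_GlueInf

set_option autoImplicit false
set_option linter.unusedSectionVars false

namespace Fermat.Agent.S18.H67

open Polynomial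

/-! ### 1. Reflection -/

section Reflect

variable {R0 F1 : Type*} [CommRing R0] [Field F1] [Algebra R0 F1]

/-- `x⁻¹ ^ m * p(x) = (reflect m p)(x⁻¹)` for `m ≥ deg p`. -/
theorem inv_pow_mul_aeval {x : F1} (hx : x ≠ 0) (p : R0[X]) {m : ℕ} (hm : p.natDegree ≤ m) :
    x⁻¹ ^ m * aeval x p = aeval x⁻¹ (reflect m p) := by
  let _ : Invertible x := invertibleOfNonzero hx
  have h := eval₂_reflect_mul_pow (algebraMap R0 F1) x m p hm
  rw [invOf_eq_inv] at h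
  rw [aeval_def, aeval_def, ← h, inv_pow]
  field_simp

/-- `ϖ ∤ s ⟹ ϖ ∤ reflect m s` (`m ≥ deg s`). -/
theorem not_C_dvd_reflect {ϖ : R0} {s : R0[X]} (hs : ¬ (C ϖ : R0[X]) ∣ s) {m : ℕ}
    (hm : s.natDegree ≤ m) : ¬ (C ϖ : R0[X]) ∣ reflect m s := by
  intro h
  apply hs
  rw [C_dvd_iff_dvd_coeff] at h ⊢
  intro i
  by_cases hi : i ≤ m
  · have := h (revAt m i)
    rwa [coeff_reflect, revAt_invol] at this
  · rw [coeff_eq_zero_of_natDegree_lt (lt_of_le_of_lt hm (not_le.mp hi))]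
    exact dvd_zero _

end Reflect

/-! ### 2. Saturation at the cusp -/

section Sat

variable {R0 k F1 Fk : Type*} [CommRing R0] [Field k] [Field F1] [Algebra R0 F1]
  [Field Fk] [Algebra k Fk] {ϖ : R0} {π0 : R0 →+* k} {x1 θ : F1} {xb θb : Fk}
  (M : H3.GaussModel ϖ π0 x1 θ xb θb)
variable {R : Type*} [CommRing R] [Algebra R F1] [Algebra R0[X] R]

/-- `x1⁻¹ ^ m * g(x1, θ)` is integral over `R` for `m` large. -/
theorem exists_isIntegral_inv_pow_mul_eval2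
    (hφ : ∀ p : R0[X], algebraMap R F1 (algebraMap R0[X] R p) = aeval x1⁻¹ p)
    (hx1 : x1 ≠ 0) (e : ℕ) (hθ' : IsIntegral R (x1⁻¹ ^ e * θ)) (g : R0[X][X]) :
    ∃ m0 : ℕ, ∀ m, m0 ≤ m → IsIntegral R (x1⁻¹ ^ m * H3.eval2 x1 θ g) := by
  classical
  set d := g.support.sup (fun i => (g.coeff i).natDegree) with hd
  have hdeg : ∀ i, (g.coeff i).natDegree ≤ d := by
    intro i
    by_cases hi : i ∈ g.support
    · exact Finset.le_sup (f := fun i => (g.coeff i).natDegree) hi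
    · rw [notMem_support_iff.mp hi, natDegree_zero]
      exact Nat.zero_le _
  refine ⟨d + e * g.natDegree, fun m hm => ?_⟩
  unfold H3.eval2
  rw [eval₂_eq_sum_range, Finset.mul_sum]
  refine IsIntegral.sum _ fun i hi => ?_
  have hin : i ≤ g.natDegree := Nat.lt_succ_iff.mp (Finset.mem_range.mp hi)
  have hei : e * i ≤ e * g.natDegree := Nat.mul_le_mul_left e hin
  have hmi : e * i ≤ m := by omega
  have hsplit : x1⁻¹ ^ m * (((aeval x1 : R0[X] →ₐ[R0] F1) : R0[X] →+* F1) (g.coeff i) * θ ^ i) =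
      (x1⁻¹ ^ (m - e * i) * aeval x1 (g.coeff i)) * (x1⁻¹ ^ e * θ) ^ i := by
    have : x1⁻¹ ^ m = x1⁻¹ ^ (m - e * i) * x1⁻¹ ^ (e * i) := by
      rw [← pow_add, Nat.sub_add_cancel hmi]
    rw [this, mul_pow, ← pow_mul]
    simp only [RingHom.coe_coe]
    ring
  rw [hsplit]
  refine IsIntegral.mul ?_ (hθ'.pow i)
  rw [inv_pow_mul_aeval hx1 (g.coeff i) (by have := hdeg i; omega), ← hφ]
  exact isIntegral_algebraMap

/-- **Saturation at the cusp**: `y ∈ O1` and `ϖ y` integral over `R` ⟹ `y` integral over `R`. -/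
theorem isIntegral_of_mem_of_isIntegral_mul_inv [IsDomain R] [IsIntegrallyClosed R]
    {K : Type*} [Field K] [Algebra R K] [IsFractionRing R K] [Algebra K F1] [IsScalarTower R K F1]
    [Algebra.IsAlgebraic K F1]
    (hφ : ∀ p : R0[X], algebraMap R F1 (algebraMap R0[X] R p) = aeval x1⁻¹ p)
    (hπϖ : π0 ϖ = 0) (hx1 : x1 ≠ 0)
    (hϖR : Prime (algebraMap R0[X] R (C ϖ)))
    (hdiv : ∀ p : R0[X], algebraMap R0[X] R (C ϖ) ∣ algebraMap R0[X] R p → (C ϖ : R0[X]) ∣ p)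
    (e : ℕ) (hθ' : IsIntegral R (x1⁻¹ ^ e * θ))
    {y : F1} (hy : y ∈ M.O1) (hϖy : IsIntegral R (algebraMap R0 F1 ϖ * y)) : IsIntegral R y := by
  obtain ⟨s, hs, g, hg⟩ := M.exists_repr y hy
  have hsC : ¬ (C ϖ : R0[X]) ∣ s := by
    rintro ⟨q, rfl⟩
    apply hs
    rw [Polynomial.map_mul, Polynomial.map_C, hπϖ, C_0, zero_mul]
  obtain ⟨m0, hm0⟩ := exists_isIntegral_inv_pow_mul_eval2 hφ hx1 e hθ' g
  set m := max m0 s.natDegree with hm
  have hf : ¬ algebraMap R0[X] R (C ϖ) ∣ algebraMap R0[X] R (reflect m s) := fun h =>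
    not_C_dvd_reflect hsC (le_max_right _ _) (hdiv _ h)
  have h1 : IsIntegral R (algebraMap R0[X] R (C ϖ) • y) := by
    rw [Algebra.smul_def, hφ, aeval_C]
    exact hϖy
  have h2 : IsIntegral R (algebraMap R0[X] R (reflect m s) • y) := by
    rw [Algebra.smul_def, hφ, ← inv_pow_mul_aeval hx1 s (le_max_right _ _), mul_assoc, hg]
    exact hm0 m (le_max_left _ _)
  exact H1.isIntegral_of_isIntegral_smul_smul (K := K) hϖR hf h1 h2

end Sat

/-! ### 3. The chart at the cusp -/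

section Chart

variable {R0 k F1 Fk : Type*} [CommRing R0] [Field k] [Field F1] [Algebra R0 F1]
  [Field Fk] [Algebra k Fk] {ϖ : R0} {π0 : R0 →+* k} {x1 θ : F1} {xb θb : Fk}
  (M : H3.GaussModel ϖ π0 x1 θ xb θb)
variable {R : Type*} [CommRing R] [Algebra R F1] [Algebra R0[X] R]

/-- integrality over a ring mapping into `O1` implies membership in `O1`. -/
theorem mem_O1_of_isIntegral_of_algebraMap_mem (hRO1 : ∀ r : R, algebraMap R F1 r ∈ M.O1)
    {b : F1} (hb : IsIntegral R b) : b ∈ M.O1 := by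
  apply M.mem_of_isIntegral
  obtain ⟨q, hqm, hq⟩ := hb
  let c : R →+* M.O1 := (algebraMap R F1).codRestrict M.O1 hRO1
  refine ⟨q.map c, hqm.map _, ?_⟩
  rw [eval₂_map]
  exact hq

/-- a localisation of `R0[X]` (`X ↦ x1⁻¹`) at polynomials that are nonzero mod `ϖ` maps into
`O1`. -/
theorem algebraMap_mem_O1_of_isLocalization
    (hφ : ∀ p : R0[X], algebraMap R F1 (algebraMap R0[X] R p) = aeval x1⁻¹ p)
    (Msub : Submonoid R0[X]) [IsLocalization Msub R]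
    (hxb : xb ≠ 0) (hub : Transcendental k xb⁻¹)
    (hMsub : ∀ t ∈ Msub, π0 (t.coeff 0) ≠ 0) (r : R) : algebraMap R F1 r ∈ M.O1 := by
  obtain ⟨p, t, rfl⟩ := IsLocalization.exists_mk'_eq Msub r
  have hu := M.x_inv_mem hxb
  obtain ⟨hpO, -⟩ := M.aeval_mem_of_mem hu p
  obtain ⟨htO, htres⟩ := M.aeval_mem_of_mem hu (t : R0[X])
  have htne : M.res1 ⟨aeval x1⁻¹ (t : R0[X]), htO⟩ ≠ 0 := by
    rw [htres, M.res1_x_inv hxb]
    intro h0
    have h1 := (transcendental_iff.mp hub) _ h0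
    apply hMsub t t.2
    have := congrArg (fun q => q.coeff 0) h1
    simpa [coeff_map] using this
  have htinv := M.inv_mem _ htO htne
  have hne : aeval x1⁻¹ (t : R0[X]) ≠ 0 := by
    intro h0
    apply htne
    have : (⟨aeval x1⁻¹ (t : R0[X]), htO⟩ : M.O1) = 0 := Subtype.ext h0
    rw [this, map_zero]
  have hmk : algebraMap R F1 (IsLocalization.mk' R p t) =
      aeval x1⁻¹ p * (aeval x1⁻¹ (t : R0[X]))⁻¹ := by
    rw [eq_mul_inv_iff_mul_eq₀ hne, ← hφ, ← hφ, ← map_mul, IsLocalization.mk'_spec]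
  rw [hmk]
  exact M.O1.mul_mem hpO htinv

/-- **`hprime` at the cusp**: `(ϖ)` is a prime ideal of `B_c = integralClosure R F1`. -/
theorem span_isPrime_inv (hRO : ∀ b : F1, IsIntegral R b → b ∈ M.O1)
    (hsat : ∀ y ∈ M.O1, IsIntegral R (algebraMap R0 F1 ϖ * y) → IsIntegral R y)
    (ϖR : R) (hϖR : algebraMap R F1 ϖR = algebraMap R0 F1 ϖ) :
    (Ideal.span {algebraMap R (integralClosure R F1) ϖR}).IsPrime := by
  refine M.span_isPrime (integralClosure R F1).val.toRingHom Subtype.val_injective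
    (algebraMap R (integralClosure R F1) ϖR) hϖR (fun b => hRO b b.2) ?_
  rintro y hy ⟨b, hb⟩
  have hb' : (b : F1) = algebraMap R0 F1 ϖ * y := hb
  exact ⟨⟨y, hsat y hy (hb' ▸ b.2)⟩, rfl⟩

/-- **(GR) at the cusp**: if `B_c ⧸ (ϖ)` is integrally closed, every `γ ∈ Fk` integral over
`k[xb⁻¹]` is the residue of an element of `B_c`. -/
theorem exists_lift_inv (hRO : ∀ b : F1, IsIntegral R b → b ∈ M.O1)
    (hφ : ∀ p : R0[X], algebraMap R F1 (algebraMap R0[X] R p) = aeval x1⁻¹ p)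
    (hx1 : x1 ≠ 0) (hxb : xb ≠ 0)
    (hsat : ∀ y ∈ M.O1, IsIntegral R (algebraMap R0 F1 ϖ * y) → IsIntegral R y)
    (ϖR : R) (hϖR : algebraMap R F1 ϖR = algebraMap R0 F1 ϖ)
    (e : ℕ) (hθ' : IsIntegral R (x1⁻¹ ^ e * θ))
    (hπ0 : Function.Surjective π0)
    (hgenk : ∀ γ : Fk, ∃ s : k[X], aeval xb s ≠ 0 ∧ ∃ g : k[X][X],
      aeval xb s * γ = g.eval₂ ((aeval xb : k[X] →ₐ[k] Fk) : k[X] →+* Fk) θb)
    [IsIntegrallyClosed
      (integralClosure R F1 ⧸ Ideal.span {algebraMap R (integralClosure R F1) ϖR})]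
    (γ : Fk) (hγ : IsIntegral (Algebra.adjoin k {xb⁻¹}) γ) :
    ∃ (b : F1) (hb : IsIntegral R b), M.res1 ⟨b, hRO b hb⟩ = γ := by
  classical
  have hmapsurj : Function.Surjective (Polynomial.map π0 : R0[X] → k[X]) :=
    Polynomial.map_surjective π0 hπ0
  have hmap2surj : Function.Surjective
      (Polynomial.map (mapRingHom π0) : R0[X][X] → k[X][X]) :=
    Polynomial.map_surjective (mapRingHom π0) hmapsurj
  have hu := M.x_inv_mem hxb
  -- polynomials in `x1⁻¹`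
  have hint_p : ∀ p : R0[X], IsIntegral R (aeval x1⁻¹ p) := fun p => by
    rw [← hφ]; exact isIntegral_algebraMap
  have hres_p : ∀ p : R0[X], M.res1 ⟨aeval x1⁻¹ p, hRO _ (hint_p p)⟩ =
      aeval xb⁻¹ (p.map π0) := by
    intro p
    obtain ⟨h, hh⟩ := M.aeval_mem_of_mem hu p
    rw [M.res1_x_inv hxb] at hh
    exact hh
  refine exists_lift_of_gaussModel_chart M hRO ϖR hϖR hsat ?_
    (Algebra.adjoin k {xb⁻¹}).toSubring ?_ ?_
  · -- hfrac
    intro γ'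
    obtain ⟨sb, hsb, gb, hgb⟩ := hgenk γ'
    obtain ⟨s, rfl⟩ := hmapsurj sb
    obtain ⟨g, rfl⟩ := hmap2surj gb
    obtain ⟨m0, hm0⟩ := exists_isIntegral_inv_pow_mul_eval2 hφ hx1 e hθ' g
    set m := max m0 s.natDegree with hm
    have ha : IsIntegral R (x1⁻¹ ^ m * H3.eval2 x1 θ g) := hm0 m (le_max_left _ _)
    have hb : IsIntegral R (x1⁻¹ ^ m * aeval x1 s) := by
      rw [inv_pow_mul_aeval hx1 s (le_max_right _ _)]
      exact hint_p _
    obtain ⟨hgO, hgres⟩ := M.eval2_mem g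
    have hsO := M.aeval_mem s
    have hsres := M.res1_aeval s
    have hares : M.res1 ⟨x1⁻¹ ^ m * H3.eval2 x1 θ g, hRO _ ha⟩ =
        xb⁻¹ ^ m * H3.eval2b π0 xb θb g := by
      have : (⟨x1⁻¹ ^ m * H3.eval2 x1 θ g, hRO _ ha⟩ : M.O1) =
          ⟨x1⁻¹, hu⟩ ^ m * ⟨H3.eval2 x1 θ g, hgO⟩ := Subtype.ext rfl
      rw [this, map_mul, map_pow, M.res1_x_inv hxb, hgres]
    have hbres : M.res1 ⟨x1⁻¹ ^ m * aeval x1 s, hRO _ hb⟩ =
        xb⁻¹ ^ m * aeval xb (s.map π0) := by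
      have : (⟨x1⁻¹ ^ m * aeval x1 s, hRO _ hb⟩ : M.O1) =
          ⟨x1⁻¹, hu⟩ ^ m * ⟨aeval x1 s, hsO⟩ := Subtype.ext rfl
      rw [this, map_mul, map_pow, M.res1_x_inv hxb, hsres]
    refine ⟨_, _, ha, hb, ?_, ?_⟩
    · rw [hbres]
      exact mul_ne_zero (pow_ne_zero _ (inv_ne_zero hxb)) hsb
    · rw [hbres, hares]
      have : H3.eval2b π0 xb θb g =
          (g.map (mapRingHom π0)).eval₂ ((aeval xb : k[X] →ₐ[k] Fk) : k[X] →+* Fk) θb := by
        rw [eval₂_map]; rfl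
      rw [this, ← hgb]
      ring
  · -- hS
    intro s hs
    have hs' : s ∈ Algebra.adjoin k {xb⁻¹} := hs
    rw [Algebra.adjoin_singleton_eq_range_aeval] at hs'
    obtain ⟨pb, rfl⟩ := hs'
    obtain ⟨p, rfl⟩ := hmapsurj pb
    exact ⟨aeval x1⁻¹ p, hint_p p, hres_p p⟩
  · obtain ⟨p, hpm, hp⟩ := hγ
    exact ⟨p, hpm, hp⟩

/-- **The local hypothesis `hloc` of `H67.lift_inf_of_local`** for the cusp chart `R` (a localisation
of `R0[X]`, `X ↦ x1⁻¹`, at a submonoid of polynomials with unit constant term mod `ϖ`), from the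
Gauss model and `IsIntegrallyClosed (B_c ⧸ (ϖ))`. -/
theorem hloc_of_gaussModel (hRO : ∀ b : F1, IsIntegral R b → b ∈ M.O1)
    (hφ : ∀ p : R0[X], algebraMap R F1 (algebraMap R0[X] R p) = aeval x1⁻¹ p)
    (Msub : Submonoid R0[X]) [IsLocalization Msub R]
    (hMsub : ∀ t ∈ Msub, π0 (t.coeff 0) ≠ 0)
    (hx1 : x1 ≠ 0) (hxb : xb ≠ 0)
    (hsat : ∀ y ∈ M.O1, IsIntegral R (algebraMap R0 F1 ϖ * y) → IsIntegral R y)
    (ϖR : R) (hϖR : algebraMap R F1 ϖR = algebraMap R0 F1 ϖ)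
    (e : ℕ) (hθ' : IsIntegral R (x1⁻¹ ^ e * θ))
    (hπ0 : Function.Surjective π0)
    (hgenk : ∀ γ : Fk, ∃ s : k[X], aeval xb s ≠ 0 ∧ ∃ g : k[X][X],
      aeval xb s * γ = g.eval₂ ((aeval xb : k[X] →ₐ[k] Fk) : k[X] →+* Fk) θb)
    [IsIntegrallyClosed
      (integralClosure R F1 ⧸ Ideal.span {algebraMap R (integralClosure R F1) ϖR})] :
    ∀ γ : Fk, IsIntegral (Algebra.adjoin k {xb⁻¹}) γ →
      ∃ (tb : k[X]) (b : F1) (hb : IsIntegral (Algebra.adjoin R0 {x1⁻¹}) b),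
        tb.coeff 0 ≠ 0 ∧ M.res1 ⟨b, M.hBinfO hxb b hb⟩ = aeval xb⁻¹ tb * γ := by
  refine hloc_of_cover π0 M.O1 M.res1 (fun r h => M.res1_algebraMap r) (M.hBinfO hxb)
    (fun h => M.res1_x_inv hxb) {s : F1 | IsIntegral R s} (fun s hs => hRO s hs) ?_ ?_
  · intro γ hγ
    obtain ⟨b, hb, hbγ⟩ := exists_lift_inv M hRO hφ hx1 hxb hsat ϖR hϖR e hθ' hπ0 hgenk γ hγ
    exact ⟨b, hb, hbγ⟩
  · intro s hs
    obtain ⟨t, htM, ht⟩ := exists_aeval_mul_isIntegral_of_isLocalization (R := R0) Msub x1⁻¹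
      (algebraMap R F1) hφ s hs
    exact ⟨t, hMsub t htM, ht⟩

/-- **(GR) for the global chart at infinity, `M.res1` form**: `hGRfin` + the cusp chart ⟹ `hGRinf`
(`hGR1` of `H34.hGR_of_compat` with `P := IsIntegral (Algebra.adjoin R0 {x1⁻¹})`,
`hP := M.hBinfO hxb`). -/
theorem exists_lift_inf_of_gaussModel (hRO : ∀ b : F1, IsIntegral R b → b ∈ M.O1)
    (hφ : ∀ p : R0[X], algebraMap R F1 (algebraMap R0[X] R p) = aeval x1⁻¹ p)
    (Msub : Submonoid R0[X]) [IsLocalization Msub R]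
    (hMsub : ∀ t ∈ Msub, π0 (t.coeff 0) ≠ 0)
    (hx1 : x1 ≠ 0) (hxb : xb ≠ 0)
    (hsat : ∀ y ∈ M.O1, IsIntegral R (algebraMap R0 F1 ϖ * y) → IsIntegral R y)
    (ϖR : R) (hϖR : algebraMap R F1 ϖR = algebraMap R0 F1 ϖ)
    (e : ℕ) (hθ' : IsIntegral R (x1⁻¹ ^ e * θ))
    (hπ0 : Function.Surjective π0)
    (hgenk : ∀ γ : Fk, ∃ s : k[X], aeval xb s ≠ 0 ∧ ∃ g : k[X][X],
      aeval xb s * γ = g.eval₂ ((aeval xb : k[X] →ₐ[k] Fk) : k[X] →+* Fk) θb)
    [IsIntegrallyClosed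
      (integralClosure R F1 ⧸ Ideal.span {algebraMap R (integralClosure R F1) ϖR})]
    (hGRfin : ∀ γ : Fk, IsIntegral (Algebra.adjoin k {xb}) γ →
      ∃ (b : F1) (hb : IsIntegral (Algebra.adjoin R0 {x1}) b), M.res1 ⟨b, M.hBO b hb⟩ = γ)
    (γ : Fk) (hγ : IsIntegral (Algebra.adjoin k {xb⁻¹}) γ) :
    ∃ (b : F1) (hb : IsIntegral (Algebra.adjoin R0 {x1⁻¹}) b),
      M.res1 ⟨b, M.hBinfO hxb b hb⟩ = γ :=
  lift_inf_of_local π0 hπ0 hx1 M.O1 M.res1 (fun r _ => M.res1_algebraMap r) M.hBO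
    (M.hBinfO hxb) (fun _ => M.res1_x) hGRfin
    (hloc_of_gaussModel M hRO hφ Msub hMsub hx1 hxb hsat ϖR hϖR e hθ' hπ0 hgenk) γ hγ

/-- **`hGRinf` verbatim** (`H33.exists_forall_finrank_riemannRochSpace_le` /
`H40.gR_FN_le_gR_Fk_of_chart`), through a bigger Gauss ring `O ⊆ F ⊇ ι F1` with a reduction
compatible with `res1`. -/
theorem hGRinf_of_gaussModel (hRO : ∀ b : F1, IsIntegral R b → b ∈ M.O1)
    (hφ : ∀ p : R0[X], algebraMap R F1 (algebraMap R0[X] R p) = aeval x1⁻¹ p)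
    (Msub : Submonoid R0[X]) [IsLocalization Msub R]
    (hMsub : ∀ t ∈ Msub, π0 (t.coeff 0) ≠ 0)
    (hx1 : x1 ≠ 0) (hxb : xb ≠ 0)
    (hsat : ∀ y ∈ M.O1, IsIntegral R (algebraMap R0 F1 ϖ * y) → IsIntegral R y)
    (ϖR : R) (hϖR : algebraMap R F1 ϖR = algebraMap R0 F1 ϖ)
    (e : ℕ) (hθ' : IsIntegral R (x1⁻¹ ^ e * θ))
    (hπ0 : Function.Surjective π0)
    (hgenk : ∀ γ : Fk, ∃ s : k[X], aeval xb s ≠ 0 ∧ ∃ g : k[X][X],
      aeval xb s * γ = g.eval₂ ((aeval xb : k[X] →ₐ[k] Fk) : k[X] →+* Fk) θb)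
    [IsIntegrallyClosed
      (integralClosure R F1 ⧸ Ideal.span {algebraMap R (integralClosure R F1) ϖR})]
    (hGRfin : ∀ γ : Fk, IsIntegral (Algebra.adjoin k {xb}) γ →
      ∃ (b : F1) (hb : IsIntegral (Algebra.adjoin R0 {x1}) b), M.res1 ⟨b, M.hBO b hb⟩ = γ)
    {F : Type*} [Field F] (ι : F1 →+* F) (O : Subring F) (res : O →+* Fk)
    (hO1 : ∀ y ∈ M.O1, ι y ∈ O)
    (hc : ∀ (y : F1) (hy : y ∈ M.O1), res ⟨ι y, hO1 y hy⟩ = M.res1 ⟨y, hy⟩)
    (γ : Fk) (hγ : IsIntegral (Algebra.adjoin k {xb⁻¹}) γ) :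
    ∃ (b : F1) (hb : IsIntegral (Algebra.adjoin R0 {x1⁻¹}) b),
      res ⟨ι b, hO1 b (M.hBinfO hxb b hb)⟩ = γ := by
  obtain ⟨b, hb, h⟩ := exists_lift_inf_of_gaussModel M hRO hφ Msub hMsub hx1 hxb hsat ϖR hϖR e hθ'
    hπ0 hgenk hGRfin γ hγ
  exact ⟨b, hb, (hc b (M.hBinfO hxb b hb)).trans h⟩

end Chart

end Fermat.Agent.S18.H67
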