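/-
S18 project, route Q, package CUSP-PKG (helper67), instance part: **the cusp chart
`R = H13.CuspY ϖ u` (`u = 1/j1`) inside helper3's Gauss model**.

Everything helper13's `H13.isIntegrallyClosed_cuspChart` needs from / gives to the Gauss model
`M : H3.GaussModel ϖ π0 x1 θ xb θb` (the SAME model as for the finite chart):

* `cuspY_mem_O1`        : `B_c = integralClosure (CuspY ϖ u) F1 ⊆ M.O1`;
* `cuspY_sat`           : saturation of `B_c` in `M.O1`;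
* `cuspY_span_isPrime`  : `hprime` of `H13.isIntegrallyClosed_cuspChart`, VERBATIM;
* `cuspY_exists_lift_inf` / `cuspY_hGRinf` : from the CONCLUSION of
  `H13.isIntegrallyClosed_cuspChart` (as an instance) and `hGRfin`: `hGRinf` in `M.res1` form /
  in the `H33`/`H40` form through a bigger Gauss ring.
* `exists_isIntegral_inv_pow_mul_of_root` : the input `hθ'` (`u ^ e * θ` integral over the chart
  ring) from the monic `Φ` of the model.
-/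
import Mathlib
import Fermat.Agent.S18.H67_CuspSat
import Fermat.Agent.S18.H13_CuspTypes
import Fermat.Agent.S18.H13_CuspLine

set_option autoImplicit false
set_option linter.unusedSectionVars false

namespace Fermat.Agent.S18.H67

open Polynomial

/-! ### Generic: `x1⁻¹ ^ e * θ` is integral over the chart ring at infinity -/

section Generic

variable {R0 F1 : Type*} [CommRing R0] [Field F1] [Algebra R0 F1]
  {R : Type*} [CommRing R] [Algebra R F1] [Algebra R0[X] R]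

/-- integrality over `R0[u]` implies integrality over any ring receiving `R0[X]` by `X ↦ u`. -/
theorem isIntegral_of_isIntegral_adjoin_of_aeval {u : F1}
    (hφ : ∀ p : R0[X], algebraMap R F1 (algebraMap R0[X] R p) = aeval u p) {z : F1}
    (hz : IsIntegral (Algebra.adjoin R0 {u}) z) : IsIntegral R z := by
  obtain ⟨q, hqm, hq⟩ := (H3.isIntegral_adjoin_iff u z).mp hz
  refine ⟨q.map (algebraMap R0[X] R), hqm.map _, ?_⟩
  rw [eval₂_map]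
  have : (algebraMap R F1).comp (algebraMap R0[X] R) =
      ((aeval u : R0[X] →ₐ[R0] F1) : R0[X] →+* F1) := RingHom.ext hφ
  rw [this]
  exact hq

/-- **`hθ'`**: if `θ` is a root of a monic `Φ(x1, Y)`, some `x1⁻¹ ^ e * θ` is integral over the chart
ring at infinity. -/
theorem exists_isIntegral_inv_pow_mul_of_root {x1 θ : F1}
    (hφ : ∀ p : R0[X], algebraMap R F1 (algebraMap R0[X] R p) = aeval x1⁻¹ p) (hx1 : x1 ≠ 0)
    (Φ : R0[X][X]) (hΦ : Φ.Monic) (hroot : H3.eval2 x1 θ Φ = 0) :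
    ∃ e : ℕ, IsIntegral R (x1⁻¹ ^ e * θ) := by
  have hθ : IsIntegral (Algebra.adjoin R0 {x1}) θ :=
    (H3.isIntegral_adjoin_iff x1 θ).mpr ⟨Φ, hΦ, hroot⟩
  obtain ⟨m, hm⟩ := H40.exists_pow_mul_isIntegral (R := R0) x1 hx1 hθ
  exact ⟨m, isIntegral_of_isIntegral_adjoin_of_aeval hφ (hm m le_rfl)⟩

end Generic

/-! ### The cusp chart `CuspY ϖ u` -/

section CuspY

variable {A₁ : Type*} [CommRing A₁] [IsDomain A₁] [UniqueFactorizationMonoid A₁]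
  (ϖ : A₁) [hϖ : Fact (Prime ϖ)]
  {k F1 Fk : Type*} [Field k] [Field F1] [Algebra A₁ F1] [Field Fk] [Algebra k Fk]
  {π0 : A₁ →+* k} {x1 θ : F1} {xb θb : Fk} (M : H3.GaussModel ϖ π0 x1 θ xb θb)
  (u : F1) [hu : Fact (Transcendental A₁ u)]

theorem cuspY_primeCompl_coeff_zero (hker0 : ∀ r, π0 r = 0 → ϖ ∣ r) :
    ∀ t ∈ (H42.cuspIdeal ϖ).primeCompl, π0 (t.coeff 0) ≠ 0 := by
  intro t ht h0
  exact ht ((H42.mem_cuspIdeal_iff ϖ t).mpr (hker0 _ h0))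

/-- `B_c ⊆ O1`. -/
theorem cuspY_mem_O1 (hju : x1 * u = 1) (hker0 : ∀ r, π0 r = 0 → ϖ ∣ r) (hxb : xb ≠ 0)
    (hxbtr : Transcendental k xb) (b : F1) (hb : IsIntegral (H13.CuspY ϖ u) b) : b ∈ M.O1 := by
  obtain rfl : u = x1⁻¹ := eq_inv_of_mul_eq_one_right hju
  have hub : Transcendental k xb⁻¹ := fun h => hxbtr (IsAlgebraic.inv_iff.mp h)
  exact mem_O1_of_isIntegral_of_algebraMap_mem M (fun r =>
    algebraMap_mem_O1_of_isLocalization M (H13.algebraMap_cuspY ϖ x1⁻¹)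
      (H42.cuspIdeal ϖ).primeCompl hxb hub (cuspY_primeCompl_coeff_zero ϖ hker0) r) hb

/-- **Saturation of `B_c` in `O1`.** -/
theorem cuspY_sat (hju : x1 * u = 1) (hπϖ : π0 ϖ = 0)
    [Algebra.IsAlgebraic (FractionRing (H13.CuspY ϖ u)) F1]
    (e : ℕ) (hθ' : IsIntegral (H13.CuspY ϖ u) (u ^ e * θ)) :
    ∀ y ∈ M.O1, IsIntegral (H13.CuspY ϖ u) (algebraMap A₁ F1 ϖ * y) →
      IsIntegral (H13.CuspY ϖ u) y := by
  obtain rfl : u = x1⁻¹ := eq_inv_of_mul_eq_one_right hju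
  have hx1 : x1 ≠ 0 := left_ne_zero_of_mul_eq_one hju
  intro y hy hϖy
  exact isIntegral_of_mem_of_isIntegral_mul_inv M (K := FractionRing (H13.CuspY ϖ x1⁻¹))
    (H13.algebraMap_cuspY ϖ x1⁻¹) hπϖ hx1 (H42.cuspRing_prime_C (H13.CuspY ϖ x1⁻¹) hϖ.out)
    (fun p h => (H42.cuspRing_C_dvd_iff (H13.CuspY ϖ x1⁻¹) hϖ.out p).mp h) e hθ' hy hϖy

theorem cuspY_algebraMap_base :
    algebraMap (H13.CuspY ϖ u) F1 (algebraMap A₁ (H13.CuspY ϖ u) ϖ) = algebraMap A₁ F1 ϖ :=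
  (IsScalarTower.algebraMap_apply A₁ (H13.CuspY ϖ u) F1 ϖ).symm

include M in
/-- **`hprime` of `H13.isIntegrallyClosed_cuspChart`, verbatim.** -/
theorem cuspY_span_isPrime (hju : x1 * u = 1) (hπϖ : π0 ϖ = 0) (hker0 : ∀ r, π0 r = 0 → ϖ ∣ r)
    (hxb : xb ≠ 0) (hxbtr : Transcendental k xb)
    [Algebra.IsAlgebraic (FractionRing (H13.CuspY ϖ u)) F1]
    (e : ℕ) (hθ' : IsIntegral (H13.CuspY ϖ u) (u ^ e * θ)) :
    (Ideal.span {algebraMap (H13.CuspY ϖ u) (integralClosure (H13.CuspY ϖ u) F1)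
      (algebraMap A₁ (H13.CuspY ϖ u) ϖ)}).IsPrime :=
  span_isPrime_inv M (cuspY_mem_O1 ϖ M u hju hker0 hxb hxbtr)
    (cuspY_sat ϖ M u hju hπϖ e hθ') _ (cuspY_algebraMap_base ϖ u)

/-- **(GR) at infinity, `M.res1` form**, from the conclusion of `H13.isIntegrallyClosed_cuspChart`
and `hGRfin`. -/
theorem cuspY_exists_lift_inf (hju : x1 * u = 1) (hπϖ : π0 ϖ = 0)
    (hker0 : ∀ r, π0 r = 0 → ϖ ∣ r) (hπ0 : Function.Surjective π0)
    (hxb : xb ≠ 0) (hxbtr : Transcendental k xb)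
    [Algebra.IsAlgebraic (FractionRing (H13.CuspY ϖ u)) F1]
    (e : ℕ) (hθ' : IsIntegral (H13.CuspY ϖ u) (u ^ e * θ))
    (hgenk : ∀ γ : Fk, ∃ s : k[X], aeval xb s ≠ 0 ∧ ∃ g : k[X][X],
      aeval xb s * γ = g.eval₂ ((aeval xb : k[X] →ₐ[k] Fk) : k[X] →+* Fk) θb)
    [IsIntegrallyClosed (integralClosure (H13.CuspY ϖ u) F1 ⧸
      Ideal.span {algebraMap (H13.CuspY ϖ u) (integralClosure (H13.CuspY ϖ u) F1)
        (algebraMap A₁ (H13.CuspY ϖ u) ϖ)})]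
    (hGRfin : ∀ γ : Fk, IsIntegral (Algebra.adjoin k {xb}) γ →
      ∃ (b : F1) (hb : IsIntegral (Algebra.adjoin A₁ {x1}) b), M.res1 ⟨b, M.hBO b hb⟩ = γ)
    (γ : Fk) (hγ : IsIntegral (Algebra.adjoin k {xb⁻¹}) γ) :
    ∃ (b : F1) (hb : IsIntegral (Algebra.adjoin A₁ {x1⁻¹}) b),
      M.res1 ⟨b, M.hBinfO hxb b hb⟩ = γ := by
  have hRO := cuspY_mem_O1 ϖ M u hju hker0 hxb hxbtr
  have hsat := cuspY_sat ϖ M u hju hπϖ e hθ'
  obtain rfl : u = x1⁻¹ := eq_inv_of_mul_eq_one_right hju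
  have hx1 : x1 ≠ 0 := left_ne_zero_of_mul_eq_one hju
  exact exists_lift_inf_of_gaussModel M hRO (H13.algebraMap_cuspY ϖ x1⁻¹)
    (H42.cuspIdeal ϖ).primeCompl (cuspY_primeCompl_coeff_zero ϖ hker0) hx1 hxb hsat _
    (cuspY_algebraMap_base ϖ x1⁻¹) e hθ' hπ0 hgenk hGRfin γ hγ

/-- **`hGRinf` verbatim** (`H33.exists_forall_finrank_riemannRochSpace_le` /
`H40.gR_FN_le_gR_Fk_of_chart`). -/
theorem cuspY_hGRinf (hju : x1 * u = 1) (hπϖ : π0 ϖ = 0)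
    (hker0 : ∀ r, π0 r = 0 → ϖ ∣ r) (hπ0 : Function.Surjective π0)
    (hxb : xb ≠ 0) (hxbtr : Transcendental k xb)
    [Algebra.IsAlgebraic (FractionRing (H13.CuspY ϖ u)) F1]
    (e : ℕ) (hθ' : IsIntegral (H13.CuspY ϖ u) (u ^ e * θ))
    (hgenk : ∀ γ : Fk, ∃ s : k[X], aeval xb s ≠ 0 ∧ ∃ g : k[X][X],
      aeval xb s * γ = g.eval₂ ((aeval xb : k[X] →ₐ[k] Fk) : k[X] →+* Fk) θb)
    [IsIntegrallyClosed (integralClosure (H13.CuspY ϖ u) F1 ⧸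
      Ideal.span {algebraMap (H13.CuspY ϖ u) (integralClosure (H13.CuspY ϖ u) F1)
        (algebraMap A₁ (H13.CuspY ϖ u) ϖ)})]
    (hGRfin : ∀ γ : Fk, IsIntegral (Algebra.adjoin k {xb}) γ →
      ∃ (b : F1) (hb : IsIntegral (Algebra.adjoin A₁ {x1}) b), M.res1 ⟨b, M.hBO b hb⟩ = γ)
    {F : Type*} [Field F] (ι : F1 →+* F) (O : Subring F) (res : O →+* Fk)
    (hO1 : ∀ y ∈ M.O1, ι y ∈ O)
    (hc : ∀ (y : F1) (hy : y ∈ M.O1), res ⟨ι y, hO1 y hy⟩ = M.res1 ⟨y, hy⟩)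
    (γ : Fk) (hγ : IsIntegral (Algebra.adjoin k {xb⁻¹}) γ) :
    ∃ (b : F1) (hb : IsIntegral (Algebra.adjoin A₁ {x1⁻¹}) b),
      res ⟨ι b, hO1 b (M.hBinfO hxb b hb)⟩ = γ := by
  obtain ⟨b, hb, h⟩ := cuspY_exists_lift_inf ϖ M u hju hπϖ hker0 hπ0 hxb hxbtr e hθ' hgenk
    hGRfin γ hγ
  exact ⟨b, hb, (hc b (M.hBinfO hxb b hb)).trans h⟩

/-- `hθ'` for the cusp chart from the monic `Φ` of the model. -/
theorem cuspY_exists_isIntegral_pow_mul (hju : x1 * u = 1)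
    (Φ : A₁[X][X]) (hΦ : Φ.Monic) (hroot : H3.eval2 x1 θ Φ = 0) :
    ∃ e : ℕ, IsIntegral (H13.CuspY ϖ u) (u ^ e * θ) := by
  obtain rfl : u = x1⁻¹ := eq_inv_of_mul_eq_one_right hju
  exact exists_isIntegral_inv_pow_mul_of_root (H13.algebraMap_cuspY ϖ x1⁻¹)
    (left_ne_zero_of_mul_eq_one hju) Φ hΦ hroot

end CuspY

end Fermat.Agent.S18.H67
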