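/-
S18 project, route Q, package CUSP-PKG (helper67), dry-run integration: **the cusp chart gives
`hGRinf`**.

Composition of helper13's `H13.isIntegrallyClosed_cuspChart` (route Q at the cusp) with
`H67_CuspPkg` (the chart ring inside helper3's Gauss model):

  `M : H3.GaussModel` + (VERT) + (HOR) for the Kummer cover at the cusp + `hGRfin`  ⊢  `hGRinf`.

* `cuspY_isAlgebraic` : `F1` is algebraic over `Frac (CuspY ϖ u)` (from the model's `hgen`);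
* `cuspChart_exists_lift_inf` : the composed statement, `M.res1` form;
* `cuspChart_hGRinf` : the same in the `H33`/`H40` form.
-/
import Mathlib
import Fermat.Agent.S18.H67_CuspPkg
import Fermat.Agent.S18.H13_InstCusp

set_option autoImplicit false
set_option linter.unusedSectionVars false

namespace Fermat.Agent.S18.H67

open Polynomial IntermediateField

section Alg

variable {A₁ : Type*} [CommRing A₁] [IsDomain A₁]
  (ϖ : A₁) [hϖ : Fact (Prime ϖ)] {F1 : Type*} [Field F1] [Algebra A₁ F1]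
  (u : F1) [hu : Fact (Transcendental A₁ u)]

/-- `F1` is algebraic over the fraction field of the cusp line, from the generation hypothesis of
the Gauss model. -/
theorem cuspY_isAlgebraic {x1 θ : F1} (hju : x1 * u = 1) (hx1tr : Transcendental A₁ x1)
    (hgen : ∀ y : F1, ∃ s : A₁[X], s ≠ 0 ∧ ∃ g : A₁[X][X], aeval x1 s * y = H3.eval2 x1 θ g)
    (e : ℕ) (hθ' : IsIntegral (H13.CuspY ϖ u) (u ^ e * θ)) :
    Algebra.IsAlgebraic (FractionRing (H13.CuspY ϖ u)) F1 := by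
  set K0 := FractionRing (H13.CuspY ϖ u) with hK0
  set E : IntermediateField K0 F1 := algebraicClosure K0 F1 with hE
  have hu0 : u ≠ 0 := right_ne_zero_of_mul_eq_one hju
  have hx1 : x1 = u⁻¹ := eq_inv_of_mul_eq_one_left hju
  -- the image of `CuspY` lies in `E`
  have hYE : ∀ r : H13.CuspY ϖ u, algebraMap (H13.CuspY ϖ u) F1 r ∈ E := fun r => by
    rw [IsScalarTower.algebraMap_apply (H13.CuspY ϖ u) K0 F1]
    exact E.algebraMap_mem _
  have hAE : ∀ a : A₁, algebraMap A₁ F1 a ∈ E := fun a => by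
    rw [IsScalarTower.algebraMap_apply A₁ (H13.CuspY ϖ u) F1]
    exact hYE _
  have huE : u ∈ E := by
    have := hYE (algebraMap A₁[X] (H13.CuspY ϖ u) X)
    rwa [H13.algebraMap_cuspY, aeval_X] at this
  have hx1E : x1 ∈ E := hx1 ▸ E.inv_mem huE
  have hθ'E : u ^ e * θ ∈ E := by
    rw [hE, mem_algebraicClosure_iff']
    exact hθ'.tower_top
  have hθE : θ ∈ E := by
    have : θ = (u ^ e)⁻¹ * (u ^ e * θ) := by
      rw [inv_mul_cancel_left₀ (pow_ne_zero e hu0)]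
    rw [this]
    exact E.mul_mem (E.inv_mem (pow_mem huE e)) hθ'E
  have hpE : ∀ p : A₁[X], aeval x1 p ∈ E := fun p => by
    rw [aeval_eq_sum_range]
    refine E.sum_mem fun i _ => ?_
    rw [Algebra.smul_def]
    exact E.mul_mem (hAE _) (pow_mem hx1E i)
  have hgE : ∀ g : A₁[X][X], H3.eval2 x1 θ g ∈ E := fun g => by
    unfold H3.eval2
    rw [eval₂_eq_sum_range]
    refine E.sum_mem fun i _ => ?_
    exact E.mul_mem (hpE _) (pow_mem hθE i)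
  refine ⟨fun y => ?_⟩
  obtain ⟨s, hs, g, hg⟩ := hgen y
  have hs1 : aeval x1 s ≠ 0 := fun h => hs ((transcendental_iff.mp hx1tr) s h)
  have hy : y = (aeval x1 s)⁻¹ * H3.eval2 x1 θ g := by
    rw [← hg, inv_mul_cancel_left₀ hs1]
  have hyE : y ∈ E := hy ▸ E.mul_mem (E.inv_mem (hpE s)) (hgE g)
  exact mem_algebraicClosure_iff.mp hyE

end Alg

section Compose

variable {A₁ : Type*} [CommRing A₁] [IsDomain A₁] [IsDiscreteValuationRing A₁] [CharZero A₁]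
  (ϖ : A₁) [hϖ : Fact (Prime ϖ)]
  (L1 : Type*) [Field L1] [Algebra A₁ L1] [IsFractionRing A₁ L1]
  {F1 : Type*} [Field F1] [Algebra A₁ F1] [Algebra L1 F1] [IsScalarTower A₁ L1 F1]
  {k : Type} [Field k] [IsAlgClosed k] {Fk : Type*} [Field Fk] [Algebra k Fk]
  {π0 : A₁ →+* k} {x1 θ : F1} {xb θb : Fk} (M : H3.GaussModel ϖ π0 x1 θ xb θb)
  (u : F1) [hu : Fact (Transcendental A₁ u)] (N : ℕ) [NeZero N]

include L1 in
/-- **The cusp chart gives `hGRinf`** (`M.res1` form): route Q at the cusp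
(`H13.isIntegrallyClosed_cuspChart`, inputs `hV`, `hH`) + the Gauss model + `hGRfin`. -/
theorem cuspChart_exists_lift_inf (hju : x1 * u = 1)
    (hgenL : L1⟮x1⟯⟮θ⟯ = ⊤) (hθalg : IsAlgebraic L1⟮x1⟯ θ)
    {ζ : A₁} (hζ : IsPrimitiveRoot ζ N)
    (hπ0 : Function.Surjective π0) (hker : RingHom.ker π0 = Ideal.span {ϖ})
    (hV : H41.VertCond (H13.CuspT ϖ u N) (FractionRing (H13.CuspT ϖ u N)) (H13.CuspField u N)
      (algebraMap A₁ (H13.CuspT ϖ u N) ϖ))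
    (hH : H41.HorCond (H13.CuspT ϖ u N) (FractionRing (H13.CuspT ϖ u N)) (H13.CuspField u N)
      (algebraMap A₁ (H13.CuspT ϖ u N) ϖ))
    (hx1tr : Transcendental A₁ x1)
    (Φ : A₁[X][X]) (hΦ : Φ.Monic) (hroot : H3.eval2 x1 θ Φ = 0)
    (hgen : ∀ y : F1, ∃ s : A₁[X], s ≠ 0 ∧ ∃ g : A₁[X][X], aeval x1 s * y = H3.eval2 x1 θ g)
    (hxb : xb ≠ 0) (hxbtr : Transcendental k xb)
    (hgenk : ∀ γ : Fk, ∃ s : k[X], aeval xb s ≠ 0 ∧ ∃ g : k[X][X],
      aeval xb s * γ = g.eval₂ ((aeval xb : k[X] →ₐ[k] Fk) : k[X] →+* Fk) θb)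
    (hGRfin : ∀ γ : Fk, IsIntegral (Algebra.adjoin k {xb}) γ →
      ∃ (b : F1) (hb : IsIntegral (Algebra.adjoin A₁ {x1}) b), M.res1 ⟨b, M.hBO b hb⟩ = γ)
    (γ : Fk) (hγ : IsIntegral (Algebra.adjoin k {xb⁻¹}) γ) :
    ∃ (b : F1) (hb : IsIntegral (Algebra.adjoin A₁ {x1⁻¹}) b),
      M.res1 ⟨b, M.hBinfO hxb b hb⟩ = γ := by
  have hπϖ : π0 ϖ = 0 := by
    have : ϖ ∈ RingHom.ker π0 := by rw [hker]; exact Ideal.subset_span rfl
    exact this
  have hker0 : ∀ r, π0 r = 0 → ϖ ∣ r := fun r hr => by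
    have : r ∈ RingHom.ker π0 := hr
    rw [hker] at this
    exact Ideal.mem_span_singleton.mp this
  obtain ⟨e, hθ'⟩ := cuspY_exists_isIntegral_pow_mul ϖ u hju Φ hΦ hroot
  have : Algebra.IsAlgebraic (FractionRing (H13.CuspY ϖ u)) F1 :=
    cuspY_isAlgebraic ϖ u hju hx1tr hgen e hθ'
  have hprime := cuspY_span_isPrime ϖ M u hju hπϖ hker0 hxb hxbtr e hθ'
  have := H13.isIntegrallyClosed_cuspChart ϖ L1 u N hju hgenL hθalg hζ π0 hπ0 hker hV hH hprime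
  exact cuspY_exists_lift_inf ϖ M u hju hπϖ hker0 hπ0 hxb hxbtr e hθ' hgenk hGRfin γ hγ

include L1 in
/-- **`hGRinf` verbatim** (`H33.exists_forall_finrank_riemannRochSpace_le` /
`H40.gR_FN_le_gR_Fk_of_chart`) from the cusp chart. -/
theorem cuspChart_hGRinf (hju : x1 * u = 1)
    (hgenL : L1⟮x1⟯⟮θ⟯ = ⊤) (hθalg : IsAlgebraic L1⟮x1⟯ θ)
    {ζ : A₁} (hζ : IsPrimitiveRoot ζ N)
    (hπ0 : Function.Surjective π0) (hker : RingHom.ker π0 = Ideal.span {ϖ})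
    (hV : H41.VertCond (H13.CuspT ϖ u N) (FractionRing (H13.CuspT ϖ u N)) (H13.CuspField u N)
      (algebraMap A₁ (H13.CuspT ϖ u N) ϖ))
    (hH : H41.HorCond (H13.CuspT ϖ u N) (FractionRing (H13.CuspT ϖ u N)) (H13.CuspField u N)
      (algebraMap A₁ (H13.CuspT ϖ u N) ϖ))
    (hx1tr : Transcendental A₁ x1)
    (Φ : A₁[X][X]) (hΦ : Φ.Monic) (hroot : H3.eval2 x1 θ Φ = 0)
    (hgen : ∀ y : F1, ∃ s : A₁[X], s ≠ 0 ∧ ∃ g : A₁[X][X], aeval x1 s * y = H3.eval2 x1 θ g)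
    (hxb : xb ≠ 0) (hxbtr : Transcendental k xb)
    (hgenk : ∀ γ : Fk, ∃ s : k[X], aeval xb s ≠ 0 ∧ ∃ g : k[X][X],
      aeval xb s * γ = g.eval₂ ((aeval xb : k[X] →ₐ[k] Fk) : k[X] →+* Fk) θb)
    (hGRfin : ∀ γ : Fk, IsIntegral (Algebra.adjoin k {xb}) γ →
      ∃ (b : F1) (hb : IsIntegral (Algebra.adjoin A₁ {x1}) b), M.res1 ⟨b, M.hBO b hb⟩ = γ)
    {F : Type*} [Field F] (ι : F1 →+* F) (O : Subring F) (res : O →+* Fk)
    (hO1 : ∀ y ∈ M.O1, ι y ∈ O)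
    (hc : ∀ (y : F1) (hy : y ∈ M.O1), res ⟨ι y, hO1 y hy⟩ = M.res1 ⟨y, hy⟩)
    (γ : Fk) (hγ : IsIntegral (Algebra.adjoin k {xb⁻¹}) γ) :
    ∃ (b : F1) (hb : IsIntegral (Algebra.adjoin A₁ {x1⁻¹}) b),
      res ⟨ι b, hO1 b (M.hBinfO hxb b hb)⟩ = γ := by
  obtain ⟨b, hb, h⟩ := cuspChart_exists_lift_inf ϖ L1 M u N hju hgenL hθalg hζ hπ0 hker hV hH
    hx1tr Φ hΦ hroot hgen hxb hxbtr hgenk hGRfin γ hγ
  exact ⟨b, hb, (hc b (M.hBinfO hxb b hb)).trans h⟩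

end Compose

end Fermat.Agent.S18.H67
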