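import Mathlib
import Fermat.Agent.S18.H13_InstCuspA0
import Fermat.Agent.S18.H67_CuspChartGR
import Fermat.Agent.S18.H3_ChartFinal
import Fermat.Agent.S18.H45_A0Units

/-!
# S18 / INST-CUSP (helper13): `hGRinf` at the concrete model, from `hGRfin`

For every Gauss model `M` of `(A₁, F₁, j₁, jN₁)` (helper3's `H3.GaussModel`), the lifting property
at infinity (`hGRinf` of `H33.s18_of_gaussModel` / `H61.s18_of_gaussModel`) follows from the
lifting property on the finite chart (`hGRfin`):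

* route Q at the cusp chart: `H13.isIntegrallyClosed_cuspChart_A0`
  ((VERT) from the modular polynomial, (HOR) from `H69.hunr_cusp`),
* `hprime` and the gluing: helper67's `H67.cuspY_span_isPrime`, `H67.cuspY_exists_lift_inf`.
-/

set_option autoImplicit false
set_option linter.unusedSectionVars false
set_option linter.style.haveILetI false
set_option synthInstance.maxHeartbeats 400000
set_option maxHeartbeats 3200000

open Polynomial IntermediateField AlgebraicCurve ModularCurve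

namespace Fermat.Agent.S18.H13

open Fermat.Agent.S18

noncomputable section

section GRInf

variable (N : ℕ) [NeZero N] {ℓ : ℕ} [hℓ : Fact ℓ.Prime] (hℓN : ¬ ℓ ∣ N)
  (A : ValuationSubring (AlgebraicClosure ℚ)) (hA : A.LiesOverPrime ℓ)

local notation "kA" => IsLocalRing.ResidueField A
local notation "A₁" => H45.A0 A ℓ
local notation "L₁" => H45.unrCyclo ℓ
local notation "F₁" => modularFunctionFieldFullC (H45.unrCyclo ℓ) N
local notation "j₁" => H16.jK (H45.unrCyclo ℓ) N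
local notation "jN₁" => H16.jNK (H45.unrCyclo ℓ) N
local notation "FkA" => modularFunctionFieldFullC (IsLocalRing.ResidueField A) N

include hℓN hA in
/-- **`hGRinf` from `hGRfin`** at the concrete model, `M.res1` form: the cusp chart of route Q. -/
theorem hGRinf_of_hGRfin_A0
    (M : H3.GaussModel (R0 := A₁) (k := kA) (F1 := F₁) (Fk := FkA)
      ((ℓ : ℕ) : A₁) (H45.resA0 A ℓ) j₁ jN₁ (H16.jK kA N) (H16.jNK kA N))
    (hxb : H16.jK kA N ≠ 0)
    (hGRfin : ∀ γ : FkA, IsIntegral (Algebra.adjoin kA {H16.jK kA N}) γ →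
      ∃ (b : F₁) (hb : IsIntegral (Algebra.adjoin A₁ {j₁}) b), M.res1 ⟨b, M.hBO b hb⟩ = γ)
    (γ : FkA) (hγ : IsIntegral (Algebra.adjoin kA {(H16.jK kA N)⁻¹}) γ) :
    ∃ (b : F₁) (hb : IsIntegral (Algebra.adjoin A₁ {j₁⁻¹}) b),
      M.res1 ⟨b, M.hBinfO hxb b hb⟩ = γ := by
  classical
  haveI hdvr : IsDiscreteValuationRing A₁ := H45.isDiscreteValuationRing_A0 hℓ.out hA
  haveI : Fact (Prime ((ℓ : ℕ) : A₁)) := fact_prime_natCast_A0 A hA
  haveI : Fact (Transcendental A₁ (j₁ : F₁)⁻¹) := fact_transcendental_inv_jK N A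
  obtain ⟨-, hπϖ, hx1tr, Φ, hΦ, hroot, hgen⟩ := H3.inst_facts N A hA
  have hju : (j₁ : F₁) * (j₁ : F₁)⁻¹ = 1 := mul_inv_cancel₀ (jK_unrCyclo_ne_zero N)
  have hker0 : ∀ r, H45.resA0 A ℓ r = 0 → ((ℓ : ℕ) : A₁) ∣ r := fun r hr =>
    (H45.resA0_eq_zero_iff_dvd hℓ.out hA r).mp hr
  have hNk : ((N : ℕ) : kA) ≠ 0 := H45.natCast_ne_zero_residueField hℓ.out hA hℓN
  obtain ⟨e, hθ'⟩ := H67.cuspY_exists_isIntegral_pow_mul ((ℓ : ℕ) : A₁) (j₁ : F₁)⁻¹ hju Φ hΦ hroot
  haveI : Algebra.IsAlgebraic (FractionRing (CuspY ((ℓ : ℕ) : A₁) (j₁ : F₁)⁻¹)) F₁ :=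
    H67.cuspY_isAlgebraic ((ℓ : ℕ) : A₁) (j₁ : F₁)⁻¹ hju hx1tr hgen e hθ'
  have hxbtr : Transcendental kA (H16.jK kA N) := H16.transcendental_jK kA N
  have hprime := H67.cuspY_span_isPrime ((ℓ : ℕ) : A₁) M (j₁ : F₁)⁻¹ hju hπϖ hker0 hxb hxbtr e hθ'
  haveI := isIntegrallyClosed_cuspChart_A0 N hℓN A hA hprime
  exact H67.cuspY_exists_lift_inf ((ℓ : ℕ) : A₁) M (j₁ : F₁)⁻¹ hju hπϖ hker0
    (H45.resA0_surjective hℓ.out hA) hxb hxbtr e hθ'
    (H67.exists_repr_of_adjoin_eq_top (H16.jK kA N) (H16.jNK kA N)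
      (H16.isIntegral_jNK_gen N kA hNk) (H16.adjoin_jNK_eq_top_gen N kA hNk))
    hGRfin γ hγ

end GRInf

end

end Fermat.Agent.S18.H13
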