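/-
S18 / R-EXIST, package R0b = ORTHO-INT (helper27), abstract, Mathlib only.
Setting (helper92's R0): `L` a field with a valuation subring `A`, `π : A →+* k` onto a field;
`F / L` and `Fk / k` field extensions; `O` a valuation subring of `F` (the Gauss unit ball) with a
surjective reduction `res : O →+* Fk`, compatible with `π` on constants, `A = O ∩ L`;
`t ∈ O` with `tk := res t` transcendental over `k`.

* (O1) GAUSS: `aeval t p ∈ O ↔ p` has coefficients in `A`; `res (p(t)) = pbar(tk)`;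
  `O ∩ L(t) → k(tk)`.
* (O2) ORTHONORMAL: if the reductions of `e i ∈ O` are `k(tk)`-independent and `c i ∈ L(t)` then
  `∑ c i * e i ∈ O → ∀ i, c i ∈ O`.
* (O3) INT: if moreover the `e i` span `F` over `L(t)`: `b ∈ O` integral over `L[t]` is integral
  over `A[t]`.
* (O4) NORM: for such `b`, the norm `N_{F/L(t)} b` is `ν(t)` with `ν ∈ A[X]` and
  `N_{Fk/k(tk)} (res b) = νbar(tk)`.
-/
import Mathlib

set_option autoImplicit false

noncomputable section

namespace Fermat.Agent.S18.H27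

open Polynomial IntermediateField

variable {L k F Fk : Type*} [Field L] [Field k] [Field F] [Field Fk] [Algebra L F] [Algebra k Fk]

/-- The standing hypotheses on the Gauss unit ball `O` with its reduction `res`. -/
structure GaussData (A : ValuationSubring L) (π : A →+* k) (O : ValuationSubring F)
    (res : O →+* Fk) (t : F) : Prop where
  π_surj : Function.Surjective π
  res_surj : Function.Surjective res
  const_mem_iff : ∀ c : L, algebraMap L F c ∈ O ↔ c ∈ A
  res_const : ∀ (a : A) (h : algebraMap L F (a : L) ∈ O),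
    res ⟨algebraMap L F (a : L), h⟩ = algebraMap k Fk (π a)
  t_mem : t ∈ O
  transc : Transcendental k (res ⟨t, t_mem⟩)

variable {A : ValuationSubring L} {π : A →+* k} {O : ValuationSubring F} {res : O →+* Fk} {t : F}

namespace GaussData

variable (G : GaussData A π O res t)
include G

/-- the reduced coordinate -/
def tk : Fk := res ⟨t, G.t_mem⟩

/-- the inclusion of constants `A → O` -/
def constO : A →+* O :=
  ((algebraMap L F).comp A.subtype).codRestrict O.toSubring fun a => (G.const_mem_iff _).2 a.2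

theorem coe_constO (a : A) : ((G.constO a : O) : F) = algebraMap L F (a : L) := rfl

theorem res_constO (a : A) : res (G.constO a) = algebraMap k Fk (π a) :=
  G.res_const a _

/-- `res x = 0` iff `x` is in the maximal ideal of `O`. -/
theorem res_eq_zero_iff (x : O) : res x = 0 ↔ x ∈ IsLocalRing.maximalIdeal O := by
  have hmax : (RingHom.ker res).IsMaximal := RingHom.ker_isMaximal_of_surjective res G.res_surj
  rw [← IsLocalRing.eq_maximalIdeal hmax, RingHom.mem_ker]

theorem isUnit_of_res_ne_zero {x : O} (hx : res x ≠ 0) : IsUnit x := by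
  by_contra h
  exact hx ((G.res_eq_zero_iff x).2 ((IsLocalRing.mem_maximalIdeal x).2 h))

theorem res_eq_zero_of_valuation_lt_one {x : F} (hx : O.valuation x < 1) :
    ∃ h : x ∈ O, res ⟨x, h⟩ = 0 := by
  have h : x ∈ O := (O.valuation_le_one_iff x).1 hx.le
  refine ⟨h, (G.res_eq_zero_iff _).2 ?_⟩
  rw [IsLocalRing.mem_maximalIdeal, mem_nonunits_iff]
  intro hu
  have := (O.valuation_eq_one_iff ⟨x, h⟩).1 hu
  exact hx.ne this

/-- evaluation of polynomials with coefficients in `A` at `t`, inside `O` -/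
def evO : A[X] →+* O := Polynomial.eval₂RingHom G.constO ⟨t, G.t_mem⟩

theorem coe_evO (q : A[X]) : ((G.evO q : O) : F) = aeval t (q.map A.subtype) := by
  unfold evO
  rw [coe_eval₂RingHom, aeval_def, eval₂_map]
  have h1 : ((Polynomial.eval₂ G.constO (⟨t, G.t_mem⟩ : O) q : O) : F) =
      O.subtype (Polynomial.eval₂ G.constO (⟨t, G.t_mem⟩ : O) q) := rfl
  rw [h1, Polynomial.hom_eval₂]
  rfl

theorem res_evO (q : A[X]) : res (G.evO q) = aeval G.tk (q.map π) := by
  unfold evO
  rw [coe_eval₂RingHom, Polynomial.hom_eval₂, aeval_def, eval₂_map]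
  congr 1
  ext a
  exact G.res_constO a

theorem evO_isUnit {q : A[X]} (hq : q.map π ≠ 0) : IsUnit (G.evO q) := by
  apply G.isUnit_of_res_ne_zero
  rw [res_evO]
  intro h
  exact hq ((transcendental_iff.1 G.transc) _ h)

omit G in
/-- Normalisation: a nonzero polynomial over `L` is a constant times a polynomial over `A` with
nonzero reduction (divide by a coefficient of maximal valuation). -/
theorem exists_normalised (π : A →+* k) (p : L[X]) (hp : p ≠ 0) :
    ∃ (c : L) (q : A[X]), c ≠ 0 ∧ p = C c * q.map A.subtype ∧ q.map π ≠ 0 := by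
  classical
  have hne : p.support.Nonempty := Polynomial.support_nonempty.2 hp
  obtain ⟨i₀, hi₀, hmax⟩ := Finset.exists_max_image p.support
    (fun i => A.valuation (p.coeff i)) hne
  have hc : p.coeff i₀ ≠ 0 := Polynomial.mem_support_iff.1 hi₀
  set c := p.coeff i₀ with hcdef
  have hmem : ∀ i, c⁻¹ * p.coeff i ∈ A := by
    intro i
    rw [← A.valuation_le_one_iff, map_mul, map_inv₀]
    by_cases hi : i ∈ p.support
    · have h1 := hmax i hi
      have hv : A.valuation c ≠ 0 := (_root_.map_ne_zero _).2 hc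
      rw [inv_mul_le_iff₀ (zero_lt_iff.2 hv), mul_one]
      exact h1
    · rw [Polynomial.notMem_support_iff.1 hi, map_zero, mul_zero]
      exact zero_le_one
  have hlift : C c⁻¹ * p ∈ Polynomial.lifts A.subtype := by
    rw [Polynomial.lifts_iff_coeff_lifts]
    intro i
    rw [Polynomial.coeff_C_mul]
    exact ⟨⟨_, hmem i⟩, rfl⟩
  obtain ⟨q, hq⟩ := (Polynomial.mem_lifts _).1 hlift
  refine ⟨c, q, hc, ?_, ?_⟩
  · rw [hq, ← mul_assoc, ← C_mul, mul_inv_cancel₀ hc, C_1, one_mul]
  · intro h0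
    have h1 : (q.map A.subtype).coeff i₀ = 1 := by
      rw [hq, Polynomial.coeff_C_mul, ← hcdef, inv_mul_cancel₀ hc]
    rw [Polynomial.coeff_map] at h1
    have h2 : q.coeff i₀ = 1 := Subtype.ext h1
    have h3 : (q.map π).coeff i₀ = 1 := by
      rw [Polynomial.coeff_map, h2, map_one]
    rw [h0, Polynomial.coeff_zero] at h3
    exact zero_ne_one h3

/-- **(O1) GAUSS**: `p(t) ∈ O` iff all coefficients of `p` lie in `A`. -/
theorem aeval_mem_iff (p : L[X]) : aeval t p ∈ O ↔ ∀ i, p.coeff i ∈ A := by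
  constructor
  · intro hO i
    by_cases hp : p = 0
    · rw [hp, Polynomial.coeff_zero]; exact A.zero_mem
    obtain ⟨c, q, hc, hpq, hq⟩ := exists_normalised π p hp
    have hu := G.evO_isUnit hq
    -- `algebraMap c = p(t) * (q(t))⁻¹ ∈ O`
    have h1 : aeval t p = algebraMap L F c * ((G.evO q : O) : F) := by
      rw [hpq, map_mul, aeval_C, G.coe_evO]
    obtain ⟨u, hu'⟩ := hu
    have h2 : algebraMap L F c = aeval t p * (((u⁻¹ : Oˣ) : O) : F) := by
      rw [h1, ← hu', mul_assoc]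
      have : ((u : O) : F) * (((u⁻¹ : Oˣ) : O) : F) = 1 := by
        rw [← MulMemClass.coe_mul, ← Units.val_mul, mul_inv_cancel, Units.val_one]
        rfl
      rw [this, mul_one]
    have h3 : algebraMap L F c ∈ O := by
      rw [h2]
      exact O.mul_mem _ _ hO (((u⁻¹ : Oˣ) : O)).2
    have hcA : c ∈ A := (G.const_mem_iff c).1 h3
    rw [hpq, Polynomial.coeff_C_mul, Polynomial.coeff_map]
    exact A.mul_mem _ _ hcA (q.coeff i).2
  · intro h
    have hlift : p ∈ Polynomial.lifts A.subtype := by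
      rw [Polynomial.lifts_iff_coeff_lifts]
      intro i
      exact ⟨⟨_, h i⟩, rfl⟩
    obtain ⟨q, rfl⟩ := (Polynomial.mem_lifts _).1 hlift
    rw [← G.coe_evO]
    exact (G.evO q).2

/-- `t` is transcendental over `L`. -/
theorem transcendental_t : Transcendental L t := by
  rw [transcendental_iff]
  intro p hp
  by_contra hp0
  obtain ⟨c, q, hc, hpq, hq⟩ := exists_normalised π p hp0
  have h1 : ((G.evO q : O) : F) = 0 := by
    have : aeval t p = algebraMap L F c * ((G.evO q : O) : F) := by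
      rw [hpq, map_mul, aeval_C, G.coe_evO]
    rw [hp] at this
    rcases mul_eq_zero.1 this.symm with h | h
    · exact absurd ((map_eq_zero _).1 h) hc
    · exact h
  have h2 : G.evO q = 0 := Subtype.ext h1
  have h3 := G.res_evO q
  rw [h2, map_zero] at h3
  exact hq ((transcendental_iff.1 G.transc) _ h3.symm)

/-- **(O1)**: reduction maps `O ∩ L(t)` into `k(tk)`. -/
theorem res_mem_adjoin {f : F} (hf : f ∈ L⟮t⟯) (hfO : f ∈ O) : res ⟨f, hfO⟩ ∈ k⟮G.tk⟯ := by
  obtain ⟨r, s, hrs⟩ := (IntermediateField.mem_adjoin_simple_iff L f).1 hf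
  by_cases hs : s = 0
  · have : f = 0 := by rw [hrs, hs, map_zero, div_zero]
    subst this
    have : (⟨0, hfO⟩ : O) = 0 := rfl
    rw [this, map_zero]
    exact zero_mem _
  obtain ⟨c, q, hc, hsq, hq⟩ := exists_normalised π s hs
  have hu := G.evO_isUnit hq
  have hsne : aeval t s ≠ 0 := fun h => hs ((transcendental_iff.1 G.transcendental_t) _ h)
  -- `f * q(t) = (c⁻¹ r)(t)`
  have h1 : f * ((G.evO q : O) : F) = aeval t (C c⁻¹ * r) := by
    have h2 : aeval t s = algebraMap L F c * ((G.evO q : O) : F) := by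
      rw [hsq, map_mul, aeval_C, G.coe_evO]
    have hcne : algebraMap L F c ≠ 0 := (_root_.map_ne_zero _).2 hc
    have hqne : ((G.evO q : O) : F) ≠ 0 := by
      intro h0
      rw [h0, mul_zero] at h2
      exact hsne h2
    rw [hrs, h2, map_mul, aeval_C, map_inv₀]
    field_simp
  have h3 : aeval t (C c⁻¹ * r) ∈ O := by
    rw [← h1]
    exact O.mul_mem _ _ hfO (G.evO q).2
  have hlift : C c⁻¹ * r ∈ Polynomial.lifts A.subtype := by
    rw [Polynomial.lifts_iff_coeff_lifts]
    intro i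
    exact ⟨⟨_, (G.aeval_mem_iff _).1 h3 i⟩, rfl⟩
  obtain ⟨q', hq'⟩ := (Polynomial.mem_lifts _).1 hlift
  have h4 : (⟨f, hfO⟩ : O) * G.evO q = G.evO q' := by
    apply Subtype.ext
    rw [MulMemClass.coe_mul, G.coe_evO q', hq', ← h1]
  have h5 := congrArg res h4
  rw [map_mul, G.res_evO, G.res_evO] at h5
  have h6 : aeval G.tk (q.map π) ≠ 0 := fun h => hq ((transcendental_iff.1 G.transc) _ h)
  have h7 : res ⟨f, hfO⟩ = aeval G.tk (q'.map π) / aeval G.tk (q.map π) := by
    rw [eq_div_iff h6, h5]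
  rw [h7]
  exact (IntermediateField.mem_adjoin_simple_iff k _).2 ⟨_, _, rfl⟩

section Ortho

variable {ι : Type*} [Fintype ι] (e : ι → F) (he : ∀ i, e i ∈ O)
  (hek : LinearIndependent k⟮G.tk⟯ (fun i => res ⟨e i, he i⟩))
include hek

/-- **(O2) ORTHONORMAL**: if the reductions of the `e i` are independent over `k(tk)`, then an
`L(t)`-combination of the `e i` lies in `O` only if all its coefficients do. -/
theorem coeff_mem_of_sum_mem (c : ι → F) (hc : ∀ i, c i ∈ L⟮t⟯) (hsum : ∑ i, c i * e i ∈ O) :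
    ∀ i, c i ∈ O := by
  classical
  by_contra hcon
  rw [not_forall] at hcon
  obtain ⟨j, hj⟩ := hcon
  obtain ⟨i₀, -, hmax⟩ := Finset.exists_max_image Finset.univ (fun i => O.valuation (c i))
    ⟨j, Finset.mem_univ _⟩
  have hvj : 1 < O.valuation (c j) := not_le.1 fun h => hj ((O.valuation_le_one_iff _).1 h)
  have hv : 1 < O.valuation (c i₀) := lt_of_lt_of_le hvj (hmax j (Finset.mem_univ _))
  have hv0 : 0 < O.valuation (c i₀) := lt_trans zero_lt_one hv
  have hc0 : c i₀ ≠ 0 := by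
    intro h
    rw [h, map_zero] at hv0
    exact lt_irrefl _ hv0
  set d : ι → F := fun i => c i / c i₀ with hd
  have hd_mem : ∀ i, d i ∈ O := by
    intro i
    rw [← O.valuation_le_one_iff, hd, map_div₀, div_le_one₀ hv0]
    exact hmax i (Finset.mem_univ _)
  have hd_adj : ∀ i, d i ∈ L⟮t⟯ := fun i => div_mem (hc i) (hc i₀)
  have hsum' : ∑ i, d i * e i = (∑ i, c i * e i) / c i₀ := by
    rw [Finset.sum_div]
    refine Finset.sum_congr rfl fun i _ => ?_
    rw [hd]
    ring
  have hlt : O.valuation (∑ i, d i * e i) < 1 := by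
    rw [hsum', map_div₀, div_lt_one₀ hv0]
    exact lt_of_le_of_lt ((O.valuation_le_one_iff _).2 hsum) hv
  obtain ⟨hmemO, hres0⟩ := G.res_eq_zero_of_valuation_lt_one hlt
  have hsumO : (⟨∑ i, d i * e i, hmemO⟩ : O) = ∑ i, (⟨d i, hd_mem i⟩ : O) * ⟨e i, he i⟩ := by
    apply Subtype.ext
    have : (((∑ i, (⟨d i, hd_mem i⟩ : O) * ⟨e i, he i⟩ : O)) : F) =
        O.subtype (∑ i, (⟨d i, hd_mem i⟩ : O) * ⟨e i, he i⟩) := rfl
    rw [this, map_sum]
    rfl
  rw [hsumO, map_sum] at hres0
  let g : ι → k⟮G.tk⟯ := fun i => ⟨res ⟨d i, hd_mem i⟩, G.res_mem_adjoin (hd_adj i) (hd_mem i)⟩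
  have hg : ∑ i, g i • res ⟨e i, he i⟩ = 0 := by
    rw [← hres0]
    refine Finset.sum_congr rfl fun i _ => ?_
    rw [map_mul, Algebra.smul_def]
    rfl
  have h0 := Fintype.linearIndependent_iff.1 hek g hg i₀
  have h1 : (g i₀ : Fk) = 1 := by
    show res ⟨d i₀, hd_mem i₀⟩ = 1
    have : (⟨d i₀, hd_mem i₀⟩ : O) = 1 := by
      apply Subtype.ext
      show c i₀ / c i₀ = 1
      exact div_self hc0
    rw [this, map_one]
  rw [h0] at h1
  exact zero_ne_one h1

end Ortho

end GaussData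

/-- `A[t]` as a subring of `F` (same term as helper97's `H97.AT A t`). -/
def AT (A : ValuationSubring L) (t : F) : Subring F :=
  Subring.closure (Set.range (fun a : A => algebraMap L F (a : L)) ∪ {t})

theorem aeval_mem_AT (A : ValuationSubring L) (t : F) (q : A[X]) :
    aeval t (q.map A.subtype) ∈ AT A t := by
  rw [Polynomial.aeval_eq_sum_range]
  refine Subring.sum_mem _ fun i _ => ?_
  rw [Polynomial.coeff_map, Algebra.smul_def]
  refine Subring.mul_mem _ ?_ (Subring.pow_mem _ ?_ _)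
  · exact Subring.subset_closure (Or.inl ⟨q.coeff i, rfl⟩)
  · exact Subring.subset_closure (Or.inr rfl)

/-- `L[t]` is integrally closed (`t` transcendental). -/
theorem isIntegrallyClosed_adjoin_of_transcendental {t : F} (ht : Transcendental L t) :
    IsIntegrallyClosed (Algebra.adjoin L {t}) := by
  have hinj : Function.Injective (aeval (R := L) t) := transcendental_iff_injective.1 ht
  let e1 : L[X] ≃ₐ[L] (aeval (R := L) t).range := AlgEquiv.ofInjective _ hinj
  let e2 : (aeval (R := L) t).range ≃ₐ[L] Algebra.adjoin L {t} :=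
    Subalgebra.equivOfEq _ _ (Algebra.adjoin_singleton_eq_range_aeval L t).symm
  exact IsIntegrallyClosed.of_equiv (e1.trans e2).toRingEquiv

/-- Conversion of the usual spanning hypothesis into the explicit form used below. -/
theorem hspan_of_span_eq_top {ι : Type*} [Fintype ι] {t : F} (e : ι → F)
    (h : ⊤ ≤ Submodule.span L⟮t⟯ (Set.range e)) :
    ∀ x : F, ∃ c : ι → F, (∀ i, c i ∈ L⟮t⟯) ∧ x = ∑ i, c i * e i := by
  intro x
  have hx : x ∈ Submodule.span L⟮t⟯ (Set.range e) := h Submodule.mem_top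
  obtain ⟨c, hc⟩ := (Submodule.mem_span_range_iff_exists_fun _).1 hx
  refine ⟨fun i => ((c i : L⟮t⟯) : F), fun i => (c i).2, ?_⟩
  rw [← hc]
  refine Finset.sum_congr rfl fun i _ => ?_
  rw [Algebra.smul_def]
  rfl

namespace GaussData

variable (G : GaussData A π O res t)
include G

section Int

variable {ι : Type*} [Fintype ι] (e : ι → F) (he : ∀ i, e i ∈ O)
  (hek : LinearIndependent k⟮G.tk⟯ (fun i => res ⟨e i, he i⟩))
  (hspan : ∀ x : F, ∃ c : ι → F, (∀ i, c i ∈ L⟮t⟯) ∧ x = ∑ i, c i * e i)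
include hek hspan

/-- an element of `O` is integral over the valuation ring `O ∩ L(t)` of `L(t)`. -/
theorem isIntegral_comap {b : F} (hbO : b ∈ O) :
    IsIntegral (O.comap (algebraMap L⟮t⟯ F)) b := by
  classical
  set V : ValuationSubring L⟮t⟯ := O.comap (algebraMap L⟮t⟯ F) with hV
  have hVmem : ∀ x : L⟮t⟯, x ∈ V ↔ (x : F) ∈ O := fun x => ValuationSubring.mem_comap
  let N : Submodule V F := Submodule.span V (Set.range e)
  have hN' : N.FG := Submodule.fg_span (Set.finite_range e)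
  have hN : N ≠ ⊥ := by
    obtain ⟨c, -, h1⟩ := hspan 1
    have : ∃ i, e i ≠ 0 := by
      by_contra hcon
      rw [not_exists] at hcon
      have h0 : ∀ i, e i = 0 := fun i => not_not.1 (hcon i)
      rw [Finset.sum_eq_zero fun i _ => by rw [h0 i, mul_zero]] at h1
      exact one_ne_zero h1
    obtain ⟨i, hi⟩ := this
    intro hbot
    have : e i ∈ N := Submodule.subset_span ⟨i, rfl⟩
    rw [hbot, Submodule.mem_bot] at this
    exact hi this
  have hgen : ∀ j, b • e j ∈ N := by
    intro j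
    obtain ⟨c, hc, h1⟩ := hspan (b * e j)
    have hmem : ∑ i, c i * e i ∈ O := by
      rw [← h1]
      exact O.mul_mem _ _ hbO (he j)
    have hcO := G.coeff_mem_of_sum_mem e he hek c hc hmem
    rw [smul_eq_mul, h1]
    refine Submodule.sum_mem _ fun i _ => ?_
    have : c i * e i = (⟨⟨c i, hc i⟩, (hVmem _).2 (hcO i)⟩ : V) • e i := rfl
    rw [this]
    exact Submodule.smul_mem _ _ (Submodule.subset_span ⟨i, rfl⟩)
  have hclosed : ∀ n ∈ N, b • n ∈ N := by
    intro n hn
    induction hn using Submodule.span_induction with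
    | mem x hx =>
      obtain ⟨j, rfl⟩ := hx
      exact hgen j
    | zero => rw [smul_zero]; exact N.zero_mem
    | add x y _ _ hx hy => rw [smul_add]; exact N.add_mem hx hy
    | smul a x _ hx => rw [smul_comm]; exact N.smul_mem a hx
  exact isIntegral_of_smul_mem_submodule N hN hN' b hclosed

open scoped algebraAdjoinAdjoin in
/-- **(O3) INT**: an element of `O` integral over `L[t]` is integral over `A[t]`. -/
theorem isIntegral_AT {b : F} (hbO : b ∈ O) (hb : IsIntegral (Algebra.adjoin L {t}) b) :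
    IsIntegral (AT A t) b := by
  classical
  set V : ValuationSubring L⟮t⟯ := O.comap (algebraMap L⟮t⟯ F) with hV
  have hVmem : ∀ x : L⟮t⟯, x ∈ V ↔ (x : F) ∈ O := fun x => ValuationSubring.mem_comap
  have hbV : IsIntegral V b := G.isIntegral_comap e he hek hspan hbO
  have : IsIntegrallyClosed (Algebra.adjoin L {t}) :=
    isIntegrallyClosed_adjoin_of_transcendental G.transcendental_t
  have h1 : minpoly L⟮t⟯ b = (minpoly V b).map (algebraMap V L⟮t⟯) :=
    minpoly.isIntegrallyClosed_eq_field_fractions' L⟮t⟯ hbV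
  have h2 : minpoly L⟮t⟯ b = (minpoly (Algebra.adjoin L {t}) b).map
      (algebraMap (Algebra.adjoin L {t}) L⟮t⟯) :=
    minpoly.isIntegrallyClosed_eq_field_fractions' L⟮t⟯ hb
  -- the coefficients of the minimal polynomial over `L[t]` lie in `A[t]`
  have hcoeff : ∀ i, (((minpoly (Algebra.adjoin L {t}) b).coeff i : Algebra.adjoin L {t}) : F)
      ∈ AT A t := by
    intro i
    set a := (minpoly (Algebra.adjoin L {t}) b).coeff i with ha
    have h3 : ((minpoly L⟮t⟯ b).coeff i : F) = (a : F) := by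
      rw [h2, Polynomial.coeff_map]
      rfl
    have h4 : (a : F) ∈ O := by
      rw [← h3, h1, Polynomial.coeff_map]
      exact (hVmem _).1 ((minpoly V b).coeff i).2
    have h5 : (a : F) ∈ (aeval (R := L) t).range := by
      rw [← Algebra.adjoin_singleton_eq_range_aeval]
      exact a.2
    obtain ⟨p, hp⟩ := h5
    have hp' : aeval t p = (a : F) := hp
    have h6 : ∀ i, p.coeff i ∈ A := (G.aeval_mem_iff p).1 (by rw [hp']; exact h4)
    have hlift : p ∈ Polynomial.lifts A.subtype := by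
      rw [Polynomial.lifts_iff_coeff_lifts]
      intro i
      exact ⟨⟨_, h6 i⟩, rfl⟩
    obtain ⟨q, rfl⟩ := (Polynomial.mem_lifts _).1 hlift
    rw [← hp']
    exact aeval_mem_AT A t q
  set P : F[X] := (minpoly (Algebra.adjoin L {t}) b).map (algebraMap (Algebra.adjoin L {t}) F)
    with hP
  have hPmonic : P.Monic := (minpoly.monic hb).map _
  have hPlift : P ∈ Polynomial.lifts (AT A t).subtype := by
    rw [Polynomial.lifts_iff_coeff_lifts]
    intro i
    rw [hP, Polynomial.coeff_map]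
    exact ⟨⟨_, hcoeff i⟩, rfl⟩
  obtain ⟨Q, hQ, -, hQm⟩ := Polynomial.lifts_and_degree_eq_and_monic hPlift hPmonic
  refine ⟨Q, hQm, ?_⟩
  have : algebraMap (AT A t) F = (AT A t).subtype := rfl
  rw [this, ← Polynomial.eval_map, hQ, hP, Polynomial.eval_map, ← Polynomial.aeval_def]
  exact minpoly.aeval _ _

/-- The reductions of the `e i` span `Fk` over `k(tk)`. -/
theorem span_res_eq_top :
    ⊤ ≤ Submodule.span k⟮G.tk⟯ (Set.range fun i => res ⟨e i, he i⟩) := by
  intro y _
  obtain ⟨x, rfl⟩ := G.res_surj y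
  obtain ⟨c, hc, h1⟩ := hspan (x : F)
  have hmem : ∑ i, c i * e i ∈ O := by rw [← h1]; exact x.2
  have hcO := G.coeff_mem_of_sum_mem e he hek c hc hmem
  have hx : x = ∑ i, (⟨c i, hcO i⟩ : O) * ⟨e i, he i⟩ := by
    apply Subtype.ext
    have : (((∑ i, (⟨c i, hcO i⟩ : O) * ⟨e i, he i⟩ : O)) : F) =
        O.subtype (∑ i, (⟨c i, hcO i⟩ : O) * ⟨e i, he i⟩) := rfl
    rw [this, map_sum, h1]
    rfl
  rw [hx, map_sum]
  refine Submodule.sum_mem _ fun i _ => ?_
  rw [map_mul]
  have : res ⟨c i, hcO i⟩ * res ⟨e i, he i⟩ =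
      (⟨res ⟨c i, hcO i⟩, G.res_mem_adjoin (hc i) (hcO i)⟩ : k⟮G.tk⟯) • res ⟨e i, he i⟩ := by
    rw [Algebra.smul_def]
    rfl
  rw [this]
  exact Submodule.smul_mem _ _ (Submodule.subset_span ⟨i, rfl⟩)

end Int

section Norm

variable {ι : Type*} [Fintype ι] (e : ι → F) (he : ∀ i, e i ∈ O)
  (hek : LinearIndependent k⟮G.tk⟯ (fun i => res ⟨e i, he i⟩))
  (hspan : ∀ x : F, ∃ c : ι → F, (∀ i, c i ∈ L⟮t⟯) ∧ x = ∑ i, c i * e i)
  (hli : LinearIndependent L⟮t⟯ e)
include hek hspan hli

omit hek hli G in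
theorem span_eq_top_of_hspan : ⊤ ≤ Submodule.span L⟮t⟯ (Set.range e) := by
  intro x _
  obtain ⟨c, hc, h1⟩ := hspan x
  rw [h1]
  refine Submodule.sum_mem _ fun i _ => ?_
  have : c i * e i = (⟨c i, hc i⟩ : L⟮t⟯) • e i := by
    rw [Algebra.smul_def]
    rfl
  rw [this]
  exact Submodule.smul_mem _ _ (Submodule.subset_span ⟨i, rfl⟩)

open scoped algebraAdjoinAdjoin in
/-- **(O4) NORM**: for `b ∈ O` integral over `L[t]`, the norm of `b` over `L(t)` is `ν(t)` for a
polynomial `ν` with coefficients in `A`, and the norm of `res b` over `k(tk)` is `νbar(tk)`. -/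
theorem exists_norm_eq {b : F} (hbO : b ∈ O) (hb : IsIntegral (Algebra.adjoin L {t}) b) :
    ∃ ν : A[X], aeval t (ν.map A.subtype) = ((Algebra.norm L⟮t⟯ b : L⟮t⟯) : F) ∧
      aeval G.tk (ν.map π) = ((Algebra.norm k⟮G.tk⟯ (res ⟨b, hbO⟩) : k⟮G.tk⟯) : Fk) := by
  classical
  set V : ValuationSubring L⟮t⟯ := O.comap (algebraMap L⟮t⟯ F) with hV
  have hVmem : ∀ x : L⟮t⟯, x ∈ V ↔ (x : F) ∈ O := fun x => ValuationSubring.mem_comap
  -- the two bases
  let B : Module.Basis ι L⟮t⟯ F := Module.Basis.mk hli (span_eq_top_of_hspan e hspan)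
  let Bk : Module.Basis ι k⟮G.tk⟯ Fk := Module.Basis.mk hek (G.span_res_eq_top e he hek hspan)
  have hB : ∀ i, B i = e i := fun i => Module.Basis.mk_apply _ _ i
  have hBk : ∀ i, Bk i = res ⟨e i, he i⟩ := fun i => Module.Basis.mk_apply _ _ i
  -- the matrix of `b` has entries in `V`
  set M : Matrix ι ι L⟮t⟯ := Algebra.leftMulMatrix B b with hM
  have hexp : ∀ j, b * e j = ∑ i, ((M i j : L⟮t⟯) : F) * e i := by
    intro j
    have h1 := B.sum_repr (b * B j)
    rw [hB j] at h1
    rw [← h1]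
    refine Finset.sum_congr rfl fun i _ => ?_
    rw [hM, Algebra.leftMulMatrix_eq_repr_mul, Algebra.smul_def, hB i, hB j]
    rfl
  have hMO : ∀ i j, ((M i j : L⟮t⟯) : F) ∈ O := by
    intro i j
    have hmem : ∑ i, ((M i j : L⟮t⟯) : F) * e i ∈ O := by
      rw [← hexp j]
      exact O.mul_mem _ _ hbO (he j)
    exact G.coeff_mem_of_sum_mem e he hek (fun i => ((M i j : L⟮t⟯) : F))
      (fun i => (M i j).2) hmem i
  let MV : Matrix ι ι V := fun i j => ⟨M i j, (hVmem _).2 (hMO i j)⟩
  have hMV : M = MV.map V.subtype := by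
    ext i j
    rfl
  -- reduction on `V`
  let incl : V →+* O := ((algebraMap L⟮t⟯ F).comp V.subtype).codRestrict O
    fun x => (hVmem _).1 x.2
  let ρ : V →+* k⟮G.tk⟯ := (res.comp incl).codRestrict k⟮G.tk⟯
    fun x => G.res_mem_adjoin (x : L⟮t⟯).2 ((hVmem _).1 x.2)
  have hρ : ∀ x : V, ((ρ x : k⟮G.tk⟯) : Fk) = res ⟨((x : L⟮t⟯) : F), (hVmem _).1 x.2⟩ :=
    fun x => rfl
  -- the matrix of `res b`
  have hMk : Algebra.leftMulMatrix Bk (res ⟨b, hbO⟩) = MV.map ρ := by
    ext i j
    rw [Algebra.leftMulMatrix_eq_repr_mul, Matrix.map_apply]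
    have h1 : res ⟨b, hbO⟩ * Bk j = ∑ i, ρ (MV i j) • Bk i := by
      rw [hBk j, ← map_mul]
      have h2 : (⟨b, hbO⟩ : O) * ⟨e j, he j⟩ =
          ∑ i, (⟨((M i j : L⟮t⟯) : F), hMO i j⟩ : O) * ⟨e i, he i⟩ := by
        apply Subtype.ext
        have : (((∑ i, (⟨((M i j : L⟮t⟯) : F), hMO i j⟩ : O) * ⟨e i, he i⟩ : O)) : F) =
            O.subtype (∑ i, (⟨((M i j : L⟮t⟯) : F), hMO i j⟩ : O) * ⟨e i, he i⟩) := rfl
        rw [this, map_sum]
        exact hexp j
      rw [h2, map_sum]
      refine Finset.sum_congr rfl fun i _ => ?_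
      rw [map_mul, hBk i, Algebra.smul_def]
      rfl
    rw [h1, Module.Basis.repr_sum_self]
  -- norms as determinants
  have hn1 : Algebra.norm L⟮t⟯ b = V.subtype (MV.det) := by
    rw [Algebra.norm_eq_matrix_det B b, ← hM, hMV, RingHom.map_det, RingHom.mapMatrix_apply]
  have hn2 : Algebra.norm k⟮G.tk⟯ (res ⟨b, hbO⟩) = ρ (MV.det) := by
    rw [Algebra.norm_eq_matrix_det Bk, hMk, RingHom.map_det, RingHom.mapMatrix_apply]
  -- the norm lies in `L[t]`
  have : IsIntegrallyClosed (Algebra.adjoin L {t}) :=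
    isIntegrallyClosed_adjoin_of_transcendental G.transcendental_t
  have hint : IsIntegral (Algebra.adjoin L {t}) (Algebra.norm L⟮t⟯ b) :=
    Algebra.isIntegral_norm L⟮t⟯ hb
  obtain ⟨y, hy⟩ := IsIntegrallyClosed.isIntegral_iff.1 hint
  have hyF : ((y : Algebra.adjoin L {t}) : F) = ((Algebra.norm L⟮t⟯ b : L⟮t⟯) : F) := by
    rw [← hy]
    rfl
  have h5 : (y : F) ∈ (aeval (R := L) t).range := by
    rw [← Algebra.adjoin_singleton_eq_range_aeval]
    exact y.2
  obtain ⟨p, hp⟩ := h5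
  have hp' : aeval t p = ((Algebra.norm L⟮t⟯ b : L⟮t⟯) : F) := by rw [← hyF]; exact hp
  have hnO : ((Algebra.norm L⟮t⟯ b : L⟮t⟯) : F) ∈ O := by
    rw [hn1]
    exact (hVmem _).1 (MV.det).2
  have h6 : ∀ i, p.coeff i ∈ A := (G.aeval_mem_iff p).1 (by rw [hp']; exact hnO)
  have hlift : p ∈ Polynomial.lifts A.subtype := by
    rw [Polynomial.lifts_iff_coeff_lifts]
    intro i
    exact ⟨⟨_, h6 i⟩, rfl⟩
  obtain ⟨q, rfl⟩ := (Polynomial.mem_lifts _).1 hlift
  refine ⟨q, hp', ?_⟩
  rw [← G.res_evO, hn2, hρ]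
  congr 1
  apply Subtype.ext
  rw [G.coe_evO, hp', hn1]
  rfl

end Norm

end GaussData

end Fermat.Agent.S18.H27
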