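import Mathlib
import Fermat.Prelude.Def_AlgebraicCurve_DivisorClassGroup
import Fermat.Agent.S24.H42_Residue
import Fermat.Agent.S24.H97_Places

set_option autoImplicit false
set_option linter.unusedSectionVars false

/-!
# S18 / R-EXIST, packages R1 + R2 (abstract chart form)

Abstract setting: `L` a field, `A` a valuation subring of `L` with a surjective
`π : A →+* k` (kernel = maximal ideal); `FL / L` and `Fk / k` two "function fields";
`O` a valuation subring of `FL` (the Gauss unit ball) with a reduction map `res : O →+* Fk`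
compatible with `π` on constants; a chart coordinate `t ∈ O`.

* `BA t` : the subring of `FL` of elements of `O` integral over `L[t]`.
* `ev P` : evaluation at a place `P` of `FL / L` with residue field `L`.
* (R1) `ev_mem_of_mem_BA` : for `b ∈ BA t` (integral over `A[t]`) and `P` in the domain of the
  chart, `b ∈ O_P` and `ev_P b ∈ A`.
* (R2) `center` : the centre of `P` on the special fibre, a place of `Fk / k`, with
  `center_spec` (EV), `deg_center`, `center_unique`.
-/

noncomputable section

open AlgebraicCurve IsDedekindDomain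

namespace Fermat.Agent.S18.H97

section Ev

variable {L FL : Type*} [Field L] [Field FL] [Algebra L FL]

/-- Evaluation at a place whose residue field is the constant field. -/
def ev (P : Place L FL) (hP : Function.Surjective (algebraMap L P.ResidueField)) :
    P.toValuationSubring →+* L :=
  ((RingEquiv.ofBijective (algebraMap L P.ResidueField)
      ⟨(algebraMap L P.ResidueField).injective, hP⟩).symm : P.ResidueField →+* L).comp
    (IsLocalRing.residue P.toValuationSubring)

variable (P : Place L FL) (hP : Function.Surjective (algebraMap L P.ResidueField))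

theorem algebraMap_ev (x : P.toValuationSubring) :
    algebraMap L P.ResidueField (ev P hP x) = IsLocalRing.residue P.toValuationSubring x := by
  unfold ev
  simp only [RingHom.coe_comp, RingHom.coe_coe, Function.comp_apply]
  exact (RingEquiv.ofBijective (algebraMap L P.ResidueField)
    ⟨(algebraMap L P.ResidueField).injective, hP⟩).apply_symm_apply _

theorem ev_algebraMap (a : L) : ev P hP (algebraMap L P.toValuationSubring a) = a := by
  apply (algebraMap L P.ResidueField).injective
  rw [algebraMap_ev]
  rfl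

theorem ev_eq_zero_iff (x : P.toValuationSubring) :
    ev P hP x = 0 ↔ x ∈ IsLocalRing.maximalIdeal P.toValuationSubring := by
  rw [← IsLocalRing.residue_eq_zero_iff, ← algebraMap_ev P hP x]
  constructor
  · intro h; rw [h, map_zero]
  · intro h
    exact (algebraMap L P.ResidueField).injective (by rw [h, map_zero])

theorem sub_algebraMap_ev_mem (x : P.toValuationSubring) :
    x - algebraMap L P.toValuationSubring (ev P hP x) ∈
      IsLocalRing.maximalIdeal P.toValuationSubring := by
  rw [← ev_eq_zero_iff P hP, map_sub, ev_algebraMap, sub_self]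

theorem ev_eq_iff (x : P.toValuationSubring) (a : L) :
    ev P hP x = a ↔ x - algebraMap L P.toValuationSubring a ∈
      IsLocalRing.maximalIdeal P.toValuationSubring := by
  rw [← ev_eq_zero_iff P hP, map_sub, ev_algebraMap, sub_eq_zero]

theorem isUnit_of_ev_ne_zero {x : P.toValuationSubring} (hx : ev P hP x ≠ 0) : IsUnit x := by
  by_contra h
  exact hx ((ev_eq_zero_iff P hP x).mpr ((IsLocalRing.mem_maximalIdeal _).mpr h))

/-- (COVER) every place lies in the domain of the chart `t` or of the chart `t⁻¹` (and in the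
second case the value of `t⁻¹` lies in the maximal ideal of `A`). -/
theorem inDom_or_inv (A : ValuationSubring L) (t : FL) :
    (∃ h : t ∈ P.toValuationSubring, ev P hP ⟨t, h⟩ ∈ A) ∨
      (∃ h : t⁻¹ ∈ P.toValuationSubring, ∃ hA : ev P hP ⟨t⁻¹, h⟩ ∈ A,
        (⟨_, hA⟩ : A) ∈ IsLocalRing.maximalIdeal A) := by
  by_cases h1 : ∃ h : t ∈ P.toValuationSubring, ev P hP ⟨t, h⟩ ∈ A
  · exact Or.inl h1
  right
  by_cases ht : t ∈ P.toValuationSubring
  · have hev : ev P hP ⟨t, ht⟩ ∉ A := fun h => h1 ⟨ht, h⟩
    have hev0 : ev P hP ⟨t, ht⟩ ≠ 0 := fun h => hev (h ▸ A.zero_mem)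
    obtain ⟨u, hu⟩ := isUnit_of_ev_ne_zero P hP hev0
    have h2 : ((u : P.toValuationSubring) : FL) * ((u⁻¹ : (P.toValuationSubring)ˣ) : FL) = 1 :=
      Fermat.Agent.S24.H97.coe_unit_mul_coe_inv u
    have h3 : ((u : P.toValuationSubring) : FL) = t := by rw [hu]
    have h4 : ((u⁻¹ : (P.toValuationSubring)ˣ) : FL) = t⁻¹ := by
      rw [← h3]; exact eq_inv_of_mul_eq_one_right h2
    have htinv : t⁻¹ ∈ P.toValuationSubring :=
      h4 ▸ ((u⁻¹ : (P.toValuationSubring)ˣ) : P.toValuationSubring).2
    have hmul : ev P hP ⟨t, ht⟩ * ev P hP ⟨t⁻¹, htinv⟩ = 1 := by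
      rw [← map_mul]
      have : (⟨t, ht⟩ * ⟨t⁻¹, htinv⟩ : P.toValuationSubring) = 1 := by
        apply Subtype.ext
        have ht0 : t ≠ 0 := by
          rintro rfl
          exact hev0 (map_zero _)
        simp [ht0]
      rw [this, map_one]
    have heq : ev P hP ⟨t⁻¹, htinv⟩ = (ev P hP ⟨t, ht⟩)⁻¹ := eq_inv_of_mul_eq_one_right hmul
    have hA : ev P hP ⟨t⁻¹, htinv⟩ ∈ A := by
      rw [heq]; exact (A.mem_or_inv_mem _).resolve_left hev
    refine ⟨htinv, hA, ?_⟩
    rw [IsLocalRing.mem_maximalIdeal, mem_nonunits_iff]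
    rintro ⟨v, hv⟩
    apply hev
    have h5 : ((v : A) : L) * ((v⁻¹ : Aˣ) : L) = 1 := Fermat.Agent.S24.H97.coe_unit_mul_coe_inv v
    have h6 : ((v : A) : L) = (ev P hP ⟨t, ht⟩)⁻¹ := by rw [hv, ← heq]
    have h7 : ((v⁻¹ : Aˣ) : L) = ev P hP ⟨t, ht⟩ := by
      rw [h6] at h5
      have := eq_inv_of_mul_eq_one_right h5
      rw [inv_inv] at this
      exact this
    rw [← h7]
    exact ((v⁻¹ : Aˣ) : A).2
  · have htinv : t⁻¹ ∈ P.toValuationSubring :=
      (P.toValuationSubring.mem_or_inv_mem t).resolve_left ht
    have h0 : ev P hP ⟨t⁻¹, htinv⟩ = 0 := by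
      rw [ev_eq_zero_iff, IsLocalRing.mem_maximalIdeal, mem_nonunits_iff]
      rintro ⟨u, hu⟩
      apply ht
      have h2 : ((u : P.toValuationSubring) : FL) * ((u⁻¹ : (P.toValuationSubring)ˣ) : FL) = 1 :=
        Fermat.Agent.S24.H97.coe_unit_mul_coe_inv u
      have h3 : ((u : P.toValuationSubring) : FL) = t⁻¹ := by rw [hu]
      have h4 : ((u⁻¹ : (P.toValuationSubring)ˣ) : FL) = t := by
        rw [h3] at h2
        have := eq_inv_of_mul_eq_one_right h2
        rw [inv_inv] at this
        exact this
      rw [← h4]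
      exact ((u⁻¹ : (P.toValuationSubring)ˣ) : P.toValuationSubring).2
    refine ⟨htinv, h0 ▸ A.zero_mem, ?_⟩
    rw [IsLocalRing.mem_maximalIdeal, mem_nonunits_iff]
    rintro ⟨v, hv⟩
    have h5 : ((v : A) : L) = 0 := by rw [hv]; exact h0
    have h6 : ((v : A) : L) * ((v⁻¹ : Aˣ) : L) = 1 := Fermat.Agent.S24.H97.coe_unit_mul_coe_inv v
    rw [h5, zero_mul] at h6
    exact zero_ne_one h6

end Ev

section Chart

variable {L FL k Fk : Type*} [Field L] [Field FL] [Algebra L FL] [Field k] [Field Fk]
  [Algebra k Fk]
variable (A : ValuationSubring L) (π : A →+* k) (O : ValuationSubring FL) (res : O →+* Fk)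
  (t : FL)

/-- `A[t]` as a subring of `FL`. -/
def AT : Subring FL :=
  Subring.closure (Set.range (fun a : A => algebraMap L FL (a : L)) ∪ {t})

variable (L) in
/-- The chart ring: elements of the unit ball `O` which are integral over `L[t]`. -/
def BA : Subring FL :=
  O.toSubring ⊓ (integralClosure (Algebra.adjoin L {t}) FL).toSubring

variable {O t} in
theorem mem_BA {b : FL} :
    b ∈ BA L O t ↔ b ∈ O ∧ IsIntegral (Algebra.adjoin L {t}) b := Iff.rfl

theorem const_mem_AT (a : A) : algebraMap L FL (a : L) ∈ AT A t :=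
  Subring.subset_closure (Or.inl ⟨a, rfl⟩)

theorem self_mem_AT : t ∈ AT A t :=
  Subring.subset_closure (Or.inr rfl)

variable (L) {O} in
/-- Reduction restricted to the chart ring. -/
def resBA : BA L O t →+* Fk :=
  res.comp (Subring.inclusion (inf_le_left : BA L O t ≤ O.toSubring))

variable {O} in
theorem resBA_apply (b : BA L O t) : resBA L res t b = res ⟨(b : FL), b.2.1⟩ := rfl

/-- The hypotheses on the generic side of a chart (consumed from R0). -/
structure ChartHyp : Prop where
  /-- constants of `A` lie in the unit ball -/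
  constO : ∀ a : A, algebraMap L FL (a : L) ∈ O
  /-- reduction is compatible with `π` on constants -/
  const : ∀ a : A, res ⟨algebraMap L FL (a : L), constO a⟩ = algebraMap k Fk (π a)
  π_surj : Function.Surjective π
  /-- (V4): every nonzero function can be scaled to a unit of the Gauss valuation -/
  scale : ∀ f : FL, f ≠ 0 → ∃ c : L, c ≠ 0 ∧ ∃ h : c • f ∈ O, res ⟨c • f, h⟩ ≠ 0
  tO : t ∈ O
  /-- (V5): elements of the chart ring are integral over `A[t]` -/
  int : ∀ b ∈ BA L O t, IsIntegral (AT A t) b
  /-- all places of the generic fibre have residue field `L` -/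
  resL : ∀ P : Place L FL, Function.Surjective (algebraMap L P.ResidueField)

variable {A π O res t}

namespace ChartHyp

variable (H : ChartHyp A π O res t)
include H

theorem π_eq_zero_iff (a : A) : π a = 0 ↔ a ∈ IsLocalRing.maximalIdeal A := by
  have hmax : (RingHom.ker π).IsMaximal := RingHom.ker_isMaximal_of_surjective π H.π_surj
  have : RingHom.ker π = IsLocalRing.maximalIdeal A := IsLocalRing.eq_maximalIdeal hmax
  rw [← this, RingHom.mem_ker]

theorem const_mem_BA (a : A) : algebraMap L FL (a : L) ∈ BA L O t :=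
  ⟨H.constO a, isIntegral_algebraMap (R := Algebra.adjoin L {t})
    (x := ⟨algebraMap L FL (a : L), Subalgebra.algebraMap_mem _ _⟩)⟩

theorem self_mem_BA : t ∈ BA L O t :=
  ⟨H.tO, isIntegral_algebraMap (R := Algebra.adjoin L {t})
    (x := ⟨t, Algebra.self_mem_adjoin_singleton L t⟩)⟩

/-- The domain of the chart: places at which `t` is regular with value in `A`. -/
def InDom (P : Place L FL) : Prop :=
  ∃ hP : t ∈ P.toValuationSubring, ev P (H.resL P) ⟨t, hP⟩ ∈ A

/-- The subring of functions regular at `P` with value in `A`. -/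
def valRing (P : Place L FL) : Subring FL :=
  (A.toSubring.comap (ev P (H.resL P))).map P.toValuationSubring.subtype

theorem mem_valRing {P : Place L FL} {x : FL} :
    x ∈ H.valRing P ↔ ∃ hx : x ∈ P.toValuationSubring, ev P (H.resL P) ⟨x, hx⟩ ∈ A := by
  unfold valRing
  rw [Subring.mem_map]
  constructor
  · rintro ⟨y, hy, rfl⟩
    exact ⟨y.2, hy⟩
  · rintro ⟨hx, h⟩
    exact ⟨⟨x, hx⟩, h, rfl⟩

theorem AT_le_valRing {P : Place L FL} (hP : H.InDom P) : AT A t ≤ H.valRing P := by
  unfold AT
  rw [Subring.closure_le]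
  rintro x (⟨a, rfl⟩ | rfl)
  · rw [SetLike.mem_coe, mem_valRing]
    refine ⟨P.algebraMap_mem' _, ?_⟩
    have : (⟨algebraMap L FL (a : L), P.algebraMap_mem' _⟩ : P.toValuationSubring)
        = algebraMap L P.toValuationSubring (a : L) := rfl
    rw [this, ev_algebraMap]
    exact a.2
  · rw [SetLike.mem_coe, mem_valRing]
    exact hP

/-- (R1) elements of the chart ring are regular at the places of the chart. -/
theorem mem_place_of_mem_BA {P : Place L FL} (hP : H.InDom P) {b : FL} (hb : b ∈ BA L O t) :
    b ∈ P.toValuationSubring :=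
  Fermat.Agent.S24.H97.mem_of_isIntegral P hP.1 hb.2

/-- (R1) elements of the chart ring have values in `A` at the places of the chart. -/
theorem ev_mem_of_mem_BA {P : Place L FL} (hP : H.InDom P) {b : FL} (hb : b ∈ BA L O t) :
    ev P (H.resL P) ⟨b, H.mem_place_of_mem_BA hP hb⟩ ∈ A := by
  classical
  obtain ⟨p, hpm, hpb⟩ := H.int b hb
  have hle := H.AT_le_valRing hP
  have hmemP : ∀ x : AT A t, (x : FL) ∈ P.toValuationSubring := fun x =>
    (H.mem_valRing.mp (hle x.2)).1
  let incl : AT A t →+* P.toValuationSubring :=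
    (AT A t).subtype.codRestrict P.toValuationSubring.toSubring hmemP
  have hevA : ∀ x : AT A t, ev P (H.resL P) (incl x) ∈ A.toSubring := fun x =>
    (H.mem_valRing.mp (hle x.2)).2
  let φ : AT A t →+* A := ((ev P (H.resL P)).comp incl).codRestrict A.toSubring hevA
  have hcomp : (A.subtype : A →+* L).comp φ = (ev P (H.resL P)).comp incl := by
    ext x; rfl
  set b' : P.toValuationSubring := ⟨b, H.mem_place_of_mem_BA hP hb⟩ with hb'
  have h0 : Polynomial.eval₂ incl b' p = 0 := by
    apply Subtype.ext
    have := Polynomial.hom_eval₂ p incl P.toValuationSubring.subtype b'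
    rw [ZeroMemClass.coe_zero]
    change P.toValuationSubring.subtype (Polynomial.eval₂ incl b' p) = 0
    rw [this]
    exact hpb
  have hint : IsIntegral A (ev P (H.resL P) b') := by
    refine ⟨p.map φ, hpm.map φ, ?_⟩
    rw [Polynomial.eval₂_map]
    change Polynomial.eval₂ ((A.subtype : A →+* L).comp φ) _ p = 0
    rw [hcomp, ← Polynomial.hom_eval₂, h0, map_zero]
  obtain ⟨y, hy⟩ := (IsIntegrallyClosed.isIntegral_iff (R := A) (K := L)).mp hint
  rw [← hy]
  exact y.2

/-- The inclusion of the chart ring in the valuation ring of a place of the chart. -/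
def inclBA {P : Place L FL} (hP : H.InDom P) : BA L O t →+* P.toValuationSubring :=
  (BA L O t).subtype.codRestrict P.toValuationSubring.toSubring
    (fun b => H.mem_place_of_mem_BA hP b.2)

@[simp]
theorem coe_inclBA {P : Place L FL} (hP : H.InDom P) (b : BA L O t) :
    ((H.inclBA hP b : P.toValuationSubring) : FL) = (b : FL) := rfl

/-- Evaluation of the chart ring at a place of the chart, with values in `A`. -/
def evA {P : Place L FL} (hP : H.InDom P) : BA L O t →+* A :=
  ((ev P (H.resL P)).comp (H.inclBA hP)).codRestrict A.toSubring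
    (fun b => H.ev_mem_of_mem_BA hP b.2)

theorem coe_evA {P : Place L FL} (hP : H.InDom P) (b : BA L O t) :
    ((H.evA hP b : A) : L) = ev P (H.resL P) (H.inclBA hP b) := rfl

/-- The specialisation homomorphism `b ↦ π (b(P))` of the chart ring at a place of the chart. -/
def phi {P : Place L FL} (hP : H.InDom P) : BA L O t →+* k :=
  π.comp (H.evA hP)

theorem phi_apply {P : Place L FL} (hP : H.InDom P) (b : BA L O t) :
    H.phi hP b = π (H.evA hP b) := rfl

/-- The constants of `A` as elements of the chart ring. -/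
def constBA (a : A) : BA L O t := ⟨algebraMap L FL (a : L), H.const_mem_BA a⟩

theorem evA_constBA {P : Place L FL} (hP : H.InDom P) (a : A) :
    H.evA hP (H.constBA a) = a := by
  apply Subtype.ext
  rw [coe_evA]
  have : H.inclBA hP (H.constBA a) = algebraMap L P.toValuationSubring (a : L) :=
    Subtype.ext rfl
  rw [this, ev_algebraMap]

theorem phi_constBA {P : Place L FL} (hP : H.InDom P) (a : A) :
    H.phi hP (H.constBA a) = π a := by
  rw [phi_apply, evA_constBA]

theorem phi_surjective {P : Place L FL} (hP : H.InDom P) :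
    Function.Surjective (H.phi hP) := fun c => by
  obtain ⟨a, rfl⟩ := H.π_surj c
  exact ⟨H.constBA a, H.phi_constBA hP a⟩

theorem resBA_constBA (a : A) : resBA L res t (H.constBA a) = algebraMap k Fk (π a) :=
  H.const a

/-- (KER) an element of the chart ring with zero reduction specialises to zero. -/
theorem phi_eq_zero_of_resBA_eq_zero {P : Place L FL} (hP : H.InDom P) (b : BA L O t)
    (hb : resBA L res t b = 0) : H.phi hP b = 0 := by
  rcases eq_or_ne b 0 with rfl | hb0
  · exact map_zero _
  have hbF : (b : FL) ≠ 0 := fun h => hb0 (Subtype.ext h)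
  obtain ⟨c, hc0, hcO, hcres⟩ := H.scale (b : FL) hbF
  -- `c ∉ A`
  have hcA : c ∉ A := by
    intro hcA
    apply hcres
    have h1 : (⟨c • (b : FL), hcO⟩ : O) =
        ⟨algebraMap L FL c, H.constO ⟨c, hcA⟩⟩ * ⟨(b : FL), b.2.1⟩ := by
      apply Subtype.ext
      simp [Algebra.smul_def]
    rw [h1, map_mul]
    have : res ⟨(b : FL), b.2.1⟩ = 0 := hb
    rw [this, mul_zero]
  have hcinvA : c⁻¹ ∈ A := (A.mem_or_inv_mem c).resolve_left hcA
  have hcinv_max : (⟨c⁻¹, hcinvA⟩ : A) ∈ IsLocalRing.maximalIdeal A := by
    rw [IsLocalRing.mem_maximalIdeal, mem_nonunits_iff]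
    intro hu
    apply hcA
    obtain ⟨u, hu⟩ := hu
    have h1 : ((u : A) : L) * ((u⁻¹ : Aˣ) : L) = 1 :=
      Fermat.Agent.S24.H97.coe_unit_mul_coe_inv u
    have h2 : ((u : A) : L) = c⁻¹ := by rw [hu]
    rw [h2] at h1
    have h3 : ((u⁻¹ : Aˣ) : L) = c := by
      field_simp at h1
      exact h1
    rw [← h3]
    exact ((u⁻¹ : Aˣ) : A).2
  -- `c • b` lies in the chart ring
  have hcb : c • (b : FL) ∈ BA L O t := by
    refine ⟨hcO, ?_⟩
    rw [Algebra.smul_def]
    exact IsIntegral.mul (isIntegral_algebraMap (R := Algebra.adjoin L {t})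
      (x := ⟨algebraMap L FL c, Subalgebra.algebraMap_mem _ _⟩)) b.2.2
  have hprod : b = H.constBA ⟨c⁻¹, hcinvA⟩ * ⟨c • (b : FL), hcb⟩ := by
    apply Subtype.ext
    simp only [constBA, Subring.coe_mul, Algebra.smul_def]
    rw [← mul_assoc, ← map_mul, inv_mul_cancel₀ hc0, map_one, one_mul]
  rw [hprod, map_mul, phi_constBA, (H.π_eq_zero_iff _).mpr hcinv_max, zero_mul]

end ChartHyp

/-! ### The special fibre side -/

variable (L k res t) in
/-- The hypotheses on the special fibre side of a chart: `Bk` is a Dedekind model of the chart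
of the special fibre (in the application the integral closure of `k[res t]` in `Fk`), and
reduction maps the chart ring ONTO `Bk` (this surjectivity is the good reduction input). -/
structure FibreHyp (Bk : Type*) [CommRing Bk] [Algebra Bk Fk] : Prop where
  res_mem : ∀ b : BA L O t, ∃ β : Bk, algebraMap Bk Fk β = resBA L res t b
  gr : ∀ β : Bk, ∃ b : BA L O t, resBA L res t b = algebraMap Bk Fk β
  nonconst : ∀ b : BA L O t, (b : FL) = t → ∀ c : k, resBA L res t b ≠ algebraMap k Fk c

namespace ChartHyp

variable {Bk : Type*} [CommRing Bk] [IsDedekindDomain Bk] [Algebra Bk Fk] [IsFractionRing Bk Fk]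
  [Algebra k Bk] [IsScalarTower k Bk Fk]
variable (H : ChartHyp A π O res t) (G : FibreHyp L k res t Bk)

omit [IsDedekindDomain Bk] [Algebra k Bk] [IsScalarTower k Bk Fk] in
include G in
/-- Reduction of the chart ring, with values in `Bk`. -/
theorem exists_resB :
    ∃ f : BA L O t →+* Bk, ∀ b, algebraMap Bk Fk (f b) = resBA L res t b := by
  have hinj : Function.Injective (algebraMap Bk Fk) := IsFractionRing.injective Bk Fk
  let e : Bk ≃+* (algebraMap Bk Fk).range :=
    RingEquiv.ofBijective (algebraMap Bk Fk).rangeRestrict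
      ⟨fun x y h => hinj (congrArg Subtype.val h), (algebraMap Bk Fk).rangeRestrict_surjective⟩
  have hmem : ∀ b : BA L O t, resBA L res t b ∈ (algebraMap Bk Fk).range := fun b => by
    obtain ⟨β, hβ⟩ := G.res_mem b
    exact ⟨β, hβ⟩
  refine ⟨(e.symm : (algebraMap Bk Fk).range →+* Bk).comp
    ((resBA L res t).codRestrict (algebraMap Bk Fk).range hmem), fun b => ?_⟩
  have h1 : ∀ y : (algebraMap Bk Fk).range, algebraMap Bk Fk (e.symm y) = (y : Fk) := by
    intro y
    have := e.apply_symm_apply y
    exact congrArg Subtype.val this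
  simp only [RingHom.coe_comp, RingHom.coe_coe, Function.comp_apply]
  rw [h1]
  rfl

/-- Reduction of the chart ring, with values in `Bk`. -/
def resB : BA L O t →+* Bk := (exists_resB G).choose

omit [IsDedekindDomain Bk] [Algebra k Bk] [IsScalarTower k Bk Fk] in
theorem algebraMap_resB (b : BA L O t) : algebraMap Bk Fk (resB G b) = resBA L res t b :=
  (exists_resB G).choose_spec b

omit [IsDedekindDomain Bk] [Algebra k Bk] [IsScalarTower k Bk Fk] in
theorem resB_surjective : Function.Surjective (resB G) := fun β => by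
  obtain ⟨b, hb⟩ := G.gr β
  refine ⟨b, IsFractionRing.injective Bk Fk ?_⟩
  rw [algebraMap_resB, hb]

omit [IsDedekindDomain Bk] in
include H in
theorem resB_constBA (a : A) : resB G (H.constBA a) = algebraMap k Bk (π a) := by
  apply IsFractionRing.injective Bk Fk
  rw [algebraMap_resB, H.resBA_constBA, ← IsScalarTower.algebraMap_apply]

omit [IsDedekindDomain Bk] [Algebra k Bk] [IsScalarTower k Bk Fk] in
theorem ker_resB_le {P : Place L FL} (hP : H.InDom P) :
    RingHom.ker (resB G) ≤ RingHom.ker (H.phi hP) := by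
  intro b hb
  rw [RingHom.mem_ker] at hb ⊢
  apply H.phi_eq_zero_of_resBA_eq_zero hP b
  rw [← algebraMap_resB G, hb, map_zero]

/-- The specialisation homomorphism of the special fibre chart `Bk → k` at (the centre of) a
place of the chart. -/
def psi {P : Place L FL} (hP : H.InDom P) : Bk →+* k :=
  (resB G).liftOfSurjective (resB_surjective G) ⟨H.phi hP, H.ker_resB_le G hP⟩

omit [IsDedekindDomain Bk] [Algebra k Bk] [IsScalarTower k Bk Fk] in
theorem psi_resB {P : Place L FL} (hP : H.InDom P) (b : BA L O t) :
    H.psi G hP (resB G b) = H.phi hP b :=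
  (resB G).liftOfRightInverse_comp_apply _ _ ⟨H.phi hP, H.ker_resB_le G hP⟩ b

omit [IsDedekindDomain Bk] in
theorem psi_algebraMap {P : Place L FL} (hP : H.InDom P) (c : k) :
    H.psi G hP (algebraMap k Bk c) = c := by
  obtain ⟨a, rfl⟩ := H.π_surj c
  rw [← H.resB_constBA G, psi_resB, phi_constBA]

omit [IsDedekindDomain Bk] in
theorem psi_surjective {P : Place L FL} (hP : H.InDom P) :
    Function.Surjective (H.psi G hP) := fun c => ⟨algebraMap k Bk c, H.psi_algebraMap G hP c⟩

omit [IsDedekindDomain Bk] in
/-- `β - ψ(β)` lies in the kernel of `ψ`. -/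
theorem sub_psi_mem_ker {P : Place L FL} (hP : H.InDom P) (β : Bk) :
    β - algebraMap k Bk (H.psi G hP β) ∈ RingHom.ker (H.psi G hP) := by
  rw [RingHom.mem_ker, map_sub, psi_algebraMap, sub_self]

omit [IsDedekindDomain Bk] in
theorem ker_psi_isMaximal {P : Place L FL} (hP : H.InDom P) :
    (RingHom.ker (H.psi G hP)).IsMaximal :=
  RingHom.ker_isMaximal_of_surjective _ (H.psi_surjective G hP)

omit [IsDedekindDomain Bk] in
theorem ker_psi_ne_bot {P : Place L FL} (hP : H.InDom P) :
    RingHom.ker (H.psi G hP) ≠ ⊥ := by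
  intro hbot
  set tB : BA L O t := ⟨t, H.self_mem_BA⟩ with htB
  have h1 := H.sub_psi_mem_ker G hP (resB G tB)
  rw [hbot, Ideal.mem_bot, sub_eq_zero] at h1
  obtain ⟨c, hc⟩ : ∃ c : k, resB G tB = algebraMap k Bk c := ⟨_, h1⟩
  apply G.nonconst tB rfl c
  rw [← algebraMap_resB G, hc, ← IsScalarTower.algebraMap_apply]

/-- The centre of a place of the chart, as a height one prime of the special fibre chart. -/
def centerPrime {P : Place L FL} (hP : H.InDom P) : HeightOneSpectrum Bk where
  asIdeal := RingHom.ker (H.psi G hP)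
  isPrime := (H.ker_psi_isMaximal G hP).isPrime
  ne_bot := H.ker_psi_ne_bot G hP

theorem centerPrime_asIdeal {P : Place L FL} (hP : H.InDom P) :
    (H.centerPrime G hP).asIdeal = RingHom.ker (H.psi G hP) := rfl

/-- (R2) The centre of a place of the chart on the special fibre. -/
def center {P : Place L FL} (hP : H.InDom P) : Place k Fk :=
  Fermat.Agent.S24.H42.placeOf (K := k) (H.centerPrime G hP)

/-- Elements of `Bk` are regular at every centre. -/
theorem algebraMap_mem_center {P : Place L FL} (hP : H.InDom P) (β : Bk) :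
    algebraMap Bk Fk β ∈ (H.center G hP).toValuationSubring :=
  Fermat.Agent.S24.H42.algebraMap_mem_placeOf _ β

/-- Reductions of elements of the chart ring are regular at every centre. -/
theorem resBA_mem_center {P : Place L FL} (hP : H.InDom P) (b : BA L O t) :
    resBA L res t b ∈ (H.center G hP).toValuationSubring := by
  rw [← algebraMap_resB G]
  exact H.algebraMap_mem_center G hP _

/-- (EV), valuation form: `res b - π (b(P))` lies in the maximal ideal of the centre. -/
theorem center_spec_val {P : Place L FL} (hP : H.InDom P) (b : BA L O t) :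
    (H.centerPrime G hP).valuation Fk
      (resBA L res t b - algebraMap k Fk (H.phi hP b)) < 1 := by
  have h1 : resBA L res t b - algebraMap k Fk (H.phi hP b) =
      algebraMap Bk Fk (resB G b - algebraMap k Bk (H.psi G hP (resB G b))) := by
    rw [map_sub, algebraMap_resB, ← IsScalarTower.algebraMap_apply, psi_resB]
  rw [h1, HeightOneSpectrum.valuation_lt_one_iff_mem]
  exact H.sub_psi_mem_ker G hP _

theorem ord_placeOf_pos_iff (w : HeightOneSpectrum Bk) {f : Fk} (hf : f ≠ 0) :
    0 < (Fermat.Agent.S24.H42.placeOf (K := k) w).ord f ↔ w.valuation Fk f < 1 := by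
  rw [Fermat.Agent.S24.H42.ord_placeOf, neg_pos,
    WithZero.log_lt_iff_lt_exp ((Valuation.ne_zero_iff _).mpr hf), WithZero.exp_zero]

/-- (EV), order form. -/
theorem center_spec {P : Place L FL} (hP : H.InDom P) (b : BA L O t)
    (hne : resBA L res t b - algebraMap k Fk (H.phi hP b) ≠ 0) :
    0 < (H.center G hP).ord (resBA L res t b - algebraMap k Fk (H.phi hP b)) :=
  (ord_placeOf_pos_iff _ hne).mpr (H.center_spec_val G hP b)

/-- (EV), residue form: `res b` and the constant `π (b(P))` have the same residue at the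
centre. -/
theorem center_spec_residue {P : Place L FL} (hP : H.InDom P) (b : BA L O t) :
    IsLocalRing.residue (H.center G hP).toValuationSubring
        ⟨resBA L res t b, H.resBA_mem_center G hP b⟩ =
      IsLocalRing.residue (H.center G hP).toValuationSubring
        (algebraMap k (H.center G hP).toValuationSubring (H.phi hP b)) := by
  rw [← sub_eq_zero, ← map_sub]
  set x : (H.center G hP).toValuationSubring :=
    ⟨resBA L res t b, H.resBA_mem_center G hP b⟩ -
      algebraMap k (H.center G hP).toValuationSubring (H.phi hP b) with hx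
  have hcoe : (x : Fk) = resBA L res t b - algebraMap k Fk (H.phi hP b) := rfl
  have hval : (H.centerPrime G hP).valuation Fk (x : Fk) < 1 := by
    rw [hcoe]; exact H.center_spec_val G hP b
  exact (Fermat.Agent.S24.H42.residue_eq_zero_iff_valuation_lt_one (K := k)
    (H.centerPrime G hP) x).mpr hval

/-- The centre has degree one. -/
theorem deg_center {P : Place L FL} (hP : H.InDom P) : (H.center G hP).deg = 1 := by
  unfold center
  rw [Fermat.Agent.S24.H42.deg_placeOf]
  set I := (H.centerPrime G hP).asIdeal with hI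
  have hbij : Function.Bijective (Algebra.linearMap k (Bk ⧸ I)) := by
    have : I.IsMaximal := H.ker_psi_isMaximal G hP
    refine ⟨(algebraMap k (Bk ⧸ I)).injective, fun y => ?_⟩
    obtain ⟨β, rfl⟩ := Ideal.Quotient.mk_surjective y
    refine ⟨H.psi G hP β, ?_⟩
    rw [Algebra.linearMap_apply, IsScalarTower.algebraMap_apply k Bk (Bk ⧸ I),
      Ideal.Quotient.algebraMap_eq, eq_comm, Ideal.Quotient.eq]
    exact H.sub_psi_mem_ker G hP β
  have e : k ≃ₗ[k] (Bk ⧸ I) := LinearEquiv.ofBijective _ hbij
  rw [← e.finrank_eq, Module.finrank_self]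

/-- (UNIQ) the centre is the only place of the special fibre chart at which all elements of the
chart ring vanishing at `P` (after specialisation) vanish. -/
theorem center_unique {P : Place L FL} (hP : H.InDom P) (Q : Place k Fk)
    (hB : ∀ β : Bk, algebraMap Bk Fk β ∈ Q.toValuationSubring)
    (hEV : ∀ b : BA L O t, H.phi hP b = 0 → resBA L res t b ≠ 0 →
      0 < Q.ord (resBA L res t b)) :
    Q = H.center G hP := by
  obtain ⟨w, rfl⟩ := Fermat.Agent.S24.H42.exists_placeOf_eq (K := k) Q hB
  unfold center
  congr 1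
  apply HeightOneSpectrum.ext
  symm
  apply (H.ker_psi_isMaximal G hP).eq_of_le w.isPrime.ne_top
  intro β hβ
  rw [RingHom.mem_ker] at hβ
  obtain ⟨b, rfl⟩ := resB_surjective G β
  rw [psi_resB] at hβ
  rcases eq_or_ne (resB G b) 0 with h0 | h0
  · rw [h0]; exact Ideal.zero_mem _
  have hne : resBA L res t b ≠ 0 := by
    rw [← algebraMap_resB G]
    exact fun h => h0 (IsFractionRing.injective Bk Fk (by rw [h, map_zero]))
  have := hEV b hβ hne
  rw [ord_placeOf_pos_iff _ hne, ← algebraMap_resB G,
    HeightOneSpectrum.valuation_lt_one_iff_mem] at this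
  exact this

end ChartHyp

end Chart

end Fermat.Agent.S18.H97
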