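/-
S18 / R-EXIST: bridge from the abstract ORTHO-INT package (`H27_OrthoInt`) to helper97's
chart vocabulary (`H97_Center`): the field `int` of `H97.ChartHyp`.
-/
import Mathlib
import Fermat.Agent.S18.H27_OrthoInt
import Fermat.Agent.S18.H97_Center

set_option autoImplicit false

namespace Fermat.Agent.S18.H27

open Polynomial IntermediateField

variable {L k F Fk : Type*} [Field L] [Field k] [Field F] [Field Fk] [Algebra L F] [Algebra k Fk]
  {A : ValuationSubring L} {π : A →+* k} {O : ValuationSubring F} {res : O →+* Fk} {t : F}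

theorem AT_eq_H97 (A : ValuationSubring L) (t : F) : AT A t = H97.AT A t := rfl

/-- The field `int` of helper97's `ChartHyp`, from the Gauss data and an orthonormal basis. -/
theorem chartHyp_int (G : GaussData A π O res t) {ι : Type*} [Fintype ι] (e : ι → F)
    (he : ∀ i, e i ∈ O) (hek : LinearIndependent k⟮G.tk⟯ (fun i => res ⟨e i, he i⟩))
    (hspan : ∀ x : F, ∃ c : ι → F, (∀ i, c i ∈ L⟮t⟯) ∧ x = ∑ i, c i * e i) :
    ∀ b ∈ H97.BA L O t, IsIntegral (H97.AT A t) b :=
  fun _ hb => G.isIntegral_AT e he hek hspan hb.1 hb.2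

end Fermat.Agent.S18.H27
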