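/-
S18 / R-EXIST: adapter from helper92's abstract Gauss model (`H92.TwoGen`: unit ball `unitBall`,
reduction `resHom`) to the hypothesis bundle `H27.GaussData` of the ORTHO-INT package, for both
chart coordinates `t = x` and `t = x⁻¹`.
-/
import Mathlib
import Fermat.Agent.S18.H27_OrthoInt
import Fermat.Agent.S18.H92_GaussModel

set_option autoImplicit false

noncomputable section

namespace Fermat.Agent.S18.H27

open Polynomial Fermat.Agent.S18.H92

variable {L : Type*} [Field L] {k : Type*} [Field k] {A : ValuationSubring L} {π : A →+* k}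
  (T : TwoGen A π)
  (F : IntermediateField L (LaurentSeries L)) (hF : F = T.FL)
  (Fb : IntermediateField k (LaurentSeries k)) (hFb : Fb = T.Fk)

/-- the first generator as an element of the function field -/
def xF : F := ⟨T.xL, hF ▸ IntermediateField.subset_adjoin L _ (Set.mem_insert _ _)⟩

theorem coe_xF : ((xF T F hF : F) : LaurentSeries L) = T.xL := rfl

theorem one_le_n : 1 ≤ T.n := by
  by_contra h
  have h0 : T.n = 0 := by omega
  have h1 : T.Φ = 1 := by
    have hd : T.Φ.natDegree = 0 := by rw [T.natDegree_eq, h0]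
    exact Polynomial.eq_one_of_monic_natDegree_zero T.monic hd
  have h2 := T.root
  rw [h1, map_one] at h2
  exact one_ne_zero h2

theorem xF_mem : xF T F hF ∈ T.unitBall F hF :=
  (T.up_mem_unitBall F hF T.Fk rfl (z := T.x) (xF T F hF).2).1

theorem ne_zero_of_transcendental {R S : Type*} [CommRing R] [Ring S] [Algebra R S] [Nontrivial R]
    {x : S} (hx : Transcendental R x) : x ≠ 0 := fun h0 => hx (h0 ▸ isAlgebraic_zero)

omit hF in
include hFb in
theorem xk_mem : T.xk ∈ Fb := hFb ▸ IntermediateField.subset_adjoin k _ (Set.mem_insert _ _)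

theorem coe_resHom_xF :
    ((T.resHom F hF Fb hFb ⟨xF T F hF, xF_mem T F hF⟩ : Fb) : LaurentSeries k) = T.xk :=
  (T.up_mem_unitBall F hF Fb hFb (z := T.x) (xF T F hF).2).2

theorem transcendental_res_xF :
    Transcendental k (T.resHom F hF Fb hFb ⟨xF T F hF, xF_mem T F hF⟩) := by
  rw [transcendental_iff]
  intro p hp
  have h1 : Polynomial.aeval T.xk p = 0 := by
    have h0 := Polynomial.aeval_algHom_apply Fb.val
      (T.resHom F hF Fb hFb ⟨xF T F hF, xF_mem T F hF⟩) p
    rw [hp, map_zero] at h0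
    rw [← h0, ← coe_resHom_xF T F hF Fb hFb]
    rfl
  have h2 : ev2 T.xk T.yk (C p) = 0 := by rw [ev2_C]; exact h1
  have hdeg : (C p : k[X][X]).degree < T.n := by
    refine lt_of_le_of_lt Polynomial.degree_C_le ?_
    exact_mod_cast Nat.lt_of_lt_of_le Nat.zero_lt_one (one_le_n T)
  have h3 := T.indep (C p) hdeg h2
  exact Polynomial.C_eq_zero.1 h3

/-- **`GaussData` for the chart `t = x`.** -/
theorem gaussData_x :
    GaussData A π (T.unitBall F hF) (T.resHom F hF Fb hFb) (xF T F hF) where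
  π_surj := T.surj
  res_surj := T.resHom_surjective F hF Fb hFb
  const_mem_iff := T.algebraMap_mem_unitBall_iff F hF
  res_const := fun a _ => T.resHom_algebraMap F hF Fb hFb a
  t_mem := xF_mem T F hF
  transc := transcendental_res_xF T F hF Fb hFb

theorem xF_inv_mem : (xF T F hF)⁻¹ ∈ T.unitBall F hF := by
  have hne : T.resHom F hF T.Fk rfl ⟨xF T F hF, xF_mem T F hF⟩ ≠ 0 :=
    ne_zero_of_transcendental (transcendental_res_xF T F hF T.Fk rfl)
  have hu : IsUnit (⟨xF T F hF, xF_mem T F hF⟩ : T.unitBall F hF) := by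
    by_contra h
    exact hne ((T.resHom_eq_zero_iff F hF T.Fk rfl _).2 h)
  obtain ⟨u, hu'⟩ := hu
  have h1 : ((u : T.unitBall F hF) : F) = xF T F hF := by rw [hu']
  have h2 : ((u : T.unitBall F hF) : F) * (((u⁻¹ : (T.unitBall F hF)ˣ) : T.unitBall F hF) : F) = 1 := by
    rw [← MulMemClass.coe_mul, ← Units.val_mul, mul_inv_cancel, Units.val_one]
    rfl
  have h3 : (xF T F hF)⁻¹ = (((u⁻¹ : (T.unitBall F hF)ˣ) : T.unitBall F hF) : F) := by
    rw [← h1]
    exact inv_eq_of_mul_eq_one_right h2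
  rw [h3]
  exact (((u⁻¹ : (T.unitBall F hF)ˣ) : T.unitBall F hF)).2

theorem resHom_xF_inv :
    T.resHom F hF Fb hFb ⟨(xF T F hF)⁻¹, xF_inv_mem T F hF⟩ =
      (T.resHom F hF Fb hFb ⟨xF T F hF, xF_mem T F hF⟩)⁻¹ := by
  have hne : T.resHom F hF Fb hFb ⟨xF T F hF, xF_mem T F hF⟩ ≠ 0 :=
    ne_zero_of_transcendental (transcendental_res_xF T F hF Fb hFb)
  have hx0 : xF T F hF ≠ 0 := by
    intro h0
    apply hne
    have : (⟨xF T F hF, xF_mem T F hF⟩ : T.unitBall F hF) = 0 := Subtype.ext h0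
    rw [this, map_zero]
  have h1 : (⟨(xF T F hF)⁻¹, xF_inv_mem T F hF⟩ : T.unitBall F hF) *
      ⟨xF T F hF, xF_mem T F hF⟩ = 1 := by
    apply Subtype.ext
    show (xF T F hF)⁻¹ * xF T F hF = 1
    exact inv_mul_cancel₀ hx0
  have h2 := congrArg (T.resHom F hF Fb hFb) h1
  rw [map_mul, map_one] at h2
  exact eq_inv_of_mul_eq_one_left h2

/-- **`GaussData` for the chart `t = x⁻¹`.** -/
theorem gaussData_xinv :
    GaussData A π (T.unitBall F hF) (T.resHom F hF Fb hFb) (xF T F hF)⁻¹ where
  π_surj := T.surj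
  res_surj := T.resHom_surjective F hF Fb hFb
  const_mem_iff := T.algebraMap_mem_unitBall_iff F hF
  res_const := fun a _ => T.resHom_algebraMap F hF Fb hFb a
  t_mem := xF_inv_mem T F hF
  transc := by
    rw [resHom_xF_inv]
    have h := transcendental_res_xF T F hF Fb hFb
    unfold Transcendental at h ⊢
    rwa [IsAlgebraic.inv_iff]

end Fermat.Agent.S18.H27
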