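/-
S18 / R-EXIST (helper27): the power family `1, y, …, y^(n-1)` of helper92's `H92.TwoGen` as an
orthonormal basis: on the generic fibre it spans `F = L(x,y)` over `L(x)` and is independent; its
reduction is independent over `k(xk)`.  These are the hypotheses `hek`, `hspan`, `hli` of the
ORTHO-INT package (`H27_OrthoInt`) for both charts `t = x` and `t = x⁻¹`.
-/
import Mathlib
import Fermat.Agent.S18.H27_TwoGenGauss

set_option autoImplicit false

noncomputable section

namespace Fermat.Agent.S18.H27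

open Polynomial IntermediateField Fermat.Agent.S18.H92

section Generic

variable {K E : Type*} [Field K] [Field E] [Algebra K E]

/-- evaluation of two-variable polynomials at a pair of elements of a `K`-algebra -/
def ev2E (x y : E) : K[X][X] →+* E :=
  Polynomial.eval₂RingHom (Polynomial.aeval x : K[X] →ₐ[K] E).toRingHom y

theorem ev2E_apply (x y : E) (P : K[X][X]) :
    ev2E x y P = P.eval₂ (Polynomial.aeval x : K[X] →ₐ[K] E).toRingHom y := rfl

/-- `ev2E` is compatible with `K`-algebra homomorphisms. -/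
theorem map_ev2E {E' : Type*} [Field E'] [Algebra K E'] (f : E →ₐ[K] E') (x y : E)
    (P : K[X][X]) : f (ev2E x y P) = ev2E (f x) (f y) P := by
  rw [ev2E_apply, ev2E_apply]
  have h := Polynomial.hom_eval₂ P (Polynomial.aeval x : K[X] →ₐ[K] E).toRingHom f.toRingHom y
  have h2 : f.toRingHom.comp (Polynomial.aeval x : K[X] →ₐ[K] E).toRingHom =
      (Polynomial.aeval (f x) : K[X] →ₐ[K] E').toRingHom := by
    apply Polynomial.ringHom_ext
    · intro a
      simp
    · simp
  rw [h2] at h
  exact h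

open scoped algebraAdjoinAdjoin in
/-- Polynomial independence of the powers of `y` over `K[x]` gives linear independence over the
field `K(x)`. -/
theorem linearIndependent_pow_of_indep (x y : E) (n : ℕ)
    (hind : ∀ P : K[X][X], P.degree < n → ev2E x y P = 0 → P = 0) :
    LinearIndependent K⟮x⟯ (fun i : Fin n => y ^ (i : ℕ)) := by
  classical
  rw [← LinearIndependent.iff_fractionRing (Algebra.adjoin K {x}) K⟮x⟯]
  rw [Fintype.linearIndependent_iff]
  intro g hg i
  have hmem : ∀ i, ∃ p : K[X], Polynomial.aeval x p = ((g i : Algebra.adjoin K {x}) : E) := by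
    intro i
    have h : ((g i : Algebra.adjoin K {x}) : E) ∈ (Polynomial.aeval x : K[X] →ₐ[K] E).range := by
      rw [← Algebra.adjoin_singleton_eq_range_aeval]
      exact (g i).2
    exact h
  choose p hp using hmem
  set P : K[X][X] := Polynomial.ofFn n p with hP
  have hdeg : P.degree < n := Polynomial.ofFn_degree_lt p
  have hev : ev2E x y P = 0 := by
    rw [ev2E_apply, hP, Polynomial.ofFn_eq_sum_monomial, Polynomial.eval₂_finsetSum, ← hg]
    refine Finset.sum_congr rfl fun j _ => ?_
    rw [Polynomial.eval₂_monomial, Algebra.smul_def]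
    congr 1
    exact hp j
  have h0 := hind P hdeg hev
  have hpi : p i = 0 := by
    have := congrArg (fun Q : K[X][X] => Q.coeff i) h0
    simp only [Polynomial.coeff_zero] at this
    rw [hP, Polynomial.ofFn_coeff_eq_val_of_lt p i.2] at this
    exact this
  apply Subtype.ext
  rw [← hp i, hpi, map_zero]
  rfl

/-- If `E = K(x,y)` and `y` is a root of a polynomial monic of degree `n` over `K[x]`, then the
powers `y^i`, `i < n`, span `E` over `K(x)`. -/
theorem exists_sum_pow_of_adjoin_eq_top (x y : E) (n : ℕ)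
    (htop : IntermediateField.adjoin K {x, y} = ⊤) (Φ : K[X][X]) (hΦ : Φ.Monic)
    (hdeg : Φ.natDegree = n) (hroot : ev2E x y Φ = 0) :
    ∀ z : E, ∃ c : Fin n → E, (∀ i, c i ∈ K⟮x⟯) ∧ z = ∑ i, c i * y ^ (i : ℕ) := by
  -- `y` is integral over `K(x)`
  let ψ : K[X] →+* K⟮x⟯ := (Polynomial.aeval (AdjoinSimple.gen K x) : K[X] →ₐ[K] K⟮x⟯).toRingHom
  set q : K⟮x⟯[X] := Φ.map ψ with hq
  have hqm : q.Monic := hΦ.map ψ
  have hqdeg : q.natDegree = n := by rw [hq, hΦ.natDegree_map, hdeg]
  have hcomp : (algebraMap K⟮x⟯ E).comp ψ = (Polynomial.aeval x : K[X] →ₐ[K] E).toRingHom := by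
    apply Polynomial.ringHom_ext
    · intro a
      simp [ψ]
    · simp [ψ]
  have hqy : Polynomial.aeval y q = 0 := by
    rw [Polynomial.aeval_def, hq, Polynomial.eval₂_map, hcomp]
    exact hroot
  have hint : IsIntegral K⟮x⟯ y := ⟨q, hqm, by rw [← Polynomial.aeval_def]; exact hqy⟩
  have htop' : K⟮x⟯⟮y⟯ = ⊤ := by
    apply IntermediateField.restrictScalars_injective K
    rw [IntermediateField.adjoin_simple_adjoin_simple, htop, IntermediateField.restrictScalars_top]
  let pb := IntermediateField.adjoin.powerBasis hint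
  have hdim : pb.dim ≤ n := by
    rw [IntermediateField.adjoin.powerBasis_dim, ← hqdeg]
    exact Polynomial.natDegree_le_of_dvd (minpoly.dvd _ _ hqy) hqm.ne_zero
  intro z
  have hz : z ∈ K⟮x⟯⟮y⟯ := by rw [htop']; exact IntermediateField.mem_top
  obtain ⟨f, hf, hzf⟩ := pb.exists_eq_aeval ⟨z, hz⟩
  have hfn : f.natDegree < n := lt_of_lt_of_le hf hdim
  refine ⟨fun i => algebraMap K⟮x⟯ E (f.coeff i), fun i => (f.coeff i).2, ?_⟩
  have h1 : z = Polynomial.aeval y f := by
    have h2 := congrArg (fun w : K⟮x⟯⟮y⟯ => (w : E)) hzf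
    simp only at h2
    rw [h2, IntermediateField.adjoin.powerBasis_gen]
    have h3 := Polynomial.aeval_algHom_apply (K⟮x⟯⟮y⟯).val (AdjoinSimple.gen K⟮x⟯ y) f
    exact h3.symm
  rw [h1, Polynomial.aeval_eq_sum_range' hfn, Finset.sum_range]
  refine Finset.sum_congr rfl fun i _ => ?_
  rw [Algebra.smul_def]

/-- Adjoining the inverse of an element gives the same simple extension. -/
theorem adjoin_simple_inv_eq' (x : E) : K⟮x⁻¹⟯ = K⟮x⟯ := by
  apply le_antisymm
  · rw [IntermediateField.adjoin_simple_le_iff]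
    exact inv_mem (IntermediateField.mem_adjoin_simple_self K x)
  · rw [IntermediateField.adjoin_simple_le_iff]
    have h := inv_mem (IntermediateField.mem_adjoin_simple_self K x⁻¹)
    rwa [inv_inv] at h

/-- linear independence only depends on the underlying set of the coefficient field -/
theorem linearIndependent_congr_field {ι : Type*} {E1 E2 : IntermediateField K E} (h : E1 = E2)
    (e : ι → E) (he : LinearIndependent E1 e) : LinearIndependent E2 e := by
  subst h
  exact he

end Generic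

section TwoGenInst

variable {L : Type*} [Field L] {k : Type*} [Field k] {A : ValuationSubring L} {π : A →+* k}
  (T : TwoGen A π)
  (F : IntermediateField L (LaurentSeries L)) (hF : F = T.FL)
  (Fb : IntermediateField k (LaurentSeries k)) (hFb : Fb = T.Fk)

/-- the second generator as an element of the function field -/
def yF : F := ⟨T.yL, hF ▸ IntermediateField.subset_adjoin L _ (Set.mem_insert_of_mem _ rfl)⟩

theorem coe_yF : ((yF T F hF : F) : LaurentSeries L) = T.yL := rfl

theorem yF_mem : yF T F hF ∈ T.unitBall F hF :=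
  (T.up_mem_unitBall F hF T.Fk rfl (z := T.y) (yF T F hF).2).1

theorem coe_resHom_yF :
    ((T.resHom F hF Fb hFb ⟨yF T F hF, yF_mem T F hF⟩ : Fb) : LaurentSeries k) = T.yk :=
  (T.up_mem_unitBall F hF Fb hFb (z := T.y) (yF T F hF).2).2

/-- the power family `1, y, …, y^(n-1)` -/
def powFam (i : Fin T.n) : F := yF T F hF ^ (i : ℕ)

theorem powFam_mem (i : Fin T.n) : powFam T F hF i ∈ T.unitBall F hF :=
  pow_mem (yF_mem T F hF) _

theorem resHom_powFam (i : Fin T.n) :
    T.resHom F hF Fb hFb ⟨powFam T F hF i, powFam_mem T F hF i⟩ =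
      (T.resHom F hF Fb hFb ⟨yF T F hF, yF_mem T F hF⟩) ^ (i : ℕ) := by
  rw [← map_pow]
  rfl

theorem val_ev2E (P : L[X][X]) :
    ((ev2E (xF T F hF) (yF T F hF) P : F) : LaurentSeries L) = ev2 T.xL T.yL P :=
  map_ev2E F.val (xF T F hF) (yF T F hF) P

theorem val_ev2E_res (P : k[X][X]) :
    ((ev2E (T.resHom F hF Fb hFb ⟨xF T F hF, xF_mem T F hF⟩)
      (T.resHom F hF Fb hFb ⟨yF T F hF, yF_mem T F hF⟩) P : Fb) : LaurentSeries k) =
      ev2 T.xk T.yk P := by
  have h := map_ev2E Fb.val (T.resHom F hF Fb hFb ⟨xF T F hF, xF_mem T F hF⟩)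
    (T.resHom F hF Fb hFb ⟨yF T F hF, yF_mem T F hF⟩) P
  have hx : Fb.val (T.resHom F hF Fb hFb ⟨xF T F hF, xF_mem T F hF⟩) = T.xk :=
    coe_resHom_xF T F hF Fb hFb
  have hy : Fb.val (T.resHom F hF Fb hFb ⟨yF T F hF, yF_mem T F hF⟩) = T.yk :=
    coe_resHom_yF T F hF Fb hFb
  rw [hx, hy] at h
  exact h

/-- independence of the powers of `y` over `L[x]` (from the independence of the reductions) -/
theorem indepL (P : L[X][X]) (hdeg : P.degree < T.n) (h : ev2 T.xL T.yL P = 0) : P = 0 := by
  by_contra hP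
  obtain ⟨c, _, Q, hQ, hred⟩ := T.exists_scale_poly P hP hdeg
  apply hred
  have h1 : up A (ev2 T.x T.y Q) = 0 := by
    rw [T.up_ev2, hQ, map_mul, h, mul_zero]
  have h2 : ev2 T.x T.y Q = 0 := up_injective A (by rw [h1, map_zero])
  rw [h2, map_zero]

/-- **(hli)** for the chart `t = x`. -/
theorem linearIndependent_powFam :
    LinearIndependent L⟮xF T F hF⟯ (powFam T F hF) :=
  linearIndependent_pow_of_indep (xF T F hF) (yF T F hF) T.n (fun P hdeg h =>
    indepL T P hdeg (by rw [← val_ev2E T F hF P, h]; rfl))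

/-- **(hek)** for the chart `t = x`. -/
theorem linearIndependent_res_powFam :
    LinearIndependent k⟮(gaussData_x T F hF Fb hFb).tk⟯
      (fun i => T.resHom F hF Fb hFb ⟨powFam T F hF i, powFam_mem T F hF i⟩) := by
  have h := linearIndependent_pow_of_indep
    (T.resHom F hF Fb hFb ⟨xF T F hF, xF_mem T F hF⟩)
    (T.resHom F hF Fb hFb ⟨yF T F hF, yF_mem T F hF⟩) T.n (fun P hdeg h =>
      T.indep P hdeg (by rw [← val_ev2E_res T F hF Fb hFb P, h]; rfl))
  have hfun : (fun i : Fin T.n => T.resHom F hF Fb hFb ⟨powFam T F hF i, powFam_mem T F hF i⟩) =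
      fun i : Fin T.n => (T.resHom F hF Fb hFb ⟨yF T F hF, yF_mem T F hF⟩) ^ (i : ℕ) :=
    funext (resHom_powFam T F hF Fb hFb)
  rw [hfun]
  exact h

theorem adjoin_xF_yF : IntermediateField.adjoin L {xF T F hF, yF T F hF} = ⊤ := by
  apply IntermediateField.lift_injective F
  rw [IntermediateField.lift_adjoin, IntermediateField.lift_top, Set.image_pair]
  exact hF.symm

/-- **(hspan)** for the chart `t = x`. -/
theorem exists_sum_powFam (z : F) :
    ∃ c : Fin T.n → F, (∀ i, c i ∈ L⟮xF T F hF⟯) ∧ z = ∑ i, c i * powFam T F hF i := by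
  have hdeg : T.ΦL.natDegree = T.n := by
    rw [TwoGen.ΦL, T.monic.natDegree_map, T.natDegree_eq]
  have hroot : ev2E (xF T F hF) (yF T F hF) T.ΦL = 0 := by
    apply Subtype.ext
    rw [val_ev2E, T.ev2_ΦL]
    rfl
  exact exists_sum_pow_of_adjoin_eq_top (xF T F hF) (yF T F hF) T.n (adjoin_xF_yF T F hF)
    T.ΦL T.ΦL_monic hdeg hroot z

/-! ### the chart `t = x⁻¹` -/

/-- **(hli)** for the chart `t = x⁻¹`. -/
theorem linearIndependent_powFam_inv :
    LinearIndependent L⟮(xF T F hF)⁻¹⟯ (powFam T F hF) :=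
  linearIndependent_congr_field (adjoin_simple_inv_eq' (xF T F hF)).symm _
    (linearIndependent_powFam T F hF)

theorem tk_xinv : (gaussData_xinv T F hF Fb hFb).tk = ((gaussData_x T F hF Fb hFb).tk)⁻¹ :=
  resHom_xF_inv T F hF Fb hFb

/-- **(hek)** for the chart `t = x⁻¹`. -/
theorem linearIndependent_res_powFam_inv :
    LinearIndependent k⟮(gaussData_xinv T F hF Fb hFb).tk⟯
      (fun i => T.resHom F hF Fb hFb ⟨powFam T F hF i, powFam_mem T F hF i⟩) := by
  refine linearIndependent_congr_field ?_ _ (linearIndependent_res_powFam T F hF Fb hFb)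
  rw [tk_xinv, adjoin_simple_inv_eq']

/-- **(hspan)** for the chart `t = x⁻¹`. -/
theorem exists_sum_powFam_inv (z : F) :
    ∃ c : Fin T.n → F, (∀ i, c i ∈ L⟮(xF T F hF)⁻¹⟯) ∧ z = ∑ i, c i * powFam T F hF i := by
  obtain ⟨c, hc, hz⟩ := exists_sum_powFam T F hF z
  refine ⟨c, fun i => ?_, hz⟩
  rw [adjoin_simple_inv_eq']
  exact hc i

end TwoGenInst

end Fermat.Agent.S18.H27
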