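/-
S18 / R-EXIST (I2) CenterInst, abstract form (helper27): the two chart hypotheses
`H97.ChartHyp` (charts `t = x` and `t = x⁻¹`) for the Gauss model of helper92's `H92.TwoGen`.
Every field is discharged here except `resL` (all places of the generic fibre are rational),
which stays a hypothesis.  The orthonormal basis is the power family `1, y, …, y^(n-1)`
(`H27.powFam`); the same family feeds `H35.sepHyp_fw`.
-/
import Mathlib
import Fermat.Agent.S18.H27_TwoGenBasis
import Fermat.Agent.S18.H27_OrthoIntBridge

set_option autoImplicit false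

noncomputable section

namespace Fermat.Agent.S18.H27

open Polynomial IntermediateField AlgebraicCurve Fermat.Agent.S18.H92

variable {L : Type*} [Field L] {k : Type*} [Field k] {A : ValuationSubring L} {π : A →+* k}
  (T : TwoGen A π)
  (F : IntermediateField L (LaurentSeries L)) (hF : F = T.FL)
  (Fb : IntermediateField k (LaurentSeries k)) (hFb : Fb = T.Fk)

theorem chartHyp_scale (f : F) (hf : f ≠ 0) :
    ∃ c : L, c ≠ 0 ∧ ∃ h : c • f ∈ T.unitBall F hF, T.resHom F hF Fb hFb ⟨c • f, h⟩ ≠ 0 := by
  obtain ⟨c, hc, h, hne⟩ := T.exists_const_mul_mem F hF Fb hFb f hf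
  have heq : c • f = algebraMap L F c * f := Algebra.smul_def c f
  refine ⟨c, hc, heq ▸ h, ?_⟩
  intro h0
  apply hne
  rw [← h0]
  congr 1

/-- **(I2), chart `t = x`.** -/
theorem chartHyp_x (hresL : ∀ P : Place L F, Function.Surjective (algebraMap L P.ResidueField)) :
    H97.ChartHyp A π (T.unitBall F hF) (T.resHom F hF Fb hFb) (xF T F hF) where
  constO := fun a => (T.algebraMap_mem_unitBall_iff F hF a).2 a.2
  const := fun a => T.resHom_algebraMap F hF Fb hFb a
  π_surj := T.surj
  scale := chartHyp_scale T F hF Fb hFb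
  tO := xF_mem T F hF
  int := chartHyp_int (gaussData_x T F hF Fb hFb) (powFam T F hF) (powFam_mem T F hF)
    (linearIndependent_res_powFam T F hF Fb hFb) (exists_sum_powFam T F hF)
  resL := hresL

/-- **(I2), chart `t = x⁻¹`.** -/
theorem chartHyp_xinv
    (hresL : ∀ P : Place L F, Function.Surjective (algebraMap L P.ResidueField)) :
    H97.ChartHyp A π (T.unitBall F hF) (T.resHom F hF Fb hFb) (xF T F hF)⁻¹ where
  constO := fun a => (T.algebraMap_mem_unitBall_iff F hF a).2 a.2
  const := fun a => T.resHom_algebraMap F hF Fb hFb a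
  π_surj := T.surj
  scale := chartHyp_scale T F hF Fb hFb
  tO := xF_inv_mem T F hF
  int := chartHyp_int (gaussData_xinv T F hF Fb hFb) (powFam T F hF) (powFam_mem T F hF)
    (linearIndependent_res_powFam_inv T F hF Fb hFb) (exists_sum_powFam_inv T F hF)
  resL := hresL

end Fermat.Agent.S18.H27
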