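import Mathlib

/-!
# Counting roots of an integral polynomial in a residue class

`A` a valuation subring of an algebraically closed field `L`, `p : A[X]` with nonzero reduction
`p̄` over the residue field.  Then the number of roots of `p` in `L` (with multiplicity) that lie
in `A` and reduce to a given `ā` equals the multiplicity of `ā` as a root of `p̄`.

No discreteness, no rank-one hypothesis, no Hensel: it is the normalised factorisation
`p = c · ∏_{α ∈ A} (X - α) · ∏_{α ∉ A} (1 - α⁻¹ X)` with `c` a unit of `A`.
-/

set_option autoImplicit false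

noncomputable section

namespace Fermat.Agent.S18.H35

open Polynomial

variable {L : Type*} [Field L] (A : ValuationSubring L)

/-- The "inside" factor: `∏ (X - α)` over a multiset of elements of `A`. -/
def inProd (s : Multiset A) : A[X] := (s.map fun a => X - C a).prod

/-- The "outside" factor: `∏ (1 - β X)` over a multiset of elements of `A` (the inverses of the
roots not in `A`). -/
def outProd (s : Multiset A) : A[X] := (s.map fun b => 1 - C b * X).prod

theorem inProd_monic (s : Multiset A) : (inProd A s).Monic := by
  unfold inProd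
  exact monic_multiset_prod_of_monic _ _ fun a _ => monic_X_sub_C a

theorem map_inProd {B : Type*} [CommRing B] (f : A →+* B) (s : Multiset A) :
    (inProd A s).map f = ((s.map f).map fun a => X - C a).prod := by
  unfold inProd
  rw [Polynomial.map_multiset_prod, Multiset.map_map, Multiset.map_map]
  congr 1
  refine Multiset.map_congr rfl fun a _ => ?_
  simp

theorem map_outProd {B : Type*} [CommRing B] (f : A →+* B) (s : Multiset A) :
    (outProd A s).map f = ((s.map f).map fun b => 1 - C b * X).prod := by
  unfold outProd
  rw [Polynomial.map_multiset_prod, Multiset.map_map, Multiset.map_map]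
  congr 1
  refine Multiset.map_congr rfl fun a _ => ?_
  simp

theorem map_residue_outProd (s : Multiset A) (hs : ∀ b ∈ s, b ∈ IsLocalRing.maximalIdeal A) :
    (outProd A s).map (IsLocalRing.residue A) = 1 := by
  rw [map_outProd]
  apply Multiset.prod_eq_one
  intro q hq
  rw [Multiset.mem_map] at hq
  obtain ⟨c, hc, rfl⟩ := hq
  rw [Multiset.mem_map] at hc
  obtain ⟨b, hb, rfl⟩ := hc
  have : IsLocalRing.residue A b = 0 := (IsLocalRing.residue_eq_zero_iff b).mpr (hs b hb)
  rw [this]
  simp


open scoped Classical in
/-- Normalised factorisation of `∏ (X - α)` over a multiset of elements of `L`: the roots in `A`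
stay as `X - α`, the roots outside `A` are rewritten as `(-α)(1 - α⁻¹ X)` with `α⁻¹` in the
maximal ideal. -/
theorem exists_normalised_prod (R : Multiset L) :
    ∃ (c : L) (sin sout : Multiset A), c ≠ 0 ∧ (∀ b ∈ sout, b ∈ IsLocalRing.maximalIdeal A) ∧
      (R.map fun a => X - C a).prod = C c * ((inProd A sin * outProd A sout).map A.subtype) ∧
      sin.map A.subtype = R.filter (· ∈ A) := by
  induction R using Multiset.induction_on with
  | empty =>
    refine ⟨1, 0, 0, one_ne_zero, by simp, ?_, by simp⟩
    simp [inProd, outProd]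
  | cons α R ih =>
    obtain ⟨c, sin, sout, hc, hout, hprod, hin⟩ := ih
    by_cases hα : α ∈ A
    · refine ⟨c, (⟨α, hα⟩ : A) ::ₘ sin, sout, hc, hout, ?_, ?_⟩
      · rw [Multiset.map_cons, Multiset.prod_cons, hprod]
        have h1 : inProd A ((⟨α, hα⟩ : A) ::ₘ sin) = (X - C (⟨α, hα⟩ : A)) * inProd A sin := by
          unfold inProd
          rw [Multiset.map_cons, Multiset.prod_cons]
        rw [h1, Polynomial.map_mul, Polynomial.map_mul, Polynomial.map_mul, Polynomial.map_sub,
          Polynomial.map_X, Polynomial.map_C]
        simp only [ValuationSubring.subtype_apply]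
        ring
      · rw [Multiset.map_cons, Multiset.filter_cons_of_pos _ hα, hin]
        rfl
    · have hα0 : α ≠ 0 := fun h => hα (h ▸ A.zero_mem)
      have hinv : α⁻¹ ∈ A := (A.mem_or_inv_mem α).resolve_left hα
      have hmax : (⟨α⁻¹, hinv⟩ : A) ∈ IsLocalRing.maximalIdeal A := by
        rw [IsLocalRing.mem_maximalIdeal, mem_nonunits_iff]
        intro hu
        obtain ⟨u, hu⟩ := hu
        apply hα
        have h2 : ((u⁻¹ : Aˣ) : A) * (⟨α⁻¹, hinv⟩ : A) = 1 := by
          rw [← hu]; exact u.inv_mul
        have h3 : (((u⁻¹ : Aˣ) : A) : L) * α⁻¹ = 1 := by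
          have := congrArg (A.subtype) h2
          simpa using this
        have h4 : (((u⁻¹ : Aˣ) : A) : L) = α := by
          field_simp at h3
          exact h3
        rw [← h4]
        exact ((u⁻¹ : Aˣ) : A).2
      refine ⟨(-α) * c, sin, (⟨α⁻¹, hinv⟩ : A) ::ₘ sout, mul_ne_zero (neg_ne_zero.mpr hα0) hc,
        ?_, ?_, ?_⟩
      · intro b hb
        rw [Multiset.mem_cons] at hb
        rcases hb with rfl | hb
        · exact hmax
        · exact hout b hb
      · rw [Multiset.map_cons, Multiset.prod_cons, hprod]
        have h1 : outProd A ((⟨α⁻¹, hinv⟩ : A) ::ₘ sout)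
            = (1 - C (⟨α⁻¹, hinv⟩ : A) * X) * outProd A sout := by
          unfold outProd
          rw [Multiset.map_cons, Multiset.prod_cons]
        rw [h1, Polynomial.map_mul, Polynomial.map_mul, Polynomial.map_mul, Polynomial.map_sub,
          Polynomial.map_mul, Polynomial.map_X, Polynomial.map_C, Polynomial.map_one]
        simp only [ValuationSubring.subtype_apply]
        have h2 : (X - C α : L[X]) = C (-α) * (1 - C α⁻¹ * X) := by
          have h5 : C (-α) * (C α⁻¹ : L[X]) = -1 := by
            rw [← C_mul, neg_mul, mul_inv_cancel₀ hα0]; simp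
          calc (X - C α : L[X]) = C (-α) * 1 - (-1 : L[X]) * X := by
                rw [C_neg]; ring
            _ = C (-α) * 1 - (C (-α) * C α⁻¹) * X := by rw [h5]
            _ = C (-α) * (1 - C α⁻¹ * X) := by ring
        rw [h2, C_mul]
        ring
      · rw [Multiset.filter_cons_of_neg _ hα, hin]


theorem map_subtype_injective : Function.Injective (Polynomial.map A.subtype) :=
  Polynomial.map_injective _ A.subtype_injective

open scoped Classical in
/-- **Normalised factorisation** of an integral polynomial with nonzero reduction. -/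
theorem exists_unit_factorisation [IsAlgClosed L] (p : A[X])
    (hp : p.map (IsLocalRing.residue A) ≠ 0) :
    ∃ (u : A) (sin sout : Multiset A), IsLocalRing.residue A u ≠ 0 ∧
      (∀ b ∈ sout, b ∈ IsLocalRing.maximalIdeal A) ∧
      p = C u * (inProd A sin * outProd A sout) ∧
      sin.map A.subtype = (p.map A.subtype).roots.filter (· ∈ A) := by
  set P : L[X] := p.map A.subtype with hP
  have hp0 : p ≠ 0 := by
    rintro rfl
    exact hp (Polynomial.map_zero _)
  have hP0 : P ≠ 0 := by
    intro h
    apply hp0
    apply map_subtype_injective A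
    rw [← hP, h, Polynomial.map_zero]
  have hsplit : P = C P.leadingCoeff * (P.roots.map (X - C ·)).prod :=
    (IsAlgClosed.splits P).eq_prod_roots
  obtain ⟨c, sin, sout, hc, hout, hprod, hin⟩ := exists_normalised_prod A P.roots
  have hlc : P.leadingCoeff ≠ 0 := leadingCoeff_ne_zero.mpr hP0
  set c' : L := P.leadingCoeff * c with hc'
  have hc'0 : c' ≠ 0 := mul_ne_zero hlc hc
  have hfact : P = C c' * ((inProd A sin * outProd A sout).map A.subtype) := by
    rw [hsplit, hprod, hc', C_mul, mul_assoc]
  have hres1 : (inProd A sin * outProd A sout).map (IsLocalRing.residue A)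
      = (inProd A sin).map (IsLocalRing.residue A) := by
    rw [Polynomial.map_mul, map_residue_outProd A sout hout, mul_one]
  have hmonic : ((inProd A sin).map (IsLocalRing.residue A)).Monic :=
    (inProd_monic A sin).map _
  have hc'A : c' ∈ A := by
    by_contra hnot
    have hinv : c'⁻¹ ∈ A := (A.mem_or_inv_mem c').resolve_left hnot
    have hmax : (⟨c'⁻¹, hinv⟩ : A) ∈ IsLocalRing.maximalIdeal A := by
      rw [IsLocalRing.mem_maximalIdeal, mem_nonunits_iff]
      intro hu
      obtain ⟨u, hu⟩ := hu
      apply hnot
      have h2 : ((u⁻¹ : Aˣ) : A) * (⟨c'⁻¹, hinv⟩ : A) = 1 := by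
        rw [← hu]; exact u.inv_mul
      have h3 : (((u⁻¹ : Aˣ) : A) : L) * c'⁻¹ = 1 := by
        have := congrArg (A.subtype) h2
        simpa using this
      have h4 : (((u⁻¹ : Aˣ) : A) : L) = c' := by
        field_simp at h3
        exact h3
      rw [← h4]
      exact ((u⁻¹ : Aˣ) : A).2
    have h5 : inProd A sin * outProd A sout = C (⟨c'⁻¹, hinv⟩ : A) * p := by
      apply map_subtype_injective A
      have e1 : (C (⟨c'⁻¹, hinv⟩ : A) * p).map A.subtype = C c'⁻¹ * P := by
        rw [Polynomial.map_mul, Polynomial.map_C]; rfl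
      rw [e1, hfact, ← mul_assoc, ← C_mul, inv_mul_cancel₀ hc'0, C_1, one_mul]
    have h6 := congrArg (Polynomial.map (IsLocalRing.residue A)) h5
    rw [hres1, Polynomial.map_mul, Polynomial.map_C,
      (IsLocalRing.residue_eq_zero_iff _).mpr hmax, C_0, zero_mul] at h6
    exact hmonic.ne_zero h6
  have h7 : p = C (⟨c', hc'A⟩ : A) * (inProd A sin * outProd A sout) := by
    apply map_subtype_injective A
    have e2 : (C (⟨c', hc'A⟩ : A) * (inProd A sin * outProd A sout)).map A.subtype
        = C c' * (inProd A sin * outProd A sout).map A.subtype := by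
      rw [Polynomial.map_mul, Polynomial.map_C]; rfl
    rw [e2, ← hfact]
  refine ⟨⟨c', hc'A⟩, sin, sout, ?_, hout, h7, ?_⟩
  · intro h0
    apply hp
    rw [h7, Polynomial.map_mul, Polynomial.map_C, h0, C_0, zero_mul]
  · rw [hin]

open scoped Classical in
/-- **Root count in a residue class.**  For `p : A[X]` with nonzero reduction, the number of roots
of `p` in `L` (with multiplicity) lying in `A` and reducing to `ā` is the multiplicity of `ā` as a
root of the reduction of `p`. -/
theorem card_roots_filter_eq_rootMultiplicity [IsAlgClosed L] (p : A[X])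
    (hp : p.map (IsLocalRing.residue A) ≠ 0) (abar : IsLocalRing.ResidueField A) :
    ((p.map A.subtype).roots.filter
        (fun a => ∃ h : a ∈ A, IsLocalRing.residue A ⟨a, h⟩ = abar)).card
      = (p.map (IsLocalRing.residue A)).rootMultiplicity abar := by
  obtain ⟨u, sin, sout, hu, hout, hfact, hin⟩ := exists_unit_factorisation A p hp
  -- the reduction
  have hred : p.map (IsLocalRing.residue A)
      = C (IsLocalRing.residue A u) *
        ((sin.map (IsLocalRing.residue A)).map fun a => X - C a).prod := by
    conv_lhs => rw [hfact]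
    rw [Polynomial.map_mul, Polynomial.map_C, Polynomial.map_mul,
      map_residue_outProd A sout hout, mul_one, map_inProd]
  have hroots : (p.map (IsLocalRing.residue A)).roots = sin.map (IsLocalRing.residue A) := by
    rw [hred, roots_C_mul _ hu, roots_multiset_prod_X_sub_C]
  rw [← count_roots, hroots, Multiset.count_map]
  -- the left-hand side
  have hfilter : (p.map A.subtype).roots.filter
        (fun a => ∃ h : a ∈ A, IsLocalRing.residue A ⟨a, h⟩ = abar)
      = ((p.map A.subtype).roots.filter (· ∈ A)).filter
        (fun a => ∃ h : a ∈ A, IsLocalRing.residue A ⟨a, h⟩ = abar) := by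
    rw [Multiset.filter_filter]
    refine Multiset.filter_congr fun a _ => ?_
    constructor
    · rintro ⟨h, h'⟩
      exact ⟨⟨h, h'⟩, h⟩
    · rintro ⟨h, _⟩
      exact h
  rw [hfilter, ← hin, Multiset.filter_map, Multiset.card_map]
  congr 1
  refine Multiset.filter_congr fun a _ => ?_
  constructor
  · rintro ⟨h, h'⟩
    exact h'.symm
  · intro h
    exact ⟨a.2, h.symm⟩


open scoped Classical in
/-- Sum form of `card_roots_filter_eq_rootMultiplicity`. -/
theorem sum_rootMultiplicity_eq [IsAlgClosed L] (p : A[X])
    (hp : p.map (IsLocalRing.residue A) ≠ 0) (abar : IsLocalRing.ResidueField A) :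
    ∑ a ∈ (p.map A.subtype).roots.toFinset.filter
        (fun a => ∃ h : a ∈ A, IsLocalRing.residue A ⟨a, h⟩ = abar),
      (p.map A.subtype).rootMultiplicity a
      = (p.map (IsLocalRing.residue A)).rootMultiplicity abar := by
  rw [← card_roots_filter_eq_rootMultiplicity A p hp abar,
    ← Multiset.toFinset_sum_count_eq, Multiset.toFinset_filter]
  refine Finset.sum_congr rfl fun a ha => ?_
  rw [Finset.mem_filter] at ha
  rw [Multiset.count_filter, if_pos ha.2, count_roots]

open scoped Classical in
/-- `finsum` form: sum over all `a : L` lying in `A` and reducing to `ā`. -/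
theorem finsum_rootMultiplicity_eq [IsAlgClosed L] (p : A[X])
    (hp : p.map (IsLocalRing.residue A) ≠ 0) (abar : IsLocalRing.ResidueField A) :
    ∑ᶠ a : {a : L // ∃ h : a ∈ A, IsLocalRing.residue A ⟨a, h⟩ = abar},
      (p.map A.subtype).rootMultiplicity (a : L)
      = (p.map (IsLocalRing.residue A)).rootMultiplicity abar := by
  rw [← sum_rootMultiplicity_eq A p hp abar]
  have hp0 : p.map A.subtype ≠ 0 := by
    intro h
    apply hp
    have : p = 0 := map_subtype_injective A (by rw [h, Polynomial.map_zero])
    rw [this, Polynomial.map_zero]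
  rw [finsum_subtype_eq_finsum_cond
    (f := fun a : L => (p.map A.subtype).rootMultiplicity a)
    (fun a : L => ∃ h : a ∈ A, IsLocalRing.residue A ⟨a, h⟩ = abar)]
  apply finsum_cond_eq_sum_of_cond_iff
  intro a ha
  rw [Finset.mem_filter, Multiset.mem_toFinset, mem_roots hp0]
  constructor
  · intro h
    refine ⟨?_, h⟩
    by_contra hroot
    exact ha (rootMultiplicity_eq_zero hroot)
  · exact fun h => h.2

/-- Hensel-type corollary: a root of the reduction lifts to a root in `A`. -/
theorem exists_root_of_residue_root [IsAlgClosed L] (p : A[X])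
    (hp : p.map (IsLocalRing.residue A) ≠ 0) (abar : IsLocalRing.ResidueField A)
    (h0 : (p.map (IsLocalRing.residue A)).IsRoot abar) :
    ∃ a : A, p.IsRoot a ∧ IsLocalRing.residue A a = abar := by
  classical
  have hpos : 0 < (p.map (IsLocalRing.residue A)).rootMultiplicity abar :=
    (rootMultiplicity_pos hp).mpr h0
  rw [← card_roots_filter_eq_rootMultiplicity A p hp abar, Multiset.card_pos_iff_exists_mem] at hpos
  obtain ⟨a, ha⟩ := hpos
  rw [Multiset.mem_filter] at ha
  obtain ⟨hroot, hA, hres⟩ := ha
  refine ⟨⟨a, hA⟩, ?_, hres⟩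
  have hp0 : p.map A.subtype ≠ 0 := ne_zero_of_mem_roots hroot
  have h1 : (p.map A.subtype).IsRoot a := (mem_roots hp0).mp hroot
  rw [IsRoot.def] at h1 ⊢
  apply A.subtype_injective
  rw [map_zero, ← h1, eval_map]
  exact (eval₂_hom A.subtype (⟨a, hA⟩ : A)).symm ▸ rfl

end Fermat.Agent.S18.H35

end
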