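import Mathlib
import Fermat.Prelude.Def_AlgebraicCurve_DivisorClassGroup
import Fermat.Agent.S24.H24_Basic
import Fermat.Agent.S18.H35_RootCount

/-!
# R3 (FIBREWISE) of the R-EXIST plan

Abstract form.  `L` algebraically closed with a valuation subring `A`, residue field `k`;
`F / L` and `Fk / k` two function fields in the prelude vocabulary, `x : F`, `xk : Fk`
coordinates, `b : F`, `β : Fk` (think `β = res b`).  Suppose there is ONE polynomial `n : A[X]`
with nonzero reduction (think `n(x) = N_{F/L(x)} b`) such that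

* over `L`: for every `a : L`, the sum of `ord_P b` over the places `P` with `x(P) = a`
  is the multiplicity of `a` as a root of `n`;
* over `k`: for every `ā : k`, the sum of `ord_Q β` over the places `Q` with `xk(Q) = ā`
  is the multiplicity of `ā` as a root of the reduction of `n`.

Then for every `ā : k` the sum of `ord_Q β` over the fibre `xk = ā` equals the sum of `ord_P b`
over the residue disc `{P | x(P) ∈ A, x(P) ↦ ā}`.
-/

set_option autoImplicit false

noncomputable section

namespace Fermat.Agent.S18.H35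

open Polynomial AlgebraicCurve Fermat.Agent.S24.H24

section Fibre

variable {L F : Type*} [Field L] [Field F] [Algebra L F]

/-- The fibre of the coordinate `x` over the value `a`: places where `x - a` vanishes. -/
def fibreAt (x : F) (a : L) : Set (Place L F) := {P | 0 < P.ord (x - algebraMap L F a)}

theorem mem_fibreAt {x : F} {a : L} {P : Place L F} :
    P ∈ fibreAt x a ↔ 0 < P.ord (x - algebraMap L F a) := Iff.rfl

/-- A place lies in at most one fibre. -/
theorem eq_of_mem_fibreAt {x : F} {a a' : L} {P : Place L F}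
    (hP : P ∈ fibreAt x a) (hP' : P ∈ fibreAt x a') : a = a' := by
  by_contra h
  rw [mem_fibreAt] at hP hP'
  have h1 : x - algebraMap L F a ≠ 0 := by
    intro h0; rw [h0, Place.ord_zero] at hP; exact lt_irrefl _ hP
  have h2 : x - algebraMap L F a' ≠ 0 := by
    intro h0; rw [h0, Place.ord_zero] at hP'; exact lt_irrefl _ hP'
  have hc : (x - algebraMap L F a) - (x - algebraMap L F a') = algebraMap L F (a' - a) := by
    rw [map_sub]; ring
  have hne : algebraMap L F (a' - a) ≠ 0 := by
    rw [Ne, map_eq_zero, sub_eq_zero]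
    exact fun h' => h h'.symm
  have h3 := PlaceLemmas.ord_sub_ge P h1 h2 (by rw [hc]; exact hne)
  rw [hc, PlaceLemmas.ord_algebraMap] at h3
  rcases min_le_iff.mp h3 with h4 | h4 <;> omega

end Fibre

section Main

variable {L F : Type*} [Field L] [IsAlgClosed L] [Field F] [Algebra L F]
variable (A : ValuationSubring L)
variable {Fk : Type*} [Field Fk] [Algebra (IsLocalRing.ResidueField A) Fk]

/-- The residue disc of `ā`: places `P` of `F` with `x(P) ∈ A` reducing to `ā`. -/
def discAt (x : F) (abar : IsLocalRing.ResidueField A) : Set (Place L F) :=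
  {P | ∃ a : A, IsLocalRing.residue A a = abar ∧ P ∈ fibreAt x (a : L)}

open scoped Classical in
/-- **FIBREWISE (FW)**, abstract form. -/
theorem fibrewise (x b : F) (xk β : Fk) (n : A[X])
    (hn : n.map (IsLocalRing.residue A) ≠ 0)
    (hfin : {P : Place L F | P.ord b ≠ 0}.Finite)
    (hNL : ∀ a : L, ∑ᶠ P ∈ fibreAt x a, P.ord b = ((n.map A.subtype).rootMultiplicity a : ℤ))
    (hNk : ∀ abar : IsLocalRing.ResidueField A,
      ∑ᶠ Q ∈ fibreAt xk abar, Q.ord β
        = ((n.map (IsLocalRing.residue A)).rootMultiplicity abar : ℤ))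
    (abar : IsLocalRing.ResidueField A) :
    ∑ᶠ Q ∈ fibreAt xk abar, Q.ord β = ∑ᶠ P ∈ discAt A x abar, P.ord b := by
  rw [hNk abar, ← finsum_rootMultiplicity_eq A n hn abar]
  -- the finite support of `ord b`
  have hsupp : Function.HasFiniteSupport fun P : Place L F => P.ord b := hfin
  set S : Finset (Place L F) := hfin.toFinset with hS
  have hSmem : ∀ P, P ∈ S ↔ P.ord b ≠ 0 := fun P => by rw [hS, Set.Finite.mem_toFinset]; rfl
  -- sums over a set reduce to sums over `S`
  have hsum : ∀ T : Set (Place L F), ∑ᶠ P ∈ T, P.ord b = ∑ P ∈ S.filter (· ∈ T), P.ord b := by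
    intro T
    apply finsum_mem_eq_sum_of_inter_support_eq
    ext P
    simp only [Set.mem_inter_iff, Function.mem_support, Finset.coe_filter, Set.mem_ofPred_eq, hSmem]
    tauto
  -- choice of the value of `x` at a place of the disc
  set T : Finset (Place L F) := S.filter (· ∈ discAt A x abar) with hT
  have hTdisc : ∀ P ∈ T, ∃ a : A, IsLocalRing.residue A a = abar ∧ P ∈ fibreAt x (a : L) :=
    fun P hP => (Finset.mem_filter.mp hP).2
  let aOf : Place L F → L := fun P =>
    if h : ∃ a : A, IsLocalRing.residue A a = abar ∧ P ∈ fibreAt x (a : L) then (h.choose : L) else 0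
  have haOf : ∀ P ∈ T, (∃ h : aOf P ∈ A, IsLocalRing.residue A ⟨aOf P, h⟩ = abar) ∧
      P ∈ fibreAt x (aOf P) := by
    intro P hP
    have h := hTdisc P hP
    have e : aOf P = (h.choose : L) := dif_pos h
    rw [e]
    exact ⟨⟨h.choose.2, h.choose_spec.1⟩, h.choose_spec.2⟩
  set I : Finset L := T.image aOf with hI
  -- cast the finsum over the class to a finset sum over `I`
  have hcast : ((∑ᶠ a : {a : L // ∃ h : a ∈ A, IsLocalRing.residue A ⟨a, h⟩ = abar},
      (n.map A.subtype).rootMultiplicity (a : L) : ℕ) : ℤ)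
      = ∑ a ∈ I, ((n.map A.subtype).rootMultiplicity a : ℤ) := by
    rw [finsum_subtype_eq_finsum_cond
      (f := fun a : L => (n.map A.subtype).rootMultiplicity a)
      (fun a : L => ∃ h : a ∈ A, IsLocalRing.residue A ⟨a, h⟩ = abar)]
    have hnat : ∑ᶠ (a : L) (_ : ∃ h : a ∈ A, IsLocalRing.residue A ⟨a, h⟩ = abar),
        (n.map A.subtype).rootMultiplicity a = ∑ a ∈ I, (n.map A.subtype).rootMultiplicity a := by
      refine finsum_cond_eq_sum_of_cond_iff
        (fun a : L => (n.map A.subtype).rootMultiplicity a) ?_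
      intro a ha
      constructor
      · intro hclass
        -- `a` in the class with nonzero multiplicity: some place of `S` lies in its fibre
        have hne : (∑ᶠ P ∈ fibreAt x a, P.ord b) ≠ 0 := by
          rw [hNL a]; exact_mod_cast ha
        rw [hsum] at hne
        obtain ⟨P, hP, -⟩ := Finset.exists_ne_zero_of_sum_ne_zero hne
        rw [Finset.mem_filter] at hP
        have hPT : P ∈ T := by
          rw [hT, Finset.mem_filter]
          exact ⟨hP.1, ⟨⟨a, hclass.choose⟩, hclass.choose_spec, hP.2⟩⟩
        rw [hI, Finset.mem_image]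
        exact ⟨P, hPT, eq_of_mem_fibreAt (haOf P hPT).2 hP.2⟩
      · intro haI
        rw [hI, Finset.mem_image] at haI
        obtain ⟨P, hPT, rfl⟩ := haI
        exact (haOf P hPT).1
    rw [hnat]
    push_cast
    rfl
  rw [hcast, hsum]
  -- regroup `T` according to the value of `x`
  have hTunion : T = I.biUnion fun a => S.filter (· ∈ fibreAt x a) := by
    ext P
    rw [Finset.mem_biUnion]
    constructor
    · intro hP
      refine ⟨aOf P, Finset.mem_image_of_mem _ hP, ?_⟩
      rw [Finset.mem_filter]
      exact ⟨(Finset.mem_filter.mp hP).1, (haOf P hP).2⟩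
    · rintro ⟨a, haI, hP⟩
      rw [Finset.mem_filter] at hP
      rw [hI, Finset.mem_image] at haI
      obtain ⟨P', hP'T, rfl⟩ := haI
      rw [hT, Finset.mem_filter]
      obtain ⟨⟨hA, hres⟩, -⟩ := haOf P' hP'T
      exact ⟨hP.1, ⟨⟨aOf P', hA⟩, hres, hP.2⟩⟩
  rw [← hT, hTunion, Finset.sum_biUnion]
  · refine Finset.sum_congr rfl fun a _ => ?_
    rw [← hsum, hNL a]
  · intro a _ a' _ haa'
    rw [Function.onFun, Finset.disjoint_left]
    intro P hP hP'
    exact haa' (eq_of_mem_fibreAt (Finset.mem_filter.mp hP).2 (Finset.mem_filter.mp hP').2)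

end Main

end Fermat.Agent.S18.H35

end
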