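import Mathlib

/-!
# The relative norm of a prime in a separable Dedekind extension

Mathlib proves `Ideal.relNorm R P = p ^ P.inertiaDeg R` (`Ideal.relNorm_eq_pow_of_isMaximal`)
under `[PerfectField (FractionRing R)]`.  For function fields in characteristic `ℓ` the base
`Frac R = k(x)` is not perfect, but the extension is separable.  Here the same statement is
proved assuming only that `Frac S / Frac R` is separable: the normal closure of a separable
extension is Galois, and then Mathlib's proof goes through verbatim.
-/

set_option autoImplicit false
set_option linter.style.haveILetI false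
set_option linter.unusedSectionVars false
set_option linter.overlappingInstances false

noncomputable section

namespace Fermat.Agent.S18.H35

open Ideal Module

section Field

/-- The normal closure of a separable extension is separable. -/
theorem isSeparable_normalClosure_field (F K L : Type*) [Field F] [Field K] [Field L]
    [Algebra F K] [Algebra F L] [Algebra.IsSeparable F K] :
    Algebra.IsSeparable F (IntermediateField.normalClosure F K L) := by
  haveI : ∀ f : K →ₐ[F] L, Algebra.IsSeparable F f.fieldRange := fun f =>
    AlgEquiv.Algebra.isSeparable (AlgEquiv.ofInjectiveField f)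
  exact IntermediateField.isSeparable_iSup F L

end Field

section NormalClosure

variable (R S : Type*) [CommRing R] [CommRing S] [IsDomain R] [IsDomain S]
  [Algebra R S] [Module.IsTorsionFree R S]

local instance instAlgFracFrac : Algebra (FractionRing R) (FractionRing S) :=
  FractionRing.liftAlgebra _ _

local notation3 "K" => FractionRing R
local notation3 "L" => FractionRing S
local notation3 "E" => IntermediateField.normalClosure (FractionRing R) (FractionRing S)
    (AlgebraicClosure (FractionRing S))

local instance instAlgSE : Algebra S E := ((algebraMap L E).comp (algebraMap S L)).toAlgebra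

local instance : IsScalarTower S L E := IsScalarTower.of_algebraMap_eq' rfl

local notation3 "T" => Ring.NormalClosure R S

local instance instAlgTE : Algebra T E := inferInstanceAs (Algebra (integralClosure S E) E)

local instance : IsScalarTower S T E :=
  inferInstanceAs (IsScalarTower S (integralClosure S E) E)

local instance : IsIntegralClosure T S E := integralClosure.isIntegralClosure S E

local instance : IsScalarTower R L E := IsScalarTower.to₁₃₄ R K L E

local instance : IsScalarTower R S E := IsScalarTower.to₁₂₄ R S L E

local instance : IsScalarTower R T E := IsScalarTower.to₁₃₄ R S T E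

variable [Module.Finite R S]

local instance : FiniteDimensional L E := Module.Finite.right K L E

local instance : IsFractionRing T E :=
  integralClosure.isFractionRing_of_finite_extension L E

/-- The normal closure (inside an algebraic closure) of a separable extension is separable. -/
theorem isSeparable_normalClosure [Algebra.IsSeparable K L] : Algebra.IsSeparable K E :=
  isSeparable_normalClosure_field K L (AlgebraicClosure L)

/-- **The fraction field of `Ring.NormalClosure R S` is Galois over `Frac R`** as soon as
`Frac S / Frac R` is separable (Mathlib: for `Frac R` perfect). -/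
theorem isGalois_fractionRing_normalClosure [Algebra.IsSeparable K L] :
    @IsGalois K _ (FractionRing T) _ (FractionRing.liftAlgebra R (FractionRing T)) := by
  letI : Algebra K (FractionRing T) := FractionRing.liftAlgebra R (FractionRing T)
  haveI : Algebra.IsSeparable K E := isSeparable_normalClosure R S
  haveI : IsGalois K E := ⟨⟩
  refine IsGalois.of_equiv_equiv (F := K) («E» := E)
    (f := (FractionRing.algEquiv R K).symm.toRingEquiv)
    (g := (FractionRing.algEquiv T E).symm.toRingEquiv) ?_
  ext
  simpa using! IsFractionRing.algEquiv_commutes (FractionRing.algEquiv R K).symm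
    (FractionRing.algEquiv T E).symm _

variable [IsDedekindDomain S]

theorem finite_normalClosure_top [Algebra.IsSeparable K L] : Module.Finite S T := by
  haveI : Algebra.IsSeparable K E := isSeparable_normalClosure R S
  haveI : Algebra.IsSeparable L E := Algebra.isSeparable_tower_top_of_isSeparable K L E
  exact IsIntegralClosure.finite S L E T

theorem finite_normalClosure_bot [Algebra.IsSeparable K L] : Module.Finite R T := by
  haveI : Module.Finite S T := finite_normalClosure_top R S
  exact Module.Finite.trans S T

theorem isDedekindDomain_normalClosure [Algebra.IsSeparable K L] : IsDedekindDomain T := by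
  haveI : Algebra.IsSeparable K E := isSeparable_normalClosure R S
  haveI : Algebra.IsSeparable L E := Algebra.isSeparable_tower_top_of_isSeparable K L E
  exact integralClosure.isDedekindDomain S L E

end NormalClosure

section RelNorm

attribute [local instance] FractionRing.liftAlgebra

variable {R S : Type*} [CommRing R] [IsDomain R] [CommRing S] [IsDomain S]
  [IsIntegrallyClosed R] [IsIntegrallyClosed S] [Algebra R S] [Module.Finite R S]
  [Module.IsTorsionFree R S] [IsDedekindDomain R] [IsDedekindDomain S]
  (P : Ideal S) (p : Ideal R) [hPp : P.LiesOver p]

/-- **Relative norm of a prime, separable case** (no perfectness of `Frac R`):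
`relNorm R P = p ^ f(P|p)`. -/
theorem relNorm_eq_pow_of_isMaximal_of_isSeparable
    [Algebra.IsSeparable (FractionRing R) (FractionRing S)] [P.IsMaximal] [p.IsMaximal] :
    relNorm R P = p ^ P.inertiaDeg R := by
  let T := Ring.NormalClosure R S
  haveI : Module.Finite S T := finite_normalClosure_top R S
  haveI : Module.Finite R T := finite_normalClosure_bot R S
  haveI : IsDedekindDomain T := isDedekindDomain_normalClosure R S
  obtain ⟨Q, hQ₁, hQ₂⟩ : ∃ Q : Ideal T, Q.IsMaximal ∧ Q.LiesOver P :=
    exists_maximal_ideal_liesOver_of_isIntegral P
  have : Q.LiesOver p := LiesOver.trans Q P p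
  haveI : IsGalois (FractionRing R) (FractionRing T) := isGalois_fractionRing_normalClosure R S
  have h := relNorm_eq_pow_of_isPrime_isGalois Q p
  have : IsGalois (FractionRing S) (FractionRing T) :=
    IsGalois.tower_top_of_isGalois (FractionRing R) (FractionRing S) (FractionRing T)
  rwa [← relNorm_relNorm R S, relNorm_eq_pow_of_isPrime_isGalois Q P, map_pow,
    inertiaDeg_tower (R := R) P Q, pow_mul, pow_left_inj (inertiaDeg_pos Q S).ne'] at h

/-- The same statement with the Dedekind hypotheses only (shape of `hrel` in
`Fermat.Agent.S37.H8.ord_norm_eq_sum`). -/
theorem relNorm_heightOneSpectrum_of_isSeparable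
    {A B : Type*} [CommRing A] [IsDedekindDomain A] [CommRing B] [IsDedekindDomain B]
    [Algebra A B] [Module.Finite A B] [Module.IsTorsionFree A B]
    [Algebra.IsSeparable (FractionRing A) (FractionRing B)]
    (q : IsDedekindDomain.HeightOneSpectrum B) :
    Ideal.relNorm A q.asIdeal = (q.asIdeal.under A) ^ q.asIdeal.inertiaDeg A := by
  haveI := q.isMaximal
  haveI : (q.asIdeal.under A).IsMaximal := Ideal.IsMaximal.under A q.asIdeal
  exact relNorm_eq_pow_of_isMaximal_of_isSeparable q.asIdeal (q.asIdeal.under A)

/-- Transfer of separability to the canonical fraction rings. -/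
theorem isSeparable_fractionRing_of_isSeparable
    {A B F F' : Type*} [CommRing A] [IsDomain A] [CommRing B] [IsDomain B] [Algebra A B]
    [Module.IsTorsionFree A B] [Field F] [Field F'] [Algebra A F] [IsFractionRing A F]
    [Algebra B F'] [IsFractionRing B F'] [Algebra F F'] [Algebra A F'] [IsScalarTower A F F']
    [IsScalarTower A B F'] [Algebra.IsSeparable F F'] :
    Algebra.IsSeparable (FractionRing A) (FractionRing B) := by
  refine Algebra.IsSeparable.of_equiv_equiv (A₁ := F) (B₁ := F')
    (FractionRing.algEquiv A F).symm.toRingEquiv (FractionRing.algEquiv B F').symm.toRingEquiv ?_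
  ext x
  simpa using! IsFractionRing.algEquiv_commutes (FractionRing.algEquiv A F).symm
    (FractionRing.algEquiv B F').symm x

/-- `hrel` of `Fermat.Agent.S37.H8.ord_norm_eq_sum` for a Dedekind model `A ⊆ B` of a finite
SEPARABLE extension `F'/F` (any characteristic). -/
theorem relNorm_heightOneSpectrum_of_model
    {A B F F' : Type*} [CommRing A] [IsDedekindDomain A] [CommRing B] [IsDedekindDomain B]
    [Algebra A B] [Module.Finite A B] [Module.IsTorsionFree A B]
    [Field F] [Field F'] [Algebra A F] [IsFractionRing A F]
    [Algebra B F'] [IsFractionRing B F'] [Algebra F F'] [Algebra A F'] [IsScalarTower A F F']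
    [IsScalarTower A B F'] [Algebra.IsSeparable F F']
    (q : IsDedekindDomain.HeightOneSpectrum B) :
    Ideal.relNorm A q.asIdeal = (q.asIdeal.under A) ^ q.asIdeal.inertiaDeg A := by
  haveI : Algebra.IsSeparable (FractionRing A) (FractionRing B) :=
    isSeparable_fractionRing_of_isSeparable (F := F) (F' := F')
  exact relNorm_heightOneSpectrum_of_isSeparable q

end RelNorm

end Fermat.Agent.S18.H35

end
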