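import Mathlib
import Fermat.Prelude.Def_AlgebraicCurve_DivisorPushPull
import Fermat.Agent.S37.H8_NormFormula
import Fermat.Agent.S18.H35_RelNormSep

/-!
# The norm formula for finite SEPARABLE extensions of function fields, any characteristic

helper8's `H8.ord_norm_eq_sum` (Dedekind model + hypothesis `hrel`) fed with
`H35.relNorm_heightOneSpectrum_of_model` (relative norm of a prime in a separable extension).
-/

set_option autoImplicit false
set_option linter.unusedSectionVars false
set_option linter.style.haveILetI false

namespace Fermat.Agent.S18.H35

open AlgebraicCurve IsDedekindDomain WithZero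
open Fermat.Agent.S24
open Fermat.Agent.S24.H42
open Fermat.Agent.S37.H8

variable {K F F' : Type*} [Field K] [Field F] [Field F'] [Algebra K F] [Algebra K F']
  [Algebra F F'] [IsScalarTower K F F'] [FiniteDimensional F F'] [Algebra.IsSeparable F F']
  [HasPrincipalDivisors K F']

/-- **Norm formula at a place `v` of `F`** (finite separable `F'/F`, any characteristic):
`ord_v (N_{F'/F} f) = ∑_{w | v} ord_w f * f(w|v)`. -/
theorem ord_norm_eq_sum_fiber_of_isSeparable (v : Place K F) (hdeg : v.deg ≠ 0) (f : F')
    (hf : f ≠ 0) :
    v.ord (Algebra.norm F f) = ∑ w ∈ v.fiber F', w.ord f * (w.inertiaDeg F : ℤ) := by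
  classical
  letI : Algebra K (integralClosure v.toValuationSubring F') :=
    ((algebraMap v.toValuationSubring (integralClosure v.toValuationSubring F')).comp
      (algebraMap K v.toValuationSubring)).toAlgebra
  haveI : IsScalarTower K v.toValuationSubring (integralClosure v.toValuationSubring F') :=
    IsScalarTower.of_algebraMap_eq fun _ => rfl
  haveI : IsScalarTower K (integralClosure v.toValuationSubring F') F' :=
    IsScalarTower.of_algebraMap_eq fun a => by
      rw [IsScalarTower.algebraMap_apply K F F']
      rfl
  haveI : IsDedekindDomain (integralClosure v.toValuationSubring F') :=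
    integralClosure.isDedekindDomain v.toValuationSubring F F'
  haveI : IsFractionRing (integralClosure v.toValuationSubring F') F' :=
    integralClosure.isFractionRing_of_finite_extension F F'
  haveI : Module.Finite v.toValuationSubring (integralClosure v.toValuationSubring F') :=
    IsIntegralClosure.finite v.toValuationSubring F F' _
  haveI : FaithfulSMul v.toValuationSubring (integralClosure v.toValuationSubring F') := by
    rw [faithfulSMul_iff_algebraMap_injective]
    intro a b hab
    have h1 : algebraMap v.toValuationSubring F' a = algebraMap v.toValuationSubring F' b := by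
      rw [IsScalarTower.algebraMap_apply v.toValuationSubring
        (integralClosure v.toValuationSubring F') F', hab,
        ← IsScalarTower.algebraMap_apply]
    rw [IsScalarTower.algebraMap_apply v.toValuationSubring F F',
      IsScalarTower.algebraMap_apply v.toValuationSubring F F'] at h1
    exact Subtype.ext ((algebraMap F F').injective h1)
  have hrel : ∀ q : HeightOneSpectrum (integralClosure v.toValuationSubring F'),
      Ideal.relNorm v.toValuationSubring q.asIdeal
        = (q.asIdeal.under v.toValuationSubring) ^ q.asIdeal.inertiaDeg v.toValuationSubring :=
    fun q => relNorm_heightOneSpectrum_of_model (F := F) (F' := F') q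
  have key := ord_norm_eq_sum (K := K) (F := F) (F' := F')
    (A := v.toValuationSubring) (B := integralClosure v.toValuationSubring F') hrel
    v.heightOneSpectrum (by rwa [placeOf_heightOneSpectrum]) f hf
  rwa [placeOf_heightOneSpectrum] at key

/-- **The prelude's norm formula** `Divisor.PushforwardNormFormula K F F'` for a finite separable
extension in any characteristic (all places of `F` of nonzero degree). -/
theorem pushforwardNormFormula_of_isSeparable (hdeg : ∀ v : Place K F, v.deg ≠ 0) :
    Divisor.PushforwardNormFormula K F F' := by
  classical
  intro f hf D hD v
  rw [Divisor.pushforward_apply, ord_norm_eq_sum_fiber_of_isSeparable v (hdeg v) f hf]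
  rw [← Finset.sum_filter]
  symm
  rw [← Finset.sum_subset (s₁ := D.support.filter fun w => w.restrict F = v)
    (s₂ := v.fiber F')]
  · refine Finset.sum_congr rfl fun w _ => ?_
    rw [hD w]
  · intro w hw
    rw [Finset.mem_filter] at hw
    exact Place.mem_fiber.mpr hw.2
  · intro w hw hnot
    rw [Finset.mem_filter, not_and] at hnot
    have h0 : D w = 0 := by
      by_contra h
      exact hnot (Finsupp.mem_support_iff.mpr h) (Place.mem_fiber.mp hw)
    rw [← hD w, h0, zero_mul]

end Fermat.Agent.S18.H35
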