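import Mathlib
import Fermat.Prelude.Def_AlgebraicCurve_DivisorPushPull
import Fermat.Agent.S24.H24_Basic
import Fermat.Agent.S24.H42_PlaceDict
import Fermat.Agent.S24.H97_Setup
import Fermat.Agent.S24.H97_Places
import Fermat.Agent.S24.H42_Residue
import Fermat.Agent.S18.H35_Fibrewise
import Fermat.Agent.S18.H35_NormFormulaSep

/-!
# The rational function field dictionary

`x : F` transcendental over `K`.  For `a : K` the place `ratPlace x a` of `K⟮x⟯` at `x = a`;
`ord` of a polynomial in `x` at it is the root multiplicity; the places of `F` over it are exactly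
`fibreAt x a`.  Together with the norm formula this gives the hypotheses `hNL`, `hNk` of
`H35.fibrewise`.
-/

set_option autoImplicit false
set_option linter.unusedSectionVars false
set_option linter.style.haveILetI false

noncomputable section

namespace Fermat.Agent.S18.H35

open AlgebraicCurve IsDedekindDomain WithZero Polynomial
open Fermat.Agent.S24 Fermat.Agent.S24.H24 Fermat.Agent.S24.H42 Fermat.Agent.S24.H97
open scoped IntermediateField IntermediateField.algebraAdjoinAdjoin

variable {K F : Type*} [Field K] [Field F] [Algebra K F] (x : F)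

variable (K) in
/-- `x` as an element of `K[x]`. -/
def xPoly : polyRing K x := ⟨x, Algebra.subset_adjoin (Set.mem_singleton x)⟩

variable (K) in
/-- `x` as an element of `K⟮x⟯`. -/
def xRat : K⟮x⟯ := ⟨x, IntermediateField.mem_adjoin_simple_self K x⟩

theorem polyEquiv_X_sub_C (hx : Transcendental K x) (a : K) :
    polyEquiv x hx (X - C a) = xPoly K x - algebraMap K (polyRing K x) a := by
  rw [map_sub]
  congr 1
  · exact Subtype.ext (polyEquiv_X x hx)
  · rw [C_eq_algebraMap, AlgEquiv.commutes]

theorem prime_xPoly_sub (hx : Transcendental K x) (a : K) :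
    Prime (xPoly K x - algebraMap K (polyRing K x) a) := by
  rw [← polyEquiv_X_sub_C x hx a]
  exact (MulEquiv.prime_iff (polyEquiv x hx)).mpr (prime_X_sub_C a)

section RatPlace

variable [hxF : Fact (Transcendental K x)]

instance instIsDedekindDomainPolyRing : IsDedekindDomain (polyRing K x) :=
  isDedekindDomain_polyRing x hxF.out

theorem xPoly_sub_ne_zero (a : K) : xPoly K x - algebraMap K (polyRing K x) a ≠ 0 :=
  (prime_xPoly_sub x hxF.out a).ne_zero

/-- The height one prime `(x - a)` of `K[x]`. -/
def primeAt (a : K) : HeightOneSpectrum (polyRing K x) where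
  asIdeal := Ideal.span {xPoly K x - algebraMap K (polyRing K x) a}
  isPrime := (Ideal.span_singleton_prime (xPoly_sub_ne_zero x a)).mpr (prime_xPoly_sub x hxF.out a)
  ne_bot := by
    rw [Ne, Ideal.span_singleton_eq_bot]
    exact xPoly_sub_ne_zero x a

/-- The place of `K⟮x⟯` at `x = a`. -/
def ratPlace (a : K) : Place K K⟮x⟯ := placeOf (K := K) (F := K⟮x⟯) (primeAt x a)

theorem algebraMap_xPoly : algebraMap (polyRing K x) K⟮x⟯ (xPoly K x) = xRat K x := rfl

/-- `x - a` is a uniformiser at `ratPlace x a`. -/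
theorem ord_ratPlace_sub (a : K) :
    (ratPlace x a).ord (xRat K x - algebraMap K K⟮x⟯ a) = 1 := by
  have h1 : xRat K x - algebraMap K K⟮x⟯ a
      = algebraMap (polyRing K x) K⟮x⟯ (xPoly K x - algebraMap K (polyRing K x) a) := by
    rw [map_sub, algebraMap_xPoly]
    rfl
  rw [ratPlace, ord_placeOf, h1, HeightOneSpectrum.valuation_of_algebraMap,
    HeightOneSpectrum.intValuation_singleton _ (xPoly_sub_ne_zero x a) rfl]
  simp

theorem coe_polyEquiv (n : K[X]) : ((polyEquiv x hxF.out n : polyRing K x) : F) = aeval x n := by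
  simp [polyEquiv]

theorem coe_aeval_xRat (n : K[X]) : ((aeval (xRat K x) n : K⟮x⟯) : F) = aeval x n := by
  have h := Polynomial.aeval_algHom_apply (IntermediateField.val K⟮x⟯) (xRat K x) n
  rw [IntermediateField.val_mk] at h
  exact h.symm

theorem algebraMap_polyEquiv (n : K[X]) :
    algebraMap (polyRing K x) K⟮x⟯ (polyEquiv x hxF.out n) = aeval (xRat K x) n := by
  apply Subtype.ext
  rw [coe_aeval_xRat]
  exact coe_polyEquiv x n

theorem polyEquiv_mem_primeAt_iff (a : K) (h : K[X]) :
    polyEquiv x hxF.out h ∈ (primeAt x a).asIdeal ↔ (X - C a) ∣ h := by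
  show polyEquiv x hxF.out h ∈ Ideal.span {xPoly K x - algebraMap K (polyRing K x) a} ↔ _
  rw [Ideal.mem_span_singleton, ← polyEquiv_X_sub_C x hxF.out a]
  exact map_dvd_iff (polyEquiv x hxF.out : K[X] ≃ₐ[K] polyRing K x)

/-- **`ord` at `x = a` of a polynomial in `x` is the root multiplicity.** -/
theorem ord_ratPlace_aeval (a : K) (n : K[X]) (hn : n ≠ 0) :
    (ratPlace x a).ord (aeval (xRat K x) n) = (n.rootMultiplicity a : ℤ) := by
  obtain ⟨h, hnh, hdvd⟩ := exists_eq_pow_rootMultiplicity_mul_and_not_dvd n hn a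
  have hh0 : h ≠ 0 := by
    rintro rfl
    exact hdvd (dvd_zero _)
  set m := n.rootMultiplicity a with hm
  have h1 : aeval (xRat K x) n
      = (xRat K x - algebraMap K K⟮x⟯ a) ^ (m : ℤ) * aeval (xRat K x) h := by
    conv_lhs => rw [hnh]
    rw [map_mul, map_pow, map_sub, aeval_X, aeval_C, zpow_natCast]
  have hsub0 : xRat K x - algebraMap K K⟮x⟯ a ≠ 0 := by
    intro h0
    have := ord_ratPlace_sub x a
    rw [h0, Place.ord_zero] at this
    exact zero_ne_one this
  have hh : aeval (xRat K x) h ≠ 0 := by
    rw [← algebraMap_polyEquiv]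
    intro h0
    have : polyEquiv x hxF.out h = 0 :=
      (IsFractionRing.injective (polyRing K x) K⟮x⟯) (by rw [h0, map_zero])
    exact hh0 ((polyEquiv x hxF.out).map_eq_zero_iff.mp this)
  have hord0 : (ratPlace x a).ord (aeval (xRat K x) h) = 0 := by
    rw [← algebraMap_polyEquiv, ratPlace, ord_placeOf, HeightOneSpectrum.valuation_of_algebraMap,
      (HeightOneSpectrum.intValuation_eq_one_iff).mpr
        (fun hmem => hdvd ((polyEquiv_mem_primeAt_iff x a h).mp hmem))]
    simp
  rw [h1, Place.ord_mul _ (zpow_ne_zero _ hsub0) hh, Place.ord_zpow, ord_ratPlace_sub, hord0]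
  ring

/-- The place `x = a` of `K⟮x⟯` has degree one. -/
theorem deg_ratPlace (a : K) : (ratPlace x a).deg = 1 := by
  rw [ratPlace, deg_placeOf]
  haveI : (primeAt x a).asIdeal.IsPrime := (primeAt x a).isPrime
  have hsurj : Function.Surjective
      (algebraMap K (polyRing K x ⧸ (primeAt x a).asIdeal)) := by
    intro y
    obtain ⟨b, rfl⟩ := Ideal.Quotient.mk_surjective y
    obtain ⟨p, rfl⟩ := (polyEquiv x hxF.out).surjective b
    refine ⟨p.eval a, ?_⟩
    rw [eq_comm, ← sub_eq_zero]
    have h1 : algebraMap K (polyRing K x ⧸ (primeAt x a).asIdeal) (p.eval a)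
        = Ideal.Quotient.mk _ (algebraMap K (polyRing K x) (p.eval a)) := rfl
    rw [h1, ← map_sub, Ideal.Quotient.eq_zero_iff_mem]
    have h2 : polyEquiv x hxF.out p - algebraMap K (polyRing K x) (p.eval a)
        = polyEquiv x hxF.out (p - C (p.eval a)) := by
      rw [map_sub, C_eq_algebraMap, AlgEquiv.commutes]
    rw [h2, polyEquiv_mem_primeAt_iff]
    exact X_sub_C_dvd_sub_C_eval
  have hinj : Function.Injective (algebraMap K (polyRing K x ⧸ (primeAt x a).asIdeal)) :=
    (algebraMap K (polyRing K x ⧸ (primeAt x a).asIdeal)).injective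
  exact (LinearEquiv.ofBijective (Algebra.linearMap K _) ⟨hinj, hsurj⟩).finrank_eq.symm.trans
    (Module.finrank_self K)

end RatPlace

section Fibre

variable [hxF : Fact (Transcendental K x)] [FiniteDimensional K⟮x⟯ F]

theorem algebraMap_xRat_sub (a : K) :
    algebraMap K⟮x⟯ F (xRat K x - algebraMap K K⟮x⟯ a) = x - algebraMap K F a := rfl

/-- **The places of `F` over `x = a` are exactly `fibreAt x a`.** -/
theorem restrict_eq_ratPlace_iff (w : Place K F) (a : K) :
    w.restrict K⟮x⟯ = ratPlace x a ↔ w ∈ fibreAt x a := by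
  have hepos : 0 < Place.ramificationIndex (F := K⟮x⟯) w := w.ramificationIndex_pos (F := K⟮x⟯)
  have hord : w.ord (x - algebraMap K F a)
      = Place.ramificationIndex (F := K⟮x⟯) w
        * (w.restrict K⟮x⟯).ord (xRat K x - algebraMap K K⟮x⟯ a) := by
    rw [← w.ord_restrict, algebraMap_xRat_sub]
  constructor
  · intro h
    rw [mem_fibreAt, hord, h, ord_ratPlace_sub, mul_one]
    exact_mod_cast hepos
  · intro h
    rw [mem_fibreAt, hord] at h
    have hpos : 0 < (w.restrict K⟮x⟯).ord (xRat K x - algebraMap K K⟮x⟯ a) := by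
      by_contra hneg
      rw [not_lt] at hneg
      have : (Place.ramificationIndex (F := K⟮x⟯) w : ℤ)
          * (w.restrict K⟮x⟯).ord (xRat K x - algebraMap K K⟮x⟯ a) ≤ 0 :=
        mul_nonpos_of_nonneg_of_nonpos (by exact_mod_cast hepos.le) hneg
      omega
    set v' := w.restrict K⟮x⟯ with hv'
    -- `x ∈ O_w`
    have hsub0 : x - algebraMap K F a ≠ 0 := by
      intro h0
      rw [← algebraMap_xRat_sub, map_eq_zero] at h0
      rw [h0, Place.ord_zero] at hpos
      exact lt_irrefl _ hpos
    have hxw : x ∈ w.toValuationSubring := by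
      have h1 : x - algebraMap K F a ∈ w.toValuationSubring :=
        (PlaceLemmas.mem_iff_ord_nonneg w hsub0).mpr (by
          rw [hord]
          exact mul_nonneg (by exact_mod_cast hepos.le) hpos.le)
      have h2 := w.toValuationSubring.add_mem _ _ h1 (w.algebraMap_mem' a)
      rwa [sub_add_cancel] at h2
    have hB : ∀ b : polyRing K x, algebraMap (polyRing K x) K⟮x⟯ b ∈ v'.toValuationSubring := by
      intro b
      rw [hv', Place.mem_restrict_iff]
      exact polyRing_le_placeSubalgebra w hxw b.2
    obtain ⟨q, hq⟩ := exists_placeOf_eq (K := K) (F := K⟮x⟯) (B := polyRing K x) v' hB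
    rw [← hq]
    have hmem : xPoly K x - algebraMap K (polyRing K x) a ∈ q.asIdeal := by
      have h3 : 0 < (placeOf (K := K) (F := K⟮x⟯) q).ord
          (algebraMap (polyRing K x) K⟮x⟯ (xPoly K x - algebraMap K (polyRing K x) a)) := by
        rw [hq]
        have h5 : algebraMap (polyRing K x) K⟮x⟯ (xPoly K x - algebraMap K (polyRing K x) a)
            = xRat K x - algebraMap K K⟮x⟯ a := by
          rw [map_sub, algebraMap_xPoly]
          rfl
        rw [h5]
        exact hpos
      rw [ord_placeOf, HeightOneSpectrum.valuation_of_algebraMap] at h3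
      rw [← HeightOneSpectrum.intValuation_lt_one_iff_mem]
      by_contra hge
      rw [not_lt] at hge
      have h4 : q.intValuation (xPoly K x - algebraMap K (polyRing K x) a) = 1 :=
        le_antisymm (q.intValuation_le_one _) hge
      rw [h4] at h3
      simp at h3
    have hle : (primeAt x a).asIdeal ≤ q.asIdeal := by
      show Ideal.span {xPoly K x - algebraMap K (polyRing K x) a} ≤ q.asIdeal
      rw [Ideal.span_singleton_le_iff_mem]
      exact hmem
    have heq : (primeAt x a).asIdeal = q.asIdeal :=
      (primeAt x a).isMaximal.eq_of_le q.isPrime.ne_top hle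
    have : primeAt x a = q := HeightOneSpectrum.ext heq
    rw [ratPlace, this]

variable [Algebra.IsSeparable K⟮x⟯ F] [HasPrincipalDivisors K F]

theorem coe_fiber_ratPlace (a : K) :
    (((ratPlace x a).fiber F : Finset (Place K F)) : Set (Place K F)) = fibreAt x a := by
  ext w
  rw [Finset.mem_coe, Place.mem_fiber, restrict_eq_ratPlace_iff]

/-- **Norm formula over the rational subfield, fibre form**: if `n(x) = N_{F/K(x)} b` then the
weighted sum of the orders of `b` over the places above `x = a` is the multiplicity of `a` as a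
root of `n`. -/
theorem sum_fiber_ord_mul_deg_eq_rootMultiplicity (a : K) (b : F) (hb : b ≠ 0) (n : K[X])
    (hn : aeval (xRat K x) n = Algebra.norm K⟮x⟯ b) :
    ∑ w ∈ (ratPlace x a).fiber F, w.ord b * (w.deg : ℤ) = (n.rootMultiplicity a : ℤ) := by
  have hn0 : n ≠ 0 := by
    rintro rfl
    rw [map_zero] at hn
    exact hb (Algebra.norm_eq_zero_iff.mp hn.symm)
  rw [← ord_ratPlace_aeval x a n hn0, hn,
    ord_norm_eq_sum_fiber_of_isSeparable (ratPlace x a) (by rw [deg_ratPlace]; exact one_ne_zero)
      b hb]
  refine Finset.sum_congr rfl fun w hw => ?_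
  have h1 := w.deg_restrict_mul_inertiaDeg (F := K⟮x⟯)
  rw [Place.mem_fiber.mp hw, deg_ratPlace, one_mul] at h1
  rw [h1]

/-- The same when all places of `F` have degree one (e.g. `K` algebraically closed), as a
`finsum` over `fibreAt x a`: this is the hypothesis `hNL` / `hNk` of `H35.fibrewise`. -/
theorem finsum_fibreAt_ord_eq_rootMultiplicity (hdeg : ∀ w : Place K F, w.deg = 1)
    (a : K) (b : F) (hb : b ≠ 0) (n : K[X])
    (hn : aeval (xRat K x) n = Algebra.norm K⟮x⟯ b) :
    ∑ᶠ P ∈ fibreAt x a, P.ord b = (n.rootMultiplicity a : ℤ) := by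
  rw [← sum_fiber_ord_mul_deg_eq_rootMultiplicity x a b hb n hn, ← coe_fiber_ratPlace,
    finsum_mem_coe_finset]
  refine Finset.sum_congr rfl fun w _ => ?_
  rw [hdeg w, Nat.cast_one, mul_one]

end Fibre

end Fermat.Agent.S18.H35

end
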