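import Mathlib
import Fermat.Agent.S18.H35_RatDict

/-!
# R3 (FIBREWISE), concrete form

`H35.fibrewise` with its two norm-formula hypotheses discharged by the norm formula for finite
separable extensions (`H35_NormFormulaSep`) and the rational function field dictionary
(`H35_RatDict`).  What remains as input is exactly `(V5)` of the R-EXIST plan: ONE polynomial
`n : A[X]` with `n(x) = N_{F/L(x)} b` and `n̄(x̄) = N_{F_k/k(x̄)} β`.
-/

set_option autoImplicit false
set_option linter.unusedSectionVars false
set_option linter.style.haveILetI false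

noncomputable section

namespace Fermat.Agent.S18.H35

open AlgebraicCurve Polynomial
open scoped IntermediateField

/-- Zeros and poles of a nonzero function are finite in number (from `HasPrincipalDivisors`). -/
theorem finite_ord_ne_zero {K F : Type*} [Field K] [Field F] [Algebra K F]
    [HasPrincipalDivisors K F] (b : F) (hb : b ≠ 0) : {P : Place K F | P.ord b ≠ 0}.Finite := by
  obtain ⟨D, hD, -⟩ := HasPrincipalDivisors.exists_divisor (K := K) b hb
  apply Set.Finite.subset D.support.finite_toSet
  intro P hP
  simp only [Finset.mem_coe, Finsupp.mem_support_iff, hD P]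
  exact hP

variable {L : Type*} [Field L] [IsAlgClosed L] (A : ValuationSubring L)
variable {F : Type*} [Field F] [Algebra L F]
variable {Fk : Type*} [Field Fk] [Algebra (IsLocalRing.ResidueField A) Fk]

/-- **FIBREWISE (FW) for a chart with coordinate `x`**, from `(V5)`. -/
theorem fibrewise_of_norm
    (x : F) [Fact (Transcendental L x)] [FiniteDimensional L⟮x⟯ F] [Algebra.IsSeparable L⟮x⟯ F]
    [HasPrincipalDivisors L F]
    (xk : Fk) [Fact (Transcendental (IsLocalRing.ResidueField A) xk)]
    [FiniteDimensional (IsLocalRing.ResidueField A)⟮xk⟯ Fk]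
    [Algebra.IsSeparable (IsLocalRing.ResidueField A)⟮xk⟯ Fk]
    [HasPrincipalDivisors (IsLocalRing.ResidueField A) Fk]
    (hdegL : ∀ w : Place L F, w.deg = 1)
    (hdegk : ∀ w : Place (IsLocalRing.ResidueField A) Fk, w.deg = 1)
    (b : F) (hb : b ≠ 0) (β : Fk) (hβ : β ≠ 0) (n : A[X])
    (hnL : aeval (xRat L x) (n.map A.subtype) = Algebra.norm L⟮x⟯ b)
    (hnk : aeval (xRat (IsLocalRing.ResidueField A) xk) (n.map (IsLocalRing.residue A))
      = Algebra.norm (IsLocalRing.ResidueField A)⟮xk⟯ β)
    (abar : IsLocalRing.ResidueField A) :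
    ∑ᶠ Q ∈ fibreAt xk abar, Q.ord β = ∑ᶠ P ∈ discAt A x abar, P.ord b := by
  have hn : n.map (IsLocalRing.residue A) ≠ 0 := by
    intro h0
    rw [h0, map_zero] at hnk
    exact hβ (Algebra.norm_eq_zero_iff.mp hnk.symm)
  exact fibrewise A x b xk β n hn (finite_ord_ne_zero b hb)
    (fun a => finsum_fibreAt_ord_eq_rootMultiplicity x hdegL a b hb _ hnL)
    (fun a => finsum_fibreAt_ord_eq_rootMultiplicity xk hdegk a β hβ _ hnk) abar

end Fermat.Agent.S18.H35

end
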