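import Mathlib
import Fermat.Agent.S18.H35_FibrewiseNorm

/-!
# R3 (FIBREWISE) for a general reduction map `π : A →+* k`

`H35.fibrewise` / `H35.fibrewise_of_norm` were stated for `k = IsLocalRing.ResidueField A` and
`π = IsLocalRing.residue A`.  The consumers (`H97.ChartHyp`, `H27.GaussData`, `H89.SepHyp`) are
generic in a surjective `π : A →+* k`; this file provides the same statements in that generality,
with the norm hypotheses in the shape of `H27.GaussData.exists_norm_eq` (coerced to the big
field).
-/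

set_option autoImplicit false
set_option linter.unusedSectionVars false
set_option linter.style.haveILetI false

noncomputable section

namespace Fermat.Agent.S18.H35

open AlgebraicCurve Polynomial
open scoped IntermediateField

section Regroup

variable {L F : Type*} [Field L] [Field F] [Algebra L F]

open scoped Classical in
/-- **Regrouping.**  If for every `a : L` the orders of `b` over the fibre `x = a` add up to the
multiplicity of `a` as a root of `p`, then for every class `C ⊆ L` the multiplicities of the roots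
of `p` in `C` add up to the sum of the orders of `b` over the places with `x`-value in `C`. -/
theorem regroup (x b : F) (p : L[X]) (C : Set L)
    (hfin : {P : Place L F | P.ord b ≠ 0}.Finite)
    (hNL : ∀ a : L, ∑ᶠ P ∈ fibreAt x a, P.ord b = (p.rootMultiplicity a : ℤ)) :
    ((∑ᶠ a : C, p.rootMultiplicity (a : L) : ℕ) : ℤ)
      = ∑ᶠ P ∈ {P : Place L F | ∃ a ∈ C, P ∈ fibreAt x a}, P.ord b := by
  set S : Finset (Place L F) := hfin.toFinset with hS
  have hSmem : ∀ P, P ∈ S ↔ P.ord b ≠ 0 := fun P => by rw [hS, Set.Finite.mem_toFinset]; rfl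
  -- sums over a set reduce to sums over `S`
  have hsum : ∀ T : Set (Place L F), ∑ᶠ P ∈ T, P.ord b = ∑ P ∈ S.filter (· ∈ T), P.ord b := by
    intro T
    apply finsum_mem_eq_sum_of_inter_support_eq
    ext P
    simp only [Set.mem_inter_iff, Function.mem_support, Finset.coe_filter, Set.mem_ofPred_eq, hSmem]
    tauto
  set D : Set (Place L F) := {P : Place L F | ∃ a ∈ C, P ∈ fibreAt x a} with hD
  set T : Finset (Place L F) := S.filter (· ∈ D) with hT
  have hTdisc : ∀ P ∈ T, ∃ a ∈ C, P ∈ fibreAt x a := fun P hP => (Finset.mem_filter.mp hP).2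
  let aOf : Place L F → L := fun P =>
    if h : ∃ a ∈ C, P ∈ fibreAt x a then h.choose else 0
  have haOf : ∀ P ∈ T, aOf P ∈ C ∧ P ∈ fibreAt x (aOf P) := by
    intro P hP
    have h := hTdisc P hP
    have e : aOf P = h.choose := dif_pos h
    rw [e]
    exact h.choose_spec
  set I : Finset L := T.image aOf with hI
  -- cast the finsum over the class to a finset sum over `I`
  have hcast : ((∑ᶠ a : C, p.rootMultiplicity (a : L) : ℕ) : ℤ)
      = ∑ a ∈ I, (p.rootMultiplicity a : ℤ) := by
    rw [finsum_set_coe_eq_finsum_mem (f := fun a : L => p.rootMultiplicity a) C]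
    have hnat : ∑ᶠ a ∈ C, p.rootMultiplicity a = ∑ a ∈ I, p.rootMultiplicity a := by
      refine finsum_mem_eq_sum_of_inter_support_eq _ ?_
      ext a
      simp only [Set.mem_inter_iff, Function.mem_support, Finset.mem_coe]
      constructor
      · rintro ⟨hclass, ha⟩
        refine ⟨?_, ha⟩
        have hne : (∑ᶠ P ∈ fibreAt x a, P.ord b) ≠ 0 := by
          rw [hNL a]; exact_mod_cast ha
        rw [hsum] at hne
        obtain ⟨P, hP, -⟩ := Finset.exists_ne_zero_of_sum_ne_zero hne
        rw [Finset.mem_filter] at hP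
        have hPT : P ∈ T := by
          rw [hT, Finset.mem_filter]
          exact ⟨hP.1, ⟨a, hclass, hP.2⟩⟩
        rw [hI, Finset.mem_image]
        exact ⟨P, hPT, eq_of_mem_fibreAt (haOf P hPT).2 hP.2⟩
      · rintro ⟨haI, ha⟩
        refine ⟨?_, ha⟩
        rw [hI, Finset.mem_image] at haI
        obtain ⟨P, hPT, rfl⟩ := haI
        exact (haOf P hPT).1
    rw [hnat]
    push_cast
    rfl
  rw [hcast, hsum]
  -- regroup `T` according to the value of `x`
  have hTunion : T = I.biUnion fun a => S.filter (· ∈ fibreAt x a) := by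
    ext P
    rw [Finset.mem_biUnion]
    constructor
    · intro hP
      refine ⟨aOf P, Finset.mem_image_of_mem _ hP, ?_⟩
      rw [Finset.mem_filter]
      exact ⟨(Finset.mem_filter.mp hP).1, (haOf P hP).2⟩
    · rintro ⟨a, haI, hP⟩
      rw [Finset.mem_filter] at hP
      rw [hI, Finset.mem_image] at haI
      obtain ⟨P', hP'T, rfl⟩ := haI
      rw [hT, Finset.mem_filter]
      exact ⟨hP.1, ⟨aOf P', (haOf P' hP'T).1, hP.2⟩⟩
  rw [← hT, hTunion, Finset.sum_biUnion]
  · refine Finset.sum_congr rfl fun a _ => ?_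
    rw [← hsum, hNL a]
  · intro a _ a' _ haa'
    rw [Function.onFun, Finset.disjoint_left]
    intro P hP hP'
    exact haa' (eq_of_mem_fibreAt (Finset.mem_filter.mp hP).2 (Finset.mem_filter.mp hP').2)

end Regroup

section Gen

variable {L : Type*} [Field L] [IsAlgClosed L] (A : ValuationSubring L)
variable {k : Type*} [Field k] (π : A →+* k)

/-- A surjective ring homomorphism from a valuation ring onto a field is a local homomorphism. -/
theorem isLocalHom_of_surjective (hπ : Function.Surjective π) : IsLocalHom π := by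
  refine ⟨fun a ha => ?_⟩
  by_contra hnu
  have hmem : a ∈ IsLocalRing.maximalIdeal A := (IsLocalRing.mem_maximalIdeal a).mpr hnu
  have hker : RingHom.ker π = IsLocalRing.maximalIdeal A :=
    IsLocalRing.eq_maximalIdeal (RingHom.ker_isMaximal_of_surjective π hπ)
  rw [← hker, RingHom.mem_ker] at hmem
  rw [hmem] at ha
  exact not_isUnit_zero ha

open scoped Classical in
/-- `finsum_rootMultiplicity_eq` for a general surjective `π : A →+* k`. -/
theorem finsum_rootMultiplicity_eq_gen (hπ : Function.Surjective π) (p : A[X])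
    (hp : p.map π ≠ 0) (abar : k) :
    ∑ᶠ a : {a : L // ∃ h : a ∈ A, π ⟨a, h⟩ = abar},
      (p.map A.subtype).rootMultiplicity (a : L)
      = (p.map π).rootMultiplicity abar := by
  haveI := isLocalHom_of_surjective A π hπ
  set e0 : IsLocalRing.ResidueField A →+* k := IsLocalRing.ResidueField.lift π with he0
  have he0res : ∀ a : A, e0 (IsLocalRing.residue A a) = π a := fun a =>
    IsLocalRing.ResidueField.lift_residue_apply π a
  have hcomp : e0.comp (IsLocalRing.residue A) = π := RingHom.ext he0res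
  have hmap : p.map π = (p.map (IsLocalRing.residue A)).map e0 := by
    rw [Polynomial.map_map, hcomp]
  have hp' : p.map (IsLocalRing.residue A) ≠ 0 := by
    intro h
    apply hp
    rw [hmap, h, Polynomial.map_zero]
  obtain ⟨a₀, rfl⟩ := hπ abar
  rw [hmap, ← he0res a₀, ← eq_rootMultiplicity_map e0.injective,
    ← finsum_rootMultiplicity_eq A p hp' (IsLocalRing.residue A a₀),
    finsum_subtype_eq_finsum_cond (f := fun a : L => (p.map A.subtype).rootMultiplicity a)
      (fun a : L => ∃ h : a ∈ A, π ⟨a, h⟩ = e0 (IsLocalRing.residue A a₀)),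
    finsum_subtype_eq_finsum_cond (f := fun a : L => (p.map A.subtype).rootMultiplicity a)
      (fun a : L => ∃ h : a ∈ A, IsLocalRing.residue A ⟨a, h⟩ = IsLocalRing.residue A a₀)]
  refine finsum_congr fun a => ?_
  refine finsum_congr_Prop (propext ?_) (fun _ => rfl)
  constructor
  · rintro ⟨h, h'⟩
    refine ⟨h, e0.injective ?_⟩
    rw [he0res, h']
  · rintro ⟨h, h'⟩
    refine ⟨h, ?_⟩
    rw [← he0res, h']

variable {F : Type*} [Field F] [Algebra L F]
variable {Fk : Type*} [Field Fk] [Algebra k Fk]

/-- The residue disc of `abar` for a general reduction map (`= H89.discAtπ`). -/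
def discAtGen (x : F) (abar : k) : Set (Place L F) :=
  {P | ∃ a : A, π a = abar ∧ P ∈ fibreAt x (a : L)}

theorem discAtGen_residue (x : F) (abar : IsLocalRing.ResidueField A) :
    discAtGen A (IsLocalRing.residue A) x abar = discAt A x abar := rfl

open scoped Classical in
/-- **FIBREWISE (FW)**, abstract form, for a general surjective `π : A →+* k`. -/
theorem fibrewise_gen (hπ : Function.Surjective π) (x b : F) (xk β : Fk) (n : A[X])
    (hn : n.map π ≠ 0)
    (hfin : {P : Place L F | P.ord b ≠ 0}.Finite)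
    (hNL : ∀ a : L, ∑ᶠ P ∈ fibreAt x a, P.ord b = ((n.map A.subtype).rootMultiplicity a : ℤ))
    (hNk : ∀ abar : k, ∑ᶠ Q ∈ fibreAt xk abar, Q.ord β = ((n.map π).rootMultiplicity abar : ℤ))
    (abar : k) :
    ∑ᶠ Q ∈ fibreAt xk abar, Q.ord β = ∑ᶠ P ∈ discAtGen A π x abar, P.ord b := by
  rw [hNk abar, ← finsum_rootMultiplicity_eq_gen A π hπ n hn abar]
  have h := regroup x b (n.map A.subtype) {a : L | ∃ h : a ∈ A, π ⟨a, h⟩ = abar} hfin hNL
  have hset : {P : Place L F | ∃ a ∈ {a : L | ∃ h : a ∈ A, π ⟨a, h⟩ = abar}, P ∈ fibreAt x a}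
      = discAtGen A π x abar := by
    ext P
    constructor
    · rintro ⟨a, ⟨h, h'⟩, hP⟩
      exact ⟨⟨a, h⟩, h', hP⟩
    · rintro ⟨a, h', hP⟩
      exact ⟨(a : L), ⟨a.2, h'⟩, hP⟩
  rw [hset] at h
  rw [← h]
  rfl

/-- **FIBREWISE (FW) for a chart with coordinate `x`**, from `(V5)` / `(O4)`, for a general
surjective `π : A →+* k`; the norm hypotheses are in the shape of
`H27.GaussData.exists_norm_eq`. -/
theorem fibrewise_of_norm_gen (hπ : Function.Surjective π)
    (x : F) [Fact (Transcendental L x)] [FiniteDimensional L⟮x⟯ F] [Algebra.IsSeparable L⟮x⟯ F]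
    [HasPrincipalDivisors L F]
    (xk : Fk) [Fact (Transcendental k xk)] [FiniteDimensional k⟮xk⟯ Fk]
    [Algebra.IsSeparable k⟮xk⟯ Fk] [HasPrincipalDivisors k Fk]
    (hdegL : ∀ w : Place L F, w.deg = 1) (hdegk : ∀ w : Place k Fk, w.deg = 1)
    (b : F) (hb : b ≠ 0) (β : Fk) (hβ : β ≠ 0) (n : A[X])
    (hnL : aeval x (n.map A.subtype) = ((Algebra.norm L⟮x⟯ b : L⟮x⟯) : F))
    (hnk : aeval xk (n.map π) = ((Algebra.norm k⟮xk⟯ β : k⟮xk⟯) : Fk))
    (abar : k) :
    ∑ᶠ Q ∈ fibreAt xk abar, Q.ord β = ∑ᶠ P ∈ discAtGen A π x abar, P.ord b := by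
  have hnL' : aeval (xRat L x) (n.map A.subtype) = Algebra.norm L⟮x⟯ b := by
    apply Subtype.ext
    rw [coe_aeval_xRat, hnL]
  have hnk' : aeval (xRat k xk) (n.map π) = Algebra.norm k⟮xk⟯ β := by
    apply Subtype.ext
    rw [coe_aeval_xRat, hnk]
  have hn : n.map π ≠ 0 := by
    intro h0
    rw [h0, map_zero] at hnk'
    exact hβ (Algebra.norm_eq_zero_iff.mp hnk'.symm)
  exact fibrewise_gen A π hπ x b xk β n hn (finite_ord_ne_zero b hb)
    (fun a => finsum_fibreAt_ord_eq_rootMultiplicity x hdegL a b hb _ hnL')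
    (fun a => finsum_fibreAt_ord_eq_rootMultiplicity xk hdegk a β hβ _ hnk') abar

end Gen

end Fermat.Agent.S18.H35

end
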