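/-
helper89, project S18, package R4 (SEPARATION) of helper92's R-EXIST plan, in abstract form.

Setting (to be instantiated): `B` an integral chart ring of the generic fibre, `X` the places `P`
of the generic fibre in the chart, `Y` the places `Q` of the special fibre in the chart,
`r : X → Y` the centre map, `f : Y → T` the coordinate (`T` = residue field), `n P b = ord_P b`,
`m Q b = ord_Q (res b)`, `e Q = ev_Q ∘ res`, `good = {b | res b ≠ 0}`.

From the FIBREWISE conservation of number (`fw`) plus interpolation on the special fibre we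
deduce the POINTWISE conservation of number `∑_{r P = Q} n P b = m Q b`.
Mathlib only.
-/
import Mathlib

set_option autoImplicit false

namespace Fermat.Agent.S18.H89

open Function

/-- Hypothesis bundle for the separation lemma. -/
structure SepData {B k X Y T : Type*} [CommRing B] [Field k]
    (r : X → Y) (f : Y → T) (n : X → B → ℤ) (m : Y → B → ℤ) (e : Y → B →+* k)
    (good : Submonoid B) : Prop where
  zero_notMem : (0 : B) ∉ good
  of_mul : ∀ b c : B, b * c ∈ good → b ∈ good ∧ c ∈ good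
  of_e_ne : ∀ (Q : Y) (b : B), e Q b ≠ 0 → b ∈ good
  n_nonneg : ∀ (P : X) (b : B), b ≠ 0 → 0 ≤ n P b
  n_mul : ∀ (P : X) (b c : B), b ≠ 0 → c ≠ 0 → n P (b * c) = n P b + n P c
  n_add : ∀ (P : X) (b c : B), b ≠ 0 → c ≠ 0 → b + c ≠ 0 →
    min (n P b) (n P c) ≤ n P (b + c)
  m_nonneg : ∀ (Q : Y) (b : B), b ∈ good → 0 ≤ m Q b
  m_mul : ∀ (Q : Y) (b c : B), b ∈ good → c ∈ good → m Q (b * c) = m Q b + m Q c
  m_eq_zero_iff : ∀ (Q : Y) (b : B), b ∈ good → (m Q b = 0 ↔ e Q b ≠ 0)
  m_add : ∀ (Q : Y) (b c : B), b ∈ good → (c ∈ good → m Q b < m Q c) →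
    b + c ∈ good ∧ m Q (b + c) = m Q b
  ev : ∀ (P : X) (b : B), b ∈ good → 0 < n P b → e (r P) b = 0
  fin_fibre : ∀ a : T, {Q : Y | f Q = a}.Finite
  fin_zeros : ∀ b : B, b ∈ good → {P : X | n P b ≠ 0}.Finite
  fw : ∀ b : B, b ∈ good → ∀ a : T,
    ∑ᶠ Q ∈ {Q : Y | f Q = a}, m Q b = ∑ᶠ P ∈ {P : X | f (r P) = a}, n P b
  int1 : ∀ P : X, ∃ t : B, t ≠ 0 ∧ 0 < n P t ∧
    ∀ Q : Y, f Q = f (r P) → Q ≠ r P → e Q t = 1
  int2 : ∀ (a : T) (c : Y → k), ∃ u : B, ∀ Q : Y, f Q = a → e Q u = c Q

namespace SepData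

set_option linter.unusedSectionVars false

variable {B k X Y T : Type*} [CommRing B] [IsDomain B] [Field k]
  {r : X → Y} {f : Y → T} {n : X → B → ℤ} {m : Y → B → ℤ} {e : Y → B →+* k}
  {good : Submonoid B}

theorem ne_zero_of_good (D : SepData r f n m e good) {b : B} (hb : b ∈ good) : b ≠ 0 :=
  fun h => D.zero_notMem (h ▸ hb)

theorem m_one (D : SepData r f n m e good) (Q : Y) : m Q 1 = 0 := by
  have h := D.m_mul Q 1 1 good.one_mem good.one_mem
  rw [mul_one] at h
  linarith

theorem n_one (D : SepData r f n m e good) (P : X) : n P 1 = 0 := by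
  have h := D.n_mul P 1 1 one_ne_zero one_ne_zero
  rw [mul_one] at h
  linarith

theorem m_pow (D : SepData r f n m e good) (Q : Y) {b : B} (hb : b ∈ good) (j : ℕ) :
    m Q (b ^ j) = j * m Q b := by
  induction j with
  | zero => simp [D.m_one]
  | succ j ih =>
    rw [pow_succ, D.m_mul Q _ _ (good.pow_mem hb j) hb, ih]
    push_cast
    ring

theorem n_pow (D : SepData r f n m e good) (P : X) {b : B} (hb : b ≠ 0) (j : ℕ) :
    n P (b ^ j) = j * n P b := by
  induction j with
  | zero => simp [D.n_one]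
  | succ j ih =>
    rw [pow_succ, D.n_mul P _ _ (pow_ne_zero j hb) hb, ih]
    push_cast
    ring

theorem m_prod (D : SepData r f n m e good) (Q : Y) {ι : Type*} (s : Finset ι) (h : ι → B)
    (hh : ∀ i ∈ s, h i ∈ good) : m Q (∏ i ∈ s, h i) = ∑ i ∈ s, m Q (h i) := by
  classical
  induction s using Finset.induction_on with
  | empty => simp [D.m_one]
  | insert a s ha ih =>
    rw [Finset.prod_insert ha, Finset.sum_insert ha,
      D.m_mul Q _ _ (hh a (Finset.mem_insert_self a s))
        (good.prod_mem fun i hi => hh i (Finset.mem_insert_of_mem hi)),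
      ih fun i hi => hh i (Finset.mem_insert_of_mem hi)]

theorem n_prod (D : SepData r f n m e good) (P : X) {ι : Type*} (s : Finset ι) (h : ι → B)
    (hh : ∀ i ∈ s, h i ≠ 0) : n P (∏ i ∈ s, h i) = ∑ i ∈ s, n P (h i) := by
  classical
  induction s using Finset.induction_on with
  | empty => simp [D.n_one]
  | insert a s ha ih =>
    rw [Finset.prod_insert ha, Finset.sum_insert ha,
      D.n_mul P _ _ (hh a (Finset.mem_insert_self a s))
        (Finset.prod_ne_zero_iff.mpr fun i hi => hh i (Finset.mem_insert_of_mem hi)),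
      ih fun i hi => hh i (Finset.mem_insert_of_mem hi)]

/-- The zero set of a good element, as a finset. -/
noncomputable def zeros (D : SepData r f n m e good) {b : B} (hb : b ∈ good) : Finset X :=
  (D.fin_zeros b hb).toFinset

theorem mem_zeros (D : SepData r f n m e good) {b : B} (hb : b ∈ good) (P : X) :
    P ∈ D.zeros hb ↔ n P b ≠ 0 := by
  simp [zeros]

theorem finsum_eq_sum (D : SepData r f n m e good) {b : B} (hb : b ∈ good) (S : Set X)
    [DecidablePred (· ∈ S)] :
    ∑ᶠ P ∈ S, n P b = ∑ P ∈ (D.zeros hb).filter (· ∈ S), n P b := by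
  have hf : (support fun P : X => n P b).Finite := D.fin_zeros b hb
  exact finsum_mem_eq_sum_filter (fun P : X => n P b) S hf

theorem of_prod (D : SepData r f n m e good) {ι : Type*} (s : Finset ι) (h : ι → B)
    (hs : ∏ i ∈ s, h i ∈ good) : ∀ i ∈ s, h i ∈ good := by
  classical
  induction s using Finset.induction_on with
  | empty => simp
  | insert a s ha ih =>
    rw [Finset.prod_insert ha] at hs
    obtain ⟨h1, h2⟩ := D.of_mul _ _ hs
    intro i hi
    rcases Finset.mem_insert.mp hi with rfl | hi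
    · exact h1
    · exact ih h2 i hi

theorem of_pow (D : SepData r f n m e good) {b : B} {j : ℕ} (hj : 0 < j) (h : b ^ j ∈ good) :
    b ∈ good := by
  obtain ⟨j, rfl⟩ := Nat.exists_eq_succ_of_ne_zero hj.ne'
  rw [pow_succ] at h
  exact (D.of_mul _ _ h).2

/-- The inequality half: the zeros of `b` reducing to `Q₁` are at most `ord_{Q₁} (res b)`. -/
theorem sum_le (D : SepData r f n m e good) {b : B} (hb : b ∈ good) (Q1 : Y) :
    ∑ᶠ P ∈ {P : X | r P = Q1}, n P b ≤ m Q1 b := by
  classical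
  by_contra hlt
  rw [not_le] at hlt
  have hb0 := D.ne_zero_of_good hb
  rw [D.finsum_eq_sum hb] at hlt
  set Z : Finset X := (D.zeros hb).filter (· ∈ {P : X | r P = Q1}) with hZ
  have hZmem : ∀ P ∈ Z, r P = Q1 ∧ 0 < n P b := by
    intro P hP
    rw [hZ, Finset.mem_filter, D.mem_zeros] at hP
    exact ⟨hP.2, lt_of_le_of_ne (D.n_nonneg P b hb0) (Ne.symm hP.1)⟩
  choose t ht0 htpos ht1 using D.int1
  set g : B := ∏ P ∈ Z, t P ^ (n P b).toNat with hg
  have hpow0 : ∀ P ∈ Z, t P ^ (n P b).toNat ≠ 0 := fun P _ => pow_ne_zero _ (ht0 P)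
  have hg0 : g ≠ 0 := Finset.prod_ne_zero_iff.mpr hpow0
  obtain ⟨u, hu⟩ := D.int2 (f Q1) (fun Q => 1 - e Q b)
  have hμ : ∀ P ∈ Z, (((n P b).toNat : ℕ) : ℤ) = n P b := fun P hP =>
    Int.toNat_of_nonneg (hZmem P hP).2.le
  have hμpos : ∀ P ∈ Z, 0 < (n P b).toNat := fun P hP => by
    have := hμ P hP
    have h2 := (hZmem P hP).2
    omega
  -- `e Q g = 1` on the other points of the fibre
  have heg : ∀ Q, f Q = f Q1 → Q ≠ Q1 → e Q g = 1 := by
    intro Q hQ hne
    rw [hg, map_prod]
    refine Finset.prod_eq_one fun P hP => ?_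
    obtain ⟨hrP, -⟩ := hZmem P hP
    rw [map_pow, ht1 P Q (by rw [hrP]; exact hQ) (by rw [hrP]; exact hne), one_pow]
  -- the key estimate
  have hkey : g * u ∈ good → m Q1 b < m Q1 (g * u) := by
    intro hgu
    obtain ⟨hgg, hug⟩ := D.of_mul g u hgu
    rw [D.m_mul Q1 g u hgg hug]
    have hfac : ∀ P ∈ Z, t P ^ (n P b).toNat ∈ good := D.of_prod Z _ hgg
    have htg : ∀ P ∈ Z, t P ∈ good := fun P hP => D.of_pow (hμpos P hP) (hfac P hP)
    have hmt : ∀ P ∈ Z, 1 ≤ m Q1 (t P) := by
      intro P hP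
      have h0 : e Q1 (t P) = 0 := by
        have := D.ev P (t P) (htg P hP) (htpos P)
        rwa [(hZmem P hP).1] at this
      have h1 : m Q1 (t P) ≠ 0 := fun h =>
        ((D.m_eq_zero_iff Q1 (t P) (htg P hP)).mp h) h0
      have h2 := D.m_nonneg Q1 (t P) (htg P hP)
      omega
    have hmg : ∑ P ∈ Z, n P b ≤ m Q1 g := by
      rw [hg, D.m_prod Q1 Z _ hfac]
      refine Finset.sum_le_sum fun P hP => ?_
      rw [D.m_pow Q1 (htg P hP), hμ P hP]
      have := hmt P hP
      have h2 := (hZmem P hP).2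
      nlinarith
    have := D.m_nonneg Q1 u hug
    linarith
  obtain ⟨hb'good, hmb'⟩ := D.m_add Q1 b (g * u) hb hkey
  have hb'0 := D.ne_zero_of_good hb'good
  -- `e Q b' = 1` on the other points of the fibre
  have heb' : ∀ Q, f Q = f Q1 → Q ≠ Q1 → e Q (b + g * u) = 1 := by
    intro Q hQ hne
    rw [map_add, map_mul, heg Q hQ hne, hu Q hQ]
    ring
  have hmb'0 : ∀ Q, f Q = f Q1 → Q ≠ Q1 → m Q (b + g * u) = 0 := fun Q hQ hne =>
    (D.m_eq_zero_iff Q _ hb'good).mpr (by rw [heb' Q hQ hne]; exact one_ne_zero)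
  -- the left-hand side of `fw` for `b'`
  have hL : ∑ᶠ Q ∈ {Q : Y | f Q = f Q1}, m Q (b + g * u) = m Q1 (b + g * u) := by
    rw [finsum_mem_def, finsum_eq_single _ Q1]
    · rw [Set.indicator_of_mem]
      exact rfl
    · intro Q hQ
      by_cases h : f Q = f Q1
      · rw [Set.indicator_of_mem (show Q ∈ {Q : Y | f Q = f Q1} from h)]
        exact hmb'0 Q h hQ
      · rw [Set.indicator_of_notMem (show Q ∉ {Q : Y | f Q = f Q1} from h)]
  -- orders at the zeros of `b` do not drop
  have hnP : ∀ P ∈ Z, n P b ≤ n P (b + g * u) := by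
    intro P hP
    by_cases hgu0 : g * u = 0
    · rw [hgu0, add_zero]
    · have hu0 : u ≠ 0 := fun h => hgu0 (by rw [h, mul_zero])
      have h1 := D.n_add P b (g * u) hb0 hgu0 hb'0
      have h2 : n P b ≤ n P (g * u) := by
        rw [D.n_mul P g u hg0 hu0, hg, D.n_prod P Z _ hpow0]
        have h3 : n P b ≤ ∑ P' ∈ Z, n P (t P' ^ (n P' b).toNat) := by
          have hterm : n P b ≤ n P (t P ^ (n P b).toNat) := by
            rw [D.n_pow P (ht0 P), hμ P hP]
            have := htpos P
            have h2 := (hZmem P hP).2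
            nlinarith
          refine hterm.trans (Finset.single_le_sum (f := fun P' => n P (t P' ^ (n P' b).toNat))
            (fun P' hP' => ?_) hP)
          exact D.n_nonneg P _ (hpow0 P' hP')
        have := D.n_nonneg P u hu0
        linarith
      rw [min_eq_left h2] at h1
      exact h1
  -- the right-hand side of `fw` for `b'`
  have hR : ∑ P ∈ Z, n P b ≤ ∑ᶠ P ∈ {P : X | f (r P) = f Q1}, n P (b + g * u) := by
    rw [D.finsum_eq_sum hb'good]
    calc ∑ P ∈ Z, n P b ≤ ∑ P ∈ Z, n P (b + g * u) := Finset.sum_le_sum hnP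
      _ ≤ _ := by
        refine Finset.sum_le_sum_of_subset_of_nonneg (fun P hP => ?_)
          (fun P _ _ => D.n_nonneg P _ hb'0)
        rw [Finset.mem_filter, D.mem_zeros]
        refine ⟨?_, ?_⟩
        · have h1 := hnP P hP
          have h2 := (hZmem P hP).2
          omega
        · show f (r P) = f Q1
          rw [(hZmem P hP).1]
  have hfw := D.fw (b + g * u) hb'good (f Q1)
  rw [hL, hmb'] at hfw
  linarith

/-- **Separation lemma** (pointwise conservation of number): the zeros of `b` (with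
multiplicity) whose centre is `Q₁` are exactly `ord_{Q₁} (res b)` in number. -/
theorem sum_eq (D : SepData r f n m e good) {b : B} (hb : b ∈ good) (Q1 : Y) :
    ∑ᶠ P ∈ {P : X | r P = Q1}, n P b = m Q1 b := by
  classical
  have hfin := D.fin_fibre (f Q1)
  have hfw := D.fw b hb (f Q1)
  rw [finsum_mem_eq_finite_toFinset_sum _ hfin, D.finsum_eq_sum hb] at hfw
  have hre : ∑ P ∈ (D.zeros hb).filter (· ∈ {P : X | f (r P) = f Q1}), n P b
      = ∑ Q ∈ hfin.toFinset, ∑ᶠ P ∈ {P : X | r P = Q}, n P b := by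
    rw [← Finset.sum_fiberwise_of_maps_to (g := r) (t := hfin.toFinset)
      (fun P hP => by
        rw [Finset.mem_filter] at hP
        rw [Set.Finite.mem_toFinset]
        exact hP.2)]
    refine Finset.sum_congr rfl fun Q hQ => ?_
    rw [D.finsum_eq_sum hb, Finset.filter_filter]
    refine Finset.sum_congr (Finset.filter_congr fun P _ => ?_) fun _ _ => rfl
    rw [Set.Finite.mem_toFinset] at hQ
    constructor
    · rintro ⟨-, h⟩
      exact h
    · intro h
      refine ⟨?_, h⟩
      show f (r P) = f Q1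
      rw [show r P = Q from h]
      exact hQ
  have hle : ∀ Q ∈ hfin.toFinset, 0 ≤ m Q b - ∑ᶠ P ∈ {P : X | r P = Q}, n P b :=
    fun Q _ => sub_nonneg.mpr (D.sum_le hb Q)
  have hsum : ∑ Q ∈ hfin.toFinset, (m Q b - ∑ᶠ P ∈ {P : X | r P = Q}, n P b) = 0 := by
    rw [Finset.sum_sub_distrib, hfw, hre, sub_self]
  have h0 := (Finset.sum_eq_zero_iff_of_nonneg hle).mp hsum Q1
    (by rw [Set.Finite.mem_toFinset]; exact rfl)
  linarith

end SepData

end Fermat.Agent.S18.H89
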