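/-
helper89, project S18, package R5 (ASSEMBLY) of the R-EXIST plan: one chart.

We instantiate the abstract separation lemma `H89.SepData.sum_eq` in helper97's abstract chart
(`H97.ChartHyp` / `H97.FibreHyp`): `B = BA L O t` the chart ring, `X` the places of the generic
fibre in the domain of the chart, `Y = HeightOneSpectrum Bk` the points of the special fibre
chart, `r = centerPrime`.  The only extra inputs are the fibrewise conservation of number (R3,
in the shape of `H35.fibrewise`), finiteness of zeros and poles on the generic fibre, and the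
fact that the residue fields of the places of the special fibre are `k`.

Output: `ChartSep.sum_center_eq`, pointwise conservation of number in the chart.
-/
import Mathlib
import Fermat.Prelude.Def_AlgebraicCurve_DivisorClassGroup
import Fermat.Agent.S24.H24_Basic
import Fermat.Agent.S24.H27_PlaceOfValuation
import Fermat.Agent.S24.H42_Residue
import Fermat.Agent.S18.H97_Center
import Fermat.Agent.S18.H35_Fibrewise
import Fermat.Agent.S18.H89_Separation

set_option autoImplicit false
set_option linter.unusedSectionVars false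

noncomputable section

namespace Fermat.Agent.S18.H89

open AlgebraicCurve IsDedekindDomain Fermat.Agent.S18.H97 Fermat.Agent.S24

section OneChart

variable {L FL k Fk : Type*} [Field L] [Field FL] [Algebra L FL] [Field k] [Field Fk]
  [Algebra k Fk]
variable {A : ValuationSubring L} {π : A →+* k} {O : ValuationSubring FL} {res : O →+* Fk}
  {t : FL}
variable {Bk : Type*} [CommRing Bk] [IsDedekindDomain Bk] [Algebra Bk Fk] [IsFractionRing Bk Fk]
  [Algebra k Bk] [IsScalarTower k Bk Fk]

/-- The residue disc of `abar` for a general reduction map `π : A →+* k`: places `P` such that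
`t - a` vanishes at `P` for some `a : A` with `π a = abar`.  For `π = IsLocalRing.residue A` this
is `H35.discAt A t abar`. -/
def discAtπ (A : ValuationSubring L) (π : A →+* k) (t : FL) (abar : k) : Set (Place L FL) :=
  {P | ∃ a : A, π a = abar ∧ P ∈ H35.fibreAt t (a : L)}

/-- The coordinate `t` as an element of the chart ring. -/
def tBA (H : ChartHyp A π O res t) : BA L O t := ⟨t, H.self_mem_BA⟩

/-- Extra hypotheses for the separation argument in a chart. -/
structure SepHyp (H : ChartHyp A π O res t) (G : FibreHyp L k res t Bk) : Prop where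
  /-- residue fields of the places of the special fibre are `k` -/
  resk : ∀ Q : Place k Fk, Function.Surjective (algebraMap k Q.ResidueField)
  /-- finiteness of zeros and poles on the generic fibre -/
  finOrd : ∀ f : FL, f ≠ 0 → {P : Place L FL | P.ord f ≠ 0}.Finite
  /-- `Bk` is integral over `k[res t]`, in the only form we use -/
  intBk : ∀ Q : Place k Fk, resBA L res t (tBA H) ∈ Q.toValuationSubring →
    ∀ β : Bk, algebraMap Bk Fk β ∈ Q.toValuationSubring
  /-- (R3) fibrewise conservation of number, in the shape of `H35.fibrewise` -/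
  fw : ∀ b : BA L O t, resBA L res t b ≠ 0 → ∀ abar : k,
    ∑ᶠ Q ∈ H35.fibreAt (resBA L res t (tBA H)) abar, Q.ord (resBA L res t b) =
      ∑ᶠ P ∈ discAtπ A π t abar, P.ord (b : FL)

variable (H : ChartHyp A π O res t) (G : FibreHyp L k res t Bk)

/-- Evaluation of the chart ring at a point of the special fibre chart. -/
def eY (S : SepHyp H G) (w : HeightOneSpectrum Bk) : BA L O t →+* k :=
  (ev (H42.placeOf (K := k) (F := Fk) w) (S.resk _)).comp
    ((H42.toPlaceRing (K := k) (F := Fk) w).comp (ChartHyp.resB G))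

variable {H G}

theorem eY_eq_iff (S : SepHyp H G) (w : HeightOneSpectrum Bk) (b : BA L O t) (c : k) :
    eY H G S w b = c ↔ ChartHyp.resB G b - algebraMap k Bk c ∈ w.asIdeal := by
  unfold eY
  rw [RingHom.comp_apply, ev_eq_iff, ← IsLocalRing.residue_eq_zero_iff,
    H42.residue_eq_zero_iff_valuation_lt_one, ← HeightOneSpectrum.valuation_lt_one_iff_mem (K := Fk)]
  have : ((((H42.toPlaceRing (K := k) (F := Fk) w).comp (ChartHyp.resB G)) b -
      algebraMap k (H42.placeOf (K := k) (F := Fk) w).toValuationSubring c :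
        (H42.placeOf (K := k) (F := Fk) w).toValuationSubring) : Fk) =
      algebraMap Bk Fk (ChartHyp.resB G b - algebraMap k Bk c) := by
    rw [map_sub, ← IsScalarTower.algebraMap_apply]
    rfl
  rw [this]

theorem eY_eq_zero_iff (S : SepHyp H G) (w : HeightOneSpectrum Bk) (b : BA L O t) :
    eY H G S w b = 0 ↔ ChartHyp.resB G b ∈ w.asIdeal := by
  rw [eY_eq_iff, map_zero, sub_zero]


/-- The good elements of the chart ring: those with nonzero reduction. -/
def goodBA (L : Type*) {FL Fk : Type*} [Field L] [Field FL] [Algebra L FL] [Field Fk]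
    {O : ValuationSubring FL} (res : O →+* Fk) (t : FL) : Submonoid (BA L O t) where
  carrier := {b | resBA L res t b ≠ 0}
  one_mem' := by
    show resBA L res t 1 ≠ 0
    rw [map_one]; exact one_ne_zero
  mul_mem' := by
    intro a b ha hb
    show resBA L res t (a * b) ≠ 0
    rw [map_mul]; exact mul_ne_zero ha hb

theorem mem_goodBA {b : BA L O t} : b ∈ goodBA L res t ↔ resBA L res t b ≠ 0 := Iff.rfl

theorem coe_ne_zero_BA {b : BA L O t} (hb : b ≠ 0) : (b : FL) ≠ 0 :=
  fun h => hb (Subtype.ext h)

theorem eY_centerPrime (S : SepHyp H G) {P : Place L FL} (hP : H.InDom P) (b : BA L O t) :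
    eY H G S (H.centerPrime G hP) b = H.phi hP b := by
  rw [eY_eq_iff, ChartHyp.centerPrime_asIdeal, ← ChartHyp.psi_resB H G hP b]
  exact H.sub_psi_mem_ker G hP _

theorem phi_eq_zero_of_ord_pos {P : Place L FL} (hP : H.InDom P) (b : BA L O t)
    (h : 0 < P.ord (b : FL)) : H.phi hP b = 0 := by
  have hb0 : H.inclBA hP b ≠ 0 := by
    intro h0
    have h1 : (b : FL) = 0 := by
      have := congrArg (fun x : P.toValuationSubring => (x : FL)) h0
      simpa using this
    rw [h1, Place.ord_zero] at h
    exact lt_irrefl _ h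
  have hmem : H.inclBA hP b ∈ IsLocalRing.maximalIdeal P.toValuationSubring :=
    (H27.ord_pos_iff_mem_maximalIdeal P _ hb0).mp h
  have hev : ev P (H.resL P) (H.inclBA hP b) = 0 := (ev_eq_zero_iff P (H.resL P) _).mpr hmem
  have hA : H.evA hP b = 0 := by
    apply Subtype.ext
    rw [ChartHyp.coe_evA, hev]
    rfl
  rw [ChartHyp.phi_apply, hA, map_zero]

theorem ord_pos_of_evA_eq_zero {P : Place L FL} (hP : H.InDom P) (b : BA L O t) (hb : b ≠ 0)
    (h : H.evA hP b = 0) : 0 < P.ord (b : FL) := by
  have hb0 : H.inclBA hP b ≠ 0 := by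
    intro h0
    apply hb
    apply Subtype.ext
    have := congrArg (fun x : P.toValuationSubring => (x : FL)) h0
    simpa using this
  have hev : ev P (H.resL P) (H.inclBA hP b) = 0 := by
    rw [← ChartHyp.coe_evA, h]
    rfl
  exact (H27.ord_pos_iff_mem_maximalIdeal P _ hb0).mpr ((ev_eq_zero_iff P (H.resL P) _).mp hev)

theorem ord_nonneg_of_inDom {P : Place L FL} (hP : H.InDom P) (b : BA L O t) (hb : b ≠ 0) :
    0 ≤ P.ord (b : FL) :=
  (H27.mem_toValuationSubring_of_ne_zero P (coe_ne_zero_BA hb)).mp
    (H.mem_place_of_mem_BA hP b.2)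

theorem resBA_mem_placeOf (G : FibreHyp L k res t Bk) (w : HeightOneSpectrum Bk) (b : BA L O t) :
    resBA L res t b ∈ (H42.placeOf (K := k) (F := Fk) w).toValuationSubring := by
  rw [← ChartHyp.algebraMap_resB G]
  exact H42.algebraMap_mem_placeOf _ _

theorem m_nonneg (G : FibreHyp L k res t Bk) (w : HeightOneSpectrum Bk) (b : BA L O t)
    (hb : resBA L res t b ≠ 0) :
    0 ≤ (H42.placeOf (K := k) (F := Fk) w).ord (resBA L res t b) :=
  (H27.mem_toValuationSubring_of_ne_zero _ hb).mp (resBA_mem_placeOf G w b)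

theorem m_pos_iff (S : SepHyp H G) (w : HeightOneSpectrum Bk) (b : BA L O t)
    (hb : resBA L res t b ≠ 0) :
    0 < (H42.placeOf (K := k) (F := Fk) w).ord (resBA L res t b) ↔ eY H G S w b = 0 := by
  rw [eY_eq_zero_iff, ChartHyp.ord_placeOf_pos_iff w hb, ← ChartHyp.algebraMap_resB G,
    HeightOneSpectrum.valuation_lt_one_iff_mem]

theorem m_eq_zero_iff (S : SepHyp H G) (w : HeightOneSpectrum Bk) (b : BA L O t)
    (hb : resBA L res t b ≠ 0) :
    (H42.placeOf (K := k) (F := Fk) w).ord (resBA L res t b) = 0 ↔ eY H G S w b ≠ 0 := by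
  rw [Ne, ← m_pos_iff S w b hb]
  have := m_nonneg G w b hb
  omega


/-- The coordinate of a point of the special fibre chart. -/
def fY (S : SepHyp H G) (w : HeightOneSpectrum Bk) : k := eY H G S w (tBA H)

theorem resBA_tBA_sub_ne_zero (G : FibreHyp L k res t Bk) (a : k) :
    resBA L res t (tBA H) - algebraMap k Fk a ≠ 0 :=
  sub_ne_zero.mpr (G.nonconst (tBA H) rfl a)

theorem fY_eq_iff (S : SepHyp H G) (w : HeightOneSpectrum Bk) (a : k) :
    fY S w = a ↔
      0 < (H42.placeOf (K := k) (F := Fk) w).ord (resBA L res t (tBA H) - algebraMap k Fk a) := by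
  unfold fY
  have hel : algebraMap Bk Fk (ChartHyp.resB G (tBA H) - algebraMap k Bk a) =
      resBA L res t (tBA H) - algebraMap k Fk a := by
    rw [map_sub, ChartHyp.algebraMap_resB G, ← IsScalarTower.algebraMap_apply]
  rw [eY_eq_iff, ChartHyp.ord_placeOf_pos_iff w (resBA_tBA_sub_ne_zero G a), ← hel,
    HeightOneSpectrum.valuation_lt_one_iff_mem]

theorem fY_eq_iff_mem_fibreAt (S : SepHyp H G) (w : HeightOneSpectrum Bk) (a : k) :
    fY S w = a ↔
      H42.placeOf (K := k) (F := Fk) w ∈ H35.fibreAt (resBA L res t (tBA H)) a := by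
  rw [fY_eq_iff, H35.mem_fibreAt]

/-- Dictionary: the fibre of `fY` over `a` is the fibre of `res t` over `a`. -/
theorem bijOn_placeOf_fibre (S : SepHyp H G) (a : k) :
    Set.BijOn (fun w : HeightOneSpectrum Bk => H42.placeOf (K := k) (F := Fk) w)
      {w | fY S w = a} (H35.fibreAt (resBA L res t (tBA H)) a) := by
  refine ⟨fun w hw => (fY_eq_iff_mem_fibreAt S w a).mp hw,
    fun w _ w' _ h => H42.placeOf_injective h, fun Q hQ => ?_⟩
  have hpos : 0 < Q.ord (resBA L res t (tBA H) - algebraMap k Fk a) := hQ
  have hmem1 : resBA L res t (tBA H) - algebraMap k Fk a ∈ Q.toValuationSubring :=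
    (H27.mem_toValuationSubring_of_ne_zero Q (resBA_tBA_sub_ne_zero G a)).mpr hpos.le
  have hmem : resBA L res t (tBA H) ∈ Q.toValuationSubring := by
    have := Q.toValuationSubring.add_mem _ _ hmem1 (Q.algebraMap_mem' a)
    rwa [sub_add_cancel] at this
  obtain ⟨w, rfl⟩ := H42.exists_placeOf_eq (K := k) Q (S.intBk Q hmem)
  exact ⟨w, (fY_eq_iff_mem_fibreAt S w a).mpr hQ, rfl⟩

theorem fin_fibre (S : SepHyp H G) (a : k) : {w : HeightOneSpectrum Bk | fY S w = a}.Finite := by
  set x : Bk := ChartHyp.resB G (tBA H) - algebraMap k Bk a with hx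
  have hx0 : x ≠ 0 := by
    intro h0
    apply resBA_tBA_sub_ne_zero (H := H) G a
    have := congrArg (algebraMap Bk Fk) h0
    rwa [hx, map_sub, ChartHyp.algebraMap_resB G, ← IsScalarTower.algebraMap_apply,
      map_zero] at this
  have hI : (Ideal.span {x} : Ideal Bk) ≠ 0 := by
    rw [Ne, Ideal.zero_eq_bot, Ideal.span_singleton_eq_bot]
    exact hx0
  refine (Ideal.finite_factors hI).subset fun w hw => ?_
  have h1 : fY S w = a := hw
  unfold fY at h1
  rw [eY_eq_iff] at h1
  show w.asIdeal ∣ Ideal.span {x}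
  rw [Ideal.dvd_span_singleton]
  exact h1

/-- The value of `fY` at a centre. -/
theorem fY_centerPrime (S : SepHyp H G) {P : Place L FL} (hP : H.InDom P) :
    fY S (H.centerPrime G hP) = π (H.evA hP (tBA H)) := by
  unfold fY
  rw [eY_centerPrime, ChartHyp.phi_apply]

theorem tBA_sub_const_ne_zero (G : FibreHyp L k res t Bk) (a : A) :
    tBA H - H.constBA a ≠ 0 := by
  intro h0
  have h1 : tBA H = H.constBA a := sub_eq_zero.mp h0
  apply G.nonconst (tBA H) rfl (π a)
  rw [h1, H.resBA_constBA]

/-- Dictionary: the places of the chart whose centre has coordinate `a` form the residue disc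
of `a`. -/
theorem bijOn_val_disc (S : SepHyp H G) (a : k) :
    Set.BijOn (fun P : {P : Place L FL // H.InDom P} => (P : Place L FL))
      {P | fY S (H.centerPrime G P.2) = a} (discAtπ A π t a) := by
  refine ⟨fun P hP => ?_, fun P _ P' _ h => Subtype.ext h, fun P hP => ?_⟩
  · have h1 : fY S (H.centerPrime G P.2) = a := hP
    rw [fY_centerPrime] at h1
    refine ⟨H.evA P.2 (tBA H), h1, ?_⟩
    rw [H35.mem_fibreAt]
    have h2 : H.evA P.2 (tBA H - H.constBA (H.evA P.2 (tBA H))) = 0 := by
      rw [map_sub, ChartHyp.evA_constBA, sub_self]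
    have h3 := ord_pos_of_evA_eq_zero P.2 _ (tBA_sub_const_ne_zero G _) h2
    have hcoe : ((tBA H - H.constBA (H.evA P.2 (tBA H)) : BA L O t) : FL) =
        t - algebraMap L FL ((H.evA P.2 (tBA H) : A) : L) := rfl
    rw [hcoe] at h3
    exact h3
  · obtain ⟨a', ha', hP'⟩ := hP
    rw [H35.mem_fibreAt] at hP'
    have hne : t - algebraMap L FL (a' : L) ≠ 0 := by
      intro h0
      rw [h0, Place.ord_zero] at hP'
      exact lt_irrefl _ hP'
    have hmem1 : t - algebraMap L FL (a' : L) ∈ P.toValuationSubring :=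
      (H27.mem_toValuationSubring_of_ne_zero P hne).mpr hP'.le
    have hmem : t ∈ P.toValuationSubring := by
      have := P.toValuationSubring.add_mem _ _ hmem1 (P.algebraMap_mem' (a' : L))
      rwa [sub_add_cancel] at this
    have hev : ev P (H.resL P) ⟨t, hmem⟩ = (a' : L) := by
      rw [ev_eq_iff]
      have hne' : (⟨t, hmem⟩ - algebraMap L P.toValuationSubring (a' : L) :
          P.toValuationSubring) ≠ 0 := by
        intro h0
        apply hne
        have := congrArg (fun x : P.toValuationSubring => (x : FL)) h0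
        simpa using this
      exact (H27.ord_pos_iff_mem_maximalIdeal P _ hne').mp hP'
    have hDom : H.InDom P := ⟨hmem, by rw [hev]; exact a'.2⟩
    refine ⟨⟨P, hDom⟩, ?_, rfl⟩
    show fY S (H.centerPrime G hDom) = a
    rw [fY_centerPrime, ← ha']
    congr 1
    apply Subtype.ext
    rw [ChartHyp.coe_evA]
    exact hev


theorem eY_constBA (S : SepHyp H G) (w : HeightOneSpectrum Bk) (a : A) :
    eY H G S w (H.constBA a) = π a := by
  rw [eY_eq_iff, H.resB_constBA G, sub_self]
  exact Ideal.zero_mem _

/-- (INT2) interpolation on a fibre of the special fibre chart. -/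
theorem int2 (S : SepHyp H G) (a : k) (c : HeightOneSpectrum Bk → k) :
    ∃ u : BA L O t, ∀ w, fY S w = a → eY H G S w u = c w := by
  classical
  set s : Finset (HeightOneSpectrum Bk) := (fin_fibre S a).toFinset with hs
  obtain ⟨y, hy⟩ := IsDedekindDomain.exists_forall_sub_mem_ideal (s := s)
    (fun w : HeightOneSpectrum Bk => w.asIdeal) (fun _ => 1) (fun w _ => w.prime)
    (fun w _ w' _ h h' => h (HeightOneSpectrum.ext h'))
    (fun w => algebraMap k Bk (c (w : HeightOneSpectrum Bk)))
  obtain ⟨u, rfl⟩ := ChartHyp.resB_surjective G y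
  refine ⟨u, fun w hw => ?_⟩
  rw [eY_eq_iff]
  have := hy w ((fin_fibre S a).mem_toFinset.mpr hw)
  rwa [pow_one] at this

/-- (INT1) a function vanishing at `P` whose reduction is `1` at the other points of the fibre
of the centre of `P`. -/
theorem int1 (S : SepHyp H G) {P : Place L FL} (hP : H.InDom P) :
    ∃ t' : BA L O t, t' ≠ 0 ∧ 0 < P.ord (t' : FL) ∧
      ∀ w, fY S w = fY S (H.centerPrime G hP) → w ≠ H.centerPrime G hP → eY H G S w t' = 1 := by
  classical
  obtain ⟨u₀, hu₀⟩ := int2 S (fY S (H.centerPrime G hP))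
    (fun w => if w = H.centerPrime G hP then 0 else 1)
  have hπ : π (H.evA hP u₀) = 0 := by
    rw [← ChartHyp.phi_apply, ← eY_centerPrime S hP u₀, hu₀ _ rfl, if_pos rfl]
  set u : BA L O t := u₀ - H.constBA (H.evA hP u₀) with hu
  have hevu : H.evA hP u = 0 := by
    rw [hu, map_sub, ChartHyp.evA_constBA, sub_self]
  have heu : ∀ w, fY S w = fY S (H.centerPrime G hP) → w ≠ H.centerPrime G hP →
      eY H G S w u = 1 := by
    intro w hw hne
    rw [hu, map_sub, eY_constBA, hπ, sub_zero, hu₀ w hw, if_neg hne]
  by_cases hu0 : u = 0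
  · set s : BA L O t := tBA H - H.constBA (H.evA hP (tBA H)) with hs
    have hs0 : s ≠ 0 := tBA_sub_const_ne_zero G _
    have hevs : H.evA hP s = 0 := by
      rw [hs, map_sub, ChartHyp.evA_constBA, sub_self]
    refine ⟨s, hs0, ord_pos_of_evA_eq_zero hP s hs0 hevs, fun w hw hne => ?_⟩
    exfalso
    have h1 := heu w hw hne
    rw [hu0, map_zero] at h1
    exact zero_ne_one h1
  · exact ⟨u, hu0, ord_pos_of_evA_eq_zero hP u hu0 hevu, heu⟩

/-- (FW) in the shape consumed by `SepData`. -/
theorem fw_sep (S : SepHyp H G) (b : BA L O t) (hb : resBA L res t b ≠ 0) (a : k) :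
    ∑ᶠ w ∈ {w : HeightOneSpectrum Bk | fY S w = a},
        (H42.placeOf (K := k) (F := Fk) w).ord (resBA L res t b) =
      ∑ᶠ P ∈ {P : {P : Place L FL // H.InDom P} | fY S (H.centerPrime G P.2) = a},
        (P : Place L FL).ord (b : FL) := by
  have h1 := finsum_mem_eq_of_bijOn
    (f := fun w : HeightOneSpectrum Bk =>
      (H42.placeOf (K := k) (F := Fk) w).ord (resBA L res t b))
    (g := fun Q : Place k Fk => Q.ord (resBA L res t b)) _
    (bijOn_placeOf_fibre S a) (fun _ _ => rfl)
  have h2 := finsum_mem_eq_of_bijOn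
    (f := fun P : {P : Place L FL // H.InDom P} => (P : Place L FL).ord (b : FL))
    (g := fun P : Place L FL => P.ord (b : FL)) _
    (bijOn_val_disc S a) (fun _ _ => rfl)
  rw [h1, h2]
  exact S.fw b hb a

theorem m_add (w : HeightOneSpectrum Bk) (b c : BA L O t)
    (hb : resBA L res t b ≠ 0)
    (h : resBA L res t c ≠ 0 → (H42.placeOf (K := k) (F := Fk) w).ord (resBA L res t b) <
      (H42.placeOf (K := k) (F := Fk) w).ord (resBA L res t c)) :
    resBA L res t (b + c) ≠ 0 ∧
      (H42.placeOf (K := k) (F := Fk) w).ord (resBA L res t (b + c)) =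
        (H42.placeOf (K := k) (F := Fk) w).ord (resBA L res t b) := by
  by_cases hc : resBA L res t c = 0
  · rw [map_add, hc, add_zero]
    exact ⟨hb, rfl⟩
  · have hlt := h hc
    have heq := H24.PlaceLemmas.ord_add_eq_of_lt (H42.placeOf (K := k) (F := Fk) w) hb hc hlt
    rw [map_add]
    refine ⟨fun h0 => ?_, heq⟩
    have h1 : resBA L res t b = -resBA L res t c := eq_neg_of_add_eq_zero_left h0
    rw [h1, H27.ord_neg] at hlt
    exact lt_irrefl _ hlt

/-- The separation data of a chart. -/
theorem sepData (S : SepHyp H G) :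
    SepData (fun P : {P : Place L FL // H.InDom P} => H.centerPrime G P.2) (fY S)
      (fun P b => (P : Place L FL).ord ((b : BA L O t) : FL))
      (fun w b => (H42.placeOf (K := k) (F := Fk) w).ord (resBA L res t b))
      (eY H G S) (goodBA L res t) where
  zero_notMem := fun h => h (map_zero _)
  of_mul := fun b c h => by
    have h' : resBA L res t (b * c) ≠ 0 := h
    rw [map_mul] at h'
    exact ⟨left_ne_zero_of_mul h', right_ne_zero_of_mul h'⟩
  of_e_ne := fun w b h hb => by
    apply h
    rw [eY_eq_zero_iff]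
    have h0 : ChartHyp.resB G b = 0 := by
      apply IsFractionRing.injective Bk Fk
      rw [ChartHyp.algebraMap_resB G, map_zero]
      exact hb
    rw [h0]
    exact Ideal.zero_mem _
  n_nonneg := fun P b hb => ord_nonneg_of_inDom P.2 b hb
  n_mul := fun P b c hb hc => by
    show (P : Place L FL).ord (((b * c : BA L O t)) : FL) = _
    rw [Subring.coe_mul]
    exact Place.ord_mul _ (coe_ne_zero_BA hb) (coe_ne_zero_BA hc)
  n_add := fun P b c _ _ hbc => by
    show _ ≤ (P : Place L FL).ord (((b + c : BA L O t)) : FL)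
    rw [Subring.coe_add]
    refine H27.min_ord_le_ord_add _ ?_
    rw [← Subring.coe_add]
    exact coe_ne_zero_BA hbc
  m_nonneg := fun w b hb => m_nonneg G w b hb
  m_mul := fun w b c hb hc => by
    show (H42.placeOf (K := k) (F := Fk) w).ord (resBA L res t (b * c)) = _
    rw [map_mul]
    exact Place.ord_mul _ hb hc
  m_eq_zero_iff := fun w b hb => m_eq_zero_iff S w b hb
  m_add := fun w b c hb h => m_add w b c hb h
  ev := fun P b _ hpos => by
    rw [eY_centerPrime S P.2 b]
    exact phi_eq_zero_of_ord_pos P.2 b hpos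
  fin_fibre := fin_fibre S
  fin_zeros := fun b hb => by
    have hb0 : (b : FL) ≠ 0 := by
      intro h0
      apply hb
      have : b = 0 := Subtype.ext h0
      rw [this, map_zero]
    exact (S.finOrd (b : FL) hb0).preimage (Set.injOn_of_injective Subtype.val_injective)
  fw := fun b hb a => fw_sep S b hb a
  int1 := fun P => int1 S P.2
  int2 := int2 S

/-- **Pointwise conservation of number in a chart.** -/
theorem sum_centerPrime_eq (S : SepHyp H G) (b : BA L O t) (hb : resBA L res t b ≠ 0)
    (w : HeightOneSpectrum Bk) :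
    ∑ᶠ P ∈ {P : {P : Place L FL // H.InDom P} | H.centerPrime G P.2 = w},
        (P : Place L FL).ord (b : FL) =
      (H42.placeOf (K := k) (F := Fk) w).ord (resBA L res t b) :=
  (sepData S).sum_eq (b := b) hb w

end OneChart

end Fermat.Agent.S18.H89
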