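import Mathlib
import Fermat.Agent.S18.H35_FibrewiseGen
import Fermat.Agent.S18.H27_OrthoInt
import Fermat.Agent.S18.H89_ChartSep

/-!
# R3 → R5: the field `fw` of `H89.SepHyp`

`H89.SepHyp.fw` (fibrewise conservation of number in a chart `(H : H97.ChartHyp A π O res t)`)
from the norm statement `(O4)` (`H27.GaussData.exists_norm_eq`) and the function field inputs on
both fibres (finite separable over the rational subfield, `HasPrincipalDivisors`, all places of
degree one).
-/

set_option autoImplicit false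
set_option linter.unusedSectionVars false
set_option linter.style.haveILetI false

noncomputable section

namespace Fermat.Agent.S18.H35

open AlgebraicCurve Polynomial Fermat.Agent.S18.H97
open scoped IntermediateField

variable {L FL k Fk : Type*} [Field L] [IsAlgClosed L] [Field FL] [Algebra L FL] [Field k]
  [Field Fk] [Algebra k Fk]
variable {A : ValuationSubring L} {π : A →+* k} {O : ValuationSubring FL} {res : O →+* Fk}
  {t : FL}

theorem discAtπ_eq_discAtGen (abar : k) :
    H89.discAtπ A π t abar = discAtGen A π t abar := rfl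

/-- `H89.SepHyp.fw` from the norm statement: for every `b` of the chart ring with nonzero
reduction ONE polynomial `ν : A[X]` computes the norm of `b` over `L(t)` and, after reduction,
the norm of `res b` over `k(tk)`. -/
theorem sepHyp_fw_of_norm (H : ChartHyp A π O res t) (tk : Fk)
    (htk : resBA L res t (H89.tBA H) = tk)
    [Fact (Transcendental L t)] [FiniteDimensional L⟮t⟯ FL] [Algebra.IsSeparable L⟮t⟯ FL]
    [HasPrincipalDivisors L FL]
    [Fact (Transcendental k tk)] [FiniteDimensional k⟮tk⟯ Fk] [Algebra.IsSeparable k⟮tk⟯ Fk]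
    [HasPrincipalDivisors k Fk]
    (hdegL : ∀ w : Place L FL, w.deg = 1) (hdegk : ∀ w : Place k Fk, w.deg = 1)
    (hnorm : ∀ b : BA L O t, resBA L res t b ≠ 0 → ∃ ν : A[X],
      aeval t (ν.map A.subtype) = ((Algebra.norm L⟮t⟯ (b : FL) : L⟮t⟯) : FL) ∧
      aeval tk (ν.map π) = ((Algebra.norm k⟮tk⟯ (resBA L res t b) : k⟮tk⟯) : Fk)) :
    ∀ b : BA L O t, resBA L res t b ≠ 0 → ∀ abar : k,
      ∑ᶠ Q ∈ fibreAt (resBA L res t (H89.tBA H)) abar, Q.ord (resBA L res t b) =
        ∑ᶠ P ∈ H89.discAtπ A π t abar, P.ord (b : FL) := by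
  intro b hb abar
  obtain ⟨ν, hνL, hνk⟩ := hnorm b hb
  have hb0 : (b : FL) ≠ 0 := by
    intro h0
    apply hb
    have : b = 0 := Subtype.ext h0
    rw [this, map_zero]
  rw [htk, discAtπ_eq_discAtGen]
  exact fibrewise_of_norm_gen A π H.π_surj t tk hdegL hdegk (b : FL) hb0 (resBA L res t b) hb ν
    hνL hνk abar

/-- `H89.SepHyp.fw` from the Gauss data and an orthonormal basis (`(O4)` of `H27_OrthoInt`). -/
theorem sepHyp_fw (H : ChartHyp A π O res t) (GD : H27.GaussData A π O res t)
    {ι : Type*} [Fintype ι] (e : ι → FL) (he : ∀ i, e i ∈ O)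
    (hek : LinearIndependent k⟮GD.tk⟯ (fun i => res ⟨e i, he i⟩))
    (hspan : ∀ x : FL, ∃ c : ι → FL, (∀ i, c i ∈ L⟮t⟯) ∧ x = ∑ i, c i * e i)
    (hli : LinearIndependent L⟮t⟯ e)
    [Algebra.IsSeparable L⟮t⟯ FL] [HasPrincipalDivisors L FL]
    [Algebra.IsSeparable k⟮GD.tk⟯ Fk] [HasPrincipalDivisors k Fk]
    (hdegL : ∀ w : Place L FL, w.deg = 1) (hdegk : ∀ w : Place k Fk, w.deg = 1) :
    ∀ b : BA L O t, resBA L res t b ≠ 0 → ∀ abar : k,
      ∑ᶠ Q ∈ fibreAt (resBA L res t (H89.tBA H)) abar, Q.ord (resBA L res t b) =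
        ∑ᶠ P ∈ H89.discAtπ A π t abar, P.ord (b : FL) := by
  haveI : Fact (Transcendental L t) := ⟨GD.transcendental_t⟩
  haveI : Fact (Transcendental k GD.tk) := ⟨GD.transc⟩
  haveI : FiniteDimensional L⟮t⟯ FL :=
    Module.Finite.of_basis (Module.Basis.mk hli (H27.GaussData.span_eq_top_of_hspan e hspan))
  haveI : FiniteDimensional k⟮GD.tk⟯ Fk :=
    Module.Finite.of_basis (Module.Basis.mk hek (GD.span_res_eq_top e he hek hspan))
  refine sepHyp_fw_of_norm H GD.tk rfl hdegL hdegk fun b _ => ?_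
  exact GD.exists_norm_eq e he hek hspan hli b.2.1 b.2.2

end Fermat.Agent.S18.H35

end
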