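/-
helper89, project S18, package R5 (ASSEMBLY) of helper92's R-EXIST plan: the shape-independent
bookkeeping.  `Finsupp.mapDomain r D Q` as a finsum over the fibre of `r`, and the passage from
"pointwise conservation of number for chart elements `b₁, b₂`" to the frozen identity
`Finsupp.mapDomain r (div (b₁ / b₂)) Q = Q.ord (c₁ / c₂)`.
Mathlib + the prelude's Place/Divisor vocabulary only.
-/
import Mathlib
import Fermat.Prelude.Def_AlgebraicCurve_DivisorClassGroup

set_option autoImplicit false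

namespace Fermat.Agent.S18.H89

open AlgebraicCurve Function

/-- `Finsupp.mapDomain` evaluated at a point is the finsum over the fibre. -/
theorem mapDomain_apply_eq_finsum {X Y : Type*} (r : X → Y) (D : X →₀ ℤ) (Q : Y) :
    Finsupp.mapDomain r D Q = ∑ᶠ P ∈ {P : X | r P = Q}, D P := by
  classical
  have hsupp : (support fun P : X => D P).Finite := by
    have : (support fun P : X => D P) = ↑D.support := by
      ext P
      simp
    rw [this]
    exact D.support.finite_toSet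
  rw [finsum_mem_eq_sum_filter (fun P : X => D P) {P : X | r P = Q} hsupp]
  rw [Finsupp.mapDomain, Finsupp.sum_apply, Finsupp.sum]
  have h1 : ∀ P ∈ D.support, (Finsupp.single (r P) (D P)) Q = if r P = Q then D P else 0 := by
    intro P _
    rw [Finsupp.single_apply]
  rw [Finset.sum_congr rfl h1, ← Finset.sum_filter]
  refine Finset.sum_congr ?_ fun _ _ => rfl
  ext P
  simp

section Places

variable {K F k Fk : Type*} [Field K] [Field F] [Algebra K F] [Field k] [Field Fk] [Algebra k Fk]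

/-- Pointwise conservation of number at `Q` for the pair `(b, c)`: the zeros and poles of `b`
(with multiplicity) whose centre is `Q` add up to `ord_Q c`. -/
def ConservesAt (r : Place K F → Place k Fk) (Q : Place k Fk) (b : F) (c : Fk) : Prop :=
  {P : Place K F | r P = Q ∧ P.ord b ≠ 0}.Finite ∧
    ∑ᶠ P ∈ {P : Place K F | r P = Q}, P.ord b = Q.ord c

theorem ConservesAt.one (r : Place K F → Place k Fk) (Q : Place k Fk) :
    ConservesAt r Q (1 : F) (1 : Fk) := by
  refine ⟨?_, ?_⟩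
  · simp
  · simp

theorem ConservesAt.mul {r : Place K F → Place k Fk} {Q : Place k Fk} {b₁ b₂ : F} {c₁ c₂ : Fk}
    (hb₁ : b₁ ≠ 0) (hb₂ : b₂ ≠ 0) (hc₁ : c₁ ≠ 0) (hc₂ : c₂ ≠ 0)
    (h₁ : ConservesAt r Q b₁ c₁) (h₂ : ConservesAt r Q b₂ c₂) :
    ConservesAt r Q (b₁ * b₂) (c₁ * c₂) := by
  obtain ⟨hf₁, hs₁⟩ := h₁
  obtain ⟨hf₂, hs₂⟩ := h₂
  refine ⟨(hf₁.union hf₂).subset ?_, ?_⟩
  · rintro P ⟨hP, hne⟩
    rw [P.ord_mul hb₁ hb₂] at hne
    by_cases h : P.ord b₁ = 0
    · right
      refine ⟨hP, fun h2 => hne ?_⟩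
      rw [h, h2, add_zero]
    · left
      exact ⟨hP, h⟩
  · rw [Q.ord_mul hc₁ hc₂, ← hs₁, ← hs₂, ← finsum_mem_add_distrib']
    · refine finsum_mem_congr rfl fun P _ => ?_
      exact P.ord_mul hb₁ hb₂
    · refine hf₁.subset ?_
      rintro P ⟨hP, hne⟩
      exact ⟨hP, hne⟩
    · refine hf₂.subset ?_
      rintro P ⟨hP, hne⟩
      exact ⟨hP, hne⟩

theorem ConservesAt.inv {r : Place K F → Place k Fk} {Q : Place k Fk} {b : F} {c : Fk}
    (h : ConservesAt r Q b c) : ConservesAt r Q b⁻¹ c⁻¹ := by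
  obtain ⟨hf, hs⟩ := h
  refine ⟨hf.subset ?_, ?_⟩
  · rintro P ⟨hP, hne⟩
    rw [P.ord_inv] at hne
    exact ⟨hP, fun h0 => hne (by rw [h0, neg_zero])⟩
  · rw [Q.ord_inv, ← hs, finsum_mem_def, finsum_mem_def, ← finsum_neg_distrib]
    refine finsum_congr fun P => ?_
    by_cases hP : P ∈ {P : Place K F | r P = Q}
    · rw [Set.indicator_of_mem hP, Set.indicator_of_mem hP]
      exact P.ord_inv b
    · rw [Set.indicator_of_notMem hP, Set.indicator_of_notMem hP, neg_zero]

theorem ConservesAt.div {r : Place K F → Place k Fk} {Q : Place k Fk} {b₁ b₂ : F} {c₁ c₂ : Fk}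
    (hb₁ : b₁ ≠ 0) (hb₂ : b₂ ≠ 0) (hc₁ : c₁ ≠ 0) (hc₂ : c₂ ≠ 0)
    (h₁ : ConservesAt r Q b₁ c₁) (h₂ : ConservesAt r Q b₂ c₂) :
    ConservesAt r Q (b₁ / b₂) (c₁ / c₂) := by
  rw [div_eq_mul_inv, div_eq_mul_inv]
  exact ConservesAt.mul hb₁ (inv_ne_zero hb₂) hc₁ (inv_ne_zero hc₂) h₁ h₂.inv

/-- From conservation of number to the frozen identity for the divisor of `b`. -/
theorem ConservesAt.mapDomain_eq {r : Place K F → Place k Fk} {Q : Place k Fk} {b : F} {c : Fk}
    (h : ConservesAt r Q b c) (D : Divisor K F) (hD : ∀ P, D P = P.ord b) :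
    Finsupp.mapDomain r D Q = Q.ord c := by
  rw [mapDomain_apply_eq_finsum, ← h.2]
  exact finsum_mem_congr rfl fun P _ => hD P

end Places

end Fermat.Agent.S18.H89
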