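/-
helper89, project S18, package R5 (ASSEMBLY) of the R-EXIST plan: gluing the chart `t` and the
chart `t⁻¹`.

Inputs: helper97's `ChartHyp` / `FibreHyp` for `t` and for `t⁻¹` (same `A, π, O, res`), the
separation hypotheses `SepHyp` (R3 fibrewise conservation of number etc.) for both charts, and
`FL` algebraic over `L[t]` and over `L[t⁻¹]`.

Output: `exists_placeReduction` : a map `r : Place L FL → Place k Fk` preserving degrees with
`Finsupp.mapDomain r (div f) Q = Q.ord (res f)` for every `f` in the unit ball with `res f ≠ 0`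
(= the two clauses of `IsPlaceReductionAlong` in abstract form).
-/
import Mathlib
import Fermat.Prelude.Def_AlgebraicCurve_DivisorClassGroup
import Fermat.Agent.S18.H89_ChartSep
import Fermat.Agent.S18.H89_AssemblyCore

set_option autoImplicit false
set_option linter.unusedSectionVars false

noncomputable section

namespace Fermat.Agent.S18.H89

open AlgebraicCurve IsDedekindDomain Fermat.Agent.S18.H97 Fermat.Agent.S24

section General

variable {K F k Fk : Type*} [Field K] [Field F] [Algebra K F] [Field k] [Field Fk] [Algebra k Fk]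

/-- Passage from a chart to the global statement `ConservesAt` at one point `Q`: if every place
with centre `Q` lies in the chart `{P // p P}`, and on the chart the chart centre map `rc` hits
`Q` exactly when `r` does, a fibre sum over the subtype is the fibre sum over all places. -/
theorem conservesAt_of_chart (r : Place K F → Place k Fk) (p : Place K F → Prop)
    (rc : {P : Place K F // p P} → Place k Fk) (Q : Place k Fk) (h1 : ∀ P, r P = Q → p P)
    (h2 : ∀ P : {P : Place K F // p P}, rc P = Q ↔ r (P : Place K F) = Q) (b : F) (c : Fk)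
    (hfin : {P : Place K F | P.ord b ≠ 0}.Finite)
    (hsum : ∑ᶠ P ∈ {P : {P : Place K F // p P} | rc P = Q}, (P : Place K F).ord b = Q.ord c) :
    ConservesAt r Q b c := by
  refine ⟨hfin.subset fun P hP => hP.2, ?_⟩
  rw [← hsum]
  symm
  refine finsum_mem_eq_of_bijOn (fun P : {P : Place K F // p P} => (P : Place K F))
    ⟨?_, ?_, ?_⟩ fun P _ => rfl
  · intro P hP
    exact (h2 P).mp hP
  · intro P _ P' _ h
    exact Subtype.ext h
  · intro P hP
    have hPX : p P := h1 P hP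
    exact ⟨⟨P, hPX⟩, (h2 ⟨P, hPX⟩).mpr hP, rfl⟩

end General

section TwoCharts

variable {L FL k Fk : Type*} [Field L] [Field FL] [Algebra L FL] [Field k] [Field Fk]
  [Algebra k Fk]
variable {A : ValuationSubring L} {π : A →+* k} {O : ValuationSubring FL} {res : O →+* Fk}
  {t : FL}
variable {Bk₁ : Type*} [CommRing Bk₁] [IsDedekindDomain Bk₁] [Algebra Bk₁ Fk]
  [IsFractionRing Bk₁ Fk] [Algebra k Bk₁] [IsScalarTower k Bk₁ Fk]
variable {Bk₂ : Type*} [CommRing Bk₂] [IsDedekindDomain Bk₂] [Algebra Bk₂ Fk]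
  [IsFractionRing Bk₂ Fk] [Algebra k Bk₂] [IsScalarTower k Bk₂ Fk]
variable {H₁ : ChartHyp A π O res t} {G₁ : FibreHyp L k res t Bk₁}
  {H₂ : ChartHyp A π O res t⁻¹} {G₂ : FibreHyp L k res t⁻¹ Bk₂}

/-- The reduction of the coordinate `t`. -/
abbrev tbar (H₁ : ChartHyp A π O res t) : Fk := resBA L res t (tBA H₁)

/-- The reduction of the coordinate `t⁻¹`. -/
abbrev tinvbar (H₂ : ChartHyp A π O res t⁻¹) : Fk := resBA L res t⁻¹ (tBA H₂)

theorem t_ne_zero (H₁ : ChartHyp A π O res t) (G₁ : FibreHyp L k res t Bk₁) : t ≠ 0 := by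
  rintro rfl
  apply G₁.nonconst (tBA H₁) rfl 0
  rw [map_zero]
  have : tBA H₁ = 0 := Subtype.ext rfl
  rw [this, map_zero]

theorem tbar_mul_tinvbar (H₁ : ChartHyp A π O res t) (G₁ : FibreHyp L k res t Bk₁)
    (H₂ : ChartHyp A π O res t⁻¹) : tbar H₁ * tinvbar H₂ = 1 := by
  have ht : t ≠ 0 := t_ne_zero H₁ G₁
  show res ⟨t, H₁.tO⟩ * res ⟨t⁻¹, H₂.tO⟩ = 1
  rw [← map_mul]
  have : (⟨t, H₁.tO⟩ * ⟨t⁻¹, H₂.tO⟩ : O) = 1 := Subtype.ext (mul_inv_cancel₀ ht)
  rw [this, map_one]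

theorem tbar_ne_zero (H₁ : ChartHyp A π O res t) (G₁ : FibreHyp L k res t Bk₁)
    (H₂ : ChartHyp A π O res t⁻¹) : tbar H₁ ≠ 0 :=
  left_ne_zero_of_mul_eq_one (tbar_mul_tinvbar H₁ G₁ H₂)

theorem tinvbar_ne_zero (H₁ : ChartHyp A π O res t) (G₁ : FibreHyp L k res t Bk₁)
    (H₂ : ChartHyp A π O res t⁻¹) : tinvbar H₂ ≠ 0 :=
  right_ne_zero_of_mul_eq_one (tbar_mul_tinvbar H₁ G₁ H₂)

theorem tinvbar_eq_inv (H₁ : ChartHyp A π O res t) (G₁ : FibreHyp L k res t Bk₁)
    (H₂ : ChartHyp A π O res t⁻¹) : tinvbar H₂ = (tbar H₁)⁻¹ :=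
  eq_inv_of_mul_eq_one_right (tbar_mul_tinvbar H₁ G₁ H₂)

/-- (COVER) a place outside the domain of the chart `t` lies in the domain of the chart `t⁻¹`,
and `t⁻¹` specialises to `0` there. -/
theorem inDom₂_of_not_inDom₁ (H₁ : ChartHyp A π O res t) (H₂ : ChartHyp A π O res t⁻¹)
    {P : Place L FL} (h : ¬ H₁.InDom P) :
    ∃ hP : H₂.InDom P, H₂.phi hP (tBA H₂) = 0 := by
  rcases inDom_or_inv P (H₁.resL P) A t with h1 | ⟨h2, hA, hmax⟩
  · exact absurd h1 h
  · have hP : H₂.InDom P := ⟨h2, hA⟩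
    refine ⟨hP, ?_⟩
    rw [ChartHyp.phi_apply, H₂.π_eq_zero_iff]
    exact hmax


open Classical in
/-- The global centre map: the centre in the chart `t` on its domain, the centre in the chart
`t⁻¹` elsewhere. -/
def globalCenter (H₁ : ChartHyp A π O res t) (G₁ : FibreHyp L k res t Bk₁)
    (H₂ : ChartHyp A π O res t⁻¹) (G₂ : FibreHyp L k res t⁻¹ Bk₂) (P : Place L FL) :
    Place k Fk :=
  if h : H₁.InDom P then H₁.center G₁ h
  else H₂.center G₂ (inDom₂_of_not_inDom₁ H₁ H₂ h).choose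

theorem globalCenter_of_inDom {P : Place L FL} (h : H₁.InDom P) :
    globalCenter H₁ G₁ H₂ G₂ P = H₁.center G₁ h := by
  rw [globalCenter, dif_pos h]

theorem globalCenter_of_not_inDom {P : Place L FL} (h : ¬ H₁.InDom P) (hP : H₂.InDom P) :
    globalCenter H₁ G₁ H₂ G₂ P = H₂.center G₂ hP := by
  rw [globalCenter, dif_neg h]

theorem deg_globalCenter (P : Place L FL) : (globalCenter H₁ G₁ H₂ G₂ P).deg = 1 := by
  by_cases h : H₁.InDom P
  · rw [globalCenter_of_inDom h]; exact H₁.deg_center G₁ h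
  · obtain ⟨hP, -⟩ := inDom₂_of_not_inDom₁ H₁ H₂ h
    rw [globalCenter_of_not_inDom h hP]; exact H₂.deg_center G₂ hP

/-- (F1) `t̄` is regular at the centres of the chart `t`. -/
theorem tbar_mem_center₁ {P : Place L FL} (hP : H₁.InDom P) :
    tbar H₁ ∈ (H₁.center G₁ hP).toValuationSubring :=
  H₁.resBA_mem_center G₁ hP (tBA H₁)

/-- (F2) `t̄` has a pole at the centre of a place where `t⁻¹` specialises to `0`. -/
theorem tbar_notMem_center₂ (G₁ : FibreHyp L k res t Bk₁) {P : Place L FL} (hP : H₂.InDom P)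
    (h0 : H₂.phi hP (tBA H₂) = 0) :
    tbar H₁ ∉ (H₂.center G₂ hP).toValuationSubring := by
  have hne : tinvbar H₂ ≠ 0 := tinvbar_ne_zero H₁ G₁ H₂
  have hpos : 0 < (H₂.center G₂ hP).ord (tinvbar H₂) := by
    have h1 := H₂.center_spec G₂ hP (tBA H₂)
    rw [h0, map_zero, sub_zero] at h1
    exact h1 hne
  intro hmem
  have h2 := (H27.mem_toValuationSubring_of_ne_zero _ (tbar_ne_zero H₁ G₁ H₂)).mp hmem
  rw [tinvbar_eq_inv H₁ G₁ H₂, Place.ord_inv] at hpos
  omega

/-- (F3) a place of the chart `t⁻¹` whose centre is a pole of `t̄` is outside the chart `t`. -/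
theorem not_inDom₁_of_center₂ (G₁ : FibreHyp L k res t Bk₁) (S₂ : SepHyp H₂ G₂) {P : Place L FL}
    (hP₂ : H₂.InDom P) (hQ : tbar H₁ ∉ (H₂.center G₂ hP₂).toValuationSubring) :
    ¬ H₁.InDom P := by
  intro hP₁
  apply hQ
  have ht : t ≠ 0 := t_ne_zero H₁ G₁
  have hmul : H₁.evA hP₁ (tBA H₁) * H₂.evA hP₂ (tBA H₂) = 1 := by
    apply Subtype.ext
    show ((H₁.evA hP₁ (tBA H₁) : A) : L) * ((H₂.evA hP₂ (tBA H₂) : A) : L) = 1
    rw [ChartHyp.coe_evA, ChartHyp.coe_evA, ← map_mul]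
    have : H₁.inclBA hP₁ (tBA H₁) * H₂.inclBA hP₂ (tBA H₂) = 1 :=
      Subtype.ext (mul_inv_cancel₀ ht)
    rw [this, map_one]
  have hphi : H₂.phi hP₂ (tBA H₂) ≠ 0 := by
    intro h0
    have h1 := congrArg π hmul
    rw [map_mul, map_one, ← ChartHyp.phi_apply H₂ hP₂, h0, mul_zero] at h1
    exact zero_ne_one h1
  have hne : tinvbar H₂ ≠ 0 := tinvbar_ne_zero H₁ G₁ H₂
  have hord : (H₂.center G₂ hP₂).ord (tinvbar H₂) = 0 := by
    have := (m_eq_zero_iff S₂ (H₂.centerPrime G₂ hP₂) (tBA H₂) hne).mpr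
      (by rw [eY_centerPrime]; exact hphi)
    exact this
  rw [H27.mem_toValuationSubring_of_ne_zero _ (tbar_ne_zero H₁ G₁ H₂)]
  rw [tinvbar_eq_inv H₁ G₁ H₂, Place.ord_inv] at hord
  omega


/-- Conservation of number at the points where `t̄` is regular, for elements of the chart `t`. -/
theorem conservesAt_chart₁ (S₁ : SepHyp H₁ G₁) (H₂ : ChartHyp A π O res t⁻¹)
    (G₂ : FibreHyp L k res t⁻¹ Bk₂) (b : BA L O t) (hb : resBA L res t b ≠ 0)
    (Q : Place k Fk) (hQ : tbar H₁ ∈ Q.toValuationSubring) :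
    ConservesAt (globalCenter H₁ G₁ H₂ G₂) Q (b : FL) (resBA L res t b) := by
  obtain ⟨w, rfl⟩ := H42.exists_placeOf_eq (K := k) Q (S₁.intBk Q hQ)
  have hb0 : (b : FL) ≠ 0 := by
    intro h0
    apply hb
    have : b = 0 := Subtype.ext h0
    rw [this, map_zero]
  refine conservesAt_of_chart (globalCenter H₁ G₁ H₂ G₂) (fun P => H₁.InDom P)
    (fun P => H₁.center G₁ P.2) _ ?_ ?_ _ _ (S₁.finOrd _ hb0) ?_
  · intro P hr
    by_contra h
    obtain ⟨hP₂, h0⟩ := inDom₂_of_not_inDom₁ H₁ H₂ h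
    rw [globalCenter_of_not_inDom h hP₂] at hr
    exact tbar_notMem_center₂ (H₁ := H₁) G₁ hP₂ h0 (hr ▸ hQ)
  · intro P
    rw [globalCenter_of_inDom P.2]
  · have h := sum_centerPrime_eq S₁ b hb w
    rw [← h]
    refine finsum_mem_congr ?_ fun _ _ => rfl
    ext P
    constructor
    · intro hP
      exact H42.placeOf_injective hP
    · intro hP
      show H₁.center G₁ P.2 = _
      unfold ChartHyp.center
      rw [show H₁.centerPrime G₁ P.2 = w from hP]

/-- Conservation of number at the poles of `t̄`, for elements of the chart `t⁻¹`. -/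
theorem conservesAt_chart₂ (G₁ : FibreHyp L k res t Bk₁) (S₂ : SepHyp H₂ G₂)
    (b : BA L O t⁻¹) (hb : resBA L res t⁻¹ b ≠ 0)
    (Q : Place k Fk) (hQ : tbar H₁ ∉ Q.toValuationSubring) :
    ConservesAt (globalCenter H₁ G₁ H₂ G₂) Q (b : FL) (resBA L res t⁻¹ b) := by
  have hQ' : tinvbar H₂ ∈ Q.toValuationSubring := by
    rw [tinvbar_eq_inv H₁ G₁ H₂]
    exact (Q.toValuationSubring.mem_or_inv_mem _).resolve_left hQ
  obtain ⟨w, hw⟩ := H42.exists_placeOf_eq (K := k) Q (S₂.intBk Q hQ')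
  subst hw
  have hb0 : (b : FL) ≠ 0 := by
    intro h0
    apply hb
    have : b = 0 := Subtype.ext h0
    rw [this, map_zero]
  refine conservesAt_of_chart (globalCenter H₁ G₁ H₂ G₂) (fun P => H₂.InDom P)
    (fun P => H₂.center G₂ P.2) _ ?_ ?_ _ _ (S₂.finOrd _ hb0) ?_
  · intro P hr
    by_cases h : H₁.InDom P
    · exfalso
      rw [globalCenter_of_inDom h] at hr
      exact hQ (hr ▸ tbar_mem_center₁ h)
    · exact (inDom₂_of_not_inDom₁ H₁ H₂ h).choose
  · intro P
    constructor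
    · intro hc
      have hnot : ¬ H₁.InDom P := not_inDom₁_of_center₂ G₁ S₂ P.2 (by rw [hc]; exact hQ)
      rw [globalCenter_of_not_inDom hnot P.2]
      exact hc
    · intro hr
      have hnot : ¬ H₁.InDom P := by
        intro h
        rw [globalCenter_of_inDom h] at hr
        exact hQ (hr ▸ tbar_mem_center₁ h)
      rw [globalCenter_of_not_inDom hnot P.2] at hr
      exact hr
  · have h := sum_centerPrime_eq S₂ b hb w
    rw [← h]
    refine finsum_mem_congr ?_ fun _ _ => rfl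
    ext P
    constructor
    · intro hP
      exact H42.placeOf_injective hP
    · intro hP
      show H₂.center G₂ P.2 = _
      unfold ChartHyp.center
      rw [show H₂.centerPrime G₂ P.2 = w from hP]


/-- Every element of the unit ball with nonzero reduction is a fraction of two elements of the
chart ring with nonzero reduction (clear denominators with an element of `L[t]`, then scale it
to a Gauss unit). -/
theorem exists_frac (H : ChartHyp A π O res t)
    (halg : Algebra.IsAlgebraic (Algebra.adjoin L {t}) FL) (f : FL) (hf : f ∈ O)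
    (hres : res ⟨f, hf⟩ ≠ 0) :
    ∃ b₁ b₂ : BA L O t, resBA L res t b₁ ≠ 0 ∧ resBA L res t b₂ ≠ 0 ∧
      f * (b₂ : FL) = (b₁ : FL) := by
  obtain ⟨y, hy0, hyint⟩ := (halg.isAlgebraic f).exists_integral_multiple
  have hd0 : ((y : Algebra.adjoin L {t}) : FL) ≠ 0 := fun h => hy0 (Subtype.ext h)
  obtain ⟨c, hc0, hcO, hcres⟩ := H.scale _ hd0
  -- `b₂ = c • y`
  have hb₂int : IsIntegral (Algebra.adjoin L {t}) (c • ((y : Algebra.adjoin L {t}) : FL)) := by
    have : c • ((y : Algebra.adjoin L {t}) : FL) = algebraMap (Algebra.adjoin L {t}) FL (c • y) :=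
      rfl
    rw [this]
    exact isIntegral_algebraMap
  set b₂ : BA L O t := ⟨c • ((y : Algebra.adjoin L {t}) : FL), hcO, hb₂int⟩ with hb₂
  have hb₁O : f * (b₂ : FL) ∈ O := O.mul_mem _ _ hf hcO
  have hb₁int : IsIntegral (Algebra.adjoin L {t}) (f * (b₂ : FL)) := by
    have h1 : f * (b₂ : FL) = algebraMap (Algebra.adjoin L {t}) FL
        (algebraMap L (Algebra.adjoin L {t}) c) * (y • f) := by
      show f * (c • ((y : Algebra.adjoin L {t}) : FL)) = _
      rw [Algebra.smul_def c, Algebra.smul_def y, ← IsScalarTower.algebraMap_apply]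
      show _ = algebraMap L FL c * (((y : Algebra.adjoin L {t}) : FL) * f)
      ring
    rw [h1]
    exact IsIntegral.mul isIntegral_algebraMap hyint
  refine ⟨⟨f * (b₂ : FL), hb₁O, hb₁int⟩, b₂, ?_, hcres, rfl⟩
  show res ⟨f * (b₂ : FL), hb₁O⟩ ≠ 0
  have : (⟨f * (b₂ : FL), hb₁O⟩ : O) = ⟨f, hf⟩ * ⟨(b₂ : FL), hcO⟩ := rfl
  rw [this, map_mul]
  exact mul_ne_zero hres hcres

theorem conservesAt_of_frac {r : Place L FL → Place k Fk} {Q : Place k Fk} {u : FL}
    (b₁ b₂ : BA L O u) (h₁ : resBA L res u b₁ ≠ 0) (h₂ : resBA L res u b₂ ≠ 0)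
    (c₁ : ConservesAt r Q (b₁ : FL) (resBA L res u b₁))
    (c₂ : ConservesAt r Q (b₂ : FL) (resBA L res u b₂))
    (f : FL) (hf : f ∈ O) (hfb : f * (b₂ : FL) = (b₁ : FL)) :
    ConservesAt r Q f (res ⟨f, hf⟩) := by
  have hb₁ : (b₁ : FL) ≠ 0 := by
    intro h0
    apply h₁
    have : b₁ = 0 := Subtype.ext h0
    rw [this, map_zero]
  have hb₂ : (b₂ : FL) ≠ 0 := by
    intro h0
    apply h₂
    have : b₂ = 0 := Subtype.ext h0
    rw [this, map_zero]
  have hfeq : f = (b₁ : FL) / (b₂ : FL) := by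
    rw [eq_div_iff hb₂, hfb]
  have hres : res ⟨f, hf⟩ = resBA L res u b₁ / resBA L res u b₂ := by
    rw [eq_div_iff h₂]
    show res ⟨f, hf⟩ * res ⟨(b₂ : FL), b₂.2.1⟩ = res ⟨(b₁ : FL), b₁.2.1⟩
    rw [← map_mul]
    congr 1
    exact Subtype.ext hfb
  have := ConservesAt.div hb₁ hb₂ h₁ h₂ c₁ c₂
  rw [hres]
  rw [← hfeq] at this
  exact this

/-- **Conservation of number for the global centre map**, at every point and for every element
of the unit ball with nonzero reduction. -/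
theorem conservesAt_globalCenter (S₁ : SepHyp H₁ G₁) (S₂ : SepHyp H₂ G₂)
    (halg₁ : Algebra.IsAlgebraic (Algebra.adjoin L {t}) FL)
    (halg₂ : Algebra.IsAlgebraic (Algebra.adjoin L {t⁻¹}) FL)
    (f : FL) (hf : f ∈ O) (hres : res ⟨f, hf⟩ ≠ 0) (Q : Place k Fk) :
    ConservesAt (globalCenter H₁ G₁ H₂ G₂) Q f (res ⟨f, hf⟩) := by
  by_cases hQ : tbar H₁ ∈ Q.toValuationSubring
  · obtain ⟨b₁, b₂, h₁, h₂, hfb⟩ := exists_frac H₁ halg₁ f hf hres
    exact conservesAt_of_frac b₁ b₂ h₁ h₂ (conservesAt_chart₁ S₁ H₂ G₂ b₁ h₁ Q hQ)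
      (conservesAt_chart₁ S₁ H₂ G₂ b₂ h₂ Q hQ) f hf hfb
  · obtain ⟨b₁, b₂, h₁, h₂, hfb⟩ := exists_frac H₂ halg₂ f hf hres
    exact conservesAt_of_frac b₁ b₂ h₁ h₂ (conservesAt_chart₂ G₁ S₂ b₁ h₁ Q hQ)
      (conservesAt_chart₂ G₁ S₂ b₂ h₂ Q hQ) f hf hfb

/-- **R5, abstract form**: the two clauses of `IsPlaceReductionAlong` for the global centre
map. -/
theorem globalCenter_spec (S₁ : SepHyp H₁ G₁) (S₂ : SepHyp H₂ G₂)
    (halg₁ : Algebra.IsAlgebraic (Algebra.adjoin L {t}) FL)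
    (halg₂ : Algebra.IsAlgebraic (Algebra.adjoin L {t⁻¹}) FL)
    (hdeg : ∀ P : Place L FL, P.deg = 1) :
    (∀ P, (globalCenter H₁ G₁ H₂ G₂ P).deg = P.deg) ∧
      ∀ (f : FL) (hf : f ∈ O), res ⟨f, hf⟩ ≠ 0 → ∀ D : Divisor L FL,
        (∀ P, D P = P.ord f) → ∀ Q : Place k Fk,
          Finsupp.mapDomain (globalCenter H₁ G₁ H₂ G₂) D Q = Q.ord (res ⟨f, hf⟩) :=
  ⟨fun P => by rw [deg_globalCenter, hdeg],
    fun f hf hres D hD Q =>
      (conservesAt_globalCenter S₁ S₂ halg₁ halg₂ f hf hres Q).mapDomain_eq D hD⟩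

end TwoCharts

end Fermat.Agent.S18.H89
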