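/-
helper89, project S18, package R5 (ASSEMBLY) of the R-EXIST plan: the frozen wrapper.

From a Gauss unit ball `O ⊆ F_L` with reduction `res : O →+* F_k` which is compatible with the
coefficientwise reduction of `A`-integral `q`-expansions ((V3) of R0), helper97's chart
hypotheses for the charts `t` and `t⁻¹`, and the separation hypotheses of `H89_ChartSep`,
we get the frozen `ModularCurve.ReductionInputsAlong A π N`
(for `L = ℚ̄`, `π = residue A` this is `ReductionInputsModL A N`).
-/
import Mathlib
import Fermat.Prelude.Def_ModularCurve_ReductionModL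
import Fermat.Agent.S18.H89_TwoCharts

set_option autoImplicit false
set_option linter.unusedSectionVars false

noncomputable section

namespace Fermat.Agent.S18.H89

open AlgebraicCurve ModularCurve IsDedekindDomain Fermat.Agent.S18.H97 Fermat.Agent.S24

section Wrapper

variable {L : Type*} [Field L] [Algebra ℚ L] (A : ValuationSubring L)
variable {k : Type*} [Field k] (π : A →+* k) (N : ℕ)

/-- (V3) of R0: every `A`-integral `q`-expansion lying in `F_L` with nonzero coefficientwise
reduction lies in the unit ball, and its residue is the coefficientwise reduction. -/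
def IntegralCompat
    (O : ValuationSubring (laurentBaseChange L (modularFunctionFieldFull N)))
    (res : O →+* modularFunctionFieldFullC k N) : Prop :=
  ∀ (y : LaurentSeries A)
    (hy : coeffMap A.subtype y ∈ laurentBaseChange L (modularFunctionFieldFull N)),
    coeffMap π y ≠ 0 →
      ∃ h : (⟨coeffMap A.subtype y, hy⟩ : laurentBaseChange L (modularFunctionFieldFull N)) ∈ O,
        ((res ⟨_, h⟩ : modularFunctionFieldFullC k N) : LaurentSeries k) = coeffMap π y

variable {A π N}

/-- The frozen `IsPlaceReductionAlong` from its abstract form for a unit ball satisfying (V3). -/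
theorem isPlaceReductionAlong_of_spec
    {O : ValuationSubring (laurentBaseChange L (modularFunctionFieldFull N))}
    {res : O →+* modularFunctionFieldFullC k N} (hV3 : IntegralCompat A π N O res)
    {r : Place L (laurentBaseChange L (modularFunctionFieldFull N)) →
      Place k (modularFunctionFieldFullC k N)}
    (hdeg : ∀ P, (r P).deg = P.deg)
    (hkey : ∀ (f : laurentBaseChange L (modularFunctionFieldFull N)) (hf : f ∈ O),
      res ⟨f, hf⟩ ≠ 0 →
        ∀ D : Divisor L (laurentBaseChange L (modularFunctionFieldFull N)),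
          (∀ P, D P = P.ord f) → ∀ Q : Place k (modularFunctionFieldFullC k N),
            Finsupp.mapDomain r D Q = Q.ord (res ⟨f, hf⟩)) :
    IsPlaceReductionAlong A π N r := by
  refine ⟨hdeg, fun y hy hyk hne D hD Q => ?_⟩
  obtain ⟨h, hres⟩ := hV3 y hy hne
  have heq : res ⟨⟨coeffMap A.subtype y, hy⟩, h⟩ = ⟨coeffMap π y, hyk⟩ := Subtype.ext hres
  have hne' : res ⟨⟨coeffMap A.subtype y, hy⟩, h⟩ ≠ 0 := by
    rw [heq]
    exact fun h0 => hne (congrArg Subtype.val h0)
  rw [hkey _ h hne' D hD Q, heq]

/-- **R5, frozen form**: `ReductionInputsAlong A π N` from the two charts. -/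
theorem reductionInputsAlong_of_charts
    {O : ValuationSubring (laurentBaseChange L (modularFunctionFieldFull N))}
    {res : O →+* modularFunctionFieldFullC k N} (hV3 : IntegralCompat A π N O res)
    (hPGI : PrincipalGeneratedByIntegral A π N)
    {t : laurentBaseChange L (modularFunctionFieldFull N)}
    {Bk₁ : Type*} [CommRing Bk₁] [IsDedekindDomain Bk₁] [Algebra Bk₁ (modularFunctionFieldFullC k N)]
    [IsFractionRing Bk₁ (modularFunctionFieldFullC k N)] [Algebra k Bk₁]
    [IsScalarTower k Bk₁ (modularFunctionFieldFullC k N)]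
    {Bk₂ : Type*} [CommRing Bk₂] [IsDedekindDomain Bk₂] [Algebra Bk₂ (modularFunctionFieldFullC k N)]
    [IsFractionRing Bk₂ (modularFunctionFieldFullC k N)] [Algebra k Bk₂]
    [IsScalarTower k Bk₂ (modularFunctionFieldFullC k N)]
    {H₁ : ChartHyp A π O res t} {G₁ : FibreHyp L k res t Bk₁}
    {H₂ : ChartHyp A π O res t⁻¹} {G₂ : FibreHyp L k res t⁻¹ Bk₂}
    (S₁ : SepHyp H₁ G₁) (S₂ : SepHyp H₂ G₂)
    (halg₁ : Algebra.IsAlgebraic (Algebra.adjoin L {t})
      (laurentBaseChange L (modularFunctionFieldFull N)))
    (halg₂ : Algebra.IsAlgebraic (Algebra.adjoin L {t⁻¹})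
      (laurentBaseChange L (modularFunctionFieldFull N)))
    (hdeg : ∀ P : Place L (laurentBaseChange L (modularFunctionFieldFull N)), P.deg = 1) :
    ReductionInputsAlong A π N := by
  obtain ⟨h1, h2⟩ := globalCenter_spec S₁ S₂ halg₁ halg₂ hdeg
  exact ⟨globalCenter H₁ G₁ H₂ G₂, isPlaceReductionAlong_of_spec hV3 h1 h2, hPGI⟩

/-- `PrincipalGeneratedByIntegral` from: scaling to a Gauss unit (V4), finiteness of zeros and
poles, and (V2): every Gauss unit is a fraction of two `A`-integral `q`-expansions with nonzero
reduction. -/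
theorem principalGeneratedByIntegral_of_frac
    {O : ValuationSubring (laurentBaseChange L (modularFunctionFieldFull N))}
    {res : O →+* modularFunctionFieldFullC k N}
    (hscale : ∀ f : laurentBaseChange L (modularFunctionFieldFull N), f ≠ 0 →
      ∃ c : L, c ≠ 0 ∧ ∃ h : c • f ∈ O, res ⟨c • f, h⟩ ≠ 0)
    (hfin : ∀ f : laurentBaseChange L (modularFunctionFieldFull N), f ≠ 0 →
      {P : Place L (laurentBaseChange L (modularFunctionFieldFull N)) | P.ord f ≠ 0}.Finite)
    (hV2 : ∀ (f : laurentBaseChange L (modularFunctionFieldFull N)) (hf : f ∈ O),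
      res ⟨f, hf⟩ ≠ 0 →
        ∃ (ya yb : LaurentSeries A)
          (ha : coeffMap A.subtype ya ∈ laurentBaseChange L (modularFunctionFieldFull N))
          (hb : coeffMap A.subtype yb ∈ laurentBaseChange L (modularFunctionFieldFull N)),
          coeffMap π ya ∈ modularFunctionFieldFullC k N ∧ coeffMap π ya ≠ 0 ∧
          coeffMap π yb ∈ modularFunctionFieldFullC k N ∧ coeffMap π yb ≠ 0 ∧
          f * (⟨coeffMap A.subtype yb, hb⟩ : laurentBaseChange L (modularFunctionFieldFull N)) =
            ⟨coeffMap A.subtype ya, ha⟩) :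
    PrincipalGeneratedByIntegral A π N := by
  classical
  intro D hD
  obtain ⟨f, hf0, hDf⟩ := hD
  obtain ⟨c, hc0, hcO, hcres⟩ := hscale f hf0
  obtain ⟨ya, yb, ha, hb, hak, hak0, hbk, hbk0, hfab⟩ := hV2 _ hcO hcres
  set a : laurentBaseChange L (modularFunctionFieldFull N) := ⟨coeffMap A.subtype ya, ha⟩ with hadef
  set b : laurentBaseChange L (modularFunctionFieldFull N) := ⟨coeffMap A.subtype yb, hb⟩ with hbdef
  have hcf0 : c • f ≠ 0 := by
    rw [Algebra.smul_def]
    exact mul_ne_zero ((map_ne_zero _).mpr hc0) hf0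
  have hb0 : b ≠ 0 := by
    intro h0
    apply hbk0
    have h1 : coeffMap A.subtype yb = 0 := congrArg Subtype.val h0
    have h2 : yb = 0 := by
      ext n
      have h3 := congrArg (fun z : LaurentSeries L => z.coeff n) h1
      simp only [coeffMap_coeff, HahnSeries.coeff_zero] at h3
      rw [HahnSeries.coeff_zero]
      exact h3
    rw [h2, map_zero]
  have ha0 : a ≠ 0 := by
    rw [← hfab]
    exact mul_ne_zero hcf0 hb0
  -- the divisors of `a` and `b`
  let Da : Divisor L (laurentBaseChange L (modularFunctionFieldFull N)) :=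
    Finsupp.ofSupportFinite (fun P => P.ord a) (hfin a ha0)
  let Db : Divisor L (laurentBaseChange L (modularFunctionFieldFull N)) :=
    Finsupp.ofSupportFinite (fun P => P.ord b) (hfin b hb0)
  have hDa : Da ∈ integralPrincipalDivisors A π N := ⟨ya, ha, hak, hak0, fun P => rfl⟩
  have hDb : Db ∈ integralPrincipalDivisors A π N := ⟨yb, hb, hbk, hbk0, fun P => rfl⟩
  have hD : D = Da - Db := by
    ext P
    rw [Finsupp.sub_apply, hDf P]
    show P.ord f = P.ord a - P.ord b
    have h1 : P.ord (c • f) = P.ord f := by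
      rw [Algebra.smul_def, P.ord_mul ((map_ne_zero _).mpr hc0) hf0,
        H27.ord_algebraMap, zero_add]
    rw [← h1, ← hfab, P.ord_mul hcf0 hb0]
    ring
  rw [hD]
  exact AddSubgroup.sub_mem _ (AddSubgroup.subset_closure hDa) (AddSubgroup.subset_closure hDb)

end Wrapper

end Fermat.Agent.S18.H89
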