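/-
helper89, project S18, package R5 (ASSEMBLY) of the R-EXIST plan: the side conditions of
`H89.globalCenter_spec` / `H89.SepHyp` on the two concrete fibres
`F_L = modularFunctionFieldBar N` over `ℚ̄` and `F_k = modularFunctionFieldFullC k N` over
`k = ResidueField A`:

* `isAlgebraic_adjoin_of_finiteDimensional`, `isAlgebraic_adjoin_inv_of_finiteDimensional`
  (generic: `halg₁`, `halg₂`), `adjoin_simple_inv`;
* `algebraMap_residueField_surjective_of_finite` (generic: `resk`);
* `finOrd_FN`, `deg_eq_one_FN'`, `resL_FN`, `halg_FN`, `halg_inv_FN` (characteristic `0` fibre);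
* `resk_fullC`, `finOrd_fullC'` (characteristic `ℓ` fibre);
* `SepHyp.mk'` : `SepHyp` from integrality of `Bk` over `k[res t]`.
-/
import Mathlib
import Fermat.Agent.S18.H89_ChartSep
import Fermat.Agent.RR.H76_InstFN
import Fermat.Agent.RR.H52_InstFk
import Fermat.Agent.S18.H11_IfaceMain
import Fermat.Agent.S37.H34_ResidueField
import Fermat.Agent.S24.H97_Degree

set_option autoImplicit false
set_option linter.unusedSectionVars false
set_option linter.style.haveILetI false

noncomputable section

namespace Fermat.Agent.S18.H89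

open AlgebraicCurve ModularCurve IsDedekindDomain Fermat.Agent.S18.H97 Fermat.Agent.S24
open Fermat.Agent.RR
open scoped IntermediateField IntermediateField.algebraAdjoinAdjoin

section Generic

variable {K F : Type*} [Field K] [Field F] [Algebra K F]

theorem adjoin_simple_inv (t : F) : K⟮t⁻¹⟯ = K⟮t⟯ := by
  apply le_antisymm
  · rw [IntermediateField.adjoin_simple_le_iff]
    exact inv_mem (IntermediateField.mem_adjoin_simple_self K t)
  · rw [IntermediateField.adjoin_simple_le_iff]
    have := inv_mem (IntermediateField.mem_adjoin_simple_self K t⁻¹)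
    rwa [inv_inv] at this

/-- `halg`: `F` is algebraic over `K[t]` when it is finite over `K(t)`. -/
theorem isAlgebraic_adjoin_of_finiteDimensional (t : F) [FiniteDimensional K⟮t⟯ F] :
    Algebra.IsAlgebraic (Algebra.adjoin K {t}) F := by
  rw [IsFractionRing.comap_isAlgebraic_iff (A := Algebra.adjoin K {t}) (K := K⟮t⟯)]
  exact Algebra.IsAlgebraic.of_finite _ _

theorem finiteDimensional_adjoin_inv (t : F) [h : FiniteDimensional K⟮t⟯ F] :
    FiniteDimensional K⟮t⁻¹⟯ F := by
  have e := adjoin_simple_inv (K := K) t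
  rw [e]
  exact h

theorem isAlgebraic_adjoin_inv_of_finiteDimensional (t : F) [FiniteDimensional K⟮t⟯ F] :
    Algebra.IsAlgebraic (Algebra.adjoin K {t⁻¹}) F := by
  haveI := finiteDimensional_adjoin_inv (K := K) t
  exact isAlgebraic_adjoin_of_finiteDimensional t⁻¹

/-- `resk`: over an algebraically closed constant field, a place with finite residue field has
residue field the constant field. -/
theorem algebraMap_residueField_surjective_of_finite [IsAlgClosed K] (Q : Place K F)
    (h : Module.Finite K Q.ResidueField) : Function.Surjective (algebraMap K Q.ResidueField) :=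
  (IsAlgClosed.algebraMap_bijective_of_isIntegral (k := K) (K := Q.ResidueField)).2

end Generic

section SepHypMk

variable {L FL k Fk : Type*} [Field L] [Field FL] [Algebra L FL] [Field k] [Field Fk]
  [Algebra k Fk]
variable {A : ValuationSubring L} {π : A →+* k} {O : ValuationSubring FL} {res : O →+* Fk}
  {t : FL}
variable {Bk : Type*} [CommRing Bk] [IsDedekindDomain Bk] [Algebra Bk Fk] [IsFractionRing Bk Fk]
  [Algebra k Bk] [IsScalarTower k Bk Fk]

/-- `SepHyp` with `intBk` replaced by integrality of `Bk` over `k[res t]`. -/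
theorem SepHyp.mk' (H : ChartHyp A π O res t) (G : FibreHyp L k res t Bk)
    (resk : ∀ Q : Place k Fk, Function.Surjective (algebraMap k Q.ResidueField))
    (finOrd : ∀ f : FL, f ≠ 0 → {P : Place L FL | P.ord f ≠ 0}.Finite)
    (hBk : ∀ β : Bk, IsIntegral (Algebra.adjoin k {resBA L res t (tBA H)}) (algebraMap Bk Fk β))
    (fw : ∀ b : BA L O t, resBA L res t b ≠ 0 → ∀ abar : k,
      ∑ᶠ Q ∈ H35.fibreAt (resBA L res t (tBA H)) abar, Q.ord (resBA L res t b) =
        ∑ᶠ P ∈ discAtπ A π t abar, P.ord (b : FL)) :
    SepHyp H G where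
  resk := resk
  finOrd := finOrd
  intBk := fun Q hQ β => Fermat.Agent.S24.H97.mem_of_isIntegral Q hQ (hBk β)
  fw := fw

end SepHypMk

section Char0

variable (N : ℕ) [NeZero N]

theorem finOrd_FN (f : FN N) (hf : f ≠ 0) : {P : Place Qbar (FN N) | P.ord f ≠ 0}.Finite :=
  (H76.ffInputs_FN N).finOrd f hf

theorem resL_FN (P : Place Qbar (FN N)) : Function.Surjective (algebraMap Qbar P.ResidueField) := by
  haveI : FiniteDimensional Qbar⟮jBar N⟯ (FN N) := H40.finiteDimensional_FN N
  haveI : Fact (Transcendental Qbar (jBar N)) := ⟨H40.transcendental_jBar N⟩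
  exact Fermat.Agent.S24.H97.algebraMap_residueField_surjective (K := Qbar) (F := FN N) (jBar N)
    (H40.transcendental_jBar N) P

theorem deg_eq_one_FN' (P : Place Qbar (FN N)) : P.deg = 1 := by
  haveI : FiniteDimensional Qbar⟮jBar N⟯ (FN N) := H40.finiteDimensional_FN N
  haveI : Fact (Transcendental Qbar (jBar N)) := ⟨H40.transcendental_jBar N⟩
  exact Fermat.Agent.S24.H97.deg_eq_one (K := Qbar) (F := FN N) (jBar N)
    (H40.transcendental_jBar N) P

theorem halg_FN : Algebra.IsAlgebraic (Algebra.adjoin Qbar {jBar N}) (FN N) := by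
  haveI : FiniteDimensional Qbar⟮jBar N⟯ (FN N) := H40.finiteDimensional_FN N
  exact isAlgebraic_adjoin_of_finiteDimensional (jBar N)

theorem halg_inv_FN : Algebra.IsAlgebraic (Algebra.adjoin Qbar {(jBar N)⁻¹}) (FN N) := by
  haveI : FiniteDimensional Qbar⟮jBar N⟯ (FN N) := H40.finiteDimensional_FN N
  exact isAlgebraic_adjoin_inv_of_finiteDimensional (jBar N)

end Char0

section CharL

set_option synthInstance.maxHeartbeats 400000

variable (N : ℕ) [NeZero N] {ℓ : ℕ} [Fact ℓ.Prime] (hℓN : ¬ ℓ ∣ N)
  (A : ValuationSubring Qbar) (hA : A.LiesOverPrime ℓ)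

include hℓN hA in
/-- `resk` on the characteristic `ℓ` fibre. -/
theorem resk_fullC (Q : Place (IsLocalRing.ResidueField A)
      (modularFunctionFieldFullC (IsLocalRing.ResidueField A) N)) :
    Function.Surjective (algebraMap (IsLocalRing.ResidueField A) Q.ResidueField) := by
  haveI : CharP (IsLocalRing.ResidueField A) ℓ :=
    Fermat.Agent.S37.H34.charP_residueField A (Fact.out : ℓ.Prime) hA
  haveI : IsAlgClosed (IsLocalRing.ResidueField A) := H11.isAlgClosed_residueField A
  exact algebraMap_residueField_surjective_of_finite Q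
    (H52.finiteResidue_fullC N ℓ hℓN (IsLocalRing.ResidueField A) Q)

include hℓN hA in
theorem finOrd_fullC' (f : modularFunctionFieldFullC (IsLocalRing.ResidueField A) N)
    (hf : f ≠ 0) :
    {Q : Place (IsLocalRing.ResidueField A)
      (modularFunctionFieldFullC (IsLocalRing.ResidueField A) N) | Q.ord f ≠ 0}.Finite := by
  haveI : CharP (IsLocalRing.ResidueField A) ℓ :=
    Fermat.Agent.S37.H34.charP_residueField A (Fact.out : ℓ.Prime) hA
  exact H52.finite_ord_ne_zero_fullC N ℓ hℓN (IsLocalRing.ResidueField A) hf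

end CharL

end Fermat.Agent.S18.H89
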