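/-
helper89, project S18, package R5 (ASSEMBLY) of the R-EXIST plan: the concrete frozen wrapper.

`ReductionInputsModL A N` from helper92's Gauss valuation ring `H92.gaussO` / `H92.gaussRes`
((V3) and PGI are his `up_mem_gaussO` and `principalGeneratedByIntegral`), helper97's chart
hypotheses for the charts `j` and `j⁻¹`, and the separation hypotheses `H89.SepHyp`.
-/
import Mathlib
import Fermat.Agent.S18.H92_GaussInst
import Fermat.Agent.S18.H89_ReductionInputs
import Fermat.Agent.S18.H89_SideConds

set_option autoImplicit false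
set_option linter.unusedSectionVars false
set_option synthInstance.maxHeartbeats 400000

noncomputable section

namespace Fermat.Agent.S18.H89

open AlgebraicCurve ModularCurve IsDedekindDomain Fermat.Agent.S18.H97 Fermat.Agent.S24

section Concrete

variable (A : ValuationSubring (AlgebraicClosure ℚ)) (N : ℕ) [NeZero N]
  (D : ModularPolynomialData N) (hind : H92.IndepK (IsLocalRing.ResidueField A) N)

/-- (V3) for helper92's Gauss valuation ring. -/
theorem integralCompat_gauss :
    IntegralCompat A (IsLocalRing.residue A) N (H92.gaussO A N D hind) (H92.gaussRes A N D hind) :=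
  fun _ hy _ => H92.up_mem_gaussO A N D hind hy

/-- **R-EXIST, final form**: `ReductionInputsModL A N` from chart data for a coordinate `t`
(in the application `t = jBar N`). -/
theorem reductionInputsModL_of_charts {t : modularFunctionFieldBar N}
    {Bk₁ : Type*} [CommRing Bk₁] [IsDedekindDomain Bk₁]
    [Algebra Bk₁ (modularFunctionFieldFullC (IsLocalRing.ResidueField A) N)]
    [IsFractionRing Bk₁ (modularFunctionFieldFullC (IsLocalRing.ResidueField A) N)]
    [Algebra (IsLocalRing.ResidueField A) Bk₁]
    [IsScalarTower (IsLocalRing.ResidueField A) Bk₁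
      (modularFunctionFieldFullC (IsLocalRing.ResidueField A) N)]
    {Bk₂ : Type*} [CommRing Bk₂] [IsDedekindDomain Bk₂]
    [Algebra Bk₂ (modularFunctionFieldFullC (IsLocalRing.ResidueField A) N)]
    [IsFractionRing Bk₂ (modularFunctionFieldFullC (IsLocalRing.ResidueField A) N)]
    [Algebra (IsLocalRing.ResidueField A) Bk₂]
    [IsScalarTower (IsLocalRing.ResidueField A) Bk₂
      (modularFunctionFieldFullC (IsLocalRing.ResidueField A) N)]
    {H₁ : ChartHyp A (IsLocalRing.residue A) (H92.gaussO A N D hind) (H92.gaussRes A N D hind) t}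
    {G₁ : FibreHyp (AlgebraicClosure ℚ) (IsLocalRing.ResidueField A) (H92.gaussRes A N D hind) t
      Bk₁}
    {H₂ : ChartHyp A (IsLocalRing.residue A) (H92.gaussO A N D hind) (H92.gaussRes A N D hind)
      t⁻¹}
    {G₂ : FibreHyp (AlgebraicClosure ℚ) (IsLocalRing.ResidueField A) (H92.gaussRes A N D hind)
      t⁻¹ Bk₂}
    (S₁ : SepHyp H₁ G₁) (S₂ : SepHyp H₂ G₂)
    (halg₁ : Algebra.IsAlgebraic (Algebra.adjoin (AlgebraicClosure ℚ) {t})
      (modularFunctionFieldBar N))
    (halg₂ : Algebra.IsAlgebraic (Algebra.adjoin (AlgebraicClosure ℚ) {t⁻¹})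
      (modularFunctionFieldBar N)) :
    ReductionInputsModL A N :=
  reductionInputsAlong_of_charts (integralCompat_gauss A N D hind)
    (H92.principalGeneratedByIntegral A N D hind) S₁ S₂ halg₁ halg₂ (deg_eq_one_FN' N)

end Concrete

end Fermat.Agent.S18.H89
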