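import Mathlib

/-!
# S18 / the seam between the DVR model (route Q) and the Gauss ball over `A` (R0)

Abstract, Mathlib only.

Setting: `ι : F1 →+* F` an embedding of fields (in the application the coefficient embedding
`modularFunctionFieldFullC L1 N → modularFunctionFieldBar N`), `O1 ⊆ F1` a subring with a reduction
map `res1 : O1 →+* Fk` (the DVR `(A₁[j])_(ℓ)[j_N]` of route Q), `O ⊆ F` a subring with a reduction
map `res : O →+* Fk` whose kernel consists of non-units (the Gauss unit ball over `A`).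

* `compat_closure` : compatibility `ι s ∈ O ∧ res (ι s) = res1 s` on a generating set gives it on
  the generated subring.
* `compat_of_frac` : if every element of `O1` is a fraction `a / b` with `a, b` in a subring `S1` on
  which compatibility holds and `res1 b ≠ 0`, then compatibility holds on all of `O1`
  (= `hO1` of `H33.exists_forall_finrank_riemannRochSpace_le`, together with `res ∘ ι = res1`).
* `hker_of_compat`, `hGR_of_compat` : transport of `(K)` and of the lifting form of `(GR)` from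
  `res1` to `res ∘ ι` (the shapes `hker`, `hGRfin`, `hGRinf` of the same theorem).
* `isIntegral_map_adjoin` : integrality over `R[x1]` is carried by `ι` to integrality over `K[x]`.
-/

set_option autoImplicit false

namespace Fermat.Agent.S18.H34

section Compat

variable {F1 F Fk : Type*} [Field F1] [Field F] [Field Fk]
variable (ι : F1 →+* F) (O1 : Subring F1) (res1 : O1 →+* Fk) (O : Subring F) (res : O →+* Fk)

/-- Compatibility of the two reductions at an element of `O1`. -/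
def Compat (y : F1) (hy : y ∈ O1) : Prop :=
  ∃ h : ι y ∈ O, res ⟨ι y, h⟩ = res1 ⟨y, hy⟩

variable {ι O1 res1 O res}

/-- Compatibility on a generating set gives compatibility on the generated subring. -/
theorem compat_closure {G : Set F1} (hG : G ⊆ O1)
    (h : ∀ g (hg : g ∈ G), Compat ι O1 res1 O res g (hG hg)) :
    ∀ s (hs : s ∈ Subring.closure G),
      Compat ι O1 res1 O res s ((Subring.closure_le.mpr hG) hs) := by
  intro s hs
  induction hs using Subring.closure_induction with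
  | mem x hx => exact h x hx
  | zero =>
    refine ⟨by rw [map_zero]; exact O.zero_mem, ?_⟩
    have h1 : (⟨ι 0, by rw [map_zero]; exact O.zero_mem⟩ : O) = 0 := Subtype.ext (map_zero ι)
    have h2 : (⟨0, O1.zero_mem⟩ : O1) = 0 := rfl
    rw [h1, h2, map_zero, map_zero]
  | one =>
    refine ⟨by rw [map_one]; exact O.one_mem, ?_⟩
    have h1 : (⟨ι 1, by rw [map_one]; exact O.one_mem⟩ : O) = 1 := Subtype.ext (map_one ι)
    have h2 : (⟨1, O1.one_mem⟩ : O1) = 1 := rfl
    rw [h1, h2, map_one, map_one]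
  | add x y hx hy ihx ihy =>
    obtain ⟨hx', ex⟩ := ihx
    obtain ⟨hy', ey⟩ := ihy
    refine ⟨by rw [map_add]; exact O.add_mem hx' hy', ?_⟩
    have h1 : (⟨ι (x + y), by rw [map_add]; exact O.add_mem hx' hy'⟩ : O) =
        ⟨ι x, hx'⟩ + ⟨ι y, hy'⟩ := Subtype.ext (map_add ι x y)
    have h2 : (⟨x + y, (Subring.closure_le.mpr hG) (Subring.add_mem _ hx hy)⟩ : O1) =
        ⟨x, (Subring.closure_le.mpr hG) hx⟩ + ⟨y, (Subring.closure_le.mpr hG) hy⟩ := rfl
    rw [h1, h2, map_add, map_add, ex, ey]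
  | neg x hx ihx =>
    obtain ⟨hx', ex⟩ := ihx
    refine ⟨by rw [map_neg]; exact O.neg_mem hx', ?_⟩
    have h1 : (⟨ι (-x), by rw [map_neg]; exact O.neg_mem hx'⟩ : O) = -⟨ι x, hx'⟩ :=
      Subtype.ext (map_neg ι x)
    have h2 : (⟨-x, (Subring.closure_le.mpr hG) (Subring.neg_mem _ hx)⟩ : O1) =
        -⟨x, (Subring.closure_le.mpr hG) hx⟩ := rfl
    rw [h1, h2, map_neg, map_neg, ex]
  | mul x y hx hy ihx ihy =>
    obtain ⟨hx', ex⟩ := ihx
    obtain ⟨hy', ey⟩ := ihy
    refine ⟨by rw [map_mul]; exact O.mul_mem hx' hy', ?_⟩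
    have h1 : (⟨ι (x * y), by rw [map_mul]; exact O.mul_mem hx' hy'⟩ : O) =
        ⟨ι x, hx'⟩ * ⟨ι y, hy'⟩ := Subtype.ext (map_mul ι x y)
    have h2 : (⟨x * y, (Subring.closure_le.mpr hG) (Subring.mul_mem _ hx hy)⟩ : O1) =
        ⟨x, (Subring.closure_le.mpr hG) hx⟩ * ⟨y, (Subring.closure_le.mpr hG) hy⟩ := rfl
    rw [h1, h2, map_mul, map_mul, ex, ey]

/-- **Comparison lemma.** If the elements of `O` with nonzero reduction are units of `O`, and every
element of `O1` is a fraction of elements of `S1` (denominator with nonzero reduction) on which the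
two reductions are compatible, then `ι` maps `O1` into `O` and `res ∘ ι = res1` on `O1`. -/
theorem compat_of_frac
    (hunit : ∀ u : O, res u ≠ 0 → ∃ v : O, (u : F) * (v : F) = 1)
    (S1 : Subring F1) (hS1 : S1 ≤ O1)
    (hcompat : ∀ s (hs : s ∈ S1), Compat ι O1 res1 O res s (hS1 hs))
    (hfrac : ∀ y ∈ O1, ∃ a ∈ S1, ∃ b, ∃ hb : b ∈ S1, res1 ⟨b, hS1 hb⟩ ≠ 0 ∧ y * b = a) :
    ∀ y (hy : y ∈ O1), Compat ι O1 res1 O res y hy := by
  intro y hy
  obtain ⟨a, ha, b, hb, hbne, hyb⟩ := hfrac y hy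
  obtain ⟨ha', ea⟩ := hcompat a ha
  obtain ⟨hb', eb⟩ := hcompat b hb
  have hbne' : res ⟨ι b, hb'⟩ ≠ 0 := by rw [eb]; exact hbne
  obtain ⟨v, hv⟩ := hunit ⟨ι b, hb'⟩ hbne'
  have hιy : ι y = ι a * (v : F) := by
    have h1 : ι y * ι b = ι a := by rw [← map_mul, hyb]
    calc ι y = ι y * (ι b * (v : F)) := by rw [hv, mul_one]
      _ = ι a * (v : F) := by rw [← mul_assoc, h1]
  have hyO : ι y ∈ O := by rw [hιy]; exact O.mul_mem ha' v.2
  refine ⟨hyO, ?_⟩
  -- `res (ι y) * res1 b = res1 a = res1 y * res1 b`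
  have h2 : (⟨ι y, hyO⟩ : O) * ⟨ι b, hb'⟩ = ⟨ι a, ha'⟩ := by
    apply Subtype.ext
    show ι y * ι b = ι a
    rw [← map_mul, hyb]
  have h3 : (⟨y, hy⟩ : O1) * ⟨b, hS1 hb⟩ = ⟨a, hS1 ha⟩ := Subtype.ext hyb
  have h4 : res ⟨ι y, hyO⟩ * res1 ⟨b, hS1 hb⟩ = res1 ⟨y, hy⟩ * res1 ⟨b, hS1 hb⟩ := by
    calc res ⟨ι y, hyO⟩ * res1 ⟨b, hS1 hb⟩ = res ⟨ι y, hyO⟩ * res ⟨ι b, hb'⟩ := by rw [eb]
      _ = res ⟨ι a, ha'⟩ := by rw [← map_mul, h2]
      _ = res1 ⟨a, hS1 ha⟩ := ea
      _ = res1 ⟨y, hy⟩ * res1 ⟨b, hS1 hb⟩ := by rw [← map_mul, h3]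
  exact mul_right_cancel₀ hbne h4

/-- Transport of `(K)` (kernel of the reduction on the model is `ϖ O1`) along a compatibility. -/
theorem hker_of_compat (hO1 : ∀ y ∈ O1, ι y ∈ O)
    (hc : ∀ y (hy : y ∈ O1), res ⟨ι y, hO1 y hy⟩ = res1 ⟨y, hy⟩)
    (ϖ : F1) (hker1 : ∀ (y : F1) (hy : y ∈ O1), res1 ⟨y, hy⟩ = 0 ↔ ∃ z ∈ O1, y = ϖ * z) :
    ∀ (y : F1) (hy : y ∈ O1), res ⟨ι y, hO1 y hy⟩ = 0 ↔ ∃ z ∈ O1, y = ϖ * z := by
  intro y hy
  rw [hc y hy]
  exact hker1 y hy

/-- Transport of the lifting form of `(GR)` along a compatibility. `P` is the integrality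
predicate on the model side (`IsIntegral (Algebra.adjoin R {x1})`) and `Pk` on the special
fibre. -/
theorem hGR_of_compat (hO1 : ∀ y ∈ O1, ι y ∈ O)
    (hc : ∀ y (hy : y ∈ O1), res ⟨ι y, hO1 y hy⟩ = res1 ⟨y, hy⟩)
    (P : F1 → Prop) (Pk : Fk → Prop) (hP : ∀ b, P b → b ∈ O1)
    (hGR1 : ∀ γ : Fk, Pk γ → ∃ (b : F1) (hb : P b), res1 ⟨b, hP b hb⟩ = γ) :
    ∀ γ : Fk, Pk γ → ∃ (b : F1) (hb : P b), res ⟨ι b, hO1 b (hP b hb)⟩ = γ := by
  intro γ hγ
  obtain ⟨b, hb, e⟩ := hGR1 γ hγ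
  exact ⟨b, hb, (hc b (hP b hb)).trans e⟩

end Compat

section Integral

variable {R K F1 F : Type*} [CommRing R] [Field K] [Field F1] [Field F]
  [Algebra R F1] [Algebra R K] [Algebra K F]

/-- `ι` maps `R[x1]` into `K[ι x1]`. -/
theorem map_mem_adjoin (ι : F1 →+* F)
    (hRK : ∀ r : R, ι (algebraMap R F1 r) = algebraMap K F (algebraMap R K r)) (x1 : F1)
    {y : F1} (hy : y ∈ Algebra.adjoin R {x1}) : ι y ∈ Algebra.adjoin K {ι x1} := by
  induction hy using Algebra.adjoin_induction with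
  | mem x hx =>
    rw [Set.mem_singleton_iff] at hx
    rw [hx]
    exact Algebra.self_mem_adjoin_singleton K _
  | algebraMap r =>
    rw [hRK]
    exact Subalgebra.algebraMap_mem _ _
  | add x y _ _ hx hy =>
    rw [map_add]
    exact Subalgebra.add_mem _ hx hy
  | mul x y _ _ hx hy =>
    rw [map_mul]
    exact Subalgebra.mul_mem _ hx hy

/-- Integrality over `R[x1]` is carried by `ι` to integrality over `K[ι x1]`. -/
theorem isIntegral_map_adjoin (ι : F1 →+* F)
    (hRK : ∀ r : R, ι (algebraMap R F1 r) = algebraMap K F (algebraMap R K r)) (x1 : F1)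
    {b : F1} (hb : IsIntegral (Algebra.adjoin R {x1}) b) :
    IsIntegral (Algebra.adjoin K {ι x1}) (ι b) := by
  let φ : Algebra.adjoin R {x1} →+* Algebra.adjoin K {ι x1} :=
    (ι.comp (Algebra.adjoin R {x1}).val.toRingHom).codRestrict
      (Algebra.adjoin K {ι x1}).toSubring (fun y => map_mem_adjoin ι hRK x1 y.2)
  exact IsIntegral.map_of_comp_eq φ ι (by ext y; rfl) hb

end Integral

end Fermat.Agent.S18.H34
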