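import Fermat.Agent.S18.H97_Center
import Fermat.Agent.S18.H34_Compare

/-!
# S18 / R-EXIST: the `(GR)` input of `H97.FibreHyp` from the lifting form of `(GR)`

`H33.exists_forall_finrank_riemannRochSpace_le` consumes good reduction as a LIFTING statement
over the DVR model `(R, F1)`:
`∀ γ : Fk, IsIntegral k[xb] γ → ∃ b : F1, IsIntegral R[x1] b ∧ res (ι b) = γ`.
`H97.FibreHyp` (R-EXIST, chart form) consumes it as surjectivity of
`resBA : BA L O t → Bk`.  This file derives the second from the first, and also the `res_mem`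
field of `FibreHyp` from `ChartHyp.int`, for `Bk` any model of the integral closure of `k[res t]`.
-/

set_option autoImplicit false

noncomputable section

open AlgebraicCurve

namespace Fermat.Agent.S18.H34

open Fermat.Agent.S18.H97

variable {L FL k Fk : Type*} [Field L] [Field FL] [Algebra L FL] [Field k] [Field Fk]
  [Algebra k Fk]
variable {A : ValuationSubring L} {π : A →+* k} {O : ValuationSubring FL} {res : O →+* Fk}
  {t : FL}

/-- `gr` of `H97.FibreHyp` from the lifting form of `(GR)` over a model `(R, F1, ι)`. -/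
theorem fibreHyp_gr_of_lifting (H : ChartHyp A π O res t)
    {R F1 : Type*} [CommRing R] [Field F1] [Algebra R F1] [Algebra R L] (ι : F1 →+* FL)
    (hRK : ∀ r : R, ι (algebraMap R F1 r) = algebraMap L FL (algebraMap R L r))
    {x1 : F1} (hx1 : ι x1 = t)
    {Bk : Type*} [CommRing Bk] [Algebra Bk Fk]
    (hBk : ∀ β : Bk, IsIntegral (Algebra.adjoin k {res ⟨t, H.tO⟩}) (algebraMap Bk Fk β))
    (hlift : ∀ γ : Fk, IsIntegral (Algebra.adjoin k {res ⟨t, H.tO⟩}) γ →
      ∃ b : F1, IsIntegral (Algebra.adjoin R {x1}) b ∧ ∃ h : ι b ∈ O, res ⟨ι b, h⟩ = γ) :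
    ∀ β : Bk, ∃ b : BA L O t, resBA L res t b = algebraMap Bk Fk β := by
  intro β
  obtain ⟨b, hb, hbO, e⟩ := hlift _ (hBk β)
  have hint : IsIntegral (Algebra.adjoin L {t}) (ι b) := by
    have := isIntegral_map_adjoin (K := L) ι hRK x1 hb
    rwa [hx1] at this
  exact ⟨⟨ι b, hbO, hint⟩, e⟩

/-- `res` maps `A[t]` into `k[res t]`. -/
theorem res_mem_adjoin_of_mem_AT (H : ChartHyp A π O res t) {y : FL} (hy : y ∈ AT A t) :
    ∃ h : y ∈ O, res ⟨y, h⟩ ∈ Algebra.adjoin k {res ⟨t, H.tO⟩} := by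
  unfold AT at hy
  induction hy using Subring.closure_induction with
  | mem x hx =>
    rcases hx with ⟨a, rfl⟩ | hx
    · refine ⟨H.constO a, ?_⟩
      rw [H.const a]
      exact Subalgebra.algebraMap_mem _ _
    · rw [Set.mem_singleton_iff] at hx
      subst hx
      exact ⟨H.tO, Algebra.self_mem_adjoin_singleton k _⟩
  | zero =>
    refine ⟨O.zero_mem, ?_⟩
    have : (⟨0, O.zero_mem⟩ : O) = 0 := rfl
    rw [this, map_zero]
    exact Subalgebra.zero_mem _
  | one =>
    refine ⟨O.one_mem, ?_⟩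
    have : (⟨1, O.one_mem⟩ : O) = 1 := rfl
    rw [this, map_one]
    exact Subalgebra.one_mem _
  | add x y _ _ ihx ihy =>
    obtain ⟨hx, ex⟩ := ihx
    obtain ⟨hy, ey⟩ := ihy
    refine ⟨O.add_mem _ _ hx hy, ?_⟩
    have : (⟨x + y, O.add_mem _ _ hx hy⟩ : O) = ⟨x, hx⟩ + ⟨y, hy⟩ := rfl
    rw [this, map_add]
    exact Subalgebra.add_mem _ ex ey
  | neg x _ ihx =>
    obtain ⟨hx, ex⟩ := ihx
    refine ⟨O.neg_mem _ hx, ?_⟩
    have : (⟨-x, O.neg_mem _ hx⟩ : O) = -⟨x, hx⟩ := rfl
    rw [this, map_neg]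
    exact Subalgebra.neg_mem _ ex
  | mul x y _ _ ihx ihy =>
    obtain ⟨hx, ex⟩ := ihx
    obtain ⟨hy, ey⟩ := ihy
    refine ⟨O.mul_mem _ _ hx hy, ?_⟩
    have : (⟨x * y, O.mul_mem _ _ hx hy⟩ : O) = ⟨x, hx⟩ * ⟨y, hy⟩ := rfl
    rw [this, map_mul]
    exact Subalgebra.mul_mem _ ex ey

/-- The reduction of an element of the chart ring is integral over `k[res t]`
(from `(INT)`: elements of the chart ring are integral over `A[t]`). -/
theorem isIntegral_resBA (H : ChartHyp A π O res t) (b : BA L O t) :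
    IsIntegral (Algebra.adjoin k {res ⟨t, H.tO⟩}) (resBA L res t b) := by
  obtain ⟨p, hpm, hpb⟩ := H.int (b : FL) b.2
  have hATO : ∀ y : AT A t, (y : FL) ∈ O := fun y => (res_mem_adjoin_of_mem_AT H y.2).1
  let incl : AT A t →+* O := (AT A t).subtype.codRestrict O.toSubring hATO
  let φ : AT A t →+* Algebra.adjoin k {res ⟨t, H.tO⟩} :=
    (res.comp incl).codRestrict (Algebra.adjoin k {res ⟨t, H.tO⟩}).toSubring
      (fun y => (res_mem_adjoin_of_mem_AT H y.2).2)
  set b' : O := ⟨(b : FL), b.2.1⟩ with hb'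
  have h0 : Polynomial.eval₂ incl b' p = 0 := by
    apply Subtype.ext
    have := Polynomial.hom_eval₂ p incl O.subtype b'
    rw [ZeroMemClass.coe_zero]
    change O.subtype (Polynomial.eval₂ incl b' p) = 0
    rw [this]
    exact hpb
  refine ⟨p.map φ, hpm.map φ, ?_⟩
  rw [Polynomial.eval₂_map]
  have hcomp : (algebraMap (Algebra.adjoin k {res ⟨t, H.tO⟩}) Fk).comp φ = res.comp incl := by
    ext y; rfl
  rw [hcomp]
  have hb'' : resBA L res t b = res b' := rfl
  rw [hb'', ← Polynomial.hom_eval₂, h0, map_zero]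

/-- `res_mem` of `H97.FibreHyp` for any model `Bk` of the integral closure of `k[res t]`. -/
theorem fibreHyp_res_mem (H : ChartHyp A π O res t)
    {Bk : Type*} [CommRing Bk] [Algebra Bk Fk]
    (hBk : ∀ γ : Fk, IsIntegral (Algebra.adjoin k {res ⟨t, H.tO⟩}) γ →
      ∃ β : Bk, algebraMap Bk Fk β = γ) :
    ∀ b : BA L O t, ∃ β : Bk, algebraMap Bk Fk β = resBA L res t b :=
  fun b => hBk _ (isIntegral_resBA H b)

end Fermat.Agent.S18.H34

end
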