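import Fermat.Agent.S18.H97_Center
import Fermat.Agent.S18.H34_GRAdapter

/-!
# S18 / R-EXIST (I1): the special-fibre side of a chart, for `Bk := integral closure of k[tk]`

`H97.FibreHyp` (and `H89.SepHyp`) are stated for an abstract Dedekind model `Bk` of the chart of
the special fibre.  Here we instantiate it with `Bk := S24.H97.intRing k tk`
(`= integralClosure (Algebra.adjoin k {tk}) Fk`), for `tk := res t` transcendental over `k` and
`Fk / k(tk)` finite separable (any characteristic):

* `isDedekindDomain_intRing_of_isSeparable`, `isFractionRing_intRing'` : the instances needed by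
  `ChartHyp.center`;
* `adjoin_inv_eq`, `transcendental_inv`, `finiteDimensional_adjoin_inv`, `isSeparable_adjoin_inv` :
  transport of the hypotheses to the chart `tk⁻¹` (chart at infinity);
* `fibreHyp_intRing` : `FibreHyp L k res t (intRing k (res t))` from `ChartHyp` + the LIFTING form of
  good reduction `∀ γ integral over k[res t], ∃ b ∈ BA, resBA b = γ` + transcendence of `res t`;
* `intBk_intRing` : the field `intBk` of `H89.SepHyp` for this `Bk`.
-/

set_option autoImplicit false

noncomputable section

open IsDedekindDomain Polynomial AlgebraicCurve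
open scoped IntermediateField IntermediateField.algebraAdjoinAdjoin

namespace Fermat.Agent.S18.H97

open Fermat.Agent.S24.H97 (intRing polyRing)

section Field

variable {k Fk : Type*} [Field k] [Field Fk] [Algebra k Fk]

/-- `k(x⁻¹) = k(x)`. -/
theorem adjoin_inv_eq (x : Fk) : k⟮x⁻¹⟯ = k⟮x⟯ := by
  apply le_antisymm
  · rw [IntermediateField.adjoin_simple_le_iff]
    exact inv_mem (IntermediateField.mem_adjoin_simple_self k x)
  · rw [IntermediateField.adjoin_simple_le_iff]
    have h := inv_mem (IntermediateField.mem_adjoin_simple_self k x⁻¹)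
    rwa [inv_inv] at h

theorem transcendental_inv {x : Fk} (hx : Transcendental k x) : Transcendental k x⁻¹ := by
  intro h
  exact hx (IsAlgebraic.inv_iff.mp h)

theorem finiteDimensional_of_eq {E₁ E₂ : IntermediateField k Fk} (h : E₁ = E₂)
    [FiniteDimensional E₁ Fk] : FiniteDimensional E₂ Fk := by
  subst h; infer_instance

theorem isSeparable_of_eq {E₁ E₂ : IntermediateField k Fk} (h : E₁ = E₂)
    [Algebra.IsSeparable E₁ Fk] : Algebra.IsSeparable E₂ Fk := by
  subst h; infer_instance

theorem finiteDimensional_adjoin_inv (x : Fk) [FiniteDimensional k⟮x⟯ Fk] :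
    FiniteDimensional k⟮x⁻¹⟯ Fk :=
  finiteDimensional_of_eq (adjoin_inv_eq x).symm

theorem isSeparable_adjoin_inv (x : Fk) [Algebra.IsSeparable k⟮x⟯ Fk] :
    Algebra.IsSeparable k⟮x⁻¹⟯ Fk :=
  isSeparable_of_eq (adjoin_inv_eq x).symm

variable (tk : Fk)

/-- The integral closure of `k[tk]` in a finite SEPARABLE extension of `k(tk)` is a Dedekind
domain (any characteristic; `S24.H97.isDedekindDomain_intRing` is the char-zero version). -/
theorem isDedekindDomain_intRing_of_isSeparable (ht : Transcendental k tk)
    [FiniteDimensional k⟮tk⟯ Fk] [Algebra.IsSeparable k⟮tk⟯ Fk] :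
    IsDedekindDomain (intRing k tk) := by
  have := Fermat.Agent.S24.H97.isDedekindDomain_polyRing tk ht
  exact integralClosure.isDedekindDomain (polyRing k tk) k⟮tk⟯ Fk

/-- `Fk` is the fraction field of the integral closure of `k[tk]`. -/
theorem isFractionRing_intRing' [FiniteDimensional k⟮tk⟯ Fk] :
    IsFractionRing (intRing k tk) Fk :=
  Fermat.Agent.S24.H97.isFractionRing_intRing tk

/-- Elements of the integral closure of `k[tk]` are regular at every place where `tk` is
(the field `intBk` of `H89.SepHyp`, in raw form). -/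
theorem intBk_intRing (Q : Place k Fk) (hQ : tk ∈ Q.toValuationSubring) (β : intRing k tk) :
    algebraMap (intRing k tk) Fk β ∈ Q.toValuationSubring :=
  Fermat.Agent.S24.H97.mem_of_isIntegral Q hQ β.2

end Field

section Fibre

variable {L FL k Fk : Type*} [Field L] [Field FL] [Algebra L FL] [Field k] [Field Fk]
  [Algebra k Fk]
variable {A : ValuationSubring L} {π : A →+* k} {O : ValuationSubring FL} {res : O →+* Fk}
  {t : FL}

/-- **(I1)** the special-fibre hypotheses of a chart for `Bk :=` the integral closure of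
`k[res t]` in `Fk`, from the LIFTING form of good reduction. -/
theorem fibreHyp_intRing (H : ChartHyp A π O res t)
    (htr : Transcendental k (res ⟨t, H.tO⟩))
    (hGR : ∀ γ : Fk, IsIntegral (Algebra.adjoin k {res ⟨t, H.tO⟩}) γ →
      ∃ b : BA L O t, resBA L res t b = γ) :
    FibreHyp L k res t (intRing k (res ⟨t, H.tO⟩)) where
  res_mem := Fermat.Agent.S18.H34.fibreHyp_res_mem H (fun γ hγ => ⟨⟨γ, hγ⟩, rfl⟩)
  gr := fun β => hGR _ β.2
  nonconst := fun b hb c h => by
    apply htr
    have h1 : resBA L res t b = res ⟨t, H.tO⟩ := by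
      rw [resBA_apply]
      congr 1
      exact Subtype.ext hb
    rw [← h1, h]
    exact isAlgebraic_algebraMap c

/-- The same, with the lifting hypothesis in the model form of `H34.fibreHyp_gr_of_lifting`. -/
theorem fibreHyp_intRing_of_model (H : ChartHyp A π O res t)
    (htr : Transcendental k (res ⟨t, H.tO⟩))
    {R F1 : Type*} [CommRing R] [Field F1] [Algebra R F1] [Algebra R L] (ι : F1 →+* FL)
    (hRK : ∀ r : R, ι (algebraMap R F1 r) = algebraMap L FL (algebraMap R L r))
    {x1 : F1} (hx1 : ι x1 = t)
    (hlift : ∀ γ : Fk, IsIntegral (Algebra.adjoin k {res ⟨t, H.tO⟩}) γ →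
      ∃ b : F1, IsIntegral (Algebra.adjoin R {x1}) b ∧ ∃ h : ι b ∈ O, res ⟨ι b, h⟩ = γ) :
    FibreHyp L k res t (intRing k (res ⟨t, H.tO⟩)) :=
  fibreHyp_intRing H htr fun γ hγ => by
    obtain ⟨b, hb⟩ := Fermat.Agent.S18.H34.fibreHyp_gr_of_lifting H ι hRK hx1
      (Bk := intRing k (res ⟨t, H.tO⟩)) (fun β => show IsIntegral _ (β : Fk) from β.2) hlift ⟨γ, hγ⟩
    exact ⟨b, hb⟩

end Fibre

end Fermat.Agent.S18.H97

end
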