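/-
helper92, project S18 / R-EXIST: end-to-end assembly of `ReductionInputsModL A N` from good
reduction of the two charts `j`, `j⁻¹` in LIFTING form, on top of R0 (`H92.stdO` / `H92.stdRes`),
helper27's `H27_CenterInst`, helper97's `H97_FibreInst`, helper35's `H35_SepHypFW`, helper89's
`H89_ReductionInputsModL` / `H89_SideConds`, helper16's `H16_FkInst`, and in the `M.res1` form of
helper3's Gauss model (`H3_ChartFinal`, bridge = helper40's `H40.comp_gaussModel`).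

* `reductionInputsModL_of_GR` : hypotheses `GRLift` (model form over `(A₁, F₁, barEmb)`).
* `reductionInputsModL_of_GR_gaussModel` : hypothesis = the `hGR` binder of
  `H3.gR_FN_le_gR_Fk_of_GR` VERBATIM.
-/
import Mathlib
import Fermat.Agent.S18.H92_IndepK
import Fermat.Agent.S18.H27_CenterInst
import Fermat.Agent.S18.H97_FibreInst
import Fermat.Agent.S18.H35_SepHypFW
import Fermat.Agent.S18.H89_ReductionInputsModL
import Fermat.Agent.S18.H16_FkInst
import Fermat.Agent.S18.H40_LatticeInstModel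
import Fermat.Agent.S18.H3_ChartFinal

set_option autoImplicit false
set_option synthInstance.maxHeartbeats 400000
set_option maxHeartbeats 1000000
set_option linter.unusedSectionVars false
set_option linter.style.haveILetI false

noncomputable section

namespace Fermat.Agent.S18.H92

open ModularCurve Polynomial AlgebraicCurve Fermat.Agent.S24
open scoped IntermediateField

variable (N : ℕ) [NeZero N] {ℓ : ℕ} [Fact ℓ.Prime] (hℓN : ¬ ℓ ∣ N)
  (A : ValuationSubring (AlgebraicClosure ℚ)) (hA : A.LiesOverPrime ℓ)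

local notation "Qb" => AlgebraicClosure ℚ
local notation "kA" => IsLocalRing.ResidueField A
local notation "FL" => modularFunctionFieldBar N
local notation "Fk" => modularFunctionFieldFullC (IsLocalRing.ResidueField A) N
local notation "L₁" => H45.unrCyclo ℓ
local notation "A₁" => H45.A0 A ℓ
local notation "F₁" => modularFunctionFieldFullC (H45.unrCyclo ℓ) N
local notation "j₁" => H16.jK (H45.unrCyclo ℓ) N
local notation "jN₁" => H16.jNK (H45.unrCyclo ℓ) N

/-- (V3) in helper89's form -/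
theorem integralCompat_std :
    H89.IntegralCompat A (IsLocalRing.residue A) N (stdO N hℓN A hA) (stdRes N hℓN A hA) := by
  intro y hy _
  exact up_mem_gaussO A N (modData N) (indepK_residueField N hℓN A hA) hy

/-- the chart coordinate `j` -/
def jL : FL := H27.xF (stdTwoGen N hℓN A hA) FL (stdTwoGen_FL N hℓN A hA)

theorem jL_eq_jBar : jL N hℓN A hA = jBar N := by
  apply Subtype.ext
  change (stdTwoGen N hℓN A hA).xL = coeffEmb Qbar jq
  rw [stdTwoGen, twoGen_xL, coeffEmb, ← jqModC_rat, coeffMap_jqModC]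

theorem chartHyp_j :
    H97.ChartHyp A (IsLocalRing.residue A) (stdO N hℓN A hA) (stdRes N hℓN A hA) (jL N hℓN A hA) :=
  H27.chartHyp_x (stdTwoGen N hℓN A hA) FL (stdTwoGen_FL N hℓN A hA) Fk (stdTwoGen_Fk N hℓN A hA)
    (H89.resL_FN N)

theorem chartHyp_jinv :
    H97.ChartHyp A (IsLocalRing.residue A) (stdO N hℓN A hA) (stdRes N hℓN A hA)
      (jL N hℓN A hA)⁻¹ :=
  H27.chartHyp_xinv (stdTwoGen N hℓN A hA) FL (stdTwoGen_FL N hℓN A hA) Fk
    (stdTwoGen_Fk N hℓN A hA) (H89.resL_FN N)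

/-- the reduction of the chart coordinate is `j mod ℓ` -/
theorem stdRes_jL :
    stdRes N hℓN A hA ⟨jL N hℓN A hA, (chartHyp_j N hℓN A hA).tO⟩ = H16.jK kA N := by
  apply Subtype.ext
  rw [H16.coe_jK]
  have h := H27.coe_resHom_xF (stdTwoGen N hℓN A hA) FL (stdTwoGen_FL N hℓN A hA) Fk
    (stdTwoGen_Fk N hℓN A hA)
  have hxk : (stdTwoGen N hℓN A hA).xk = jqModC kA := twoGen_xk A N _ _
  rw [hxk] at h
  exact h

theorem stdRes_jL_inv :
    stdRes N hℓN A hA ⟨(jL N hℓN A hA)⁻¹, (chartHyp_jinv N hℓN A hA).tO⟩ = (H16.jK kA N)⁻¹ := by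
  rw [← stdRes_jL N hℓN A hA]
  exact H27.resHom_xF_inv (stdTwoGen N hℓN A hA) FL (stdTwoGen_FL N hℓN A hA) Fk
    (stdTwoGen_Fk N hℓN A hA)

/-- good reduction of a chart in LIFTING form (model form of `H97.fibreHyp_intRing_of_model`,
implied by `hGRfin` / `hGRinf` of `H40.gR_FN_le_gR_Fk_of_chart`). -/
def GRLift (x1 : F₁) (tk : Fk) : Prop :=
  ∀ γ : Fk, IsIntegral (Algebra.adjoin kA {tk}) γ →
    ∃ b : F₁, IsIntegral (Algebra.adjoin A₁ {x1}) b ∧
      ∃ h : H40.barEmb N b ∈ stdO N hℓN A hA, stdRes N hℓN A hA ⟨H40.barEmb N b, h⟩ = γ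

theorem barEmb_j₁ : H40.barEmb N j₁ = jL N hℓN A hA := by
  rw [jL_eq_jBar]; exact H40.barEmb_jK N

theorem fibreHyp_j (hGRfin : GRLift N hℓN A hA j₁ (H16.jK kA N)) :
    H97.FibreHyp Qb kA (stdRes N hℓN A hA) (jL N hℓN A hA)
      (Fermat.Agent.S24.H97.intRing kA
        (stdRes N hℓN A hA ⟨jL N hℓN A hA, (chartHyp_j N hℓN A hA).tO⟩)) := by
  have htr : Transcendental kA
      (stdRes N hℓN A hA ⟨jL N hℓN A hA, (chartHyp_j N hℓN A hA).tO⟩) := by
    rw [stdRes_jL]; exact H16.transcendental_jK _ N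
  refine H97.fibreHyp_intRing_of_model (chartHyp_j N hℓN A hA) htr (R := A₁) (F1 := F₁)
    (H40.barEmb N) (H40.hRK_model A N) (barEmb_j₁ N hℓN A hA) ?_
  rw [stdRes_jL]
  exact hGRfin

theorem barEmb_j₁_inv : H40.barEmb N j₁⁻¹ = (jL N hℓN A hA)⁻¹ := by
  rw [map_inv₀, barEmb_j₁]

theorem fibreHyp_jinv (hGRinf : GRLift N hℓN A hA j₁⁻¹ (H16.jK kA N)⁻¹) :
    H97.FibreHyp Qb kA (stdRes N hℓN A hA) (jL N hℓN A hA)⁻¹
      (Fermat.Agent.S24.H97.intRing kA
        (stdRes N hℓN A hA ⟨(jL N hℓN A hA)⁻¹, (chartHyp_jinv N hℓN A hA).tO⟩)) := by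
  have htr : Transcendental kA
      (stdRes N hℓN A hA ⟨(jL N hℓN A hA)⁻¹, (chartHyp_jinv N hℓN A hA).tO⟩) := by
    rw [stdRes_jL_inv]; exact H97.transcendental_inv (H16.transcendental_jK _ N)
  refine H97.fibreHyp_intRing_of_model (chartHyp_jinv N hℓN A hA) htr (R := A₁) (F1 := F₁)
    (H40.barEmb N) (H40.hRK_model A N) (barEmb_j₁_inv N hℓN A hA) ?_
  rw [stdRes_jL_inv]
  exact hGRinf

theorem gaussData_j :
    H27.GaussData A (IsLocalRing.residue A) (stdO N hℓN A hA) (stdRes N hℓN A hA)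
      (jL N hℓN A hA) :=
  H27.gaussData_x (stdTwoGen N hℓN A hA) FL (stdTwoGen_FL N hℓN A hA) Fk (stdTwoGen_Fk N hℓN A hA)

theorem gaussData_jinv :
    H27.GaussData A (IsLocalRing.residue A) (stdO N hℓN A hA) (stdRes N hℓN A hA)
      (jL N hℓN A hA)⁻¹ :=
  H27.gaussData_xinv (stdTwoGen N hℓN A hA) FL (stdTwoGen_FL N hℓN A hA) Fk
    (stdTwoGen_Fk N hℓN A hA)

theorem tk_gaussData_j : (gaussData_j N hℓN A hA).tk = H16.jK kA N := stdRes_jL N hℓN A hA

theorem tk_gaussData_jinv : (gaussData_jinv N hℓN A hA).tk = (H16.jK kA N)⁻¹ :=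
  stdRes_jL_inv N hℓN A hA

theorem sepHyp_j (hGRfin : GRLift N hℓN A hA j₁ (H16.jK kA N)) :
    H89.SepHyp (chartHyp_j N hℓN A hA) (fibreHyp_j N hℓN A hA hGRfin) := by
  have hFD : FiniteDimensional Qb⟮jL N hℓN A hA⟯ FL := by
    rw [jL_eq_jBar]; exact H40.finiteDimensional_FN N
  haveI : Algebra.IsAlgebraic Qb⟮jL N hℓN A hA⟯ FL := Algebra.IsAlgebraic.of_finite _ _
  haveI : HasPrincipalDivisors Qb FL := Fermat.Agent.RR.H76.hasPrincipalDivisors_FN N
  haveI : HasPrincipalDivisors kA Fk := H16.hasPrincipalDivisors_Fk N hℓN A hA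
  haveI : Algebra.IsSeparable kA⟮(gaussData_j N hℓN A hA).tk⟯ Fk := by
    rw [tk_gaussData_j]; exact H16.isSeparable_Fk N hℓN A hA
  refine ⟨H89.resk_fullC N hℓN A hA, H89.finOrd_FN N, ?_, ?_⟩
  · intro Q hQ β
    exact H97.intBk_intRing _ Q hQ β
  · exact H35.sepHyp_fw (chartHyp_j N hℓN A hA) (gaussData_j N hℓN A hA)
      (H27.powFam (stdTwoGen N hℓN A hA) FL (stdTwoGen_FL N hℓN A hA))
      (H27.powFam_mem (stdTwoGen N hℓN A hA) FL (stdTwoGen_FL N hℓN A hA))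
      (H27.linearIndependent_res_powFam (stdTwoGen N hℓN A hA) FL (stdTwoGen_FL N hℓN A hA) Fk
        (stdTwoGen_Fk N hℓN A hA))
      (H27.exists_sum_powFam (stdTwoGen N hℓN A hA) FL (stdTwoGen_FL N hℓN A hA))
      (H27.linearIndependent_powFam (stdTwoGen N hℓN A hA) FL (stdTwoGen_FL N hℓN A hA))
      (H89.deg_eq_one_FN' N) (H16.deg_eq_one_Fk N hℓN A hA)

theorem sepHyp_jinv (hGRinf : GRLift N hℓN A hA j₁⁻¹ (H16.jK kA N)⁻¹) :
    H89.SepHyp (chartHyp_jinv N hℓN A hA) (fibreHyp_jinv N hℓN A hA hGRinf) := by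
  have hFD : FiniteDimensional Qb⟮jL N hℓN A hA⟯ FL := by
    rw [jL_eq_jBar]; exact H40.finiteDimensional_FN N
  haveI : FiniteDimensional Qb⟮(jL N hℓN A hA)⁻¹⟯ FL := H97.finiteDimensional_adjoin_inv _
  haveI : Algebra.IsAlgebraic Qb⟮(jL N hℓN A hA)⁻¹⟯ FL := Algebra.IsAlgebraic.of_finite _ _
  haveI : HasPrincipalDivisors Qb FL := Fermat.Agent.RR.H76.hasPrincipalDivisors_FN N
  haveI : HasPrincipalDivisors kA Fk := H16.hasPrincipalDivisors_Fk N hℓN A hA
  haveI : Algebra.IsSeparable kA⟮(gaussData_jinv N hℓN A hA).tk⟯ Fk := by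
    rw [tk_gaussData_jinv]
    haveI := H16.isSeparable_Fk N hℓN A hA
    exact H97.isSeparable_adjoin_inv _
  refine ⟨H89.resk_fullC N hℓN A hA, H89.finOrd_FN N, ?_, ?_⟩
  · intro Q hQ β
    exact H97.intBk_intRing _ Q hQ β
  · exact H35.sepHyp_fw (chartHyp_jinv N hℓN A hA) (gaussData_jinv N hℓN A hA)
      (H27.powFam (stdTwoGen N hℓN A hA) FL (stdTwoGen_FL N hℓN A hA))
      (H27.powFam_mem (stdTwoGen N hℓN A hA) FL (stdTwoGen_FL N hℓN A hA))
      (H27.linearIndependent_res_powFam_inv (stdTwoGen N hℓN A hA) FL (stdTwoGen_FL N hℓN A hA) Fk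
        (stdTwoGen_Fk N hℓN A hA))
      (H27.exists_sum_powFam_inv (stdTwoGen N hℓN A hA) FL (stdTwoGen_FL N hℓN A hA))
      (H27.linearIndependent_powFam_inv (stdTwoGen N hℓN A hA) FL (stdTwoGen_FL N hℓN A hA))
      (H89.deg_eq_one_FN' N) (H16.deg_eq_one_Fk N hℓN A hA)

/-- **R-EXIST**: `ReductionInputsModL A N` from good reduction of the two charts `j`, `j⁻¹` in
lifting form. -/
theorem reductionInputsModL_of_GR (hGRfin : GRLift N hℓN A hA j₁ (H16.jK kA N))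
    (hGRinf : GRLift N hℓN A hA j₁⁻¹ (H16.jK kA N)⁻¹) : ReductionInputsModL A N := by
  have htr₁ : Transcendental kA
      (stdRes N hℓN A hA ⟨jL N hℓN A hA, (chartHyp_j N hℓN A hA).tO⟩) := by
    rw [stdRes_jL]; exact H16.transcendental_jK _ N
  have htr₂ : Transcendental kA
      (stdRes N hℓN A hA ⟨(jL N hℓN A hA)⁻¹, (chartHyp_jinv N hℓN A hA).tO⟩) := by
    rw [stdRes_jL_inv]; exact H97.transcendental_inv (H16.transcendental_jK _ N)
  haveI : FiniteDimensional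
      kA⟮stdRes N hℓN A hA ⟨jL N hℓN A hA, (chartHyp_j N hℓN A hA).tO⟩⟯ Fk := by
    rw [stdRes_jL]; exact H16.finiteDimensional_Fk N hℓN A hA
  haveI : Algebra.IsSeparable
      kA⟮stdRes N hℓN A hA ⟨jL N hℓN A hA, (chartHyp_j N hℓN A hA).tO⟩⟯ Fk := by
    rw [stdRes_jL]; exact H16.isSeparable_Fk N hℓN A hA
  haveI : FiniteDimensional
      kA⟮stdRes N hℓN A hA ⟨(jL N hℓN A hA)⁻¹, (chartHyp_jinv N hℓN A hA).tO⟩⟯ Fk := by
    rw [stdRes_jL_inv]
    haveI := H16.finiteDimensional_Fk N hℓN A hA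
    exact H97.finiteDimensional_adjoin_inv _
  haveI : Algebra.IsSeparable
      kA⟮stdRes N hℓN A hA ⟨(jL N hℓN A hA)⁻¹, (chartHyp_jinv N hℓN A hA).tO⟩⟯ Fk := by
    rw [stdRes_jL_inv]
    haveI := H16.isSeparable_Fk N hℓN A hA
    exact H97.isSeparable_adjoin_inv _
  haveI := H97.isDedekindDomain_intRing_of_isSeparable _ htr₁
  haveI := H97.isDedekindDomain_intRing_of_isSeparable _ htr₂
  haveI := H97.isFractionRing_intRing' (k := kA)
    (stdRes N hℓN A hA ⟨jL N hℓN A hA, (chartHyp_j N hℓN A hA).tO⟩)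
  haveI := H97.isFractionRing_intRing' (k := kA)
    (stdRes N hℓN A hA ⟨(jL N hℓN A hA)⁻¹, (chartHyp_jinv N hℓN A hA).tO⟩)
  have halg₁ : Algebra.IsAlgebraic (Algebra.adjoin Qb {jL N hℓN A hA}) FL := by
    rw [jL_eq_jBar]; exact H89.halg_FN N
  have halg₂ : Algebra.IsAlgebraic (Algebra.adjoin Qb {(jL N hℓN A hA)⁻¹}) FL := by
    rw [jL_eq_jBar]; exact H89.halg_inv_FN N
  exact H89.reductionInputsModL_of_charts A N (modData N) (indepK_residueField N hℓN A hA)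
    (sepHyp_j N hℓN A hA hGRfin) (sepHyp_jinv N hℓN A hA hGRinf) halg₁ halg₂

include hℓN hA in
/-- **R-EXIST in the `M.res1` form**: the hypothesis is VERBATIM the `hGR` binder of
`H3.gR_FN_le_gR_Fk_of_GR` (so one pair of route-Q outputs feeds S18 and R-EXIST). -/
theorem reductionInputsModL_of_GR_gaussModel
    (hGR : ∀ M : H3.GaussModel (R0 := A₁) (k := kA) (F1 := F₁)
        (((ℓ : ℕ) : A₁)) (H45.resA0 A ℓ) j₁ jN₁ (H16.jK kA N) (H16.jNK kA N),
      (∀ γ : Fk, IsIntegral (Algebra.adjoin kA {H16.jK kA N}) γ →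
        ∃ (b : F₁) (hb : IsIntegral (Algebra.adjoin A₁ {j₁}) b), M.res1 ⟨b, M.hBO b hb⟩ = γ) ∧
      (∀ γ : Fk, IsIntegral (Algebra.adjoin kA {(H16.jK kA N)⁻¹}) γ →
        ∃ (b : F₁) (hb : IsIntegral (Algebra.adjoin A₁ {j₁⁻¹}) b),
          M.res1 ⟨b, M.hBinfO
            (fun h0 => H16.transcendental_jK kA N (h0 ▸ isAlgebraic_zero)) b hb⟩ = γ)) :
    ReductionInputsModL A N := by
  obtain ⟨M⟩ := H3.nonempty_gaussModel_inst N hℓN A hA
  obtain ⟨hfin, hinf⟩ := hGR M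
  refine reductionInputsModL_of_GR N hℓN A hA (fun γ hγ => ?_) (fun γ hγ => ?_)
  · obtain ⟨b, hb, hres⟩ := hfin γ hγ
    obtain ⟨h, hcomp⟩ := H40.comp_gaussModel N hℓN A hA M b (M.hBO b hb)
    exact ⟨b, hb, h, hcomp.trans hres⟩
  · obtain ⟨b, hb, hres⟩ := hinf γ hγ
    obtain ⟨h, hcomp⟩ := H40.comp_gaussModel N hℓN A hA M b
      (M.hBinfO (fun h0 => H16.transcendental_jK kA N (h0 ▸ isAlgebraic_zero)) b hb)
    exact ⟨b, hb, h, hcomp.trans hres⟩

end Fermat.Agent.S18.H92
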