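import Mathlib
import Fermat.Agent.S18.H13_GRInfA0
import Fermat.Agent.S18.H13_GRFinA0
import Fermat.Agent.S18.H92_RExist

/-!
# S18 / R-EXIST (helper13): `(GR)` and `ReductionInputsModL A N`, hypothesis-free

* `hGR_std` : for every Gauss model `M` of `(A₁, F₁, j₁, jN₁)`, `hGRfin ∧ hGRinf` in the `M.res1`
  form — VERBATIM the `hGR` binder of `H3.gR_FN_le_gR_Fk_of_GR`, `H40.s18_of_GR`,
  `H92.reductionInputsModL_of_GR_gaussModel`.
* `reductionInputsModL_inst` : **R-EXIST**, `ModularCurve.ReductionInputsModL A N` for every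
  `N`, every prime `ℓ ∤ N` and every valuation subring `A` of `ℚ̄` over `ℓ`.
-/

set_option autoImplicit false
set_option linter.unusedSectionVars false
set_option linter.style.haveILetI false
set_option synthInstance.maxHeartbeats 400000
set_option maxHeartbeats 3200000

open Polynomial IntermediateField AlgebraicCurve ModularCurve

namespace Fermat.Agent.S18.H13

open Fermat.Agent.S18

noncomputable section

section RExist

variable (N : ℕ) [NeZero N] {ℓ : ℕ} [hℓ : Fact ℓ.Prime] (hℓN : ¬ ℓ ∣ N)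
  (A : ValuationSubring (AlgebraicClosure ℚ)) (hA : A.LiesOverPrime ℓ)

local notation "kA" => IsLocalRing.ResidueField A
local notation "A₁" => H45.A0 A ℓ
local notation "L₁" => H45.unrCyclo ℓ
local notation "F₁" => modularFunctionFieldFullC (H45.unrCyclo ℓ) N
local notation "j₁" => H16.jK (H45.unrCyclo ℓ) N
local notation "jN₁" => H16.jNK (H45.unrCyclo ℓ) N
local notation "FkA" => modularFunctionFieldFullC (IsLocalRing.ResidueField A) N

include hℓN hA in
/-- **(GR) at the model, unconditional**: both liftings for every Gauss model. -/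
theorem hGR_std :
    ∀ M : H3.GaussModel (R0 := A₁) (k := kA) (F1 := F₁) (Fk := FkA)
        (((ℓ : ℕ) : A₁)) (H45.resA0 A ℓ) j₁ jN₁ (H16.jK kA N) (H16.jNK kA N),
      (∀ γ : FkA, IsIntegral (Algebra.adjoin kA {H16.jK kA N}) γ →
        ∃ (b : F₁) (hb : IsIntegral (Algebra.adjoin A₁ {j₁}) b), M.res1 ⟨b, M.hBO b hb⟩ = γ) ∧
      (∀ γ : FkA, IsIntegral (Algebra.adjoin kA {(H16.jK kA N)⁻¹}) γ →
        ∃ (b : F₁) (hb : IsIntegral (Algebra.adjoin A₁ {j₁⁻¹}) b),
          M.res1 ⟨b, M.hBinfO
            (fun h0 => H16.transcendental_jK kA N (h0 ▸ isAlgebraic_zero)) b hb⟩ = γ) :=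
  fun M => ⟨hGRfin_A0 N hℓN A hA M,
    hGRinf_of_hGRfin_A0 N hℓN A hA M
      (fun h0 => H16.transcendental_jK kA N (h0 ▸ isAlgebraic_zero)) (hGRfin_A0 N hℓN A hA M)⟩

include hℓN hA in
/-- **R-EXIST, hypothesis-free**: the reduction inputs mod `ℓ` exist. -/
theorem reductionInputsModL_inst : ReductionInputsModL A N :=
  H92.reductionInputsModL_of_GR_gaussModel N hℓN A hA (hGR_std N hℓN A hA)

end RExist

end

end Fermat.Agent.S18.H13
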