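/-
S18 library (helper55): **transport of a Gauss model along a ring homomorphism of function
fields** (generic; consumer = the L0 row of the S34 chain, but nothing here is S34-specific).

`𝔐 : H3.GaussModel ϖ π0 x1 θ xb θb` is the Gauss valuation ring `O1 ⊆ F1` with its reduction
`res1 : O1 →+* Fk`.  Let `V : F1 →+* F` be a ring homomorphism into a field `F` carrying a subring
`O` with a reduction `red : O →+* κ` (`κ` a field over `k`) such that elements with non-zero residue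
are invertible in `O`, constants reduce through `π0`, `V x1, V θ ∈ O` and `ϑ := red (V x1)` is
transcendental over `k`.  Then

* `exists_transport` (T1): there is a `k`-linear embedding `τ : Fk →+* κ` with `τ xb = ϑ`,
  `τ θb = red (V θ)`, `V O1 ⊆ O` and `red ∘ V = τ ∘ res1` on `O1`
  ("uniqueness of the Gauss extension", in the form that is used);
* `surjective_of_finrank` (T2): the degree count making `τ` onto;
* `eq_comp_of_kronecker` (T3): two such embeddings `τ` (onto) and `ιb` with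
  `(ιb θb ^ q - τ θb) * (ιb θb - τ θb ^ q) = 0` (Kronecker for the pair `(θ, V θ)`),
  `ιb xb = τ xb ^ q`, `θb` not a `q`-th power in `Fk`, `Fk = k(xb, θb)` satisfy
  `ιb = τ ∘ Fr` for every `k`-linear endomorphism `Fr` of `Fk` with `Fr xb = xb ^ q`,
  `Fr θb = θb ^ q`.
-/
import Fermat.Agent.S18.H3_ChartRing
import Fermat.Agent.S16.H39_GaussEmbed

set_option autoImplicit false
set_option linter.unusedSectionVars false

namespace Fermat.Agent.S18.H55T

open Polynomial Fermat.Agent.S18 Fermat.Agent.S16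

section Push

variable {R0 k F1 Fk κ : Type*} [CommRing R0] [Field k] [Field F1] [Algebra R0 F1]
  [Field Fk] [Algebra k Fk] [Field κ] [Algebra k κ]
  {ϖ : R0} {π0 : R0 →+* k} {x1 θ : F1} {xb θb : Fk}

/-- Push a Gauss model forward along a `k`-linear embedding of the residue field. -/
noncomputable def pushModel (M : H3.GaussModel ϖ π0 x1 θ xb θb) (τ : Fk →+* κ)
    (hτk : ∀ c : k, τ (algebraMap k Fk c) = algebraMap k κ c) :
    H3.GaussModel ϖ π0 x1 θ (τ xb) (τ θb) where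
  O1 := M.O1
  res1 := τ.comp M.res1
  aeval_mem := M.aeval_mem
  res1_aeval := fun s => by
    have h := M.res1_aeval s
    change τ (M.res1 ⟨aeval x1 s, M.aeval_mem s⟩) = _
    rw [h]
    let τA : Fk →ₐ[k] κ := { τ with commutes' := hτk }
    exact (Polynomial.aeval_algHom_apply τA xb (s.map π0)).symm
  θ_mem := M.θ_mem
  res1_θ := by
    change τ (M.res1 ⟨θ, M.θ_mem⟩) = _
    rw [M.res1_θ]
  res1_eq_zero_iff := fun y hy => by
    change τ (M.res1 ⟨y, hy⟩) = 0 ↔ _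
    rw [map_eq_zero]
    exact M.res1_eq_zero_iff y hy
  inv_mem := fun y hy h => by
    apply M.inv_mem y hy
    intro h0
    apply h
    change τ (M.res1 ⟨y, hy⟩) = 0
    rw [h0, map_zero]
  mem_of_isIntegral := M.mem_of_isIntegral
  exists_repr := M.exists_repr

@[simp] theorem pushModel_O1 (M : H3.GaussModel ϖ π0 x1 θ xb θb) (τ : Fk →+* κ)
    (hτk : ∀ c : k, τ (algebraMap k Fk c) = algebraMap k κ c) :
    (pushModel M τ hτk).O1 = M.O1 := rfl

theorem pushModel_res1 (M : H3.GaussModel ϖ π0 x1 θ xb θb) (τ : Fk →+* κ)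
    (hτk : ∀ c : k, τ (algebraMap k Fk c) = algebraMap k κ c) (y : F1) (hy : y ∈ M.O1) :
    (pushModel M τ hτk).res1 ⟨y, hy⟩ = τ (M.res1 ⟨y, hy⟩) := rfl

end Push

section Transport

variable {R0 k F1 Fk κ F : Type*} [CommRing R0] [Field k] [Field F1] [Algebra R0 F1]
  [Field Fk] [Algebra k Fk] [Field κ] [Algebra k κ] [Field F]
  {ϖ : R0} {π0 : R0 →+* k} {x1 θ : F1} {xb θb : Fk}

/-- **(T1) Transport of the Gauss model.** -/
theorem exists_transport (M : H3.GaussModel ϖ π0 x1 θ xb θb)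
    (hπ0 : Function.Surjective π0) (hπϖ : π0 ϖ = 0)
    (hgenk : ∀ γ : Fk, ∃ s : k[X], aeval xb s ≠ 0 ∧ ∃ g : k[X][X],
      aeval xb s * γ = g.eval₂ ((aeval xb : k[X] →ₐ[k] Fk) : k[X] →+* Fk) θb)
    (V : F1 →+* F) (O : Subring F) (red : O →+* κ)
    (hconst : ∀ r : R0, ∃ h : V (algebraMap R0 F1 r) ∈ O,
      red ⟨_, h⟩ = algebraMap k κ (π0 r))
    (hx : V x1 ∈ O) (hθ : V θ ∈ O)
    (htr : Transcendental k (red ⟨V x1, hx⟩))
    (hinv : ∀ (u : F) (hu : u ∈ O), red ⟨u, hu⟩ ≠ 0 → u⁻¹ ∈ O) :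
    ∃ τ : Fk →+* κ, (∀ c : k, τ (algebraMap k Fk c) = algebraMap k κ c) ∧
      τ xb = red ⟨V x1, hx⟩ ∧ τ θb = red ⟨V θ, hθ⟩ ∧
      ∀ (y : F1) (hy : y ∈ M.O1), ∃ h : V y ∈ O, red ⟨V y, h⟩ = τ (M.res1 ⟨y, hy⟩) := by
  classical
  set ϑ : κ := red ⟨V x1, hx⟩ with hϑ
  set ϑθ : κ := red ⟨V θ, hθ⟩ with hϑθ
  -- compatibility on `R0[x1]`
  have hc : ∀ s : R0[X], ∃ h : V (aeval x1 s) ∈ O, red ⟨_, h⟩ = aeval ϑ (s.map π0) :=
    fun s => H3.GaussModel.hc_of_const (k := k) (π0 := π0) (xb := ϑ) V O red hconst ⟨hx, rfl⟩ s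
  -- the bivariate evaluation into `κ`
  let ψ : R0[X][X] →+* κ := H39.eval2bHom π0 ϑ ϑθ
  -- `ψ g` is the residue of `V (g(x1, θ))`
  have hψ : ∀ g : R0[X][X], ∃ h : V (H3.eval2 x1 θ g) ∈ O, red ⟨_, h⟩ = ψ g := by
    intro g
    obtain ⟨hb, hbres⟩ := H3.eval₂_mem_res O red
      (V.comp ((aeval x1 : R0[X] →ₐ[R0] F1) : R0[X] →+* F1))
      (((aeval ϑ : k[X] →ₐ[k] κ) : k[X] →+* κ).comp (mapRingHom π0))
      (fun s => hc s) (V θ) hθ g
    have hVg : V (H3.eval2 x1 θ g) =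
        g.eval₂ (V.comp ((aeval x1 : R0[X] →ₐ[R0] F1) : R0[X] →+* F1)) (V θ) := by
      unfold H3.eval2
      rw [Polynomial.hom_eval₂]
    have hmem : V (H3.eval2 x1 θ g) ∈ O := hVg ▸ hb
    refine ⟨hmem, ?_⟩
    have h2 : (⟨V (H3.eval2 x1 θ g), hmem⟩ : O) =
        ⟨g.eval₂ (V.comp ((aeval x1 : R0[X] →ₐ[R0] F1) : R0[X] →+* F1)) (V θ), hb⟩ :=
      Subtype.ext hVg
    rw [h2, hbres]
    rfl
  have htrinj : Function.Injective (aeval ϑ : k[X] →ₐ[k] κ) :=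
    transcendental_iff_injective.mp htr
  obtain ⟨τ, hτ⟩ := H39.exists_embedding_of_gaussModel M hπ0 hgenk ψ
    (fun s hs => by
      change H3.eval2b π0 ϑ ϑθ (C s) ≠ 0
      rw [H39.eval2b_C]
      intro h0
      exact hs (htrinj (by rw [h0, map_zero])))
    (fun g hg => by
      obtain ⟨h, hh⟩ := hψ g
      rw [← hh]
      have : (⟨V (H3.eval2 x1 θ g), h⟩ : O) = 0 :=
        Subtype.ext (show V (H3.eval2 x1 θ g) = 0 by rw [hg, map_zero])
      rw [this, map_zero])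
    (by
      change H3.eval2b π0 ϑ ϑθ (C (C ϖ)) = 0
      rw [H39.eval2b_C, Polynomial.map_C, hπϖ, map_zero, map_zero])
  -- values of `τ` on constants and generators
  have hτk : ∀ c : k, τ (algebraMap k Fk c) = algebraMap k κ c := by
    intro c
    obtain ⟨r, rfl⟩ := hπ0 c
    have h := hτ (C (C r))
    rw [H39.eval2b_C, Polynomial.map_C, aeval_C] at h
    rw [h]
    change H3.eval2b π0 ϑ ϑθ (C (C r)) = _
    rw [H39.eval2b_C, Polynomial.map_C, aeval_C]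
  have hτx : τ xb = ϑ := by
    have h := hτ (C X)
    rw [H39.eval2b_C, Polynomial.map_X, aeval_X] at h
    rw [h]
    change H3.eval2b π0 ϑ ϑθ (C X) = _
    rw [H39.eval2b_C, Polynomial.map_X, aeval_X]
  have hτθ : τ θb = ϑθ := by
    have h := hτ X
    have e1 : H3.eval2b π0 xb θb (X : R0[X][X]) = θb := by
      unfold H3.eval2b
      rw [eval₂_X]
    have e2 : ψ X = ϑθ := by
      change H3.eval2b π0 ϑ ϑθ (X : R0[X][X]) = ϑθ
      unfold H3.eval2b
      rw [eval₂_X]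
    rw [e1, e2] at h
    exact h
  refine ⟨τ, hτk, hτx, hτθ, ?_⟩
  -- comparison with the pushed model
  intro y hy
  have hcmp := (pushModel M τ hτk).comparison V O red
    (by rw [hτx]; exact htr)
    (fun s => by
      obtain ⟨h, hh⟩ := hc s
      exact ⟨h, by rw [hh, hτx]⟩)
    ⟨hθ, hτθ.symm⟩ hinv y hy
  exact hcmp


/-- **(T1), `AlgHom` form.** -/
theorem exists_transport_algHom (M : H3.GaussModel ϖ π0 x1 θ xb θb)
    (hπ0 : Function.Surjective π0) (hπϖ : π0 ϖ = 0)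
    (hgenk : ∀ γ : Fk, ∃ s : k[X], aeval xb s ≠ 0 ∧ ∃ g : k[X][X],
      aeval xb s * γ = g.eval₂ ((aeval xb : k[X] →ₐ[k] Fk) : k[X] →+* Fk) θb)
    (V : F1 →+* F) (O : Subring F) (red : O →+* κ)
    (hconst : ∀ r : R0, ∃ h : V (algebraMap R0 F1 r) ∈ O,
      red ⟨_, h⟩ = algebraMap k κ (π0 r))
    (hx : V x1 ∈ O) (hθ : V θ ∈ O)
    (htr : Transcendental k (red ⟨V x1, hx⟩))
    (hinv : ∀ (u : F) (hu : u ∈ O), red ⟨u, hu⟩ ≠ 0 → u⁻¹ ∈ O) :
    ∃ τ : Fk →ₐ[k] κ, τ xb = red ⟨V x1, hx⟩ ∧ τ θb = red ⟨V θ, hθ⟩ ∧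
      ∀ (y : F1) (hy : y ∈ M.O1), ∃ h : V y ∈ O, red ⟨V y, h⟩ = τ (M.res1 ⟨y, hy⟩) := by
  obtain ⟨τ, hτk, h1, h2, h3⟩ :=
    exists_transport M hπ0 hπϖ hgenk V O red hconst hx hθ htr hinv
  exact ⟨{ τ with commutes' := hτk }, h1, h2, h3⟩

end Transport

section Degree

variable {k Fk κ : Type*} [Field k] [Field Fk] [Algebra k Fk] [Field κ] [Algebra k κ]

open IntermediateField in
/-- **(T2) Degree count.** A `k`-embedding `τ : Fk → κ` with
`[Fk : k(xb)] = n = [κ : k(τ xb)]`, `n ≠ 0`, is onto. -/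
theorem surjective_of_finrank (τ : Fk →ₐ[k] κ) (xb : Fk) (n : ℕ) (hn : n ≠ 0)
    (h1 : Module.finrank k⟮xb⟯ Fk = n) (h2 : Module.finrank k⟮τ xb⟯ κ = n) :
    Function.Surjective τ := by
  have hmap : (k⟮xb⟯).map τ = k⟮τ xb⟯ := by
    rw [IntermediateField.adjoin_map, Set.image_singleton]
  have hle : k⟮τ xb⟯ ≤ τ.fieldRange := by
    rw [← hmap, AlgHom.fieldRange_eq_map]
    exact IntermediateField.map_mono τ le_top
  have h3 : IntermediateField.relfinrank (k⟮τ xb⟯) τ.fieldRange = n := by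
    rw [← hmap, AlgHom.fieldRange_eq_map, IntermediateField.relfinrank_map_map,
      IntermediateField.relfinrank_top_right, h1]
  have h4 := IntermediateField.relfinrank_mul_finrank_top hle
  rw [h3, h2] at h4
  have h5 : Module.finrank τ.fieldRange κ = 1 := by
    have : n * Module.finrank τ.fieldRange κ = n * 1 := by rw [h4, mul_one]
    exact Nat.eq_of_mul_eq_mul_left (Nat.pos_of_ne_zero hn) this
  have h6 : τ.fieldRange = ⊤ := IntermediateField.finrank_eq_one_iff_eq_top.mp h5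
  intro z
  have hz : z ∈ τ.fieldRange := h6 ▸ IntermediateField.mem_top
  exact hz

end Degree

section Kronecker

variable {k Fk κ : Type*} [Field k] [Field Fk] [Algebra k Fk] [Field κ] [Algebra k κ]

/-- Two `k`-embeddings of a field generated by `xb, θb` agreeing on the generators are equal. -/
theorem algHom_eq_of_adjoin_pair (α β : Fk →ₐ[k] κ) (xb θb : Fk)
    (hgen : IntermediateField.adjoin k {xb, θb} = ⊤) (hx : α xb = β xb) (hθ : α θb = β θb) :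
    α = β := by
  let E : IntermediateField k Fk :=
    { toSubalgebra := AlgHom.equalizer α β
      inv_mem' := fun x hx => by
        change α x⁻¹ = β x⁻¹
        rw [map_inv₀, map_inv₀]
        congr 1 }
  have hE : IntermediateField.adjoin k {xb, θb} ≤ E := by
    rw [IntermediateField.adjoin_le_iff]
    intro z hz
    rcases hz with rfl | rfl
    · exact hx
    · exact hθ
  rw [hgen] at hE
  ext z
  exact hE (IntermediateField.mem_top : z ∈ (⊤ : IntermediateField k Fk))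

/-- If `α` is onto and `θb` is not a `q`-th power, then `α θb ≠ β θb ^ q`
for any ring homomorphism `β` with values in the same field. -/
theorem ne_pow_of_surjective (α β : Fk →+* κ) (hα : Function.Surjective α) (q : ℕ) (θb : Fk)
    (hnp : ∀ y : Fk, y ^ q ≠ θb) : α θb ≠ β θb ^ q := by
  intro h
  obtain ⟨y, hy⟩ := hα (β θb)
  apply hnp y
  apply α.injective
  rw [map_pow, hy, h]

/-- **(T3) Type-0 exclusion.** `α` onto, `(α θb ^ q - β θb) * (α θb - β θb ^ q) = 0`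
(Kronecker), `β xb = α xb ^ q`, `θb` not a `q`-th power, `Fk = k(xb, θb)`:
then `β = α ∘ Fr` for every `k`-endomorphism `Fr` of `Fk` raising `xb, θb` to the `q`-th power. -/
theorem eq_comp_of_kronecker (α β : Fk →ₐ[k] κ) (Fr : Fk →ₐ[k] Fk) (q : ℕ) (xb θb : Fk)
    (hα : Function.Surjective α)
    (hgen : IntermediateField.adjoin k {xb, θb} = ⊤)
    (hx : β xb = α xb ^ q)
    (hK : (α θb ^ q - β θb) * (α θb - β θb ^ q) = 0)
    (hnp : ∀ y : Fk, y ^ q ≠ θb)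
    (hFrx : Fr xb = xb ^ q) (hFrθ : Fr θb = θb ^ q) :
    β = α.comp Fr := by
  have h2 : α θb ^ q - β θb = 0 := by
    rcases mul_eq_zero.mp hK with h | h
    · exact h
    · exact absurd (sub_eq_zero.mp h)
        (ne_pow_of_surjective (α : Fk →+* κ) (β : Fk →+* κ) hα q θb hnp)
  apply algHom_eq_of_adjoin_pair β (α.comp Fr) xb θb hgen
  · rw [AlgHom.comp_apply, hFrx, map_pow, hx]
  · rw [AlgHom.comp_apply, hFrθ, map_pow]
    exact (sub_eq_zero.mp h2).symm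

/-- **(T3'), the other prime.** `α` onto, `(β θb ^ q - α θb) * (β θb - α θb ^ q) = 0`,
`β xb = α xb ^ q`: again `β = α ∘ Fr`. -/
theorem eq_comp_of_kronecker' (α β : Fk →ₐ[k] κ) (Fr : Fk →ₐ[k] Fk) (q : ℕ) (xb θb : Fk)
    (hα : Function.Surjective α)
    (hgen : IntermediateField.adjoin k {xb, θb} = ⊤)
    (hx : β xb = α xb ^ q)
    (hK : (β θb ^ q - α θb) * (β θb - α θb ^ q) = 0)
    (hnp : ∀ y : Fk, y ^ q ≠ θb)
    (hFrx : Fr xb = xb ^ q) (hFrθ : Fr θb = θb ^ q) :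
    β = α.comp Fr := by
  have h2 : β θb - α θb ^ q = 0 := by
    rcases mul_eq_zero.mp hK with h | h
    · exact absurd (sub_eq_zero.mp h).symm
        (ne_pow_of_surjective (α : Fk →+* κ) (β : Fk →+* κ) hα q θb hnp)
    · exact h
  apply algHom_eq_of_adjoin_pair β (α.comp Fr) xb θb hgen
  · rw [AlgHom.comp_apply, hFrx, map_pow, hx]
  · rw [AlgHom.comp_apply, hFrθ, map_pow]
    exact sub_eq_zero.mp h2

end Kronecker

section Assemble

variable {R0 k F1 Fk κ F : Type*} [CommRing R0] [Field k] [Field F1] [Algebra R0 F1]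
  [Field Fk] [Algebra k Fk] [Field κ] [Algebra k κ] [Field F]
  {ϖ : R0} {π0 : R0 →+* k} {x1 θ : F1} {xb θb : Fk}

open IntermediateField in
/-- **(T4) The prime `P_0`, abstract form.** Two ring homomorphisms `ι V : F1 → F`
(`ι` = inclusion of the lower level, `V` = the substitution `t ↦ t ^ q`), a subring `O ⊆ F` with
reduction `red : O → κ` such that `red (ι x1) = red (V x1) ^ q` (Kummer–Dedekind prime `P_0`),
`red (V x1)` transcendental, the Kronecker alternative for the pair `(ι θ, V θ)`, the degree count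
`[Fk : k(xb)] = [κ : k(red (V x1))]`, `θb` not a `q`-th power.  Then `κ ≃ Fk` in such a way that
`red ∘ V = τ ∘ res1` and `red ∘ ι = τ ∘ Fr ∘ res1` on the Gauss ring `O1`. -/
theorem exists_equiv_P0 (M : H3.GaussModel ϖ π0 x1 θ xb θb)
    (hπ0 : Function.Surjective π0) (hπϖ : π0 ϖ = 0)
    (hgenk : ∀ γ : Fk, ∃ s : k[X], aeval xb s ≠ 0 ∧ ∃ g : k[X][X],
      aeval xb s * γ = g.eval₂ ((aeval xb : k[X] →ₐ[k] Fk) : k[X] →+* Fk) θb)
    (ι V : F1 →+* F) (O : Subring F) (red : O →+* κ)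
    (hcι : ∀ r : R0, ∃ h : ι (algebraMap R0 F1 r) ∈ O, red ⟨_, h⟩ = algebraMap k κ (π0 r))
    (hcV : ∀ r : R0, ∃ h : V (algebraMap R0 F1 r) ∈ O, red ⟨_, h⟩ = algebraMap k κ (π0 r))
    (hxι : ι x1 ∈ O) (hθι : ι θ ∈ O) (hxV : V x1 ∈ O) (hθV : V θ ∈ O)
    (htr : Transcendental k (red ⟨V x1, hxV⟩))
    (hinv : ∀ (u : F) (hu : u ∈ O), red ⟨u, hu⟩ ≠ 0 → u⁻¹ ∈ O)
    (q : ℕ) (hq : 0 < q)
    (hxq : red ⟨ι x1, hxι⟩ = red ⟨V x1, hxV⟩ ^ q)
    (hK : (red ⟨ι θ, hθι⟩ ^ q - red ⟨V θ, hθV⟩) * (red ⟨ι θ, hθι⟩ - red ⟨V θ, hθV⟩ ^ q) = 0)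
    (n : ℕ) (hn : n ≠ 0) (h1 : Module.finrank k⟮xb⟯ Fk = n)
    (h2 : Module.finrank k⟮red ⟨V x1, hxV⟩⟯ κ = n)
    (hgen : IntermediateField.adjoin k {xb, θb} = ⊤) (hnp : ∀ y : Fk, y ^ q ≠ θb)
    (Fr : Fk →ₐ[k] Fk) (hFrx : Fr xb = xb ^ q) (hFrθ : Fr θb = θb ^ q) :
    ∃ τ : Fk ≃ₐ[k] κ, τ xb = red ⟨V x1, hxV⟩ ∧ τ θb = red ⟨V θ, hθV⟩ ∧
      (∀ (y : F1) (hy : y ∈ M.O1), ∃ h : V y ∈ O, red ⟨V y, h⟩ = τ (M.res1 ⟨y, hy⟩)) ∧
      (∀ (y : F1) (hy : y ∈ M.O1), ∃ h : ι y ∈ O, red ⟨ι y, h⟩ = τ (Fr (M.res1 ⟨y, hy⟩))) := by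
  obtain ⟨τ, hτx, hτθ, hτ⟩ :=
    exists_transport_algHom M hπ0 hπϖ hgenk V O red hcV hxV hθV htr hinv
  obtain ⟨ιb, hιx, hιθ, hιb⟩ :=
    exists_transport_algHom M hπ0 hπϖ hgenk ι O red hcι hxι hθι
      (by rw [hxq]; exact htr.pow hq) hinv
  have hsurj : Function.Surjective τ :=
    surjective_of_finrank τ xb n hn h1 (by rw [hτx]; exact h2)
  have hcomp : ιb = τ.comp Fr :=
    eq_comp_of_kronecker' τ ιb Fr q xb θb hsurj hgen (by rw [hιx, hτx, hxq])
      (by rw [hιθ, hτθ]; exact hK) hnp hFrx hFrθ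
  refine ⟨AlgEquiv.ofBijective τ ⟨τ.injective, hsurj⟩, hτx, hτθ, hτ, ?_⟩
  intro y hy
  obtain ⟨h, hh⟩ := hιb y hy
  refine ⟨h, ?_⟩
  rw [hh, hcomp]
  rfl

/-- **(T4') The prime `P_∞`, abstract form.** Here the residue field is `Fk` itself,
`red (ι x1) = xb`, `red (ι θ) = θb`, `red (V x1) = xb ^ q` and the Kronecker alternative holds for
`(ι θ, V θ)`.  Then `red ∘ ι = res1` and `red ∘ V = Fr ∘ res1` on `O1`. -/
theorem transport_Pinf (M : H3.GaussModel ϖ π0 x1 θ xb θb)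
    (hπ0 : Function.Surjective π0) (hπϖ : π0 ϖ = 0)
    (hgenk : ∀ γ : Fk, ∃ s : k[X], aeval xb s ≠ 0 ∧ ∃ g : k[X][X],
      aeval xb s * γ = g.eval₂ ((aeval xb : k[X] →ₐ[k] Fk) : k[X] →+* Fk) θb)
    (ι V : F1 →+* F) (O : Subring F) (red : O →+* Fk)
    (hcι : ∀ r : R0, ∃ h : ι (algebraMap R0 F1 r) ∈ O, red ⟨_, h⟩ = algebraMap k Fk (π0 r))
    (hcV : ∀ r : R0, ∃ h : V (algebraMap R0 F1 r) ∈ O, red ⟨_, h⟩ = algebraMap k Fk (π0 r))
    (hxι : ι x1 ∈ O) (hθι : ι θ ∈ O) (hxV : V x1 ∈ O) (hθV : V θ ∈ O)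
    (htr : Transcendental k xb)
    (hinv : ∀ (u : F) (hu : u ∈ O), red ⟨u, hu⟩ ≠ 0 → u⁻¹ ∈ O)
    (q : ℕ) (hq : 0 < q)
    (hιx : red ⟨ι x1, hxι⟩ = xb) (hιθ : red ⟨ι θ, hθι⟩ = θb)
    (hVx : red ⟨V x1, hxV⟩ = xb ^ q)
    (hK : (θb ^ q - red ⟨V θ, hθV⟩) * (θb - red ⟨V θ, hθV⟩ ^ q) = 0)
    (hgen : IntermediateField.adjoin k {xb, θb} = ⊤) (hnp : ∀ y : Fk, y ^ q ≠ θb)
    (Fr : Fk →ₐ[k] Fk) (hFrx : Fr xb = xb ^ q) (hFrθ : Fr θb = θb ^ q) :
    (∀ (y : F1) (hy : y ∈ M.O1), ∃ h : ι y ∈ O, red ⟨ι y, h⟩ = M.res1 ⟨y, hy⟩) ∧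
      (∀ (y : F1) (hy : y ∈ M.O1), ∃ h : V y ∈ O, red ⟨V y, h⟩ = Fr (M.res1 ⟨y, hy⟩)) := by
  obtain ⟨α, hαx, hαθ, hα⟩ :=
    exists_transport_algHom M hπ0 hπϖ hgenk ι O red hcι hxι hθι (by rw [hιx]; exact htr) hinv
  obtain ⟨β, hβx, hβθ, hβ⟩ :=
    exists_transport_algHom M hπ0 hπϖ hgenk V O red hcV hxV hθV
      (by rw [hVx]; exact htr.pow hq) hinv
  have hαid : α = AlgHom.id k Fk :=
    algHom_eq_of_adjoin_pair α (AlgHom.id k Fk) xb θb hgen (by rw [hαx, hιx]; rfl)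
      (by rw [hαθ, hιθ]; rfl)
  have hβFr : β = (AlgHom.id k Fk).comp Fr :=
    eq_comp_of_kronecker (AlgHom.id k Fk) β Fr q xb θb Function.surjective_id hgen
      (by rw [hβx, hVx]; rfl) (by rw [hβθ]; exact hK) hnp hFrx hFrθ
  refine ⟨fun y hy => ?_, fun y hy => ?_⟩
  · obtain ⟨h, hh⟩ := hα y hy
    exact ⟨h, by rw [hh, hαid]; rfl⟩
  · obtain ⟨h, hh⟩ := hβ y hy
    exact ⟨h, by rw [hh, hβFr]; rfl⟩

end Assemble

/-! ### Charts: residues of integral elements, and ontoness -/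

section Chart

variable {R0 k κ F : Type*} [CommRing R0] [Field k] [Field κ] [Algebra k κ] [Field F]
  [Algebra R0 F] {π0 : R0 →+* k}

/-- Residues of elements integral over `R0[u]` are integral over `k[ū]`
(generic subring with reduction). -/
theorem isIntegral_red_adjoin (O : Subring F) (red : O →+* κ)
    (hconst : ∀ r : R0, ∃ h : algebraMap R0 F r ∈ O, red ⟨_, h⟩ = algebraMap k κ (π0 r))
    {u b : F} (hu : u ∈ O) (hbO : b ∈ O) (hb : IsIntegral (Algebra.adjoin R0 {u}) b) :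
    IsIntegral (Algebra.adjoin k {red ⟨u, hu⟩}) (red ⟨b, hbO⟩) := by
  obtain ⟨p, hpm, hp⟩ := (H3.isIntegral_adjoin_iff u b).mp hb
  rw [H3.isIntegral_adjoin_iff]
  refine ⟨p.map (mapRingHom π0), hpm.map _, ?_⟩
  rw [eval₂_map]
  have hc : ∀ s : R0[X], ∃ h : (RingHom.id F) (aeval u s) ∈ O,
      red ⟨_, h⟩ = aeval (red ⟨u, hu⟩) (s.map π0) :=
    fun s => H3.GaussModel.hc_of_const (k := k) (π0 := π0) (x1 := u) (xb := red ⟨u, hu⟩)
      (RingHom.id F) O red hconst ⟨hu, rfl⟩ s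
  obtain ⟨h, hh⟩ := H3.eval₂_mem_res O red
    ((aeval u : R0[X] →ₐ[R0] F) : R0[X] →+* F)
    (((aeval (red ⟨u, hu⟩) : k[X] →ₐ[k] κ) : k[X] →+* κ).comp (mapRingHom π0))
    (fun s => hc s) b hbO p
  rw [← hh]
  have : (⟨p.eval₂ ((aeval u : R0[X] →ₐ[R0] F) : R0[X] →+* F) b, h⟩ : O) = 0 :=
    Subtype.ext hp
  rw [this, map_zero]

/-- Elements integral over `R0[u]`, `u ∈ O`, lie in `O` when `O` is integrally closed in `F`
and contains the constants. -/
theorem mem_of_isIntegral_adjoin_of_closed (O : Subring F)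
    (hOic : ∀ y : F, IsIntegral O y → y ∈ O) (hconst : ∀ r : R0, algebraMap R0 F r ∈ O)
    {u b : F} (hu : u ∈ O) (hb : IsIntegral (Algebra.adjoin R0 {u}) b) : b ∈ O := by
  obtain ⟨p, hpm, hp⟩ := (H3.isIntegral_adjoin_iff u b).mp hb
  apply hOic
  have hmem : ∀ s : R0[X], aeval u s ∈ O := by
    intro s
    rw [aeval_def, eval₂_eq_sum_range]
    exact O.sum_mem fun i _ => O.mul_mem (hconst _) (O.pow_mem hu i)
  let c : R0[X] →+* O :=
    ((aeval u : R0[X] →ₐ[R0] F) : R0[X] →+* F).codRestrict O hmem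
  refine ⟨p.map c, hpm.map _, ?_⟩
  rw [eval₂_map]
  exact hp

end Chart

section ChartAlg

variable {k Fk κ : Type*} [Field k] [Field Fk] [Algebra k Fk] [Field κ] [Algebra k κ]

/-- integrality over `k[x ^ q]` implies integrality over `k[x]`. -/
theorem isIntegral_adjoin_of_pow {x z : Fk} (q : ℕ)
    (hz : IsIntegral (Algebra.adjoin k {x ^ q}) z) : IsIntegral (Algebra.adjoin k {x}) z := by
  obtain ⟨p, hpm, hp⟩ := (H3.isIntegral_adjoin_iff (x ^ q) z).mp hz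
  rw [H3.isIntegral_adjoin_iff]
  let e : k[X] →+* k[X] := (Polynomial.aeval (X ^ q : k[X]) : k[X] →ₐ[k] k[X])
  refine ⟨p.map e, hpm.map _, ?_⟩
  rw [eval₂_map]
  have : ((aeval x : k[X] →ₐ[k] Fk) : k[X] →+* Fk).comp e =
      ((aeval (x ^ q) : k[X] →ₐ[k] Fk) : k[X] →+* Fk) := by
    ext
    · simp [e]
    · simp [e]
  rw [this]
  exact hp

/-- integrality over `k[x]` is transported by a `k`-algebra homomorphism. -/
theorem isIntegral_adjoin_map (f : Fk →ₐ[k] κ) {x z : Fk}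
    (hz : IsIntegral (Algebra.adjoin k {x}) z) : IsIntegral (Algebra.adjoin k {f x}) (f z) := by
  obtain ⟨p, hpm, hp⟩ := (H3.isIntegral_adjoin_iff x z).mp hz
  rw [H3.isIntegral_adjoin_iff]
  refine ⟨p, hpm, ?_⟩
  have h1 : (f : Fk →+* κ).comp ((aeval x : k[X] →ₐ[k] Fk) : k[X] →+* Fk) =
      ((aeval (f x) : k[X] →ₐ[k] κ) : k[X] →+* κ) := by
    ext
    · simp
    · simp
  have h2 := Polynomial.hom_eval₂ p ((aeval x : k[X] →ₐ[k] Fk) : k[X] →+* Fk) (f : Fk →+* κ) z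
  rw [hp, map_zero, h1] at h2
  exact h2.symm

end ChartAlg

section Trans

variable {R F : Type*} [CommRing R] [Field F] [Algebra R F]

/-- transitivity of integrality over `R[u]`: `u'` integral over `R[u]`, `x` integral over `R[u']`
⟹ `x` integral over `R[u]`. -/
theorem isIntegral_adjoin_trans {u u' x : F} (hu' : IsIntegral (Algebra.adjoin R {u}) u')
    (hx : IsIntegral (Algebra.adjoin R {u'}) x) : IsIntegral (Algebra.adjoin R {u}) x := by
  set S := Algebra.adjoin R {u} with hS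
  let C : Subalgebra S F := integralClosure S F
  have hle : ∀ y ∈ Algebra.adjoin R {u'}, y ∈ C := by
    intro y hy
    induction hy using Algebra.adjoin_induction with
    | mem z hz =>
      rw [Set.mem_singleton_iff] at hz
      subst hz
      exact hu'
    | algebraMap r =>
      have : algebraMap R F r = algebraMap S F (algebraMap R S r) :=
        IsScalarTower.algebraMap_apply R S F r
      rw [this]
      exact C.algebraMap_mem _
    | add a b _ _ ha hb => exact C.add_mem ha hb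
    | mul a b _ _ ha hb => exact C.mul_mem ha hb
  obtain ⟨p, hpm, hp⟩ := hx
  let i : Algebra.adjoin R {u'} →+* C :=
    (algebraMap (Algebra.adjoin R {u'}) F).codRestrict C fun y => hle y y.2
  have hxC : IsIntegral C x := by
    refine ⟨p.map i, hpm.map _, ?_⟩
    rw [eval₂_map]
    exact hp
  exact isIntegral_trans (R := S) (A := C) x hxC

end Trans

section Red2

variable {R0 k F1 Fk κ F : Type*} [CommRing R0] [Field k] [Field F1] [Algebra R0 F1]
  [Field Fk] [Algebra k Fk] [Field κ] [Algebra k κ] [Field F] [Algebra R0 F]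
  {ϖ : R0} {π0 : R0 →+* k} {x1 θ : F1} {xb θb : Fk}

/-- integrality over `R0[x1]` is transported by an `R0`-linear ring homomorphism. -/
theorem isIntegral_adjoin_map_ringHom (V : F1 →+* F)
    (hV : ∀ r : R0, V (algebraMap R0 F1 r) = algebraMap R0 F r) {x z : F1}
    (hz : IsIntegral (Algebra.adjoin R0 {x}) z) : IsIntegral (Algebra.adjoin R0 {V x}) (V z) := by
  obtain ⟨p, hpm, hp⟩ := (H3.isIntegral_adjoin_iff x z).mp hz
  rw [H3.isIntegral_adjoin_iff]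
  refine ⟨p, hpm, ?_⟩
  have h1 : V.comp ((aeval x : R0[X] →ₐ[R0] F1) : R0[X] →+* F1) =
      ((aeval (V x) : R0[X] →ₐ[R0] F) : R0[X] →+* F) := by
    ext r
    · simpa using hV r
    · simp
  have h2 := Polynomial.hom_eval₂ p ((aeval x : R0[X] →ₐ[R0] F1) : R0[X] →+* F1) V z
  rw [hp, map_zero, h1] at h2
  exact h2.symm

/-- **(T5a) `red₂ := τ⁻¹ ∘ red` maps the chart `B = integral closure of R0[ι x1]` into the
integral closure of `k[xb]` in `Fk`.** -/
theorem isIntegral_symm_red (τ : Fk ≃ₐ[k] κ) (O : Subring F) (red : O →+* κ)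
    (hconst : ∀ r : R0, ∃ h : algebraMap R0 F r ∈ O, red ⟨_, h⟩ = algebraMap k κ (π0 r))
    (hOic : ∀ y : F, IsIntegral O y → y ∈ O)
    {u : F} (hu : u ∈ O) (q : ℕ) (hτq : red ⟨u, hu⟩ = τ xb ^ q)
    {b : F} (hb : IsIntegral (Algebra.adjoin R0 {u}) b) :
    ∃ hbO : b ∈ O, IsIntegral (Algebra.adjoin k {xb}) (τ.symm (red ⟨b, hbO⟩)) := by
  have hbO : b ∈ O :=
    mem_of_isIntegral_adjoin_of_closed O hOic (fun r => (hconst r).1) hu hb
  refine ⟨hbO, ?_⟩
  have h1 := isIntegral_red_adjoin (π0 := π0) O red hconst hu hbO hb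
  rw [hτq] at h1
  have h2 := isIntegral_adjoin_map (τ.symm : κ →ₐ[k] Fk) h1
  have h3 : (τ.symm : κ →ₐ[k] Fk) (τ xb ^ q) = xb ^ q := by
    rw [map_pow]
    congr 1
    exact τ.symm_apply_apply xb
  rw [h3] at h2
  exact isIntegral_adjoin_of_pow q h2

/-- **(T5b) ontoness of `red₂` on the chart**, from (GR) at the lower level:
every `γ ∈ Fk` integral over `k[xb]` is `τ⁻¹ (red (V b))` with `V b` integral over `R0[u]`. -/
theorem exists_symm_red_eq (M : H3.GaussModel ϖ π0 x1 θ xb θb) (τ : Fk ≃ₐ[k] κ)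
    (V : F1 →+* F) (hV : ∀ r : R0, V (algebraMap R0 F1 r) = algebraMap R0 F r)
    (O : Subring F) (red : O →+* κ)
    (hτV : ∀ (y : F1) (hy : y ∈ M.O1), ∃ h : V y ∈ O, red ⟨V y, h⟩ = τ (M.res1 ⟨y, hy⟩))
    {u : F} (hVint : IsIntegral (Algebra.adjoin R0 {u}) (V x1))
    (hGR : ∀ γ : Fk, IsIntegral (Algebra.adjoin k {xb}) γ →
      ∃ (b : F1) (hb : IsIntegral (Algebra.adjoin R0 {x1}) b), M.res1 ⟨b, M.hBO b hb⟩ = γ)
    (γ : Fk) (hγ : IsIntegral (Algebra.adjoin k {xb}) γ) :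
    ∃ (b : F) (_ : IsIntegral (Algebra.adjoin R0 {u}) b) (hbO : b ∈ O),
      τ.symm (red ⟨b, hbO⟩) = γ := by
  obtain ⟨bM, hbM, hres⟩ := hGR γ hγ
  obtain ⟨h, hh⟩ := hτV bM (M.hBO bM hbM)
  refine ⟨V bM, isIntegral_adjoin_trans hVint (isIntegral_adjoin_map_ringHom V hV hbM), h, ?_⟩
  rw [hh, hres]
  exact τ.symm_apply_apply γ

end Red2

end Fermat.Agent.S18.H55T
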