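/-
S18 library (helper55): chart form of `H55_GaussTransport` for an ARBITRARY chart coordinate
(`u = j`, `j⁻¹`, `J = j * j_q`, `J⁻¹`, …).

* `isIntegral_symm_red_of_coord` (T5a'): if the residue of the chart coordinate `u` is integral over
  `k[w]` then `τ⁻¹ ∘ red` maps the chart `integral closure of R0[u]` into the integral closure of
  `k[w]` in `Fk`;
* `exists_symm_red_eq_of_coord` (T5b'): ontoness, from a lifting property (GR) at the lower level
  for the chart `R0[c]` and integrality of `V c` over `R0[u]`.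
-/
import Fermat.Agent.S18.H55_GaussTransport

set_option autoImplicit false
set_option linter.unusedSectionVars false

namespace Fermat.Agent.S18.H55T

open Polynomial Fermat.Agent.S18

section

variable {R0 k F1 Fk κ F : Type*} [CommRing R0] [Field k] [Field F1] [Algebra R0 F1]
  [Field Fk] [Algebra k Fk] [Field κ] [Algebra k κ] [Field F] [Algebra R0 F]
  {ϖ : R0} {π0 : R0 →+* k} {x1 θ : F1} {xb θb : Fk}

/-- elements of `k[w]` are integral over `k[w]`. -/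
theorem isIntegral_of_mem_adjoin {w z : Fk} (hz : z ∈ Algebra.adjoin k {w}) :
    IsIntegral (Algebra.adjoin k {w}) z :=
  isIntegral_algebraMap (R := Algebra.adjoin k {w}) (A := Fk) (x := ⟨z, hz⟩)

theorem isIntegral_adjoin_pow_self (w : Fk) (m : ℕ) :
    IsIntegral (Algebra.adjoin k {w}) (w ^ m) :=
  isIntegral_of_mem_adjoin
    ((Algebra.adjoin k {w}).pow_mem (Algebra.self_mem_adjoin_singleton k w) m)

/-- **(T5a')** -/
theorem isIntegral_symm_red_of_coord (τ : Fk ≃ₐ[k] κ) (O : Subring F) (red : O →+* κ)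
    (hconst : ∀ r : R0, ∃ h : algebraMap R0 F r ∈ O, red ⟨_, h⟩ = algebraMap k κ (π0 r))
    (hOic : ∀ y : F, IsIntegral O y → y ∈ O)
    {u : F} (hu : u ∈ O) {w : Fk}
    (hw : IsIntegral (Algebra.adjoin k {w}) (τ.symm (red ⟨u, hu⟩)))
    {b : F} (hb : IsIntegral (Algebra.adjoin R0 {u}) b) :
    ∃ hbO : b ∈ O, IsIntegral (Algebra.adjoin k {w}) (τ.symm (red ⟨b, hbO⟩)) := by
  have hbO : b ∈ O :=
    mem_of_isIntegral_adjoin_of_closed O hOic (fun r => (hconst r).1) hu hb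
  refine ⟨hbO, ?_⟩
  have h1 := isIntegral_red_adjoin (π0 := π0) O red hconst hu hbO hb
  have h2 := isIntegral_adjoin_map (τ.symm : κ →ₐ[k] Fk) h1
  exact isIntegral_adjoin_trans hw h2

/-- **(T5b')** -/
theorem exists_symm_red_eq_of_coord (M : H3.GaussModel ϖ π0 x1 θ xb θb) (τ : Fk ≃ₐ[k] κ)
    (V : F1 →+* F) (hV : ∀ r : R0, V (algebraMap R0 F1 r) = algebraMap R0 F r)
    (O : Subring F) (red : O →+* κ)
    (hτV : ∀ (y : F1) (hy : y ∈ M.O1), ∃ h : V y ∈ O, red ⟨V y, h⟩ = τ (M.res1 ⟨y, hy⟩))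
    {c : F1} {u : F} {w : Fk} (hVint : IsIntegral (Algebra.adjoin R0 {u}) (V c))
    (hGR : ∀ γ : Fk, IsIntegral (Algebra.adjoin k {w}) γ →
      ∃ (b : F1) (hbO : b ∈ M.O1), IsIntegral (Algebra.adjoin R0 {c}) b ∧ M.res1 ⟨b, hbO⟩ = γ)
    (γ : Fk) (hγ : IsIntegral (Algebra.adjoin k {w}) γ) :
    ∃ (b : F) (_ : IsIntegral (Algebra.adjoin R0 {u}) b) (hbO : b ∈ O),
      τ.symm (red ⟨b, hbO⟩) = γ := by
  obtain ⟨bM, hbMO, hbM, hres⟩ := hGR γ hγ
  obtain ⟨h, hh⟩ := hτV bM hbMO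
  refine ⟨V bM, isIntegral_adjoin_trans hVint (isIntegral_adjoin_map_ringHom V hV hbM), h, ?_⟩
  rw [hh, hres]
  exact τ.symm_apply_apply γ

/-- the same with a composite `τ ∘ Fr` (the `ι`-side at `P_0`): no ontoness claim, only the
value. -/
theorem symm_red_eq_of_comp (M : H3.GaussModel ϖ π0 x1 θ xb θb) (τ : Fk ≃ₐ[k] κ)
    (Fr : Fk →ₐ[k] Fk) (ι : F1 →+* F) (O : Subring F) (red : O →+* κ)
    (hτι : ∀ (y : F1) (hy : y ∈ M.O1), ∃ h : ι y ∈ O, red ⟨ι y, h⟩ = τ (Fr (M.res1 ⟨y, hy⟩)))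
    (y : F1) (hy : y ∈ M.O1) :
    ∃ h : ι y ∈ O, τ.symm (red ⟨ι y, h⟩) = Fr (M.res1 ⟨y, hy⟩) := by
  obtain ⟨h, hh⟩ := hτι y hy
  exact ⟨h, by rw [hh]; exact τ.symm_apply_apply _⟩

end

end Fermat.Agent.S18.H55T
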