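import Mathlib
import Fermat.Agent.S18.H26_BaseLineHes
import Fermat.Agent.S18.H40_CechFG

/-!
# S18 / (GR) route Q: the chart ring `R0 = A₁[j1] ⊆ F1` against the base line `R' = LineRing f`

Plumbing for `H96.isIntegrallyClosed_specialFibre` with `R0 := ↥(Algebra.adjoin A₁ {j1})`,
`K0 := L1⟮j1⟯`, `R' := LineRing f`: the algebra map `R0 → R'` (`j1 ↦ jY`), the towers, integrality
of `R'` over `R0`, `R0` noetherian and integrally closed, `IsFractionRing R0 L1⟮j1⟯`.
-/

set_option autoImplicit false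
set_option linter.unusedSectionVars false
set_option linter.style.haveILetI false

open Polynomial IntermediateField

namespace Fermat.Agent.S18.H26

namespace ChartBase

section Ring

variable {A₁ F1 : Type*} [CommRing A₁] [Field F1] [Algebra A₁ F1] (j1 : F1)

/-- The generator `j1` of `R0 = A₁[j1]`. -/
def gen : ↥(Algebra.adjoin A₁ {j1}) := ⟨j1, Algebra.subset_adjoin rfl⟩

@[simp] theorem coe_gen : ((gen (A₁ := A₁) j1 : ↥(Algebra.adjoin A₁ {j1})) : F1) = j1 := rfl

theorem adjoin_gen_eq_top : Algebra.adjoin A₁ {gen (A₁ := A₁) j1} = ⊤ := by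
  have h := Algebra.adjoin_adjoin_coe_preimage (R := A₁) (s := ({j1} : Set F1))
  have hs : ((↑) ⁻¹' ({j1} : Set F1) : Set ↥(Algebra.adjoin A₁ {j1})) = {gen j1} := by
    ext x
    simp only [Set.mem_preimage, Set.mem_singleton_iff]
    constructor
    · intro hx; exact Subtype.ext hx
    · intro hx; rw [hx]; rfl
  rwa [hs] at h

/-- `A₁[X] ≃ A₁[j1]`. -/
noncomputable def polyEquiv (htr : Transcendental A₁ j1) : A₁[X] ≃ₐ[A₁] ↥(Algebra.adjoin A₁ {j1}) :=
  Polynomial.algEquivOfTranscendental A₁ j1 htr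

theorem coe_polyEquiv (htr : Transcendental A₁ j1) (p : A₁[X]) : ((polyEquiv j1 htr p : ↥(Algebra.adjoin A₁ {j1})) : F1) =
    aeval j1 p := by
  unfold polyEquiv
  simp [Polynomial.algEquivOfTranscendental]

theorem polyEquiv_X (htr : Transcendental A₁ j1) : polyEquiv j1 htr X = gen j1 := by
  apply Subtype.ext
  rw [coe_polyEquiv, aeval_X, coe_gen]

theorem polyEquiv_symm_gen (htr : Transcendental A₁ j1) : (polyEquiv j1 htr).symm (gen j1) = X := by
  rw [← polyEquiv_X j1 htr, AlgEquiv.symm_apply_apply]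

theorem isNoetherianRing (htr : Transcendental A₁ j1) [IsNoetherianRing A₁] : IsNoetherianRing ↥(Algebra.adjoin A₁ {j1}) :=
  isNoetherianRing_of_ringEquiv A₁[X] (polyEquiv j1 htr).toRingEquiv

theorem isIntegrallyClosed (htr : Transcendental A₁ j1) [IsDomain A₁] [IsIntegrallyClosed A₁] :
    IsIntegrallyClosed ↥(Algebra.adjoin A₁ {j1}) :=
  IsIntegrallyClosed.of_equiv (polyEquiv j1 htr).toRingEquiv

end Ring

section ToLine

variable {A₁ F1 R' : Type*} [CommRing A₁] [Field F1] [Algebra A₁ F1] [CommRing R'] [Algebra A₁ R']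
  (j1 : F1) (htr : Transcendental A₁ j1) (jR : R')

/-- `R0 = A₁[j1] → R'`, `j1 ↦ jR`. -/
noncomputable def toLine : ↥(Algebra.adjoin A₁ {j1}) →ₐ[A₁] R' :=
  (aeval jR).comp (polyEquiv j1 htr).symm.toAlgHom

theorem toLine_polyEquiv (p : A₁[X]) : toLine j1 htr jR (polyEquiv j1 htr p) = aeval jR p := by
  unfold toLine
  simp

@[simp]
theorem toLine_gen : toLine j1 htr jR (gen j1) = jR := by
  rw [← polyEquiv_X j1 htr, toLine_polyEquiv, aeval_X]

theorem range_toLine : (toLine j1 htr jR).range = Algebra.adjoin A₁ {jR} := by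
  have hR : Algebra.adjoin A₁ {jR} = (aeval jR).range :=
    Algebra.adjoin_singleton_eq_range_aeval A₁ jR
  rw [hR]
  apply le_antisymm
  · rintro _ ⟨r, rfl⟩
    obtain ⟨p, rfl⟩ := (polyEquiv j1 htr).surjective r
    exact ⟨p, (toLine_polyEquiv j1 htr jR p).symm⟩
  · rintro _ ⟨p, rfl⟩
    exact ⟨polyEquiv j1 htr p, toLine_polyEquiv j1 htr jR p⟩

/-- The `R0`-algebra structure on `R'` (install with `letI`). -/
@[reducible] noncomputable def algebraToLine : Algebra ↥(Algebra.adjoin A₁ {j1}) R' :=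
  (toLine j1 htr jR).toRingHom.toAlgebra

theorem algebraMap_toLine (r : ↥(Algebra.adjoin A₁ {j1})) :
    letI := algebraToLine j1 htr jR
    algebraMap ↥(Algebra.adjoin A₁ {j1}) R' r = toLine j1 htr jR r := rfl

theorem isScalarTower_toLine :
    letI := algebraToLine j1 htr jR
    IsScalarTower A₁ ↥(Algebra.adjoin A₁ {j1}) R' := by
  letI := algebraToLine j1 htr jR
  exact IsScalarTower.of_algebraMap_eq fun a => ((toLine j1 htr jR).commutes a).symm

/-- `R'` is integral over `R0` as soon as it is integral over `A₁[jR] ⊆ R'`. -/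
theorem isIntegral_toLine (hint : ∀ r : R', IsIntegral (Algebra.adjoin A₁ {jR}) r) :
    letI := algebraToLine j1 htr jR
    Algebra.IsIntegral ↥(Algebra.adjoin A₁ {j1}) R' := by
  letI := algebraToLine j1 htr jR
  refine ⟨fun r => ?_⟩
  obtain ⟨p, hp, hpr⟩ := hint r
  -- lift the coefficients along the surjection `R0 → A₁[jR]`
  have hmem : ∀ t : ↥(Algebra.adjoin A₁ {j1}), toLine j1 htr jR t ∈ Algebra.adjoin A₁ {jR} := by
    intro t
    rw [← range_toLine j1 htr jR]
    exact ⟨t, rfl⟩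
  let ι : ↥(Algebra.adjoin A₁ {j1}) →+* ↥(Algebra.adjoin A₁ {jR}) :=
    { toFun := fun t => ⟨toLine j1 htr jR t, hmem t⟩
      map_one' := by ext; simp
      map_mul' := fun a b => by ext; simp
      map_zero' := by ext; simp
      map_add' := fun a b => by ext; simp }
  have hι : Function.Surjective ι := by
    rintro ⟨y, hy⟩
    rw [← range_toLine j1 htr jR] at hy
    obtain ⟨t, rfl⟩ := hy
    exact ⟨t, rfl⟩
  have hlift : p ∈ Polynomial.lifts ι := by
    rw [Polynomial.lifts_iff_coeff_lifts]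
    intro n
    exact hι (p.coeff n)
  obtain ⟨q, hq, -, hqm⟩ := Polynomial.lifts_and_natDegree_eq_and_monic hlift hp
  refine ⟨q, hqm, ?_⟩
  rw [← hpr, ← hq, Polynomial.eval₂_map]
  rfl

section Tower

variable {F' : Type*} [Field F'] [Algebra F1 F'] [Algebra A₁ F'] [IsScalarTower A₁ F1 F']
  [Algebra R' F'] [IsScalarTower A₁ R' F']

/-- Compatibility of the two maps `R0 → F'` (through `F1` and through `R'`). -/
theorem algebraMap_toLine_eq (hj : algebraMap R' F' jR = algebraMap F1 F' j1)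
    (r : ↥(Algebra.adjoin A₁ {j1})) :
    algebraMap R' F' (toLine j1 htr jR r) = algebraMap F1 F' (r : F1) := by
  let φ₁ : ↥(Algebra.adjoin A₁ {j1}) →ₐ[A₁] F' :=
    (IsScalarTower.toAlgHom A₁ R' F').comp (toLine j1 htr jR)
  let φ₂ : ↥(Algebra.adjoin A₁ {j1}) →ₐ[A₁] F' :=
    (IsScalarTower.toAlgHom A₁ F1 F').comp (Subalgebra.val (Algebra.adjoin A₁ ({j1} : Set F1)))
  have h12 : φ₁ = φ₂ := by
    apply AlgHom.ext_of_adjoin_eq_top (adjoin_gen_eq_top (A₁ := A₁) j1)
    intro x hx
    rw [Set.mem_singleton_iff] at hx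
    subst hx
    change algebraMap R' F' (toLine j1 htr jR (gen (A₁ := A₁) j1)) =
      algebraMap F1 F' ((gen (A₁ := A₁) j1 : ↥(Algebra.adjoin A₁ {j1})) : F1)
    rw [toLine_gen, coe_gen, hj]
  exact congrArg (fun φ : ↥(Algebra.adjoin A₁ {j1}) →ₐ[A₁] F' => φ r) h12

/-- `IsScalarTower R0 R' F'`, the `R0`-algebra structure on `F'` being the one through `F1`. -/
theorem isScalarTower_toLine_field (hj : algebraMap R' F' jR = algebraMap F1 F' j1) :
    letI := algebraToLine j1 htr jR
    IsScalarTower ↥(Algebra.adjoin A₁ {j1}) R' F' := by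
  letI := algebraToLine j1 htr jR
  refine IsScalarTower.of_algebraMap_eq fun r => ?_
  rw [algebraMap_toLine, algebraMap_toLine_eq j1 htr jR hj]
  rfl

end Tower

end ToLine

section Frac

variable {A₁ L1 F1 : Type*} [CommRing A₁] [IsDomain A₁] [Field L1] [Algebra A₁ L1]
  [IsFractionRing A₁ L1] [Field F1] [Algebra A₁ F1] [Algebra L1 F1] [IsScalarTower A₁ L1 F1]
  (j1 : F1)

/-- The `R0`-algebra structure on `K0 = L1(j1)` (install with `letI`). -/
@[reducible] noncomputable def algebraToSimple : Algebra ↥(Algebra.adjoin A₁ {j1}) L1⟮j1⟯ :=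
  (H40.adjoinToSimple (K := L1) j1).toAlgebra

theorem isScalarTower_toSimple :
    letI := algebraToSimple (A₁ := A₁) (L1 := L1) j1
    IsScalarTower ↥(Algebra.adjoin A₁ {j1}) L1⟮j1⟯ F1 := by
  letI := algebraToSimple (A₁ := A₁) (L1 := L1) j1
  exact IsScalarTower.of_algebraMap_eq (fun a => rfl)

theorem isScalarTower_base_toSimple :
    letI := algebraToSimple (A₁ := A₁) (L1 := L1) j1
    IsScalarTower A₁ ↥(Algebra.adjoin A₁ {j1}) L1⟮j1⟯ := by
  letI := algebraToSimple (A₁ := A₁) (L1 := L1) j1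
  refine IsScalarTower.of_algebraMap_eq fun a => ?_
  apply Subtype.ext
  rfl

/-- `L1(j1)` is the fraction field of `A₁[j1]` (proof as in `H40.integralClosure_adjoin_fg`). -/
theorem isFractionRing_toSimple :
    letI := algebraToSimple (A₁ := A₁) (L1 := L1) j1
    IsFractionRing ↥(Algebra.adjoin A₁ {j1}) L1⟮j1⟯ := by
  letI := algebraToSimple (A₁ := A₁) (L1 := L1) j1
  have hinjRF : Function.Injective (algebraMap A₁ F1) := by
    rw [IsScalarTower.algebraMap_eq A₁ L1 F1]
    exact (algebraMap L1 F1).injective.comp (IsFractionRing.injective A₁ L1)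
  have hfs : FaithfulSMul ↥(Algebra.adjoin A₁ {j1}) L1⟮j1⟯ :=
    (faithfulSMul_iff_algebraMap_injective _ _).2 (by
      intro a b hab
      apply Subtype.ext
      exact congrArg (fun z : L1⟮j1⟯ => (z : F1)) hab)
  refine IsFractionRing.of_field ↥(Algebra.adjoin A₁ {j1}) L1⟮j1⟯ ?_
  rintro ⟨z, hz⟩
  obtain ⟨r, s, hrs⟩ := (mem_adjoin_simple_iff L1 z).1 hz
  obtain ⟨c, r', hc, hr'⟩ := H40.exists_aeval_eq_div (R := A₁) j1 r
  obtain ⟨d, s', hd, hs'⟩ := H40.exists_aeval_eq_div (R := A₁) j1 s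
  have hcF : algebraMap A₁ F1 c ≠ 0 := fun h => hc (hinjRF (by rw [h, map_zero]))
  have hdF : algebraMap A₁ F1 d ≠ 0 := fun h => hd (hinjRF (by rw [h, map_zero]))
  refine ⟨⟨aeval j1 (C d * r'), ?_⟩, ⟨aeval j1 (C c * s'), ?_⟩, ?_⟩
  · rw [Algebra.adjoin_singleton_eq_range_aeval]; exact ⟨_, rfl⟩
  · rw [Algebra.adjoin_singleton_eq_range_aeval]; exact ⟨_, rfl⟩
  · apply Subtype.ext
    change z = aeval j1 (C d * r') / aeval j1 (C c * s')
    rw [map_mul, map_mul, aeval_C, aeval_C, ← hr', ← hs', hrs]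
    by_cases hs0 : aeval j1 s = 0
    · rw [hs0]; simp
    · field_simp

end Frac

/-! ### Pulling integrality back along an injective algebra map -/

section Pullback

variable {A₁ R E : Type*} [CommRing A₁] [CommRing R] [CommRing E] [Algebra A₁ R] [Algebra A₁ E]

theorem isIntegral_adjoin_of_isIntegral_map (φ : R →ₐ[A₁] E) (hφ : Function.Injective φ)
    (jR r : R) (h : IsIntegral (Algebra.adjoin A₁ {φ jR}) (φ r)) :
    IsIntegral (Algebra.adjoin A₁ {jR}) r := by
  obtain ⟨p, hp, hpr⟩ := h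
  have hmap : (Algebra.adjoin A₁ {jR}).map φ = Algebra.adjoin A₁ {φ jR} := by
    rw [AlgHom.map_adjoin, Set.image_singleton]
  have hmem : ∀ t : ↥(Algebra.adjoin A₁ {jR}), φ (t : R) ∈ Algebra.adjoin A₁ {φ jR} := by
    intro t
    rw [← hmap]
    exact ⟨t, t.2, rfl⟩
  let ι : ↥(Algebra.adjoin A₁ {jR}) →+* ↥(Algebra.adjoin A₁ {φ jR}) :=
    { toFun := fun t => ⟨φ (t : R), hmem t⟩
      map_one' := by ext; simp
      map_mul' := fun a b => by ext; simp
      map_zero' := by ext; simp
      map_add' := fun a b => by ext; simp }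
  have hι : Function.Surjective ι := by
    rintro ⟨y, hy⟩
    rw [← hmap] at hy
    obtain ⟨t, ht, rfl⟩ := hy
    exact ⟨⟨t, ht⟩, rfl⟩
  have hlift : p ∈ Polynomial.lifts ι := by
    rw [Polynomial.lifts_iff_coeff_lifts]
    intro n
    exact hι (p.coeff n)
  obtain ⟨q, hq, -, hqm⟩ := Polynomial.lifts_and_natDegree_eq_and_monic hlift hp
  refine ⟨q, hqm, ?_⟩
  apply hφ
  rw [map_zero, ← hpr, ← hq, Polynomial.eval₂_map]
  -- `φ (q(r)) = q^φ(φ r)`
  change (φ : R →+* E) (eval₂ (algebraMap ↥(Algebra.adjoin A₁ {jR}) R) r q) = _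
  rw [Polynomial.hom_eval₂]
  rfl

end Pullback

/-! ### Finiteness of `F'` over the fraction field of the line -/

section FracLine

theorem range_contains_simple {A₁ L1 R K E : Type*} [CommRing A₁] [Field L1]
    [Algebra A₁ L1] [IsFractionRing A₁ L1] [Field E] [Algebra A₁ E] [Algebra L1 E]
    [IsScalarTower A₁ L1 E] [CommRing R] [Algebra A₁ R] [Algebra R E] [IsScalarTower A₁ R E]
    [Field K] [Algebra R K] [Algebra K E] [IsScalarTower R K E]
    (μ : E) (hμ : μ ∈ (algebraMap R E).range) {c : E} (hc : c ∈ L1⟮μ⟯) :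
    c ∈ (algebraMap K E).range := by
  set S : Subfield E := (algebraMap K E).fieldRange with hS
  have hK : ∀ x : K, algebraMap K E x ∈ S := fun x => ⟨x, rfl⟩
  have hR : ∀ r : R, algebraMap R E r ∈ S := fun r => by
    rw [IsScalarTower.algebraMap_apply R K E]; exact hK _
  have hA : ∀ a : A₁, algebraMap A₁ E a ∈ S := fun a => by
    rw [IsScalarTower.algebraMap_apply A₁ R E]; exact hR _
  have hL : ∀ c : L1, algebraMap L1 E c ∈ S := by
    intro c
    obtain ⟨a, b, -, rfl⟩ := IsFractionRing.div_surjective (A := A₁) c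
    rw [map_div₀, ← IsScalarTower.algebraMap_apply A₁ L1 E, ← IsScalarTower.algebraMap_apply A₁ L1 E]
    exact S.div_mem (hA a) (hA b)
  let F' : IntermediateField L1 E := S.toIntermediateField hL
  have hle : L1⟮μ⟯ ≤ F' := by
    rw [IntermediateField.adjoin_le_iff]
    rintro x rfl
    obtain ⟨r, rfl⟩ := hμ
    exact hR r
  obtain ⟨d, hd⟩ := hle hc
  exact ⟨d, hd⟩

theorem finiteDimensional_of_simple {A₁ L1 R K E : Type*} [CommRing A₁] [Field L1]
    [Algebra A₁ L1] [IsFractionRing A₁ L1] [Field E] [Algebra A₁ E] [Algebra L1 E]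
    [IsScalarTower A₁ L1 E] [CommRing R] [Algebra A₁ R] [Algebra R E] [IsScalarTower A₁ R E]
    [Field K] [Algebra R K] [Algebra K E] [IsScalarTower R K E]
    (μ : E) (hμ : μ ∈ (algebraMap R E).range) [FiniteDimensional L1⟮μ⟯ E] :
    FiniteDimensional K E := by
  have hfin : Module.Finite L1⟮μ⟯ E := inferInstance
  obtain ⟨s, hs⟩ := Module.finite_def.mp hfin
  refine Module.finite_def.mpr ⟨s, ?_⟩
  have key : ∀ x ∈ Submodule.span L1⟮μ⟯ (s : Set E), x ∈ Submodule.span K (s : Set E) := by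
    intro x hx
    induction hx using Submodule.span_induction with
    | mem y hy => exact Submodule.subset_span hy
    | zero => exact Submodule.zero_mem _
    | add y z _ _ hy hz => exact Submodule.add_mem _ hy hz
    | smul c y _ hy =>
      obtain ⟨d, hd⟩ := range_contains_simple (A₁ := A₁) (R := R) (K := K) μ hμ c.2
      have : c • y = d • y := by
        rw [Algebra.smul_def, Algebra.smul_def, hd]; rfl
      rw [this]
      exact Submodule.smul_mem _ d hy
  rw [eq_top_iff]
  intro x _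
  exact key x (by rw [hs]; trivial)

end FracLine

/-! ### The instance for `R' = LineRing f` -/

section Line

variable {A₁ F1 F' : Type*} [CommRing A₁] [Field F1] [Algebra A₁ F1]
  [Field F'] [Algebra F1 F'] [Algebra A₁ F'] [IsScalarTower A₁ F1 F']
  (j1 : F1) (htr : Transcendental A₁ j1) (f : A₁[X]) (μ : F') (hfμ : IsUnit (aeval μ f))
  (jY : LineRing f)

/-- Integrality of the base line over `A₁[jY]`, from integrality of `μ` and `1/f(μ)` over
`A₁[j1]` inside `F'`. -/
theorem isIntegral_line (hjY : LineRing.liftAlg f μ hfμ jY = algebraMap F1 F' j1)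
    (hμtr : Transcendental A₁ μ)
    (hintμ : IsIntegral (Algebra.adjoin A₁ {algebraMap F1 F' j1}) μ)
    (hintw : IsIntegral (Algebra.adjoin A₁ {algebraMap F1 F' j1})
      (LineRing.liftAlg f μ hfμ (LineRing.inv f))) (r : LineRing f) :
    IsIntegral (Algebra.adjoin A₁ {jY}) r := by
  apply isIntegral_adjoin_of_isIntegral_map (LineRing.liftAlg f μ hfμ)
    (LineRing.liftAlg_injective f μ hfμ hμtr)
  rw [hjY]
  exact LineRing.isIntegral_liftAlg f μ hfμ hintμ hintw r

/-- `[Algebra.IsIntegral R0 R']` for `R0 = A₁[j1]`, `R' = LineRing f`, `j1 ↦ jY`. -/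
theorem algebra_isIntegral_line (hjY : LineRing.liftAlg f μ hfμ jY = algebraMap F1 F' j1)
    (hμtr : Transcendental A₁ μ)
    (hintμ : IsIntegral (Algebra.adjoin A₁ {algebraMap F1 F' j1}) μ)
    (hintw : IsIntegral (Algebra.adjoin A₁ {algebraMap F1 F' j1})
      (LineRing.liftAlg f μ hfμ (LineRing.inv f))) :
    letI := algebraToLine j1 htr jY
    Algebra.IsIntegral ↥(Algebra.adjoin A₁ {j1}) (LineRing f) :=
  isIntegral_toLine j1 htr jY (isIntegral_line j1 f μ hfμ jY hjY hμtr hintμ hintw)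

/-- `[IsScalarTower R0 R' F']` for `R0 = A₁[j1]` (acting on `F'` through `F1`), `R' = LineRing f`
(acting on `F'` by `LineRing.algebraOfCoord f μ hfμ`). -/
theorem isScalarTower_line_field (hjY : LineRing.liftAlg f μ hfμ jY = algebraMap F1 F' j1) :
    letI := algebraToLine j1 htr jY
    letI := LineRing.algebraOfCoord f μ hfμ
    IsScalarTower ↥(Algebra.adjoin A₁ {j1}) (LineRing f) F' := by
  letI := LineRing.algebraOfCoord f μ hfμ
  haveI := LineRing.isScalarTower_algebraOfCoord f μ hfμ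
  exact isScalarTower_toLine_field j1 htr jY hjY

end Line

end ChartBase

end Fermat.Agent.S18.H26
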