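/-
S18 / INST-7 (helper33): the comparison (COMP) between the residue map `res1` of the model
Gauss valuation ring `O1 ⊆ F1` and the residue map `res` of the Gauss valuation ring of
`FN N` over `ℚ̄`, and the variant of `gR_FN_le_gR_Fk_of_model` phrased through `res1`.
-/
import Mathlib
import Fermat.Agent.S18.H33_LatticeInst

set_option autoImplicit false
set_option synthInstance.maxHeartbeats 400000

noncomputable section

namespace Fermat.Agent.S18.H33

open AlgebraicCurve ModularCurve IntermediateField Polynomial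
open Fermat.Agent.S24 Fermat.Agent.RR

/-- **(COMP), abstract.** Two ring homs from a ring `O1` to a field which agree on a subring `C`
such that every element of `O1` is a fraction `a / b` with `a, b ∈ C`, `g b ≠ 0`, are equal. -/
theorem ringHom_eq_of_fractions {O1 Fk : Type*} [CommRing O1] [Field Fk] (f g : O1 →+* Fk)
    (C : Subring O1) (hC : ∀ c ∈ C, f c = g c)
    (hfrac : ∀ y : O1, ∃ a ∈ C, ∃ b ∈ C, g b ≠ 0 ∧ y * b = a) : f = g := by
  ext y
  obtain ⟨a, ha, b, hb, hgb, hyb⟩ := hfrac y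
  have h1 : f y * f b = f a := by rw [← map_mul, hyb]
  have h2 : g y * g b = g a := by rw [← map_mul, hyb]
  rw [hC a ha, hC b hb, ← h2] at h1
  exact mul_right_cancel₀ hgb h1

/-- Agreement on generators gives agreement on the generated subring. -/
theorem eqOn_closure_of_eqOn {O1 Fk : Type*} [CommRing O1] [Field Fk] (f g : O1 →+* Fk)
    (s : Set O1) (hs : ∀ c ∈ s, f c = g c) : ∀ c ∈ Subring.closure s, f c = g c := by
  intro c hc
  induction hc using Subring.closure_induction with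
  | mem x hx => exact hs x hx
  | zero => rw [map_zero, map_zero]
  | one => rw [map_one, map_one]
  | add x y _ _ hx hy => rw [map_add, map_add, hx, hy]
  | neg x _ hx => rw [map_neg, map_neg, hx]
  | mul x y _ _ hx hy => rw [map_mul, map_mul, hx, hy]

section Main

variable (N : ℕ) [NeZero N] {ℓ : ℕ} [hℓ : Fact ℓ.Prime] (hℓN : ¬ ℓ ∣ N)
variable (A : ValuationSubring (AlgebraicClosure ℚ))

local notation "kA" => IsLocalRing.ResidueField A

/-- **INST-7, `res1`-form.**  Same as `gR_FN_le_gR_Fk_of_model`, but the model hypotheses are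
phrased through the residue map `res1 : O1 →+* Fk` of the model, with the comparison
`hcomp : res (ι y) = res1 y`. -/
theorem gR_FN_le_gR_Fk_of_model_res1 [CharP kA ℓ]
    -- the valuation ring `O` of `FN N` over `A` with its residue map (R0)
    (O : Subring (FN N))
    (hAO : ∀ a : A, algebraMap Qbar (FN N) (a : Qbar) ∈ O)
    (res : O →+* modularFunctionFieldFullC kA N)
    (hcompat : ∀ a : A, res ⟨algebraMap Qbar (FN N) (a : Qbar), hAO a⟩
      = algebraMap kA (modularFunctionFieldFullC kA N) (IsLocalRing.residue A a))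
    -- the model
    {R F1 : Type*} [CommRing R] [Field F1] [Algebra R F1] [Algebra R Qbar] (ι : F1 →+* FN N)
    (hRK : ∀ r : R, ι (algebraMap R F1 r) = algebraMap Qbar (FN N) (algebraMap R Qbar r))
    {x1 : F1} (hx1 : ι x1 = jBar N) (ϖ : R)
    (O1 : Subring F1) (res1 : O1 →+* modularFunctionFieldFullC kA N)
    (hO1 : ∀ y ∈ O1, ι y ∈ O)
    (hcomp : ∀ (y : F1) (hy : y ∈ O1), res ⟨ι y, hO1 y hy⟩ = res1 ⟨y, hy⟩)
    (hker : ∀ (y : F1) (hy : y ∈ O1), res1 ⟨y, hy⟩ = 0 ↔
      ∃ z ∈ O1, y = algebraMap R F1 ϖ * z)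
    (hBO : ∀ b : F1, IsIntegral (Algebra.adjoin R {x1}) b → b ∈ O1)
    (hBinfO : ∀ b : F1, IsIntegral (Algebra.adjoin R {x1⁻¹}) b → b ∈ O1)
    (hsat : ∀ y ∈ O1, IsIntegral (Algebra.adjoin R {x1}) (algebraMap R F1 ϖ * y) →
      IsIntegral (Algebra.adjoin R {x1}) y)
    (hfg : ∃ (ι' : Type) (_ : Fintype ι') (β : ι' → F1),
      (∀ i, IsIntegral (Algebra.adjoin R {x1}) (β i)) ∧
      ∀ b : F1, IsIntegral (Algebra.adjoin R {x1}) b →
        ∃ p : ι' → R[X], b = ∑ i, aeval x1 (p i) * β i)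
    (hresx : ∀ h : x1 ∈ O1, res1 ⟨x1, h⟩ = H16.jK kA N)
    -- (GR)
    (hGRfin : ∀ γ : modularFunctionFieldFullC kA N,
      IsIntegral (Algebra.adjoin kA {H16.jK kA N}) γ →
      ∃ (b : F1) (hb : IsIntegral (Algebra.adjoin R {x1}) b), res1 ⟨b, hBO b hb⟩ = γ)
    (hGRinf : ∀ γ : modularFunctionFieldFullC kA N,
      IsIntegral (Algebra.adjoin kA {(H16.jK kA N)⁻¹}) γ →
      ∃ (b : F1) (hb : IsIntegral (Algebra.adjoin R {x1⁻¹}) b), res1 ⟨b, hBinfO b hb⟩ = γ) :
    (H76.ffBase_FN N).gR ≤ (ffBase_Fk N ℓ hℓN kA).gR := by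
  have hx1O1 : x1 ∈ O1 := hBO x1 (mem_chartAlg.mp (self_mem_chartAlg x1))
  refine gR_FN_le_gR_Fk_of_model N hℓN A O hAO res hcompat ι hRK hx1 ϖ O1 hO1 ?_ hBO hBinfO hsat
    hfg ?_ ?_ ?_
  · intro y hy
    rw [hcomp y hy]
    exact hker y hy
  · intro h
    have := hcomp x1 hx1O1
    rw [hresx hx1O1] at this
    exact this
  · intro γ hγ
    obtain ⟨b, hb, hbres⟩ := hGRfin γ hγ
    exact ⟨b, hb, by rw [hcomp b (hBO b hb), hbres]⟩
  · intro γ hγ
    obtain ⟨b, hb, hbres⟩ := hGRinf γ hγ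
    exact ⟨b, hb, by rw [hcomp b (hBinfO b hb), hbres]⟩

end Main

end Fermat.Agent.S18.H33
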