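import Mathlib
import Fermat.Prelude.Def_ModularCurve_ReductionModL

/-!
# S18 interface, part 1 (helper11): integral elements, the residue field, statement of the core

`IntElt A N` packages an integral Laurent series `y ∈ A((q))` whose characteristic-zero image lies in
`F_N = modularFunctionFieldBar N` and whose reduction is a NONZERO element of
`F_{N,k} = modularFunctionFieldFullC k N`.  `CoreE A N m` is the normalised core statement of S18.
-/

set_option autoImplicit false

noncomputable section

open HahnSeries IntermediateField AlgebraicCurve ModularCurve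

namespace Fermat.Agent.S18.H11

variable (A : ValuationSubring (AlgebraicClosure ℚ)) (N : ℕ)

/-- An integral element: `y ∈ A((q))` with `y ∈ F_N` (char. 0) and `0 ≠ ȳ ∈ F_{N,k}`. -/
structure IntElt where
  y : LaurentSeries A
  mem : coeffMap A.subtype y ∈ modularFunctionFieldBar N
  memk : coeffMap (IsLocalRing.residue A) y ∈
    modularFunctionFieldFullC (IsLocalRing.ResidueField A) N
  ne : coeffMap (IsLocalRing.residue A) y ≠ 0

variable {A N}

/-- The characteristic-zero function of an integral element. -/
def IntElt.gen (Y : IntElt A N) : modularFunctionFieldBar N := ⟨coeffMap A.subtype Y.y, Y.mem⟩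

/-- The reduction of an integral element. -/
def IntElt.red (Y : IntElt A N) : modularFunctionFieldFullC (IsLocalRing.ResidueField A) N :=
  ⟨coeffMap (IsLocalRing.residue A) Y.y, Y.memk⟩

variable (A N)

/-- The normalised core of S18: a quotient `Y₁/Y₂` of integral elements with THE SAME (nonzero)
reduction whose divisor is `m • D` has `D` principal. -/
def CoreE (m : ℕ) : Prop :=
  ∀ (Y₁ Y₂ : IntElt A N), Y₁.red = Y₂.red →
    ∀ D : Divisor (AlgebraicClosure ℚ) (modularFunctionFieldBar N),
      (∀ P, (m : ℤ) * D P = P.ord Y₁.gen - P.ord Y₂.gen) →
        D ∈ Divisor.principal (K := AlgebraicClosure ℚ) (F := modularFunctionFieldBar N)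

end Fermat.Agent.S18.H11
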