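import Fermat.Agent.S18.H71_FinalStep

/-!
# S18: glue from a valuation-subring model (helper84's `RedModel` shape) to `GaussRed`

* `mapDomain_apply_eq_finsum` : `Finsupp.mapDomain r D b = ∑ᶠ a, if r a = b then D a else 0`.
* `GaussRed.ofValuationSubring` : builds the abstract reduction datum consumed by
  `isPrincipal_of_red_isPrincipal` from `O : ValuationSubring F`, `res : O →+* Fb`, `r`.
-/

set_option autoImplicit false

noncomputable section

namespace Fermat.Agent.S18.H71

open AlgebraicCurve
open Fermat.Agent.S24.H24

open scoped Classical in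
/-- `Finsupp.mapDomain` evaluated at a point is the sum over the fibre. -/
theorem mapDomain_apply_eq_finsum {α β : Type*} (r : α → β) (D : α →₀ ℤ) (b : β) :
    Finsupp.mapDomain r D b = ∑ᶠ a : α, if r a = b then D a else 0 := by
  classical
  rw [Finsupp.mapDomain, Finsupp.sum_apply, Finsupp.sum]
  rw [finsum_eq_sum_of_support_subset (s := D.support)]
  · refine Finset.sum_congr rfl fun a _ => ?_
    rw [Finsupp.single_apply]
  · intro a ha
    simp only [Function.mem_support, ne_eq] at ha
    simp only [Finset.mem_coe, Finsupp.mem_support_iff]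
    intro h0; apply ha; rw [h0]; simp

variable {K F k Fb : Type*} [Field K] [Field F] [Algebra K F] [Field k] [Field Fb]
  [Algebra k Fb]

open scoped Classical in
/-- Extension by zero of a map defined on a valuation subring. -/
def extendRed (O : ValuationSubring F) (res : O →+* Fb) (y : F) : Fb :=
  if h : y ∈ O then res ⟨y, h⟩ else 0

theorem extendRed_of_mem (O : ValuationSubring F) (res : O →+* Fb) {y : F} (h : y ∈ O) :
    extendRed O res y = res ⟨y, h⟩ := by
  unfold extendRed; rw [dif_pos h]

open scoped Classical in
/-- A reduction datum from a valuation subring `O ⊆ F`, a ring hom `res : O →+* Fb` whose kernel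
is the maximal ideal, and a map of places `r` compatible with divisors of units
(this is the shape of helper84's `RedModel`). -/
def GaussRed.ofValuationSubring (O : ValuationSubring F) (res : O →+* Fb)
    (r : Place K F → Place k Fb)
    (res_eq_zero_iff : ∀ f : O, res f = 0 ↔ ¬ IsUnit f)
    (scale : ∀ y : F, y ≠ 0 → ∃ c : K, c ≠ 0 ∧ ∃ u : Oˣ, algebraMap K F c * y = (u : O))
    (fin_ord : ∀ y : F, y ≠ 0 → {P : Place K F | P.ord y ≠ 0}.Finite)
    (ord_res : ∀ f : O, res f ≠ 0 → ∀ D : Divisor K F, (∀ P, D P = P.ord (f : F)) →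
      ∀ Q, Finsupp.mapDomain r D Q = Q.ord (res f)) :
    GaussRed K F k Fb O.ValueGroup where
  v := O.valuation
  red := extendRed O res
  r := r
  red_one := by rw [extendRed_of_mem O res O.one_mem]; exact map_one res
  red_add := fun a b ha hb => by
    have ha' : a ∈ O := (O.valuation_le_one_iff a).mp ha
    have hb' : b ∈ O := (O.valuation_le_one_iff b).mp hb
    rw [extendRed_of_mem O res ha', extendRed_of_mem O res hb',
      extendRed_of_mem O res (O.add_mem _ _ ha' hb'), ← map_add]; rfl
  red_mul := fun a b ha hb => by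
    have ha' : a ∈ O := (O.valuation_le_one_iff a).mp ha
    have hb' : b ∈ O := (O.valuation_le_one_iff b).mp hb
    rw [extendRed_of_mem O res ha', extendRed_of_mem O res hb',
      extendRed_of_mem O res (O.mul_mem _ _ ha' hb'), ← map_mul]; rfl
  red_eq_zero_iff := fun a ha => by
    have ha' : a ∈ O := (O.valuation_le_one_iff a).mp ha
    rw [extendRed_of_mem O res ha', res_eq_zero_iff, O.valuation_eq_one_iff]
    exact (lt_iff_le_and_ne.trans (and_iff_right ha)).symm
  scale := fun y hy => by
    obtain ⟨c, hc, u, hu⟩ := scale y hy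
    refine ⟨c, hc, ?_⟩
    rw [hu]
    exact (O.valuation_eq_one_iff _).mp u.isUnit
  fin_ord := fin_ord
  ord_red := fun y hy Q => by
    have hy' : y ∈ O := (O.valuation_le_one_iff y).mp hy.le
    have hy0 : y ≠ 0 := by rintro rfl; simp at hy
    rw [extendRed_of_mem O res hy']
    have hu : IsUnit (⟨y, hy'⟩ : O) := (O.valuation_eq_one_iff _).mpr hy
    have hne : res ⟨y, hy'⟩ ≠ 0 := fun h => (res_eq_zero_iff _).mp h hu
    set D : Divisor K F := Finsupp.ofSupportFinite (fun P => P.ord y) (fin_ord y hy0) with hD
    have := ord_res ⟨y, hy'⟩ hne D (fun P => rfl) Q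
    rw [← this, mapDomain_apply_eq_finsum]
    rfl

end Fermat.Agent.S18.H71
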