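import Mathlib
import Fermat.Prelude.Def_ModularCurve_ReductionModL

set_option autoImplicit false

noncomputable section

open HahnSeries IntermediateField AlgebraicCurve ModularCurve

namespace Fermat.Agent.S18.H84

/-! # Abstract reduction model -/

/-- An abstract "good-looking" reduction datum: a valuation ring `O` of `F` prolonging `A`,
a residue homomorphism onto `Fk`, and a map on places compatible with divisors of units. -/
structure RedModel {K F k Fk : Type*} [Field K] [Field F] [Algebra K F] [Field k] [Field Fk]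
    [Algebra k Fk] (A : ValuationSubring K) (π : A →+* k) (r : Place K F → Place k Fk) where
  O : ValuationSubring F
  res : O →+* Fk
  res_surjective : Function.Surjective res
  res_eq_zero_iff : ∀ f : O, res f = 0 ↔ ¬ IsUnit f
  const_mem_iff : ∀ c : K, algebraMap K F c ∈ O ↔ c ∈ A
  res_const : ∀ (a : A) (h : algebraMap K F (a : K) ∈ O),
    res ⟨algebraMap K F (a : K), h⟩ = algebraMap k Fk (π a)
  exists_const_mul_unit : ∀ f : F, f ≠ 0 →
    ∃ c : K, c ≠ 0 ∧ ∃ u : O, IsUnit u ∧ f = algebraMap K F c * (u : F)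
  ord_res : ∀ (f : O), res f ≠ 0 → ∀ D : Divisor K F, (∀ P : Place K F, D P = P.ord (f : F)) →
    ∀ Q : Place k Fk, Finsupp.mapDomain r D Q = Q.ord (res f)
  deg_eq : ∀ P, (r P).deg = P.deg

/-! # Generalities on places -/

section PlaceLemmas

variable {K F : Type*} [Field K] [Field F] [Algebra K F]

theorem ord_algebraMap (P : Place K F) {c : K} (hc : c ≠ 0) : P.ord (algebraMap K F c) = 0 := by
  have h1 : algebraMap K F c ∈ P.toValuationSubring := P.algebraMap_mem' c
  have h2 : algebraMap K F c⁻¹ ∈ P.toValuationSubring := P.algebraMap_mem' c⁻¹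
  have hu : IsUnit (⟨algebraMap K F c, h1⟩ : P.toValuationSubring) := by
    refine IsUnit.of_mul_eq_one ⟨algebraMap K F c⁻¹, h2⟩ (Subtype.ext ?_)
    show algebraMap K F c * algebraMap K F c⁻¹ = 1
    rw [← map_mul, mul_inv_cancel₀ hc, map_one]
  exact P.ord_coe_unit hu.unit

theorem ord_div (P : Place K F) {f g : F} (hf : f ≠ 0) (hg : g ≠ 0) :
    P.ord (f / g) = P.ord f - P.ord g := by
  rw [div_eq_mul_inv, P.ord_mul hf (inv_ne_zero hg), P.ord_inv, sub_eq_add_neg]

end PlaceLemmas

/-! # The concrete model attached to `ReductionInputsAlong` -/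

section CoeffMapLemmas

variable {R S : Type*} [CommRing R] [CommRing S]

theorem coeffMap_injective {f : R →+* S} (hf : Function.Injective f) :
    Function.Injective (coeffMap f) := by
  intro x y h
  ext n
  have := congrArg (fun z => z.coeff n) h
  simp only [coeffMap_coeff] at this
  exact hf this

theorem coeffMap_C (f : R →+* S) (a : R) :
    coeffMap f (HahnSeries.C a : LaurentSeries R) = HahnSeries.C (f a) := by
  show coeffMap f (HahnSeries.single 0 a) = HahnSeries.single 0 (f a)
  exact coeffMap_single f 0 a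

theorem C_eq_algebraMap {K : Type*} [Field K] (c : K) :
    (HahnSeries.C c : LaurentSeries K) = algebraMap K (LaurentSeries K) c :=
  (algebraMap_laurentSeries_eq_single K c).symm

end CoeffMapLemmas

section Concrete

variable {L : Type*} [Field L] [Algebra ℚ L] (A : ValuationSubring L)
variable {k : Type*} [Field k] (π : A →+* k) (N : ℕ)

/-- coefficientwise inclusion `A((q)) → L((q))` -/
abbrev ι : LaurentSeries A →+* LaurentSeries L := coeffMap A.subtype

theorem ι_injective : Function.Injective (ι A) :=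
  coeffMap_injective Subtype.val_injective

/-- coefficientwise reduction `A((q)) → k((q))` -/
abbrev red : LaurentSeries A →+* LaurentSeries k := coeffMap π

/-- The integral elements with nonzero reduction in the residue function field. -/
def intUnits : Submonoid (LaurentSeries A) where
  carrier := {y | ι A y ∈ laurentBaseChange L (modularFunctionFieldFull N) ∧
    red A π y ∈ modularFunctionFieldFullC k N ∧ red A π y ≠ 0}
  one_mem' := by
    refine ⟨?_, ?_, ?_⟩
    · rw [map_one]; exact one_mem _
    · rw [map_one]; exact one_mem _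
    · rw [map_one]; exact one_ne_zero
  mul_mem' := by
    rintro x y ⟨hx1, hx2, hx3⟩ ⟨hy1, hy2, hy3⟩
    refine ⟨?_, ?_, ?_⟩
    · rw [map_mul]; exact mul_mem hx1 hy1
    · rw [map_mul]; exact mul_mem hx2 hy2
    · rw [map_mul]; exact mul_ne_zero hx3 hy3

variable {A π N}

theorem mem_intUnits {y : LaurentSeries A} :
    y ∈ intUnits A π N ↔ ι A y ∈ laurentBaseChange L (modularFunctionFieldFull N) ∧
      red A π y ∈ modularFunctionFieldFullC k N ∧ red A π y ≠ 0 := Iff.rfl

theorem ne_zero_of_mem_intUnits {y : LaurentSeries A} (hy : y ∈ intUnits A π N) : y ≠ 0 := by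
  rintro rfl
  exact hy.2.2 (map_zero _)

theorem ι_ne_zero_of_mem_intUnits {y : LaurentSeries A} (hy : y ∈ intUnits A π N) :
    ι A y ≠ 0 := by
  intro h
  exact ne_zero_of_mem_intUnits hy (ι_injective A (h.trans (map_zero _).symm))

/-- the element of the generic function field attached to an integral unit -/
def toF (y : LaurentSeries A) (hy : y ∈ intUnits A π N) :
    laurentBaseChange L (modularFunctionFieldFull N) := ⟨ι A y, hy.1⟩

/-- the element of the residue function field attached to an integral unit -/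
def toFk (y : LaurentSeries A) (hy : y ∈ intUnits A π N) :
    modularFunctionFieldFullC k N := ⟨red A π y, hy.2.1⟩

theorem toF_ne_zero {y : LaurentSeries A} (hy : y ∈ intUnits A π N) : toF y hy ≠ 0 := by
  intro h
  exact ι_ne_zero_of_mem_intUnits hy (congrArg Subtype.val h)

theorem toFk_ne_zero {y : LaurentSeries A} (hy : y ∈ intUnits A π N) : toFk y hy ≠ 0 := by
  intro h
  exact hy.2.2 (congrArg Subtype.val h)

theorem toF_mul {x y : LaurentSeries A} (hx : x ∈ intUnits A π N) (hy : y ∈ intUnits A π N) :
    toF (x * y) (mul_mem hx hy) = toF x hx * toF y hy := by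
  apply Subtype.ext
  show ι A (x * y) = ι A x * ι A y
  exact map_mul _ _ _

theorem toFk_mul {x y : LaurentSeries A} (hx : x ∈ intUnits A π N) (hy : y ∈ intUnits A π N) :
    toFk (x * y) (mul_mem hx hy) = toFk x hx * toFk y hy := by
  apply Subtype.ext
  show red A π (x * y) = red A π x * red A π y
  exact map_mul _ _ _

/-- A divisor is an "integral principal divisor" witnessed by an integral unit. -/
def IsIPD (E : Divisor L (laurentBaseChange L (modularFunctionFieldFull N))) : Prop :=
  ∃ (y : LaurentSeries A) (hy : y ∈ intUnits A π N), ∀ P, E P = P.ord (toF y hy)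

theorem isIPD_zero : IsIPD (A := A) (π := π) (N := N) 0 := by
  refine ⟨1, one_mem _, fun P => ?_⟩
  have : toF (1 : LaurentSeries A) (one_mem (intUnits A π N)) = 1 := by
    apply Subtype.ext
    show ι A 1 = 1
    exact map_one _
  rw [this, Place.ord_one, Finsupp.zero_apply]

theorem IsIPD.add {E E' : Divisor L (laurentBaseChange L (modularFunctionFieldFull N))}
    (hE : IsIPD (A := A) (π := π) E) (hE' : IsIPD (A := A) (π := π) E') :
    IsIPD (A := A) (π := π) (E + E') := by
  obtain ⟨y, hy, h⟩ := hE
  obtain ⟨y', hy', h'⟩ := hE'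
  refine ⟨y * y', mul_mem hy hy', fun P => ?_⟩
  rw [toF_mul hy hy', P.ord_mul (toF_ne_zero hy) (toF_ne_zero hy'), Finsupp.add_apply, h P, h' P]

theorem isIPD_of_mem {E : Divisor L (laurentBaseChange L (modularFunctionFieldFull N))}
    (hE : E ∈ integralPrincipalDivisors A π N) : IsIPD (A := A) (π := π) E := by
  obtain ⟨y, hy, hyk, hne, hE⟩ := hE
  exact ⟨y, ⟨hy, hyk, hne⟩, hE⟩

theorem exists_sub_of_mem_closure
    {E : Divisor L (laurentBaseChange L (modularFunctionFieldFull N))}
    (hE : E ∈ AddSubgroup.closure (integralPrincipalDivisors A π N)) :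
    ∃ Ep Em, IsIPD (A := A) (π := π) Ep ∧ IsIPD (A := A) (π := π) Em ∧ E = Ep - Em := by
  induction hE using AddSubgroup.closure_induction with
  | mem E hE => exact ⟨E, 0, isIPD_of_mem hE, isIPD_zero, (sub_zero E).symm⟩
  | zero => exact ⟨0, 0, isIPD_zero, isIPD_zero, (sub_zero 0).symm⟩
  | add E E' _ _ hE hE' =>
    obtain ⟨Ep, Em, hp, hm, rfl⟩ := hE
    obtain ⟨Ep', Em', hp', hm', rfl⟩ := hE'
    exact ⟨Ep + Ep', Em + Em', hp.add hp', hm.add hm', by abel⟩
  | neg E _ hE =>
    obtain ⟨Ep, Em, hp, hm, rfl⟩ := hE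
    exact ⟨Em, Ep, hm, hp, by abel⟩

/-- the kernel of a surjective ring hom from a valuation ring to a field is the maximal ideal -/
theorem map_eq_zero_iff_not_isUnit (hπ : Function.Surjective π) (a : A) :
    π a = 0 ↔ ¬ IsUnit a := by
  constructor
  · intro h hu
    have := hu.map π
    rw [h] at this
    exact not_isUnit_zero this
  · intro hu
    by_contra hne
    obtain ⟨b, hb⟩ := hπ (π a)⁻¹
    have h1 : π (a * b - 1) = 0 := by
      rw [map_sub, map_mul, hb, mul_inv_cancel₀ hne, map_one, sub_self]
    have h2 : ¬ IsUnit (a * b) := fun h => hu (isUnit_of_mul_isUnit_left h)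
    have h3 : IsUnit (a * b - 1) := by
      have hm : a * b ∈ IsLocalRing.maximalIdeal A := (IsLocalRing.mem_maximalIdeal _).mpr h2
      have := IsLocalRing.isUnit_one_sub_self_of_mem_nonunits (a * b) hm
      have h4 : a * b - 1 = -(1 - a * b) := by ring
      rw [h4]
      exact this.neg
    have := h3.map π
    rw [h1] at this
    exact not_isUnit_zero this

/-- Gauss-type lemma: if `ι x = c • ι y` with `y` of nonzero reduction, then `c ∈ A`. -/
theorem exists_eq_C_mul (hπ : Function.Surjective π) {x y : LaurentSeries A} {c : L} (hc : c ≠ 0)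
    (h : ι A x = HahnSeries.C c * ι A y) (hy : red A π y ≠ 0) :
    ∃ a : A, (a : L) = c ∧ x = HahnSeries.C a * y := by
  by_cases hcA : c ∈ A
  · refine ⟨⟨c, hcA⟩, rfl, ι_injective A ?_⟩
    rw [h, map_mul, coeffMap_C]
    rfl
  · exfalso
    have hinv : c⁻¹ ∈ A := (A.mem_or_inv_mem c).resolve_left hcA
    have hnu : ¬ IsUnit (⟨c⁻¹, hinv⟩ : A) := by
      intro hu
      apply hcA
      obtain ⟨b, hb⟩ := hu.exists_right_inv
      have h3 : c⁻¹ * (b : L) = 1 := congrArg Subtype.val hb
      have h2 : (b : L) = c := by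
        field_simp at h3
        exact h3
      rw [← h2]
      exact b.2
    have hz : π ⟨c⁻¹, hinv⟩ = 0 := (map_eq_zero_iff_not_isUnit hπ _).mpr hnu
    have h5 : y = HahnSeries.C (⟨c⁻¹, hinv⟩ : A) * x := by
      apply ι_injective A
      rw [map_mul, coeffMap_C, h, ← mul_assoc, ← map_mul]
      show ι A y = HahnSeries.C (c⁻¹ * c) * ι A y
      rw [inv_mul_cancel₀ hc, map_one, one_mul]
    apply hy
    rw [h5, map_mul, coeffMap_C, hz, map_zero, zero_mul]

section Hyp

variable (hπ : Function.Surjective π)
variable (hgen : PrincipalGeneratedByIntegral A π N)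
variable (hconst : ∀ g : laurentBaseChange L (modularFunctionFieldFull N), g ≠ 0 →
  (∀ P : Place L (laurentBaseChange L (modularFunctionFieldFull N)), P.ord g = 0) →
    ∃ c : L, algebraMap L (laurentBaseChange L (modularFunctionFieldFull N)) c = g)
variable (hdiv : ∀ f : laurentBaseChange L (modularFunctionFieldFull N), f ≠ 0 →
  ∃ D : Divisor L (laurentBaseChange L (modularFunctionFieldFull N)), ∀ P, D P = P.ord f)

include hgen hconst in
theorem exists_decomp {f : laurentBaseChange L (modularFunctionFieldFull N)} (hf : f ≠ 0)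
    {D : Divisor L (laurentBaseChange L (modularFunctionFieldFull N))}
    (hD : ∀ P, D P = P.ord f) :
    ∃ (yp ym : LaurentSeries A) (hp : yp ∈ intUnits A π N) (hm : ym ∈ intUnits A π N)
      (Ep Em : Divisor L (laurentBaseChange L (modularFunctionFieldFull N))),
      (∀ P, Ep P = P.ord (toF yp hp)) ∧ (∀ P, Em P = P.ord (toF ym hm)) ∧
      D = Ep - Em ∧ ∃ c : L, c ≠ 0 ∧
        f * toF ym hm = algebraMap L (laurentBaseChange L (modularFunctionFieldFull N)) c * toF yp hp := by
  have hDp : D ∈ Divisor.principal (K := L) (F := laurentBaseChange L (modularFunctionFieldFull N)) :=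
    Divisor.mem_principal.mpr ⟨f, hf, hD⟩
  obtain ⟨Ep, Em, ⟨yp, hp, hEp⟩, ⟨ym, hm, hEm⟩, hDE⟩ := exists_sub_of_mem_closure (hgen hDp)
  refine ⟨yp, ym, hp, hm, Ep, Em, hEp, hEm, hDE, ?_⟩
  have hYp := toF_ne_zero hp
  have hYm := toF_ne_zero hm
  have hg0 : f * toF ym hm / toF yp hp ≠ 0 := div_ne_zero (mul_ne_zero hf hYm) hYp
  obtain ⟨c, hc⟩ := hconst (f * toF ym hm / toF yp hp) hg0 (fun P => by
    rw [ord_div P (mul_ne_zero hf hYm) hYp, P.ord_mul hf hYm, ← hD P, ← hEm P, ← hEp P, hDE,
      Finsupp.sub_apply]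
    ring)
  refine ⟨c, ?_, ?_⟩
  · rintro rfl
    rw [map_zero] at hc
    exact hg0 hc.symm
  · rw [hc, div_mul_cancel₀ _ hYp]

include hπ hgen hconst hdiv in
/-- `hyk` is automatic. -/
theorem red_mem_of_ne_zero {y : LaurentSeries A}
    (hy : ι A y ∈ laurentBaseChange L (modularFunctionFieldFull N)) (hne : red A π y ≠ 0) :
    red A π y ∈ modularFunctionFieldFullC k N := by
  have hy0 : y ≠ 0 := by rintro rfl; exact hne (map_zero _)
  have hf : (⟨ι A y, hy⟩ : laurentBaseChange L (modularFunctionFieldFull N)) ≠ 0 := by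
    intro h
    exact hy0 (ι_injective A ((congrArg Subtype.val h).trans (map_zero _).symm))
  obtain ⟨D, hD⟩ := hdiv _ hf
  obtain ⟨yp, ym, hp, hm, Ep, Em, -, -, -, c, hc, hfc⟩ := exists_decomp hgen hconst hf hD
  have h1 : ι A (y * ym) = HahnSeries.C c * ι A yp := by
    have := congrArg Subtype.val hfc
    rw [map_mul, C_eq_algebraMap]
    exact this
  obtain ⟨a, -, hxa⟩ := exists_eq_C_mul hπ hc h1 hp.2.2
  have h2 : red A π y * red A π ym = HahnSeries.C (π a) * red A π yp := by
    rw [← map_mul, hxa, map_mul, coeffMap_C]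
  have h3 : red A π y = HahnSeries.C (π a) * red A π yp / red A π ym := by
    rw [← h2, mul_div_cancel_right₀ _ hm.2.2]
  rw [h3]
  refine div_mem (mul_mem ?_ hp.2.1) hm.2.1
  rw [C_eq_algebraMap]
  exact (modularFunctionFieldFullC k N).algebraMap_mem (π a)

end Hyp

/-! ## The Gauss valuation ring -/

variable (A π N) in
/-- `f` is a quotient `n / s` with `n` integral and `s` an integral unit. -/
def IsInt (f : laurentBaseChange L (modularFunctionFieldFull N)) : Prop :=
  ∃ (n s : LaurentSeries A), s ∈ intUnits A π N ∧ (f : LaurentSeries L) * ι A s = ι A n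

variable (A π N) in
/-- the Gauss subring of the generic function field -/
def gaussSubring : Subring (laurentBaseChange L (modularFunctionFieldFull N)) where
  carrier := {f | IsInt A π N f}
  one_mem' := ⟨1, 1, one_mem _, by simp⟩
  zero_mem' := ⟨0, 1, one_mem _, by simp⟩
  mul_mem' := by
    rintro f g ⟨n, s, hs, h⟩ ⟨n', s', hs', h'⟩
    refine ⟨n * n', s * s', mul_mem hs hs', ?_⟩
    rw [map_mul, map_mul, ← h, ← h']
    push_cast
    ring
  add_mem' := by
    rintro f g ⟨n, s, hs, h⟩ ⟨n', s', hs', h'⟩
    refine ⟨n * s' + n' * s, s * s', mul_mem hs hs', ?_⟩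
    rw [map_add, map_mul, map_mul, map_mul, ← h, ← h']
    push_cast
    ring
  neg_mem' := by
    rintro f ⟨n, s, hs, h⟩
    refine ⟨-n, s, hs, ?_⟩
    rw [map_neg, ← h]
    push_cast
    ring

theorem mem_gaussSubring {f : laurentBaseChange L (modularFunctionFieldFull N)} :
    f ∈ gaussSubring A π N ↔ IsInt A π N f := Iff.rfl

/-! ## The residue map -/

/-- the residue map as a function into `k((q))` -/
def resFun (f : gaussSubring A π N) : LaurentSeries k :=
  red A π (Classical.choose f.2) / red A π (Classical.choose (Classical.choose_spec f.2))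

theorem resFun_eq (f : gaussSubring A π N) {n s : LaurentSeries A} (hs : s ∈ intUnits A π N)
    (h : ((f : laurentBaseChange L (modularFunctionFieldFull N)) : LaurentSeries L) * ι A s = ι A n) :
    resFun f = red A π n / red A π s := by
  obtain ⟨hs', h'⟩ := Classical.choose_spec (Classical.choose_spec f.2)
  set n' := Classical.choose f.2
  set s' := Classical.choose (Classical.choose_spec f.2)
  show red A π n' / red A π s' = red A π n / red A π s
  have key : n' * s = n * s' := by
    apply ι_injective A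
    rw [map_mul, map_mul, ← h, ← h']
    ring
  rw [div_eq_div_iff hs'.2.2 hs.2.2, ← map_mul, ← map_mul, key]

/-- the residue map as a ring hom into `k((q))` -/
def resL : gaussSubring A π N →+* LaurentSeries k where
  toFun := resFun
  map_one' := by
    rw [resFun_eq 1 (n := 1) (s := 1) (one_mem _) (by simp), map_one, div_one]
  map_zero' := by
    rw [resFun_eq 0 (n := 0) (s := 1) (one_mem _) (by simp), map_zero, zero_div]
  map_mul' := by
    intro x y
    obtain ⟨n, s, hs, h⟩ := x.2
    obtain ⟨n', s', hs', h'⟩ := y.2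
    rw [resFun_eq x hs h, resFun_eq y hs' h',
      resFun_eq (x * y) (n := n * n') (s := s * s')
        (mul_mem hs hs') (by
          rw [map_mul, map_mul, ← h, ← h']
          push_cast
          ring),
      map_mul, map_mul, mul_div_mul_comm]
  map_add' := by
    intro x y
    obtain ⟨n, s, hs, h⟩ := x.2
    obtain ⟨n', s', hs', h'⟩ := y.2
    rw [resFun_eq x hs h, resFun_eq y hs' h',
      resFun_eq (x + y) (n := n * s' + n' * s) (s := s * s')
        (mul_mem hs hs') (by
          rw [map_add, map_mul, map_mul, map_mul, ← h, ← h']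
          push_cast
          ring),
      map_add, map_mul, map_mul, map_mul, div_add_div _ _ hs.2.2 hs'.2.2,
      mul_comm (red A π n') (red A π s)]

theorem resL_eq (f : gaussSubring A π N) {n s : LaurentSeries A} (hs : s ∈ intUnits A π N)
    (h : ((f : laurentBaseChange L (modularFunctionFieldFull N)) : LaurentSeries L) * ι A s = ι A n) :
    resL f = red A π n / red A π s := resFun_eq f hs h

section Hyp2

variable (hπ : Function.Surjective π)
variable (hgen : PrincipalGeneratedByIntegral A π N)
variable (hconst : ∀ g : laurentBaseChange L (modularFunctionFieldFull N), g ≠ 0 →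
  (∀ P : Place L (laurentBaseChange L (modularFunctionFieldFull N)), P.ord g = 0) →
    ∃ c : L, algebraMap L (laurentBaseChange L (modularFunctionFieldFull N)) c = g)
variable (hdiv : ∀ f : laurentBaseChange L (modularFunctionFieldFull N), f ≠ 0 →
  ∃ D : Divisor L (laurentBaseChange L (modularFunctionFieldFull N)), ∀ P, D P = P.ord f)

include hgen hconst hdiv in
theorem mem_or_inv_mem_gaussSubring (f : laurentBaseChange L (modularFunctionFieldFull N)) :
    f ∈ gaussSubring A π N ∨ f⁻¹ ∈ gaussSubring A π N := by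
  rcases eq_or_ne f 0 with rfl | hf
  · exact Or.inl (zero_mem _)
  obtain ⟨D, hD⟩ := hdiv f hf
  obtain ⟨yp, ym, hp, hm, Ep, Em, -, -, -, c, hc, hfc⟩ := exists_decomp hgen hconst hf hD
  have hfc' : (f : LaurentSeries L) * ι A ym = HahnSeries.C c * ι A yp := by
    rw [C_eq_algebraMap]
    exact congrArg Subtype.val hfc
  by_cases hcA : c ∈ A
  · left
    refine ⟨HahnSeries.C (⟨c, hcA⟩ : A) * yp, ym, hm, ?_⟩
    rw [hfc', map_mul, coeffMap_C]
    rfl
  · right
    have hinv : c⁻¹ ∈ A := (A.mem_or_inv_mem c).resolve_left hcA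
    refine ⟨HahnSeries.C (⟨c⁻¹, hinv⟩ : A) * ym, yp, hp, ?_⟩
    have hf' : (f : LaurentSeries L) ≠ 0 := fun h => hf (Subtype.ext h)
    have hCc : (HahnSeries.C c : LaurentSeries L) ≠ 0 := by
      rw [C_eq_algebraMap]
      exact fun h => hc ((map_eq_zero _).mp h)
    rw [map_mul, coeffMap_C]
    show ((f⁻¹ : laurentBaseChange L (modularFunctionFieldFull N)) : LaurentSeries L) * ι A yp
      = HahnSeries.C (c⁻¹) * ι A ym
    have h1 : ι A yp = (HahnSeries.C c)⁻¹ * ((f : LaurentSeries L) * ι A ym) := by
      rw [hfc', ← mul_assoc, inv_mul_cancel₀ hCc, one_mul]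
    have h2 : (HahnSeries.C c : LaurentSeries L)⁻¹ = HahnSeries.C c⁻¹ := by
      rw [C_eq_algebraMap, C_eq_algebraMap, map_inv₀]
    rw [h1, h2]
    push_cast
    field_simp

variable (A π N) in
/-- the Gauss valuation ring of the generic function field -/
def gaussRing (hgen : PrincipalGeneratedByIntegral A π N)
    (hconst : ∀ g : laurentBaseChange L (modularFunctionFieldFull N), g ≠ 0 →
      (∀ P : Place L (laurentBaseChange L (modularFunctionFieldFull N)), P.ord g = 0) →
        ∃ c : L, algebraMap L (laurentBaseChange L (modularFunctionFieldFull N)) c = g)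
    (hdiv : ∀ f : laurentBaseChange L (modularFunctionFieldFull N), f ≠ 0 →
      ∃ D : Divisor L (laurentBaseChange L (modularFunctionFieldFull N)), ∀ P, D P = P.ord f) :
    ValuationSubring (laurentBaseChange L (modularFunctionFieldFull N)) :=
  { gaussSubring A π N with
    mem_or_inv_mem' := mem_or_inv_mem_gaussSubring hgen hconst hdiv }

theorem mem_gaussRing {f : laurentBaseChange L (modularFunctionFieldFull N)} :
    f ∈ gaussRing A π N hgen hconst hdiv ↔ IsInt A π N f := Iff.rfl

include hπ hgen hconst hdiv in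
theorem resL_mem (f : gaussSubring A π N) : resL f ∈ modularFunctionFieldFullC k N := by
  obtain ⟨n, s, hs, h⟩ := f.2
  rw [resL_eq f hs h]
  refine div_mem ?_ hs.2.1
  by_cases hn : red A π n = 0
  · rw [hn]; exact zero_mem _
  · refine red_mem_of_ne_zero hπ hgen hconst hdiv ?_ hn
    rw [← h]
    exact mul_mem f.1.2 hs.1

include hπ hgen hconst hdiv in
theorem resL_eq_zero_iff (f : gaussSubring A π N) : resL f = 0 ↔ ¬ IsUnit f := by
  constructor
  · intro h hu
    have := hu.map (resL (A := A) (π := π) (N := N))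
    rw [h] at this
    exact not_isUnit_zero this
  · intro hu
    by_contra hne
    apply hu
    obtain ⟨n, s, hs, h⟩ := f.2
    rw [resL_eq f hs h] at hne
    have hn : red A π n ≠ 0 := fun h0 => hne (by rw [h0, zero_div])
    have hnF : ι A n ∈ laurentBaseChange L (modularFunctionFieldFull N) := by
      rw [← h]; exact mul_mem f.1.2 hs.1
    have hn' : n ∈ intUnits A π N :=
      ⟨hnF, red_mem_of_ne_zero hπ hgen hconst hdiv hnF hn, hn⟩
    have hιn : ι A n ≠ 0 := ι_ne_zero_of_mem_intUnits hn'
    have hf0 : (f : laurentBaseChange L (modularFunctionFieldFull N)) ≠ 0 := by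
      intro h0
      apply hιn
      rw [← h, h0]
      simp
    have hinv : (f : laurentBaseChange L (modularFunctionFieldFull N))⁻¹ ∈ gaussSubring A π N := by
      refine ⟨s, n, hn', ?_⟩
      rw [← h]
      have hf0' : ((f : laurentBaseChange L (modularFunctionFieldFull N)) : LaurentSeries L) ≠ 0 :=
        fun h0 => hf0 (Subtype.ext h0)
      push_cast
      field_simp
    refine IsUnit.of_mul_eq_one ⟨_, hinv⟩ (Subtype.ext ?_)
    show (f : laurentBaseChange L (modularFunctionFieldFull N)) *
      (f : laurentBaseChange L (modularFunctionFieldFull N))⁻¹ = 1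
    exact mul_inv_cancel₀ hf0

include hπ in
theorem algebraMap_mem_gaussSubring_iff (c : L) :
    algebraMap L (laurentBaseChange L (modularFunctionFieldFull N)) c ∈ gaussSubring A π N ↔
      c ∈ A := by
  constructor
  · rintro ⟨n, s, hs, h⟩
    rcases eq_or_ne c 0 with rfl | hc
    · exact zero_mem _
    have h' : ι A n = HahnSeries.C c * ι A s := by
      rw [← h, C_eq_algebraMap]
      rfl
    obtain ⟨a, ha, -⟩ := exists_eq_C_mul hπ hc h' hs.2.2
    rw [← ha]
    exact a.2
  · intro hc
    refine ⟨HahnSeries.C (⟨c, hc⟩ : A), 1, one_mem _, ?_⟩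
    rw [map_one, mul_one, coeffMap_C, C_eq_algebraMap]
    rfl

theorem resL_algebraMap (a : A)
    (h : algebraMap L (laurentBaseChange L (modularFunctionFieldFull N)) (a : L) ∈
      gaussSubring A π N) :
    resL (⟨_, h⟩ : gaussSubring A π N) = algebraMap k (LaurentSeries k) (π a) := by
  rw [resL_eq _ (n := HahnSeries.C a) (s := 1) (one_mem _) (by
    rw [map_one, mul_one, coeffMap_C, C_eq_algebraMap]
    rfl), map_one, div_one, coeffMap_C, C_eq_algebraMap]

include hgen hconst hdiv in
theorem exists_const_mul_unit' (f : laurentBaseChange L (modularFunctionFieldFull N))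
    (hf : f ≠ 0) :
    ∃ c : L, c ≠ 0 ∧ ∃ u : gaussSubring A π N, IsUnit u ∧
      f = algebraMap L (laurentBaseChange L (modularFunctionFieldFull N)) c * (u : _) := by
  obtain ⟨D, hD⟩ := hdiv f hf
  obtain ⟨yp, ym, hp, hm, Ep, Em, -, -, -, c, hc, hfc⟩ := exists_decomp hgen hconst hf hD
  have hYp := toF_ne_zero hp
  have hYm := toF_ne_zero hm
  have hu1 : toF yp hp / toF ym hm ∈ gaussSubring A π N := by
    refine ⟨yp, ym, hm, ?_⟩
    have : toF yp hp / toF ym hm * toF ym hm = toF yp hp := div_mul_cancel₀ _ hYm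
    exact congrArg Subtype.val this
  have hu2 : toF ym hm / toF yp hp ∈ gaussSubring A π N := by
    refine ⟨ym, yp, hp, ?_⟩
    have : toF ym hm / toF yp hp * toF yp hp = toF ym hm := div_mul_cancel₀ _ hYp
    exact congrArg Subtype.val this
  refine ⟨c, hc, ⟨_, hu1⟩, ?_, ?_⟩
  · refine IsUnit.of_mul_eq_one ⟨_, hu2⟩ (Subtype.ext ?_)
    show toF yp hp / toF ym hm * (toF ym hm / toF yp hp) = 1
    field_simp
  · show f = _ * (toF yp hp / toF ym hm)
    rw [mul_div_assoc', ← hfc, mul_div_cancel_right₀ _ hYm]

include hπ hgen hconst in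
/-- the `r`-principle for all units of the Gauss ring -/
theorem ord_resL {r : Place L (laurentBaseChange L (modularFunctionFieldFull N)) →
      Place k (modularFunctionFieldFullC k N)} (hr : IsPlaceReductionAlong A π N r)
    (f : gaussSubring A π N) (hf : resL f ≠ 0)
    (hfk : resL f ∈ modularFunctionFieldFullC k N)
    (D : Divisor L (laurentBaseChange L (modularFunctionFieldFull N)))
    (hD : ∀ P, D P = P.ord (f : laurentBaseChange L (modularFunctionFieldFull N)))
    (Q : Place k (modularFunctionFieldFullC k N)) :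
    Finsupp.mapDomain r D Q = Q.ord (⟨resL f, hfk⟩ : modularFunctionFieldFullC k N) := by
  obtain ⟨n, s, hs, h⟩ := f.2
  rw [resL_eq f hs h] at hf
  have hn : red A π n ≠ 0 := fun h0 => hf (by rw [h0, zero_div])
  have hιn : ι A n ≠ 0 := by
    intro h0
    apply hn
    rw [ι_injective A (h0.trans (map_zero _).symm), map_zero]
  have hf0 : (f : laurentBaseChange L (modularFunctionFieldFull N)) ≠ 0 := by
    intro h0
    apply hιn
    rw [← h, h0]
    simp
  obtain ⟨yp, ym, hp, hm, Ep, Em, hEp, hEm, hDE, c, hc, hfc⟩ := exists_decomp hgen hconst hf0 hD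
  have hfc' : (f : laurentBaseChange L (modularFunctionFieldFull N)).1 * ι A ym
      = HahnSeries.C c * ι A yp := by
    rw [C_eq_algebraMap]
    exact congrArg Subtype.val hfc
  have h1 : ι A (n * ym) = HahnSeries.C c * ι A (yp * s) := by
    rw [map_mul, map_mul, ← h]
    calc (f : laurentBaseChange L (modularFunctionFieldFull N)).1 * ι A s * ι A ym
        = ((f : laurentBaseChange L (modularFunctionFieldFull N)).1 * ι A ym) * ι A s := by ring
      _ = HahnSeries.C c * (ι A yp * ι A s) := by rw [hfc']; ring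
  obtain ⟨a, -, hxa⟩ := exists_eq_C_mul hπ hc h1 (by
    rw [map_mul]; exact mul_ne_zero hp.2.2 hs.2.2)
  have h2 : red A π n * red A π ym = HahnSeries.C (π a) * (red A π yp * red A π s) := by
    rw [← map_mul, hxa, map_mul, map_mul, coeffMap_C]
  have hπa : π a ≠ 0 := by
    intro h0
    rw [h0, map_zero, zero_mul] at h2
    exact mul_ne_zero hn hm.2.2 h2
  have h3 : (⟨resL f, hfk⟩ : modularFunctionFieldFullC k N) =
      algebraMap k (modularFunctionFieldFullC k N) (π a) * toFk yp hp / toFk ym hm := by
    apply Subtype.ext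
    show resL f = algebraMap k (LaurentSeries k) (π a) * red A π yp / red A π ym
    rw [resL_eq f hs h, ← C_eq_algebraMap, div_eq_div_iff hs.2.2 hm.2.2, h2]
    ring
  have hYp := toFk_ne_zero hp
  have hYm := toFk_ne_zero hm
  have hca : algebraMap k (modularFunctionFieldFullC k N) (π a) ≠ 0 := by
    intro h0
    exact hπa ((map_eq_zero _).mp h0)
  rw [h3, ord_div Q (mul_ne_zero hca hYp) hYm, Q.ord_mul hca hYp, ord_algebraMap Q hπa, zero_add,
    hDE, Finsupp.mapDomain_sub, Finsupp.sub_apply,
    hr.2 yp hp.1 hp.2.1 hp.2.2 Ep hEp Q, hr.2 ym hm.1 hm.2.1 hm.2.2 Em hEm Q]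
  rfl

/-! ## Surjectivity of the residue map -/

include hπ hgen hconst hdiv in
theorem inv_mem_range_resL {x : LaurentSeries k}
    (hx : x ∈ Set.range (resL (A := A) (π := π) (N := N))) :
    x⁻¹ ∈ Set.range (resL (A := A) (π := π) (N := N)) := by
  obtain ⟨f, rfl⟩ := hx
  by_cases h0 : resL f = 0
  · rw [h0, inv_zero]
    exact ⟨0, map_zero _⟩
  · have hu : IsUnit f := by
      by_contra hnu
      exact h0 ((resL_eq_zero_iff hπ hgen hconst hdiv f).mpr hnu)
    obtain ⟨g, hg⟩ := hu.exists_right_inv
    refine ⟨g, ?_⟩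
    have : resL f * resL g = 1 := by rw [← map_mul, hg, map_one]
    exact eq_inv_of_mul_eq_one_right this

include hπ in
theorem algebraMap_mem_range_resL (c : k) :
    algebraMap k (LaurentSeries k) c ∈ Set.range (resL (A := A) (π := π) (N := N)) := by
  obtain ⟨a, rfl⟩ := hπ c
  exact ⟨⟨_, (algebraMap_mem_gaussSubring_iff hπ (a : L)).mpr a.2⟩, resL_algebraMap a _⟩

variable (A π N) in
/-- the range of the residue map as an intermediate field -/
def resRange (hπ : Function.Surjective π) (hgen : PrincipalGeneratedByIntegral A π N)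
    (hconst : ∀ g : laurentBaseChange L (modularFunctionFieldFull N), g ≠ 0 →
      (∀ P : Place L (laurentBaseChange L (modularFunctionFieldFull N)), P.ord g = 0) →
        ∃ c : L, algebraMap L (laurentBaseChange L (modularFunctionFieldFull N)) c = g)
    (hdiv : ∀ f : laurentBaseChange L (modularFunctionFieldFull N), f ≠ 0 →
      ∃ D : Divisor L (laurentBaseChange L (modularFunctionFieldFull N)), ∀ P, D P = P.ord f) :
    IntermediateField k (LaurentSeries k) where
  carrier := Set.range (resL (A := A) (π := π) (N := N))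
  mul_mem' := by
    rintro _ _ ⟨f, rfl⟩ ⟨g, rfl⟩
    exact ⟨f * g, map_mul _ _ _⟩
  one_mem' := ⟨1, map_one _⟩
  add_mem' := by
    rintro _ _ ⟨f, rfl⟩ ⟨g, rfl⟩
    exact ⟨f + g, map_add _ _ _⟩
  zero_mem' := ⟨0, map_zero _⟩
  algebraMap_mem' := algebraMap_mem_range_resL hπ
  inv_mem' := fun _ hx => inv_mem_range_resL hπ hgen hconst hdiv hx

theorem ι_qExpand_jqModC (d : ℕ) [NeZero d] :
    ι A (qExpand A d (jqModC A)) = qExpand L d (jqModC L) := by
  rw [coeffMap_qExpand, coeffMap_jqModC]

theorem red_qExpand_jqModC (d : ℕ) [NeZero d] :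
    red A π (qExpand A d (jqModC A)) = qExpand k d (jqModC k) := by
  rw [coeffMap_qExpand, coeffMap_jqModC]

theorem qExpand_jqModC_mem {d : ℕ} [NeZero d] (hd : d ∣ N) :
    qExpand L d (jqModC L) ∈ laurentBaseChange L (modularFunctionFieldFull N) := by
  have h := coeffEmb_mem_laurentBaseChange L (jqd_mem_full N hd)
  rw [coeffEmb, coeffMap_qExpand, ← jqModC_rat, coeffMap_jqModC] at h
  exact h

theorem qExpand_jqModC_ne_zero (d : ℕ) [NeZero d] : qExpand k d (jqModC k) ≠ 0 := by
  intro h
  have := qExpand_injective (R := k) (N := d) (h.trans (map_zero _).symm)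
  exact jqModC_ne_zero_of_nontrivial k this

end Hyp2

end Concrete

end Fermat.Agent.S18.H84
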