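import Mathlib
import Fermat.Agent.S18.H84_RedModel

set_option autoImplicit false

noncomputable section

open HahnSeries IntermediateField AlgebraicCurve ModularCurve

namespace Fermat.Agent.S18.H84

section Concrete

variable {L : Type*} [Field L] [Algebra ℚ L] {A : ValuationSubring L}
variable {k : Type*} [Field k] {π : A →+* k} {N : ℕ}

theorem gen_mem_intUnits {d : ℕ} [NeZero d] (hd : d ∣ N) :
    qExpand A d (jqModC A) ∈ intUnits A π N := by
  refine ⟨?_, ?_, ?_⟩
  · rw [ι_qExpand_jqModC]; exact qExpand_jqModC_mem hd
  · rw [red_qExpand_jqModC]; exact jqModCd_mem_full k N hd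
  · rw [red_qExpand_jqModC]; exact qExpand_jqModC_ne_zero d

theorem gen_mem_range {d : ℕ} [NeZero d] (hd : d ∣ N) :
    ∃ f : gaussSubring A π N, resL f = qExpand k d (jqModC k) := by
  have hmem := gen_mem_intUnits (A := A) (π := π) hd
  have hI : ((toF _ hmem : laurentBaseChange L (modularFunctionFieldFull N)) : LaurentSeries L) *
      ι A 1 = ι A (qExpand A d (jqModC A)) := by
    rw [map_one, mul_one]; rfl
  have hInt : toF _ hmem ∈ gaussSubring A π N := ⟨_, 1, one_mem _, hI⟩
  refine ⟨⟨toF _ hmem, hInt⟩, ?_⟩
  rw [resL_eq ⟨toF _ hmem, hInt⟩ (one_mem _) hI, map_one, div_one, red_qExpand_jqModC]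

section Hyp3

variable (hπ : Function.Surjective π)
variable (hgen : PrincipalGeneratedByIntegral A π N)
variable (hconst : ∀ g : laurentBaseChange L (modularFunctionFieldFull N), g ≠ 0 →
  (∀ P : Place L (laurentBaseChange L (modularFunctionFieldFull N)), P.ord g = 0) →
    ∃ c : L, algebraMap L (laurentBaseChange L (modularFunctionFieldFull N)) c = g)
variable (hdiv : ∀ f : laurentBaseChange L (modularFunctionFieldFull N), f ≠ 0 →
  ∃ D : Divisor L (laurentBaseChange L (modularFunctionFieldFull N)), ∀ P, D P = P.ord f)

theorem mem_resRange_iff {x : LaurentSeries k} :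
    x ∈ resRange A π N hπ hgen hconst hdiv ↔ ∃ f : gaussSubring A π N, resL f = x := Iff.rfl

theorem le_resRange : modularFunctionFieldFullC k N ≤ resRange A π N hπ hgen hconst hdiv := by
  unfold modularFunctionFieldFullC
  rw [IntermediateField.adjoin_le_iff]
  intro x hx
  obtain ⟨d, hne, hd, rfl⟩ := hx
  haveI := hne
  exact (mem_resRange_iff hπ hgen hconst hdiv).mpr (gen_mem_range hd)

include hπ hgen hconst hdiv in
theorem resL_surjective (x : modularFunctionFieldFullC k N) :
    ∃ f : gaussSubring A π N, resL f = (x : LaurentSeries k) :=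
  (mem_resRange_iff hπ hgen hconst hdiv).mp (le_resRange hπ hgen hconst hdiv x.2)

variable (A π N) in
/-- identification of the Gauss valuation ring with the Gauss subring -/
def gaussEquiv (hgen : PrincipalGeneratedByIntegral A π N)
    (hconst : ∀ g : laurentBaseChange L (modularFunctionFieldFull N), g ≠ 0 →
      (∀ P : Place L (laurentBaseChange L (modularFunctionFieldFull N)), P.ord g = 0) →
        ∃ c : L, algebraMap L (laurentBaseChange L (modularFunctionFieldFull N)) c = g)
    (hdiv : ∀ f : laurentBaseChange L (modularFunctionFieldFull N), f ≠ 0 →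
      ∃ D : Divisor L (laurentBaseChange L (modularFunctionFieldFull N)), ∀ P, D P = P.ord f) :
    ↥(gaussRing A π N hgen hconst hdiv) ≃+* ↥(gaussSubring A π N) where
  toFun x := ⟨x.1, x.2⟩
  invFun x := ⟨x.1, x.2⟩
  left_inv _ := rfl
  right_inv _ := rfl
  map_mul' _ _ := rfl
  map_add' _ _ := rfl

variable (A π N) in
/-- the residue map on the Gauss valuation ring, with values in the residue function field -/
def resO (hπ : Function.Surjective π) (hgen : PrincipalGeneratedByIntegral A π N)
    (hconst : ∀ g : laurentBaseChange L (modularFunctionFieldFull N), g ≠ 0 →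
      (∀ P : Place L (laurentBaseChange L (modularFunctionFieldFull N)), P.ord g = 0) →
        ∃ c : L, algebraMap L (laurentBaseChange L (modularFunctionFieldFull N)) c = g)
    (hdiv : ∀ f : laurentBaseChange L (modularFunctionFieldFull N), f ≠ 0 →
      ∃ D : Divisor L (laurentBaseChange L (modularFunctionFieldFull N)), ∀ P, D P = P.ord f) :
    ↥(gaussRing A π N hgen hconst hdiv) →+* ↥(modularFunctionFieldFullC k N) :=
  (RingHom.codRestrict resL (modularFunctionFieldFullC k N)
    (resL_mem hπ hgen hconst hdiv)).comp (gaussEquiv A π N hgen hconst hdiv).toRingHom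

theorem coe_resO (f : gaussRing A π N hgen hconst hdiv) :
    ((resO A π N hπ hgen hconst hdiv f : modularFunctionFieldFullC k N) : LaurentSeries k) =
      resL (gaussEquiv A π N hgen hconst hdiv f) := rfl

end Hyp3

/-! ## The model -/

/-- The reduction model attached to `ReductionInputsAlong`, given that functions without zeros
and poles are constant and that every nonzero function has a divisor. -/
def redModel (hπ : Function.Surjective π) (h : ReductionInputsAlong A π N)
    (hconst : ∀ g : laurentBaseChange L (modularFunctionFieldFull N), g ≠ 0 →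
      (∀ P : Place L (laurentBaseChange L (modularFunctionFieldFull N)), P.ord g = 0) →
        ∃ c : L, algebraMap L (laurentBaseChange L (modularFunctionFieldFull N)) c = g)
    (hdiv : ∀ f : laurentBaseChange L (modularFunctionFieldFull N), f ≠ 0 →
      ∃ D : Divisor L (laurentBaseChange L (modularFunctionFieldFull N)), ∀ P, D P = P.ord f) :
    RedModel A π h.choose where
  O := gaussRing A π N h.choose_spec.2 hconst hdiv
  res := resO A π N hπ h.choose_spec.2 hconst hdiv
  res_surjective := by
    intro x
    obtain ⟨f, hf⟩ := resL_surjective hπ h.choose_spec.2 hconst hdiv x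
    refine ⟨(gaussEquiv A π N h.choose_spec.2 hconst hdiv).symm f, Subtype.ext ?_⟩
    rw [coe_resO, RingEquiv.apply_symm_apply, hf]
  res_eq_zero_iff := by
    intro f
    have h1 : resO A π N hπ h.choose_spec.2 hconst hdiv f = 0 ↔
        resL (gaussEquiv A π N h.choose_spec.2 hconst hdiv f) = 0 := by
      rw [← coe_resO hπ h.choose_spec.2 hconst hdiv f]
      exact Subtype.ext_iff
    rw [h1, resL_eq_zero_iff hπ h.choose_spec.2 hconst hdiv]
    exact not_congr (MulEquiv.isUnit_map (gaussEquiv A π N h.choose_spec.2 hconst hdiv).toMulEquiv)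
  const_mem_iff := fun c => algebraMap_mem_gaussSubring_iff hπ c
  res_const := by
    intro a ha
    apply Subtype.ext
    rw [coe_resO]
    exact resL_algebraMap a ha
  exists_const_mul_unit := by
    intro f hf
    obtain ⟨c, hc, u, hu, hfu⟩ := exists_const_mul_unit' h.choose_spec.2 hconst hdiv f hf
    refine ⟨c, hc, (gaussEquiv A π N h.choose_spec.2 hconst hdiv).symm u, ?_, hfu⟩
    exact (MulEquiv.isUnit_map (gaussEquiv A π N h.choose_spec.2 hconst hdiv).symm.toMulEquiv).mpr hu
  ord_res := by
    intro f hf D hD Q
    have hf' : resL (gaussEquiv A π N h.choose_spec.2 hconst hdiv f) ≠ 0 := by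
      intro h0
      apply hf
      apply Subtype.ext
      rw [coe_resO]
      exact h0
    exact ord_resL hπ h.choose_spec.2 hconst h.choose_spec.1
      (gaussEquiv A π N h.choose_spec.2 hconst hdiv f) hf'
      (resL_mem hπ h.choose_spec.2 hconst hdiv _) D hD Q
  deg_eq := h.choose_spec.1.1

section ModelLemmas

variable (hπ : Function.Surjective π) (h : ReductionInputsAlong A π N)
variable (hconst : ∀ g : laurentBaseChange L (modularFunctionFieldFull N), g ≠ 0 →
  (∀ P : Place L (laurentBaseChange L (modularFunctionFieldFull N)), P.ord g = 0) →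
    ∃ c : L, algebraMap L (laurentBaseChange L (modularFunctionFieldFull N)) c = g)
variable (hdiv : ∀ f : laurentBaseChange L (modularFunctionFieldFull N), f ≠ 0 →
  ∃ D : Divisor L (laurentBaseChange L (modularFunctionFieldFull N)), ∀ P, D P = P.ord f)

theorem mem_redModel_O_iff {f : laurentBaseChange L (modularFunctionFieldFull N)} :
    f ∈ (redModel hπ h hconst hdiv).O ↔
      ∃ (n s : LaurentSeries A), s ∈ intUnits A π N ∧ (f : LaurentSeries L) * ι A s = ι A n :=
  Iff.rfl

/-- computation of the residue map of the model on a quotient `n / s` -/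
theorem coe_redModel_res (f : (redModel hπ h hconst hdiv).O) {n s : LaurentSeries A}
    (hs : s ∈ intUnits A π N)
    (hf : ((f : laurentBaseChange L (modularFunctionFieldFull N)) : LaurentSeries L) * ι A s
      = ι A n) :
    (((redModel hπ h hconst hdiv).res f : modularFunctionFieldFullC k N) : LaurentSeries k) =
      red A π n / red A π s :=
  resL_eq (gaussEquiv A π N h.choose_spec.2 hconst hdiv f) hs hf

/-- every `q`-integral element of the generic function field lies in the Gauss ring -/
theorem integral_mem_redModel_O {y : LaurentSeries A}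
    (hy : ι A y ∈ laurentBaseChange L (modularFunctionFieldFull N)) :
    (⟨ι A y, hy⟩ : laurentBaseChange L (modularFunctionFieldFull N)) ∈
      (redModel hπ h hconst hdiv).O :=
  ⟨y, 1, one_mem _, by rw [map_one, mul_one]⟩

/-- the residue of a `q`-integral element is its coefficientwise reduction -/
theorem coe_redModel_res_integral {y : LaurentSeries A}
    (hy : ι A y ∈ laurentBaseChange L (modularFunctionFieldFull N)) :
    (((redModel hπ h hconst hdiv).res ⟨_, integral_mem_redModel_O hπ h hconst hdiv hy⟩ :
      modularFunctionFieldFullC k N) : LaurentSeries k) = red A π y := by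
  rw [coe_redModel_res hπ h hconst hdiv _ (n := y) (s := 1) (one_mem _)
    (by rw [map_one, mul_one]), map_one, div_one]

include hπ h hconst hdiv in
/-- in particular `hyk` is automatic: the reduction of a `q`-integral element of the generic
function field lies in the residue function field -/
theorem red_mem_of_integral {y : LaurentSeries A}
    (hy : ι A y ∈ laurentBaseChange L (modularFunctionFieldFull N)) :
    red A π y ∈ modularFunctionFieldFullC k N := by
  rw [← coe_redModel_res_integral hπ h hconst hdiv hy]
  exact Subtype.coe_prop _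

variable (L N) in
/-- the `j`-function in the generic function field -/
def jF : laurentBaseChange L (modularFunctionFieldFull N) :=
  ⟨jqModC L, by
    have := qExpand_jqModC_mem (L := L) (N := N) (d := 1) (one_dvd N)
    rwa [qExpand_one_apply] at this⟩

variable (k N) in
/-- the `j`-function in the residue function field -/
def jFk : modularFunctionFieldFullC k N := ⟨jqModC k, jqModC_mem_full k N⟩

theorem jF_mem_redModel_O : jF L N ∈ (redModel hπ h hconst hdiv).O :=
  ⟨jqModC A, 1, one_mem _, by
    rw [map_one, mul_one, coeffMap_jqModC]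
    rfl⟩

theorem redModel_res_jF :
    (redModel hπ h hconst hdiv).res ⟨jF L N, jF_mem_redModel_O hπ h hconst hdiv⟩ = jFk k N := by
  apply Subtype.ext
  rw [coe_redModel_res hπ h hconst hdiv _ (n := jqModC A) (s := 1) (one_mem _)
    (by rw [map_one, mul_one, coeffMap_jqModC]; rfl), map_one, div_one, coeffMap_jqModC]
  rfl

end ModelLemmas

end Concrete

end Fermat.Agent.S18.H84
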