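import Mathlib
import Fermat.Agent.S18.H84_RedModelFinal
import Fermat.Agent.S18.H11_IfaceDefs
import Fermat.Agent.S18.H71_Glue

/-!
# S18: compatibility layer between `RedModel` (helper84), `GaussRed` (helper71) and `IntElt`
(helper11).
-/

set_option autoImplicit false

noncomputable section

open HahnSeries IntermediateField AlgebraicCurve ModularCurve

namespace Fermat.Agent.S18.H84

section Abstract

variable {K F k Fk : Type*} [Field K] [Field F] [Algebra K F] [Field k] [Field Fk]
  [Algebra k Fk] {A : ValuationSubring K} {π : A →+* k} {r : Place K F → Place k Fk}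

theorem RedModel.isUnit_iff (M : RedModel A π r) (f : M.O) : IsUnit f ↔ M.res f ≠ 0 := by
  rw [ne_eq, M.res_eq_zero_iff, not_not]

theorem RedModel.valuation_eq_one_iff (M : RedModel A π r) (f : M.O) :
    M.O.valuation (f : F) = 1 ↔ M.res f ≠ 0 := by
  rw [← M.isUnit_iff]
  exact (M.O.valuation_eq_one_iff f).symm

/-- helper71's `scale` shape -/
theorem RedModel.scale (M : RedModel A π r) (y : F) (hy : y ≠ 0) :
    ∃ c : K, c ≠ 0 ∧ ∃ u : M.Oˣ, algebraMap K F c * y = ((u : M.O) : F) := by
  obtain ⟨c, hc, u, hu, hyu⟩ := M.exists_const_mul_unit y hy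
  refine ⟨c⁻¹, inv_ne_zero hc, hu.unit, ?_⟩
  rw [hyu, ← mul_assoc, ← map_mul, inv_mul_cancel₀ hc, map_one, one_mul]
  rfl

/-- the abstract reduction datum of helper71 attached to a `RedModel` -/
def gaussRedOfRedModel (M : RedModel A π r)
    (fin_ord : ∀ y : F, y ≠ 0 → {P : Place K F | P.ord y ≠ 0}.Finite) :
    H71.GaussRed K F k Fk M.O.ValueGroup :=
  H71.GaussRed.ofValuationSubring M.O M.res r M.res_eq_zero_iff M.scale fin_ord M.ord_res

theorem gaussRedOfRedModel_v (M : RedModel A π r)
    (fin_ord : ∀ y : F, y ≠ 0 → {P : Place K F | P.ord y ≠ 0}.Finite) :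
    (gaussRedOfRedModel M fin_ord).v = M.O.valuation := rfl

theorem gaussRedOfRedModel_r (M : RedModel A π r)
    (fin_ord : ∀ y : F, y ≠ 0 → {P : Place K F | P.ord y ≠ 0}.Finite) :
    (gaussRedOfRedModel M fin_ord).r = r := rfl

theorem gaussRedOfRedModel_red_of_mem (M : RedModel A π r)
    (fin_ord : ∀ y : F, y ≠ 0 → {P : Place K F | P.ord y ≠ 0}.Finite) {y : F} (hy : y ∈ M.O) :
    (gaussRedOfRedModel M fin_ord).red y = M.res ⟨y, hy⟩ :=
  H71.extendRed_of_mem M.O M.res hy

/-- residue of an integral constant -/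
theorem gaussRedOfRedModel_red_algebraMap (M : RedModel A π r)
    (fin_ord : ∀ y : F, y ≠ 0 → {P : Place K F | P.ord y ≠ 0}.Finite) (a : A) :
    (gaussRedOfRedModel M fin_ord).red (algebraMap K F (a : K)) = algebraMap k Fk (π a) := by
  have h : algebraMap K F (a : K) ∈ M.O := (M.const_mem_iff _).mpr a.2
  rw [gaussRedOfRedModel_red_of_mem M fin_ord h, M.res_const a h]

theorem gaussRedOfRedModel_v_algebraMap_le (M : RedModel A π r)
    (fin_ord : ∀ y : F, y ≠ 0 → {P : Place K F | P.ord y ≠ 0}.Finite) (a : A) :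
    (gaussRedOfRedModel M fin_ord).v (algebraMap K F (a : K)) ≤ 1 :=
  (M.O.valuation_le_one_iff _).mpr ((M.const_mem_iff _).mpr a.2)

end Abstract

section Frozen

variable {A : ValuationSubring (AlgebraicClosure ℚ)} {N : ℕ}
variable (h : ReductionInputsModL A N)
variable (hconst : ∀ g : modularFunctionFieldBar N, g ≠ 0 →
  (∀ P : Place (AlgebraicClosure ℚ) (modularFunctionFieldBar N), P.ord g = 0) →
    ∃ c : AlgebraicClosure ℚ, algebraMap (AlgebraicClosure ℚ) (modularFunctionFieldBar N) c = g)
variable (hdiv : ∀ f : modularFunctionFieldBar N, f ≠ 0 →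
  ∃ D : Divisor (AlgebraicClosure ℚ) (modularFunctionFieldBar N), ∀ P, D P = P.ord f)

/-- the reduction model in the frozen vocabulary of S18 -/
def redModelModL :
    RedModel A (IsLocalRing.residue A) (placeReductionModL h) :=
  redModel (A := A) (π := IsLocalRing.residue A) (N := N) IsLocalRing.residue_surjective h
    hconst hdiv

theorem intElt_gen_mem (Y : H11.IntElt A N) : Y.gen ∈ (redModelModL h hconst hdiv).O :=
  integral_mem_redModel_O IsLocalRing.residue_surjective h hconst hdiv Y.mem

theorem res_intElt_gen (Y : H11.IntElt A N) :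
    (redModelModL h hconst hdiv).res ⟨Y.gen, intElt_gen_mem h hconst hdiv Y⟩ = Y.red := by
  apply Subtype.ext
  exact coe_redModel_res_integral IsLocalRing.residue_surjective h hconst hdiv Y.mem

theorem valuation_intElt_gen (Y : H11.IntElt A N) :
    (redModelModL h hconst hdiv).O.valuation (Y.gen : modularFunctionFieldBar N) = 1 := by
  rw [(redModelModL h hconst hdiv).valuation_eq_one_iff ⟨Y.gen, intElt_gen_mem h hconst hdiv Y⟩,
    res_intElt_gen]
  intro h0
  exact Y.ne (congrArg Subtype.val h0)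

/-- `hcompat` of helper71's `coreE_of_gaussRed` / `s18_of_gaussRed` -/
theorem hcompat_gaussRed
    (fin_ord : ∀ y : modularFunctionFieldBar N, y ≠ 0 →
      {P : Place (AlgebraicClosure ℚ) (modularFunctionFieldBar N) | P.ord y ≠ 0}.Finite)
    (Y : H11.IntElt A N) :
    (gaussRedOfRedModel (redModelModL h hconst hdiv) fin_ord).v Y.gen = 1 ∧
      (gaussRedOfRedModel (redModelModL h hconst hdiv) fin_ord).red Y.gen = Y.red := by
  refine ⟨valuation_intElt_gen h hconst hdiv Y, ?_⟩
  rw [gaussRedOfRedModel_red_of_mem _ fin_ord (intElt_gen_mem h hconst hdiv Y), res_intElt_gen]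

end Frozen

end Fermat.Agent.S18.H84
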