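/-
S18 / INST-7 (helper33): the R0 side of `gR_FN_le_gR_Fk_of_model_res1` discharged from the
frozen hypothesis `h : ReductionInputsModL A N` through helper84's `redModelModL`:
`O`, `res`, `hAO`, `hcompat`, `res j = j̄`, `res j_N = j̄_N`, and the comparison
`hO1`/`hcomp` (via helper34's `compat_of_frac`).  What remains is model-intrinsic data over
`(R, F1)` only.
-/
import Mathlib
import Fermat.Agent.S18.H33_CechComp
import Fermat.Agent.S18.H34_Compare
import Fermat.Agent.S18.H84_RedCompat
import Fermat.Agent.S18.H11_IfaceInst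

set_option autoImplicit false
set_option synthInstance.maxHeartbeats 400000

noncomputable section

namespace Fermat.Agent.S18.H33

open AlgebraicCurve ModularCurve IntermediateField Polynomial
open Fermat.Agent.S24 Fermat.Agent.RR

section R0

variable (N : ℕ) [NeZero N]

/-- On the generic fibre a function without zeros and poles is a constant. -/
theorem hconst_FN (g : FN N) (_hg : g ≠ 0)
    (hord : ∀ P : Place Qbar (FN N), P.ord g = 0) :
    ∃ c : Qbar, algebraMap Qbar (FN N) c = g := by
  obtain ⟨a, ha⟩ := H11.mem_range_of_isAlgebraic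
    ((H76.ffInputs_FN N).forall_ord_eq_zero_iff_isAlgebraic.mp hord)
  exact ⟨a, ha.symm⟩

variable {N}
variable {A : ValuationSubring (AlgebraicClosure ℚ)} (h : ReductionInputsModL A N)

local notation "kA" => IsLocalRing.ResidueField A

/-- helper84's reduction model for `(A, ℚ̄, FN N)`, all side hypotheses discharged. -/
def redModelFN : H84.RedModel A (IsLocalRing.residue A) (placeReductionModL h) :=
  H84.redModelModL h (hconst_FN N) (fun f _ => H11.hdiv_FN N f)

theorem algebraMap_mem_redModelFN (a : A) :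
    algebraMap Qbar (FN N) (a : Qbar) ∈ (redModelFN h).O.toSubring :=
  ((redModelFN h).const_mem_iff _).mpr a.2

theorem res_algebraMap_redModelFN (a : A) :
    (redModelFN h).res ⟨algebraMap Qbar (FN N) (a : Qbar), algebraMap_mem_redModelFN h a⟩
      = algebraMap kA (modularFunctionFieldFullC kA N) (IsLocalRing.residue A a) :=
  (redModelFN h).res_const a _

/-- membership in the Gauss ball for `q`-integral elements -/
theorem mem_redModelFN_of_eq {f : FN N} {y : LaurentSeries A}
    (hf : (f : LaurentSeries Qbar) = H84.ι A y) : f ∈ (redModelFN h).O.toSubring := by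
  obtain ⟨f, hfm⟩ := f
  change f = _ at hf
  subst hf
  exact H84.integral_mem_redModel_O (A := A) (π := IsLocalRing.residue A) (N := N)
    IsLocalRing.residue_surjective h (hconst_FN N) (fun f _ => H11.hdiv_FN N f) hfm

/-- the residue of a `q`-integral element is its coefficientwise reduction -/
theorem res_redModelFN_of_eq {f : FN N} {y : LaurentSeries A}
    (hf : (f : LaurentSeries Qbar) = H84.ι A y) :
    (((redModelFN h).res ⟨f, mem_redModelFN_of_eq h hf⟩ :
      modularFunctionFieldFullC kA N) : LaurentSeries kA) = coeffMap (IsLocalRing.residue A) y := by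
  obtain ⟨f, hfm⟩ := f
  change f = _ at hf
  subst hf
  exact H84.coe_redModel_res_integral (A := A) (π := IsLocalRing.residue A) (N := N)
    IsLocalRing.residue_surjective h (hconst_FN N) (fun f _ => H11.hdiv_FN N f) hfm

variable (A) in
theorem jd_eq (d : ℕ) [NeZero d] (hd : d ∣ N) :
    ((jd N d hd : FN N) : LaurentSeries Qbar) = H84.ι A (qExpand A d (jqModC A)) := by
  show coeffEmb Qbar (qExpand ℚ d jq) = coeffMap A.subtype (qExpand A d (jqModC A))
  rw [coeffEmb, coeffMap_qExpand, ← jqModC_rat, coeffMap_jqModC, coeffMap_qExpand,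
    coeffMap_jqModC]

variable (A) in
theorem jBar_eq : ((jBar N : FN N) : LaurentSeries Qbar) = H84.ι A (jqModC A) := by
  show coeffEmb Qbar jq = coeffMap A.subtype (jqModC A)
  rw [coeffEmb, ← jqModC_rat, coeffMap_jqModC, coeffMap_jqModC]

theorem jd_mem_redModelFN (d : ℕ) [NeZero d] (hd : d ∣ N) :
    jd N d hd ∈ (redModelFN h).O.toSubring :=
  mem_redModelFN_of_eq h (jd_eq A d hd)

theorem res_jd_redModelFN (d : ℕ) [NeZero d] (hd : d ∣ N) :
    (((redModelFN h).res ⟨jd N d hd, jd_mem_redModelFN h d hd⟩ :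
      modularFunctionFieldFullC kA N) : LaurentSeries kA) = qExpand kA d (jqModC kA) := by
  rw [res_redModelFN_of_eq h (jd_eq A d hd), coeffMap_qExpand, coeffMap_jqModC]

theorem jBar_mem_redModelFN : jBar N ∈ (redModelFN h).O.toSubring :=
  mem_redModelFN_of_eq h (jBar_eq A)

theorem res_jBar_redModelFN :
    (redModelFN h).res ⟨jBar N, jBar_mem_redModelFN h⟩ = H16.jK kA N := by
  apply Subtype.ext
  rw [res_redModelFN_of_eq h (jBar_eq A), coeffMap_jqModC]
  rfl

theorem res_jN_redModelFN :
    (redModelFN h).res ⟨jd N N dvd_rfl, jd_mem_redModelFN h N dvd_rfl⟩ = H16.jNK kA N := by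
  apply Subtype.ext
  rw [res_jd_redModelFN h N dvd_rfl]
  rfl

/-- elements of the Gauss ball with nonzero residue are units -/
theorem exists_mul_eq_one_redModelFN (u : (redModelFN h).O.toSubring)
    (hu : (redModelFN h).res u ≠ 0) :
    ∃ v : (redModelFN h).O.toSubring, (u : FN N) * (v : FN N) = 1 := by
  have hunit : IsUnit (u : (redModelFN h).O) := ((redModelFN h).isUnit_iff u).mpr hu
  obtain ⟨v, hv⟩ := hunit.exists_right_inv
  exact ⟨v, congrArg Subtype.val hv⟩

end R0

section Main

variable (N : ℕ) [NeZero N] {ℓ : ℕ} [hℓ : Fact ℓ.Prime] (hℓN : ¬ ℓ ∣ N)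
variable (A : ValuationSubring (AlgebraicClosure ℚ))

local notation "kA" => IsLocalRing.ResidueField A

/-- **INST-7 with the R0 side discharged.**  From the frozen hypothesis
`h : ReductionInputsModL A N` (through helper84's `redModelModL`), the genus inequality follows
from model-intrinsic data over `(R, F1)` only: the Gauss ring `O1 ⊆ F1` with its residue map
`res1` (compatible with `residue A` on constants, `x1 ↦ j̄`, `θ1 ↦ j̄_N`, every element of `O1` a
fraction of elements of `R[x1, θ1]` with denominator of nonzero residue), `(K)`, `(S)`, `(FG)`,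
`(GR)`. -/
theorem gR_FN_le_gR_Fk_of_reductionInputs [CharP kA ℓ] (h : ReductionInputsModL A N)
    {R F1 : Type*} [CommRing R] [Field F1] [Algebra R F1] [Algebra R Qbar] (ι : F1 →+* FN N)
    (hRK : ∀ r : R, ι (algebraMap R F1 r) = algebraMap Qbar (FN N) (algebraMap R Qbar r))
    (hRA : ∀ r : R, algebraMap R Qbar r ∈ A)
    {x1 θ1 : F1} (hx1 : ι x1 = jBar N) (hθ1 : ι θ1 = jd N N dvd_rfl) (ϖ : R)
    (O1 : Subring F1) (res1 : O1 →+* modularFunctionFieldFullC kA N)
    (hRO1 : ∀ r : R, algebraMap R F1 r ∈ O1)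
    (hres1R : ∀ r : R, res1 ⟨algebraMap R F1 r, hRO1 r⟩ =
      algebraMap kA (modularFunctionFieldFullC kA N)
        (IsLocalRing.residue A ⟨algebraMap R Qbar r, hRA r⟩))
    (hθO1 : θ1 ∈ O1) (hresθ : res1 ⟨θ1, hθO1⟩ = H16.jNK kA N)
    (hfrac : ∀ y ∈ O1,
      ∃ a ∈ Subring.closure (Set.range (algebraMap R F1) ∪ {x1, θ1}),
      ∃ b ∈ Subring.closure (Set.range (algebraMap R F1) ∪ {x1, θ1}),
        (∀ hb : b ∈ O1, res1 ⟨b, hb⟩ ≠ 0) ∧ y * b = a)
    (hker : ∀ (y : F1) (hy : y ∈ O1), res1 ⟨y, hy⟩ = 0 ↔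
      ∃ z ∈ O1, y = algebraMap R F1 ϖ * z)
    (hBO : ∀ b : F1, IsIntegral (Algebra.adjoin R {x1}) b → b ∈ O1)
    (hBinfO : ∀ b : F1, IsIntegral (Algebra.adjoin R {x1⁻¹}) b → b ∈ O1)
    (hsat : ∀ y ∈ O1, IsIntegral (Algebra.adjoin R {x1}) (algebraMap R F1 ϖ * y) →
      IsIntegral (Algebra.adjoin R {x1}) y)
    (hfg : ∃ (ι' : Type) (_ : Fintype ι') (β : ι' → F1),
      (∀ i, IsIntegral (Algebra.adjoin R {x1}) (β i)) ∧
      ∀ b : F1, IsIntegral (Algebra.adjoin R {x1}) b →
        ∃ p : ι' → R[X], b = ∑ i, aeval x1 (p i) * β i)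
    (hresx : ∀ h : x1 ∈ O1, res1 ⟨x1, h⟩ = H16.jK kA N)
    (hGRfin : ∀ γ : modularFunctionFieldFullC kA N,
      IsIntegral (Algebra.adjoin kA {H16.jK kA N}) γ →
      ∃ (b : F1) (hb : IsIntegral (Algebra.adjoin R {x1}) b), res1 ⟨b, hBO b hb⟩ = γ)
    (hGRinf : ∀ γ : modularFunctionFieldFullC kA N,
      IsIntegral (Algebra.adjoin kA {(H16.jK kA N)⁻¹}) γ →
      ∃ (b : F1) (hb : IsIntegral (Algebra.adjoin R {x1⁻¹}) b), res1 ⟨b, hBinfO b hb⟩ = γ) :
    (H76.ffBase_FN N).gR ≤ (ffBase_Fk N ℓ hℓN kA).gR := by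
  have hx1O1 : x1 ∈ O1 := hBO x1 (mem_chartAlg.mp (self_mem_chartAlg x1))
  -- the generators lie in `O1`
  have hG : (Set.range (algebraMap R F1) ∪ {x1, θ1}) ⊆ (O1 : Set F1) := by
    rintro g (⟨r, rfl⟩ | hg)
    · exact hRO1 r
    · rcases hg with rfl | hg
      · exact hx1O1
      · rw [Set.mem_singleton_iff] at hg
        rw [hg]
        exact hθO1
  have hS1 : Subring.closure (Set.range (algebraMap R F1) ∪ {x1, θ1}) ≤ O1 :=
    Subring.closure_le.mpr hG
  -- compatibility on the generators
  have hgen : ∀ g (hg : g ∈ Set.range (algebraMap R F1) ∪ {x1, θ1}),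
      H34.Compat ι O1 res1 (redModelFN h).O.toSubring (redModelFN h).res g (hG hg) := by
    rintro g (⟨r, rfl⟩ | hg)
    · have hmem : ι (algebraMap R F1 r) ∈ (redModelFN h).O.toSubring := by
        rw [hRK]
        exact algebraMap_mem_redModelFN h ⟨algebraMap R Qbar r, hRA r⟩
      refine ⟨hmem, ?_⟩
      rw [hres1R r, ← res_algebraMap_redModelFN h ⟨algebraMap R Qbar r, hRA r⟩]
      congr 1
      exact Subtype.ext (hRK r)
    · rcases hg with rfl | hg
      · have hmem : ι g ∈ (redModelFN h).O.toSubring := by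
          rw [hx1]
          exact jBar_mem_redModelFN h
        refine ⟨hmem, ?_⟩
        rw [hresx hx1O1, ← res_jBar_redModelFN h]
        congr 1
        exact Subtype.ext hx1
      · rw [Set.mem_singleton_iff] at hg
        subst hg
        have hmem : ι g ∈ (redModelFN h).O.toSubring := by
          rw [hθ1]
          exact jd_mem_redModelFN h N dvd_rfl
        refine ⟨hmem, ?_⟩
        rw [hresθ, ← res_jN_redModelFN h]
        congr 1
        exact Subtype.ext hθ1
  have hcl := H34.compat_closure (ι := ι) (O1 := O1) (res1 := res1)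
    (O := (redModelFN h).O.toSubring) (res := (redModelFN h).res) hG hgen
  have hall := H34.compat_of_frac (ι := ι) (O1 := O1) (res1 := res1)
    (O := (redModelFN h).O.toSubring) (res := (redModelFN h).res)
    (exists_mul_eq_one_redModelFN h) _ hS1 hcl
    (by
      intro y hy
      obtain ⟨a, ha, b, hb, hbne, hyb⟩ := hfrac y hy
      exact ⟨a, ha, b, hb, hbne _, hyb⟩)
  exact gR_FN_le_gR_Fk_of_model_res1 N hℓN A (redModelFN h).O.toSubring
    (algebraMap_mem_redModelFN h) (redModelFN h).res (res_algebraMap_redModelFN h) ι hRK hx1 ϖ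
    O1 res1 (fun y hy => (hall y hy).1) (fun y hy => (hall y hy).2) hker hBO hBinfO hsat hfg
    hresx hGRfin hGRinf

end Main


end Fermat.Agent.S18.H33
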