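/-
S18 / INST-7 (helper33): the genus inequality from helper3's `GaussModel` for the model
`(A₁, L₁, F₁, j₁, jN₁)` and the frozen hypothesis `h : ReductionInputsModL A N`.
What remains as hypotheses afterwards: `(S)` (`hsat`, or the data of `M.hsat`) and `(GR)`
in the lifting form through `M.res1`.
-/
import Mathlib
import Fermat.Agent.S18.H33_LatticeR0
import Fermat.Agent.S18.H3_ChartRing
import Fermat.Agent.S18.H40_LatticeInstFinal
import Fermat.Agent.S18.H45_A0Instances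

set_option autoImplicit false
set_option synthInstance.maxHeartbeats 400000

noncomputable section

namespace Fermat.Agent.S18.H33

open AlgebraicCurve ModularCurve IntermediateField Polynomial
open Fermat.Agent.S24 Fermat.Agent.RR

/-- evaluation of a polynomial inside a subring -/
theorem eval₂_mem_subring {T F : Type*} [CommRing T] [CommRing F] (S : Subring F) (f : T →+* F)
    (x : F) (hf : ∀ t, f t ∈ S) (hx : x ∈ S) (p : T[X]) : p.eval₂ f x ∈ S := by
  rw [Polynomial.eval₂_eq_sum_range]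
  exact S.sum_mem (fun i _ => S.mul_mem (hf _) (S.pow_mem hx _))

section Main

variable (N : ℕ) [NeZero N] {ℓ : ℕ} [hℓ : Fact ℓ.Prime] (hℓN : ¬ ℓ ∣ N)
variable (A : ValuationSubring (AlgebraicClosure ℚ)) (hA : A.LiesOverPrime ℓ)

local notation "kA" => IsLocalRing.ResidueField A
local notation "L₁" => H45.unrCyclo ℓ
local notation "A₁" => H45.A0 A ℓ
local notation "F₁" => modularFunctionFieldFullC (H45.unrCyclo ℓ) N
local notation "j₁" => H16.jK (H45.unrCyclo ℓ) N
local notation "jN₁" => H16.jNK (H45.unrCyclo ℓ) N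

omit hℓ in
/-- the residue map of `A₁` is the residue map of `A` on constants -/
theorem resA0_eq_residue (r : A₁) (hr : algebraMap A₁ Qbar r ∈ A) :
    H45.resA0 A ℓ r = IsLocalRing.residue A ⟨algebraMap A₁ Qbar r, hr⟩ := rfl

omit hℓ in
theorem jK_ne_zero_kA : H16.jK kA N ≠ 0 := fun h0 =>
  H16.transcendental_jK kA N (h0 ▸ isAlgebraic_zero)

omit hℓ in
/-- `hfrac` for the Gauss model: every element of `O1` is a fraction of elements of
`A₁[j₁, jN₁]` whose denominator has nonzero residue. -/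
theorem hfrac_of_gaussModel
    (M : H3.GaussModel (R0 := A₁) (k := kA) (F1 := F₁) (Fk := modularFunctionFieldFullC kA N)
      ((ℓ : ℕ) : A₁) (H45.resA0 A ℓ) j₁ jN₁ (H16.jK kA N) (H16.jNK kA N)) :
    ∀ y ∈ M.O1,
      ∃ a ∈ Subring.closure (Set.range (algebraMap A₁ F₁) ∪ {j₁, jN₁}),
      ∃ b ∈ Subring.closure (Set.range (algebraMap A₁ F₁) ∪ {j₁, jN₁}),
        (∀ hb : b ∈ M.O1, M.res1 ⟨b, hb⟩ ≠ 0) ∧ y * b = a := by
  intro y hy
  have hxb : Transcendental kA (H16.jK kA N) := H16.transcendental_jK kA N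
  obtain ⟨s, hs, g, hg⟩ := M.exists_repr y hy
  set S := Subring.closure (Set.range (algebraMap A₁ F₁) ∪ {j₁, jN₁}) with hS
  have hconst : ∀ r : A₁, algebraMap A₁ F₁ r ∈ S :=
    fun r => Subring.subset_closure (Or.inl ⟨r, rfl⟩)
  have hj : j₁ ∈ S := Subring.subset_closure (Or.inr (Or.inl rfl))
  have hjN : jN₁ ∈ S := Subring.subset_closure (Or.inr (Or.inr rfl))
  have haeval : ∀ p : A₁[X], aeval j₁ p ∈ S := by
    intro p
    rw [aeval_def]
    exact eval₂_mem_subring S _ _ hconst hj p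
  refine ⟨H3.eval2 j₁ jN₁ g, ?_, aeval j₁ s, haeval s, ?_, ?_⟩
  · exact eval₂_mem_subring S _ _ haeval hjN g
  · intro hb
    have h1 : M.res1 ⟨aeval j₁ s, hb⟩ = aeval (H16.jK kA N) (s.map (H45.resA0 A ℓ)) :=
      M.res1_aeval s
    rw [h1]
    intro h0
    exact hs ((transcendental_iff.mp hxb) _ h0)
  · rw [mul_comm]
    exact hg

include hA in
set_option maxHeartbeats 1000000 in
/-- **INST-7 from the Gauss model.** -/
theorem gR_FN_le_gR_Fk_of_gaussModel [CharP kA ℓ] (h : ReductionInputsModL A N)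
    (M : H3.GaussModel (R0 := A₁) (k := kA) (F1 := F₁) (Fk := modularFunctionFieldFullC kA N)
      ((ℓ : ℕ) : A₁) (H45.resA0 A ℓ) j₁ jN₁ (H16.jK kA N) (H16.jNK kA N))
    (hsat : ∀ y ∈ M.O1,
      IsIntegral (Algebra.adjoin A₁ {j₁}) (algebraMap A₁ F₁ ((ℓ : ℕ) : A₁) * y) →
      IsIntegral (Algebra.adjoin A₁ {j₁}) y)
    (hGRfin : ∀ γ : modularFunctionFieldFullC kA N,
      IsIntegral (Algebra.adjoin kA {H16.jK kA N}) γ →
      ∃ (b : F₁) (hb : IsIntegral (Algebra.adjoin A₁ {j₁}) b), M.res1 ⟨b, M.hBO b hb⟩ = γ)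
    (hGRinf : ∀ γ : modularFunctionFieldFullC kA N,
      IsIntegral (Algebra.adjoin kA {(H16.jK kA N)⁻¹}) γ →
      ∃ (b : F₁) (hb : IsIntegral (Algebra.adjoin A₁ {j₁⁻¹}) b),
        M.res1 ⟨b, M.hBinfO (jK_ne_zero_kA N A) b hb⟩ = γ) :
    (H76.ffBase_FN N).gR ≤ (ffBase_Fk N ℓ hℓN kA).gR := by
  have hfd := H40.finiteDimensional_model N (ℓ := ℓ)
  have hRA : ∀ r : A₁, algebraMap A₁ Qbar r ∈ A := fun r => r.2
  have hres1R : ∀ r : A₁, M.res1 ⟨algebraMap A₁ F₁ r, M.algebraMap_mem r⟩ =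
      algebraMap kA (modularFunctionFieldFullC kA N)
        (IsLocalRing.residue A ⟨algebraMap A₁ Qbar r, hRA r⟩) := by
    intro r
    rw [M.res1_algebraMap r, resA0_eq_residue A r (hRA r)]
  exact gR_FN_le_gR_Fk_of_reductionInputs N hℓN A h (R := A₁) (F1 := F₁) (H40.barEmb N)
    (H40.hRK_model A N) hRA (x1 := j₁) (θ1 := jN₁) (H40.barEmb_jK N) (H40.barEmb_jNK N)
    ((ℓ : ℕ) : A₁) M.O1 M.res1 M.algebraMap_mem hres1R M.θ_mem M.res1_θ
    (hfrac_of_gaussModel N A M) M.res1_eq_zero_iff M.hBO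
    (M.hBinfO (jK_ne_zero_kA N A)) hsat (H40.hfg_model A hℓ.out hA N) (fun _ => M.res1_x)
    hGRfin hGRinf

end Main

end Fermat.Agent.S18.H33
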