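/-
S18 project (helper15): (B6) UNR-FINITE.  For a function field `F/K`, `x ∈ F` transcendental with
`F / K(x)` finite separable, only finitely many places `Q` of `F` satisfy
`ord_Q (x - c) ≥ 2` for some constant `c`: the finite ramification locus of `x` is finite.
Proof: such places come from primes of the integral closure of `K[x]` dividing the different.
-/
import Mathlib
import Fermat.Prelude.Def_AlgebraicCurve_Repartitions
import Fermat.Agent.S24.H97_Places
import Fermat.Agent.S24.H42_FundId
import Fermat.Agent.S24.H42_FF2

set_option autoImplicit false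

open IsDedekindDomain Polynomial AlgebraicCurve
open scoped IntermediateField IntermediateField.algebraAdjoinAdjoin

noncomputable section

namespace Fermat.Agent.S18.H15

section General

attribute [local instance] FractionRing.liftAlgebra FractionRing.isScalarTower_liftAlgebra

variable {A B : Type*} [CommRing A] [IsDedekindDomain A] [CommRing B] [IsDedekindDomain B]
  [Algebra A B] [Module.Finite A B] [Module.IsTorsionFree A B]
  [Algebra.IsSeparable (FractionRing A) (FractionRing B)]

/-- Only finitely many height one primes `w` of `B` have `w² ∣ p B` for some nonzero maximal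
ideal `p` of `A`: they all divide the different. -/
theorem finite_sq_dvd_map :
    {w : HeightOneSpectrum B | ∃ p : Ideal A, p.IsMaximal ∧ p ≠ ⊥ ∧
      w.asIdeal ^ 2 ∣ p.map (algebraMap A B)}.Finite := by
  refine (Ideal.finite_factors (differentIdeal_ne_bot (A := A) (B := B))).subset ?_
  rintro w ⟨p, hpmax, hpbot, hdvd⟩
  have := pow_sub_one_dvd_differentIdeal A w.asIdeal 2 hpbot hdvd
  simpa using this

open Fermat.Agent.S24.H42

variable {K F : Type*} [Field K] [Field F] [Algebra K F]
  [Algebra K B] [Algebra B F] [IsFractionRing B F] [IsScalarTower K B F]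

/-- Places whose valuation ring contains `B` and at which some uniformiser of a maximal ideal of
the base `A` vanishes to order at least two: a finite set. -/
theorem finite_place_two_le_ord :
    {Q : Place K F | (∀ b : B, algebraMap B F b ∈ Q.toValuationSubring) ∧
      ∃ π : A, (Ideal.span {π}).IsMaximal ∧ π ≠ 0 ∧
        2 ≤ Q.ord (algebraMap B F (algebraMap A B π))}.Finite := by
  refine ((finite_sq_dvd_map (A := A) (B := B)).image (placeOf (K := K) (F := F))).subset ?_
  rintro Q ⟨hB, π, hmax, hπ, hord⟩
  obtain ⟨w, rfl⟩ := exists_placeOf_eq Q hB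
  refine ⟨w, ⟨Ideal.span {π}, hmax, ?_, ?_⟩, rfl⟩
  · rw [ne_eq, Ideal.span_singleton_eq_bot]
    exact hπ
  · have hb : algebraMap A B π ≠ 0 := by
      intro h0
      exact hπ ((FaithfulSMul.algebraMap_injective A B) (by rw [h0, map_zero]))
    rw [ord_placeOf_algebraMap w hb] at hord
    rw [Ideal.map_span, Set.image_singleton]
    have h2 : (2 : ℕ) ≤ multiplicity w.asIdeal (Ideal.span {algebraMap A B π}) := by
      exact_mod_cast hord
    exact pow_dvd_of_le_multiplicity h2

end General

section Inst

attribute [local instance] FractionRing.liftAlgebra FractionRing.isScalarTower_liftAlgebra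

open Fermat.Agent.S24 Fermat.Agent.S24.H97 Fermat.Agent.S24.H42 Fermat.Agent.S24.H24

variable {K F : Type*} [Field K] [Field F] [Algebra K F]
variable (x : F) [FiniteDimensional K⟮x⟯ F] [Algebra.IsSeparable K⟮x⟯ F]

set_option synthInstance.maxHeartbeats 400000 in
set_option maxHeartbeats 1600000 in
/-- **(B6) UNR-FINITE**: for `x` transcendental with `F / K(x)` finite separable, the set of places
`Q` of `F/K` at which some `x - c` (`c : K`) vanishes to order `≥ 2` is finite. -/
theorem finite_ramified (hx : Transcendental K x) :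
    {Q : Place K F | ∃ c : K, 2 ≤ Q.ord (x - algebraMap K F c)}.Finite := by
  have := isDedekindDomain_polyRing x hx
  have : IsDedekindDomain (intRing K x) :=
    integralClosure.isDedekindDomain (polyRing K x) K⟮x⟯ F
  have : IsFractionRing (intRing K x) F := isFractionRing_intRing x
  have : Module.Finite (polyRing K x) (intRing K x) :=
    IsIntegralClosure.finite (polyRing K x) K⟮x⟯ F (intRing K x)
  have : Algebra.IsSeparable (FractionRing (polyRing K x)) (FractionRing (intRing K x)) := by
    have H : RingHom.comp
        (algebraMap (FractionRing (polyRing K x)) (FractionRing (intRing K x)))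
        ↑(FractionRing.algEquiv (polyRing K x) K⟮x⟯).symm.toRingEquiv =
          RingHom.comp ↑(FractionRing.algEquiv (intRing K x) F).symm.toRingEquiv
            (algebraMap K⟮x⟯ F) := by
      apply IsLocalization.ringHom_ext (nonZeroDivisors (polyRing K x))
      ext a
      simp only [RingHom.coe_comp, RingHom.coe_coe,
        AlgEquiv.coe_ringEquiv, Function.comp_apply, AlgEquiv.commutes,
        ← IsScalarTower.algebraMap_apply]
      rw [IsScalarTower.algebraMap_apply (polyRing K x) (intRing K x) F, AlgEquiv.commutes,
        ← IsScalarTower.algebraMap_apply]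
    exact Algebra.IsSeparable.of_equiv_equiv _ _ H
  have hfin := finite_place_two_le_ord (A := polyRing K x) (B := intRing K x) (K := K) (F := F)
  refine hfin.subset ?_
  rintro Q ⟨c, hc⟩
  have hne : x - algebraMap K F c ≠ 0 := by
    intro h0
    rw [h0, Place.ord_zero] at hc
    omega
  have hxc : x - algebraMap K F c ∈ Q.toValuationSubring :=
    (PlaceLemmas.mem_iff_ord_nonneg Q hne).mpr (by omega)
  have hxQ : x ∈ Q.toValuationSubring := by
    have := Q.toValuationSubring.add_mem _ _ hxc (Q.algebraMap_mem' c)
    simpa using this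
  refine ⟨fun b => coe_mem_of_mem x Q hxQ b, linElt x c, span_linElt_isMaximal x hx c,
    linElt_ne_zero x hx c, ?_⟩
  exact hc

omit [FiniteDimensional K⟮x⟯ F] [Algebra.IsSeparable K⟮x⟯ F] in
/-- At a place of degree one at which `x` is regular, `x` takes a value `c : K`:
`ord_Q (x - c) > 0` (for `x` non-constant). -/
theorem exists_const_ord_pos (hx : Transcendental K x) (Q : Place K F) (hdeg : Q.deg = 1)
    (hxQ : x ∈ Q.toValuationSubring) : ∃ c : K, 0 < Q.ord (x - algebraMap K F c) := by
  have h1 : Module.finrank K Q.ResidueField = 1 := hdeg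
  have hone : (1 : Q.ResidueField) ≠ 0 := one_ne_zero
  obtain ⟨c, hc⟩ := (finrank_eq_one_iff_of_nonzero' (1 : Q.ResidueField) hone).mp h1
    (IsLocalRing.residue Q.toValuationSubring ⟨x, hxQ⟩)
  refine ⟨c, ?_⟩
  have hne : x - algebraMap K F c ≠ 0 := by
    intro h0
    apply hx
    rw [sub_eq_zero.mp h0]
    exact isAlgebraic_algebraMap c
  have hmem : x - algebraMap K F c ∈ Q.toValuationSubring :=
    sub_mem hxQ (Q.algebraMap_mem' c)
  have hne' : (⟨x - algebraMap K F c, hmem⟩ : Q.toValuationSubring) ≠ 0 := by
    intro h0
    exact hne (congrArg Subtype.val h0)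
  rw [show x - algebraMap K F c = ((⟨x - algebraMap K F c, hmem⟩ : Q.toValuationSubring) : F)
    from rfl, H27.ord_pos_iff_mem_maximalIdeal Q _ hne', ← IsLocalRing.residue_eq_zero_iff]
  have h2 : (⟨x - algebraMap K F c, hmem⟩ : Q.toValuationSubring) =
      ⟨x, hxQ⟩ - algebraMap K Q.toValuationSubring c := Subtype.ext rfl
  rw [h2, map_sub, ← hc, sub_eq_zero, Algebra.smul_def, mul_one]
  rfl

/-- **(B6), consumer form**: if all places have degree one and `x` has finitely many poles, then
outside a finite set of places `Q`, some `x - c` (`c : K`) is a uniformiser at `Q`. -/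
theorem finite_not_exists_ord_eq_one (hx : Transcendental K x)
    (hdeg : ∀ Q : Place K F, Q.deg = 1) (hpoles : {Q : Place K F | Q.ord x < 0}.Finite) :
    {Q : Place K F | ¬ ∃ c : K, Q.ord (x - algebraMap K F c) = 1}.Finite := by
  refine (hpoles.union (finite_ramified x hx)).subset ?_
  intro Q hQ
  by_contra hcon
  rw [Set.mem_union, not_or] at hcon
  obtain ⟨h1, h2⟩ := hcon
  apply hQ
  have hx0 : x ≠ 0 := by
    rintro rfl
    exact hx (isAlgebraic_zero)
  have hxQ : x ∈ Q.toValuationSubring :=
    (PlaceLemmas.mem_iff_ord_nonneg Q hx0).mpr (by simpa using h1)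
  obtain ⟨c, hc⟩ := exists_const_ord_pos x hx Q (hdeg Q) hxQ
  refine ⟨c, ?_⟩
  have h3 : ¬ 2 ≤ Q.ord (x - algebraMap K F c) := fun h => h2 ⟨c, h⟩
  omega

end Inst

end Fermat.Agent.S18.H15
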