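import Fermat.Agent.S18.H61_AssemblyAbstract

/-!
# S18 assembly: the coordinate lemma (helper61)

Over an abstract reduction datum `G : H71.GaussRed K F k Fb Γ`, with all places of degree one on
both sides: if the coordinate `x` (a Gauss unit, `x - a` a Gauss unit for every integral constant
`a`) has the SAME pole degree as its reduction `x̄ = red x`, then

* `mapDomain_poleDivisor` : `r_* (x)_∞ = (x̄)_∞` (poles reduce to poles, without cancellation);
* `goodCoordAt_of_poleDegree` : `x` is a good coordinate on the residue disc of every place `Q`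
  of `Fb` which is not a pole of `x̄` and at which `x̄ - c` never vanishes to order `≥ 2`;
* `ord_red_neg_of_pole` : a pole of `x` reduces to a pole of `x̄`.
-/

set_option autoImplicit false

noncomputable section

namespace Fermat.Agent.S18.H61

open AlgebraicCurve
open Fermat.Agent.RR.H76 Fermat.Agent.S18.H71

section Aux

/-- A finite sum of nonnegative integers equal to one with a term `≥ 1`. -/
theorem finsum_eq_one_unique {α : Type*} (f : α → ℤ) (hfin : (Function.support f).Finite)
    (hnn : ∀ a, 0 ≤ f a) (hsum : ∑ᶠ a, f a = 1) (P : α) (hP : 1 ≤ f P) :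
    f P = 1 ∧ ∀ R, R ≠ P → f R = 0 := by
  classical
  set s : Finset α := hfin.toFinset with hs
  have hsub : Function.support f ⊆ ↑s := by
    intro a ha
    simpa [hs] using ha
  rw [finsum_eq_sum_of_support_subset f hsub] at hsum
  have hPs : P ∈ s := by
    rw [hs, Set.Finite.mem_toFinset, Function.mem_support]
    intro h0
    rw [h0] at hP
    exact absurd hP (by norm_num)
  rw [← Finset.add_sum_erase s f hPs] at hsum
  have hnn' : 0 ≤ ∑ a ∈ s.erase P, f a := Finset.sum_nonneg fun a _ => hnn a
  have h1 : f P = 1 := by linarith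
  have h2 : ∑ a ∈ s.erase P, f a = 0 := by linarith
  refine ⟨h1, fun R hR => ?_⟩
  by_cases hRs : R ∈ s
  · exact (Finset.sum_eq_zero_iff_of_nonneg fun a _ => hnn a).mp h2 R
      (Finset.mem_erase.mpr ⟨hR, hRs⟩)
  · rw [hs, Set.Finite.mem_toFinset, Function.mem_support, not_not] at hRs
    exact hRs

variable {K F : Type*} [Field K] [Field F] [Algebra K F]

/-- With all places of degree one, the degree is the sum of the coefficients. -/
theorem degree_eq_sum_of_deg_one (hdeg : ∀ P : Place K F, P.deg = 1) (D : Divisor K F) :
    Divisor.degree D = D.sum fun _ n => n := by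
  unfold Divisor.degree
  rw [Finsupp.liftAddHom_apply]
  refine Finsupp.sum_congr fun P _ => ?_
  simp [hdeg P]

/-- An effective divisor of degree zero (all places of degree one) is zero. -/
theorem eq_zero_of_nonneg_of_degree_eq_zero (hdeg : ∀ P : Place K F, P.deg = 1)
    (D : Divisor K F) (hD : ∀ P, 0 ≤ D P) (h0 : Divisor.degree D = 0) : D = 0 := by
  rw [degree_eq_sum_of_deg_one hdeg, Finsupp.sum] at h0
  ext P
  by_cases hP : P ∈ D.support
  · exact (Finset.sum_eq_zero_iff_of_nonneg fun a _ => hD a).mp h0 P hP
  · simpa using hP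

end Aux

variable {K F k Fb Γ : Type*} [Field K] [Field F] [Algebra K F] [Field k] [Field Fb]
  [Algebra k Fb] [LinearOrderedCommGroupWithZero Γ]

/-- Push-forward along a map of places preserves the degree when all degrees are one. -/
theorem degree_mapDomain_of_deg_one (hdegF : ∀ P : Place K F, P.deg = 1)
    (hdegFb : ∀ Q : Place k Fb, Q.deg = 1) (r : Place K F → Place k Fb) (D : Divisor K F) :
    Divisor.degree (Finsupp.mapDomain r D) = Divisor.degree D := by
  rw [degree_eq_sum_of_deg_one hdegF D, Finsupp.mapDomain, map_finsuppSum]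
  refine Finsupp.sum_congr fun P _ => ?_
  rw [Divisor.degree_single, hdegFb]
  simp

open scoped Classical in
theorem support_fiber_finite_divisor (r : Place K F → Place k Fb) (D : Divisor K F)
    (Q : Place k Fb) :
    (Function.support fun P : Place K F => if r P = Q then D P else 0).Finite := by
  refine D.support.finite_toSet.subset ?_
  intro P hP
  simp only [Function.mem_support, ne_eq] at hP
  simp only [Finset.mem_coe, Finsupp.mem_support_iff]
  intro h0; apply hP; rw [h0]; simp

open scoped Classical in
/-- **Poles reduce to poles without cancellation.** -/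
theorem mapDomain_poleDivisor (G : GaussRed K F k Fb Γ)
    (hdegF : ∀ P : Place K F, P.deg = 1) (hdegFb : ∀ Q : Place k Fb, Q.deg = 1)
    (x : F) (hvx : G.v x = 1)
    (B : Divisor K F) (hB : ∀ P, B P = max (-P.ord x) 0)
    (B' : Divisor k Fb) (hB' : ∀ Q, B' Q = max (-Q.ord (G.red x)) 0)
    (hdeg : Divisor.degree B = Divisor.degree B') :
    Finsupp.mapDomain G.r B = B' := by
  have hx0 : x ≠ 0 := G.ne_zero_of_v_eq_one hvx
  -- pointwise inequality
  have hle : ∀ Q, B' Q ≤ Finsupp.mapDomain G.r B Q := by
    intro Q
    rw [mapDomain_apply_eq_finsum, hB' Q]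
    have hnn : ∀ P : Place K F, 0 ≤ (if G.r P = Q then B P else 0) := by
      intro P
      split_ifs
      · rw [hB]; exact le_max_right _ _
      · exact le_rfl
    refine max_le ?_ (finsum_nonneg hnn)
    rw [G.ord_red x hvx Q, ← finsum_neg_distrib]
    refine finsum_le_finsum' ?_ (support_fiber_finite_divisor G.r B Q) fun P => ?_
    · have := G.support_fiber_finite hx0 Q
      refine this.subset ?_
      intro P hP
      simp only [Function.mem_support, ne_eq] at hP ⊢
      intro h0; apply hP; rw [h0]; simp
    · simp only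
      split_ifs
      · rw [hB]; exact le_max_left _ _
      · simp
  -- equality of degrees
  have hdeg' : Divisor.degree (Finsupp.mapDomain G.r B - B') = 0 := by
    rw [map_sub, degree_mapDomain_of_deg_one hdegF hdegFb, hdeg, sub_self]
  have := eq_zero_of_nonneg_of_degree_eq_zero hdegFb (Finsupp.mapDomain G.r B - B')
    (fun Q => by rw [Finsupp.sub_apply]; exact sub_nonneg.mpr (hle Q)) hdeg'
  exact sub_eq_zero.mp this

open scoped Classical in
/-- A pole of `x` reduces to a pole of `red x`. -/
theorem ord_red_neg_of_pole (G : GaussRed K F k Fb Γ)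
    (hdegF : ∀ P : Place K F, P.deg = 1) (hdegFb : ∀ Q : Place k Fb, Q.deg = 1)
    (x : F) (hvx : G.v x = 1)
    (B : Divisor K F) (hB : ∀ P, B P = max (-P.ord x) 0)
    (B' : Divisor k Fb) (hB' : ∀ Q, B' Q = max (-Q.ord (G.red x)) 0)
    (hdeg : Divisor.degree B = Divisor.degree B')
    (P₀ : Place K F) (hP₀ : P₀.ord x < 0) : (G.r P₀).ord (G.red x) < 0 := by
  have h1 := mapDomain_poleDivisor G hdegF hdegFb x hvx B hB B' hB' hdeg
  have h2 : B P₀ ≤ Finsupp.mapDomain G.r B (G.r P₀) := by
    rw [mapDomain_apply_eq_finsum]
    have hnn : ∀ P : Place K F, 0 ≤ (if G.r P = G.r P₀ then B P else 0) := by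
      intro P
      split_ifs
      · rw [hB]; exact le_max_right _ _
      · exact le_rfl
    have := single_le_finsum P₀ (support_fiber_finite_divisor G.r B (G.r P₀)) hnn
    simpa using this
  rw [h1, hB' (G.r P₀), hB P₀] at h2
  by_contra hcon
  push Not at hcon
  have h3 : max (-(G.r P₀).ord (G.red x)) 0 = 0 := max_eq_right (by linarith)
  have h4 : -P₀.ord x ≤ max (-P₀.ord x) 0 := le_max_left _ _
  linarith

open scoped Classical in
/-- **The coordinate lemma.** -/
theorem goodCoordAt_of_poleDegree (G : GaussRed K F k Fb Γ)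
    (hdegF : ∀ P : Place K F, P.deg = 1) (hdegFb : ∀ Q : Place k Fb, Q.deg = 1)
    (x : F) (hvx : G.v x = 1)
    (hvxa : ∀ a : K, G.v (algebraMap K F a) ≤ 1 → G.v (x - algebraMap K F a) = 1)
    (hlift : ∀ c : k, ∃ a : K, G.v (algebraMap K F a) ≤ 1 ∧
      G.red (algebraMap K F a) = algebraMap k Fb c)
    (hconstred : ∀ a : K, G.v (algebraMap K F a) ≤ 1 →
      ∃ c : k, G.red (algebraMap K F a) = algebraMap k Fb c)
    (B : Divisor K F) (hB : ∀ P, B P = max (-P.ord x) 0)
    (B' : Divisor k Fb) (hB' : ∀ Q, B' Q = max (-Q.ord (G.red x)) 0)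
    (hdeg : Divisor.degree B = Divisor.degree B')
    (hxb : ∀ c : k, G.red x ≠ algebraMap k Fb c)
    (Q : Place k Fb) (hQ0 : 0 ≤ Q.ord (G.red x))
    (hQ2 : ∀ c : k, Q.ord (G.red x - algebraMap k Fb c) < 2) :
    GoodCoordAt G x Q := by
  have hx0 : x ≠ 0 := G.ne_zero_of_v_eq_one hvx
  have hmap := mapDomain_poleDivisor G hdegF hdegFb x hvx B hB B' hB' hdeg
  -- (a) no pole of `x` in the fibre of `Q`
  have hnopole : ∀ R : Place K F, G.r R = Q → 0 ≤ R.ord x := by
    intro R hR
    have h1 : Finsupp.mapDomain G.r B Q = 0 := by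
      rw [hmap, hB' Q]
      exact max_eq_right (by linarith)
    rw [mapDomain_apply_eq_finsum] at h1
    have hnn : ∀ P : Place K F, 0 ≤ (if G.r P = Q then B P else 0) := by
      intro P
      split_ifs
      · rw [hB]; exact le_max_right _ _
      · exact le_rfl
    have h2 := single_le_finsum R (support_fiber_finite_divisor G.r B Q) hnn
    rw [h1] at h2
    simp only [hR, if_true] at h2
    rw [hB R] at h2
    have h3 : -R.ord x ≤ max (-R.ord x) 0 := le_max_left _ _
    linarith
  -- (b) `x - a` is regular on the fibre
  have hreg : ∀ (a : K) (R : Place K F), G.r R = Q → 0 ≤ R.ord (x - algebraMap K F a) := by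
    intro a R hR
    refine ord_sub_nonneg R (hnopole R hR) ?_
    rw [Fermat.Agent.S24.H24.PlaceLemmas.ord_algebraMap]
  -- `x` is not a constant
  have hxconst : ∀ a : K, x ≠ algebraMap K F a := by
    intro a hxa
    have hva : G.v (algebraMap K F a) ≤ 1 := by rw [← hxa, hvx]
    obtain ⟨c, hc⟩ := hconstred a hva
    exact hxb c (by rw [hxa, hc])
  -- reduction of `x - a` for integral `a`
  have hredsub : ∀ a : K, G.v (algebraMap K F a) ≤ 1 →
      G.red (x - algebraMap K F a) = G.red x - G.red (algebraMap K F a) :=
    fun a ha => G.red_sub hvx.le ha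
  refine ⟨?_, ?_⟩
  · -- a point in the disc
    have hxbmem : G.red x ∈ Q.toValuationSubring :=
      (mem_valSubring_iff Q).mpr (Or.inr hQ0)
    obtain ⟨c, hc⟩ := exists_value Q (hdegFb Q) hxbmem
    rcases hc with hc | hc
    · exact absurd hc (hxb c)
    obtain ⟨a, hva, hra⟩ := hlift c
    have hvy := hvxa a hva
    have hordred := G.ord_red _ hvy Q
    rw [hredsub a hva, hra] at hordred
    by_contra hne
    push Not at hne
    rw [finsum_eq_zero_of_forall_eq_zero (fun P => by rw [if_neg (hne P)])] at hordred
    rw [hordred] at hc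
    exact lt_irrefl _ hc
  · intro P hP
    -- the value of `x` at `P`
    have hxmem : x ∈ P.toValuationSubring := (mem_valSubring_iff P).mpr (Or.inr (hnopole P hP))
    obtain ⟨a, ha⟩ := exists_value P (hdegF P) hxmem
    rcases ha with ha | ha
    · exact absurd ha (hxconst a)
    refine ⟨a, ?_⟩
    -- `a` is integral
    have hva : G.v (algebraMap K F a) ≤ 1 := by
      by_contra hcon
      push Not at hcon
      have ha0 : a ≠ 0 := by
        rintro rfl
        rw [map_zero, map_zero] at hcon
        exact absurd hcon (by simp)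
      have hainv : algebraMap K F a⁻¹ * algebraMap K F a = 1 := by
        rw [← map_mul, inv_mul_cancel₀ ha0, map_one]
      have hvinv : G.v (algebraMap K F a⁻¹) < 1 := by
        have h1 : G.v (algebraMap K F a⁻¹) * G.v (algebraMap K F a) = 1 := by
          rw [← map_mul, hainv, map_one]
        by_contra h2
        push Not at h2
        have h3 : G.v (algebraMap K F a) ≠ 0 := by
          intro h0; rw [h0] at hcon; exact absurd hcon (by simp)
        have : (1 : Γ) < G.v (algebraMap K F a⁻¹) * G.v (algebraMap K F a) := by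
          calc (1 : Γ) < G.v (algebraMap K F a) := hcon
            _ = 1 * G.v (algebraMap K F a) := (one_mul _).symm
            _ ≤ G.v (algebraMap K F a⁻¹) * G.v (algebraMap K F a) :=
              mul_le_mul_left h2 _
        rw [h1] at this
        exact lt_irrefl _ this
      set w : F := algebraMap K F a⁻¹ * x with hw
      have hvw : G.v w < 1 := by rw [hw, map_mul, hvx, mul_one]; exact hvinv
      have hvy : G.v (1 - w) = 1 := G.v.map_one_sub_of_lt hvw
      have hredy : G.red (1 - w) = 1 := by
        rw [G.red_sub (by rw [map_one]) hvw.le, G.red_one,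
          (G.red_eq_zero_iff w hvw.le).mpr hvw, sub_zero]
      have hyeq : 1 - w = algebraMap K F (-a⁻¹) * (x - algebraMap K F a) := by
        rw [hw, map_neg, neg_mul, mul_sub, hainv]
        ring
      have hordy : ∀ R : Place K F, R.ord (1 - w) = R.ord (x - algebraMap K F a) := by
        intro R
        rw [hyeq]
        exact ord_const_mul R _ (neg_ne_zero.mpr (inv_ne_zero ha0)) _
      have h1 := G.le_ord_red hvy Q (fun R hR => by rw [hordy R]; exact hreg a R hR) P hP
      rw [hredy, Place.ord_one, hordy P] at h1
      linarith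
    have hvy := hvxa a hva
    obtain ⟨c, hc⟩ := hconstred a hva
    have hredy : G.red (x - algebraMap K F a) = G.red x - algebraMap k Fb c := by
      rw [hredsub a hva, hc]
    have h1 := G.le_ord_red hvy Q (fun R hR => hreg a R hR) P hP
    have h2 := hQ2 c
    rw [← hredy] at h2
    have hordQ : Q.ord (G.red (x - algebraMap K F a)) = 1 := by linarith
    refine ⟨hvy, hordQ, ?_⟩
    have hsum := G.ord_red _ hvy Q
    rw [hordQ] at hsum
    have hnn : ∀ R : Place K F,
        0 ≤ (if G.r R = Q then R.ord (x - algebraMap K F a) else 0) := by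
      intro R
      split_ifs with hR
      · exact hreg a R hR
      · exact le_rfl
    have hy0 : x - algebraMap K F a ≠ 0 := G.ne_zero_of_v_eq_one hvy
    have huniq := finsum_eq_one_unique _ (G.support_fiber_finite hy0 Q) hnn hsum.symm P
      (by simp only [hP, if_true]; linarith)
    intro R hR
    split_ifs with hRP
    · have := huniq.1
      simp only [hP, if_true] at this
      rw [hRP]; exact this
    · have := huniq.2 R hRP
      simp only [hR, if_true] at this
      exact this

end Fermat.Agent.S18.H61

end
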