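import Fermat.Agent.S18.H61_Gauss
import Fermat.Agent.S18.H61_Coordinate
import Fermat.Agent.S18.H16_FkInst
import Fermat.Agent.S18.H15_UnrFinite
import Fermat.Agent.S18.H95_BranchData

/-!
# S18 assembly (helper61): S18 from the genus inequality `gR(F_N) ≤ gR(F_{N,k})`

`s18_of_genus_le` : the frozen statement of S18 from the single remaining input (GR)
`(H76.ffBase_FN N).gR ≤ (H16.ffBase_Fk N hℓN A hA).gR`  (the genus does not drop under
reduction mod `ℓ ∤ N`).
-/

set_option autoImplicit false
set_option linter.style.haveILetI false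
set_option synthInstance.maxHeartbeats 400000

noncomputable section

namespace Fermat.Agent.S18.H61

open ModularCurve AlgebraicCurve HahnSeries IntermediateField
open Fermat.Agent.S24 Fermat.Agent.RR Fermat.Agent.S18.H71

section Generic

variable {K F : Type*} [Field K] [Field F] [Algebra K F]

/-- The pole divisor of a function with finitely many zeros and poles. -/
theorem exists_poleDivisor (x : F) (hfin : {P : Place K F | P.ord x ≠ 0}.Finite) :
    ∃ B : Divisor K F, ∀ P, B P = max (-P.ord x) 0 := by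
  refine ⟨Finsupp.ofSupportFinite (fun P => max (-P.ord x) 0) (hfin.subset ?_), fun P => rfl⟩
  intro P hP
  simp only [Function.mem_support, ne_eq] at hP
  simp only [Set.mem_ofPred_eq]
  intro h0
  apply hP
  rw [h0]; simp

theorem ne_algebraMap_of_transcendental {x : F} (hx : Transcendental K x) (c : K) :
    x ≠ algebraMap K F c := by
  intro h
  exact hx (h ▸ isAlgebraic_algebraMap c)

end Generic

variable {N : ℕ} [NeZero N] {A : ValuationSubring (AlgebraicClosure ℚ)}

set_option maxHeartbeats 3200000 in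
/-- `j - a` (`a ∈ A`) is a Gauss unit with reduction `j̄ - ā`. -/
theorem gaussRed_jBar_sub (h : ReductionInputsModL A N) (a : A) :
    (gaussRed h).v (jBar N - algebraMap (AlgebraicClosure ℚ) (modularFunctionFieldBar N) (a : AlgebraicClosure ℚ)) = 1 ∧
    (gaussRed h).red (jBar N - algebraMap (AlgebraicClosure ℚ) (modularFunctionFieldBar N) (a : AlgebraicClosure ℚ)) =
      H16.jk N A - algebraMap (IsLocalRing.ResidueField A)
        (modularFunctionFieldFullC (IsLocalRing.ResidueField A) N) (IsLocalRing.residue A a) := by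
  set y : LaurentSeries A := jqModC A - HahnSeries.C a with hy
  have h1 : coeffMap A.subtype y =
      ((jBar N - algebraMap (AlgebraicClosure ℚ) (modularFunctionFieldBar N)
        (a : AlgebraicClosure ℚ) : modularFunctionFieldBar N) : LaurentSeries (AlgebraicClosure ℚ)) := by
    rw [hy, map_sub, coeffMap_jqModC, H84.coeffMap_C]
    show _ = (jBar N : LaurentSeries (AlgebraicClosure ℚ)) -
      algebraMap (AlgebraicClosure ℚ) (LaurentSeries (AlgebraicClosure ℚ)) (a : AlgebraicClosure ℚ)
    rw [H84.C_eq_algebraMap]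
    congr 1
    show _ = coeffEmb Qbar jq
    rw [coeffEmb, ← jqModC_rat, coeffMap_jqModC]
  have h2 : coeffMap (IsLocalRing.residue A) y =
      ((H16.jk N A - algebraMap (IsLocalRing.ResidueField A)
        (modularFunctionFieldFullC (IsLocalRing.ResidueField A) N) (IsLocalRing.residue A a) :
        modularFunctionFieldFullC (IsLocalRing.ResidueField A) N) :
        LaurentSeries (IsLocalRing.ResidueField A)) := by
    rw [hy, map_sub, coeffMap_jqModC, H84.coeffMap_C, H84.C_eq_algebraMap]
    rfl
  have hmem : coeffMap A.subtype y ∈ modularFunctionFieldBar N := by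
    rw [h1]; exact Subtype.property _
  have hmemk : coeffMap (IsLocalRing.residue A) y ∈
      modularFunctionFieldFullC (IsLocalRing.ResidueField A) N := by
    rw [h2]; exact Subtype.property _
  have hne : coeffMap (IsLocalRing.residue A) y ≠ 0 := by
    rw [h2]
    intro h0
    have h3 : H16.jk N A = algebraMap (IsLocalRing.ResidueField A)
        (modularFunctionFieldFullC (IsLocalRing.ResidueField A) N) (IsLocalRing.residue A a) :=
      sub_eq_zero.mp (Subtype.ext h0)
    exact ne_algebraMap_of_transcendental (H16.transcendental_jk N A) _ h3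
  have key := gaussRed_of_integral h y hmem hmemk hne
  have e1 : (⟨coeffMap A.subtype y, hmem⟩ : modularFunctionFieldBar N) =
      jBar N - algebraMap (AlgebraicClosure ℚ) (modularFunctionFieldBar N)
        (a : AlgebraicClosure ℚ) := Subtype.ext h1
  have e2 : (⟨coeffMap (IsLocalRing.residue A) y, hmemk⟩ :
      modularFunctionFieldFullC (IsLocalRing.ResidueField A) N) =
      H16.jk N A - algebraMap (IsLocalRing.ResidueField A)
        (modularFunctionFieldFullC (IsLocalRing.ResidueField A) N) (IsLocalRing.residue A a) :=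
    Subtype.ext h2
  rw [e1, e2] at key
  exact key

set_option maxHeartbeats 3200000 in
/-- `j` is a Gauss unit with reduction `j̄`. -/
theorem gaussRed_jBar (h : ReductionInputsModL A N) :
    (gaussRed h).v (jBar N) = 1 ∧ (gaussRed h).red (jBar N) = H16.jk N A := by
  have key := gaussRed_jBar_sub h 0
  rw [ZeroMemClass.coe_zero, map_zero, map_zero, map_zero, sub_zero, sub_zero] at key
  exact key

set_option maxHeartbeats 3200000 in
/-- Constants of Gauss norm `≤ 1` are the elements of `A`. -/
theorem mem_of_gaussRed_v_le_one (h : ReductionInputsModL A N) (a : AlgebraicClosure ℚ)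
    (ha : (gaussRed h).v (algebraMap (AlgebraicClosure ℚ) (modularFunctionFieldBar N) a) ≤ 1) :
    a ∈ A := by
  rw [gaussRed_v] at ha
  have h1 : algebraMap (AlgebraicClosure ℚ) (modularFunctionFieldBar N) a ∈ gaussO h :=
    ((gaussO h).valuation_le_one_iff _).mp ha
  exact (H84.algebraMap_mem_gaussSubring_iff (A := A) (π := IsLocalRing.residue A) (N := N)
    IsLocalRing.residue_surjective a).mp h1

set_option maxHeartbeats 3200000 in
/-- Reduction of integral constants. -/
theorem gaussRed_algebraMap (h : ReductionInputsModL A N) (a : A) :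
    (gaussRed h).v (algebraMap (AlgebraicClosure ℚ) (modularFunctionFieldBar N)
      (a : AlgebraicClosure ℚ)) ≤ 1 ∧
    (gaussRed h).red (algebraMap (AlgebraicClosure ℚ) (modularFunctionFieldBar N)
      (a : AlgebraicClosure ℚ)) =
      algebraMap (IsLocalRing.ResidueField A)
        (modularFunctionFieldFullC (IsLocalRing.ResidueField A) N) (IsLocalRing.residue A a) := by
  have h1 : algebraMap (AlgebraicClosure ℚ) (modularFunctionFieldBar N)
      (a : AlgebraicClosure ℚ) ∈ H84.gaussSubring A (IsLocalRing.residue A) N :=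
    (H84.algebraMap_mem_gaussSubring_iff (A := A) (π := IsLocalRing.residue A) (N := N)
      IsLocalRing.residue_surjective (a : AlgebraicClosure ℚ)).mpr a.2
  have h1' : algebraMap (AlgebraicClosure ℚ) (modularFunctionFieldBar N)
      (a : AlgebraicClosure ℚ) ∈ gaussO h := h1
  refine ⟨?_, ?_⟩
  · rw [gaussRed_v]
    exact ((gaussO h).valuation_le_one_iff _).mpr h1'
  · rw [gaussRed_red_of_mem h h1']
    apply Subtype.ext
    rw [coe_gaussRes]
    exact H84.resL_algebraMap (A := A) (π := IsLocalRing.residue A) (N := N) a h1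

section Main

variable {ℓ : ℕ} [hℓ : Fact ℓ.Prime]

set_option maxHeartbeats 6400000 in
/-- **The coordinate `j` is good outside a finite set**, and a pole of `j` reduces into that
set. -/
theorem exists_goodCoord (hℓN : ¬ ℓ ∣ N) (hA : A.LiesOverPrime ℓ)
    (h : ReductionInputsModL A N) :
    ∃ (S : Set (Place (IsLocalRing.ResidueField A)
        (modularFunctionFieldFullC (IsLocalRing.ResidueField A) N)))
      (P₀ : Place (AlgebraicClosure ℚ) (modularFunctionFieldBar N)),
      S.Finite ∧ (∀ Q, Q ∉ S → GoodCoordAt (gaussRed h) (jBar N) Q) ∧ (gaussRed h).r P₀ ∈ S := by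
  haveI := H16.finiteDimensional_Fk N hℓN A hA
  haveI := H16.isSeparable_Fk N hℓN A hA
  haveI : FiniteDimensional Qbar⟮jBar N⟯ (FN N) := H40.finiteDimensional_FN N
  obtain ⟨hvx, hredx⟩ := gaussRed_jBar h
  have hF := H76.ffBase_FN N
  have hFb := H16.ffBase_Fk N hℓN A hA
  have hdegF : ∀ P : Place (AlgebraicClosure ℚ) (modularFunctionFieldBar N), P.deg = 1 :=
    H95.place_deg_eq_one N
  have hdegFb := H16.deg_eq_one_Fk N hℓN A hA
  have hx0 : jBar N ≠ 0 := (gaussRed h).ne_zero_of_v_eq_one hvx
  have hjk0 : H16.jk N A ≠ 0 := by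
    rw [← hredx]; exact (gaussRed h).red_ne_zero hvx
  -- pole divisors
  obtain ⟨B, hB⟩ := exists_poleDivisor (jBar N) (hF.finOrd _ hx0)
  obtain ⟨B', hB'⟩ := exists_poleDivisor (H16.jk N A) (hFb.finOrd _ hjk0)
  have hdegB : Divisor.degree B = (dedekindPsi N : ℤ) := by
    rw [H43.degree_eq_finrank_of_forall_eq_pole (K := Qbar) (F := FN N) (jBar N)
      (H40.transcendental_jBar N) (H40.transcendental_jBar N) B hB, H95.finrank_eq_dedekindPsi]
  have hdegB' : Divisor.degree B' = (dedekindPsi N : ℤ) :=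
    H16.degree_pole_jk N hℓN A hA B' hB'
  have hB'' : ∀ Q, B' Q = max (-Q.ord ((gaussRed h).red (jBar N))) 0 := by
    intro Q; rw [hredx]; exact hB' Q
  have hdeg : Divisor.degree B = Divisor.degree B' := by rw [hdegB, hdegB']
  -- the bad set
  set S : Set (Place (IsLocalRing.ResidueField A)
      (modularFunctionFieldFullC (IsLocalRing.ResidueField A) N)) :=
    {Q | Q.ord (H16.jk N A) ≠ 0} ∪
      {Q | ∃ c : IsLocalRing.ResidueField A, 2 ≤ Q.ord (H16.jk N A - algebraMap _ _ c)} with hS
  have hSfin : S.Finite :=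
    (hFb.finOrd _ hjk0).union (H15.finite_ramified (H16.jk N A) (H16.transcendental_jk N A))
  -- a pole of `j`
  obtain ⟨P₀, hP₀⟩ := (H76.ffInputs_FN N).existsPole (jBar N) (H40.transcendental_jBar N)
  refine ⟨S, P₀, hSfin, ?_, ?_⟩
  · intro Q hQ
    rw [hS, Set.mem_union, not_or] at hQ
    obtain ⟨hQ1, hQ2⟩ := hQ
    simp only [Set.mem_ofPred_eq, ne_eq, not_not] at hQ1
    simp only [Set.mem_ofPred_eq, not_exists, not_le] at hQ2
    refine goodCoordAt_of_poleDegree (gaussRed h) hdegF hdegFb (jBar N) hvx ?_ ?_ ?_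
      B hB B' hB'' hdeg ?_ Q ?_ ?_
    · intro a ha
      exact (gaussRed_jBar_sub h ⟨a, mem_of_gaussRed_v_le_one h a ha⟩).1
    · intro c
      obtain ⟨a, rfl⟩ := IsLocalRing.residue_surjective (R := A) c
      exact ⟨(a : AlgebraicClosure ℚ), (gaussRed_algebraMap h a).1, (gaussRed_algebraMap h a).2⟩
    · intro a ha
      exact ⟨_, (gaussRed_algebraMap h ⟨a, mem_of_gaussRed_v_le_one h a ha⟩).2⟩
    · intro c
      rw [hredx]
      exact ne_algebraMap_of_transcendental (H16.transcendental_jk N A) c
    · rw [hredx, hQ1]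
    · intro c
      rw [hredx]
      exact hQ2 c
  · have hneg := ord_red_neg_of_pole (gaussRed h) hdegF hdegFb (jBar N) hvx B hB B' hB'' hdeg
      P₀ hP₀
    rw [hredx] at hneg
    rw [hS]
    left
    simp only [Set.mem_ofPred_eq]
    exact ne_of_lt hneg

end Main

section Final

variable {ℓ : ℕ} [hℓ : Fact ℓ.Prime]

set_option maxHeartbeats 6400000 in
/-- **`CoreE` from the genus inequality (GR).** -/
theorem coreE_of_genus_le (hℓN : ¬ ℓ ∣ N) (hA : A.LiesOverPrime ℓ)
    (h : ReductionInputsModL A N) (m : ℕ) (hm : ¬ ℓ ∣ m)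
    (hGR : (H76.ffBase_FN N).gR ≤ (H16.ffBase_Fk N hℓN A hA).gR) :
    H11.CoreE A N m := by
  obtain ⟨S, P₀, hSfin, hgood, hP₀⟩ := exists_goodCoord hℓN hA h
  have hmk : (m : IsLocalRing.ResidueField A) ≠ 0 := by
    haveI := H16.charP_k A hA
    rw [Ne, CharP.cast_eq_zero_iff (IsLocalRing.ResidueField A) ℓ m]
    exact hm
  intro Y₁ Y₂ hred D hD
  rw [Divisor.mem_principal]
  obtain ⟨hv₁, hr₁⟩ := gaussRed_compat h Y₁
  obtain ⟨hv₂, hr₂⟩ := gaussRed_compat h Y₂
  have hvinv : (gaussRed h).v (Y₂.gen)⁻¹ = 1 := (gaussRed h).v_inv_eq_one hv₂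
  refine isPrincipal_of_red_eq_one (gaussRed h) (H76.ffBase_FN N) (H16.ffBase_Fk N hℓN A hA) hGR
    (H95.place_deg_eq_one N) (H16.deg_eq_one_Fk N hℓN A hA) (H16.ell_zero_Fk N hℓN A hA)
    (H16.infinite_places_Fk N hℓN A hA) m hmk (jBar N) S hSfin hgood P₀ hP₀ D
    (Y₁.gen * (Y₂.gen)⁻¹) ?_ ?_ ?_
  · rw [map_mul, hv₁, hvinv, one_mul]
  · rw [(gaussRed h).red_mul _ _ hv₁.le hvinv.le, (gaussRed h).red_inv hv₂, hr₁, hr₂, hred,
      mul_inv_cancel₀ Y₂.red_ne_zero]
  · intro P
    rw [hD P, P.ord_mul Y₁.gen_ne_zero (inv_ne_zero Y₂.gen_ne_zero), P.ord_inv]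
    ring

set_option maxHeartbeats 6400000 in
/-- **S18 from the genus inequality (GR)**: the genus of `X₀(N)` does not drop mod `ℓ ∤ N`. -/
theorem s18_of_genus_le (hℓN : ¬ ℓ ∣ N) (hA : A.LiesOverPrime ℓ)
    (hGR : (H76.ffBase_FN N).gR ≤ (H16.ffBase_Fk N hℓN A hA).gR)
    (h : ReductionInputsModL A N) (m : ℕ) (hm : ¬ ℓ ∣ m) (z : JZero N)
    (hmz : m • z = 0) (hz : reductionModL A N z = 0) : z = 0 := by
  haveI := H16.finiteDimensional_Fk N hℓN A hA
  have hm0 : m ≠ 0 := by
    rintro rfl
    exact hm (dvd_zero ℓ)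
  exact H11.result_of_coreE_inst h m hm0 (H16.jk N A) (H16.transcendental_jk N A)
    (coreE_of_genus_le hℓN hA h m hm hGR) z hmz hz

end Final

end Fermat.Agent.S18.H61

end
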