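/-
S18 (helper33): top-level wiring `ASSEMBLY ∘ INST-7` in the Gauss-model vocabulary.
The frozen statement of S18 from helper3's `GaussModel` for `(A₁, F₁, j₁, jN₁)`, `(S)` and `(GR)`
in the lifting form through `M.res1` (no comparison with a `ℚ̄`-level ball needed: the R0 side is
taken from the frozen hypothesis `h`).
-/
import Fermat.Agent.S18.H33_LatticeGauss
import Fermat.Agent.S18.H61_Assembly

set_option autoImplicit false
set_option synthInstance.maxHeartbeats 400000

noncomputable section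

namespace Fermat.Agent.S18.H33

open AlgebraicCurve ModularCurve IntermediateField Polynomial
open Fermat.Agent.S24 Fermat.Agent.RR

variable (N : ℕ) [NeZero N] {ℓ : ℕ} [hℓ : Fact ℓ.Prime] (hℓN : ¬ ℓ ∣ N)
variable (A : ValuationSubring (AlgebraicClosure ℚ)) (hA : A.LiesOverPrime ℓ)

local notation "kA" => IsLocalRing.ResidueField A
local notation "L₁" => H45.unrCyclo ℓ
local notation "A₁" => H45.A0 A ℓ
local notation "F₁" => modularFunctionFieldFullC (H45.unrCyclo ℓ) N
local notation "j₁" => H16.jK (H45.unrCyclo ℓ) N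
local notation "jN₁" => H16.jNK (H45.unrCyclo ℓ) N

include hℓN hA in
set_option maxHeartbeats 3200000 in
/-- **S18 from the Gauss model, `(S)` and `(GR)`.** -/
theorem s18_of_gaussModel
    (M : H3.GaussModel (R0 := A₁) (k := kA) (F1 := F₁) (Fk := modularFunctionFieldFullC kA N)
      ((ℓ : ℕ) : A₁) (H45.resA0 A ℓ) j₁ jN₁ (H16.jK kA N) (H16.jNK kA N))
    (hsat : ∀ y ∈ M.O1,
      IsIntegral (Algebra.adjoin A₁ {j₁}) (algebraMap A₁ F₁ ((ℓ : ℕ) : A₁) * y) →
      IsIntegral (Algebra.adjoin A₁ {j₁}) y)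
    (hGRfin : ∀ γ : modularFunctionFieldFullC kA N,
      IsIntegral (Algebra.adjoin kA {H16.jK kA N}) γ →
      ∃ (b : F₁) (hb : IsIntegral (Algebra.adjoin A₁ {j₁}) b), M.res1 ⟨b, M.hBO b hb⟩ = γ)
    (hGRinf : ∀ γ : modularFunctionFieldFullC kA N,
      IsIntegral (Algebra.adjoin kA {(H16.jK kA N)⁻¹}) γ →
      ∃ (b : F₁) (hb : IsIntegral (Algebra.adjoin A₁ {j₁⁻¹}) b),
        M.res1 ⟨b, M.hBinfO (jK_ne_zero_kA N A) b hb⟩ = γ)
    (h : ReductionInputsModL A N) (m : ℕ) (hm : ¬ ℓ ∣ m) (z : JZero N)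
    (hmz : m • z = 0) (hz : reductionModL A N z = 0) : z = 0 := by
  have hchar := H16.charP_k A hA
  have hGR := gR_FN_le_gR_Fk_of_gaussModel N hℓN A hA h M hsat hGRfin hGRinf
  exact H61.s18_of_genus_le hℓN hA hGR h m hm z hmz hz

end Fermat.Agent.S18.H33
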