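import Mathlib
import Fermat.Agent.S18.H13_GRInfA0
import Fermat.Agent.S18.H33_S18OfGauss

/-!
# S18 (helper13): the frozen statement from `hGRfin` alone

`s18_of_hGRfin` : the frozen statement of S18 from the lifting property on the FINITE chart
(`hGRfin`, for every Gauss model `M` of `(A₁, F₁, j₁, jN₁)`), with the model
(`H3.nonempty_gaussModel_inst`), `(S)` (`H3.hsat_inst`) and `hGRinf`
(`H13.hGRinf_of_hGRfin_A0`, the cusp chart) discharged.
-/

set_option autoImplicit false
set_option linter.unusedSectionVars false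
set_option linter.style.haveILetI false
set_option synthInstance.maxHeartbeats 400000
set_option maxHeartbeats 3200000

open Polynomial IntermediateField AlgebraicCurve ModularCurve

namespace Fermat.Agent.S18.H13

open Fermat.Agent.S18 Fermat.Agent.S24

noncomputable section

section Final

variable (N : ℕ) [NeZero N] {ℓ : ℕ} [hℓ : Fact ℓ.Prime] (hℓN : ¬ ℓ ∣ N)
  (A : ValuationSubring (AlgebraicClosure ℚ)) (hA : A.LiesOverPrime ℓ)

local notation "kA" => IsLocalRing.ResidueField A
local notation "A₁" => H45.A0 A ℓ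
local notation "L₁" => H45.unrCyclo ℓ
local notation "F₁" => modularFunctionFieldFullC (H45.unrCyclo ℓ) N
local notation "j₁" => H16.jK (H45.unrCyclo ℓ) N
local notation "jN₁" => H16.jNK (H45.unrCyclo ℓ) N
local notation "FkA" => modularFunctionFieldFullC (IsLocalRing.ResidueField A) N

include hℓN hA in
/-- **S18 from `hGRfin` alone.** -/
theorem s18_of_hGRfin
    (hfin : ∀ M : H3.GaussModel (R0 := A₁) (k := kA) (F1 := F₁) (Fk := FkA)
        ((ℓ : ℕ) : A₁) (H45.resA0 A ℓ) j₁ jN₁ (H16.jK kA N) (H16.jNK kA N),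
      ∀ γ : FkA, IsIntegral (Algebra.adjoin kA {H16.jK kA N}) γ →
        ∃ (b : F₁) (hb : IsIntegral (Algebra.adjoin A₁ {j₁}) b), M.res1 ⟨b, M.hBO b hb⟩ = γ)
    (h : ReductionInputsModL A N) (m : ℕ) (hm : ¬ ℓ ∣ m) (z : JZero N)
    (hmz : m • z = 0) (hz : reductionModL A N z = 0) : z = 0 := by
  obtain ⟨M⟩ := H3.nonempty_gaussModel_inst N hℓN A hA
  exact H33.s18_of_gaussModel N hℓN A hA M (H3.hsat_inst N A hA M) (hfin M)
    (hGRinf_of_hGRfin_A0 N hℓN A hA M (H33.jK_ne_zero_kA N A) (hfin M)) h m hm z hmz hz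

end Final

end

end Fermat.Agent.S18.H13
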