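/-
S18 project, route Q (helper96), ITEM (II): **`hGRfin` for `ℓ ≠ 3` (in particular `ℓ = 2`) from the
Hesse chart**, at the concrete model `A₁ = H45.A0 A ℓ`, `L₁ = H45.unrCyclo ℓ`,
`F₁ = modularFunctionFieldFullC L₁ N`, in the binder shape of `H33.s18_of_gaussModel` /
`H61.s18_of_gaussModel` (for EVERY Gauss model `M`).
-/
import Fermat.Agent.S18.H96_GRFinHesse
import Fermat.Agent.S18.H3_ChartFinal
import Fermat.Agent.S18.H55_HorInst
import Fermat.Agent.S18.H45_A0Units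

set_option autoImplicit false
set_option linter.unusedSectionVars false
set_option linter.style.haveILetI false
set_option synthInstance.maxHeartbeats 400000

namespace Fermat.Agent.S18.H96

open Polynomial IntermediateField ModularCurve AlgebraicCurve Fermat.Agent.S18

noncomputable section

variable (N : ℕ) [NeZero N] {ℓ : ℕ} [hℓ : Fact ℓ.Prime] (hℓN : ¬ ℓ ∣ N)
variable (A : ValuationSubring (AlgebraicClosure ℚ)) (hA : A.LiesOverPrime ℓ)

local notation "kA" => IsLocalRing.ResidueField A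
local notation "L₁" => H45.unrCyclo ℓ
local notation "A₁" => H45.A0 A ℓ
local notation "F₁" => modularFunctionFieldFullC (H45.unrCyclo ℓ) N
local notation "j₁" => H16.jK (H45.unrCyclo ℓ) N
local notation "jN₁" => H16.jNK (H45.unrCyclo ℓ) N
local notation "FkA" => modularFunctionFieldFullC (IsLocalRing.ResidueField A) N

include hℓN hA in
set_option maxHeartbeats 4000000 in
/-- **ITEM (II): `hGRfin` from the Hesse chart**, `ℓ ≠ 3`. -/
theorem hGRfin_hesse_inst (hℓ3 : ℓ ≠ 3)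
    (M : H3.GaussModel (R0 := A₁) (k := kA) (F1 := F₁) (Fk := FkA)
      ((ℓ : ℕ) : A₁) (H45.resA0 A ℓ) j₁ jN₁ (H16.jK kA N) (H16.jNK kA N)) :
    ∀ γ : FkA, IsIntegral (Algebra.adjoin kA {H16.jK kA N}) γ →
      ∃ (b : F₁) (hb : IsIntegral (Algebra.adjoin A₁ {j₁}) b), M.res1 ⟨b, M.hBO b hb⟩ = γ := by
  haveI hdvr : IsDiscreteValuationRing A₁ := H45.isDiscreteValuationRing_A0 hℓ.out hA
  obtain ⟨-, -, -, Φ, hΦ, hroot, hgen⟩ := H3.inst_facts N A hA
  obtain ⟨w, -, hw⟩ := H45.exists_cubeRoot_unrCyclo hℓ.out hℓ3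
  have hNk : ((N : ℕ) : kA) ≠ 0 := H45.natCast_ne_zero_residueField hℓ.out hA hℓN
  have hgenk : ∀ γ : FkA, ∃ s : kA[X], aeval (H16.jK kA N) s ≠ 0 ∧ ∃ g : kA[X][X],
      aeval (H16.jK kA N) s * γ =
        g.eval₂ ((aeval (H16.jK kA N) : kA[X] →ₐ[kA] FkA) : kA[X] →+* FkA) (H16.jNK kA N) :=
    fun γ => H67.exists_repr_of_adjoin_eq_top (H16.jK kA N) (H16.jNK kA N)
      (H16.isIntegral_jNK_gen N kA hNk) (H16.adjoin_jNK_eq_top_gen N kA hNk) γ
  intro γ hγ
  exact hGRfin_hesse N (H45.irreducible_natCast_A0 hℓ.out hA) (H45.resA0 A ℓ)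
    (H45.resA0_surjective hℓ.out hA) (H45.ker_resA0_eq_span hℓ.out hA)
    (H45.isUnit_three_A0 hℓ.out hA hℓ3) hNk w hw (H55.hunr_hesse ℓ N) M Φ hΦ hroot hgen hgenk γ hγ

end

end Fermat.Agent.S18.H96
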