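/-
S18 / R-EXIST (I2) CenterInst, concrete modular instance (helper27): the two chart hypotheses
`H97.ChartHyp` for the Gauss valuation ring `H92.gaussO` of `X₀(N)` over a valuation subring of
`Qbar`, for the coordinates `t = j` and `t = j⁻¹`, together with the orthonormal power basis
`1, j_N, …, j_N^(ψ(N)-1)` in the vocabulary of `S24.jBar`, `S24.jd`.
-/
import Mathlib
import Fermat.Agent.S24.Defs
import Fermat.Agent.S18.H92_GaussInst
import Fermat.Agent.S18.H27_CenterInst

set_option autoImplicit false
set_option synthInstance.maxHeartbeats 400000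

noncomputable section

namespace Fermat.Agent.S18.H27

open Polynomial IntermediateField AlgebraicCurve ModularCurve Fermat.Agent.S18.H92
open Fermat.Agent.S24 (Qbar FN jBar jd)

variable (A : ValuationSubring (AlgebraicClosure ℚ)) (N : ℕ) [NeZero N]
  (D : ModularPolynomialData N) (hind : IndepK (IsLocalRing.ResidueField A) N)

theorem xF_twoGen :
    xF (twoGen A N D hind) (modularFunctionFieldBar N) (FL_eq A N D hind) = jBar N := by
  apply Subtype.ext
  rw [coe_xF, twoGen_xL]
  show jqModC (AlgebraicClosure ℚ) = coeffEmb (AlgebraicClosure ℚ) jq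
  rw [coeffEmb, ← jqModC_rat, coeffMap_jqModC]

theorem yF_twoGen :
    yF (twoGen A N D hind) (modularFunctionFieldBar N) (FL_eq A N D hind) = jd N N dvd_rfl := by
  apply Subtype.ext
  rw [coe_yF, twoGen_yL]
  show jqNModC (AlgebraicClosure ℚ) N = coeffEmb (AlgebraicClosure ℚ) (qExpand ℚ N jq)
  rw [coeffEmb, ← jqModC_rat, coeffMap_qExpand, coeffMap_jqModC]
  rfl

/-- the orthonormal power basis `1, j_N, …, j_N^(ψ(N)-1)` -/
def jFam (i : Fin (dedekindPsi N)) : FN N := jd N N dvd_rfl ^ (i : ℕ)

theorem powFam_twoGen :
    powFam (twoGen A N D hind) (modularFunctionFieldBar N) (FL_eq A N D hind) = jFam N := by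
  funext i
  show yF (twoGen A N D hind) (modularFunctionFieldBar N) (FL_eq A N D hind) ^ (i : ℕ) = _
  rw [yF_twoGen]
  rfl

/-- `GaussData` for the chart `t = j`. -/
theorem gaussData_j :
    GaussData A (IsLocalRing.residue A) (gaussO A N D hind) (gaussRes A N D hind) (jBar N) := by
  have h := gaussData_x (twoGen A N D hind) (modularFunctionFieldBar N) (FL_eq A N D hind)
    (modularFunctionFieldFullC (IsLocalRing.ResidueField A) N) (Fk_eq A N D hind)
  rw [xF_twoGen] at h
  exact h

/-- `GaussData` for the chart `t = j⁻¹`. -/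
theorem gaussData_jinv :
    GaussData A (IsLocalRing.residue A) (gaussO A N D hind) (gaussRes A N D hind) (jBar N)⁻¹ := by
  have h := gaussData_xinv (twoGen A N D hind) (modularFunctionFieldBar N) (FL_eq A N D hind)
    (modularFunctionFieldFullC (IsLocalRing.ResidueField A) N) (Fk_eq A N D hind)
  rw [xF_twoGen] at h
  exact h

theorem jBar_mem_gaussO : jBar N ∈ gaussO A N D hind := (gaussData_j A N D hind).t_mem

theorem jBar_inv_mem_gaussO : (jBar N)⁻¹ ∈ gaussO A N D hind := (gaussData_jinv A N D hind).t_mem

theorem coe_gaussRes_jBar :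
    ((gaussRes A N D hind ⟨jBar N, jBar_mem_gaussO A N D hind⟩ :
      modularFunctionFieldFullC (IsLocalRing.ResidueField A) N) :
        LaurentSeries (IsLocalRing.ResidueField A)) = jqModC (IsLocalRing.ResidueField A) := by
  have h := coe_resHom_xF (twoGen A N D hind) (modularFunctionFieldBar N) (FL_eq A N D hind)
    (modularFunctionFieldFullC (IsLocalRing.ResidueField A) N) (Fk_eq A N D hind)
  rw [twoGen_xk] at h
  rw [← h]
  congr 2
  exact Subtype.ext (xF_twoGen A N D hind).symm

theorem jd_mem_gaussO : jd N N dvd_rfl ∈ gaussO A N D hind := by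
  have h := yF_mem (twoGen A N D hind) (modularFunctionFieldBar N) (FL_eq A N D hind)
  rw [yF_twoGen] at h
  exact h

theorem coe_gaussRes_jd :
    ((gaussRes A N D hind ⟨jd N N dvd_rfl, jd_mem_gaussO A N D hind⟩ :
      modularFunctionFieldFullC (IsLocalRing.ResidueField A) N) :
        LaurentSeries (IsLocalRing.ResidueField A)) = jqNModC (IsLocalRing.ResidueField A) N := by
  have h := coe_resHom_yF (twoGen A N D hind) (modularFunctionFieldBar N) (FL_eq A N D hind)
    (modularFunctionFieldFullC (IsLocalRing.ResidueField A) N) (Fk_eq A N D hind)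
  rw [twoGen_yk] at h
  rw [← h]
  congr 2
  exact Subtype.ext (yF_twoGen A N D hind).symm

/-- **(he)** -/
theorem jFam_mem (i : Fin (dedekindPsi N)) : jFam N i ∈ gaussO A N D hind :=
  pow_mem (jd_mem_gaussO A N D hind) _

theorem gaussRes_jFam (i : Fin (dedekindPsi N)) :
    gaussRes A N D hind ⟨jFam N i, jFam_mem A N D hind i⟩ =
      (gaussRes A N D hind ⟨jd N N dvd_rfl, jd_mem_gaussO A N D hind⟩) ^ (i : ℕ) := by
  rw [← map_pow]
  rfl

/-- **(hek)**, chart `t = j`. -/
theorem linearIndependent_res_jFam :
    LinearIndependent (IsLocalRing.ResidueField A)⟮(gaussData_j A N D hind).tk⟯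
      (fun i => gaussRes A N D hind ⟨jFam N i, jFam_mem A N D hind i⟩) := by
  have h := linearIndependent_res_powFam (twoGen A N D hind) (modularFunctionFieldBar N)
    (FL_eq A N D hind) (modularFunctionFieldFullC (IsLocalRing.ResidueField A) N)
    (Fk_eq A N D hind)
  have htk : (gaussData_x (twoGen A N D hind) (modularFunctionFieldBar N)
      (FL_eq A N D hind) (modularFunctionFieldFullC (IsLocalRing.ResidueField A) N)
      (Fk_eq A N D hind)).tk = (gaussData_j A N D hind).tk := by
    show (twoGen A N D hind).resHom _ _ _ _ _ = gaussRes A N D hind _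
    congr 1
    exact Subtype.ext (xF_twoGen A N D hind)
  have hfun : (fun i : Fin (dedekindPsi N) =>
      gaussRes A N D hind ⟨jFam N i, jFam_mem A N D hind i⟩) =
      fun i : Fin (dedekindPsi N) => (twoGen A N D hind).resHom (modularFunctionFieldBar N)
        (FL_eq A N D hind) (modularFunctionFieldFullC (IsLocalRing.ResidueField A) N)
        (Fk_eq A N D hind) ⟨powFam (twoGen A N D hind) (modularFunctionFieldBar N)
          (FL_eq A N D hind) i, powFam_mem (twoGen A N D hind) (modularFunctionFieldBar N)
          (FL_eq A N D hind) i⟩ := by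
    funext i
    show gaussRes A N D hind _ = gaussRes A N D hind _
    congr 1
    exact Subtype.ext (congrFun (powFam_twoGen A N D hind) i).symm
  rw [hfun]
  exact linearIndependent_congr_field
    (congrArg (fun z => (IsLocalRing.ResidueField A)⟮z⟯) htk) _ h

/-- **(hek)**, chart `t = j⁻¹`. -/
theorem linearIndependent_res_jFam_inv :
    LinearIndependent (IsLocalRing.ResidueField A)⟮(gaussData_jinv A N D hind).tk⟯
      (fun i => gaussRes A N D hind ⟨jFam N i, jFam_mem A N D hind i⟩) := by
  have h := linearIndependent_res_powFam_inv (twoGen A N D hind) (modularFunctionFieldBar N)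
    (FL_eq A N D hind) (modularFunctionFieldFullC (IsLocalRing.ResidueField A) N)
    (Fk_eq A N D hind)
  have htk : (gaussData_xinv (twoGen A N D hind) (modularFunctionFieldBar N)
      (FL_eq A N D hind) (modularFunctionFieldFullC (IsLocalRing.ResidueField A) N)
      (Fk_eq A N D hind)).tk = (gaussData_jinv A N D hind).tk := by
    show (twoGen A N D hind).resHom _ _ _ _ _ = gaussRes A N D hind _
    congr 1
    exact Subtype.ext (congrArg Inv.inv (xF_twoGen A N D hind))
  have hfun : (fun i : Fin (dedekindPsi N) =>
      gaussRes A N D hind ⟨jFam N i, jFam_mem A N D hind i⟩) =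
      fun i : Fin (dedekindPsi N) => (twoGen A N D hind).resHom (modularFunctionFieldBar N)
        (FL_eq A N D hind) (modularFunctionFieldFullC (IsLocalRing.ResidueField A) N)
        (Fk_eq A N D hind) ⟨powFam (twoGen A N D hind) (modularFunctionFieldBar N)
          (FL_eq A N D hind) i, powFam_mem (twoGen A N D hind) (modularFunctionFieldBar N)
          (FL_eq A N D hind) i⟩ := by
    funext i
    show gaussRes A N D hind _ = gaussRes A N D hind _
    congr 1
    exact Subtype.ext (congrFun (powFam_twoGen A N D hind) i).symm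
  rw [hfun]
  exact linearIndependent_congr_field
    (congrArg (fun z => (IsLocalRing.ResidueField A)⟮z⟯) htk) _ h

include A D hind in
/-- **(hspan)**, chart `t = j`. -/
theorem exists_sum_jFam (z : FN N) :
    ∃ c : Fin (dedekindPsi N) → FN N,
      (∀ i, c i ∈ (AlgebraicClosure ℚ)⟮jBar N⟯) ∧ z = ∑ i, c i * jFam N i := by
  have h := exists_sum_powFam (twoGen A N D hind) (modularFunctionFieldBar N)
    (FL_eq A N D hind) z
  rw [xF_twoGen, powFam_twoGen] at h
  exact h

include A D hind in
/-- **(hspan)**, chart `t = j⁻¹`. -/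
theorem exists_sum_jFam_inv (z : FN N) :
    ∃ c : Fin (dedekindPsi N) → FN N,
      (∀ i, c i ∈ (AlgebraicClosure ℚ)⟮(jBar N)⁻¹⟯) ∧ z = ∑ i, c i * jFam N i := by
  have h := exists_sum_powFam_inv (twoGen A N D hind) (modularFunctionFieldBar N)
    (FL_eq A N D hind) z
  rw [xF_twoGen, powFam_twoGen] at h
  exact h

include A D hind in
/-- **(hli)**, chart `t = j`. -/
theorem linearIndependent_jFam :
    LinearIndependent (AlgebraicClosure ℚ)⟮jBar N⟯ (jFam N) := by
  have h := linearIndependent_powFam (twoGen A N D hind) (modularFunctionFieldBar N)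
    (FL_eq A N D hind)
  rw [xF_twoGen, powFam_twoGen] at h
  exact h

include A D hind in
/-- **(hli)**, chart `t = j⁻¹`. -/
theorem linearIndependent_jFam_inv :
    LinearIndependent (AlgebraicClosure ℚ)⟮(jBar N)⁻¹⟯ (jFam N) := by
  have h := linearIndependent_powFam_inv (twoGen A N D hind) (modularFunctionFieldBar N)
    (FL_eq A N D hind)
  rw [xF_twoGen, powFam_twoGen] at h
  exact h

/-- **(I2), chart `t = j`**: the chart hypotheses for the Gauss valuation ring of `X₀(N)`. -/
theorem chartHyp_j
    (hresL : ∀ P : Place (AlgebraicClosure ℚ) (FN N),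
      Function.Surjective (algebraMap (AlgebraicClosure ℚ) P.ResidueField)) :
    H97.ChartHyp A (IsLocalRing.residue A) (gaussO A N D hind) (gaussRes A N D hind)
      (jBar N) := by
  have h := chartHyp_x (twoGen A N D hind) (modularFunctionFieldBar N) (FL_eq A N D hind)
    (modularFunctionFieldFullC (IsLocalRing.ResidueField A) N) (Fk_eq A N D hind) hresL
  rw [xF_twoGen] at h
  exact h

/-- **(I2), chart `t = j⁻¹`.** -/
theorem chartHyp_jinv
    (hresL : ∀ P : Place (AlgebraicClosure ℚ) (FN N),
      Function.Surjective (algebraMap (AlgebraicClosure ℚ) P.ResidueField)) :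
    H97.ChartHyp A (IsLocalRing.residue A) (gaussO A N D hind) (gaussRes A N D hind)
      (jBar N)⁻¹ := by
  have h := chartHyp_xinv (twoGen A N D hind) (modularFunctionFieldBar N) (FL_eq A N D hind)
    (modularFunctionFieldFullC (IsLocalRing.ResidueField A) N) (Fk_eq A N D hind) hresL
  rw [xF_twoGen] at h
  exact h

end Fermat.Agent.S18.H27
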