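import Mathlib
import Fermat.Prelude.Def_ModularCurve_X0ModL
import Fermat.Prelude.Def_ModularCurve_ArithmeticGalois
import Fermat.Agent.S24.Defs
import Fermat.Agent.S24.H40_Generation

set_option autoImplicit false
set_option linter.unusedSectionVars false

/-!
S18 / INST-1 (fifth bullet) + vocabulary bridge (helper8).

* `fullCMap φ N` : the coefficientwise ring hom `K(j(q^d) : d ∣ N) → K'(j(q^d) : d ∣ N)` induced by a
  field hom `φ : K →+* K'` (prelude `modularFunctionFieldFullC`), generators to generators.
* `fullC_eq_laurentBaseChange L N` : for `L ⊇ ℚ` the prelude field `modularFunctionFieldFullC L N`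
  IS `laurentBaseChange L (modularFunctionFieldFull N)` (so `= modularFunctionFieldBar N` for
  `L = Qbar`), and `fullCEquiv`.
* `toFL L N K`, `toBar N K` : the coefficient embedding of the function field over a subfield
  `K → L` (resp. `K → Qbar`) into the base-changed field, injective, `j ↦ jBar`, `j(q^d) ↦ jd`.
-/

noncomputable section

namespace Fermat.Agent.S18.H8

open ModularCurve HahnSeries IntermediateField Fermat.Agent.S24

section Generic

variable {K K' : Type*} [Field K] [Field K'] (φ : K →+* K') (N : ℕ) [NeZero N]

theorem coeffMap_algebraMap' (c : K) :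
    coeffMap φ (algebraMap K (LaurentSeries K) c) = algebraMap K' (LaurentSeries K') (φ c) := by
  rw [algebraMap_laurentSeries_eq_single, algebraMap_laurentSeries_eq_single, coeffMap_single]

theorem coeffMap_injective' : Function.Injective (coeffMap φ) := (coeffMap φ).injective

theorem coeffMap_mem_fullC {x : LaurentSeries K} (hx : x ∈ modularFunctionFieldFullC K N) :
    coeffMap φ x ∈ modularFunctionFieldFullC K' N := by
  rw [modularFunctionFieldFullC] at hx
  induction hx using IntermediateField.adjoin_induction with
  | mem y hy =>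
      obtain ⟨d, hd, hdN, rfl⟩ := hy
      rw [coeffMap_qExpand, coeffMap_jqModC]
      exact jqModCd_mem_full K' N hdN
  | algebraMap r =>
      rw [coeffMap_algebraMap']
      exact IntermediateField.algebraMap_mem _ _
  | add y z _ _ hy hz => rw [map_add]; exact add_mem hy hz
  | inv y _ hy => rw [map_inv₀]; exact inv_mem hy
  | mul y z _ _ hy hz => rw [map_mul]; exact mul_mem hy hz

/-- The coefficientwise map between the function fields of `X₀(N)` over two fields. -/
def fullCMap : modularFunctionFieldFullC K N →+* modularFunctionFieldFullC K' N :=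
  ((coeffMap φ).comp (modularFunctionFieldFullC K N).val.toRingHom).codRestrict
    (modularFunctionFieldFullC K' N).toSubfield
    (fun x => coeffMap_mem_fullC φ N x.2)

@[simp] theorem coe_fullCMap (x : modularFunctionFieldFullC K N) :
    ((fullCMap φ N x : modularFunctionFieldFullC K' N) : LaurentSeries K') =
      coeffMap φ (x : LaurentSeries K) := rfl

theorem fullCMap_injective : Function.Injective (fullCMap φ N) := (fullCMap φ N).injective

theorem fullCMap_algebraMap (c : K) :
    fullCMap φ N (algebraMap K (modularFunctionFieldFullC K N) c) =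
      algebraMap K' (modularFunctionFieldFullC K' N) (φ c) := by
  apply Subtype.ext
  rw [coe_fullCMap]
  exact coeffMap_algebraMap' φ c

theorem fullCMap_jd (d : ℕ) [NeZero d] (hd : d ∣ N) :
    fullCMap φ N ⟨qExpand K d (jqModC K), jqModCd_mem_full K N hd⟩ =
      ⟨qExpand K' d (jqModC K'), jqModCd_mem_full K' N hd⟩ := by
  apply Subtype.ext
  rw [coe_fullCMap]
  show coeffMap φ (qExpand K d (jqModC K)) = qExpand K' d (jqModC K')
  rw [coeffMap_qExpand, coeffMap_jqModC]

theorem fullCMap_j :
    fullCMap φ N ⟨jqModC K, jqModC_mem_full K N⟩ = ⟨jqModC K', jqModC_mem_full K' N⟩ := by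
  apply Subtype.ext
  rw [coe_fullCMap]
  exact coeffMap_jqModC φ

end Generic

section BaseChange

variable (L : Type*) [Field L] [Algebra ℚ L] (N : ℕ) [NeZero N]

theorem coeffEmb_image_divisorExpansions :
    (⇑(coeffEmb L) '' divisorExpansions N) = divisorExpansionsC L N := by
  ext x
  constructor
  · rintro ⟨y, ⟨d, hd, hdN, rfl⟩, rfl⟩
    refine ⟨d, hd, hdN, ?_⟩
    rw [coeffEmb, coeffMap_qExpand]
    congr 1
    exact coeffMap_jqModC (algebraMap ℚ L)
  · rintro ⟨d, hd, hdN, rfl⟩
    refine ⟨qExpand ℚ d jq, ⟨d, hd, hdN, rfl⟩, ?_⟩
    rw [coeffEmb, coeffMap_qExpand]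
    congr 1
    exact coeffMap_jqModC (algebraMap ℚ L)

/-- The two vocabularies agree: `L(j(q^d) : d ∣ N) ⊆ L((q))` is the base change of the rational
function field of `X₀(N)`. -/
theorem fullC_eq_laurentBaseChange :
    modularFunctionFieldFullC L N = laurentBaseChange L (modularFunctionFieldFull N) := by
  rw [modularFunctionFieldFull, S24.H40.laurentBaseChange_adjoin, coeffEmb_image_divisorExpansions,
    modularFunctionFieldFullC]

theorem coe_equivOfEq_aux {F E : Type*} [Field F] [Field E] [Algebra F E]
    {S T : IntermediateField F E} (h : S = T) (x : S) :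
    ((IntermediateField.equivOfEq h x : T) : E) = (x : E) := by
  subst h
  rfl

theorem coe_equivOfEq_symm_aux {F E : Type*} [Field F] [Field E] [Algebra F E]
    {S T : IntermediateField F E} (h : S = T) (x : T) :
    (((IntermediateField.equivOfEq h).symm x : S) : E) = (x : E) := by
  subst h
  rfl

/-- The identification of the two function fields as `L`-algebras. -/
def fullCEquiv :
    modularFunctionFieldFullC L N ≃ₐ[L] ↥(laurentBaseChange L (modularFunctionFieldFull N)) :=
  IntermediateField.equivOfEq (fullC_eq_laurentBaseChange L N)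

@[simp] theorem coe_fullCEquiv (x : modularFunctionFieldFullC L N) :
    ((fullCEquiv L N x : ↥(laurentBaseChange L (modularFunctionFieldFull N))) : LaurentSeries L) =
      (x : LaurentSeries L) :=
  coe_equivOfEq_aux _ x

@[simp] theorem coe_fullCEquiv_symm (x : ↥(laurentBaseChange L (modularFunctionFieldFull N))) :
    (((fullCEquiv L N).symm x : modularFunctionFieldFullC L N) : LaurentSeries L) =
      (x : LaurentSeries L) :=
  coe_equivOfEq_symm_aux _ x

/-- Coefficient extension `K((q)) → L((q))` restricted to the function fields, with target in the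
base-change vocabulary. -/
def toFL (K : Type*) [Field K] [Algebra K L] :
    modularFunctionFieldFullC K N →+* ↥(laurentBaseChange L (modularFunctionFieldFull N)) :=
  ((coeffMap (algebraMap K L)).comp (modularFunctionFieldFullC K N).val.toRingHom).codRestrict
    (laurentBaseChange L (modularFunctionFieldFull N)).toSubfield
    (fun x => by
      have h := coeffMap_mem_fullC (algebraMap K L) N x.2
      rw [fullC_eq_laurentBaseChange] at h
      exact h)

variable (K : Type*) [Field K] [Algebra K L]

@[simp] theorem coe_toFL (x : modularFunctionFieldFullC K N) :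
    ((toFL L N K x : ↥(laurentBaseChange L (modularFunctionFieldFull N))) : LaurentSeries L) =
      coeffMap (algebraMap K L) (x : LaurentSeries K) := rfl

theorem toFL_injective : Function.Injective (toFL L N K) := (toFL L N K).injective

theorem toFL_algebraMap (c : K) :
    toFL L N K (algebraMap K (modularFunctionFieldFullC K N) c) =
      algebraMap L ↥(laurentBaseChange L (modularFunctionFieldFull N)) (algebraMap K L c) := by
  apply Subtype.ext
  rw [coe_toFL]
  exact coeffMap_algebraMap' (algebraMap K L) c

theorem coe_toFL_jd (d : ℕ) [NeZero d] (hd : d ∣ N) :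
    ((toFL L N K ⟨qExpand K d (jqModC K), jqModCd_mem_full K N hd⟩ :
      ↥(laurentBaseChange L (modularFunctionFieldFull N))) : LaurentSeries L) =
      coeffEmb L (qExpand ℚ d jq) := by
  rw [coe_toFL]
  show coeffMap (algebraMap K L) (qExpand K d (jqModC K)) = coeffEmb L (qExpand ℚ d jq)
  rw [coeffMap_qExpand, coeffMap_jqModC, coeffEmb, coeffMap_qExpand]
  congr 1
  exact (coeffMap_jqModC (algebraMap ℚ L)).symm

theorem coe_toFL_j :
    ((toFL L N K ⟨jqModC K, jqModC_mem_full K N⟩ :
      ↥(laurentBaseChange L (modularFunctionFieldFull N))) : LaurentSeries L) = coeffEmb L jq := by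
  rw [coe_toFL]
  show coeffMap (algebraMap K L) (jqModC K) = coeffEmb L jq
  rw [coeffMap_jqModC]
  exact (coeffMap_jqModC (algebraMap ℚ L)).symm

end BaseChange

section Bar

variable (N : ℕ) [NeZero N] (K : Type*) [Field K] [Algebra K Qbar]

/-- The coefficient embedding of the function field over a subfield `K` of `Qbar` into `FN N`. -/
def toBar : modularFunctionFieldFullC K N →+* FN N := toFL Qbar N K

@[simp] theorem coe_toBar (x : modularFunctionFieldFullC K N) :
    ((toBar N K x : FN N) : LaurentSeries Qbar) =
      coeffMap (algebraMap K Qbar) (x : LaurentSeries K) := rfl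

theorem toBar_injective : Function.Injective (toBar N K) := (toBar N K).injective

theorem toBar_algebraMap (c : K) :
    toBar N K (algebraMap K (modularFunctionFieldFullC K N) c) =
      algebraMap Qbar (FN N) (algebraMap K Qbar c) := toFL_algebraMap Qbar N K c

theorem toBar_j : toBar N K ⟨jqModC K, jqModC_mem_full K N⟩ = jBar N :=
  Subtype.ext (coe_toFL_j Qbar N K)

theorem toBar_jd (d : ℕ) [NeZero d] (hd : d ∣ N) :
    toBar N K ⟨qExpand K d (jqModC K), jqModCd_mem_full K N hd⟩ = jd N d hd :=
  Subtype.ext (coe_toFL_jd Qbar N K d hd)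

theorem toBar_jN :
    toBar N K ⟨qExpand K N (jqModC K), jqModCd_mem_full K N dvd_rfl⟩ = jd N N dvd_rfl :=
  toBar_jd N K N dvd_rfl

end Bar

end Fermat.Agent.S18.H8
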