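/-
S18 / R-EXIST, GR-BRIDGE (helper27), abstract, Mathlib only.

From "the special fibre `B ⧸ I` of the chart ring is an integrally closed domain" (output of
route Q: `H67.isIntegrallyClosed_special_fibre`) to the surjectivity statement (GRFin / GRInf,
field `gr` of helper97's `FibreHyp`): every element of the residue function field `Fk` that is
integral over the coordinate ring is the reduction of an element of `B`.

* `mem_range_of_isIntegral` : `ρ : C →+* Fk` injective, `C` integrally closed domain, every element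
  of `Fk` a quotient of elements of `ρ C`; then every `β` integral over a subring `R0 ≤ ρ.range`
  lies in `ρ.range`.
* `exists_red_eq_of_isIntegral` : the same for `red : B →+* Fk` with kernel `I` and `B ⧸ I`
  integrally closed.
* `isIntegral_map_of_isIntegral` : the easy inclusion: reductions of integral elements are
  integral.
-/
import Mathlib

set_option autoImplicit false

namespace Fermat.Agent.S18.H27

section Abstract

variable {C Fk : Type*} [CommRing C] [Field Fk]

/-- An injective ring hom from an integrally closed domain onto a subring with fraction field `Fk`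
has integrally closed image: elements of `Fk` integral over (a subring of) the image lie in it. -/
theorem mem_range_of_isIntegral [IsIntegrallyClosed C] (ρ : C →+* Fk)
    (hρ : Function.Injective ρ) (hfrac : ∀ y : Fk, ∃ a b : C, ρ b ≠ 0 ∧ y = ρ a / ρ b)
    (R0 : Subring Fk) (hR0 : R0 ≤ ρ.range) {β : Fk} (hβ : IsIntegral R0 β) : β ∈ ρ.range := by
  -- `C ≃+* ρ.range`
  let eC : C ≃+* ρ.range := RingEquiv.ofBijective ρ.rangeRestrict
    ⟨fun x y h => hρ (congrArg Subtype.val h), ρ.rangeRestrict_surjective⟩
  have hic : IsIntegrallyClosed ρ.range := IsIntegrallyClosed.of_equiv eC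
  have hfr : IsFractionRing ρ.range Fk := by
    refine IsFractionRing.of_field _ _ fun y => ?_
    obtain ⟨a, b, -, hy⟩ := hfrac y
    exact ⟨⟨ρ a, a, rfl⟩, ⟨ρ b, b, rfl⟩, hy⟩
  -- integrality over the image
  have hβ' : IsIntegral ρ.range β := by
    obtain ⟨p, hp, hpβ⟩ := hβ
    refine ⟨p.map (Subring.inclusion hR0), hp.map _, ?_⟩
    rw [Polynomial.eval₂_map]
    exact hpβ
  obtain ⟨y, hy⟩ := IsIntegrallyClosed.isIntegral_iff.1 hβ'
  rw [← hy]
  exact y.2

end Abstract

section Quotient

variable {B Fk : Type*} [CommRing B] [Field Fk]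

/-- **GR-BRIDGE**: if `red : B →+* Fk` has kernel `I`, the special fibre `B ⧸ I` is an integrally
closed domain and `Fk` is the fraction field of `red B`, then every element of `Fk` integral over a
subring of `red B` is the reduction of an element of `B`. -/
theorem exists_red_eq_of_isIntegral (red : B →+* Fk) (I : Ideal B) (hker : RingHom.ker red = I)
    [IsDomain (B ⧸ I)] [IsIntegrallyClosed (B ⧸ I)]
    (hfrac : ∀ y : Fk, ∃ a b : B, red b ≠ 0 ∧ y = red a / red b)
    (R0 : Subring Fk) (hR0 : R0 ≤ red.range) {β : Fk} (hβ : IsIntegral R0 β) :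
    ∃ b : B, red b = β := by
  have hI : ∀ a ∈ I, red a = 0 := fun a ha => by rwa [← hker, RingHom.mem_ker] at ha
  let ρ : B ⧸ I →+* Fk := Ideal.Quotient.lift I red hI
  have hρmk : ∀ b : B, ρ (Ideal.Quotient.mk I b) = red b := fun b => Ideal.Quotient.lift_mk I red hI
  have hρ : Function.Injective ρ := by
    rw [injective_iff_map_eq_zero]
    intro x hx
    obtain ⟨b, rfl⟩ := Ideal.Quotient.mk_surjective x
    rw [hρmk] at hx
    rw [Ideal.Quotient.eq_zero_iff_mem, ← hker, RingHom.mem_ker]
    exact hx
  have hrange : red.range ≤ ρ.range := by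
    rintro _ ⟨b, rfl⟩
    exact ⟨Ideal.Quotient.mk I b, hρmk b⟩
  have hfrac' : ∀ y : Fk, ∃ a b : B ⧸ I, ρ b ≠ 0 ∧ y = ρ a / ρ b := by
    intro y
    obtain ⟨a, b, hb, hy⟩ := hfrac y
    exact ⟨Ideal.Quotient.mk I a, Ideal.Quotient.mk I b, by rwa [hρmk], by rw [hρmk, hρmk]; exact hy⟩
  obtain ⟨x, hx⟩ := mem_range_of_isIntegral ρ hρ hfrac' R0 (hR0.trans hrange) hβ
  obtain ⟨b, rfl⟩ := Ideal.Quotient.mk_surjective x
  exact ⟨b, by rw [← hx, hρmk]⟩

end Quotient

section Easy

variable {F Fk : Type*} [CommRing F] [CommRing Fk]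

/-- Reductions of integral elements are integral: if `b` is integral over a subring `S`, and a ring
hom `res` defined on a subring `O ∋ b`, `O ≥ S` maps `S` into `S'`, then `res b` is integral over
`S'`. -/
theorem isIntegral_map_of_isIntegral (O : Subring F) (res : O →+* Fk) (S : Subring F) (hSO : S ≤ O)
    (S' : Subring Fk) (hS : ∀ s : S, res ⟨(s : F), hSO s.2⟩ ∈ S') {b : F} (hbO : b ∈ O)
    (hb : IsIntegral S b) : IsIntegral S' (res ⟨b, hbO⟩) := by
  obtain ⟨p, hp, hpb⟩ := hb
  let φ : S →+* S' := (res.comp (Subring.inclusion hSO)).codRestrict S' hS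
  refine ⟨p.map φ, hp.map _, ?_⟩
  rw [Polynomial.eval₂_map]
  -- evaluate inside `O`
  have h1 : Polynomial.eval₂ ((algebraMap S' Fk).comp φ) (res ⟨b, hbO⟩) p =
      res (Polynomial.eval₂ (Subring.inclusion hSO) (⟨b, hbO⟩ : O) p) := by
    rw [Polynomial.hom_eval₂]
    rfl
  rw [h1]
  have h2 : Polynomial.eval₂ (Subring.inclusion hSO) (⟨b, hbO⟩ : O) p = 0 := by
    apply Subtype.ext
    have h3 : ((Polynomial.eval₂ (Subring.inclusion hSO) (⟨b, hbO⟩ : O) p : O) : F) =
        O.subtype (Polynomial.eval₂ (Subring.inclusion hSO) (⟨b, hbO⟩ : O) p) := rfl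
    rw [h3, Polynomial.hom_eval₂]
    exact hpb
  rw [h2, map_zero]

end Easy

end Fermat.Agent.S18.H27
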