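import Fermat.Agent.S18.H11_IfaceMain
import Fermat.Agent.S18.H95_BranchData
import Fermat.Agent.RR.H43_FFBase

/-!
# S18 interface, part 4 (helper11): discharging the two named hypotheses of `result_of_coreE`

* `hdiv_FN` : every function of `F_N = modularFunctionFieldBar N` has a divisor (S24 bank, via
  helper95's `H95.exists_principal_divisor`).
* `hconst_of_transcendental` : on the special fibre `F_{N,k}`, a function without zeros and poles
  is a constant, given ONE transcendental `t` with `F_{N,k} / k(t)` finite (helper16's (B5) provides
  `t = j̄`); uses helper43's `forall_ord_eq_zero_iff_isAlgebraic` and `isAlgClosed_residueField`.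
* `result_of_coreE_inst`, `result_of_coreE_prime_inst` : S18 from `CoreE` and that `t`.
-/

set_option autoImplicit false

noncomputable section

open HahnSeries IntermediateField AlgebraicCurve ModularCurve

namespace Fermat.Agent.S18.H11

/-- Every function of `F_N` has a divisor. -/
theorem hdiv_FN (N : ℕ) [NeZero N] (f : modularFunctionFieldBar N) :
    ∃ D : Divisor (AlgebraicClosure ℚ) (modularFunctionFieldBar N), ∀ v, D v = v.ord f := by
  rcases eq_or_ne f 0 with rfl | hf
  · exact ⟨0, fun v => by simp⟩
  · obtain ⟨D, hD, -⟩ := Fermat.Agent.S18.H95.exists_principal_divisor N f hf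
    exact ⟨D, hD⟩

/-- An element of an extension field that is algebraic over an algebraically closed field lies in
the base field. -/
theorem mem_range_of_isAlgebraic {k F : Type*} [Field k] [IsAlgClosed k] [Field F] [Algebra k F]
    {c : F} (hc : IsAlgebraic k c) : ∃ a : k, c = algebraMap k F a := by
  have hint : IsIntegral k c := hc.isIntegral
  have hdeg : (minpoly k c).degree = 1 :=
    IsAlgClosed.degree_eq_one_of_irreducible k (minpoly.irreducible hint)
  have hmem := minpoly.mem_range_of_degree_eq_one k c hdeg
  obtain ⟨a, ha⟩ := hmem
  exact ⟨a, ha.symm⟩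

variable {A : ValuationSubring (AlgebraicClosure ℚ)} {N : ℕ}

/-- On the special fibre a function without zeros and poles is constant. -/
theorem hconst_of_transcendental
    (t : modularFunctionFieldFullC (IsLocalRing.ResidueField A) N)
    (ht : Transcendental (IsLocalRing.ResidueField A) t)
    [FiniteDimensional (IsLocalRing.ResidueField A)⟮t⟯
      (modularFunctionFieldFullC (IsLocalRing.ResidueField A) N)]
    (c : modularFunctionFieldFullC (IsLocalRing.ResidueField A) N) (_hc : c ≠ 0)
    (hord : ∀ Q : Place (IsLocalRing.ResidueField A)
      (modularFunctionFieldFullC (IsLocalRing.ResidueField A) N), Q.ord c = 0) :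
    ∃ a : IsLocalRing.ResidueField A,
      c = algebraMap _ (modularFunctionFieldFullC (IsLocalRing.ResidueField A) N) a := by
  haveI : IsAlgClosed (IsLocalRing.ResidueField A) := isAlgClosed_residueField A
  exact mem_range_of_isAlgebraic
    ((Fermat.Agent.RR.H43.forall_ord_eq_zero_iff_isAlgebraic t ht).mp hord)

/-- S18 from the normalised core, all function-field hypotheses discharged except the existence
of a transcendental `t` on the special fibre with `F_{N,k} / k(t)` finite. -/
theorem result_of_coreE_inst [NeZero N] (h : ReductionInputsModL A N) (m : ℕ) (hm0 : m ≠ 0)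
    (t : modularFunctionFieldFullC (IsLocalRing.ResidueField A) N)
    (ht : Transcendental (IsLocalRing.ResidueField A) t)
    [FiniteDimensional (IsLocalRing.ResidueField A)⟮t⟯
      (modularFunctionFieldFullC (IsLocalRing.ResidueField A) N)]
    (core : CoreE A N m) (z : JZero N) (hmz : m • z = 0) (hz : reductionModL A N z = 0) :
    z = 0 :=
  result_of_coreE h m hm0 (hdiv_FN N) (hconst_of_transcendental t ht) core z hmz hz

/-- Prime-exponent variant. -/
theorem result_of_coreE_prime_inst [NeZero N] (h : ReductionInputsModL A N) (m : ℕ) (hm0 : m ≠ 0)
    (t : modularFunctionFieldFullC (IsLocalRing.ResidueField A) N)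
    (ht : Transcendental (IsLocalRing.ResidueField A) t)
    [FiniteDimensional (IsLocalRing.ResidueField A)⟮t⟯
      (modularFunctionFieldFullC (IsLocalRing.ResidueField A) N)]
    (core : ∀ p : ℕ, p.Prime → p ∣ m → CoreE A N p) (z : JZero N) (hmz : m • z = 0)
    (hz : reductionModL A N z = 0) :
    z = 0 :=
  result_of_coreE_prime h m hm0 (hdiv_FN N) (hconst_of_transcendental t ht) core z hmz hz

end Fermat.Agent.S18.H11
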