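import Fermat.Agent.S18.H11_IfaceDefs

/-!
# S18 interface, part 2 (helper11): operations on integral elements and the LIFT lemma

Every element of `F_{N,k}` is a quotient `Ū₁ / Ū₂` of reductions of integral elements.
-/

set_option autoImplicit false

noncomputable section

open HahnSeries IntermediateField AlgebraicCurve ModularCurve

namespace Fermat.Agent.S18.H11

variable {A : ValuationSubring (AlgebraicClosure ℚ)} {N : ℕ}

/-- The subring of integral series with char-0 image in `F_N` and reduction in `F_{N,k}`. -/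
def intRing (A : ValuationSubring (AlgebraicClosure ℚ)) (N : ℕ) : Subring (LaurentSeries A) :=
  ((modularFunctionFieldBar N).toSubfield.toSubring.comap (coeffMap A.subtype)) ⊓
    ((modularFunctionFieldFullC (IsLocalRing.ResidueField A) N).toSubfield.toSubring.comap
      (coeffMap (IsLocalRing.residue A)))

theorem mem_intRing {y : LaurentSeries A} :
    y ∈ intRing A N ↔ coeffMap A.subtype y ∈ modularFunctionFieldBar N ∧
      coeffMap (IsLocalRing.residue A) y ∈
        modularFunctionFieldFullC (IsLocalRing.ResidueField A) N :=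
  Iff.rfl

theorem coeffMap_subtype_injective :
    Function.Injective (coeffMap (A.subtype) : LaurentSeries A → LaurentSeries (AlgebraicClosure ℚ)) := by
  intro x y hxy
  ext n
  have := congrArg (fun z => z.coeff n) hxy
  simpa using this

/-- Build an integral element from a member of `intRing` with nonzero reduction. -/
def IntElt.ofMem {y : LaurentSeries A} (hy : y ∈ intRing A N)
    (hne : coeffMap (IsLocalRing.residue A) y ≠ 0) : IntElt A N :=
  ⟨y, hy.1, hy.2, hne⟩

theorem IntElt.y_mem (Y : IntElt A N) : Y.y ∈ intRing A N := ⟨Y.mem, Y.memk⟩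

theorem IntElt.red_ne_zero (Y : IntElt A N) : Y.red ≠ 0 := fun h =>
  Y.ne (congrArg Subtype.val h)

theorem IntElt.gen_ne_zero (Y : IntElt A N) : Y.gen ≠ 0 := by
  intro h
  have h1 : coeffMap A.subtype Y.y = 0 := congrArg Subtype.val h
  have h2 : Y.y = 0 := coeffMap_subtype_injective (by rw [h1, map_zero])
  exact Y.ne (by rw [h2, map_zero])

/-- The unit integral element. -/
def IntElt.one : IntElt A N :=
  IntElt.ofMem (y := 1) (Subring.one_mem _) (by rw [map_one]; exact one_ne_zero)

/-- Product of integral elements. -/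
def IntElt.mul (Y Z : IntElt A N) : IntElt A N :=
  IntElt.ofMem (y := Y.y * Z.y) (Subring.mul_mem _ Y.y_mem Z.y_mem)
    (by rw [map_mul]; exact mul_ne_zero Y.ne Z.ne)

/-- Power of an integral element. -/
def IntElt.pow (Y : IntElt A N) (n : ℕ) : IntElt A N :=
  IntElt.ofMem (y := Y.y ^ n) (Subring.pow_mem _ Y.y_mem n)
    (by rw [map_pow]; exact pow_ne_zero n Y.ne)

@[simp] theorem IntElt.gen_one : (IntElt.one : IntElt A N).gen = 1 :=
  Subtype.ext (map_one _)

@[simp] theorem IntElt.red_one : (IntElt.one : IntElt A N).red = 1 :=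
  Subtype.ext (map_one _)

@[simp] theorem IntElt.gen_mul (Y Z : IntElt A N) : (Y.mul Z).gen = Y.gen * Z.gen :=
  Subtype.ext (map_mul _ _ _)

@[simp] theorem IntElt.red_mul (Y Z : IntElt A N) : (Y.mul Z).red = Y.red * Z.red :=
  Subtype.ext (map_mul _ _ _)

@[simp] theorem IntElt.gen_pow (Y : IntElt A N) (n : ℕ) : (Y.pow n).gen = Y.gen ^ n :=
  Subtype.ext (map_pow _ _ _)

@[simp] theorem IntElt.red_pow (Y : IntElt A N) (n : ℕ) : (Y.pow n).red = Y.red ^ n :=
  Subtype.ext (map_pow _ _ _)

theorem IntElt.ord_gen_mul (Y Z : IntElt A N)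
    (P : Place (AlgebraicClosure ℚ) (modularFunctionFieldBar N)) :
    P.ord (Y.mul Z).gen = P.ord Y.gen + P.ord Z.gen := by
  rw [IntElt.gen_mul, P.ord_mul Y.gen_ne_zero Z.gen_ne_zero]

theorem IntElt.ord_gen_pow (Y : IntElt A N) (n : ℕ)
    (P : Place (AlgebraicClosure ℚ) (modularFunctionFieldBar N)) :
    P.ord (Y.pow n).gen = n * P.ord Y.gen := by
  rw [IntElt.gen_pow, ← zpow_natCast, P.ord_zpow]

/-! ### The LIFT lemma -/

/-- `x ∈ k((q))` is a quotient of reductions of members of `intRing`. -/
def Liftable (A : ValuationSubring (AlgebraicClosure ℚ)) (N : ℕ)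
    (x : LaurentSeries (IsLocalRing.ResidueField A)) : Prop :=
  ∃ y₁ ∈ intRing A N, ∃ y₂ ∈ intRing A N, coeffMap (IsLocalRing.residue A) y₂ ≠ 0 ∧
    x * coeffMap (IsLocalRing.residue A) y₂ = coeffMap (IsLocalRing.residue A) y₁

theorem Liftable.add {x x' : LaurentSeries (IsLocalRing.ResidueField A)}
    (hx : Liftable A N x) (hx' : Liftable A N x') : Liftable A N (x + x') := by
  obtain ⟨y₁, h₁, y₂, h₂, hne, he⟩ := hx
  obtain ⟨y₁', h₁', y₂', h₂', hne', he'⟩ := hx'
  refine ⟨y₁ * y₂' + y₁' * y₂, Subring.add_mem _ (Subring.mul_mem _ h₁ h₂')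
    (Subring.mul_mem _ h₁' h₂), y₂ * y₂', Subring.mul_mem _ h₂ h₂', ?_, ?_⟩
  · rw [map_mul]; exact mul_ne_zero hne hne'
  · rw [map_mul, map_add, map_mul, map_mul, ← he, ← he']; ring

theorem Liftable.mul {x x' : LaurentSeries (IsLocalRing.ResidueField A)}
    (hx : Liftable A N x) (hx' : Liftable A N x') : Liftable A N (x * x') := by
  obtain ⟨y₁, h₁, y₂, h₂, hne, he⟩ := hx
  obtain ⟨y₁', h₁', y₂', h₂', hne', he'⟩ := hx'
  refine ⟨y₁ * y₁', Subring.mul_mem _ h₁ h₁', y₂ * y₂', Subring.mul_mem _ h₂ h₂', ?_, ?_⟩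
  · rw [map_mul]; exact mul_ne_zero hne hne'
  · rw [map_mul, map_mul, ← he, ← he']; ring

theorem Liftable.inv {x : LaurentSeries (IsLocalRing.ResidueField A)}
    (hx : Liftable A N x) : Liftable A N x⁻¹ := by
  obtain ⟨y₁, h₁, y₂, h₂, hne, he⟩ := hx
  by_cases h0 : coeffMap (IsLocalRing.residue A) y₁ = 0
  · have hx0 : x = 0 := by
      rw [h0] at he
      exact (mul_eq_zero.mp he).resolve_right hne
    refine ⟨0, Subring.zero_mem _, 1, Subring.one_mem _, ?_, ?_⟩
    · rw [map_one]; exact one_ne_zero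
    · rw [hx0, inv_zero, map_zero, zero_mul]
  · refine ⟨y₂, h₂, y₁, h₁, h0, ?_⟩
    have hx0 : x ≠ 0 := by
      rintro rfl
      rw [zero_mul] at he
      exact h0 he.symm
    rw [← he]
    field_simp

theorem liftable_const (a : IsLocalRing.ResidueField A) :
    Liftable A N (algebraMap (IsLocalRing.ResidueField A) (LaurentSeries _) a) := by
  obtain ⟨a', rfl⟩ := IsLocalRing.residue_surjective a
  refine ⟨HahnSeries.single 0 a', ⟨?_, ?_⟩, 1, Subring.one_mem _, ?_, ?_⟩
  · show coeffMap A.subtype (HahnSeries.single 0 a') ∈ modularFunctionFieldBar N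
    rw [coeffMap_single, ← algebraMap_laurentSeries_eq_single]
    exact (modularFunctionFieldBar N).algebraMap_mem _
  · show coeffMap (IsLocalRing.residue A) (HahnSeries.single 0 a') ∈
      modularFunctionFieldFullC (IsLocalRing.ResidueField A) N
    rw [coeffMap_single, ← algebraMap_laurentSeries_eq_single]
    exact (modularFunctionFieldFullC (IsLocalRing.ResidueField A) N).algebraMap_mem _
  · rw [map_one]; exact one_ne_zero
  · rw [map_one, mul_one, coeffMap_single, ← algebraMap_laurentSeries_eq_single]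

theorem coeffMap_subtype_jqd_mem {d : ℕ} [NeZero d] (hd : d ∣ N) :
    coeffMap A.subtype (qExpand A d (jqModC A)) ∈ modularFunctionFieldBar N := by
  have h1 : coeffMap A.subtype (qExpand A d (jqModC A)) =
      coeffEmb (AlgebraicClosure ℚ) (qExpand ℚ d (jqModC ℚ)) := by
    rw [coeffMap_qExpand, coeffMap_jqModC, coeffEmb, coeffMap_qExpand, coeffMap_jqModC]
  rw [h1]
  exact coeffEmb_mem_laurentBaseChange _ (jqModCd_mem_full ℚ N hd)

theorem liftable_gen {d : ℕ} [NeZero d] (hd : d ∣ N) :
    Liftable A N (qExpand (IsLocalRing.ResidueField A) d (jqModC (IsLocalRing.ResidueField A))) := by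
  have hred : coeffMap (IsLocalRing.residue A) (qExpand A d (jqModC A)) =
      qExpand (IsLocalRing.ResidueField A) d (jqModC (IsLocalRing.ResidueField A)) := by
    rw [coeffMap_qExpand, coeffMap_jqModC]
  refine ⟨qExpand A d (jqModC A), ⟨coeffMap_subtype_jqd_mem hd, ?_⟩, 1, Subring.one_mem _, ?_, ?_⟩
  · show coeffMap (IsLocalRing.residue A) (qExpand A d (jqModC A)) ∈
      modularFunctionFieldFullC (IsLocalRing.ResidueField A) N
    rw [hred]
    exact jqModCd_mem_full _ N hd
  · rw [map_one]; exact one_ne_zero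
  · rw [map_one, mul_one, hred]

/-- LIFT: every element of `F_{N,k}` is liftable. -/
theorem liftable_of_mem {x : LaurentSeries (IsLocalRing.ResidueField A)}
    (hx : x ∈ modularFunctionFieldFullC (IsLocalRing.ResidueField A) N) : Liftable A N x := by
  rw [modularFunctionFieldFullC] at hx
  induction hx using IntermediateField.adjoin_induction with
  | mem x hx =>
    obtain ⟨d, hne, hd, rfl⟩ := hx
    haveI := hne
    exact liftable_gen hd
  | algebraMap a => exact liftable_const a
  | add x y _ _ hx hy => exact hx.add hy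
  | inv x _ hx => exact hx.inv
  | mul x y _ _ hx hy => exact hx.mul hy

/-- LIFT for nonzero elements, in terms of integral elements. -/
theorem exists_intElt_div (g : modularFunctionFieldFullC (IsLocalRing.ResidueField A) N)
    (hg : g ≠ 0) : ∃ U₁ U₂ : IntElt A N, g * U₂.red = U₁.red := by
  obtain ⟨y₁, h₁, y₂, h₂, hne, he⟩ := liftable_of_mem g.2
  have hg' : (g : LaurentSeries (IsLocalRing.ResidueField A)) ≠ 0 := fun h => hg (Subtype.ext h)
  have hne₁ : coeffMap (IsLocalRing.residue A) y₁ ≠ 0 := by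
    rw [← he]; exact mul_ne_zero hg' hne
  exact ⟨IntElt.ofMem h₁ hne₁, IntElt.ofMem h₂ hne, Subtype.ext he⟩

end Fermat.Agent.S18.H11
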