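import Mathlib
import Fermat.Agent.S18.H3_ChartRing

/-!
# S18 by-product (helper13): good reduction of the chart rings, as ring homomorphisms

For a Gauss model `M : H3.GaussModel ϖ π0 x1 θ xb θb` (helper3) the reduction map `M.res1`
restricts to ring homomorphisms between the chart rings

* `M.chartRed    : integralClosure R0[x1] F1   →+* integralClosure k[xb] Fk`,
* `M.chartRedInf : integralClosure R0[1/x1] F1 →+* integralClosure k[1/xb] Fk`,

and the lifting forms `hGRfin` / `hGRinf` of (GR) (`H13.hGR_std` at the modular model) together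
with the saturation `hsat` say exactly: these maps are surjective with kernel `(ϖ)`, i.e.
`B ⧸ (ϖ) ≃+* Bk` — the special fibre of the chart ring IS the chart ring of the special fibre
(a Dedekind domain).  Generic in the model; the consumer (e.g. S34/L0 at level `M`) instantiates.
-/

set_option autoImplicit false
set_option linter.unusedSectionVars false

open Polynomial

namespace Fermat.Agent.S18.H3.GaussModel

variable {R0 k F1 Fk : Type*} [CommRing R0] [Field k] [Field F1] [Algebra R0 F1]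
  [Field Fk] [Algebra k Fk] {ϖ : R0} {π0 : R0 →+* k} {x1 θ : F1} {xb θb : Fk}
  (M : GaussModel ϖ π0 x1 θ xb θb)

/-! ### The finite chart -/

/-- The reduction map on the finite chart ring `B = integralClosure R0[x1] F1`. -/
noncomputable def chartRed :
    integralClosure (Algebra.adjoin R0 {x1}) F1 →+* integralClosure (Algebra.adjoin k {xb}) Fk :=
  (M.res1.comp ((integralClosure (Algebra.adjoin R0 {x1}) F1).val.toRingHom.codRestrict M.O1
    (fun b => M.hBO b b.2))).codRestrict (integralClosure (Algebra.adjoin k {xb}) Fk)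
    (fun b => M.isIntegral_res1 b b.2)

theorem coe_chartRed (b : integralClosure (Algebra.adjoin R0 {x1}) F1) :
    ((M.chartRed b : integralClosure (Algebra.adjoin k {xb}) Fk) : Fk) =
      M.res1 ⟨(b : F1), M.hBO b b.2⟩ := rfl

/-- `hGRfin` ⇒ the reduction of the finite chart ring is onto the chart ring of the special
fibre. -/
theorem chartRed_surjective
    (hGRfin : ∀ γ : Fk, IsIntegral (Algebra.adjoin k {xb}) γ →
      ∃ (b : F1) (hb : IsIntegral (Algebra.adjoin R0 {x1}) b), M.res1 ⟨b, M.hBO b hb⟩ = γ) :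
    Function.Surjective M.chartRed := by
  intro γ
  obtain ⟨b, hb, h⟩ := hGRfin γ γ.2
  exact ⟨⟨b, hb⟩, Subtype.ext h⟩

/-- `hsat` ⇒ the kernel of the reduction of the finite chart ring is `(ϖ)`. -/
theorem ker_chartRed
    (hsat : ∀ y ∈ M.O1, IsIntegral (Algebra.adjoin R0 {x1}) (algebraMap R0 F1 ϖ * y) →
      IsIntegral (Algebra.adjoin R0 {x1}) y) :
    RingHom.ker M.chartRed =
      Ideal.span {algebraMap (Algebra.adjoin R0 {x1}) (integralClosure (Algebra.adjoin R0 {x1}) F1)
        (algebraMap R0 (Algebra.adjoin R0 {x1}) ϖ)} := by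
  have hcoe : ((algebraMap (Algebra.adjoin R0 {x1}) (integralClosure (Algebra.adjoin R0 {x1}) F1)
      (algebraMap R0 (Algebra.adjoin R0 {x1}) ϖ) : integralClosure (Algebra.adjoin R0 {x1}) F1) :
        F1) = algebraMap R0 F1 ϖ := rfl
  ext b
  rw [RingHom.mem_ker, Ideal.mem_span_singleton']
  constructor
  · intro hb
    have hb' : M.res1 ⟨(b : F1), M.hBO b b.2⟩ = 0 := by
      have := congrArg (fun z : integralClosure (Algebra.adjoin k {xb}) Fk => (z : Fk)) hb
      simpa [coe_chartRed] using this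
    rw [M.res1_eq_zero_iff] at hb'
    obtain ⟨z, hz, hbz⟩ := hb'
    have hzint : IsIntegral (Algebra.adjoin R0 {x1}) z := hsat z hz (hbz ▸ b.2)
    refine ⟨⟨z, hzint⟩, Subtype.ext ?_⟩
    rw [hbz, mul_comm]
    rfl
  · rintro ⟨c, rfl⟩
    apply Subtype.ext
    rw [coe_chartRed]
    change _ = (0 : Fk)
    rw [M.res1_eq_zero_iff]
    exact ⟨(c : F1), M.hBO c c.2, by
      change (c : F1) * _ = _
      rw [hcoe, mul_comm]⟩

/-- **Good reduction of the finite chart**: `B ⧸ (ϖ) ≃+* Bk`. -/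
noncomputable def chartRedEquiv
    (hGRfin : ∀ γ : Fk, IsIntegral (Algebra.adjoin k {xb}) γ →
      ∃ (b : F1) (hb : IsIntegral (Algebra.adjoin R0 {x1}) b), M.res1 ⟨b, M.hBO b hb⟩ = γ)
    (hsat : ∀ y ∈ M.O1, IsIntegral (Algebra.adjoin R0 {x1}) (algebraMap R0 F1 ϖ * y) →
      IsIntegral (Algebra.adjoin R0 {x1}) y) :
    (integralClosure (Algebra.adjoin R0 {x1}) F1 ⧸
      Ideal.span {algebraMap (Algebra.adjoin R0 {x1}) (integralClosure (Algebra.adjoin R0 {x1}) F1)
        (algebraMap R0 (Algebra.adjoin R0 {x1}) ϖ)}) ≃+*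
      integralClosure (Algebra.adjoin k {xb}) Fk :=
  (Ideal.quotEquivOfEq (M.ker_chartRed hsat).symm).trans
    (RingHom.quotientKerEquivOfSurjective (M.chartRed_surjective hGRfin))

theorem chartRedEquiv_mk
    (hGRfin : ∀ γ : Fk, IsIntegral (Algebra.adjoin k {xb}) γ →
      ∃ (b : F1) (hb : IsIntegral (Algebra.adjoin R0 {x1}) b), M.res1 ⟨b, M.hBO b hb⟩ = γ)
    (hsat : ∀ y ∈ M.O1, IsIntegral (Algebra.adjoin R0 {x1}) (algebraMap R0 F1 ϖ * y) →
      IsIntegral (Algebra.adjoin R0 {x1}) y)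
    (b : integralClosure (Algebra.adjoin R0 {x1}) F1) :
    M.chartRedEquiv hGRfin hsat (Ideal.Quotient.mk _ b) = M.chartRed b := rfl

/-! ### The chart at infinity -/

/-- The reduction map on the chart ring at infinity `B∞ = integralClosure R0[1/x1] F1`. -/
noncomputable def chartRedInf (hxb : xb ≠ 0) :
    integralClosure (Algebra.adjoin R0 {x1⁻¹}) F1 →+*
      integralClosure (Algebra.adjoin k {xb⁻¹}) Fk :=
  (M.res1.comp ((integralClosure (Algebra.adjoin R0 {x1⁻¹}) F1).val.toRingHom.codRestrict M.O1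
    (fun b => M.hBinfO hxb b b.2))).codRestrict (integralClosure (Algebra.adjoin k {xb⁻¹}) Fk)
    (fun b => M.isIntegral_res1_inv hxb b b.2)

theorem coe_chartRedInf (hxb : xb ≠ 0) (b : integralClosure (Algebra.adjoin R0 {x1⁻¹}) F1) :
    ((M.chartRedInf hxb b : integralClosure (Algebra.adjoin k {xb⁻¹}) Fk) : Fk) =
      M.res1 ⟨(b : F1), M.hBinfO hxb b b.2⟩ := rfl

/-- `hGRinf` ⇒ the reduction of the chart ring at infinity is onto. -/
theorem chartRedInf_surjective (hxb : xb ≠ 0)
    (hGRinf : ∀ γ : Fk, IsIntegral (Algebra.adjoin k {xb⁻¹}) γ →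
      ∃ (b : F1) (hb : IsIntegral (Algebra.adjoin R0 {x1⁻¹}) b),
        M.res1 ⟨b, M.hBinfO hxb b hb⟩ = γ) :
    Function.Surjective (M.chartRedInf hxb) := by
  intro γ
  obtain ⟨b, hb, h⟩ := hGRinf γ γ.2
  exact ⟨⟨b, hb⟩, Subtype.ext h⟩

/-- Saturation at infinity ⇒ the kernel of the reduction of the chart ring at infinity is
`(ϖ)`. -/
theorem ker_chartRedInf (hxb : xb ≠ 0)
    (hsatInf : ∀ y ∈ M.O1, IsIntegral (Algebra.adjoin R0 {x1⁻¹}) (algebraMap R0 F1 ϖ * y) →
      IsIntegral (Algebra.adjoin R0 {x1⁻¹}) y) :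
    RingHom.ker (M.chartRedInf hxb) =
      Ideal.span {algebraMap (Algebra.adjoin R0 {x1⁻¹})
        (integralClosure (Algebra.adjoin R0 {x1⁻¹}) F1)
        (algebraMap R0 (Algebra.adjoin R0 {x1⁻¹}) ϖ)} := by
  have hcoe : ((algebraMap (Algebra.adjoin R0 {x1⁻¹})
      (integralClosure (Algebra.adjoin R0 {x1⁻¹}) F1)
      (algebraMap R0 (Algebra.adjoin R0 {x1⁻¹}) ϖ) :
        integralClosure (Algebra.adjoin R0 {x1⁻¹}) F1) : F1) = algebraMap R0 F1 ϖ := rfl
  ext b
  rw [RingHom.mem_ker, Ideal.mem_span_singleton']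
  constructor
  · intro hb
    have hb' : M.res1 ⟨(b : F1), M.hBinfO hxb b b.2⟩ = 0 := by
      have := congrArg (fun z : integralClosure (Algebra.adjoin k {xb⁻¹}) Fk => (z : Fk)) hb
      simpa [coe_chartRedInf] using this
    rw [M.res1_eq_zero_iff] at hb'
    obtain ⟨z, hz, hbz⟩ := hb'
    have hzint : IsIntegral (Algebra.adjoin R0 {x1⁻¹}) z := hsatInf z hz (hbz ▸ b.2)
    refine ⟨⟨z, hzint⟩, Subtype.ext ?_⟩
    rw [hbz, mul_comm]
    rfl
  · rintro ⟨c, rfl⟩
    apply Subtype.ext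
    rw [coe_chartRedInf]
    change _ = (0 : Fk)
    rw [M.res1_eq_zero_iff]
    exact ⟨(c : F1), M.hBinfO hxb c c.2, by
      change (c : F1) * _ = _
      rw [hcoe, mul_comm]⟩

end Fermat.Agent.S18.H3.GaussModel
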