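import Mathlib
import Fermat.Agent.S18.H33_CechCharts

/-!
# S18 / INST-CUSP (helper13): gluing the cusp chart by partial fractions

`H33.exists_forall_finrank_riemannRochSpace_le` (CECH-GENUS) consumes two lifting hypotheses

* `hGRfin` : every `γ ∈ Fk` integral over `k[x̄]` is the reduction of some `b` integral over
  `R[x]`;
* `hGRinf` : every `γ ∈ Fk` integral over `k[x̄⁻¹]` is the reduction of some `b` integral over
  `R[x⁻¹]`.

The Kummer cover `τ^N = 1/j` only sees the points of the chart `Spec (integral closure of R[x⁻¹])`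
lying over `x⁻¹ = 0`, so route Q produces `hGRinf` only up to a denominator `s(x⁻¹)`, `s ∈ R[X]`
with `s(0)` a unit modulo the uniformiser (`hloc` below).  The main theorem of this file,
`exists_lift_inf_of_local`, removes the denominator: `hGRfin + hloc ⟹ hGRinf`.

Proof (partial fractions): for `γ` integral over `k[w̄]` (`w = x⁻¹`), `x̄ⁿ γ` is integral over
`k[x̄]`; lift it to `b₀` integral over `R[x]`; `w^c₀ b₀` is integral over `R[w]`; choose
`ū s̄ + v̄ X^c₀ = 1` in `k[X]` (possible because `s̄(0) ≠ 0`), lift `ū, v̄` to `u, v ∈ R[X]`, and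
put `b' := u(w) b₂ + v(w) wⁿ (w^c₀ b₀)` where `b₂` reduces to `s̄(w̄) γ`.
-/

set_option autoImplicit false

namespace Fermat.Agent.S18.H13

open Polynomial

section Glue

variable {R F1 k Fk : Type*} [CommRing R] [Field F1] [Algebra R F1] [Field k] [Field Fk]
  [Algebra k Fk]

/-- Elements of `R[w]` are integral over `R[w]`. -/
theorem isIntegral_of_mem_adjoin {w z : F1} (hz : z ∈ Algebra.adjoin R {w}) :
    IsIntegral (Algebra.adjoin R {w}) z := by
  have : z = algebraMap (Algebra.adjoin R {w}) F1 ⟨z, hz⟩ := rfl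
  rw [this]
  exact isIntegral_algebraMap

theorem isIntegral_aeval_adjoin (w : F1) (p : R[X]) :
    IsIntegral (Algebra.adjoin R {w}) (aeval w p) :=
  isIntegral_of_mem_adjoin (Polynomial.aeval_mem_adjoin_singleton R w)

/-- The evaluation `R[X] → O1`, `X ↦ w`, for a subring `O1 ⊆ F1` containing `R` and `w`. -/
noncomputable def evalSub (O1 : Subring F1) (hRO : ∀ r : R, algebraMap R F1 r ∈ O1) {w : F1}
    (hw : w ∈ O1) : R[X] →+* O1 :=
  Polynomial.eval₂RingHom ((algebraMap R F1).codRestrict O1 hRO) ⟨w, hw⟩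

theorem coe_evalSub (O1 : Subring F1) (hRO : ∀ r : R, algebraMap R F1 r ∈ O1) {w : F1}
    (hw : w ∈ O1) (p : R[X]) : ((evalSub O1 hRO hw p : O1) : F1) = aeval w p := by
  unfold evalSub
  have h := Polynomial.hom_eval₂ p ((algebraMap R F1).codRestrict O1 hRO) O1.subtype ⟨w, hw⟩
  rw [Polynomial.coe_eval₂RingHom]
  have h2 : (O1.subtype.comp ((algebraMap R F1).codRestrict O1 hRO)) = algebraMap R F1 := by
    ext r; rfl
  rw [h2] at h
  rw [Polynomial.aeval_def]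
  exact h

theorem res_evalSub (ρ : R →+* k) (O1 : Subring F1) (res : O1 →+* Fk)
    (hRO : ∀ r : R, algebraMap R F1 r ∈ O1)
    (hcompat : ∀ r : R, res ⟨algebraMap R F1 r, hRO r⟩ = algebraMap k Fk (ρ r))
    {w : F1} (hw : w ∈ O1) (p : R[X]) :
    res (evalSub O1 hRO hw p) = aeval (res ⟨w, hw⟩) (p.map ρ) := by
  unfold evalSub
  rw [Polynomial.coe_eval₂RingHom]
  rw [Polynomial.hom_eval₂ p ((algebraMap R F1).codRestrict O1 hRO) res ⟨w, hw⟩]
  have h2 : (res.comp ((algebraMap R F1).codRestrict O1 hRO)) = (algebraMap k Fk).comp ρ := by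
    ext r
    exact hcompat r
  rw [h2, Polynomial.aeval_def, Polynomial.eval₂_map]

/-- **Partial fractions at the cusps.** `hGRfin` and the cusp-local lifting `hloc` (lifting up to
a denominator `s(x⁻¹)` with `s(0)` a unit modulo the uniformiser) imply `hGRinf`. -/
theorem exists_lift_inf_of_local
    (ρ : R →+* k) (hρ : Function.Surjective ρ)
    (O1 : Subring F1) (res : O1 →+* Fk)
    (hRO : ∀ r : R, algebraMap R F1 r ∈ O1)
    (hcompat : ∀ r : R, res ⟨algebraMap R F1 r, hRO r⟩ = algebraMap k Fk (ρ r))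
    {x1 : F1} (hx1 : x1 ≠ 0) {xb : Fk} (hxb : xb ≠ 0)
    (hBO : ∀ b : F1, IsIntegral (Algebra.adjoin R {x1}) b → b ∈ O1)
    (hBinfO : ∀ b : F1, IsIntegral (Algebra.adjoin R {x1⁻¹}) b → b ∈ O1)
    (hresx : ∀ h : x1 ∈ O1, res ⟨x1, h⟩ = xb)
    (hGRfin : ∀ γ : Fk, IsIntegral (Algebra.adjoin k {xb}) γ →
      ∃ (b : F1) (hb : IsIntegral (Algebra.adjoin R {x1}) b), res ⟨b, hBO b hb⟩ = γ)
    (hloc : ∀ γ : Fk, IsIntegral (Algebra.adjoin k {xb⁻¹}) γ →
      ∃ (b : F1) (hb : IsIntegral (Algebra.adjoin R {x1⁻¹}) b) (s : R[X]),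
        ρ (s.coeff 0) ≠ 0 ∧ res ⟨b, hBinfO b hb⟩ = aeval xb⁻¹ (s.map ρ) * γ)
    (γ : Fk) (hγ : IsIntegral (Algebra.adjoin k {xb⁻¹}) γ) :
    ∃ (b : F1) (hb : IsIntegral (Algebra.adjoin R {x1⁻¹}) b), res ⟨b, hBinfO b hb⟩ = γ := by
  classical
  -- the coordinate `w = 1/x` at the cusps
  have hwint : IsIntegral (Algebra.adjoin R {x1⁻¹}) x1⁻¹ :=
    isIntegral_of_mem_adjoin (Algebra.subset_adjoin rfl)
  have hw : x1⁻¹ ∈ O1 := hBinfO _ hwint
  have hxO : x1 ∈ O1 := hBO _ (isIntegral_of_mem_adjoin (Algebra.subset_adjoin rfl))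
  have hresw : res ⟨x1⁻¹, hw⟩ = xb⁻¹ := by
    have h1 : (⟨x1, hxO⟩ : O1) * ⟨x1⁻¹, hw⟩ = 1 := by
      apply Subtype.ext
      show x1 * x1⁻¹ = 1
      exact mul_inv_cancel₀ hx1
    have h2 := congrArg res h1
    rw [map_mul, map_one, hresx hxO] at h2
    exact eq_inv_of_mul_eq_one_right h2
  -- step 1: `x̄ⁿ γ` is integral over `k[x̄]`, lift it
  obtain ⟨n, hn⟩ := H33.exists_pow_mul_isIntegral k hxb hγ
  obtain ⟨b0, hb0, hres0⟩ := hGRfin _ hn
  -- step 2: `w^c0 b0` is integral over `R[w]`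
  obtain ⟨c0, hc0⟩ := H33.exists_inv_pow_mul_isIntegral R hx1 hb0
  -- step 3: the cusp-local lift
  obtain ⟨b2, hb2, s, hs0, hres2⟩ := hloc γ hγ
  -- step 4: Bezout
  have hcop : IsCoprime (s.map ρ) ((X : k[X]) ^ c0) := by
    apply IsCoprime.pow_right
    apply IsCoprime.symm
    rw [(Polynomial.irreducible_X (R := k)).coprime_iff_not_dvd, Polynomial.X_dvd_iff,
      Polynomial.coeff_map]
    exact hs0
  obtain ⟨ub, vb, huv⟩ := hcop
  obtain ⟨u, rfl⟩ := Polynomial.map_surjective ρ hρ ub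
  obtain ⟨v, rfl⟩ := Polynomial.map_surjective ρ hρ vb
  -- step 5: the element of `O1`
  have hb0O : b0 ∈ O1 := hBO b0 hb0
  have hb2O : b2 ∈ O1 := hBinfO b2 hb2
  set W : O1 := ⟨x1⁻¹, hw⟩ with hW
  set β : O1 := evalSub O1 hRO hw u * ⟨b2, hb2O⟩ +
    evalSub O1 hRO hw v * (W ^ n * (W ^ c0 * ⟨b0, hb0O⟩)) with hβ
  have hβcoe : (β : F1) = aeval x1⁻¹ u * b2 + aeval x1⁻¹ v * (x1⁻¹ ^ n * (x1⁻¹ ^ c0 * b0)) := by
    rw [hβ]
    push_cast
    rw [coe_evalSub, coe_evalSub]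
  have hβint : IsIntegral (Algebra.adjoin R {x1⁻¹}) (β : F1) := by
    rw [hβcoe]
    refine IsIntegral.add ((isIntegral_aeval_adjoin _ u).mul hb2)
      ((isIntegral_aeval_adjoin _ v).mul (IsIntegral.mul ?_ hc0))
    exact IsIntegral.pow hwint n
  refine ⟨(β : F1), hβint, ?_⟩
  have hsub : (⟨(β : F1), hBinfO _ hβint⟩ : O1) = β := Subtype.ext rfl
  rw [hsub, hβ, map_add, map_mul, map_mul, map_mul, map_mul, map_pow, map_pow,
    res_evalSub ρ O1 res hRO hcompat hw u, res_evalSub ρ O1 res hRO hcompat hw v, hresw]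
  have e2 : res ⟨b2, hb2O⟩ = aeval xb⁻¹ (s.map ρ) * γ := hres2
  have e0 : res ⟨b0, hb0O⟩ = xb ^ n * γ := hres0
  rw [e2, e0]
  have hxx : xb⁻¹ ^ n * xb ^ n = 1 := by
    rw [← mul_pow, inv_mul_cancel₀ hxb, one_pow]
  have key := congrArg (aeval (xb⁻¹ : Fk)) huv
  rw [map_add, map_mul, map_mul, map_pow, aeval_X, map_one] at key
  calc aeval xb⁻¹ (u.map ρ) * (aeval xb⁻¹ (s.map ρ) * γ) +
        aeval xb⁻¹ (v.map ρ) * (xb⁻¹ ^ n * (xb⁻¹ ^ c0 * (xb ^ n * γ)))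
      = (aeval xb⁻¹ (u.map ρ) * aeval xb⁻¹ (s.map ρ) + aeval xb⁻¹ (v.map ρ) * xb⁻¹ ^ c0) * γ *
          (xb⁻¹ ^ n * xb ^ n) + aeval xb⁻¹ (u.map ρ) * aeval xb⁻¹ (s.map ρ) * γ *
          (1 - xb⁻¹ ^ n * xb ^ n) := by ring
    _ = γ := by rw [hxx, key]; ring

end Glue

section Model

variable {R F1 F k Fk : Type*} [CommRing R] [Field F1] [Algebra R F1] [Field F] [Field k]
  [Field Fk] [Algebra k Fk]

/-- `exists_lift_inf_of_local` in the vocabulary of
`H33.exists_forall_finrank_riemannRochSpace_le` (model field `F1` embedded by `ι` in `F`,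
reduction `res` defined on a subring `O` of `F`): the conclusion is verbatim its `hGRinf`. -/
theorem hGRinf_of_local
    (ρ : R →+* k) (hρ : Function.Surjective ρ)
    (O : Subring F) (res : O →+* Fk) (ι : F1 →+* F)
    (O1 : Subring F1) (hO1 : ∀ y ∈ O1, ι y ∈ O)
    (hRO : ∀ r : R, algebraMap R F1 r ∈ O1)
    (hcompat : ∀ r : R, res ⟨ι (algebraMap R F1 r), hO1 _ (hRO r)⟩ = algebraMap k Fk (ρ r))
    {x1 : F1} (hx1 : x1 ≠ 0) {xb : Fk} (hxb : xb ≠ 0)
    (hBO : ∀ b : F1, IsIntegral (Algebra.adjoin R {x1}) b → b ∈ O1)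
    (hBinfO : ∀ b : F1, IsIntegral (Algebra.adjoin R {x1⁻¹}) b → b ∈ O1)
    (hresx : ∀ h : ι x1 ∈ O, res ⟨ι x1, h⟩ = xb)
    (hGRfin : ∀ γ : Fk, IsIntegral (Algebra.adjoin k {xb}) γ →
      ∃ (b : F1) (hb : IsIntegral (Algebra.adjoin R {x1}) b),
        res ⟨ι b, hO1 b (hBO b hb)⟩ = γ)
    (hloc : ∀ γ : Fk, IsIntegral (Algebra.adjoin k {xb⁻¹}) γ →
      ∃ (b : F1) (hb : IsIntegral (Algebra.adjoin R {x1⁻¹}) b) (s : R[X]),
        ρ (s.coeff 0) ≠ 0 ∧
          res ⟨ι b, hO1 b (hBinfO b hb)⟩ = aeval xb⁻¹ (s.map ρ) * γ) :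
    ∀ γ : Fk, IsIntegral (Algebra.adjoin k {xb⁻¹}) γ →
      ∃ (b : F1) (hb : IsIntegral (Algebra.adjoin R {x1⁻¹}) b),
        res ⟨ι b, hO1 b (hBinfO b hb)⟩ = γ := by
  intro γ hγ
  exact exists_lift_inf_of_local ρ hρ O1 (res.comp (ι.restrict O1 O hO1)) hRO
    (fun r => hcompat r) hx1 hxb hBO hBinfO (fun h => hresx (hO1 _ h))
    (fun γ' hγ' => hGRfin γ' hγ') (fun γ' hγ' => hloc γ' hγ') γ hγ

end Model

end Fermat.Agent.S18.H13
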