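/-
S18 project (helper15): (NS) existence of `g` distinct places outside a given finite set with
`l(Q₁ + ⋯ + Q_g) = 1`, from Riemann–Roch (Weil form) and vanishing of `H¹` in large degree.
Pure repartition argument; no differentials.
-/
import Mathlib
import Fermat.Prelude.Def_AlgebraicCurve_Repartitions

set_option autoImplicit false

open AlgebraicCurve Module
open scoped Classical

namespace Fermat.Agent.S18.H15

variable {K F : Type*} [Field K] [Field F] [Algebra K F]

/-- The canonical surjection `H¹(D) → H¹(D')` for `D ≤ D'`. -/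
noncomputable def h1Map {D D' : Divisor K F} (h : D ≤ D') : H1 D →ₗ[K] H1 D' :=
  Submodule.mapQ _ _ LinearMap.id (by
    rw [Submodule.comap_id]
    exact sup_le_sup_right (repartitionsOf_mono h) _)

theorem h1Map_surjective {D D' : Divisor K F} (h : D ≤ D') :
    Function.Surjective (h1Map h) := by
  intro y
  obtain ⟨a, rfl⟩ := Submodule.Quotient.mk_surjective _ y
  exact ⟨Submodule.Quotient.mk a, rfl⟩

theorem h1Map_injective_of_le {D D' : Divisor K F} (h : D ≤ D')
    (hle : repartitionsOf D' ≤ repartitionsOf D ⊔ principalRepartitions K F) :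
    Function.Injective (h1Map h) := by
  rw [← LinearMap.ker_eq_bot, LinearMap.ker_eq_bot']
  intro x hx
  obtain ⟨a, rfl⟩ := Submodule.Quotient.mk_surjective _ x
  have : (Submodule.Quotient.mk a : H1 D') = 0 := hx
  rw [Submodule.Quotient.mk_eq_zero] at this ⊢
  exact (sup_le hle le_sup_right) this

theorem le_of_h1Map_injective {D D' : Divisor K F} (h : D ≤ D')
    (hinj : Function.Injective (h1Map h)) :
    repartitionsOf D' ≤ repartitionsOf D ⊔ principalRepartitions K F := by
  intro a ha
  have h0 : h1Map h (Submodule.Quotient.mk a) = 0 := by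
    show (Submodule.Quotient.mk a : H1 D') = 0
    rw [Submodule.Quotient.mk_eq_zero]
    exact Submodule.mem_sup_left ha
  have := hinj (h0.trans (map_zero _).symm)
  rwa [Submodule.Quotient.mk_eq_zero] at this

/-- The repartition equal to `a` at the place `Q` and `0` elsewhere. -/
noncomputable def pointRep (Q : Place K F) (a : F) : ↥(repartitions K F) := by
  classical
  exact ⟨fun v => if v = Q then a else 0, mem_repartitions_of_finite <|
    (Set.finite_singleton Q).subset fun v hv => by
      by_contra hne
      apply hv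
      have : v ≠ Q := hne
      simp [this]⟩

theorem pointRep_apply_self (Q : Place K F) (a : F) :
    (pointRep Q a : Place K F → F) Q = a := by
  classical
  simp [pointRep]

theorem pointRep_apply_of_ne (Q : Place K F) (a : F) {v : Place K F} (hv : v ≠ Q) :
    (pointRep Q a : Place K F → F) v = 0 := by
  classical
  simp [pointRep, hv]

/-- Splitting off one point: a repartition bounded by `D + Q` (with `Q` a place where we
allow one more pole than `D₁`, and `D₂` agrees with `D` at `Q` up to that extra pole) is a sum. -/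
theorem repartitionsOf_le_sup_of_split {D D₁ D₂ : Divisor K F} (Q : Place K F)
    (h₁ : ∀ v, v ≠ Q → D v ≤ D₁ v) (h₂ : D Q ≤ D₂ Q) :
    repartitionsOf D ≤ repartitionsOf D₁ ⊔ repartitionsOf D₂ := by
  intro α hα
  have hβ : pointRep Q ((α : Place K F → F) Q) ∈ repartitionsOf D₂ := by
    intro v
    by_cases hv : v = Q
    · subst hv
      rw [pointRep_apply_self]
      exact (hα v).trans (WithZero.exp_le_exp.mpr h₂)
    · rw [pointRep_apply_of_ne Q _ hv]
      simp
  have hγ : α - pointRep Q ((α : Place K F → F) Q) ∈ repartitionsOf D₁ := by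
    intro v
    by_cases hv : v = Q
    · subst hv
      have : ((α - pointRep v ((α : Place K F → F) v) : ↥(repartitions K F)) : Place K F → F) v
          = 0 := by
        show (α : Place K F → F) v - (pointRep v ((α : Place K F → F) v) : Place K F → F) v = 0
        rw [pointRep_apply_self, sub_self]
      rw [this]
      simp
    · have : ((α - pointRep Q ((α : Place K F → F) Q) : ↥(repartitions K F)) : Place K F → F) v
          = (α : Place K F → F) v := by
        show (α : Place K F → F) v - (pointRep Q ((α : Place K F → F) Q) : Place K F → F) v = _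
        rw [pointRep_apply_of_ne Q _ hv, sub_zero]
      rw [this]
      exact (hα v).trans (WithZero.exp_le_exp.mpr (h₁ v hv))
  have : α = (α - pointRep Q ((α : Place K F → F) Q)) + pointRep Q ((α : Place K F → F) Q) := by
    abel
  rw [this]
  exact Submodule.add_mem_sup hγ hβ

/-- The reduced effective divisor supported on a finite set of places. -/
noncomputable def ptsDiv (S : Finset (Place K F)) : Divisor K F :=
  ∑ Q ∈ S, Finsupp.single Q (1 : ℤ)

theorem ptsDiv_empty : ptsDiv (∅ : Finset (Place K F)) = 0 := by
  simp [ptsDiv]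

theorem ptsDiv_insert {S : Finset (Place K F)} {Q : Place K F} (hQ : Q ∉ S) :
    ptsDiv (insert Q S) = ptsDiv S + Finsupp.single Q (1 : ℤ) := by
  classical
  rw [ptsDiv, Finset.sum_insert hQ, add_comm]
  rfl

theorem ptsDiv_apply_of_not_mem {S : Finset (Place K F)} {v : Place K F} (hv : v ∉ S) :
    ptsDiv S v = 0 := by
  classical
  rw [ptsDiv, Finsupp.finsetSum_apply]
  refine Finset.sum_eq_zero fun Q hQ => ?_
  rw [Finsupp.single_apply, if_neg]
  rintro rfl
  exact hv hQ

theorem ptsDiv_nonneg (S : Finset (Place K F)) : 0 ≤ ptsDiv S := by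
  classical
  refine Finset.sum_nonneg fun Q _ => ?_
  intro v
  rw [Finsupp.single_apply]
  split_ifs <;> simp

theorem degree_ptsDiv (hdeg : ∀ v : Place K F, v.deg = 1) (S : Finset (Place K F)) :
    Divisor.degree (ptsDiv S) = S.card := by
  classical
  rw [ptsDiv, map_sum]
  simp [Divisor.degree_single, hdeg]

/-- If adding any single point of `S` to `E` does not enlarge `A(E) + F`, neither does adding
all of them. -/
theorem repartitionsOf_add_ptsDiv_le (E : Divisor K F) (S : Finset (Place K F))
    (hS : ∀ Q ∈ S, repartitionsOf (E + Finsupp.single Q (1 : ℤ)) ≤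
      repartitionsOf E ⊔ principalRepartitions K F) :
    repartitionsOf (E + ptsDiv S) ≤ repartitionsOf E ⊔ principalRepartitions K F := by
  classical
  induction S using Finset.induction_on with
  | empty =>
    rw [ptsDiv_empty, add_zero]
    exact le_sup_left
  | insert Q₀ S hQ₀ ih =>
    have ih' := ih fun Q hQ => hS Q (Finset.mem_insert_of_mem hQ)
    have h0 := hS Q₀ (Finset.mem_insert_self _ _)
    refine (repartitionsOf_le_sup_of_split (D := E + ptsDiv (insert Q₀ S))
      (D₁ := E + ptsDiv S) (D₂ := E + Finsupp.single Q₀ (1 : ℤ)) Q₀ ?_ ?_).trans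
      (sup_le ih' h0)
    · intro v hv
      rw [ptsDiv_insert hQ₀]
      simp only [Finsupp.add_apply]
      rw [Finsupp.single_apply, if_neg (Ne.symm hv), add_zero]
    · rw [ptsDiv_insert hQ₀]
      simp only [Finsupp.add_apply]
      rw [ptsDiv_apply_of_not_mem hQ₀, zero_add]

variable (K F) in
/-- The Riemann–Roch inputs consumed by the non-special-divisor lemma (all of them are exports of
the general Riemann–Roch bank for function fields over an algebraically closed field). -/
structure RRData : Prop where
  deg_one : ∀ v : Place K F, v.deg = 1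
  infinite : (Set.univ : Set (Place K F)).Infinite
  finL : ∀ D : Divisor K F, FiniteDimensional K (riemannRochSpace D)
  finH : ∀ D : Divisor K F, FiniteDimensional K (H1 D)
  rr : ∀ D : Divisor K F, (finrank K (riemannRochSpace D) : ℤ) - finrank K (H1 D) =
    Divisor.degree D + 1 - genusFF K F
  van : ∃ c : ℤ, ∀ D : Divisor K F, c ≤ Divisor.degree D → Subsingleton (H1 D)

namespace RRData

variable (h : RRData K F)
include h

theorem finrank_h1_le_of_le {D D' : Divisor K F} (hle : D ≤ D') :
    finrank K (H1 D') ≤ finrank K (H1 D) := by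
  have := h.finH D
  exact LinearMap.finrank_le_finrank_of_surjective (h1Map_surjective hle)

omit h in
theorem riemannRochSpace_mono {D D' : Divisor K F} (hle : D ≤ D') :
    riemannRochSpace D ≤ riemannRochSpace D' := fun _ hf v =>
  (hf v).trans (WithZero.exp_le_exp.mpr (Finsupp.le_def.mp hle v))

theorem finrank_L_le_of_le {D D' : Divisor K F} (hle : D ≤ D') :
    finrank K (riemannRochSpace D) ≤ finrank K (riemannRochSpace D') := by
  have := h.finL D'
  exact Submodule.finrank_mono (riemannRochSpace_mono hle)

omit h in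
theorem le_add_single (D : Divisor K F) (Q : Place K F) :
    D ≤ D + Finsupp.single Q (1 : ℤ) := by
  intro v
  simp only [Finsupp.add_apply, Finsupp.single_apply]
  split_ifs <;> simp

theorem degree_add_single (D : Divisor K F) (Q : Place K F) :
    Divisor.degree (D + Finsupp.single Q (1 : ℤ)) = Divisor.degree D + 1 := by
  rw [map_add, Divisor.degree_single, h.deg_one]
  simp

/-- Adding a point lowers `dim H¹` by at most one. -/
theorem finrank_h1_le_add_single (D : Divisor K F) (Q : Place K F) :
    finrank K (H1 D) ≤ finrank K (H1 (D + Finsupp.single Q (1 : ℤ))) + 1 := by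
  have h1 := h.rr D
  have h2 := h.rr (D + Finsupp.single Q (1 : ℤ))
  rw [h.degree_add_single] at h2
  have h3 := h.finrank_L_le_of_le (le_add_single D Q)
  omega

/-- **Key step**: if `H¹(E) ≠ 0`, then outside any finite set there is a place `Q` with
`dim H¹(E + Q) = dim H¹(E) - 1`. -/
theorem exists_place_drop (E : Divisor K F) (hE : 0 < finrank K (H1 E))
    (T : Set (Place K F)) (hT : T.Finite) :
    ∃ Q : Place K F, Q ∉ T ∧
      finrank K (H1 (E + Finsupp.single Q (1 : ℤ))) + 1 = finrank K (H1 E) := by
  by_contra hcon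
  push Not at hcon
  have heq : ∀ Q : Place K F, Q ∉ T →
      finrank K (H1 (E + Finsupp.single Q (1 : ℤ))) = finrank K (H1 E) := by
    intro Q hQ
    have h1 := h.finrank_h1_le_of_le (le_add_single E Q)
    have h2 := h.finrank_h1_le_add_single E Q
    have h3 := hcon Q hQ
    omega
  have hinj : ∀ Q : Place K F, Q ∉ T →
      repartitionsOf (E + Finsupp.single Q (1 : ℤ)) ≤
        repartitionsOf E ⊔ principalRepartitions K F := by
    intro Q hQ
    have := h.finH E
    have := h.finH (E + Finsupp.single Q (1 : ℤ))
    refine le_of_h1Map_injective (le_add_single E Q) ?_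
    exact (LinearMap.injective_iff_surjective_of_finrank_eq_finrank (heq Q hQ).symm).mpr
      (h1Map_surjective _)
  obtain ⟨c, hc⟩ := h.van
  have : Infinite (Place K F) := Set.infinite_univ_iff.mp h.infinite
  obtain ⟨S, hST, hScard⟩ :=
    (hT.infinite_compl).exists_subset_card_eq ((c - Divisor.degree E).toNat)
  have hle : E ≤ E + ptsDiv S := by
    have := ptsDiv_nonneg S
    exact le_add_of_nonneg_right this
  have hsub : Subsingleton (H1 (E + ptsDiv S)) := by
    apply hc
    rw [map_add, degree_ptsDiv h.deg_one, hScard]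
    have := Int.self_le_toNat (c - Divisor.degree E)
    omega
  have hinj' : Function.Injective (h1Map hle) :=
    h1Map_injective_of_le hle
      (repartitionsOf_add_ptsDiv_le E S fun Q hQ => hinj Q (hST hQ))
  have : Subsingleton (H1 E) := hinj'.subsingleton
  have : finrank K (H1 E) = 0 := finrank_zero_of_subsingleton
  omega

/-- Inductive form: for `s ≤ genusFF`, there are `s` distinct places outside `T` whose sum `E`
has `dim H¹(E) = genusFF - s`. -/
theorem exists_finset_h1 (T : Set (Place K F)) (hT : T.Finite) (s : ℕ)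
    (hs : s ≤ genusFF K F) :
    ∃ S : Finset (Place K F), S.card = s ∧ (∀ Q ∈ S, Q ∉ T) ∧
      finrank K (H1 (ptsDiv S)) + s = genusFF K F := by
  induction s with
  | zero =>
    refine ⟨∅, rfl, by simp, ?_⟩
    rw [ptsDiv_empty, add_zero]
    rfl
  | succ s ih =>
    obtain ⟨S, hcard, hST, hfin⟩ := ih (Nat.le_of_succ_le hs)
    have hpos : 0 < finrank K (H1 (ptsDiv S)) := by omega
    obtain ⟨Q, hQ, hdrop⟩ := h.exists_place_drop (ptsDiv S) hpos (T ∪ ↑S)
      (hT.union S.finite_toSet)
    have hQT : Q ∉ T := fun hq => hQ (Or.inl hq)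
    have hQS : Q ∉ S := fun hq => hQ (Or.inr (Finset.mem_coe.mpr hq))
    refine ⟨insert Q S, ?_, ?_, ?_⟩
    · rw [Finset.card_insert_of_notMem hQS, hcard]
    · intro Q' hQ'
      rcases Finset.mem_insert.mp hQ' with rfl | hQ'
      · exact hQT
      · exact hST Q' hQ'
    · rw [ptsDiv_insert hQS]
      omega

/-- **(NS), finset form**: for `g ≤ genusFF K F` there are `g` distinct places outside any given
finite set `T` whose sum `E` is non-special in the sense `l(E) = 1`. -/
theorem exists_nonspecial_finset (T : Set (Place K F)) (hT : T.Finite) (g : ℕ)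
    (hg : g ≤ genusFF K F) :
    ∃ S : Finset (Place K F), S.card = g ∧ (∀ Q ∈ S, Q ∉ T) ∧
      finrank K (riemannRochSpace (ptsDiv S)) = 1 := by
  obtain ⟨S, hcard, hST, hfin⟩ := h.exists_finset_h1 T hT g hg
  refine ⟨S, hcard, hST, ?_⟩
  have h1 := h.rr (ptsDiv S)
  rw [degree_ptsDiv h.deg_one, hcard] at h1
  omega

/-- **(NS)**: for `g ≤ genusFF K F` there are `g` distinct places `Q₁, …, Q_g` outside any given
finite set `T` with `l(Q₁ + ⋯ + Q_g) = 1`. -/
theorem exists_nonspecial (T : Set (Place K F)) (hT : T.Finite) (g : ℕ)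
    (hg : g ≤ genusFF K F) :
    ∃ Q : Fin g → Place K F, Function.Injective Q ∧ (∀ i, Q i ∉ T) ∧
      finrank K (riemannRochSpace (∑ i, Finsupp.single (Q i) (1 : ℤ))) = 1 := by
  obtain ⟨S, hcard, hST, hfin⟩ := h.exists_nonspecial_finset T hT g hg
  let e : Fin g ≃ S := (finCongr hcard.symm).trans S.equivFin.symm
  refine ⟨fun i => (e i : Place K F), Subtype.val_injective.comp e.injective,
    fun i => hST _ (e i).2, ?_⟩
  have : (∑ i, Finsupp.single ((e i : S) : Place K F) (1 : ℤ)) = ptsDiv S := by
    rw [ptsDiv, ← Finset.sum_coe_sort S]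
    exact Equiv.sum_comp e fun Q : S => Finsupp.single (Q : Place K F) (1 : ℤ)
  rw [this]
  exact hfin

end RRData

/-- Consumer form of `l(E) = 1` for an effective divisor: every element of `L(E)` is a constant. -/
theorem exists_eq_algebraMap_of_finrank_eq_one {E : Divisor K F} (hE : 0 ≤ E)
    (h1 : finrank K (riemannRochSpace E) = 1) {f : F} (hf : f ∈ riemannRochSpace E) :
    ∃ c : K, f = algebraMap K F c := by
  have hone : (1 : F) ∈ riemannRochSpace E := by
    intro v
    rw [map_one]
    have : (0 : ℤ) ≤ E v := hE v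
    calc (1 : WithZero (Multiplicative ℤ)) = WithZero.exp (0 : ℤ) := by simp
      _ ≤ WithZero.exp (E v) := WithZero.exp_le_exp.mpr this
  have hne : (⟨1, hone⟩ : riemannRochSpace E) ≠ 0 := by
    intro h0
    have := congrArg Subtype.val h0
    simp at this
  obtain ⟨c, hc⟩ := (finrank_eq_one_iff_of_nonzero' _ hne).mp h1 ⟨f, hf⟩
  refine ⟨c, ?_⟩
  have := congrArg Subtype.val hc
  simp only [Submodule.coe_smul] at this
  rw [← this, Algebra.smul_def, mul_one]

/-- **(NS)**, hypothesis-explicit form (the six hypotheses are exports of the Riemann–Roch bank). -/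
theorem exists_nonspecial
    (hdeg : ∀ v : Place K F, v.deg = 1) (hinf : (Set.univ : Set (Place K F)).Infinite)
    (hfinL : ∀ D : Divisor K F, FiniteDimensional K (riemannRochSpace D))
    (hfinH : ∀ D : Divisor K F, FiniteDimensional K (H1 D))
    (hRR : ∀ D : Divisor K F, (finrank K (riemannRochSpace D) : ℤ) - finrank K (H1 D) =
      Divisor.degree D + 1 - genusFF K F)
    (hvan : ∃ c : ℤ, ∀ D : Divisor K F, c ≤ Divisor.degree D → Subsingleton (H1 D))
    (T : Set (Place K F)) (hT : T.Finite) (g : ℕ) (hg : g ≤ genusFF K F) :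
    ∃ Q : Fin g → Place K F, Function.Injective Q ∧ (∀ i, Q i ∉ T) ∧
      finrank K (riemannRochSpace (∑ i, Finsupp.single (Q i) (1 : ℤ))) = 1 ∧
      ∀ f ∈ riemannRochSpace (∑ i, Finsupp.single (Q i) (1 : ℤ)), ∃ c : K, f = algebraMap K F c := by
  obtain ⟨Q, hQinj, hQT, hQ1⟩ :=
    (RRData.mk hdeg hinf hfinL hfinH hRR hvan).exists_nonspecial T hT g hg
  refine ⟨Q, hQinj, hQT, hQ1, fun f hf => ?_⟩
  refine exists_eq_algebraMap_of_finrank_eq_one ?_ hQ1 hf
  refine Finset.sum_nonneg fun i _ => ?_
  intro v
  rw [Finsupp.single_apply]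
  split_ifs <;> simp

end Fermat.Agent.S18.H15
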