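import Mathlib

/-!
# S18: the abstract level-raising lemma (helper17)

`F ⊆ K` fields, `V` a valuation subring of `K` which is integral over `V ∩ F` (this encodes:
the valuation `V ∩ F` of `F` has a UNIQUE extension to `K`).  If `θ ∈ K`, `θ ≡ 1 mod 𝔪_V`,
`θ ^ p ∈ F` for a prime `p` such that `F` contains a primitive `p`-th root of unity `ζ`
with `1 - ζ` a unit of `V` (residue characteristic `≠ p`), then `θ ∈ F`.

In words: the Kummer extension `F(θ)/F` is one in which the valuation splits completely
(Hensel), so it cannot sit inside an extension in which the valuation does not split.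

Application (S18): `F = F_N`, `K = F_{N'}` (`N ∣ N'`, `ℓ ∤ N'`), `V` the Gauss valuation ring
`O[j_{N'}]` of `K`; Igusa irreducibility of the modular polynomial mod `ℓ` says it is local,
hence it is the integral closure of the Gauss valuation ring of `F`.
-/

set_option autoImplicit false

namespace Fermat.Agent.S18.H17

open Polynomial IntermediateField

variable {F K : Type*} [Field F] [Field K] [Algebra F K]

/-- the valuation subring `V ∩ F` of `F`. -/
noncomputable abbrev restr (V : ValuationSubring K) : ValuationSubring F :=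
  V.comap (algebraMap F K)

theorem mem_restr (V : ValuationSubring K) (x : F) :
    x ∈ restr (F := F) V ↔ algebraMap F K x ∈ V :=
  Iff.rfl

/-- elements of `F` integral over `V ∩ F` lie in `V ∩ F`. -/
theorem mem_restr_of_isIntegral (V : ValuationSubring K) {a : F}
    (ha : IsIntegral (restr (F := F) V) a) : a ∈ restr (F := F) V := by
  obtain ⟨y, hy⟩ := (IsIntegrallyClosed.isIntegral_iff (R := restr (F := F) V) (K := F)).1 ha
  rw [← hy]
  exact y.2

theorem valuation_eq_one_of_pow_eq_one (V : ValuationSubring K) {x : K} {n : ℕ} (hn : n ≠ 0)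
    (hx : x ^ n = 1) : V.valuation x = 1 := by
  have h : V.valuation x ^ n = 1 := by rw [← map_pow, hx, map_one]
  exact (pow_eq_one_iff.1 h).resolve_right hn

theorem valuation_eq_one_of_mem_of_inv_mem (V : ValuationSubring K) {x : K} (hx0 : x ≠ 0)
    (hx : x ∈ V) (hx' : x⁻¹ ∈ V) : V.valuation x = 1 := by
  have h1 := (V.valuation_le_one_iff _).2 hx
  have h2 := (V.valuation_le_one_iff _).2 hx'
  rw [map_inv₀] at h2
  refine le_antisymm h1 ?_
  by_contra hlt
  rw [not_le] at hlt
  have h0 : V.valuation x ≠ 0 := by rwa [Ne, map_eq_zero]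
  have : 1 < (V.valuation x)⁻¹ := (one_lt_inv₀ (zero_lt_iff.2 h0)).2 hlt
  exact absurd h2 (not_le.2 this)

/-- The norm of a unit of `V` (lying in an intermediate field `E`, together with its inverse)
has valuation one, when `V` is integral over `V ∩ F`. -/
theorem valuation_norm_eq_one (V : ValuationSubring K)
    (hint : ∀ x : K, x ∈ V → IsIntegral (restr (F := F) V) x)
    (E : IntermediateField F K) (x : E) (hx0 : x ≠ 0) (hx : (x : K) ∈ V)
    (hx' : ((x : K))⁻¹ ∈ V) :
    V.valuation (algebraMap F K (Algebra.norm F x)) = 1 := by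
  have hinj : Function.Injective (algebraMap E K) := (algebraMap E K).injective
  have h1 : IsIntegral (restr (F := F) V) x := by
    have := hint _ hx
    exact (isIntegral_algebraMap_iff hinj).1 this
  have h2 : IsIntegral (restr (F := F) V) x⁻¹ := by
    have := hint _ hx'
    refine (isIntegral_algebraMap_iff hinj).1 ?_
    simpa using this
  have n1 := mem_restr_of_isIntegral V (Algebra.isIntegral_norm F h1)
  have n2 := mem_restr_of_isIntegral V (Algebra.isIntegral_norm F h2)
  rw [mem_restr] at n1 n2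
  have hmul : Algebra.norm F x * Algebra.norm F x⁻¹ = 1 := by
    rw [← map_mul, mul_inv_cancel₀ hx0, map_one]
  have hmul' : V.valuation (algebraMap F K (Algebra.norm F x)) *
      V.valuation (algebraMap F K (Algebra.norm F x⁻¹)) = 1 := by
    rw [← map_mul, ← map_mul, hmul, map_one, map_one]
  have l1 := (V.valuation_le_one_iff _).2 n1
  have l2 := (V.valuation_le_one_iff _).2 n2
  refine le_antisymm l1 ?_
  by_contra hlt
  rw [not_le] at hlt
  have : V.valuation (algebraMap F K (Algebra.norm F x)) *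
      V.valuation (algebraMap F K (Algebra.norm F x⁻¹)) < 1 := by
    calc _ ≤ V.valuation (algebraMap F K (Algebra.norm F x)) * 1 := by gcongr
      _ < 1 := by rwa [mul_one]
  exact absurd hmul' (ne_of_lt this)

/-- norm of `θ - ζ` when `X^p - u` is the minimal polynomial of `θ`. -/
theorem norm_gen_sub (p : ℕ) (hp : 0 < p) (u ζ : F) (hζ : ζ ^ p = 1) (θ : K)
    (hmin : minpoly F θ = X ^ p - C u) :
    Algebra.norm F (AdjoinSimple.gen F (θ - algebraMap F K ζ)) = (-1) ^ p * (1 - u) := by
  have hint : IsIntegral F θ := by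
    by_contra h
    have := minpoly.eq_zero h
    rw [hmin] at this
    exact (X_pow_sub_C_ne_zero hp u) this
  have hint' : IsIntegral F (θ - algebraMap F K ζ) := hint.sub isIntegral_algebraMap
  have hm : minpoly F (θ - algebraMap F K ζ) = (X ^ p - C u).comp (X + C ζ) := by
    rw [minpoly.sub_algebraMap θ ζ, hmin]
  have hdeg : (minpoly F (θ - algebraMap F K ζ)).natDegree = p := by
    rw [hm, natDegree_comp, natDegree_X_pow_sub_C, natDegree_X_add_C, mul_one]
  have := Algebra.PowerBasis.norm_gen_eq_coeff_zero_minpoly (adjoin.powerBasis hint')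
  rw [adjoin.powerBasis_gen, adjoin.powerBasis_dim, minpoly_gen, hdeg, hm] at this
  rw [this, coeff_zero_eq_eval_zero, eval_comp]
  simp [hζ]

/-- **Level-raising lemma, abstract form.** -/
theorem mem_range_of_pow_mem (V : ValuationSubring K)
    (hint : ∀ x : K, x ∈ V → IsIntegral (restr (F := F) V) x)
    {p : ℕ} (hp : p.Prime) {ζ : F} (hζ : IsPrimitiveRoot ζ p)
    (hζu : (1 - algebraMap F K ζ)⁻¹ ∈ V)
    {θ : K} (hθ1 : V.valuation (θ - 1) < 1) {u : F} (hθu : θ ^ p = algebraMap F K u) :
    θ ∈ Set.range (algebraMap F K) := by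
  by_contra hθ
  set v := V.valuation with hv
  set ζ' : K := algebraMap F K ζ with hζ'
  have hζ'prim : IsPrimitiveRoot ζ' p := hζ.map_of_injective (algebraMap F K).injective
  have hvζ : v ζ' = 1 := valuation_eq_one_of_pow_eq_one V hp.ne_zero hζ'prim.pow_eq_one
  -- `θ` is a unit
  have hvθ : v θ = 1 := by
    have : θ = (θ - 1) + 1 := by ring
    rw [this]
    have h1 : v (1 : K) = 1 := map_one v
    rw [Valuation.map_add_eq_of_lt_right v (by rw [h1]; exact hθ1), h1]
  have hθ0 : θ ≠ 0 := by
    rintro rfl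
    rw [map_zero] at hvθ
    exact zero_ne_one hvθ
  -- `u` is not a `p`-th power
  have hu : ∀ b : F, b ^ p ≠ u := by
    intro b hb
    have hb0 : b ≠ 0 := by
      rintro rfl
      rw [zero_pow hp.ne_zero] at hb
      rw [← hb, map_zero] at hθu
      exact hθ0 (pow_eq_zero_iff hp.ne_zero |>.1 hθu)
    have hb0' : algebraMap F K b ≠ 0 := by
      rwa [Ne, map_eq_zero]
    have h1 : (θ / algebraMap F K b) ^ p = 1 := by
      rw [div_pow, hθu, ← map_pow, hb, div_self]
      rw [← hb, map_pow]
      exact pow_ne_zero _ hb0'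
    have : NeZero p := ⟨hp.ne_zero⟩
    obtain ⟨i, -, hi⟩ := hζ'prim.eq_pow_of_pow_eq_one h1
    apply hθ
    refine ⟨ζ ^ i * b, ?_⟩
    rw [map_mul, map_pow, ← hζ', hi, div_mul_cancel₀ _ hb0']
  have hirr := X_pow_sub_C_irreducible_of_prime hp hu
  have hmin : minpoly F θ = X ^ p - C u := by
    refine (minpoly.eq_of_irreducible_of_monic hirr ?_ (monic_X_pow_sub_C u hp.ne_zero)).symm
    simp [hθu]
  have hnorm := norm_gen_sub p hp.pos u ζ hζ.pow_eq_one θ hmin
  -- `1 - ζ'` is a unit of `V`
  have h1ζ0 : (1 : K) - ζ' ≠ 0 := by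
    rw [sub_ne_zero]
    exact (hζ'prim.ne_one hp.one_lt).symm
  have h1ζmem : (1 : K) - ζ' ∈ V := by
    rw [← V.valuation_le_one_iff]
    refine le_trans (Valuation.map_sub _ _ _) ?_
    rw [map_one, ← hv, hvζ, max_self]
  have hv1ζ : v (1 - ζ') = 1 := valuation_eq_one_of_mem_of_inv_mem V h1ζ0 h1ζmem hζu
  -- `θ - ζ'` is a unit of `V`
  have hvθζ : v (θ - ζ') = 1 := by
    have : θ - ζ' = (θ - 1) + (1 - ζ') := by ring
    rw [this, Valuation.map_add_eq_of_lt_right v (by rw [hv1ζ]; exact hθ1), hv1ζ]
  have hθζ0 : θ - ζ' ≠ 0 := by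
    intro h0
    rw [h0, map_zero] at hvθζ
    exact zero_ne_one hvθζ
  have hmem : θ - ζ' ∈ V := by
    rw [← V.valuation_le_one_iff, ← hv, hvθζ]
  have hmem' : (θ - ζ')⁻¹ ∈ V := by
    rw [← V.valuation_le_one_iff, map_inv₀, ← hv, hvθζ, inv_one]
  have hgen0 : AdjoinSimple.gen F (θ - ζ') ≠ 0 := by
    intro h0
    apply hθζ0
    have := congrArg (fun x : F⟮θ - ζ'⟯ => (x : K)) h0
    simpa using this
  have hone := valuation_norm_eq_one V hint F⟮θ - ζ'⟯ (AdjoinSimple.gen F (θ - ζ')) hgen0
    (by simpa using hmem) (by simpa using hmem')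
  rw [hnorm, map_mul, map_pow, map_neg, map_one, map_sub, map_one, ← hθu, map_mul, map_pow,
    Valuation.map_neg, map_one, one_pow, one_mul] at hone
  -- but `1 - θ ^ p` is a non-unit
  have hlt : v (1 - θ ^ p) < 1 := by
    have hgeom := geom_sum_mul θ p
    have hsum : v (∑ i ∈ Finset.range p, θ ^ i) ≤ 1 := by
      refine Valuation.map_sum_le v (fun i _ => ?_)
      rw [map_pow, hvθ, one_pow]
    have : v (θ ^ p - 1) < 1 := by
      rw [← hgeom, map_mul]
      calc v (∑ i ∈ Finset.range p, θ ^ i) * v (θ - 1) ≤ 1 * v (θ - 1) := by gcongr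
        _ < 1 := by rwa [one_mul]
    rwa [← Valuation.map_neg, neg_sub] at this
  exact absurd hone (ne_of_lt hlt)

end Fermat.Agent.S18.H17
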