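/-
helper1 — S18 / R0 (GAUSS-VAL), abstract Mathlib-only core.

`A ⊆ L` a valuation ring with residue map `π : A →+* k`; `FL ⊇ L` a field; `MA ⊆ FL` a subring
which is the `A`-span of a family `e : ι → FL`; `red : MA →+* Fk` an `A`-semilinear ring hom with
`red (e s) = ebar s` and `ebar` linearly independent over `k`; `FL` is the fraction field of the
`L`-span of `e`.  Then
`unitBall = {a / b | a, b ∈ MA, red b ≠ 0}` is a valuation subring of `FL` (the Gauss valuation
ring), with residue map `res : unitBall →+* Fk`, kernel = non-units, constants `A`, scaling,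
and orthonormality of the family `e`.
-/
import Mathlib

set_option linter.unusedSectionVars false
set_option linter.unusedVariables false

namespace Fermat.Agent.S18.H1

open Finsupp

section GaussAbstract

variable {L FL k Fk : Type*} [Field L] [Field FL] [Algebra L FL] [Field k] [Field Fk]
  [Algebra k Fk]

/-- The data of an "`A`-lattice ring with independent reduction". -/
structure GaussData (A : ValuationSubring L) (π : A →+* k) {ι : Type*} (e : ι → FL)
    (ebar : ι → Fk) where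
  /-- the ring of integral elements (e.g. `A[j, j_N]`) -/
  MA : Subring FL
  /-- coefficientwise reduction -/
  red : MA →+* Fk
  π_ker : ∀ a : A, π a = 0 ↔ ¬ IsUnit a
  ind : LinearIndependent k ebar
  e_mem : ∀ s, e s ∈ MA
  smul_mem : ∀ (a : A) (x : FL), x ∈ MA → (a : L) • x ∈ MA
  red_smul : ∀ (a : A) (x : MA), red ⟨(a : L) • (x : FL), smul_mem a x x.2⟩ = π a • red x
  red_e : ∀ s, red ⟨e s, e_mem s⟩ = ebar s
  span : ∀ x ∈ MA, ∃ c : ι →₀ L, (∀ s, c s ∈ A) ∧ x = Finsupp.linearCombination L e c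
  frac : ∀ f : FL, ∃ x y : ι →₀ L, Finsupp.linearCombination L e y ≠ 0 ∧
    f * Finsupp.linearCombination L e y = Finsupp.linearCombination L e x

variable {A : ValuationSubring L} {π : A →+* k} {ι : Type*} {e : ι → FL} {ebar : ι → Fk}

namespace GaussData

variable (G : GaussData A π e ebar)

/-- The element of `MA` attached to an integral coefficient vector. -/
noncomputable def ofCoeff (c : ι →₀ L) (hc : ∀ s, c s ∈ A) : G.MA :=
  ∑ s ∈ c.support, ⟨((⟨c s, hc s⟩ : A) : L) • e s, G.smul_mem ⟨c s, hc s⟩ _ (G.e_mem s)⟩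

theorem coe_ofCoeff (c : ι →₀ L) (hc : ∀ s, c s ∈ A) :
    ((G.ofCoeff c hc : G.MA) : FL) = Finsupp.linearCombination L e c := by
  rw [ofCoeff, Finsupp.linearCombination_apply, Finsupp.sum]
  rw [← Subring.coe_subtype, map_sum]
  rfl

theorem red_ofCoeff (c : ι →₀ L) (hc : ∀ s, c s ∈ A) :
    G.red (G.ofCoeff c hc) = ∑ s ∈ c.support, π ⟨c s, hc s⟩ • ebar s := by
  rw [ofCoeff, map_sum]
  refine Finset.sum_congr rfl fun s _ => ?_
  have := G.red_smul ⟨c s, hc s⟩ ⟨e s, G.e_mem s⟩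
  rw [G.red_e] at this
  exact this

theorem mem_MA_iff (x : FL) :
    x ∈ G.MA ↔ ∃ c : ι →₀ L, (∀ s, c s ∈ A) ∧ x = Finsupp.linearCombination L e c := by
  constructor
  · exact G.span x
  · rintro ⟨c, hc, rfl⟩
    rw [← G.coe_ofCoeff c hc]
    exact (G.ofCoeff c hc).2

/-- `red (ofCoeff c) ≠ 0` as soon as one coefficient is a unit of `A`. -/
theorem red_ofCoeff_ne_zero (c : ι →₀ L) (hc : ∀ s, c s ∈ A) (s₀ : ι)
    (hs₀ : IsUnit (⟨c s₀, hc s₀⟩ : A)) : G.red (G.ofCoeff c hc) ≠ 0 := by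
  rw [G.red_ofCoeff]
  intro h
  have hmem : s₀ ∈ c.support := by
    rw [Finsupp.mem_support_iff]
    intro h0
    have : (⟨c s₀, hc s₀⟩ : A) = 0 := Subtype.ext h0
    rw [this] at hs₀
    exact not_isUnit_zero hs₀
  have := linearIndependent_iff'.mp G.ind c.support (fun s => π ⟨c s, hc s⟩) h s₀ hmem
  exact ((G.π_ker _).mp this) hs₀

/-- `red (ofCoeff c) = 0` iff all coefficients are non-units. -/
theorem red_ofCoeff_eq_zero_iff (c : ι →₀ L) (hc : ∀ s, c s ∈ A) :
    G.red (G.ofCoeff c hc) = 0 ↔ ∀ s, ¬ IsUnit (⟨c s, hc s⟩ : A) := by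
  constructor
  · intro h s hs
    exact G.red_ofCoeff_ne_zero c hc s hs h
  · intro h
    rw [G.red_ofCoeff]
    refine Finset.sum_eq_zero fun s _ => ?_
    rw [(G.π_ker _).mpr (h s), zero_smul]

/-- **(G1) Scaling.** A nonzero coefficient vector can be scaled by a nonzero constant to an
integral one with a coefficient equal to `1`. -/
theorem exists_scale (A : ValuationSubring L) (x : ι →₀ L) (hx : x ≠ 0) :
    ∃ c : L, c ≠ 0 ∧ ∃ (hc : ∀ s, (c • x) s ∈ A) (s₀ : ι), (c • x) s₀ = 1 ∧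
      ∀ s, x s ∉ A → x s₀ ∉ A := by
  have hne : x.support.Nonempty := Finsupp.support_nonempty_iff.mpr hx
  obtain ⟨s₀, hs₀, hmax⟩ := Finset.exists_max_image x.support (fun s => A.valuation (x s)) hne
  have hx0 : x s₀ ≠ 0 := Finsupp.mem_support_iff.mp hs₀
  refine ⟨(x s₀)⁻¹, inv_ne_zero hx0, ?_, s₀, ?_, ?_⟩
  · intro s
    rw [Finsupp.smul_apply, smul_eq_mul, ← A.valuation_le_one_iff, map_mul, map_inv₀]
    by_cases hs : s ∈ x.support
    · have h1 := hmax s hs
      have hv0 : A.valuation (x s₀) ≠ 0 := (A.valuation.ne_zero_iff).mpr hx0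
      calc (A.valuation (x s₀))⁻¹ * A.valuation (x s)
          ≤ (A.valuation (x s₀))⁻¹ * A.valuation (x s₀) := by
            gcongr
        _ = 1 := inv_mul_cancel₀ hv0
    · rw [Finsupp.notMem_support_iff.mp hs, map_zero, mul_zero]
      exact zero_le_one
  · rw [Finsupp.smul_apply, smul_eq_mul, inv_mul_cancel₀ hx0]
  · intro s hs hs₀A
    apply hs
    rw [← A.valuation_le_one_iff] at hs₀A ⊢
    by_cases hsupp : s ∈ x.support
    · exact (hmax s hsupp).trans hs₀A
    · rw [Finsupp.notMem_support_iff.mp hsupp, map_zero]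
      exact zero_le_one

/-- **(G1')** every nonzero element of the `L`-span can be scaled into `MA` with nonzero
reduction. -/
theorem exists_scale_mem (x : ι →₀ L) (hx : x ≠ 0) :
    ∃ c : L, c ≠ 0 ∧ ∃ m : G.MA, (m : FL) = c • Finsupp.linearCombination L e x ∧
      G.red m ≠ 0 := by
  obtain ⟨c, hc0, hc, s₀, hs₀, -⟩ := exists_scale A x hx
  refine ⟨c, hc0, G.ofCoeff (c • x) hc, ?_, ?_⟩
  · rw [G.coe_ofCoeff, map_smul]
  · apply G.red_ofCoeff_ne_zero (c • x) hc s₀
    have : (⟨(c • x) s₀, hc s₀⟩ : A) = 1 := Subtype.ext hs₀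
    rw [this]
    exact isUnit_one


/-! ### The unit ball -/

/-- Membership predicate of the unit ball: `f = a / b` with `a, b ∈ MA`, `red b ≠ 0`. -/
def InBall (f : FL) : Prop := ∃ a b : G.MA, G.red b ≠ 0 ∧ f * (b : FL) = (a : FL)

theorem inBall_of_mem {x : FL} (hx : x ∈ G.MA) : G.InBall x :=
  ⟨⟨x, hx⟩, 1, by rw [map_one]; exact one_ne_zero, by simp⟩

theorem inBall_zero : G.InBall (0 : FL) := G.inBall_of_mem G.MA.zero_mem

theorem inBall_one : G.InBall (1 : FL) := G.inBall_of_mem G.MA.one_mem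

theorem inBall_add {f g : FL} (hf : G.InBall f) (hg : G.InBall g) : G.InBall (f + g) := by
  obtain ⟨a, b, hb, hab⟩ := hf
  obtain ⟨a', b', hb', hab'⟩ := hg
  refine ⟨a * b' + a' * b, b * b', ?_, ?_⟩
  · rw [map_mul]; exact mul_ne_zero hb hb'
  · push_cast
    rw [← hab, ← hab']; ring

theorem inBall_mul {f g : FL} (hf : G.InBall f) (hg : G.InBall g) : G.InBall (f * g) := by
  obtain ⟨a, b, hb, hab⟩ := hf
  obtain ⟨a', b', hb', hab'⟩ := hg
  refine ⟨a * a', b * b', ?_, ?_⟩
  · rw [map_mul]; exact mul_ne_zero hb hb'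
  · push_cast
    rw [← hab, ← hab']; ring

theorem inBall_neg {f : FL} (hf : G.InBall f) : G.InBall (-f) := by
  obtain ⟨a, b, hb, hab⟩ := hf
  exact ⟨-a, b, hb, by push_cast; rw [← hab]; ring⟩

theorem ne_zero_of_red_ne_zero {b : G.MA} (hb : G.red b ≠ 0) : (b : FL) ≠ 0 := by
  intro h
  apply hb
  have : b = 0 := Subtype.ext h
  rw [this, map_zero]

/-- **(G5) = (V4)**, with the explicit shape: every `f ≠ 0` is `d • (m₁ / m₂)` with
`m₁, m₂ ∈ MA` of nonzero reduction. -/
theorem exists_scale_quot {f : FL} (hf : f ≠ 0) :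
    ∃ d : L, d ≠ 0 ∧ ∃ m₁ m₂ : G.MA, G.red m₁ ≠ 0 ∧ G.red m₂ ≠ 0 ∧
      f * (m₂ : FL) = d • (m₁ : FL) := by
  obtain ⟨x, y, hy, hxy⟩ := G.frac f
  have hx0 : x ≠ 0 := by
    rintro rfl
    rw [map_zero] at hxy
    exact (mul_ne_zero hf hy) hxy
  have hy0 : y ≠ 0 := by
    rintro rfl
    exact hy (map_zero _)
  obtain ⟨cx, hcx, mx, hmx, hrx⟩ := G.exists_scale_mem x hx0
  obtain ⟨cy, hcy, my, hmy, hry⟩ := G.exists_scale_mem y hy0
  refine ⟨cy / cx, div_ne_zero hcy hcx, mx, my, hrx, hry, ?_⟩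
  rw [hmx, hmy, mul_smul_comm, hxy, smul_smul, div_mul_cancel₀ _ hcx]

theorem inBall_or_inv (f : FL) : G.InBall f ∨ G.InBall f⁻¹ := by
  by_cases hf : f = 0
  · left; rw [hf]; exact G.inBall_zero
  obtain ⟨d, hd, m₁, m₂, h₁, h₂, h⟩ := G.exists_scale_quot hf
  rcases A.mem_or_inv_mem d with hdA | hdA
  · left
    exact ⟨⟨(⟨d, hdA⟩ : A) • (m₁ : FL), G.smul_mem ⟨d, hdA⟩ _ m₁.2⟩, m₂, h₂, h⟩
  · right
    refine ⟨⟨(⟨d⁻¹, hdA⟩ : A) • (m₂ : FL), G.smul_mem ⟨d⁻¹, hdA⟩ _ m₂.2⟩, m₁, h₁, ?_⟩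
    have hm₂ : (m₂ : FL) ≠ 0 := G.ne_zero_of_red_ne_zero h₂
    have hm₁ : (m₁ : FL) ≠ 0 := G.ne_zero_of_red_ne_zero h₁
    show f⁻¹ * (m₁ : FL) = d⁻¹ • (m₂ : FL)
    have hfm : f = d • (m₁ : FL) / (m₂ : FL) := by
      rw [eq_div_iff hm₂, h]
    rw [hfm, inv_div, Algebra.smul_def, Algebra.smul_def, map_inv₀]
    have hdL : algebraMap L FL d ≠ 0 := by
      simpa using (map_ne_zero_iff _ (algebraMap L FL).injective).mpr hd
    field_simp

/-- **(G2)** the Gauss valuation ring. -/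
def unitBall : ValuationSubring FL where
  carrier := {f | G.InBall f}
  mul_mem' := G.inBall_mul
  one_mem' := G.inBall_one
  add_mem' := G.inBall_add
  zero_mem' := G.inBall_zero
  neg_mem' := G.inBall_neg
  mem_or_inv_mem' := G.inBall_or_inv

theorem mem_unitBall {f : FL} : f ∈ G.unitBall ↔ G.InBall f := Iff.rfl

theorem MA_le_unitBall {x : FL} (hx : x ∈ G.MA) : x ∈ G.unitBall := G.inBall_of_mem hx

/-! ### The residue map -/

/-- The value of the residue map, as a function on `FL` (junk `0` outside the unit ball). -/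
noncomputable def resFun (f : FL) : Fk := by
  classical
  exact if h : G.InBall f then G.red h.choose / G.red h.choose_spec.choose else 0

theorem resFun_eq {f : FL} {a b : G.MA} (hb : G.red b ≠ 0) (hab : f * (b : FL) = (a : FL)) :
    G.resFun f = G.red a / G.red b := by
  have h : G.InBall f := ⟨a, b, hb, hab⟩
  rw [resFun, dif_pos h]
  obtain ⟨hb', hab'⟩ := h.choose_spec.choose_spec
  set a' := h.choose
  set b' := h.choose_spec.choose
  rw [div_eq_div_iff hb' hb, ← map_mul, ← map_mul]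
  congr 1
  apply Subtype.ext
  push_cast
  rw [← hab, ← hab']; ring

/-- **(G3)** the residue map `unitBall →+* Fk`. -/
noncomputable def res : G.unitBall →+* Fk where
  toFun f := G.resFun (f : FL)
  map_one' := by
    show G.resFun (1 : FL) = 1
    rw [G.resFun_eq (a := 1) (b := 1) (by rw [map_one]; exact one_ne_zero) (by simp),
      map_one, div_one]
  map_zero' := by
    show G.resFun (0 : FL) = 0
    rw [G.resFun_eq (a := 0) (b := 1) (by rw [map_one]; exact one_ne_zero) (by simp),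
      map_zero, zero_div]
  map_mul' := by
    rintro ⟨f, a, b, hb, hab⟩ ⟨g, a', b', hb', hab'⟩
    show G.resFun (f * g) = G.resFun f * G.resFun g
    rw [G.resFun_eq hb hab, G.resFun_eq hb' hab',
      G.resFun_eq (a := a * a') (b := b * b') (by rw [map_mul]; exact mul_ne_zero hb hb')
        (by push_cast; rw [← hab, ← hab']; ring),
      map_mul, map_mul, div_mul_div_comm]
  map_add' := by
    rintro ⟨f, a, b, hb, hab⟩ ⟨g, a', b', hb', hab'⟩
    show G.resFun (f + g) = G.resFun f + G.resFun g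
    rw [G.resFun_eq hb hab, G.resFun_eq hb' hab',
      G.resFun_eq (a := a * b' + a' * b) (b := b * b')
        (by rw [map_mul]; exact mul_ne_zero hb hb')
        (by push_cast; rw [← hab, ← hab']; ring),
      map_add, map_mul, map_mul, map_mul, div_add_div _ _ hb hb']
    ring

theorem res_eq (f : G.unitBall) {a b : G.MA} (hb : G.red b ≠ 0)
    (hab : (f : FL) * (b : FL) = (a : FL)) : G.res f = G.red a / G.red b :=
  G.resFun_eq hb hab

theorem res_mul_red (f : G.unitBall) {a b : G.MA} (hb : G.red b ≠ 0)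
    (hab : (f : FL) * (b : FL) = (a : FL)) : G.res f * G.red b = G.red a := by
  rw [G.res_eq f hb hab, div_mul_cancel₀ _ hb]

/-- `res` restricted to `MA` is `red`. -/
theorem res_of_mem (x : G.MA) : G.res ⟨(x : FL), G.MA_le_unitBall x.2⟩ = G.red x := by
  rw [G.res_eq _ (a := x) (b := 1) (by rw [map_one]; exact one_ne_zero) (by simp),
    map_one, div_one]

/-- The kernel of `res` is the set of non-units. -/
theorem res_eq_zero_iff (f : G.unitBall) : G.res f = 0 ↔ ¬ IsUnit f := by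
  constructor
  · intro h hu
    have := hu.map G.res
    rw [h] at this
    exact not_isUnit_zero this
  · intro hu
    by_contra hne
    apply hu
    obtain ⟨a, b, hb, hab⟩ := f.2
    have ha : G.red a ≠ 0 := by
      intro ha
      apply hne
      rw [G.res_eq f hb hab, ha, zero_div]
    have hb0 := G.ne_zero_of_red_ne_zero hb
    have ha0 := G.ne_zero_of_red_ne_zero ha
    have hf0 : (f : FL) ≠ 0 := by
      intro h0; rw [h0, zero_mul] at hab; exact ha0 hab.symm
    have hinv : (f : FL)⁻¹ ∈ G.unitBall := ⟨b, a, ha, by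
      rw [← hab]; field_simp⟩
    exact isUnit_iff_exists_inv.mpr ⟨⟨_, hinv⟩, Subtype.ext (mul_inv_cancel₀ hf0)⟩

theorem res_ne_zero_iff (f : G.unitBall) : G.res f ≠ 0 ↔ IsUnit f := by
  rw [Ne, G.res_eq_zero_iff, not_not]

/-- Surjectivity of `res` when `Fk` is the fraction field of `red MA`. -/
theorem res_surjective (hFk : ∀ y : Fk, ∃ a b : G.MA, G.red b ≠ 0 ∧ y * G.red b = G.red a) :
    Function.Surjective G.res := by
  intro y
  obtain ⟨a, b, hb, hab⟩ := hFk y
  have hb0 := G.ne_zero_of_red_ne_zero hb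
  refine ⟨⟨(a : FL) / (b : FL), a, b, hb, div_mul_cancel₀ _ hb0⟩, ?_⟩
  rw [G.res_eq _ hb (div_mul_cancel₀ _ hb0), div_eq_iff hb, hab]

/-! ### Constants -/

theorem algebraMap_mem_MA (a : A) : algebraMap L FL (a : L) ∈ G.MA := by
  rw [Algebra.algebraMap_eq_smul_one]
  exact G.smul_mem a 1 G.MA.one_mem

theorem red_algebraMap (a : A) :
    G.red ⟨algebraMap L FL (a : L), G.algebraMap_mem_MA a⟩ = algebraMap k Fk (π a) := by
  have h := G.red_smul a 1
  rw [map_one, ← Algebra.algebraMap_eq_smul_one] at h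
  rw [← h]
  congr 1
  apply Subtype.ext
  show algebraMap L FL (a : L) = (a : L) • ((1 : G.MA) : FL)
  rw [Algebra.algebraMap_eq_smul_one]; rfl

theorem algebraMap_mem_unitBall (a : A) : algebraMap L FL (a : L) ∈ G.unitBall :=
  G.MA_le_unitBall (G.algebraMap_mem_MA a)

theorem res_algebraMap (a : A) :
    G.res ⟨algebraMap L FL (a : L), G.algebraMap_mem_unitBall a⟩ = algebraMap k Fk (π a) := by
  rw [← G.red_algebraMap a]
  exact G.res_of_mem ⟨_, G.algebraMap_mem_MA a⟩

/-- **(G4)** the constants of the unit ball are exactly `A`. -/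
theorem algebraMap_mem_unitBall_iff (c : L) : algebraMap L FL c ∈ G.unitBall ↔ c ∈ A := by
  constructor
  · intro hc
    by_contra hcA
    have hc0 : c ≠ 0 := fun h => hcA (h ▸ A.zero_mem)
    have hinv : c⁻¹ ∈ A := (A.mem_or_inv_mem c).resolve_left hcA
    have hnu : ¬ IsUnit (⟨c⁻¹, hinv⟩ : A) := by
      intro hu
      obtain ⟨v, hv⟩ := isUnit_iff_exists_inv.mp hu
      apply hcA
      have h1 : c⁻¹ * (v : L) = 1 := congrArg Subtype.val hv
      have h2 : (v : L) = c := by
        rw [← mul_one c, ← h1, ← mul_assoc, mul_inv_cancel₀ hc0, one_mul]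
      rw [← h2]; exact v.2
    have h0 : G.res ⟨algebraMap L FL c⁻¹, G.algebraMap_mem_unitBall ⟨c⁻¹, hinv⟩⟩ = 0 := by
      rw [G.res_algebraMap ⟨c⁻¹, hinv⟩, (G.π_ker _).mpr hnu, map_zero]
    have hmul : (⟨algebraMap L FL c, hc⟩ : G.unitBall) *
        ⟨algebraMap L FL c⁻¹, G.algebraMap_mem_unitBall ⟨c⁻¹, hinv⟩⟩ = 1 := by
      apply Subtype.ext
      show algebraMap L FL c * algebraMap L FL c⁻¹ = 1
      rw [← map_mul, mul_inv_cancel₀ hc0, map_one]
    have := congrArg G.res hmul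
    rw [map_mul, h0, mul_zero, map_one] at this
    exact zero_ne_one this
  · intro hc
    exact G.algebraMap_mem_unitBall ⟨c, hc⟩

/-! ### Scaling, orthonormality, kernel -/

/-- **(G5) = (V4)**: every `f ≠ 0` can be scaled by a nonzero constant to a unit of the unit
ball. -/
theorem exists_smul_mem_unitBall {f : FL} (hf : f ≠ 0) :
    ∃ c : L, c ≠ 0 ∧ ∃ h : c • f ∈ G.unitBall, G.res ⟨c • f, h⟩ ≠ 0 := by
  obtain ⟨d, hd, m₁, m₂, h₁, h₂, h⟩ := G.exists_scale_quot hf
  have hm₂ := G.ne_zero_of_red_ne_zero h₂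
  have key : (d⁻¹ • f) * (m₂ : FL) = (m₁ : FL) := by
    rw [smul_mul_assoc, h, smul_smul, inv_mul_cancel₀ hd, one_smul]
  refine ⟨d⁻¹, inv_ne_zero hd, ⟨m₁, m₂, h₂, key⟩, ?_⟩
  rw [G.res_eq _ h₂ key]
  exact div_ne_zero h₁ h₂

/-- **(G6) Orthonormality**: `∑ x_s • e_s` lies in the unit ball iff all `x_s ∈ A`. -/
theorem linearCombination_mem_unitBall_iff (x : ι →₀ L) :
    Finsupp.linearCombination L e x ∈ G.unitBall ↔ ∀ s, x s ∈ A := by
  constructor
  · intro hx
    by_contra hne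
    obtain ⟨s₁, hs₁⟩ := not_forall.mp hne
    have hx0 : x ≠ 0 := by
      rintro rfl
      exact hs₁ (by simp)
    obtain ⟨c, hc0, hc, s₀, hs₀, hmax⟩ := exists_scale A x hx0
    have hxs₀ : x s₀ ∉ A := hmax s₁ hs₁
    -- `c = (x s₀)⁻¹` is a non-unit of `A`
    have hcx : c * x s₀ = 1 := by simpa [Finsupp.smul_apply] using hs₀
    have hcA : c ∈ A := by
      rcases A.mem_or_inv_mem c with h | h
      · exact h
      · exfalso; apply hxs₀
        have : x s₀ = c⁻¹ := eq_inv_of_mul_eq_one_right hcx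
        rw [this]; exact h
    have hcnu : ¬ IsUnit (⟨c, hcA⟩ : A) := by
      intro hu
      obtain ⟨v, hv⟩ := isUnit_iff_exists_inv.mp hu
      apply hxs₀
      have h1 : c * (v : L) = 1 := congrArg Subtype.val hv
      have h2 : (v : L) = x s₀ := by
        rw [← mul_one (v : L), ← hcx, ← mul_assoc, mul_comm (v : L) c, h1, one_mul]
      rw [← h2]; exact v.2
    -- the scaled element has nonzero reduction ...
    have hunit : (⟨(c • x) s₀, hc s₀⟩ : A) = 1 := Subtype.ext hs₀
    have hred : G.red (G.ofCoeff (c • x) hc) ≠ 0 :=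
      G.red_ofCoeff_ne_zero (c • x) hc s₀ (hunit ▸ isUnit_one)
    -- ... but it is `c * (element of the unit ball)` with `res c = 0`
    have hcoe : ((G.ofCoeff (c • x) hc : G.MA) : FL) =
        algebraMap L FL c * Finsupp.linearCombination L e x := by
      rw [G.coe_ofCoeff, map_smul, Algebra.smul_def]
    have hmul : (⟨((G.ofCoeff (c • x) hc : G.MA) : FL), G.MA_le_unitBall (G.ofCoeff _ hc).2⟩ :
        G.unitBall) = ⟨algebraMap L FL c, G.algebraMap_mem_unitBall ⟨c, hcA⟩⟩ *
          ⟨Finsupp.linearCombination L e x, hx⟩ := Subtype.ext hcoe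
    have h0 := congrArg G.res hmul
    rw [G.res_of_mem, map_mul, G.res_algebraMap ⟨c, hcA⟩, (G.π_ker _).mpr hcnu, map_zero,
      zero_mul] at h0
    exact hred h0
  · intro hx
    rw [← G.coe_ofCoeff x hx]
    exact G.MA_le_unitBall (G.ofCoeff x hx).2

/-- The unit ball meets the `L`-span of `e` in `MA`. -/
theorem linearCombination_mem_unitBall_iff_mem_MA (x : ι →₀ L) :
    Finsupp.linearCombination L e x ∈ G.unitBall ↔ Finsupp.linearCombination L e x ∈ G.MA := by
  constructor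
  · intro h
    have hx := (G.linearCombination_mem_unitBall_iff x).mp h
    rw [← G.coe_ofCoeff x hx]
    exact (G.ofCoeff x hx).2
  · exact G.MA_le_unitBall

/-- **(K)** If the maximal ideal of `A` is generated by `ϖ` (e.g. `A` a DVR), then the kernel of
`res` is `ϖ • unitBall`. -/
theorem exists_eq_smul_of_res_eq_zero {ϖ : A} (hϖ : ∀ a : A, ¬ IsUnit a → ∃ a' : A, a = ϖ * a')
    (f : G.unitBall) (hf : G.res f = 0) :
    ∃ g : G.unitBall, (f : FL) = algebraMap L FL (ϖ : L) * (g : FL) := by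
  obtain ⟨a, b, hb, hab⟩ := f.2
  have ha : G.red a = 0 := by
    have := G.res_mul_red f hb hab
    rw [hf, zero_mul] at this
    exact this.symm
  obtain ⟨c, hc, hac⟩ := G.span a a.2
  have ha' : G.red (G.ofCoeff c hc) = 0 := by
    have : G.ofCoeff c hc = a := Subtype.ext (by rw [G.coe_ofCoeff, hac])
    rw [this, ha]
  have hnu := (G.red_ofCoeff_eq_zero_iff c hc).mp ha'
  choose d hd using fun s => hϖ ⟨c s, hc s⟩ (hnu s)
  -- the divided coefficient vector
  have hdL : ∀ s, c s = (ϖ : L) * (d s : L) := fun s => congrArg Subtype.val (hd s)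
  by_cases hϖ0 : (ϖ : L) = 0
  · -- degenerate: then all coefficients vanish
    have : (a : FL) = 0 := by
      rw [hac]
      have : c = 0 := by
        ext s; rw [hdL s, hϖ0, zero_mul]; rfl
      rw [this, map_zero]
    refine ⟨0, ?_⟩
    have hb0 := G.ne_zero_of_red_ne_zero hb
    rw [this] at hab
    rcases mul_eq_zero.mp hab with h | h
    · rw [h]; simp
    · exact absurd h hb0
  · let c' : ι →₀ L := (ϖ : L)⁻¹ • c
    have hc' : ∀ s, c' s ∈ A := by
      intro s
      have : c' s = (d s : L) := by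
        show (ϖ : L)⁻¹ • c s = _
        rw [hdL s, smul_eq_mul, ← mul_assoc, inv_mul_cancel₀ hϖ0, one_mul]
      rw [this]; exact (d s).2
    have hb0 := G.ne_zero_of_red_ne_zero hb
    have hg : ((G.ofCoeff c' hc' : G.MA) : FL) / (b : FL) ∈ G.unitBall :=
      ⟨G.ofCoeff c' hc', b, hb, div_mul_cancel₀ _ hb0⟩
    refine ⟨⟨_, hg⟩, ?_⟩
    show (f : FL) = algebraMap L FL (ϖ : L) * (((G.ofCoeff c' hc' : G.MA) : FL) / (b : FL))
    rw [G.coe_ofCoeff, map_smul, ← hac, eq_comm, mul_div_assoc', div_eq_iff hb0, hab,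
      Algebra.smul_def, ← mul_assoc, ← map_mul, mul_inv_cancel₀ hϖ0, map_one, one_mul]

end GaussData

end GaussAbstract

end Fermat.Agent.S18.H1
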