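/-
helper1 — S18 route Q, package (VERT-INST): the `VertCond` hypothesis of helper41's PURITY-MAIN /
helper96's `H96.isIntegrallyClosed_specialFibre` for the base lines of the auxiliary covers.

* abstract: `R` integrally closed domain, `K = Frac R`, `L = K(θ)`; `Φ ∈ ℤ[J][X]` monic (the modular
  polynomial) with `Φ(θ, J₀) = 0` for some `J₀ ∈ R`; a reduction `φ : R →+* κ` (`κ ⊇ k` a field)
  killing `π` with `φ J₀` transcendental over `k`; `Φ mod ℓ` separable over `k(J)`
  (`H16.separable_redModPoly`, (B5))  ⟹  `H41.VertCond R K L π`.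
* the reduction `awayRed : R →+* RatFunc k` of a localisation `R = A₁[X][1/f]` of the affine line
  over `A₁` along `π : A₁ →+* k`.
* instances: Hesse line (`f = X³ - 1`, `J₀ · hesB μ = 27 · hesA μ`, needs `3 ≠ 0` in `k`) and
  Legendre line (`f = X (X - 1)`, `J₀ · legB λ = 256 · legA λ ^ 3`, needs `2 ≠ 0` in `k`).
-/
import Fermat.Agent.S18.H1_VertCond
import Fermat.Agent.S18.H26_AuxField
import Fermat.Agent.S28.H50_Frame

set_option autoImplicit false
set_option linter.unusedSectionVars false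

noncomputable section

namespace Fermat.Agent.S18.H1

open Polynomial Fermat.Agent.S28

/-! ### 1. Abstract form -/

section Abstract

variable {R : Type*} [CommRing R]

/-- The two-variable integral polynomial `Φ ∈ ℤ[J][X]` specialised at `J ↦ J₀ ∈ R`. -/
def specPoly (Φ : Polynomial ℤ[X]) (J₀ : R) : R[X] :=
  Φ.map (Polynomial.aeval (R := ℤ) J₀).toRingHom

theorem specPoly_monic {Φ : Polynomial ℤ[X]} (hΦ : Φ.Monic) (J₀ : R) : (specPoly Φ J₀).Monic :=
  hΦ.map _

theorem natDegree_specPoly [Nontrivial R] {Φ : Polynomial ℤ[X]} (hΦ : Φ.Monic) (J₀ : R) :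
    (specPoly Φ J₀).natDegree = Φ.natDegree :=
  hΦ.natDegree_map _

theorem specPoly_map {S : Type*} [CommRing S] (f : R →+* S) (Φ : Polynomial ℤ[X]) (J₀ : R) :
    (specPoly Φ J₀).map f = specPoly Φ (f J₀) := by
  rw [specPoly, specPoly, Polynomial.map_map]
  congr 1
  apply Polynomial.ringHom_ext
  · intro a
    simp
  · simp

/-- `Φ(θ, J₀)` in ring-agnostic `eval₂` form. -/
theorem aeval_specPoly {L : Type*} [CommRing L] [Algebra R L] (Φ : Polynomial ℤ[X]) (J₀ : R)
    (θ : L) :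
    aeval θ (specPoly Φ J₀) =
      Φ.eval₂ (Polynomial.aeval (R := ℤ) (algebraMap R L J₀)).toRingHom θ := by
  rw [Polynomial.aeval_def, ← Polynomial.eval_map, specPoly_map, specPoly, Polynomial.eval_map]

/-- If `φ J₀` is transcendental over `k`, the reduction of `specPoly Φ J₀` is the image of
`redModPoly k Φ` under `k(J) → κ`, `J ↦ φ J₀`. -/
theorem specPoly_map_eq_redModPoly_map {k κ : Type*} [Field k] [Field κ] [Algebra k κ]
    (φ : R →+* κ) (Φ : Polynomial ℤ[X]) (J₀ : R) (hJ : Transcendental k (φ J₀)) :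
    (specPoly Φ J₀).map φ = (redModPoly k Φ).map (S28.H50.ratFuncHom (φ J₀) hJ) := by
  rw [specPoly_map, S28.H50.map_redModPoly, specPoly]

theorem separable_specPoly_map {k κ : Type*} [Field k] [Field κ] [Algebra k κ]
    (φ : R →+* κ) (Φ : Polynomial ℤ[X]) (J₀ : R) (hJ : Transcendental k (φ J₀))
    (hsep : (redModPoly k Φ).Separable) : ((specPoly Φ J₀).map φ).Separable := by
  rw [specPoly_map_eq_redModPoly_map φ Φ J₀ hJ]
  exact hsep.map

variable {K L : Type*} [IsDomain R] [IsIntegrallyClosed R] [Field K] [Algebra R K]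
  [IsFractionRing R K] [Field L] [Algebra K L] [Algebra R L] [IsScalarTower R K L]
  [FiniteDimensional K L] [Algebra.IsSeparable K L]

/-- **(VERT-INST), abstract.** -/
theorem vertCond_of_modPoly {Φ : Polynomial ℤ[X]} (hΦ : Φ.Monic) (J₀ : R) (θ : L)
    (hgen : IntermediateField.adjoin K {θ} = ⊤) (hroot : aeval θ (specPoly Φ J₀) = 0)
    {k κ : Type*} [Field k] [Field κ] [Algebra k κ] (φ : R →+* κ) {π : R} (hπ : φ π = 0)
    (hJ : Transcendental k (φ J₀)) (hsep : (redModPoly k Φ).Separable) :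
    H41.VertCond R K L π :=
  vertCond_of_separable (K := K) θ hgen (specPoly_monic hΦ J₀) hroot φ
    (separable_specPoly_map φ Φ J₀ hJ hsep) hπ

end Abstract

/-! ### 2. Reduction of a localisation of the affine line -/

section Away

variable {A₁ k : Type*} [CommRing A₁] [Field k] (π : A₁ →+* k) (f : A₁[X])
  {R : Type*} [CommRing R] [Algebra A₁[X] R] [IsLocalization.Away f R]

/-- `A₁[X] → k[X] → k(X)`. -/
def lineRed : A₁[X] →+* RatFunc k :=
  (algebraMap k[X] (RatFunc k)).comp (Polynomial.mapRingHom π)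

theorem lineRed_apply (p : A₁[X]) : lineRed π p = algebraMap k[X] (RatFunc k) (p.map π) := rfl

theorem isUnit_lineRed (hf : f.map π ≠ 0) : IsUnit (lineRed π f) := by
  rw [lineRed_apply, isUnit_iff_ne_zero]
  exact (map_ne_zero_iff _ (IsFractionRing.injective k[X] (RatFunc k))).2 hf

variable (R)

/-- The reduction `A₁[X][1/f] → k(X)` along `π : A₁ →+* k` (for `f mod π ≠ 0`). -/
def awayRed (hf : f.map π ≠ 0) : R →+* RatFunc k :=
  IsLocalization.Away.lift f (g := lineRed π) (isUnit_lineRed π f hf)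

variable {R}

theorem awayRed_algebraMap_poly (hf : f.map π ≠ 0) (p : A₁[X]) :
    awayRed π f R hf (algebraMap A₁[X] R p) = algebraMap k[X] (RatFunc k) (p.map π) := by
  rw [awayRed, IsLocalization.Away.lift_eq, lineRed_apply]

theorem awayRed_X (hf : f.map π ≠ 0) :
    awayRed π f R hf (algebraMap A₁[X] R X) = RatFunc.X := by
  rw [awayRed_algebraMap_poly, Polynomial.map_X, RatFunc.algebraMap_X]

variable [Algebra A₁ R] [IsScalarTower A₁ A₁[X] R]

theorem awayRed_algebraMap (hf : f.map π ≠ 0) (a : A₁) :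
    awayRed π f R hf (algebraMap A₁ R a) = RatFunc.C (π a) := by
  rw [IsScalarTower.algebraMap_apply A₁ A₁[X] R, Polynomial.algebraMap_apply,
    Algebra.algebraMap_self_apply, awayRed_algebraMap_poly, Polynomial.map_C,
    RatFunc.algebraMap_C]

theorem awayRed_eq_zero (hf : f.map π ≠ 0) {ϖ : A₁} (hϖ : π ϖ = 0) :
    awayRed π f R hf (algebraMap A₁ R ϖ) = 0 := by
  rw [awayRed_algebraMap, hϖ, map_zero]

end Away

/-! ### 3. The Hesse and Legendre base lines -/

section Instances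

variable {A₁ k : Type*} [CommRing A₁] [Field k] (π : A₁ →+* k)
  {R : Type*} [CommRing R] [Algebra A₁[X] R] [Algebra A₁ R] [IsScalarTower A₁ A₁[X] R]

theorem hesse_map_ne_zero : ((X ^ 3 - 1 : A₁[X])).map π ≠ 0 := by
  rw [Polynomial.map_sub, Polynomial.map_pow, Polynomial.map_X, Polynomial.map_one]
  exact (monic_X_pow_sub_C (1 : k) (by norm_num)).ne_zero

theorem legendre_map_ne_zero : ((X * (X - 1) : A₁[X])).map π ≠ 0 := by
  rw [Polynomial.map_mul, Polynomial.map_sub, Polynomial.map_X, Polynomial.map_one]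
  exact mul_ne_zero X_ne_zero (monic_X_sub_C (1 : k)).ne_zero

/-- On the Hesse line the reduction of `J₀ = hesJ μ` is `hesJ X`, transcendental over `k`. -/
theorem transcendental_awayRed_hesse [IsLocalization.Away (X ^ 3 - 1 : A₁[X]) R]
    (h3 : (3 : k) ≠ 0) (J₀ : R)
    (hJ₀ : J₀ * H26.hesB (algebraMap A₁[X] R X) = 27 * H26.hesA (algebraMap A₁[X] R X)) :
    Transcendental k (awayRed π (X ^ 3 - 1 : A₁[X]) R (hesse_map_ne_zero π) J₀) := by
  set φ := awayRed π (X ^ 3 - 1 : A₁[X]) R (hesse_map_ne_zero π) with hφ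
  have hX : φ (algebraMap A₁[X] R X) = RatFunc.X := awayRed_X π _ _
  have h1 : φ J₀ * H26.hesB (RatFunc.X : RatFunc k) = 27 * H26.hesA (RatFunc.X : RatFunc k) := by
    have := congrArg φ hJ₀
    rwa [map_mul, map_mul, ← H26.hesB_map, ← H26.hesA_map, hX, map_ofNat] at this
  have hT : Transcendental k (RatFunc.X : RatFunc k) := RatFunc.transcendental_X
  have hB : H26.hesB (RatFunc.X : RatFunc k) ≠ 0 := by
    rw [H26.hesB_ne_zero_iff]
    intro h
    apply hT
    refine ⟨X ^ 3 - 1, (monic_X_pow_sub_C (1 : k) (by norm_num)).ne_zero, by simp [h]⟩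
  have h2 : φ J₀ = H26.hesJ (RatFunc.X : RatFunc k) := by
    rw [H26.hesJ, eq_div_iff hB, h1]
  rw [h2]
  exact H26.transcendental_hesJ hT h3

/-- On the Legendre line the reduction of `J₀ = legJ λ` is `legJ X`, transcendental over `k`. -/
theorem transcendental_awayRed_legendre [IsLocalization.Away (X * (X - 1) : A₁[X]) R]
    (h2 : (2 : k) ≠ 0) (J₀ : R)
    (hJ₀ : J₀ * H26.legB (algebraMap A₁[X] R X) = 256 * H26.legA (algebraMap A₁[X] R X) ^ 3) :
    Transcendental k (awayRed π (X * (X - 1) : A₁[X]) R (legendre_map_ne_zero π) J₀) := by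
  set φ := awayRed π (X * (X - 1) : A₁[X]) R (legendre_map_ne_zero π) with hφ
  have hX : φ (algebraMap A₁[X] R X) = RatFunc.X := awayRed_X π _ _
  have hA : ∀ m : R, φ (H26.legA m) = H26.legA (φ m) := fun m => by simp [H26.legA]
  have hBm : ∀ m : R, φ (H26.legB m) = H26.legB (φ m) := fun m => by simp [H26.legB]
  have h1 : φ J₀ * H26.legB (RatFunc.X : RatFunc k) =
      256 * H26.legA (RatFunc.X : RatFunc k) ^ 3 := by
    have := congrArg φ hJ₀
    rwa [map_mul, map_mul, map_pow, hA, hBm, hX, map_ofNat] at this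
  have hT : Transcendental k (RatFunc.X : RatFunc k) := RatFunc.transcendental_X
  have hB : H26.legB (RatFunc.X : RatFunc k) ≠ 0 := by
    apply H26.legB_ne_zero
    · intro h
      exact hT ⟨X, X_ne_zero, by simp [h]⟩
    · intro h
      exact hT ⟨X - 1, (monic_X_sub_C (1 : k)).ne_zero, by simp [h]⟩
  have h3 : φ J₀ = H26.legJ (RatFunc.X : RatFunc k) := by
    rw [H26.legJ, eq_div_iff hB, h1]
  rw [h3]
  exact H26.transcendental_legJ hT h2

variable [IsDomain R] [IsIntegrallyClosed R] {K L : Type*} [Field K] [Algebra R K]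
  [IsFractionRing R K] [Field L] [Algebra K L] [Algebra R L] [IsScalarTower R K L]
  [FiniteDimensional K L] [Algebra.IsSeparable K L]

/-- **(VERT-INST), Hesse line** `R = A₁[μ, 1/(μ³-1)]`: `J₀ ∈ R` is `hesJ μ`, `θ` generates `L/K`
and `Φ(θ, J₀) = 0` with `Φ mod ℓ` separable over `k(J)`. -/
theorem vertCond_hesse [IsLocalization.Away (X ^ 3 - 1 : A₁[X]) R] (h3 : (3 : k) ≠ 0)
    {ϖ : A₁} (hϖ : π ϖ = 0) (J₀ : R)
    (hJ₀ : J₀ * H26.hesB (algebraMap A₁[X] R X) = 27 * H26.hesA (algebraMap A₁[X] R X))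
    {Φ : Polynomial ℤ[X]} (hΦ : Φ.Monic) (hsep : (redModPoly k Φ).Separable)
    (θ : L) (hgen : IntermediateField.adjoin K {θ} = ⊤) (hroot : aeval θ (specPoly Φ J₀) = 0) :
    H41.VertCond R K L (algebraMap A₁ R ϖ) :=
  vertCond_of_modPoly (K := K) hΦ J₀ θ hgen hroot (k := k)
    (awayRed π (X ^ 3 - 1 : A₁[X]) R (hesse_map_ne_zero π))
    (awayRed_eq_zero π _ _ hϖ) (transcendental_awayRed_hesse π h3 J₀ hJ₀) hsep

/-- **(VERT-INST), Legendre line** `R = A₁[λ, 1/(λ(λ-1))]`. -/
theorem vertCond_legendre [IsLocalization.Away (X * (X - 1) : A₁[X]) R] (h2 : (2 : k) ≠ 0)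
    {ϖ : A₁} (hϖ : π ϖ = 0) (J₀ : R)
    (hJ₀ : J₀ * H26.legB (algebraMap A₁[X] R X) = 256 * H26.legA (algebraMap A₁[X] R X) ^ 3)
    {Φ : Polynomial ℤ[X]} (hΦ : Φ.Monic) (hsep : (redModPoly k Φ).Separable)
    (θ : L) (hgen : IntermediateField.adjoin K {θ} = ⊤) (hroot : aeval θ (specPoly Φ J₀) = 0) :
    H41.VertCond R K L (algebraMap A₁ R ϖ) :=
  vertCond_of_modPoly (K := K) hΦ J₀ θ hgen hroot (k := k)
    (awayRed π (X * (X - 1) : A₁[X]) R (legendre_map_ne_zero π))
    (awayRed_eq_zero π _ _ hϖ) (transcendental_awayRed_legendre π h2 J₀ hJ₀) hsep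

end Instances

end Fermat.Agent.S18.H1
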