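/-
helper1 — S18 route Q, (VERT-INST) final one-call forms: `H41.VertCond` on the Hesse / Legendre base
line `R = A₁[μ, 1/D(μ)]`, with the modular polynomial, its root and its separability supplied by
helper16's `H16_VertSep` (`modPolyAt`, `aeval_modPolyAt_of_hom`, `separable_redModPoly_gen`).
-/
import Fermat.Agent.S18.H1_VertInst
import Fermat.Agent.S18.H16_VertSep

set_option autoImplicit false
set_option linter.unusedSectionVars false

noncomputable section

namespace Fermat.Agent.S18.H1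

open Polynomial ModularCurve Fermat.Agent.S28

/-- helper16's `modPolyAt D r` is `specPoly D.Φ r`. -/
theorem specPoly_eq_modPolyAt {R : Type*} [CommRing R] {N : ℕ} [NeZero N]
    (D : ModularPolynomialData N) (r : R) : specPoly D.Φ r = H16.modPolyAt D r := rfl

variable {A₁ : Type*} [CommRing A₁] {k : Type} [Field k] (π : A₁ →+* k)
  {R : Type*} [CommRing R] [Algebra A₁[X] R] [Algebra A₁ R] [IsScalarTower A₁ A₁[X] R]
  [IsDomain R] [IsIntegrallyClosed R] {K L : Type*} [Field K] [Algebra R K]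
  [IsFractionRing R K] [Field L] [Algebra K L] [Algebra R L] [IsScalarTower R K L]
  [FiniteDimensional K L] [Algebra.IsSeparable K L]
  {N : ℕ} [NeZero N]

/-- **(VERT-INST), Hesse line, one call**: `K₁` any field, `f : F₁ = K₁(j, j_N) → L` a ring hom with
`f j = J₀ = hesJ μ` and `K(f j_N) = L`. -/
theorem vertCond_hesse_modular [IsLocalization.Away (X ^ 3 - 1 : A₁[X]) R] (h3 : (3 : k) ≠ 0)
    (hNk : ((N : ℕ) : k) ≠ 0) {ϖ : A₁} (hϖ : π ϖ = 0) (J₀ : R)
    (hJ₀ : J₀ * H26.hesB (algebraMap A₁[X] R X) = 27 * H26.hesA (algebraMap A₁[X] R X))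
    (D : ModularPolynomialData N)
    (hD : ∀ (k : Type) [Field k] (ζ : kˣ), IsPrimitiveRoot ζ N → RootsAt k N ζ D.Φ)
    (K₁ : Type*) [Field K₁] (f : modularFunctionFieldFullC K₁ N →+* L)
    (hr : algebraMap R L J₀ = f (H16.jK K₁ N))
    (hgen : IntermediateField.adjoin K {f (H16.jNK K₁ N)} = ⊤) :
    H41.VertCond R K L (algebraMap A₁ R ϖ) :=
  vertCond_hesse (K := K) π h3 hϖ J₀ hJ₀ D.monic (H16.separable_redModPoly_gen hNk D hD)
    (f (H16.jNK K₁ N)) hgen (H16.aeval_modPolyAt_of_hom N D K₁ f J₀ hr)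

/-- **(VERT-INST), Legendre line, one call.** -/
theorem vertCond_legendre_modular [IsLocalization.Away (X * (X - 1) : A₁[X]) R] (h2 : (2 : k) ≠ 0)
    (hNk : ((N : ℕ) : k) ≠ 0) {ϖ : A₁} (hϖ : π ϖ = 0) (J₀ : R)
    (hJ₀ : J₀ * H26.legB (algebraMap A₁[X] R X) = 256 * H26.legA (algebraMap A₁[X] R X) ^ 3)
    (D : ModularPolynomialData N)
    (hD : ∀ (k : Type) [Field k] (ζ : kˣ), IsPrimitiveRoot ζ N → RootsAt k N ζ D.Φ)
    (K₁ : Type*) [Field K₁] (f : modularFunctionFieldFullC K₁ N →+* L)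
    (hr : algebraMap R L J₀ = f (H16.jK K₁ N))
    (hgen : IntermediateField.adjoin K {f (H16.jNK K₁ N)} = ⊤) :
    H41.VertCond R K L (algebraMap A₁ R ϖ) :=
  vertCond_legendre (K := K) π h2 hϖ J₀ hJ₀ D.monic (H16.separable_redModPoly_gen hNk D hD)
    (f (H16.jNK K₁ N)) hgen (H16.aeval_modPolyAt_of_hom N D K₁ f J₀ hr)

end Fermat.Agent.S18.H1
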