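/-
S18 project, route Q (helper26, twin of helper96's `H96_InstHesse`): **the Legendre chart instance**
(`2` invertible, i.e. `ℓ` odd), generic in the DVR `A₁` and its fraction field `L1`
(instantiate with `A₁ = H45.A0 A ℓ`, `L1 = H45.unrCyclo ℓ` at the very end).

`F1 = modularFunctionFieldFullC L1 N`, `j1 = H16.jK L1 N`, `θ = H16.jNK L1 N`,
`F' = H70.LegField j1`, `μ = H70.legMu j1`, line `f = X (X - 1)`.
One application of `H96.isIntegrallyClosed_specialFibre_of_auxLine'`.
Remaining named inputs: (HOR) `hunr` and (INST-2) `hprime`.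
-/
import Fermat.Agent.S18.H96_AuxChartDed
import Fermat.Agent.S18.H26_BaseLineHes
import Fermat.Agent.S18.H16_VertSep

set_option autoImplicit false
set_option linter.unusedSectionVars false
set_option linter.style.haveILetI false

namespace Fermat.Agent.S18.H26

open Polynomial IntermediateField AlgebraicCurve ModularCurve Fermat.Agent.S18

noncomputable section

variable {A₁ L1 : Type} [CommRing A₁] [IsDomain A₁] [IsDiscreteValuationRing A₁]
  [Field L1] [Algebra A₁ L1] [IsFractionRing A₁ L1] [CharZero L1] (N : ℕ) [NeZero N]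
  [Algebra A₁ ↥(modularFunctionFieldFullC L1 N)]
  [IsScalarTower A₁ L1 ↥(modularFunctionFieldFullC L1 N)]

set_option maxHeartbeats 1600000 in
set_option synthInstance.maxHeartbeats 400000 in
/-- **Legendre chart** (`2` invertible): the special fibre of the integral closure of `A₁[j1]` in `F1`
is integrally closed. -/
theorem isIntegrallyClosed_specialFibre_legendre {ϖ : A₁} (hϖ : Irreducible ϖ)
    {k : Type} [Field k] [IsAlgClosed k] (res : A₁ →+* k) (hres : Function.Surjective res)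
    (hker : RingHom.ker res = Ideal.span {ϖ})
    (h2 : IsUnit (2 : A₁)) (hNk : ((N : ℕ) : k) ≠ 0)
    (hunr : ∀ (v : Place L1 (H70.LegField (H16.jK L1 N)))
      (g₀ : L1[X]), Irreducible g₀ → ¬ g₀ ∣ (X * (X - 1) : L1[X]) →
      0 < v.ord (aeval (H70.legMu (H16.jK L1 N)) g₀) →
      v.ord (aeval (H70.legMu (H16.jK L1 N)) g₀) = 1)
    (hprime : (Ideal.span {algebraMap ↥(Algebra.adjoin A₁ {H16.jK L1 N})
      (integralClosure ↥(Algebra.adjoin A₁ {H16.jK L1 N}) (modularFunctionFieldFullC L1 N))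
      (algebraMap A₁ ↥(Algebra.adjoin A₁ {H16.jK L1 N}) ϖ)}).IsPrime) :
    IsIntegrallyClosed
      (integralClosure ↥(Algebra.adjoin A₁ {H16.jK L1 N}) (modularFunctionFieldFullC L1 N) ⧸
        Ideal.span {algebraMap ↥(Algebra.adjoin A₁ {H16.jK L1 N})
          (integralClosure ↥(Algebra.adjoin A₁ {H16.jK L1 N}) (modularFunctionFieldFullC L1 N))
          (algebraMap A₁ ↥(Algebra.adjoin A₁ {H16.jK L1 N}) ϖ)}) := by
  classical
  have hNL : ((N : ℕ) : L1) ≠ 0 := Nat.cast_ne_zero.mpr (NeZero.ne N)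
  haveI hfin1 : FiniteDimensional L1⟮H16.jK L1 N⟯ (modularFunctionFieldFullC L1 N) :=
    H16.finiteDimensional_fullC_gen N L1 hNL
  have hj1 : Transcendental L1 (H16.jK L1 N) := H16.transcendental_jK L1 N
  have hgen : L1⟮H16.jK L1 N⟯⟮H16.jNK L1 N⟯ = ⊤ := H16.adjoin_jNK_eq_top_gen N L1 hNL
  have hθalg : IsAlgebraic L1⟮H16.jK L1 N⟯ (H16.jNK L1 N) := Algebra.IsAlgebraic.isAlgebraic _
  haveI hczF1 : CharZero ↥(modularFunctionFieldFullC L1 N) :=
    charZero_of_injective_algebraMap (algebraMap L1 _).injective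
  -- the Legendre field
  haveI hgal : IsGalois ↥(modularFunctionFieldFullC L1 N) (H70.LegField (H16.jK L1 N)) :=
    H70.isGalois_legField (H16.jK L1 N)
  have hμ : Transcendental L1 (H70.legMu (H16.jK L1 N)) := H70.transcendental_legMu (L := L1) hj1
  have hμtop : (↥(modularFunctionFieldFullC L1 N))⟮H70.legMu (H16.jK L1 N)⟯ = ⊤ :=
    H70.adjoin_legMu (H16.jK L1 N)
  haveI hfinμ : FiniteDimensional L1⟮H70.legMu (H16.jK L1 N)⟯ (H70.LegField (H16.jK L1 N)) :=
    H70.finiteDimensional_legField_over (L := L1) (KY := L1⟮H70.legMu (H16.jK L1 N)⟯) hgen hθalg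
      (AdjoinSimple.gen L1 (H70.legMu (H16.jK L1 N)))
      (AdjoinSimple.algebraMap_gen L1 (H70.legMu (H16.jK L1 N)))
  -- the Legendre line
  have hfμ : IsUnit (aeval (H70.legMu (H16.jK L1 N)) (H26.legLineF A₁)) := by
    rw [H26.aeval_legLineF]
    refine IsUnit.mk0 _ fun h0 => H70.legB_legMu_ne_zero (H16.jK L1 N) ?_
    unfold H26.legB
    have hsq : H70.legMu (H16.jK L1 N) ^ 2 * (H70.legMu (H16.jK L1 N) - 1) ^ 2 =
        (H70.legMu (H16.jK L1 N) * (H70.legMu (H16.jK L1 N) - 1)) ^ 2 := by ring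
    rw [hsq, h0]; ring
  have hJ : H26.legJ (H70.legMu (H16.jK L1 N)) =
      algebraMap ↥(modularFunctionFieldFullC L1 N) (H70.LegField (H16.jK L1 N)) (H16.jK L1 N) :=
    H70.legJ_legMu (H16.jK L1 N)
  have hjY : H26.LineRing.liftAlg (H26.legLineF A₁) (H70.legMu (H16.jK L1 N)) hfμ
      (H26.LegLine.jY A₁) =
      algebraMap ↥(modularFunctionFieldFullC L1 N) (H70.LegField (H16.jK L1 N)) (H16.jK L1 N) := by
    rw [H26.LegLine.liftAlg_jY, hJ]
  have hint : ∀ r : H26.LegLine A₁, IsIntegral (Algebra.adjoin A₁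
      {algebraMap ↥(modularFunctionFieldFullC L1 N) (H70.LegField (H16.jK L1 N)) (H16.jK L1 N)})
      (H26.LineRing.liftAlg (H26.legLineF A₁) (H70.legMu (H16.jK L1 N)) hfμ r) := by
    intro r
    rw [← hJ]
    exact H26.LegLine.isIntegral_liftAlg_adjoin_legJ h2 _ hfμ r
  have hintμ := hint (H26.LineRing.coord (H26.legLineF A₁))
  rw [H26.LineRing.liftAlg_coord] at hintμ
  -- (VERT)
  obtain ⟨D, hD, -⟩ := H16.exists_modPoly_gen N
  have h2k : (2 : k) ≠ 0 := by
    have := h2.map res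
    rw [map_ofNat] at this
    exact this.ne_zero
  have hsep : ((H16.modPolyAt D (H26.LegLine.jY A₁)).map
      (H26.LineRing.toRatFunc (H26.legLineF A₁) res (H26.LegLine.map_ne_zero res))).Separable := by
    refine H16.separable_map_modPolyAt (K := k) hNk D hD _ _ ?_
    rw [H26.LegLine.toRatFunc_jY]
    exact H26.transcendental_legJ RatFunc.transcendental_X h2k
  have hroot : (H16.modPolyAt D (H26.LegLine.jY A₁)).eval₂
      (H26.LineRing.liftAlg (H26.legLineF A₁) (H70.legMu (H16.jK L1 N)) hfμ).toRingHom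
      (algebraMap ↥(modularFunctionFieldFullC L1 N) (H70.LegField (H16.jK L1 N))
        (H16.jNK L1 N)) = 0 := by
    rw [← Polynomial.eval_map, H16.modPolyAt_map]
    have : (H26.LineRing.liftAlg (H26.legLineF A₁) (H70.legMu (H16.jK L1 N)) hfμ).toRingHom
        (H26.LegLine.jY A₁) = algebraMap ↥(modularFunctionFieldFullC L1 N)
          (H70.LegField (H16.jK L1 N)) (H16.jK L1 N) := hjY
    rw [this]
    exact H16.eval_modPolyAt_of_hom N D L1
      (algebraMap ↥(modularFunctionFieldFullC L1 N) (H70.LegField (H16.jK L1 N)))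
  -- assembly
  refine H96.isIntegrallyClosed_specialFibre_of_auxLine' (L1 := L1) hϖ res hres hker
    (H16.jK L1 N) (H16.jNK L1 N) hj1 hgen (H70.legMu (H16.jK L1 N)) hμ hμtop
    (H26.legLineF A₁) (H26.LegLine.map_ne_zero res) hfμ (H26.LegLine.jY A₁) hjY hintμ
    (hint (H26.LineRing.inv (H26.legLineF A₁)))
    (H16.modPolyAt D (H26.LegLine.jY A₁)) (H16.modPolyAt_monic D _) hroot hsep ?_ hprime
  intro v g₀ hirr hnd
  rw [H26.legLineF_map] at hnd
  exact hunr v g₀ hirr hnd

end

end Fermat.Agent.S18.H26
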