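import Mathlib

/-!
# S18 / route Q: changing the model of the base field of a function field (plumbing)

INST-1 states finiteness / generation over the intermediate field `L⟮x⟯` (`x = j₁` or `μ`), while the
abstract assembly `H96.isIntegrallyClosed_specialFibre` wants them over `K := FractionRing R`
for a ring model `R` of the line (`A₁[X]`, `Localization.Away D`, a local ring of `A₁[X]`).
Both fields have the same image in the big field `E`; everything transfers along
`(algebraMap K₁ E).range ≤ (algebraMap K₂ E).range`.
-/

set_option autoImplicit false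
set_option linter.unusedSectionVars false

open IntermediateField

namespace Fermat.Agent.S18.H70

section Transfer

variable {K₁ K₂ E : Type*} [Field K₁] [Field K₂] [Field E] [Algebra K₁ E] [Algebra K₂ E]

/-- Enlarging the field of scalars (inside `E`) preserves finite-dimensionality. -/
theorem finiteDimensional_of_range_le
    (h : (algebraMap K₁ E).range ≤ (algebraMap K₂ E).range) [FiniteDimensional K₁ E] :
    FiniteDimensional K₂ E := by
  obtain ⟨s, hs⟩ := (Module.finite_def.mp (inferInstance : Module.Finite K₁ E))
  refine Module.finite_def.mpr ⟨s, ?_⟩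
  rw [eq_top_iff]
  intro y _
  have hy : y ∈ Submodule.span K₁ (s : Set E) := by rw [hs]; trivial
  refine Submodule.span_induction (p := fun y _ => y ∈ Submodule.span K₂ (s : Set E))
    (fun x hx => Submodule.subset_span hx) (Submodule.zero_mem _)
    (fun a b _ _ ha hb => Submodule.add_mem _ ha hb) (fun c x _ hx => ?_) hy
  obtain ⟨c', hc'⟩ := h ⟨c, rfl⟩
  have : c • x = c' • x := by rw [Algebra.smul_def, Algebra.smul_def, hc']
  rw [this]
  exact Submodule.smul_mem _ _ hx

/-- Enlarging the field of scalars (inside `E`) preserves generation. -/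
theorem adjoin_eq_top_of_range_le
    (h : (algebraMap K₁ E).range ≤ (algebraMap K₂ E).range) {S : Set E}
    (hS : IntermediateField.adjoin K₁ S = ⊤) : IntermediateField.adjoin K₂ S = ⊤ := by
  set T : IntermediateField K₂ E := IntermediateField.adjoin K₂ S
  let T' : IntermediateField K₁ E := Subfield.toIntermediateField T.toSubfield (fun c => by
    obtain ⟨c', hc'⟩ := h ⟨c, rfl⟩
    rw [← hc']
    exact T.algebraMap_mem c')
  have hT' : (⊤ : IntermediateField K₁ E) ≤ T' := by
    rw [← hS, IntermediateField.adjoin_le_iff]
    intro x hx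
    exact IntermediateField.subset_adjoin K₂ S hx
  rw [eq_top_iff]
  intro y _
  exact hT' (IntermediateField.mem_top (x := y))

/-- Same image in `E` ⟹ same degree. -/
theorem finrank_eq_of_range_eq
    (h : (algebraMap K₁ E).range = (algebraMap K₂ E).range) :
    Module.finrank K₁ E = Module.finrank K₂ E := by
  -- the ring isomorphism `K₁ ≃ K₂` compatible with the maps to `E`
  have h12 : ∀ c : K₁, ∃ c' : K₂, algebraMap K₂ E c' = algebraMap K₁ E c := fun c => by
    have : algebraMap K₁ E c ∈ (algebraMap K₂ E).range := by
      rw [← h]; exact ⟨c, rfl⟩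
    exact this
  have h21 : ∀ c : K₂, ∃ c' : K₁, algebraMap K₁ E c' = algebraMap K₂ E c := fun c => by
    have : algebraMap K₂ E c ∈ (algebraMap K₁ E).range := by
      rw [h]; exact ⟨c, rfl⟩
    exact this
  choose f hf using h12
  choose g hg using h21
  have hfg : ∀ c, f (g c) = c := fun c =>
    (algebraMap K₂ E).injective (by rw [hf, hg])
  have hgf : ∀ c, g (f c) = c := fun c =>
    (algebraMap K₁ E).injective (by rw [hg, hf])
  let e : K₁ ≃+* K₂ :=
    { toFun := f
      invFun := g
      left_inv := hgf
      right_inv := hfg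
      map_mul' := fun a b => (algebraMap K₂ E).injective (by simp only [map_mul, hf])
      map_add' := fun a b => (algebraMap K₂ E).injective (by simp only [map_add, hf]) }
  refine Algebra.finrank_eq_of_equiv_equiv e (RingEquiv.refl E) ?_
  ext c
  exact hf c

end Transfer

/-! ## The line model -/

section Line

variable {A₁ L R K E : Type*} [CommRing A₁] [Field L] [CommRing R] [Field K] [Field E]
  [Algebra A₁ L] [IsFractionRing A₁ L] [Algebra L E] [Algebra A₁ E] [IsScalarTower A₁ L E]
  [Algebra A₁ R] [Algebra R E] [IsScalarTower A₁ R E]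
  [Algebra R K] [Algebra K E] [IsScalarTower R K E]

variable (A₁ R) in
include A₁ R in
/-- If the ring `R ⊇ A₁` maps to `E` with `x` in its image, then the image of `K ⊇ R` in `E`
contains `L(x)`, `L = Frac A₁`. -/
theorem range_adjoin_simple_le_range {x : E} (hx : x ∈ (algebraMap R E).range) :
    (algebraMap L⟮x⟯ E).range ≤ (algebraMap K E).range := by
  have hR : ∀ r : R, algebraMap R E r ∈ (algebraMap K E).range := fun r =>
    ⟨algebraMap R K r, (IsScalarTower.algebraMap_apply R K E r).symm⟩
  have hA : ∀ a : A₁, algebraMap A₁ E a ∈ (algebraMap K E).range := fun a => by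
    rw [IsScalarTower.algebraMap_apply A₁ R E]
    exact hR _
  have hL : ∀ c : L, algebraMap L E c ∈ (algebraMap K E).fieldRange := by
    intro c
    obtain ⟨a, b, hb, rfl⟩ := IsFractionRing.div_surjective (A := A₁) c
    rw [map_div₀, ← IsScalarTower.algebraMap_apply, ← IsScalarTower.algebraMap_apply]
    exact div_mem (hA a) (hA b)
  let T : IntermediateField L E := Subfield.toIntermediateField (algebraMap K E).fieldRange hL
  have hT : L⟮x⟯ ≤ T := by
    rw [IntermediateField.adjoin_simple_le_iff]
    obtain ⟨r, rfl⟩ := hx
    exact hR r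
  rintro _ ⟨c, rfl⟩
  exact hT c.2

variable (A₁ R) in
include A₁ R in
/-- Finite over `L(x)` ⟹ finite over `K`. -/
theorem finiteDimensional_of_adjoin_simple {x : E} (hx : x ∈ (algebraMap R E).range)
    [FiniteDimensional L⟮x⟯ E] : FiniteDimensional K E :=
  finiteDimensional_of_range_le (K₁ := L⟮x⟯)
    (range_adjoin_simple_le_range A₁ R hx)

variable (A₁ R) in
include A₁ R in
/-- Generated over `L(x)` ⟹ generated over `K`. -/
theorem adjoin_eq_top_of_adjoin_simple {x : E} (hx : x ∈ (algebraMap R E).range) {S : Set E}
    (hS : IntermediateField.adjoin L⟮x⟯ S = ⊤) : IntermediateField.adjoin K S = ⊤ :=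
  adjoin_eq_top_of_range_le (K₁ := L⟮x⟯)
    (range_adjoin_simple_le_range A₁ R hx) hS

variable (R) in
include R in
/-- Conversely, if `K = Frac R` and `R` maps into `L(x)`, the image of `K` is inside `L(x)`. -/
theorem range_le_range_adjoin_simple [IsFractionRing R K] {x : E}
    (hR : ∀ r : R, algebraMap R E r ∈ L⟮x⟯) :
    (algebraMap K E).range ≤ (algebraMap L⟮x⟯ E).range := by
  rintro _ ⟨c, rfl⟩
  obtain ⟨a, b, -, rfl⟩ := IsFractionRing.div_surjective (A := R) c
  rw [map_div₀, ← IsScalarTower.algebraMap_apply, ← IsScalarTower.algebraMap_apply]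
  exact ⟨⟨_, div_mem (hR a) (hR b)⟩, rfl⟩

variable (A₁ R) in
include A₁ R in
/-- The degree over `K = Frac R` equals the degree over `L(x)`. -/
theorem finrank_eq_of_line_model [IsFractionRing R K] {x : E}
    (hx : x ∈ (algebraMap R E).range) (hR : ∀ r : R, algebraMap R E r ∈ L⟮x⟯) :
    Module.finrank K E = Module.finrank L⟮x⟯ E :=
  (finrank_eq_of_range_eq (le_antisymm (range_adjoin_simple_le_range A₁ R hx)
    (range_le_range_adjoin_simple R hR))).symm

end Line

end Fermat.Agent.S18.H70
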