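import Mathlib
import Fermat.Agent.S18.H26_ChartBase
import Fermat.Agent.S18.H79_BaseLineRing
import Fermat.Agent.S18.H70_AuxCompositum
import Fermat.Agent.S18.H70_LineModel

/-!
# S18 / (GR) route Q: the line-side inputs of `H34.isIntegrallyClosed_specialFibre_away`

For the chart wrapper of helper34 (`R' := Localization.Away f`, `Algebra R' F' := H79.Away.toField f μ`)
with `R0 := ↥(Algebra.adjoin A₁ {j1})`:

* `toField_eq_liftAlg` : `H79.Away.toField f μ hμf = LineRing.liftAlg f μ _` (bridge);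
* `phi0`, `phi0_isIntegral`, `phi0_compat` : `φ0`, `hφ0`, `hcompat`;
* Legendre (`f = X (X - 1)`, `ℓ` odd) and Hesse (`f = X ^ 3 - 1`, `ℓ = 2`) instances of
  `hμf`, `φ0`, `hφ0`, `hcompat`, `J₀`, `hJ₀`, `φ`, `hφϖ`, `hJtr`;
* `isUnit_of_map_ne_zero`, `isUnit_natCast_of_map_ne_zero` : units of a local ring via the residue map.
-/

set_option autoImplicit false
set_option linter.unusedSectionVars false
set_option linter.style.haveILetI false

open Polynomial IntermediateField

namespace Fermat.Agent.S18.H26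

namespace LineInputs

/-! ### (a) the bridge `H79.Away.toField = LineRing.liftAlg` -/

section Bridge

variable {A₁ : Type*} [CommRing A₁] (f : A₁[X]) {F' : Type*} [Field F'] [Algebra A₁ F']
  (μ : F') (hμf : aeval μ f ≠ 0)

theorem toField_eq_liftAlg_toRingHom :
    H79.Away.toField (R := Localization.Away f) f μ hμf =
      (LineRing.liftAlg f μ (IsUnit.mk0 _ hμf)).toRingHom := by
  apply LineRing.ringHom_ext
  · intro a
    rw [H79.Away.toField_algebraMap]
    exact ((LineRing.liftAlg f μ (IsUnit.mk0 _ hμf)).commutes a).symm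
  · show H79.Away.toField f μ hμf (algebraMap A₁[X] (Localization.Away f) X) = _
    rw [H79.Away.toField_X]
    exact (LineRing.liftAlg_coord f μ _).symm

theorem toField_eq_liftAlg (r : Localization.Away f) :
    H79.Away.toField f μ hμf r = LineRing.liftAlg f μ (IsUnit.mk0 _ hμf) r :=
  congrArg (fun ψ : Localization.Away f →+* F' => ψ r) (toField_eq_liftAlg_toRingHom f μ hμf)

end Bridge

/-! ### (e) units of a local ring -/

section Units

variable {A₁ k : Type*} [CommRing A₁] [IsLocalRing A₁] [Field k] (π : A₁ →+* k)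

theorem isUnit_of_map_ne_zero (hπ : Function.Surjective π) {a : A₁} (ha : π a ≠ 0) : IsUnit a := by
  by_contra hu
  apply ha
  have hmax : (RingHom.ker π).IsMaximal := RingHom.ker_isMaximal_of_surjective π hπ
  have h1 : RingHom.ker π = IsLocalRing.maximalIdeal A₁ := IsLocalRing.eq_maximalIdeal hmax
  have h2 : a ∈ IsLocalRing.maximalIdeal A₁ := (IsLocalRing.mem_maximalIdeal a).mpr hu
  rw [← h1] at h2
  exact h2

theorem isUnit_natCast_of_map_ne_zero (hπ : Function.Surjective π) (n : ℕ) (hn : (n : k) ≠ 0) :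
    IsUnit (n : A₁) :=
  isUnit_of_map_ne_zero π hπ (by rwa [map_natCast])

theorem isUnit_two_of_map_ne_zero (hπ : Function.Surjective π) (h2 : (2 : k) ≠ 0) :
    IsUnit (2 : A₁) :=
  isUnit_of_map_ne_zero π hπ (by rwa [map_ofNat])

theorem isUnit_three_of_map_ne_zero (hπ : Function.Surjective π) (h3 : (3 : k) ≠ 0) :
    IsUnit (3 : A₁) :=
  isUnit_of_map_ne_zero π hπ (by rwa [map_ofNat])

end Units

/-! ### (b) `φ0 : R0 → R'`, integral and compatible -/

section Phi0

variable {A₁ F1 F' : Type*} [CommRing A₁] [Field F1] [Algebra A₁ F1]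
  [Field F'] [Algebra F1 F'] [Algebra A₁ F'] [IsScalarTower A₁ F1 F']
  (f : A₁[X]) (j1 : F1) (htr : Transcendental A₁ j1) (jY : Localization.Away f)

/-- `φ0 : R0 = A₁[j1] → R' = A₁[X][1/f]`, `j1 ↦ jY`. -/
noncomputable abbrev phi0 : ↥(Algebra.adjoin A₁ {j1}) →ₐ[A₁] Localization.Away f :=
  ChartBase.toLine j1 htr jY

theorem phi0_isIntegral (hint : ∀ r : Localization.Away f, IsIntegral (Algebra.adjoin A₁ {jY}) r) :
    (phi0 f j1 htr jY).toRingHom.IsIntegral := by
  letI := ChartBase.algebraToLine j1 htr jY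
  have h : Algebra.IsIntegral ↥(Algebra.adjoin A₁ {j1}) (Localization.Away f) :=
    ChartBase.isIntegral_toLine j1 htr jY hint
  intro r
  exact h.isIntegral r

theorem phi0_compat (μ : F') (hμf : aeval μ f ≠ 0)
    (hjY : H79.Away.toField f μ hμf jY = algebraMap F1 F' j1) (r : ↥(Algebra.adjoin A₁ {j1})) :
    H79.Away.toField f μ hμf (phi0 f j1 htr jY r) =
      algebraMap F1 F' (algebraMap ↥(Algebra.adjoin A₁ {j1}) F1 r) := by
  letI := LineRing.algebraOfCoord f μ (IsUnit.mk0 _ hμf)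
  haveI := LineRing.isScalarTower_algebraOfCoord f μ (IsUnit.mk0 _ hμf)
  have hj : algebraMap (Localization.Away f) F' jY = algebraMap F1 F' j1 := by
    rw [LineRing.algebraMap_algebraOfCoord, ← toField_eq_liftAlg f μ hμf, hjY]
  have h := ChartBase.algebraMap_toLine_eq (F' := F') j1 htr jY hj r
  rw [LineRing.algebraMap_algebraOfCoord, ← toField_eq_liftAlg f μ hμf] at h
  exact h

end Phi0

/-! ### generic: finiteness of `F'` over `L1(μ)` when `j1 ∈ L1(μ)` -/

section Fin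

variable {L1 F1 F' : Type*} [Field L1] [Field F1] [Algebra L1 F1] [Field F'] [Algebra F1 F']
  [Algebra L1 F'] [IsScalarTower L1 F1 F']

theorem finiteDimensional_adjoin_simple (j1 : F1) (μ : F') (hmem : algebraMap F1 F' j1 ∈ L1⟮μ⟯)
    [FiniteDimensional L1⟮j1⟯ F1] [FiniteDimensional F1 F'] : FiniteDimensional L1⟮μ⟯ F' := by
  haveI : FiniteDimensional L1⟮j1⟯ F' := Module.Finite.trans F1 F'
  have hrange : (algebraMap L1⟮j1⟯ F').range ≤ (algebraMap L1⟮μ⟯ F').range := by
    rintro _ ⟨c, rfl⟩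
    have hle : L1⟮j1⟯ ≤ (L1⟮μ⟯).comap (IsScalarTower.toAlgHom L1 F1 F') := by
      rw [IntermediateField.adjoin_simple_le_iff]
      exact hmem
    exact ⟨⟨_, hle c.2⟩, rfl⟩
  exact H70.finiteDimensional_of_range_le (K₁ := L1⟮j1⟯) hrange

end Fin

/-! ### the Legendre chart (`ℓ` odd) -/

section Legendre

variable {A₁ L1 F1 : Type*} [CommRing A₁] [IsDomain A₁]
  [Field L1] [Algebra A₁ L1] [IsFractionRing A₁ L1]
  [Field F1] [CharZero F1] [Algebra L1 F1] [Algebra A₁ F1] [IsScalarTower A₁ L1 F1]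

variable (A₁) in
/-- `hμf` : `λ (λ - 1) ≠ 0` in the Legendre field. -/
theorem leg_aeval_ne_zero (j1 : F1) : aeval (H70.legMu j1) (legLineF A₁) ≠ 0 := by
  rw [aeval_legLineF]
  have h := H70.legB_legMu_ne_zero j1
  unfold legB at h
  intro h0
  apply h
  have : H70.legMu j1 ^ 2 * (H70.legMu j1 - 1) ^ 2 = (H70.legMu j1 * (H70.legMu j1 - 1)) ^ 2 := by
    ring
  rw [this, h0]; ring

/-- `hμtr`. -/
theorem leg_transcendental {j1 : F1} (hj1 : Transcendental L1 j1) :
    Transcendental L1 (H70.legMu j1) := H70.transcendental_legMu hj1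

/-- `hμtop`. -/
theorem leg_adjoin_eq_top (j1 : F1) : F1⟮H70.legMu j1⟯ = ⊤ := H70.adjoin_legMu j1

/-- The instance `[FiniteDimensional L1⟮μ⟯ F']`. -/
theorem leg_finiteDimensional (j1 : F1) [FiniteDimensional L1⟮j1⟯ F1] :
    FiniteDimensional L1⟮H70.legMu j1⟯ (H70.LegField j1) := by
  refine finiteDimensional_adjoin_simple j1 (H70.legMu j1) ?_
  rw [← H70.legJ_legMu]
  exact H70.legJ_mem_adjoin_simple _

/-- `hJ₀` : `J₀ := LegLine.jY A₁` maps to `j1`. -/
theorem leg_toField_jY (j1 : F1) :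
    H79.Away.toField (legLineF A₁) (H70.legMu j1) (leg_aeval_ne_zero A₁ j1) (LegLine.jY A₁) =
      algebraMap F1 (H70.LegField j1) j1 := by
  rw [toField_eq_liftAlg, LegLine.liftAlg_jY, H70.legJ_legMu]

/-- `hφ0` for `φ0 := phi0 (legLineF A₁) j1 htr (LegLine.jY A₁)`. -/
theorem leg_phi0_isIntegral (h2 : IsUnit (2 : A₁)) (j1 : F1) (htr : Transcendental A₁ j1) :
    (phi0 (legLineF A₁) j1 htr (LegLine.jY A₁)).toRingHom.IsIntegral :=
  phi0_isIntegral _ j1 htr _ (LegLine.isIntegral_adjoin_jY h2)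

/-- `hcompat` for `φ0 := phi0 (legLineF A₁) j1 htr (LegLine.jY A₁)`. -/
theorem leg_phi0_compat (j1 : F1) (htr : Transcendental A₁ j1) (r : ↥(Algebra.adjoin A₁ {j1})) :
    H79.Away.toField (legLineF A₁) (H70.legMu j1) (leg_aeval_ne_zero A₁ j1)
        (phi0 (legLineF A₁) j1 htr (LegLine.jY A₁) r) =
      algebraMap F1 (H70.LegField j1) (algebraMap ↥(Algebra.adjoin A₁ {j1}) F1 r) :=
  phi0_compat _ j1 htr _ _ _ (leg_toField_jY j1) r

end Legendre

section LegendreSpecial

variable {A₁ k : Type*} [CommRing A₁] [Nontrivial A₁] [Field k] (π : A₁ →+* k)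

/-- `φ` : the reduction of the Legendre line to `k(λ̄)`. -/
noncomputable abbrev legPhi : Localization.Away (legLineF A₁) →+* RatFunc k :=
  LineRing.toRatFunc (legLineF A₁) π (LegLine.map_ne_zero π)

/-- `hφϖ`. -/
theorem legPhi_algebraMap_eq_zero {ϖ : A₁} (hϖ : π ϖ = 0) :
    legPhi π (algebraMap A₁ (Localization.Away (legLineF A₁)) ϖ) = 0 := by
  rw [legPhi, LineRing.toRatFunc_algebraMap, hϖ, map_zero]

/-- `hJtr`. -/
theorem legPhi_jY_transcendental (h2 : (2 : k) ≠ 0) :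
    Transcendental k (legPhi π (LegLine.jY A₁)) := by
  rw [legPhi, LegLine.toRatFunc_jY]
  exact transcendental_legJ RatFunc.transcendental_X h2

end LegendreSpecial

/-! ### the Hesse chart (`ℓ = 2`) -/

section Hesse

variable {A₁ L1 F1 : Type*} [CommRing A₁] [IsDomain A₁]
  [Field L1] [Algebra A₁ L1] [IsFractionRing A₁ L1]
  [Field F1] [CharZero F1] [Algebra L1 F1] [Algebra A₁ F1] [IsScalarTower A₁ L1 F1]

variable (A₁) in
/-- `hμf` : `μ ^ 3 - 1 ≠ 0` in the Hesse field. -/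
theorem hes_aeval_ne_zero (j1 : F1) : aeval (H70.hesMu j1) (hesLineF A₁) ≠ 0 := by
  rw [aeval_hesLineF]
  have h := H70.hesB_hesMu_ne_zero j1
  unfold hesB at h
  intro h0
  apply h
  rw [h0]; ring

/-- `hμtr`. -/
theorem hes_transcendental {j1 : F1} (hj1 : Transcendental L1 j1) :
    Transcendental L1 (H70.hesMu j1) := H70.transcendental_hesMu hj1

/-- `hμtop`. -/
theorem hes_adjoin_eq_top (j1 : F1) : F1⟮H70.hesMu j1⟯ = ⊤ := H70.adjoin_hesMu j1

/-- The instance `[FiniteDimensional L1⟮μ⟯ F']`. -/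
theorem hes_finiteDimensional (j1 : F1) [FiniteDimensional L1⟮j1⟯ F1] :
    FiniteDimensional L1⟮H70.hesMu j1⟯ (H70.HesField j1) := by
  refine finiteDimensional_adjoin_simple j1 (H70.hesMu j1) ?_
  rw [← H70.hesJ_hesMu]
  exact H70.hesJ_mem_adjoin_simple _

/-- `hJ₀` : `J₀ := HesLine.jY A₁` maps to `j1`. -/
theorem hes_toField_jY (j1 : F1) :
    H79.Away.toField (hesLineF A₁) (H70.hesMu j1) (hes_aeval_ne_zero A₁ j1) (HesLine.jY A₁) =
      algebraMap F1 (H70.HesField j1) j1 := by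
  rw [toField_eq_liftAlg, HesLine.liftAlg_jY, H70.hesJ_hesMu]

/-- `hφ0` for `φ0 := phi0 (hesLineF A₁) j1 htr (HesLine.jY A₁)`. -/
theorem hes_phi0_isIntegral (h3 : IsUnit (3 : A₁)) (j1 : F1) (htr : Transcendental A₁ j1) :
    (phi0 (hesLineF A₁) j1 htr (HesLine.jY A₁)).toRingHom.IsIntegral :=
  phi0_isIntegral _ j1 htr _ (HesLine.isIntegral_adjoin_jY h3)

/-- `hcompat` for `φ0 := phi0 (hesLineF A₁) j1 htr (HesLine.jY A₁)`. -/
theorem hes_phi0_compat (j1 : F1) (htr : Transcendental A₁ j1) (r : ↥(Algebra.adjoin A₁ {j1})) :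
    H79.Away.toField (hesLineF A₁) (H70.hesMu j1) (hes_aeval_ne_zero A₁ j1)
        (phi0 (hesLineF A₁) j1 htr (HesLine.jY A₁) r) =
      algebraMap F1 (H70.HesField j1) (algebraMap ↥(Algebra.adjoin A₁ {j1}) F1 r) :=
  phi0_compat _ j1 htr _ _ _ (hes_toField_jY j1) r

end Hesse

section HesseSpecial

variable {A₁ k : Type*} [CommRing A₁] [Nontrivial A₁] [Field k] (π : A₁ →+* k)

/-- `φ` : the reduction of the Hesse line to `k(μ̄)`. -/
noncomputable abbrev hesPhi : Localization.Away (hesLineF A₁) →+* RatFunc k :=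
  LineRing.toRatFunc (hesLineF A₁) π (HesLine.map_ne_zero π)

/-- `hφϖ`. -/
theorem hesPhi_algebraMap_eq_zero {ϖ : A₁} (hϖ : π ϖ = 0) :
    hesPhi π (algebraMap A₁ (Localization.Away (hesLineF A₁)) ϖ) = 0 := by
  rw [hesPhi, LineRing.toRatFunc_algebraMap, hϖ, map_zero]

/-- `hJtr`. -/
theorem hesPhi_jY_transcendental (h3 : (3 : k) ≠ 0) :
    Transcendental k (hesPhi π (HesLine.jY A₁)) := by
  rw [hesPhi, HesLine.toRatFunc_jY]
  exact transcendental_hesJ RatFunc.transcendental_X h3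

end HesseSpecial

end LineInputs

end Fermat.Agent.S18.H26
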