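/-
S18 / R-EXIST, final assembly (helper27): `ModularCurve.ReductionInputsModL A N` for a valuation
subring `A` of `Qbar` over a prime `ℓ ∤ N`, from the two LIFTING forms of good reduction
(`hGRfin` for the chart `j`, `hGRinf` for the chart `j⁻¹`):
every element of the special fibre integral over `k[j̄]` (resp. `k[j̄⁻¹]`) is the reduction of an
element of the Gauss ball integral over `Qbar[j]` (resp. `Qbar[j⁻¹]`).

Wiring only: `H27_CenterInstMod` (chart hypotheses + orthonormal basis), `H97_FibreInst`,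
`H35_SepHypFW`, `H89_SideConds`, `H89_ReductionInputsModL`, `H16_FkInst`, `H92_IndepK`.
-/
import Mathlib
import Fermat.Agent.S18.H27_CenterInstMod
import Fermat.Agent.S18.H92_IndepK
import Fermat.Agent.S18.H97_FibreInst
import Fermat.Agent.S18.H35_SepHypFW
import Fermat.Agent.S18.H89_ReductionInputsModL
import Fermat.Agent.S18.H89_SideConds
import Fermat.Agent.S18.H16_FkInst

set_option autoImplicit false
set_option linter.unusedSectionVars false
set_option linter.style.haveILetI false
set_option synthInstance.maxHeartbeats 400000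

noncomputable section

namespace Fermat.Agent.S18.H27

open Polynomial IntermediateField AlgebraicCurve ModularCurve Fermat.Agent.S18.H92
open Fermat.Agent.S24 (Qbar FN jBar jd)

section RExist

variable (N : ℕ) [NeZero N] {ℓ : ℕ} [Fact ℓ.Prime] (hℓN : ¬ ℓ ∣ N)
  (A : ValuationSubring (AlgebraicClosure ℚ)) (hA : A.LiesOverPrime ℓ)

theorem gaussRes_jBar_eq_jk (D : ModularPolynomialData N)
    (hind : IndepK (IsLocalRing.ResidueField A) N) (h : jBar N ∈ gaussO A N D hind) :
    gaussRes A N D hind ⟨jBar N, h⟩ = H16.jk N A :=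
  Subtype.ext (coe_gaussRes_jBar A N D hind)

theorem gaussRes_jBar_inv_eq_jk_inv (D : ModularPolynomialData N)
    (hind : IndepK (IsLocalRing.ResidueField A) N) (h : (jBar N)⁻¹ ∈ gaussO A N D hind) :
    gaussRes A N D hind ⟨(jBar N)⁻¹, h⟩ = (H16.jk N A)⁻¹ := by
  have hj := jBar_mem_gaussO A N D hind
  have hne : jBar N ≠ 0 :=
    ne_zero_of_transcendental (gaussData_j A N D hind).transcendental_t
  have h1 : (⟨(jBar N)⁻¹, h⟩ : gaussO A N D hind) * ⟨jBar N, hj⟩ = 1 :=
    Subtype.ext (inv_mul_cancel₀ hne)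
  have h2 := congrArg (gaussRes A N D hind) h1
  rw [map_mul, map_one, gaussRes_jBar_eq_jk] at h2
  exact eq_inv_of_mul_eq_one_left h2

section Main

variable (D : ModularPolynomialData N) (hind : IndepK (IsLocalRing.ResidueField A) N)

set_option maxHeartbeats 4000000 in
include hℓN hA in
/-- **R-EXIST.** `ReductionInputsModL A N` from the two lifting forms of good reduction. -/
theorem reductionInputsModL_of_lifting
    (hGRfin : ∀ γ : modularFunctionFieldFullC (IsLocalRing.ResidueField A) N,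
      IsIntegral (Algebra.adjoin (IsLocalRing.ResidueField A) {H16.jk N A}) γ →
        ∃ b : H97.BA (AlgebraicClosure ℚ) (gaussO A N D hind) (jBar N),
          H97.resBA (AlgebraicClosure ℚ) (gaussRes A N D hind) (jBar N) b = γ)
    (hGRinf : ∀ γ : modularFunctionFieldFullC (IsLocalRing.ResidueField A) N,
      IsIntegral (Algebra.adjoin (IsLocalRing.ResidueField A) {(H16.jk N A)⁻¹}) γ →
        ∃ b : H97.BA (AlgebraicClosure ℚ) (gaussO A N D hind) (jBar N)⁻¹,
          H97.resBA (AlgebraicClosure ℚ) (gaussRes A N D hind) (jBar N)⁻¹ b = γ) :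
    ReductionInputsModL A N := by
  -- the two charts
  have H₁ := chartHyp_j A N D hind (H89.resL_FN N)
  have H₂ := chartHyp_jinv A N D hind (H89.resL_FN N)
  have GD₁ := gaussData_j A N D hind
  have GD₂ := gaussData_jinv A N D hind
  have htk₁ : gaussRes A N D hind ⟨jBar N, H₁.tO⟩ = H16.jk N A :=
    gaussRes_jBar_eq_jk N A D hind _
  have htk₂ : gaussRes A N D hind ⟨(jBar N)⁻¹, H₂.tO⟩ = (H16.jk N A)⁻¹ :=
    gaussRes_jBar_inv_eq_jk_inv N A D hind _
  -- instances on the special fibre
  haveI hfd0 := H16.finiteDimensional_Fk N hℓN A hA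
  haveI hsep0 := H16.isSeparable_Fk N hℓN A hA
  haveI hfd₁ : FiniteDimensional
      (IsLocalRing.ResidueField A)⟮gaussRes A N D hind ⟨jBar N, H₁.tO⟩⟯
      (modularFunctionFieldFullC (IsLocalRing.ResidueField A) N) := by
    rw [htk₁]; exact hfd0
  haveI hsep₁ : Algebra.IsSeparable
      (IsLocalRing.ResidueField A)⟮gaussRes A N D hind ⟨jBar N, H₁.tO⟩⟯
      (modularFunctionFieldFullC (IsLocalRing.ResidueField A) N) := by
    rw [htk₁]; exact hsep0
  haveI hfd₂ : FiniteDimensional
      (IsLocalRing.ResidueField A)⟮gaussRes A N D hind ⟨(jBar N)⁻¹, H₂.tO⟩⟯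
      (modularFunctionFieldFullC (IsLocalRing.ResidueField A) N) := by
    rw [htk₂]; exact H97.finiteDimensional_adjoin_inv _
  haveI hsep₂ : Algebra.IsSeparable
      (IsLocalRing.ResidueField A)⟮gaussRes A N D hind ⟨(jBar N)⁻¹, H₂.tO⟩⟯
      (modularFunctionFieldFullC (IsLocalRing.ResidueField A) N) := by
    rw [htk₂]; exact H97.isSeparable_adjoin_inv _
  haveI : HasPrincipalDivisors (IsLocalRing.ResidueField A)
      (modularFunctionFieldFullC (IsLocalRing.ResidueField A) N) :=
    H16.hasPrincipalDivisors_Fk N hℓN A hA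
  haveI : HasPrincipalDivisors (AlgebraicClosure ℚ) (modularFunctionFieldBar N) :=
    Fermat.Agent.RR.H76.hasPrincipalDivisors_FN N
  haveI : FiniteDimensional (AlgebraicClosure ℚ)⟮jBar N⟯ (FN N) :=
    Fermat.Agent.S24.H40.finiteDimensional_FN N
  haveI : FiniteDimensional (AlgebraicClosure ℚ)⟮(jBar N)⁻¹⟯ (FN N) :=
    H97.finiteDimensional_adjoin_inv _
  haveI hsepL₁ : Algebra.IsSeparable (AlgebraicClosure ℚ)⟮jBar N⟯ (FN N) := inferInstance
  haveI hsepL₂ : Algebra.IsSeparable (AlgebraicClosure ℚ)⟮(jBar N)⁻¹⟯ (FN N) := inferInstance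
  -- Dedekind models of the two charts of the special fibre
  haveI := H97.isDedekindDomain_intRing_of_isSeparable
    (gaussRes A N D hind ⟨jBar N, H₁.tO⟩) GD₁.transc
  haveI := H97.isFractionRing_intRing' (k := IsLocalRing.ResidueField A)
    (gaussRes A N D hind ⟨jBar N, H₁.tO⟩)
  haveI := H97.isDedekindDomain_intRing_of_isSeparable
    (gaussRes A N D hind ⟨(jBar N)⁻¹, H₂.tO⟩) GD₂.transc
  haveI := H97.isFractionRing_intRing' (k := IsLocalRing.ResidueField A)
    (gaussRes A N D hind ⟨(jBar N)⁻¹, H₂.tO⟩)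
  have G₁ := H97.fibreHyp_intRing H₁ GD₁.transc
    (fun γ hγ => hGRfin γ (by rw [← htk₁]; exact hγ))
  have G₂ := H97.fibreHyp_intRing H₂ GD₂.transc
    (fun γ hγ => hGRinf γ (by rw [← htk₂]; exact hγ))
  -- instances in the `GaussData.tk` spelling, for `H35.sepHyp_fw`
  haveI hsep₁' : Algebra.IsSeparable (IsLocalRing.ResidueField A)⟮GD₁.tk⟯
      (modularFunctionFieldFullC (IsLocalRing.ResidueField A) N) := hsep₁
  haveI hsep₂' : Algebra.IsSeparable (IsLocalRing.ResidueField A)⟮GD₂.tk⟯
      (modularFunctionFieldFullC (IsLocalRing.ResidueField A) N) := hsep₂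
  have hdegk := H16.deg_eq_one_Fk N hℓN A hA
  have fw₁ := H35.sepHyp_fw H₁ GD₁ (jFam N) (jFam_mem A N D hind)
    (linearIndependent_res_jFam A N D hind) (exists_sum_jFam A N D hind)
    (linearIndependent_jFam A N D hind) (H89.deg_eq_one_FN' N) hdegk
  have fw₂ := H35.sepHyp_fw H₂ GD₂ (jFam N) (jFam_mem A N D hind)
    (linearIndependent_res_jFam_inv A N D hind) (exists_sum_jFam_inv A N D hind)
    (linearIndependent_jFam_inv A N D hind) (H89.deg_eq_one_FN' N) hdegk
  have S₁ : H89.SepHyp H₁ G₁ := H89.SepHyp.mk' H₁ G₁ (H89.resk_fullC N hℓN A hA)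
    (H89.finOrd_FN N) (fun β => β.2) fw₁
  have S₂ : H89.SepHyp H₂ G₂ := H89.SepHyp.mk' H₂ G₂ (H89.resk_fullC N hℓN A hA)
    (H89.finOrd_FN N) (fun β => β.2) fw₂
  exact H89.reductionInputsModL_of_charts A N D hind S₁ S₂ (H89.halg_FN N) (H89.halg_inv_FN N)

end Main

include hℓN hA in
/-- **R-EXIST, hypothesis-free Gauss model** (`H92.stdO`, `H92.stdRes`): the only inputs are the
two lifting forms of good reduction. -/
theorem reductionInputsModL_of_lifting_std
    (hGRfin : ∀ γ : modularFunctionFieldFullC (IsLocalRing.ResidueField A) N,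
      IsIntegral (Algebra.adjoin (IsLocalRing.ResidueField A) {H16.jk N A}) γ →
        ∃ b : H97.BA (AlgebraicClosure ℚ) (stdO N hℓN A hA) (jBar N),
          H97.resBA (AlgebraicClosure ℚ) (stdRes N hℓN A hA) (jBar N) b = γ)
    (hGRinf : ∀ γ : modularFunctionFieldFullC (IsLocalRing.ResidueField A) N,
      IsIntegral (Algebra.adjoin (IsLocalRing.ResidueField A) {(H16.jk N A)⁻¹}) γ →
        ∃ b : H97.BA (AlgebraicClosure ℚ) (stdO N hℓN A hA) (jBar N)⁻¹,
          H97.resBA (AlgebraicClosure ℚ) (stdRes N hℓN A hA) (jBar N)⁻¹ b = γ) :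
    ReductionInputsModL A N :=
  reductionInputsModL_of_lifting N hℓN A hA (modData N) (indepK_residueField N hℓN A hA)
    hGRfin hGRinf

end RExist

end Fermat.Agent.S18.H27
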