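/-
S18 / CECH-GENUS (helper33), part (CG3): Laurent series with coefficients in a valuation ring `A`
whose reductions are linearly independent over the residue field are linearly independent over
the fraction field.
-/
import Mathlib
import Fermat.Prelude.Def_ModularCurve_LaurentCoeff

set_option autoImplicit false

namespace Fermat.Agent.S18.H33

open ModularCurve

/-- **(CG3)**: `k`-independent reductions of `A`-integral Laurent series are `L`-independent. -/
theorem linearIndependent_of_reduction {L : Type*} [Field L] (A : ValuationSubring L)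
    {k : Type*} [Field k] (π : A →+* k) {ι : Type*} (f : ι → LaurentSeries A)
    (h : LinearIndependent k (fun i => coeffMap π (f i))) :
    LinearIndependent L (fun i => coeffMap A.subtype (f i)) := by
  classical
  rw [linearIndependent_iff'] at h ⊢
  intro s c hc
  by_contra hne
  push Not at hne
  obtain ⟨i1, hi1s, hi1⟩ := hne
  -- pick `i0 ∈ s` with `A.valuation (c i0)` maximal
  obtain ⟨i0, hi0s, hi0max⟩ := s.exists_max_image (fun i => A.valuation (c i)) ⟨i1, hi1s⟩
  have hc0 : c i0 ≠ 0 := by
    intro h0
    have := hi0max i1 hi1s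
    rw [h0, map_zero, le_zero_iff, map_eq_zero] at this
    exact hi1 this
  -- the normalised coefficients lie in `A`
  have hmem : ∀ i ∈ s, c i / c i0 ∈ A := by
    intro i hi
    rw [← A.valuation_le_one_iff, map_div₀]
    exact div_le_one_of_le₀ (hi0max i hi) zero_le
  let d : ι → A := fun i => if hi : i ∈ s then ⟨c i / c i0, hmem i hi⟩ else 0
  have hd : ∀ i ∈ s, ((d i : A) : L) = c i / c i0 := fun i hi => by simp [d, hi]
  -- coefficientwise relation over `A`
  have hrelA : ∀ n : ℤ, ∑ i ∈ s, d i * (f i).coeff n = 0 := by
    intro n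
    apply Subtype.ext
    have hn := congrArg (fun x : LaurentSeries L => x.coeff n) hc
    simp only [HahnSeries.coeff_sum, HahnSeries.coeff_smul, coeffMap_coeff, smul_eq_mul,
      HahnSeries.coeff_zero] at hn
    rw [AddSubmonoidClass.coe_finsetSum]
    simp only [MulMemClass.coe_mul, ZeroMemClass.coe_zero]
    have : ∑ i ∈ s, ((d i : A) : L) * ((f i).coeff n : L)
        = (c i0)⁻¹ * ∑ i ∈ s, c i * A.subtype ((f i).coeff n) := by
      rw [Finset.mul_sum]
      refine Finset.sum_congr rfl fun i hi => ?_
      rw [hd i hi]
      simp only [ValuationSubring.subtype_apply]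
      field_simp
    rw [this, hn, mul_zero]
  -- reduce
  have hrelk : ∑ i ∈ s, π (d i) • coeffMap π (f i) = 0 := by
    ext n
    simp only [HahnSeries.coeff_sum, HahnSeries.coeff_smul, coeffMap_coeff, smul_eq_mul,
      HahnSeries.coeff_zero]
    rw [← map_zero π, ← hrelA n, map_sum]
    simp only [map_mul]
  have h0 := h s (fun i => π (d i)) hrelk i0 hi0s
  have hd0 : d i0 = 1 := by
    apply Subtype.ext
    rw [hd i0 hi0s, div_self hc0]
    rfl
  rw [hd0, map_one] at h0
  exact one_ne_zero h0

end Fermat.Agent.S18.H33
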