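import Fermat.Agent.S18.H61_S18OfChart
import Fermat.Agent.S18.H3_ChartRing

/-!
# S18 assembly (helper61): S18 from a Gauss model of the chart ring

`s18_of_gaussModel` : the frozen statement of S18 from
* a model `M : H3.GaussModel ℓ (H45.resA0 A ℓ) j₁ θ₁ (jK kA N) θb` over `(A₁, F₁)` (INST-2),
* its comparison with the Gauss ring `H92.stdO` / `H92.stdRes` over `A` along `H40.barEmb` (COMP),
* saturation `hsat`, and the liftings `hGRfin`, `hGRinf` in `M.res1`-form (route Q outputs).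
-/

set_option autoImplicit false
set_option linter.style.haveILetI false
set_option synthInstance.maxHeartbeats 400000

noncomputable section

namespace Fermat.Agent.S18.H61

open ModularCurve AlgebraicCurve IntermediateField Polynomial
open Fermat.Agent.S24 Fermat.Agent.RR

variable (N : ℕ) [NeZero N] {ℓ : ℕ} [hℓ : Fact ℓ.Prime] (hℓN : ¬ ℓ ∣ N)
variable (A : ValuationSubring (AlgebraicClosure ℚ)) (hA : A.LiesOverPrime ℓ)

local notation "kA" => IsLocalRing.ResidueField A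
local notation "A₁" => H45.A0 A ℓ
local notation "F₁" => modularFunctionFieldFullC (H45.unrCyclo ℓ) N
local notation "j₁" => H16.jK (H45.unrCyclo ℓ) N

set_option maxHeartbeats 3200000 in
/-- **S18 from a Gauss model of the chart ring.** -/
theorem s18_of_gaussModel {θ₁ : F₁} {θb : modularFunctionFieldFullC kA N}
    (M : H3.GaussModel (((ℓ : ℕ) : A₁)) (H45.resA0 A ℓ) j₁ θ₁ (H16.jK kA N) θb)
    (hO1 : ∀ y ∈ M.O1, H40.barEmb N y ∈ H92.stdO N hℓN A hA)
    (hcomp : ∀ (y : F₁) (hy : y ∈ M.O1),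
      H92.stdRes N hℓN A hA ⟨H40.barEmb N y, hO1 y hy⟩ = M.res1 ⟨y, hy⟩)
    (hjk0 : H16.jK kA N ≠ 0)
    (hsat : ∀ y ∈ M.O1, IsIntegral (Algebra.adjoin A₁ {j₁}) (algebraMap A₁ F₁ ((ℓ : ℕ) : A₁) * y) →
      IsIntegral (Algebra.adjoin A₁ {j₁}) y)
    (hGRfin : ∀ γ : modularFunctionFieldFullC kA N,
      IsIntegral (Algebra.adjoin kA {H16.jK kA N}) γ →
      ∃ (b : F₁) (hb : IsIntegral (Algebra.adjoin A₁ {j₁}) b), M.res1 ⟨b, M.hBO b hb⟩ = γ)
    (hGRinf : ∀ γ : modularFunctionFieldFullC kA N,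
      IsIntegral (Algebra.adjoin kA {(H16.jK kA N)⁻¹}) γ →
      ∃ (b : F₁) (hb : IsIntegral (Algebra.adjoin A₁ {j₁⁻¹}) b),
        M.res1 ⟨b, M.hBinfO hjk0 b hb⟩ = γ)
    (h : ReductionInputsModL A N) (m : ℕ) (hm : ¬ ℓ ∣ m) (z : JZero N)
    (hmz : m • z = 0) (hz : reductionModL A N z = 0) : z = 0 := by
  refine s18_of_chart N hℓN A hA M.O1 hO1 ?_ M.hBO (M.hBinfO hjk0) hsat ?_ ?_ h m hm z hmz hz
  · intro y hy
    rw [hcomp y hy]
    exact M.res1_eq_zero_iff y hy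
  · intro γ hγ
    obtain ⟨b, hb, e⟩ := hGRfin γ hγ
    exact ⟨b, hb, (hcomp b (M.hBO b hb)).trans e⟩
  · intro γ hγ
    obtain ⟨b, hb, e⟩ := hGRinf γ hγ
    exact ⟨b, hb, (hcomp b (M.hBinfO hjk0 b hb)).trans e⟩

end Fermat.Agent.S18.H61

end
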