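import Mathlib
import Fermat.Agent.S18.H3_ChartRingInst
import Fermat.Agent.S18.H61_S18OfModel
import Fermat.Agent.S18.H40_Comp

/-!
# S18 (helper40): ITEM (I) closed - S18 from the two lifting statements `(GR)` alone

For the model `A₁ = H45.A0 A ℓ`, `L₁ = H45.unrCyclo ℓ`, `F₁ = modularFunctionFieldFullC L₁ N`,
`j₁ = H16.jK L₁ N`, `jN₁ = H16.jNK L₁ N` and helper3's Gauss model
`M : H3.GaussModel (ℓ : A₁) (H45.resA0 A ℓ) j₁ jN₁ (jK kA N) (jNK kA N)`
(`H3.nonempty_gaussModel_inst`):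

* the inputs of `H3.nonempty_gaussModel` / `H3.GaussModel.hsat` /
  `H67.exists_lift_of_gaussModel` as named lemmas
  (`prime_ell`, `resA0_ell`, `dvd_of_resA0_eq_zero`, `transcendental_j₁`, `PhiInst`,
  `PhiInst_monic`, `hroot_inst`, `hrootb_inst`, `hirr_inst`, `hgen_inst`);
* `hsat_inst M` : saturation for any such `M`;
* `stdModel` : a chosen Gauss model;
* `s18_of_GR`, `s18_of_GR_std` : the frozen statement of S18 from `hGRfin` and `hGRinf`.
-/

set_option autoImplicit false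
set_option linter.unusedSectionVars false
set_option linter.style.haveILetI false
set_option synthInstance.maxHeartbeats 400000

namespace Fermat.Agent.S18.H40

open Polynomial IntermediateField ModularCurve AlgebraicCurve
open Fermat.Agent.S28 Fermat.Agent.S24 Fermat.Agent.RR

noncomputable section

section Inst

variable (N : ℕ) [NeZero N] {ℓ : ℕ} [hℓ : Fact ℓ.Prime] (hℓN : ¬ ℓ ∣ N)
variable (A : ValuationSubring (AlgebraicClosure ℚ)) (hA : A.LiesOverPrime ℓ)

local notation "kA" => IsLocalRing.ResidueField A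
local notation "L₁" => H45.unrCyclo ℓ
local notation "A₁" => H45.A0 A ℓ
local notation "F₁" => modularFunctionFieldFullC (H45.unrCyclo ℓ) N
local notation "j₁" => H16.jK (H45.unrCyclo ℓ) N
local notation "jN₁" => H16.jNK (H45.unrCyclo ℓ) N
local notation "Fk" => modularFunctionFieldFullC (IsLocalRing.ResidueField A) N

include hA in
/-- `ℓ` is a prime element of `A₁`. -/
theorem prime_ell : Prime (((ℓ : ℕ) : A₁)) :=
  (H45.irreducible_natCast_A0 hℓ.out hA).prime

include hA in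
/-- `ℓ` dies in the residue field. -/
theorem resA0_ell : H45.resA0 A ℓ (((ℓ : ℕ) : A₁)) = 0 := by
  rw [← RingHom.mem_ker, H45.ker_resA0_eq_span (A := A) hℓ.out hA]
  exact Ideal.mem_span_singleton_self _

include hA in
/-- the kernel of the residue map is `(ℓ)`. -/
theorem dvd_of_resA0_eq_zero (r : A₁) (hr : H45.resA0 A ℓ r = 0) : (((ℓ : ℕ) : A₁)) ∣ r := by
  rw [← RingHom.mem_ker, H45.ker_resA0_eq_span (A := A) hℓ.out hA,
    Ideal.mem_span_singleton] at hr
  exact hr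

set_option maxHeartbeats 2000000 in
/-- `j₁` is transcendental over `A₁`. -/
theorem transcendental_j₁ : Transcendental A₁ j₁ := by
  intro h
  exact H16.transcendental_jK L₁ N (h.extendScalars (IsFractionRing.injective A₁ L₁))

/-- the modular polynomial over `A₁`. -/
def PhiInst (D : ModularPolynomialData N) : (A₁)[X][X] :=
  D.Φ.map (Polynomial.mapRingHom (Int.castRingHom A₁))

theorem PhiInst_monic (D : ModularPolynomialData N) : (PhiInst N A (ℓ := ℓ) D).Monic :=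
  D.monic.map _

theorem hroot_inst (D : ModularPolynomialData N) :
    H3.eval2 j₁ jN₁ (PhiInst N A (ℓ := ℓ) D) = 0 := by
  unfold H3.eval2 PhiInst
  rw [Polynomial.eval₂_map]
  apply H3.eval₂_jNK_eq_zero N L₁ D
  rw [RingHom.comp_apply]
  change aeval j₁ ((X : ℤ[X]).map (Int.castRingHom A₁)) = j₁
  rw [Polynomial.map_X, aeval_X]

theorem hrootb_inst (D : ModularPolynomialData N) :
    H3.eval2b (H45.resA0 A ℓ) (H16.jK kA N) (H16.jNK kA N) (PhiInst N A (ℓ := ℓ) D) = 0 := by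
  unfold H3.eval2b PhiInst
  rw [Polynomial.eval₂_map]
  apply H3.eval₂_jNK_eq_zero N kA D
  rw [RingHom.comp_apply, RingHom.comp_apply]
  change aeval (H16.jK kA N) (((X : ℤ[X]).map (Int.castRingHom A₁)).map (H45.resA0 A ℓ)) = _
  rw [Polynomial.map_X, Polynomial.map_X, aeval_X]

include hℓN hA in
/-- there is a modular polynomial whose reduction is irreducible over `kA(j)`. -/
theorem hirr_inst : ∃ D : ModularPolynomialData N,
    Irreducible ((PhiInst N A (ℓ := ℓ) D).map ((algebraMap kA[X] (RatFunc kA)).comp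
      (Polynomial.mapRingHom (H45.resA0 A ℓ)))) := by
  haveI hchar : CharP kA ℓ := H45.charP_residueField hℓ.out hA
  have hNk : ((N : ℕ) : kA) ≠ 0 := by
    rw [Ne, CharP.cast_eq_zero_iff kA ℓ]
    exact hℓN
  obtain ⟨D, -, hirrD⟩ := H16.exists_modPoly_gen N
  refine ⟨D, ?_⟩
  have h := hirrD kA hNk
  rw [redModPoly] at h
  unfold PhiInst
  rw [Polynomial.map_map]
  have hcomp : ((algebraMap kA[X] (RatFunc kA)).comp
      (Polynomial.mapRingHom (H45.resA0 A ℓ))).comp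
        (Polynomial.mapRingHom (Int.castRingHom A₁)) =
      (algebraMap kA[X] (RatFunc kA)).comp (Polynomial.mapRingHom (Int.castRingHom kA)) := by
    rw [RingHom.comp_assoc, Polynomial.mapRingHom_comp]
    congr 2
  rw [hcomp]
  exact h

set_option maxHeartbeats 4000000 in
/-- every element of `F₁` is `g(j₁, jN₁)/s(j₁)` with `g ∈ A₁[X][Y]`, `0 ≠ s ∈ A₁[X]`. -/
theorem hgen_inst : ∀ y : F₁, ∃ s : (A₁)[X], s ≠ 0 ∧ ∃ g : (A₁)[X][X],
    aeval j₁ s * y = H3.eval2 j₁ jN₁ g := by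
  intro y
  have hNL : ((N : ℕ) : L₁) ≠ 0 := H16.natCast_ne_zero_of_charZero N L₁
  obtain ⟨s, hs, g, hg⟩ := H3.isFrac_of_adjoin_eq_top (R := A₁) (K := L₁) j₁ jN₁
    (H16.isIntegral_jNK_gen N L₁ hNL) (H16.adjoin_jNK_eq_top_gen N L₁ hNL) y
  exact ⟨s, fun h => hs (by rw [h, map_zero]), g, hg⟩

include hA in
set_option maxHeartbeats 1600000 in
/-- **Saturation** for any Gauss model of `(A₁, F₁, j₁, jN₁)`. -/
theorem hsat_inst
    (M : H3.GaussModel (((ℓ : ℕ) : A₁)) (H45.resA0 A ℓ) j₁ jN₁ (H16.jK kA N) (H16.jNK kA N)) :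
    ∀ y ∈ M.O1, IsIntegral (Algebra.adjoin A₁ {j₁}) (algebraMap A₁ F₁ ((ℓ : ℕ) : A₁) * y) →
      IsIntegral (Algebra.adjoin A₁ {j₁}) y := by
  haveI hdvr : IsDiscreteValuationRing A₁ := H45.isDiscreteValuationRing_A0 hℓ.out hA
  obtain ⟨D, -, -⟩ := H16.exists_modPoly_gen N
  exact M.hsat (prime_ell A hA) (resA0_ell A hA) (transcendental_j₁ N A) (PhiInst N A D)
    (PhiInst_monic N A D) (hroot_inst N A D) (hgen_inst N A)

include hℓN hA in
/-- a chosen Gauss model of `(A₁, F₁, j₁, jN₁)`. -/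
def stdModel :
    H3.GaussModel (((ℓ : ℕ) : A₁)) (H45.resA0 A ℓ) j₁ jN₁ (H16.jK kA N) (H16.jNK kA N) :=
  (H3.nonempty_gaussModel_inst N hℓN A hA).some

omit hℓ in
theorem jK_kA_ne_zero : H16.jK kA N ≠ 0 := fun h0 =>
  H16.transcendental_jK kA N (h0 ▸ isAlgebraic_zero)

include hℓN hA in
set_option maxHeartbeats 3200000 in
/-- **S18 from `(GR)` for one Gauss model.** -/
theorem s18_of_GR_model
    (M : H3.GaussModel (((ℓ : ℕ) : A₁)) (H45.resA0 A ℓ) j₁ jN₁ (H16.jK kA N) (H16.jNK kA N))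
    (hGRfin : ∀ γ : Fk, IsIntegral (Algebra.adjoin kA {H16.jK kA N}) γ →
      ∃ (b : F₁) (hb : IsIntegral (Algebra.adjoin A₁ {j₁}) b), M.res1 ⟨b, M.hBO b hb⟩ = γ)
    (hGRinf : ∀ γ : Fk, IsIntegral (Algebra.adjoin kA {(H16.jK kA N)⁻¹}) γ →
      ∃ (b : F₁) (hb : IsIntegral (Algebra.adjoin A₁ {j₁⁻¹}) b),
        M.res1 ⟨b, M.hBinfO (jK_kA_ne_zero N A) b hb⟩ = γ)
    (h : ReductionInputsModL A N) (m : ℕ) (hm : ¬ ℓ ∣ m) (z : JZero N)
    (hmz : m • z = 0) (hz : reductionModL A N z = 0) : z = 0 := by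
  haveI hchar : CharP kA ℓ := H45.charP_residueField hℓ.out hA
  exact H61.s18_of_gaussModel N hℓN A hA M
    (fun y hy => (comp_gaussModel N hℓN A hA M y hy).1)
    (fun y hy => (comp_gaussModel N hℓN A hA M y hy).2)
    (jK_kA_ne_zero N A) (hsat_inst N A hA M) hGRfin hGRinf h m hm z hmz hz

include hℓN hA in
set_option maxHeartbeats 3200000 in
/-- **S18 from `(GR)`**: it suffices to lift integral elements of the special fibre, on the two
charts `j` and `1/j`, for every Gauss model of `(A₁, F₁, j₁, jN₁)` (one exists by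
`H3.nonempty_gaussModel_inst`). -/
theorem s18_of_GR
    (hGR : ∀ M : H3.GaussModel (((ℓ : ℕ) : A₁)) (H45.resA0 A ℓ) j₁ jN₁ (H16.jK kA N)
        (H16.jNK kA N),
      (∀ γ : Fk, IsIntegral (Algebra.adjoin kA {H16.jK kA N}) γ →
        ∃ (b : F₁) (hb : IsIntegral (Algebra.adjoin A₁ {j₁}) b), M.res1 ⟨b, M.hBO b hb⟩ = γ) ∧
      (∀ γ : Fk, IsIntegral (Algebra.adjoin kA {(H16.jK kA N)⁻¹}) γ →
        ∃ (b : F₁) (hb : IsIntegral (Algebra.adjoin A₁ {j₁⁻¹}) b),
          M.res1 ⟨b, M.hBinfO (jK_kA_ne_zero N A) b hb⟩ = γ))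
    (h : ReductionInputsModL A N) (m : ℕ) (hm : ¬ ℓ ∣ m) (z : JZero N)
    (hmz : m • z = 0) (hz : reductionModL A N z = 0) : z = 0 := by
  obtain ⟨M⟩ := H3.nonempty_gaussModel_inst N hℓN A hA
  exact s18_of_GR_model N hℓN A hA M (hGR M).1 (hGR M).2 h m hm z hmz hz

end Inst

end

end Fermat.Agent.S18.H40
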