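/-
helper34 — S18 route Q, ITEM (III), concrete end: **`hGRfin` (and hence `(GR)`) at the model
`A₁ = H45.A0 A ℓ`, `L₁ = H45.unrCyclo ℓ`, `F₁ = modularFunctionFieldFullC L₁ N` for `ℓ ≠ 2`**, from
the Legendre chart (`H34.hGRfin_legendre`), in the `M.res1` vocabulary of helper3's `H3.GaussModel`:

* `hGRfin_legendre_A0` : the `hGRfin` binder of `H40.s18_of_GR_model` / `H13.hGRinf_of_hGRfin_A0`;
* `hGR_of_ne_two` : the `hGR` binder of `H40.s18_of_GR` (`hGRinf` by helper13's cusp chart);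
* `s18_of_ne_two` : the frozen S18 conclusion for `ℓ ≠ 2`.
-/
import Fermat.Agent.S18.H34_GRFinLegendre
import Fermat.Agent.S18.H40_S18OfGR
import Fermat.Agent.S18.H13_GRInfA0
import Fermat.Agent.S18.H45_A0Units

set_option autoImplicit false
set_option linter.unusedSectionVars false
set_option linter.style.haveILetI false
set_option synthInstance.maxHeartbeats 400000
set_option maxHeartbeats 3200000

namespace Fermat.Agent.S18.H34

open Polynomial IntermediateField AlgebraicCurve ModularCurve Fermat.Agent.S18 Fermat.Agent.S24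

noncomputable section

section A0

variable (N : ℕ) [NeZero N] {ℓ : ℕ} [hℓ : Fact ℓ.Prime] (hℓN : ¬ ℓ ∣ N) (hℓ2 : ℓ ≠ 2)
  (A : ValuationSubring (AlgebraicClosure ℚ)) (hA : A.LiesOverPrime ℓ)

local notation "kA" => IsLocalRing.ResidueField A
local notation "A₁" => H45.A0 A ℓ
local notation "L₁" => H45.unrCyclo ℓ
local notation "F₁" => modularFunctionFieldFullC (H45.unrCyclo ℓ) N
local notation "j₁" => H16.jK (H45.unrCyclo ℓ) N
local notation "jN₁" => H16.jNK (H45.unrCyclo ℓ) N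
local notation "FkA" => modularFunctionFieldFullC (IsLocalRing.ResidueField A) N

include hℓN hℓ2 hA in
/-- **`hGRfin` at the concrete model, `ℓ ≠ 2`** (Legendre chart of route Q). -/
theorem hGRfin_legendre_A0
    (M : H3.GaussModel (R0 := A₁) (k := kA) (F1 := F₁) (Fk := FkA)
      ((ℓ : ℕ) : A₁) (H45.resA0 A ℓ) j₁ jN₁ (H16.jK kA N) (H16.jNK kA N))
    (γ : FkA) (hγ : IsIntegral (Algebra.adjoin kA {H16.jK kA N}) γ) :
    ∃ (b : F₁) (hb : IsIntegral (Algebra.adjoin A₁ {j₁}) b), M.res1 ⟨b, M.hBO b hb⟩ = γ := by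
  classical
  haveI hdvr : IsDiscreteValuationRing A₁ := H45.isDiscreteValuationRing_A0 hℓ.out hA
  have hNk : ((N : ℕ) : kA) ≠ 0 := H45.natCast_ne_zero_residueField hℓ.out hA hℓN
  obtain ⟨D, -, -⟩ := H16.exists_modPoly_gen N
  exact hGRfin_legendre N (H45.irreducible_natCast_A0 hℓ.out hA) (H45.resA0 A ℓ)
    (H45.resA0_surjective hℓ.out hA) (H45.ker_resA0_eq_span hℓ.out hA)
    (H45.isUnit_two_A0 hℓ.out hA hℓ2) hNk (H55.hunr_legendre ℓ N) M
    (H40.PhiInst N A D) (H40.PhiInst_monic N A D) (H40.hroot_inst N A D) (H40.hgen_inst N A)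
    (H67.exists_repr_of_adjoin_eq_top (H16.jK kA N) (H16.jNK kA N)
      (H16.isIntegral_jNK_gen N kA hNk) (H16.adjoin_jNK_eq_top_gen N kA hNk)) γ hγ

include hℓN hℓ2 hA in
/-- **`(GR)` at the concrete model, `ℓ ≠ 2`**: the `hGR` binder of `H40.s18_of_GR`. -/
theorem hGR_of_ne_two :
    ∀ M : H3.GaussModel (((ℓ : ℕ) : A₁)) (H45.resA0 A ℓ) j₁ jN₁ (H16.jK kA N) (H16.jNK kA N),
      (∀ γ : FkA, IsIntegral (Algebra.adjoin kA {H16.jK kA N}) γ →
        ∃ (b : F₁) (hb : IsIntegral (Algebra.adjoin A₁ {j₁}) b), M.res1 ⟨b, M.hBO b hb⟩ = γ) ∧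
      (∀ γ : FkA, IsIntegral (Algebra.adjoin kA {(H16.jK kA N)⁻¹}) γ →
        ∃ (b : F₁) (hb : IsIntegral (Algebra.adjoin A₁ {j₁⁻¹}) b),
          M.res1 ⟨b, M.hBinfO (H40.jK_kA_ne_zero N A) b hb⟩ = γ) := by
  intro M
  have hfin := hGRfin_legendre_A0 N hℓN hℓ2 A hA M
  exact ⟨hfin, H13.hGRinf_of_hGRfin_A0 N hℓN A hA M (H40.jK_kA_ne_zero N A) hfin⟩

include hℓN hℓ2 hA in
/-- **The frozen S18 conclusion for `ℓ ≠ 2`.** -/
theorem s18_of_ne_two (h : ReductionInputsModL A N) (m : ℕ) (hm : ¬ ℓ ∣ m) (z : JZero N)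
    (hmz : m • z = 0) (hz : reductionModL A N z = 0) : z = 0 :=
  H40.s18_of_GR N hℓN A hA (hGR_of_ne_two N hℓN hℓ2 A hA) h m hm z hmz hz

end A0

end

end Fermat.Agent.S18.H34
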