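/-
helper34 — S18 route Q: **one chart whose auxiliary base line is `R' = A₁[X][1/f]`**.

Chart-parametric wrapper of `H96.isIntegrallyClosed_specialFibre`: `R' := Localization.Away f`,
`K' := FractionRing R'`, `R' → F'` the evaluation `X ↦ μ`; all the `R'`/`K'`/`F'` instances and
towers are built inside the proof, and `hϖR'`, the PID instance, `hpt`, `hH`, `hV` are discharged
from the landed packages (helper79 `H79_BaseLineRing`, helper9 `H9_GenericFibre`, helper96
`H96_HorBridge`, helper1 `H1_VertInst`, helper70 `H70_AuxCompositum`).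
-/
import Fermat.Agent.S18.H96_RouteQAbstract
import Fermat.Agent.S18.H96_HorBridge
import Fermat.Agent.S18.H9_GenericFibre
import Fermat.Agent.S18.H79_BaseLineRing
import Fermat.Agent.S18.H1_VertInst
import Fermat.Agent.S18.H70_AuxCompositum

set_option autoImplicit false
set_option linter.unusedSectionVars false
set_option linter.style.haveILetI false

noncomputable section

namespace Fermat.Agent.S18.H34

open Polynomial IntermediateField AlgebraicCurve Fermat.Agent.S28

section LineChart

variable {A₁ : Type*} [CommRing A₁] [IsDomain A₁] [IsDiscreteValuationRing A₁] [CharZero A₁]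
  {k : Type} [Field k] [IsAlgClosed k] (π : A₁ →+* k) (hπ : Function.Surjective π)
  {ϖ : A₁} (hϖker : RingHom.ker π = Ideal.span {ϖ}) (hϖ : Irreducible ϖ)
  (f : A₁[X]) (hf : f.map π ≠ 0)
  {L1 : Type*} [Field L1] [Algebra A₁ L1] [IsFractionRing A₁ L1]
  {R0 : Type*} [CommRing R0] [Algebra A₁ R0] [IsDomain R0] [IsNoetherianRing R0]
  [IsIntegrallyClosed R0]
  (K0 : Type*) [Field K0] [Algebra R0 K0] [IsFractionRing R0 K0]
  {F1 : Type*} [Field F1] [Algebra K0 F1] [Algebra R0 F1] [IsScalarTower R0 K0 F1]
  [FiniteDimensional K0 F1] [Algebra.IsSeparable K0 F1]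
  [Algebra A₁ F1] [IsScalarTower A₁ R0 F1] [Algebra L1 F1] [IsScalarTower A₁ L1 F1]
  {F' : Type*} [Field F'] [Algebra F1 F'] [FiniteDimensional F1 F'] [IsGalois F1 F']
  [Algebra A₁ F'] [IsScalarTower A₁ F1 F'] [Algebra L1 F'] [IsScalarTower L1 F1 F']
  [IsScalarTower A₁ L1 F']

include K0 hπ hϖker hϖ hf in
theorem isIntegrallyClosed_specialFibre_away
    -- the auxiliary parameter
    (μ : F') (hμf : aeval μ f ≠ 0) (hμtr : Transcendental L1 μ) (hμtop : F1⟮μ⟯ = ⊤)
    [FiniteDimensional L1⟮μ⟯ F']
    -- (HOR-INST)
    (hunr : ∀ (v : Place L1 F') (g₀ : L1[X]), Irreducible g₀ →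
      ¬ g₀ ∣ f.map (algebraMap A₁ L1) → 0 < v.ord (aeval μ g₀) → v.ord (aeval μ g₀) = 1)
    -- the chart ring maps to the base line
    (φ0 : R0 →ₐ[A₁] Localization.Away f) (hφ0 : φ0.toRingHom.IsIntegral)
    (hcompat : ∀ r : R0, H79.Away.toField f μ hμf (φ0 r) = algebraMap F1 F' (algebraMap R0 F1 r))
    -- (VERT-INST)
    {Φ : Polynomial ℤ[X]} (hΦ : Φ.Monic) (hsep : (redModPoly k Φ).Separable)
    (J₀ : Localization.Away f) {κ : Type*} [Field κ] [Algebra k κ]
    (φ : Localization.Away f →+* κ) (hφϖ : φ (algebraMap A₁ (Localization.Away f) ϖ) = 0)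
    (hJtr : Transcendental k (φ J₀))
    (j θ : F1) (hgen : L1⟮j⟯⟮θ⟯ = ⊤) (hJ₀ : H79.Away.toField f μ hμf J₀ = algebraMap F1 F' j)
    (hroot : (H1.specPoly Φ (algebraMap F1 F' j)).eval (algebraMap F1 F' θ) = 0)
    -- (INST-2)
    (hprime : (Ideal.span {algebraMap R0 (integralClosure R0 F1) (algebraMap A₁ R0 ϖ)}).IsPrime) :
    IsIntegrallyClosed
      (integralClosure R0 F1 ⧸
        Ideal.span {algebraMap R0 (integralClosure R0 F1) (algebraMap A₁ R0 ϖ)}) := by
  classical
  have hϖ0 : ϖ ≠ 0 := hϖ.ne_zero
  have hf0 : f ≠ 0 := H79.Away.ne_zero_of_map_ne_zero π f hf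
  -- the base line `R'`
  haveI domR' : IsDomain (Localization.Away f) := H79.Away.isDomain π f hf
  haveI noethR' : IsNoetherianRing (Localization.Away f) := H79.Away.isNoetherianRing f
  haveI icR' : IsIntegrallyClosed (Localization.Away f) := H79.Away.isIntegrallyClosed π f hf
  have hinjA₁L1 : Function.Injective (algebraMap A₁ L1) := IsFractionRing.injective A₁ L1
  have hμtrA : Transcendental A₁ μ := hμtr.restrictScalars hinjA₁L1
  -- `R' → F'`
  have htoF_inj : Function.Injective (H79.Away.toField (R := Localization.Away f) f μ hμf) :=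
    H79.Away.toField_injective f μ hμf hμtrA
  letI algR'F' : Algebra (Localization.Away f) F' :=
    (H79.Away.toField (R := Localization.Away f) f μ hμf).toAlgebra
  have halgR'F' : ∀ r : Localization.Away f,
      algebraMap (Localization.Away f) F' r = H79.Away.toField f μ hμf r := fun _ => rfl
  haveI towA₁R'F' : IsScalarTower A₁ (Localization.Away f) F' :=
    IsScalarTower.of_algebraMap_eq fun a => (H79.Away.toField_algebraMap f μ hμf a).symm
  haveI faithR'F' : FaithfulSMul (Localization.Away f) F' :=
    (faithfulSMul_iff_algebraMap_injective _ _).mpr htoF_inj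
  -- `K' = Frac R'`
  letI algK'F' : Algebra (FractionRing (Localization.Away f)) F' :=
    FractionRing.liftAlgebra (Localization.Away f) F'
  haveI towR'K'F' : IsScalarTower (Localization.Away f) (FractionRing (Localization.Away f)) F' :=
    FractionRing.isScalarTower_liftAlgebra (Localization.Away f) F'
  -- `R0 → R'`
  letI algR0R' : Algebra R0 (Localization.Away f) := φ0.toRingHom.toAlgebra
  have halgR0R' : ∀ r : R0, algebraMap R0 (Localization.Away f) r = φ0 r := fun _ => rfl
  haveI towA₁R0R' : IsScalarTower A₁ R0 (Localization.Away f) :=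
    IsScalarTower.of_algebraMap_eq fun a => (φ0.commutes a).symm
  haveI intR0R' : Algebra.IsIntegral R0 (Localization.Away f) := ⟨hφ0⟩
  letI algR0F' : Algebra R0 F' := ((algebraMap F1 F').comp (algebraMap R0 F1)).toAlgebra
  haveI towR0F1F' : IsScalarTower R0 F1 F' := IsScalarTower.of_algebraMap_eq fun _ => rfl
  haveI towR0R'F' : IsScalarTower R0 (Localization.Away f) F' :=
    IsScalarTower.of_algebraMap_eq fun r => (hcompat r).symm
  -- generation of `F'` over `K'`
  have hrangeR' : ∀ r : Localization.Away f, H79.Away.toField f μ hμf r ∈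
      (algebraMap (FractionRing (Localization.Away f)) F').range := fun r =>
    ⟨algebraMap (Localization.Away f) (FractionRing (Localization.Away f)) r, by
      rw [← IsScalarTower.algebraMap_apply (Localization.Away f)
        (FractionRing (Localization.Away f)) F', halgR'F']⟩
  have hgen' : (FractionRing (Localization.Away f))⟮algebraMap F1 F' θ⟯ = ⊤ := by
    refine H70.adjoin_eq_top_of_compositum_range (L := L1) (F := F1) (F' := F')
      (KY := FractionRing (Localization.Away f)) hgen hμtop ?_ ?_ ?_
    · intro c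
      obtain ⟨a, b, hb, rfl⟩ := IsFractionRing.div_surjective (A := A₁) c
      rw [← IsScalarTower.algebraMap_apply L1 F1 F', map_div₀,
        ← IsScalarTower.algebraMap_apply A₁ L1 F', ← IsScalarTower.algebraMap_apply A₁ L1 F']
      obtain ⟨a', ha'⟩ := hrangeR' (algebraMap A₁ (Localization.Away f) a)
      obtain ⟨b', hb'⟩ := hrangeR' (algebraMap A₁ (Localization.Away f) b)
      rw [H79.Away.toField_algebraMap] at ha' hb'
      exact ⟨a' / b', by rw [map_div₀, ha', hb']⟩
    · rw [← H79.Away.toField_X (R := Localization.Away f) f μ hμf]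
      exact hrangeR' _
    · rw [← hJ₀]
      exact hrangeR' _
  -- the root relation over `R'`
  have hroot' : aeval (algebraMap F1 F' θ) (H1.specPoly Φ J₀) = 0 := by
    rw [Polynomial.aeval_def, ← Polynomial.eval_map, H1.specPoly_map, halgR'F', hJ₀]
    exact hroot
  -- finiteness and separability of `F' / K'`
  have hintθ : IsIntegral (FractionRing (Localization.Away f)) (algebraMap F1 F' θ) :=
    (IsIntegral.tower_top (A := FractionRing (Localization.Away f))
      ⟨H1.specPoly Φ J₀, H1.specPoly_monic hΦ J₀, hroot'⟩)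
  haveI finK'F' : FiniteDimensional (FractionRing (Localization.Away f)) F' := by
    have h1 : FiniteDimensional (FractionRing (Localization.Away f))
        (FractionRing (Localization.Away f))⟮algebraMap F1 F' θ⟯ :=
      IntermediateField.adjoin.finiteDimensional hintθ
    rw [hgen'] at h1
    exact (IntermediateField.topEquiv (F := FractionRing (Localization.Away f))
      (E := F')).toLinearEquiv.finiteDimensional
  haveI czR' : CharZero (Localization.Away f) :=
    charZero_of_injective_algebraMap (H79.Away.algebraMap_injective π f hf)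
  haveI czK' : CharZero (FractionRing (Localization.Away f)) :=
    charZero_of_injective_algebraMap
      (IsFractionRing.injective (Localization.Away f) (FractionRing (Localization.Away f)))
  haveI sepK'F' : Algebra.IsSeparable (FractionRing (Localization.Away f)) F' := inferInstance
  -- (VERT)
  have hV : H41.VertCond (Localization.Away f) (FractionRing (Localization.Away f)) F'
      (algebraMap A₁ (Localization.Away f) ϖ) :=
    H1.vertCond_of_modPoly (K := FractionRing (Localization.Away f)) hΦ J₀
      (algebraMap F1 F' θ) hgen' hroot' φ hφϖ hJtr hsep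
  -- (HOR)
  have hH : H41.HorCond (Localization.Away f) (FractionRing (Localization.Away f)) F'
      (algebraMap A₁ (Localization.Away f) ϖ) := by
    refine H9.horCond_of_hHOR_of_away_polynomial (A₁ := A₁) (R := Localization.Away f)
      (K := FractionRing (Localization.Away f)) (L := F') ϖ hϖ f hf0 ?_
    intro V hVtop hRV hϖV
    refine H96.exists_uniformizer_of_places (A₁ := A₁) (K0 := L1) (F' := F')
      (R := Localization.Away f) hϖ μ hμtr (f.map (algebraMap A₁ L1)) hunr
      (algebraMap A₁[X] (Localization.Away f) X) (H79.Away.toField_X f μ hμf) ?_ V hVtop hRV hϖV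
    refine ⟨IsLocalization.Away.invSelf f, ?_⟩
    have h1 : aeval μ (f.map (algebraMap A₁ L1)) =
        algebraMap (Localization.Away f) F' (algebraMap A₁[X] (Localization.Away f) f) := by
      rw [halgR'F', H79.Away.toField_algebraMap_polynomial, aeval_map_algebraMap]
    rw [h1, ← map_mul, mul_comm, IsLocalization.Away.mul_invSelf, map_one]
  -- the base line
  have hϖR' : Prime (algebraMap A₁ (Localization.Away f) ϖ) :=
    H79.Away.prime_algebraMap π hπ ϖ hϖker f hf hϖ0
  haveI pidR' : IsPrincipalIdealRing
      (Localization.Away f ⧸ Ideal.span {algebraMap A₁ (Localization.Away f) ϖ}) :=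
    H79.Away.isPrincipalIdealRing_quotient π hπ ϖ hϖker f
  have hpt := H79.Away.hpt π hπ ϖ hϖker f (R := Localization.Away f)
  exact H96.isIntegrallyClosed_specialFibre (A₁ := A₁) (R0 := R0) (R' := Localization.Away f)
    K0 (FractionRing (Localization.Away f)) (F1 := F1) (F' := F') ϖ hϖR' hV hH hpt hprime

end LineChart

end Fermat.Agent.S18.H34
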