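import Mathlib
import Fermat.Agent.S18.H35_SepHypFW
import Fermat.Agent.S18.H27_CenterInst
import Fermat.Agent.S18.H92_IndepK
import Fermat.Agent.S18.H16_FkInst
import Fermat.Agent.S18.H89_SideConds
import Fermat.Agent.S18.H97_FibreInst

/-!
# R3 → R5, concrete: `SepHyp.fw` for the two charts of `X₀(N)`

The field `fw` of `H89.SepHyp` for the charts `t = j` and `t = j⁻¹` of the Gauss model
`(H92.gaussO A N D hind, H92.gaussRes A N D hind)` of `X₀(N)` at a valuation subring `A` of `ℚ̄`
above `ℓ ∤ N`.  No hypotheses beyond the chart hypotheses themselves (which enter only through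
`H89.tBA`).
-/

set_option autoImplicit false
set_option linter.unusedSectionVars false
set_option linter.style.haveILetI false
set_option synthInstance.maxHeartbeats 400000

noncomputable section

namespace Fermat.Agent.S18.H35

open AlgebraicCurve ModularCurve Polynomial Fermat.Agent.S18.H97 Fermat.Agent.S24
open scoped IntermediateField

section

variable (N : ℕ) [NeZero N] {ℓ : ℕ} [Fact ℓ.Prime] (hℓN : ¬ ℓ ∣ N)
  (A : ValuationSubring (AlgebraicClosure ℚ)) (hA : A.LiesOverPrime ℓ)
  (D : ModularPolynomialData N) (hind : H92.IndepK (IsLocalRing.ResidueField A) N)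

/-- The coordinate `j` of the Gauss model, in `TwoGen` vocabulary. -/
abbrev tJ : modularFunctionFieldBar N :=
  H27.xF (H92.twoGen A N D hind) (modularFunctionFieldBar N) (H92.FL_eq A N D hind)

theorem coe_tJ : ((tJ N A D hind : modularFunctionFieldBar N) : LaurentSeries (AlgebraicClosure ℚ))
    = jqModC (AlgebraicClosure ℚ) :=
  H92.twoGen_xL A N D hind

theorem tJ_eq_jBar : tJ N A D hind = jBar N := by
  apply Subtype.ext
  rw [coe_tJ]
  show jqModC (AlgebraicClosure ℚ) = coeffEmb Qbar jq
  rw [coeffEmb, ← jqModC_rat, coeffMap_jqModC]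

/-- The reduced coordinate is `j̄`. -/
theorem tk_eq_jk :
    (H27.gaussData_x (H92.twoGen A N D hind) (modularFunctionFieldBar N) (H92.FL_eq A N D hind)
      (modularFunctionFieldFullC (IsLocalRing.ResidueField A) N) (H92.Fk_eq A N D hind)).tk
      = H16.jk N A := by
  apply Subtype.ext
  rw [H27.GaussData.tk]
  erw [H27.coe_resHom_xF]
  rw [H92.twoGen_xk]
  rfl


include hℓN hA in
/-- **`SepHyp.fw` for the chart `t = j`** of the Gauss model of `X₀(N)`. -/
theorem fw_j
    (H : ChartHyp A (IsLocalRing.residue A) (H92.gaussO A N D hind) (H92.gaussRes A N D hind)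
      (tJ N A D hind)) :
    ∀ b : BA (AlgebraicClosure ℚ) (H92.gaussO A N D hind) (tJ N A D hind),
      resBA (AlgebraicClosure ℚ) (H92.gaussRes A N D hind) (tJ N A D hind) b ≠ 0 →
      ∀ abar : IsLocalRing.ResidueField A,
        ∑ᶠ Q ∈ fibreAt (resBA (AlgebraicClosure ℚ) (H92.gaussRes A N D hind) (tJ N A D hind)
            (H89.tBA H)) abar,
          Q.ord (resBA (AlgebraicClosure ℚ) (H92.gaussRes A N D hind) (tJ N A D hind) b) =
        ∑ᶠ P ∈ H89.discAtπ A (IsLocalRing.residue A) (tJ N A D hind) abar,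
          P.ord ((b : modularFunctionFieldBar N)) := by
  have hdegL := H89.deg_eq_one_FN' N
  have hdegk := H16.deg_eq_one_Fk N hℓN A hA
  haveI : HasPrincipalDivisors (AlgebraicClosure ℚ) (modularFunctionFieldBar N) :=
    Fermat.Agent.RR.H76.hasPrincipalDivisors_FN N
  haveI : HasPrincipalDivisors (IsLocalRing.ResidueField A)
      (modularFunctionFieldFullC (IsLocalRing.ResidueField A) N) :=
    H16.hasPrincipalDivisors_Fk N hℓN A hA
  haveI : FiniteDimensional (AlgebraicClosure ℚ)⟮tJ N A D hind⟯ (modularFunctionFieldBar N) := by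
    rw [tJ_eq_jBar]; exact H40.finiteDimensional_FN N
  have GD : H27.GaussData A (IsLocalRing.residue A) (H92.gaussO A N D hind)
      (H92.gaussRes A N D hind) (tJ N A D hind) :=
    H27.gaussData_x (H92.twoGen A N D hind) (modularFunctionFieldBar N) (H92.FL_eq A N D hind)
      (modularFunctionFieldFullC (IsLocalRing.ResidueField A) N) (H92.Fk_eq A N D hind)
  have htk : GD.tk = H16.jk N A := tk_eq_jk N A D hind
  haveI : Algebra.IsSeparable (IsLocalRing.ResidueField A)⟮GD.tk⟯
      (modularFunctionFieldFullC (IsLocalRing.ResidueField A) N) := by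
    rw [htk]; exact H16.isSeparable_Fk N hℓN A hA
  exact sepHyp_fw H GD
    (H27.powFam (H92.twoGen A N D hind) (modularFunctionFieldBar N) (H92.FL_eq A N D hind))
    (H27.powFam_mem (H92.twoGen A N D hind) (modularFunctionFieldBar N) (H92.FL_eq A N D hind))
    (H27.linearIndependent_res_powFam (H92.twoGen A N D hind) (modularFunctionFieldBar N)
      (H92.FL_eq A N D hind) (modularFunctionFieldFullC (IsLocalRing.ResidueField A) N)
      (H92.Fk_eq A N D hind))
    (H27.exists_sum_powFam (H92.twoGen A N D hind) (modularFunctionFieldBar N)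
      (H92.FL_eq A N D hind))
    (H27.linearIndependent_powFam (H92.twoGen A N D hind) (modularFunctionFieldBar N)
      (H92.FL_eq A N D hind))
    hdegL hdegk

include hℓN hA in
/-- **`SepHyp.fw` for the chart at infinity `t = j⁻¹`** of the Gauss model of `X₀(N)`. -/
theorem fw_jinv
    (H : ChartHyp A (IsLocalRing.residue A) (H92.gaussO A N D hind) (H92.gaussRes A N D hind)
      (tJ N A D hind)⁻¹) :
    ∀ b : BA (AlgebraicClosure ℚ) (H92.gaussO A N D hind) (tJ N A D hind)⁻¹,
      resBA (AlgebraicClosure ℚ) (H92.gaussRes A N D hind) (tJ N A D hind)⁻¹ b ≠ 0 →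
      ∀ abar : IsLocalRing.ResidueField A,
        ∑ᶠ Q ∈ fibreAt (resBA (AlgebraicClosure ℚ) (H92.gaussRes A N D hind) (tJ N A D hind)⁻¹
            (H89.tBA H)) abar,
          Q.ord (resBA (AlgebraicClosure ℚ) (H92.gaussRes A N D hind) (tJ N A D hind)⁻¹ b) =
        ∑ᶠ P ∈ H89.discAtπ A (IsLocalRing.residue A) (tJ N A D hind)⁻¹ abar,
          P.ord ((b : modularFunctionFieldBar N)) := by
  have hdegL := H89.deg_eq_one_FN' N
  have hdegk := H16.deg_eq_one_Fk N hℓN A hA
  haveI : HasPrincipalDivisors (AlgebraicClosure ℚ) (modularFunctionFieldBar N) :=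
    Fermat.Agent.RR.H76.hasPrincipalDivisors_FN N
  haveI : HasPrincipalDivisors (IsLocalRing.ResidueField A)
      (modularFunctionFieldFullC (IsLocalRing.ResidueField A) N) :=
    H16.hasPrincipalDivisors_Fk N hℓN A hA
  haveI : FiniteDimensional (AlgebraicClosure ℚ)⟮tJ N A D hind⟯ (modularFunctionFieldBar N) := by
    rw [tJ_eq_jBar]; exact H40.finiteDimensional_FN N
  haveI : FiniteDimensional (AlgebraicClosure ℚ)⟮(tJ N A D hind)⁻¹⟯ (modularFunctionFieldBar N) :=
    H97.finiteDimensional_adjoin_inv _
  have GD : H27.GaussData A (IsLocalRing.residue A) (H92.gaussO A N D hind)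
      (H92.gaussRes A N D hind) (tJ N A D hind)⁻¹ :=
    H27.gaussData_xinv (H92.twoGen A N D hind) (modularFunctionFieldBar N) (H92.FL_eq A N D hind)
      (modularFunctionFieldFullC (IsLocalRing.ResidueField A) N) (H92.Fk_eq A N D hind)
  have htk : GD.tk = (H16.jk N A)⁻¹ := by
    have h1 := H27.tk_xinv (H92.twoGen A N D hind) (modularFunctionFieldBar N)
      (H92.FL_eq A N D hind) (modularFunctionFieldFullC (IsLocalRing.ResidueField A) N)
      (H92.Fk_eq A N D hind)
    rw [tk_eq_jk] at h1
    exact h1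
  haveI : Algebra.IsSeparable (IsLocalRing.ResidueField A)⟮GD.tk⟯
      (modularFunctionFieldFullC (IsLocalRing.ResidueField A) N) := by
    rw [htk]
    haveI := H16.isSeparable_Fk N hℓN A hA
    exact H97.isSeparable_adjoin_inv _
  exact sepHyp_fw H GD
    (H27.powFam (H92.twoGen A N D hind) (modularFunctionFieldBar N) (H92.FL_eq A N D hind))
    (H27.powFam_mem (H92.twoGen A N D hind) (modularFunctionFieldBar N) (H92.FL_eq A N D hind))
    (H27.linearIndependent_res_powFam_inv (H92.twoGen A N D hind) (modularFunctionFieldBar N)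
      (H92.FL_eq A N D hind) (modularFunctionFieldFullC (IsLocalRing.ResidueField A) N)
      (H92.Fk_eq A N D hind))
    (H27.exists_sum_powFam_inv (H92.twoGen A N D hind) (modularFunctionFieldBar N)
      (H92.FL_eq A N D hind))
    (H27.linearIndependent_powFam_inv (H92.twoGen A N D hind) (modularFunctionFieldBar N)
      (H92.FL_eq A N D hind))
    hdegL hdegk

end

end Fermat.Agent.S18.H35

end
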