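/-
S18, route Q, CECH-GENUS input (S) SATURATION (helper3), abstract, Mathlib only.

`R` an integrally closed domain (`A₁[j]`), `K = Frac R`, `F/K` a field extension, `π ∈ R`, `O₀` a
valuation ring of `K` with the GAUSS property `a / πⁱ ∈ O₀ → πⁱ ∣ a` (`a ∈ R`), i.e.
`R[1/π] ∩ O₀ = R`.  If `x ∈ F` is integral over `O₀` (e.g. `x` in the unique extension of the Gauss
valuation, `O_v = O₀[θ]`) and `π x` is integral over `R`, then `x` is integral over `R`:
the integral closure `B` of `R` in `F` is saturated, `B = B[1/π] ∩ O_v`.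

No Krull / Hartogs: only the scaling of minimal polynomials.
-/
import Mathlib

set_option autoImplicit false

namespace Fermat.Agent.S18.H3

open Polynomial

section Scale

variable {K F : Type*} [Field K] [Field F] [Algebra K F]

/-- The minimal polynomial of `c x` is the minimal polynomial of `x` with roots scaled by `c`. -/
theorem minpoly_mul_eq_scaleRoots {c : K} (hc : c ≠ 0) {x : F} (hx : IsIntegral K x) :
    minpoly K (algebraMap K F c * x) = scaleRoots (minpoly K x) c := by
  have hcx : IsIntegral K (algebraMap K F c * x) := isIntegral_algebraMap.mul hx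
  have hq : (scaleRoots (minpoly K x) c).Monic :=
    (monic_scaleRoots_iff c).2 (minpoly.monic hx)
  have hroot : aeval (algebraMap K F c * x) (scaleRoots (minpoly K x) c) = 0 :=
    scaleRoots_aeval_eq_zero (minpoly.aeval K x)
  have hdvd : minpoly K (algebraMap K F c * x) ∣ scaleRoots (minpoly K x) c :=
    minpoly.dvd K _ hroot
  -- degree comparison through the inverse scaling
  have hroot' : aeval x (scaleRoots (minpoly K (algebraMap K F c * x)) c⁻¹) = 0 := by
    have h := scaleRoots_aeval_eq_zero (r := c⁻¹) (minpoly.aeval K (algebraMap K F c * x))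
    rwa [← mul_assoc, ← map_mul, inv_mul_cancel₀ hc, map_one, one_mul] at h
  have hdeg : (minpoly K x).natDegree ≤ (minpoly K (algebraMap K F c * x)).natDegree := by
    have h1 := minpoly.dvd K x hroot'
    have h2 : (scaleRoots (minpoly K (algebraMap K F c * x)) c⁻¹) ≠ 0 :=
      ((monic_scaleRoots_iff c⁻¹).2 (minpoly.monic hcx)).ne_zero
    have h3 := natDegree_le_of_dvd h1 h2
    rwa [natDegree_scaleRoots] at h3
  exact (eq_of_monic_of_dvd_of_natDegree_le (minpoly.monic hcx) hq hdvd
    (by rw [natDegree_scaleRoots]; exact hdeg)).symm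

end Scale

section Saturation

variable {R K F : Type*} [CommRing R] [IsDomain R] [IsIntegrallyClosed R] [Field K] [Algebra R K]
  [IsFractionRing R K] [Field F] [Algebra K F] [Algebra R F] [IsScalarTower R K F]

/-- **Saturation, core form.**  If the coefficients of the minimal polynomial of `x` over `K` lie
in a valuation ring `O₀` with the Gauss property and `π x` is integral over `R`, then `x` is integral
over `R`. -/
theorem isIntegral_of_mul_isIntegral_of_coeff_mem (π : R) (hπ : π ≠ 0) (O₀ : ValuationSubring K)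
    (hG : ∀ (a : R) (i : ℕ), algebraMap R K a / algebraMap R K π ^ i ∈ O₀ → π ^ i ∣ a)
    (x : F) (hxK : IsIntegral K x) (hx : ∀ k, (minpoly K x).coeff k ∈ O₀)
    (hb : IsIntegral R (algebraMap R F π * x)) : IsIntegral R x := by
  set c : K := algebraMap R K π with hcdef
  have hc : c ≠ 0 := by
    rw [hcdef, Ne, map_eq_zero_iff _ (IsFractionRing.injective R K)]
    exact hπ
  have hbx : algebraMap R F π * x = algebraMap K F c * x := by
    rw [hcdef, ← IsScalarTower.algebraMap_apply]
  -- the minimal polynomial of `π x` in two ways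
  have h1 : minpoly K (algebraMap R F π * x) = scaleRoots (minpoly K x) c := by
    rw [hbx]
    exact minpoly_mul_eq_scaleRoots hc hxK
  have h2 : minpoly K (algebraMap R F π * x) =
      (minpoly R (algebraMap R F π * x)).map (algebraMap R K) :=
    minpoly.isIntegrallyClosed_eq_field_fractions' K hb
  -- every coefficient of `minpoly K x` comes from `R`
  have hcoeff : ∀ k, (minpoly K x).coeff k ∈ (algebraMap R K).range := by
    intro k
    set d := (minpoly K x).natDegree with hd
    have h3 : (minpoly K x).coeff k * c ^ (d - k) =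
        algebraMap R K ((minpoly R (algebraMap R F π * x)).coeff k) := by
      rw [← coeff_scaleRoots, ← h1, h2, coeff_map]
    have hck : c ^ (d - k) ≠ 0 := pow_ne_zero _ hc
    have h4 : algebraMap R K ((minpoly R (algebraMap R F π * x)).coeff k) /
        algebraMap R K π ^ (d - k) ∈ O₀ := by
      rw [← h3, ← hcdef, mul_div_assoc, div_self hck, mul_one]
      exact hx k
    obtain ⟨r, hr⟩ := hG _ _ h4
    refine ⟨r, ?_⟩
    have h5 : (minpoly K x).coeff k * c ^ (d - k) = algebraMap R K r * c ^ (d - k) := by
      rw [h3, hr, map_mul, map_pow, mul_comm]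
    exact (mul_right_cancel₀ hck h5).symm
  have hlift : minpoly K x ∈ Polynomial.lifts (algebraMap R K) :=
    (Polynomial.lifts_iff_coeff_lifts _).2 fun k => hcoeff k
  obtain ⟨P, hP, -, hPm⟩ :=
    Polynomial.lifts_and_degree_eq_and_monic hlift (minpoly.monic hxK)
  refine ⟨P, hPm, ?_⟩
  have h6 : aeval x (P.map (algebraMap R K)) = 0 := by
    rw [hP]
    exact minpoly.aeval K x
  rwa [aeval_map_algebraMap, aeval_def] at h6

/-- **Saturation** with the integrality over `O₀` given by an explicit monic polynomial with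
coefficients in `O₀`. -/
theorem isIntegral_of_mul_isIntegral (π : R) (hπ : π ≠ 0) (O₀ : ValuationSubring K)
    (hG : ∀ (a : R) (i : ℕ), algebraMap R K a / algebraMap R K π ^ i ∈ O₀ → π ^ i ∣ a)
    (x : F) (hx : ∃ p : K[X], p.Monic ∧ (∀ k, p.coeff k ∈ O₀) ∧ aeval x p = 0)
    (hb : IsIntegral R (algebraMap R F π * x)) : IsIntegral R x := by
  obtain ⟨p, hpm, hpc, hpx⟩ := hx
  have hxK : IsIntegral K x := ⟨p, hpm, by rwa [← aeval_def]⟩
  let _ : Algebra O₀ F := ((algebraMap K F).comp (algebraMap O₀ K)).toAlgebra
  have : IsScalarTower O₀ K F := IsScalarTower.of_algebraMap_eq fun _ => rfl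
  -- `x` is integral over `O₀`
  have hlift : p ∈ Polynomial.lifts (algebraMap O₀ K) :=
    (Polynomial.lifts_iff_coeff_lifts _).2 fun k => ⟨⟨p.coeff k, hpc k⟩, rfl⟩
  obtain ⟨P, hP, -, hPm⟩ := Polynomial.lifts_and_degree_eq_and_monic hlift hpm
  have hxO : IsIntegral O₀ x := by
    refine ⟨P, hPm, ?_⟩
    have h6 : aeval x (P.map (algebraMap O₀ K)) = 0 := by rw [hP]; exact hpx
    rwa [aeval_map_algebraMap, aeval_def] at h6
  refine isIntegral_of_mul_isIntegral_of_coeff_mem π hπ O₀ hG x hxK (fun k => ?_) hb
  rw [minpoly.isIntegrallyClosed_eq_field_fractions' K hxO, coeff_map]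
  exact ((minpoly O₀ x).coeff k).2

end Saturation

end Fermat.Agent.S18.H3
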