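import Mathlib
import Fermat.Prelude.Def_ModularCurve_LaurentCoeff

/-!
# CECH-GENUS (CG3): linear independence lifts from the special fibre

`A` a valuation subring of a field `L`, `π : A →+* k` any ring hom to a nontrivial ring.
If the reductions of finitely or infinitely many elements `f i` of an `A`-module `M` are
`k`-linearly independent, then the `f i` are `L`-linearly independent in any `L`-vector space
into which `M` embeds `A`-semilinearly.  (Scale a relation so that one coefficient is `1` and
all are in `A`; reduce.)  No discreteness, no kernel condition on `π`.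

Concrete form: `M = LaurentSeries A`, `coeffMap A.subtype`, `coeffMap π` (frozen vocabulary of
`ReductionInputsAlong`).
-/

namespace Fermat.Agent.S18.H40

/-- **CG3**, abstract form. -/
theorem linearIndependent_of_reduction_abstract {L : Type*} [Field L] (A : ValuationSubring L)
    {k : Type*} [Ring k] [Nontrivial k] (π : A →+* k)
    {M V Mk : Type*} [AddCommGroup M] [Module A M] [AddCommGroup V] [Module L V]
    [AddCommGroup Mk] [Module k Mk]
    (emb : M →+ V) (hemb : Function.Injective emb)
    (hemb_smul : ∀ (a : A) (m : M), emb (a • m) = (a : L) • emb m)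
    (red : M →+ Mk) (hred_smul : ∀ (a : A) (m : M), red (a • m) = π a • red m)
    {ι : Type*} (f : ι → M) (h : LinearIndependent k (fun i => red (f i))) :
    LinearIndependent L (fun i => emb (f i)) := by
  classical
  rw [linearIndependent_iff']
  intro s g hg
  by_contra hcon
  push Not at hcon
  obtain ⟨i₁, hi₁, hgi₁⟩ := hcon
  obtain ⟨i₀, hi₀, hmax⟩ := Finset.exists_max_image s (fun i => A.valuation (g i)) ⟨i₁, hi₁⟩
  have hg0 : g i₀ ≠ 0 := by
    intro h0
    have h1 := hmax i₁ hi₁
    rw [h0, map_zero] at h1
    exact hgi₁ ((map_eq_zero _).1 (le_antisymm h1 zero_le))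
  have hmem : ∀ i ∈ s, g i / g i₀ ∈ A := by
    intro i hi
    rw [← A.valuation_le_one_iff, map_div₀]
    exact div_le_one_of_le₀ (hmax i hi) zero_le
  let a : ι → A := fun i => if h : g i / g i₀ ∈ A then ⟨g i / g i₀, h⟩ else 0
  have ha : ∀ i ∈ s, (a i : L) = g i / g i₀ := by
    intro i hi
    simp only [a, dif_pos (hmem i hi)]
  have hsum : ∑ i ∈ s, a i • f i = 0 := by
    apply hemb
    rw [map_sum, map_zero]
    have : ∀ i ∈ s, emb (a i • f i) = (g i₀)⁻¹ • (g i • emb (f i)) := by
      intro i hi
      rw [hemb_smul, ha i hi, smul_smul, div_eq_inv_mul]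
    rw [Finset.sum_congr rfl this, ← Finset.smul_sum, hg, smul_zero]
  have hred : ∑ i ∈ s, π (a i) • red (f i) = 0 := by
    have := congrArg red hsum
    rw [map_sum, map_zero] at this
    rw [← this]
    exact Finset.sum_congr rfl fun i _ => (hred_smul _ _).symm
  have h1 := linearIndependent_iff'.1 h s (fun i => π (a i)) hred i₀ hi₀
  have h2 : a i₀ = 1 := by
    apply Subtype.ext
    rw [ha i₀ hi₀, div_self hg0]
    rfl
  rw [h2, map_one] at h1
  exact one_ne_zero h1

open ModularCurve in
/-- **CG3**, frozen vocabulary: `A`-integral Laurent series whose reductions mod `π` are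
`k`-independent are `L`-independent. -/
theorem linearIndependent_of_reduction {L : Type*} [Field L] (A : ValuationSubring L)
    {k : Type*} [CommRing k] [Nontrivial k] (π : A →+* k) {ι : Type*}
    (f : ι → LaurentSeries A)
    (h : LinearIndependent k (fun i => coeffMap π (f i))) :
    LinearIndependent L (fun i => coeffMap A.subtype (f i)) := by
  refine linearIndependent_of_reduction_abstract A π
    (M := LaurentSeries A) (V := LaurentSeries L) (Mk := LaurentSeries k)
    (coeffMap A.subtype).toAddMonoidHom ?_ ?_ (coeffMap π).toAddMonoidHom ?_ f h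
  · intro x y hxy
    ext n
    have := congrArg (fun z => HahnSeries.coeff z n) hxy
    simp only [RingHom.toAddMonoidHom_eq_coe, AddMonoidHom.coe_coe, coeffMap_coeff] at this
    exact this
  · intro a m
    ext n
    simp [coeffMap_coeff]
  · intro a m
    ext n
    simp [coeffMap_coeff]

end Fermat.Agent.S18.H40
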