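/-
S18 project, package PURITY (helper41), (RAD) form.  Mathlib + H9_DiscrNormal + H41_Purity*.

* `isRadical_map_of_isUnit_discr_quotient` : a basis of `B ⧸ π B` over `R ⧸ π` with unit
  discriminant ⇒ `p B` is radical for every maximal ideal `p ∋ π` of `R`;
* `isRadical_map_of_vert_hor` : **(RAD)** under `VertCond` and `HorCond` (the second half of `hline`
  of `H67.isIntegrallyClosed_special_fibre`);
* UFD variant of the purity step (not needed for the `HorCond` route):
  `isUnit_mk_of_forall_prime_dvd`, `isUnit_mk_of_forall_prime_not_dvd`.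
-/
import Fermat.Agent.S18.H41_PurityMain

set_option autoImplicit false
set_option linter.unusedSectionVars false

open Module IsLocalRing

namespace Fermat.Agent.S18.H41

section Rad

variable {R B : Type*} [CommRing R] [CommRing B] [Algebra R B] {π : R}
  {ι : Type*} [Fintype ι] [DecidableEq ι]

/-- **(RAD)** If a basis of the special fibre `B ⧸ π B` over `R ⧸ π` has unit discriminant, then
for every maximal ideal `p ∋ π` of `R` the ideal `p B` is radical. -/
theorem isRadical_map_of_isUnit_discr_quotient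
    (eb : Basis ι (R ⧸ Ideal.span {π}) (B ⧸ (Ideal.span {π}).map (algebraMap R B)))
    (hunit : IsUnit (Algebra.discr (R ⧸ Ideal.span {π}) eb))
    (p : Ideal R) (hp : p.IsMaximal) (hπp : π ∈ p) :
    (p.map (algebraMap R B)).IsRadical := by
  have hIp : Ideal.span {π} ≤ p := by
    rw [Ideal.span_singleton_le_iff_mem]; exact hπp
  have hJp : (Ideal.span {π}).map (algebraMap R B) ≤ p.map (algebraMap R B) := Ideal.map_mono hIp
  -- the image of `p` in `R ⧸ π` is prime, hence radical
  have hpprime : p.IsPrime := hp.isPrime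
  have hpbar : (p.map (Ideal.Quotient.mk (Ideal.span {π}))).IsPrime :=
    Ideal.map_isPrime_of_surjective Ideal.Quotient.mk_surjective (by rwa [Ideal.mk_ker])
  have hrad := H9.isRadical_map_of_isUnit_discr hpbar.isRadical eb hunit
  -- pull back along `B → B ⧸ π B`
  have hsq : (p.map (Ideal.Quotient.mk (Ideal.span {π}))).map
      (algebraMap (R ⧸ Ideal.span {π}) (B ⧸ (Ideal.span {π}).map (algebraMap R B))) =
      (p.map (algebraMap R B)).map
        (Ideal.Quotient.mk ((Ideal.span {π}).map (algebraMap R B))) := by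
    rw [Ideal.map_map, Ideal.map_map]
    congr 1
  have hcomap : (p.map (algebraMap R B)) =
      ((p.map (Ideal.Quotient.mk (Ideal.span {π}))).map
        (algebraMap (R ⧸ Ideal.span {π}) (B ⧸ (Ideal.span {π}).map (algebraMap R B)))).comap
        (Ideal.Quotient.mk ((Ideal.span {π}).map (algebraMap R B))) := by
    rw [hsq, Ideal.comap_map_of_surjective _ Ideal.Quotient.mk_surjective,
      ← RingHom.ker_eq_comap_bot, Ideal.mk_ker, sup_eq_left.mpr hJp]
  rw [hcomap]
  exact hrad.comap _

end Rad

section UFD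

variable {R : Type*} [CommRing R] [IsDomain R] [UniqueFactorizationMonoid R] {π : R}

/-- In a UFD: if every prime factor of `δ ≠ 0` is a unit modulo `π`, so is `δ`. -/
theorem isUnit_mk_of_forall_prime_dvd {δ : R} (hδ0 : δ ≠ 0)
    (h : ∀ q : R, Prime q → q ∣ δ → IsUnit (Ideal.Quotient.mk (Ideal.span {π}) q)) :
    IsUnit (Ideal.Quotient.mk (Ideal.span {π}) δ) := by
  revert hδ0 h
  refine UniqueFactorizationMonoid.induction_on_prime δ ?_ ?_ ?_
  · intro h0; exact absurd rfl h0
  · intro x hx _ _; exact hx.map _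
  · intro a q ha0 hq ih _ h
    rw [map_mul]
    exact (h q hq (dvd_mul_right q a)).mul
      (ih ha0 fun q' hq' hdvd => h q' hq' (Dvd.dvd.mul_left hdvd q))

/-- **UFD step of PURITY.**  `π` prime, `π ∤ δ`, `δ ≠ 0`, `s ≡ 1 mod π`, and every prime `q ∤ π`,
`q ∤ s` does not divide `δ`.  Then `δ` is a unit modulo `π`. -/
theorem isUnit_mk_of_forall_prime_not_dvd (hπ : Prime π) {δ s : R} (hδ0 : δ ≠ 0)
    (hπδ : ¬ π ∣ δ) (hs : π ∣ s - 1)
    (hq : ∀ q : R, Prime q → ¬ q ∣ π → ¬ q ∣ s → ¬ q ∣ δ) :
    IsUnit (Ideal.Quotient.mk (Ideal.span {π}) δ) := by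
  refine isUnit_mk_of_forall_prime_dvd hδ0 fun q hqp hqδ => ?_
  have hqπ : ¬ q ∣ π := by
    rintro ⟨c, hc⟩
    have hdvd : π ∣ q * c := ⟨1, by rw [mul_one, hc]⟩
    rcases hπ.dvd_or_dvd hdvd with h | h
    · exact hπδ (h.trans hqδ)
    · obtain ⟨c', rfl⟩ := h
      have : π * 1 = π * (q * c') := by rw [mul_one]; nth_rewrite 1 [hc]; ring
      have h1 : 1 = q * c' := mul_left_cancel₀ hπ.ne_zero this
      exact hqp.not_isUnit (IsUnit.of_mul_eq_one c' h1.symm)
  have hqs : q ∣ s := by
    by_contra hns
    exact hq q hqp hqπ hns hqδ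
  obtain ⟨c, hc⟩ := hqs
  have h1 : Ideal.Quotient.mk (Ideal.span {π}) s = 1 := by
    rw [← sub_eq_zero, ← map_one (Ideal.Quotient.mk (Ideal.span {π})), ← map_sub,
      Ideal.Quotient.eq_zero_iff_mem, Ideal.mem_span_singleton]
    exact hs
  refine IsUnit.of_mul_eq_one (Ideal.Quotient.mk (Ideal.span {π}) c) ?_
  rw [← map_mul, ← hc, h1]

end UFD

section RadMain

variable {R K L B : Type*} [CommRing R] [IsDomain R] [IsNoetherianRing R] [IsIntegrallyClosed R]
  [Field K] [Algebra R K] [IsFractionRing R K] [Field L] [Algebra K L] [Algebra R L]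
  [IsScalarTower R K L]
  [CommRing B] [Algebra R B] [Algebra B L] [IsScalarTower R B L]
  [IsIntegralClosure B R L] [FiniteDimensional K L] [Algebra.IsSeparable K L]
  {π : R}

variable (K L B) in
include K L in
/-- **(RAD) = PURITY in the shape consumed by the quotient step.**  Under (VERT) and (HOR), for
every maximal ideal `p ∋ π` of `R`, the ideal `p B` of the integral closure is radical. -/
theorem isRadical_map_of_vert_hor (hπ : Prime π) [IsPrincipalIdealRing (R ⧸ Ideal.span {π})]
    (hV : VertCond R K L π) (hH : HorCond R K L π)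
    (p : Ideal R) (hp : p.IsMaximal) (hπp : π ∈ p) :
    (p.map (algebraMap R B)).IsRadical := by
  classical
  have hfree := free_quotient' K L B hπ
  have hfinq := finite_quotient K L B π
  have hprime : (Ideal.span {π}).IsPrime := (Ideal.span_singleton_prime hπ.ne_zero).mpr hπ
  have : IsDomain (R ⧸ Ideal.span {π}) := Ideal.Quotient.isDomain _
  let eb := Module.Free.chooseBasis (R ⧸ Ideal.span {π})
    (B ⧸ (Ideal.span {π}).map (algebraMap R B))
  exact isRadical_map_of_isUnit_discr_quotient eb
    (isUnit_discr_quotient (K := K) (L := L) hπ hV hH eb) p hp hπp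

end RadMain

end Fermat.Agent.S18.H41
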