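/-
S18 project, package PURITY (helper41): PURITY-MAIN with the valuation-ring form of (HOR) over a
UFD base (route 1 of the PURITY-MAIN split helper41/helper9).
Mathlib + H41_Purity* + helper9's H9_HorLocal (HL) + helper1's H1_VertCond.

`hHOR`: every valuation ring `V ≠ ⊤` of `L` containing `R` and `π⁻¹` has a uniformiser coming from
`R`;  `hnat`: every nonzero natural number is `π ^ a * unit` in `R` (characteristic-zero generic
fibre).  `R` a noetherian integrally closed UFD, `π` prime, `R ⧸ π` a PID.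
* `isUnit_discr_quotient_of_vert_hHOR` : unit discriminant of the special fibre;
* `isRadical_map_of_vert_hHOR` : (RAD);
* `exists_isDiscreteValuationRing_localization_quotient_of_hHOR` : DVR local rings;
* `purityMain` : the statement of helper96 #1904 (A3).
-/
import Fermat.Agent.S18.H41_PurityRad
import Fermat.Agent.S18.H9_HorLocal
import Fermat.Agent.S18.H1_VertCond

set_option autoImplicit false
set_option linter.unusedSectionVars false

open Module IsLocalRing

namespace Fermat.Agent.S18.H41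

section UFDMain

variable {R K L B : Type*} [CommRing R] [IsDomain R] [IsNoetherianRing R] [IsIntegrallyClosed R]
  [UniqueFactorizationMonoid R]
  [Field K] [Algebra R K] [IsFractionRing R K] [Field L] [Algebra K L] [Algebra R L]
  [IsScalarTower R K L]
  [CommRing B] [Algebra R B] [Algebra B L] [IsScalarTower R B L]
  [IsIntegralClosure B R L] [FiniteDimensional K L] [Algebra.IsSeparable K L]
  {π : R}
  {ι : Type*} [Fintype ι] [DecidableEq ι]

/-- **PURITY, discriminant form, valuation-ring (HOR) and UFD base.**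
`hHOR`: every valuation ring of `L` over `R[1/π]` has a uniformiser coming from `R`;
`hnat`: every nonzero natural number is a unit times a power of `π` in `R`. -/
theorem isUnit_discr_quotient_of_vert_hHOR (hπ : Prime π)
    (hnat : ∀ n : ℕ, n ≠ 0 → ∃ (a : ℕ) (u : Rˣ), ((n : ℕ) : R) = π ^ a * u)
    (hV : VertCond R K L π)
    (hHOR : ∀ V : ValuationSubring L, V ≠ ⊤ → (∀ r : R, algebraMap R L r ∈ V) →
      (algebraMap R L π)⁻¹ ∈ V → ∃ g : R, V.valuation (algebraMap R L g) < 1 ∧
        ∀ y : L, V.valuation y < 1 → V.valuation y ≤ V.valuation (algebraMap R L g))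
    (eb : Basis ι (R ⧸ Ideal.span {π}) (B ⧸ (Ideal.span {π}).map (algebraMap R B))) :
    IsUnit (Algebra.discr (R ⧸ Ideal.span {π}) eb) := by
  have hfin : Module.Finite R B := IsIntegralClosure.finite R K L B
  choose e he using fun i => Ideal.Quotient.mk_surjective (eb i)
  obtain ⟨bK, hbK⟩ := exists_basis_of_lift (K := K) (L := L) hπ eb e he
  obtain ⟨δ, hδ1, hδ2⟩ := exists_discr_eq_and_discr_quotient_eq (K := K) (L := L) hπ eb e he bK hbK
  have hfun : (fun i => Ideal.Quotient.mk ((Ideal.span {π}).map (algebraMap R B)) (e i)) = eb :=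
    funext he
  have hsp : ⊤ ≤ Submodule.span (R ⧸ Ideal.span {π}) (Set.range
      (fun i => Ideal.Quotient.mk ((Ideal.span {π}).map (algebraMap R B)) (e i))) := by
    rw [hfun]; exact eb.span_eq.ge
  obtain ⟨s, hs1, hs⟩ := exists_smul_eq_sum (π := π) e hsp
  -- `π ∤ δ`
  obtain ⟨xv, δx, hxint, hδx, hnd⟩ := hV
  have hc : Fintype.card ι = Fintype.card (Fin (Module.finrank K L)) := by
    rw [Fintype.card_fin, Module.finrank_eq_card_basis bK]
  let σ : ι ≃ Fin (Module.finrank K L) := Fintype.equivOfCardEq hc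
  have hπδ : ¬ π ∣ δ := not_dvd_discr_of_family hπ eb e he bK hbK hδ1 (xv ∘ σ)
    (fun i => hxint (σ i)) (by rw [discr_comp_equiv, hδx]) hnd
  -- `δ ≠ 0`
  have hδ0 : δ ≠ 0 := by
    rintro rfl
    rw [map_zero] at hδ1
    exact Algebra.discr_not_zero_of_basis K bK hδ1
  rw [hδ2]
  refine isUnit_mk_of_forall_prime_not_dvd hπ hδ0 hπδ hs1 fun q hq hqπ hqs => ?_
  have hq0 : ∀ n : ℕ, n ≠ 0 → ¬ q ∣ ((n : ℕ) : R) := by
    intro n hn hdvd
    obtain ⟨a, u, hu⟩ := hnat n hn
    rw [hu] at hdvd
    rcases hq.dvd_or_dvd hdvd with h | h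
    · exact hqπ (hq.dvd_of_dvd_pow h)
    · exact hq.not_isUnit (isUnit_of_dvd_unit h u.isUnit)
  refine H9.not_dvd_discr_of_hor π q hq hqπ hq0 bK
    (fun i => by rw [hbK]; exact (IsIntegralClosure.isIntegral R L (e i)).algebraMap)
    (fun y hy => ?_) hHOR δ hδ1.symm
  obtain ⟨b, rfl⟩ := (IsIntegralClosure.isIntegral_iff (A := B)).mp hy
  obtain ⟨c, hc⟩ := hs b
  refine ⟨s, hqs, c, ?_⟩
  have h2 := congrArg (algebraMap B L) hc
  rw [Algebra.smul_def, map_mul, ← IsScalarTower.algebraMap_apply, map_sum] at h2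
  rw [h2]
  refine Finset.sum_congr rfl fun i _ => ?_
  rw [Algebra.smul_def, map_mul, ← IsScalarTower.algebraMap_apply, hbK]

variable (K L B) in
include K L in
/-- **(RAD), valuation-ring (HOR) and UFD base.** -/
theorem isRadical_map_of_vert_hHOR (hπ : Prime π) [IsPrincipalIdealRing (R ⧸ Ideal.span {π})]
    (hnat : ∀ n : ℕ, n ≠ 0 → ∃ (a : ℕ) (u : Rˣ), ((n : ℕ) : R) = π ^ a * u)
    (hV : VertCond R K L π)
    (hHOR : ∀ V : ValuationSubring L, V ≠ ⊤ → (∀ r : R, algebraMap R L r ∈ V) →
      (algebraMap R L π)⁻¹ ∈ V → ∃ g : R, V.valuation (algebraMap R L g) < 1 ∧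
        ∀ y : L, V.valuation y < 1 → V.valuation y ≤ V.valuation (algebraMap R L g))
    (p : Ideal R) (hp : p.IsMaximal) (hπp : π ∈ p) :
    (p.map (algebraMap R B)).IsRadical := by
  classical
  have hfree := free_quotient' K L B hπ
  have hfinq := finite_quotient K L B π
  have hprime : (Ideal.span {π}).IsPrime := (Ideal.span_singleton_prime hπ.ne_zero).mpr hπ
  have : IsDomain (R ⧸ Ideal.span {π}) := Ideal.Quotient.isDomain _
  let eb := Module.Free.chooseBasis (R ⧸ Ideal.span {π})
    (B ⧸ (Ideal.span {π}).map (algebraMap R B))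
  exact isRadical_map_of_isUnit_discr_quotient eb
    (isUnit_discr_quotient_of_vert_hHOR (K := K) (L := L) hπ hnat hV hHOR eb) p hp hπp

/-- **DVR form, valuation-ring (HOR) and UFD base**: every local ring of the special fibre
`B ⧸ π B` at a maximal ideal is a discrete valuation ring. -/
theorem exists_isDiscreteValuationRing_localization_quotient_of_hHOR (hπ : Prime π)
    [IsPrincipalIdealRing (R ⧸ Ideal.span {π})] (hnf : ¬ IsField (R ⧸ Ideal.span {π}))
    (hnat : ∀ n : ℕ, n ≠ 0 → ∃ (a : ℕ) (u : Rˣ), ((n : ℕ) : R) = π ^ a * u)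
    (hV : VertCond R K L π)
    (hHOR : ∀ V : ValuationSubring L, V ≠ ⊤ → (∀ r : R, algebraMap R L r ∈ V) →
      (algebraMap R L π)⁻¹ ∈ V → ∃ g : R, V.valuation (algebraMap R L g) < 1 ∧
        ∀ y : L, V.valuation y < 1 → V.valuation y ≤ V.valuation (algebraMap R L g))
    (x : Ideal (B ⧸ (Ideal.span {π}).map (algebraMap R B))) [x.IsMaximal] :
    ∃ w : R ⧸ Ideal.span {π}, w ≠ 0 ∧ (Ideal.span {w}).IsMaximal ∧
      algebraMap (R ⧸ Ideal.span {π}) (B ⧸ (Ideal.span {π}).map (algebraMap R B)) w ∈ x ∧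
      maximalIdeal (Localization.AtPrime x) =
        Ideal.span {algebraMap _ (Localization.AtPrime x)
          (algebraMap (R ⧸ Ideal.span {π}) (B ⧸ (Ideal.span {π}).map (algebraMap R B)) w)} ∧
      ∃ _ : IsDomain (Localization.AtPrime x), IsDiscreteValuationRing (Localization.AtPrime x) := by
  classical
  have hfree := free_quotient' K L B hπ
  have hfinq := finite_quotient K L B π
  have hprime : (Ideal.span {π}).IsPrime := (Ideal.span_singleton_prime hπ.ne_zero).mpr hπ
  have : IsDomain (R ⧸ Ideal.span {π}) := Ideal.Quotient.isDomain _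
  let eb := Module.Free.chooseBasis (R ⧸ Ideal.span {π})
    (B ⧸ (Ideal.span {π}).map (algebraMap R B))
  exact exists_isDiscreteValuationRing_localization_of_isMaximal hnf eb
    (isUnit_discr_quotient_of_vert_hHOR (K := K) (L := L) hπ hnat hV hHOR eb) x

variable (K L B) in
include K L in
/-- **PURITY-MAIN in the shape of helper96 #1904 (A3)** (with helper45's `hnat` instead of
`[Algebra ℚ R]`): (VERT) in helper1's shape, (HOR) in the valuation-ring shape. -/
theorem purityMain (hπ : Prime π) [IsPrincipalIdealRing (R ⧸ Ideal.span {π})]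
    (hnat : ∀ n : ℕ, n ≠ 0 → ∃ (a : ℕ) (u : Rˣ), ((n : ℕ) : R) = π ^ a * u)
    (θ : L) (hgen : IntermediateField.adjoin K {θ} = ⊤) {Φ : Polynomial R} (hΦ : Φ.Monic)
    (hroot : Polynomial.aeval θ Φ = 0) {κ : Type*} [Field κ] (φ : R →+* κ) (hφ : φ π = 0)
    (hsep : (Φ.map φ).Separable)
    (hHOR : ∀ V : ValuationSubring L, V ≠ ⊤ → (∀ r : R, algebraMap R L r ∈ V) →
      (algebraMap R L π)⁻¹ ∈ V → ∃ g : R, V.valuation (algebraMap R L g) < 1 ∧
        ∀ y : L, V.valuation y < 1 → V.valuation y ≤ V.valuation (algebraMap R L g)) :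
    ∀ p : Ideal R, p.IsMaximal → π ∈ p → (p.map (algebraMap R B)).IsRadical :=
  isRadical_map_of_vert_hHOR K L B hπ hnat
    (H1.vertCond_of_separable θ hgen hΦ hroot φ hsep hφ) hHOR

end UFDMain

end Fermat.Agent.S18.H41
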