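/-
S18 project, route Q of (GR), cusp chart (helper42): `H13.isIntegrallyClosed_cuspChart` with the
(VERT) hypothesis `hV` discharged from the separability of `Φ mod ρ` (`H42.hV_cuspChart`).
-/
import Fermat.Agent.S18.H42_CuspVertInst

set_option autoImplicit false
set_option linter.unusedSectionVars false
set_option linter.style.haveILetI false

open Polynomial IntermediateField

namespace Fermat.Agent.S18.H42

open Fermat.Agent.S18 Fermat.Agent.S18.H13

section Main

variable {A₁ : Type*} [CommRing A₁] [IsDomain A₁] [IsDiscreteValuationRing A₁] [CharZero A₁]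
  (ϖ : A₁) [hϖ : Fact (Prime ϖ)]
variable (L1 : Type*) [Field L1] [Algebra A₁ L1] [IsFractionRing A₁ L1]
variable {F1 : Type*} [Field F1] [Algebra A₁ F1] [Algebra L1 F1] [IsScalarTower A₁ L1 F1]
variable (u : F1) [hu : Fact (Transcendental A₁ u)] (N : ℕ) [NeZero N]

include L1 in
/-- The (VERT) condition of the cusp chart from `L1(j1)(θ) = F1`, `Φ(θ, j1) = 0` and the
separability of `Φ mod ρ`. -/
theorem vertCond_cuspChart {j1 θ : F1} (hju : j1 * u = 1)
    (hgen : L1⟮j1⟯⟮θ⟯ = ⊤) (hθ : IsAlgebraic L1⟮j1⟯ θ)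
    {k : Type} [Field k] (ρ : A₁ →+* k) (hker : RingHom.ker ρ = Ideal.span {ϖ})
    {Φ : ℤ[X][X]} (hΦ : Φ.Monic)
    (hsep : (Φ.map ((algebraMap k[X] (RatFunc k)).comp
      (mapRingHom (Int.castRingHom k)))).Separable)
    (hroot : eval₂ (eval₂RingHom (Int.castRingHom F1) j1) θ Φ = 0) :
    H41.VertCond (CuspT ϖ u N) (FractionRing (CuspT ϖ u N)) (CuspField u N)
      (algebraMap A₁ (CuspT ϖ u N) ϖ) := by
  classical
  have hinjT := algebraMap_base_cuspT_injective ϖ u N
  have hinjF := algebraMap_base_F1_injective (A₁ := A₁) L1 (F1 := F1)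
  haveI : CharZero (CuspT ϖ u N) := charZero_of_injective_algebraMap hinjT
  haveI : CharZero F1 := charZero_of_injective_algebraMap hinjF
  letI algL1K' : Algebra L1 (FractionRing (CuspT ϖ u N)) :=
    (fracLift L1 (CuspT ϖ u N) hinjT).toAlgebra
  haveI towL1K' : IsScalarTower L1 (FractionRing (CuspT ϖ u N)) (CuspField u N) :=
    IsScalarTower.of_algebraMap_eq fun c =>
      (algebraMap_fracLift (E := CuspField u N) L1 (CuspT ϖ u N) hinjT c).symm
  have hj1 : j1 = u⁻¹ := eq_inv_of_mul_eq_one_left hju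
  have hτK' : cuspTau u N ∈ (algebraMap (FractionRing (CuspT ϖ u N)) (CuspField u N)).range :=
    ⟨algebraMap (CuspT ϖ u N) _ (algebraMap A₁[X] (CuspT ϖ u N) X), by
      rw [← IsScalarTower.algebraMap_apply (CuspT ϖ u N) (FractionRing (CuspT ϖ u N))
        (CuspField u N), algebraMap_cuspT_X]⟩
  have hjK' : algebraMap F1 (CuspField u N) j1 ∈
      (algebraMap (FractionRing (CuspT ϖ u N)) (CuspField u N)).range := by
    obtain ⟨c, hc⟩ := hτK'
    refine ⟨(c ^ N)⁻¹, ?_⟩
    rw [map_inv₀, map_pow, hc, cuspTau_pow, hj1, map_inv₀]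
  haveI finK' : FiniteDimensional (FractionRing (CuspT ϖ u N)) (CuspField u N) :=
    H70.finiteDimensional_of_compositum (L := L1) (F := F1) (F' := CuspField u N)
      (KY := FractionRing (CuspT ϖ u N)) hgen hθ (adjoin_cuspTau u N) hτK' hjK'
  haveI : CharZero (FractionRing (CuspT ϖ u N)) :=
    charZero_of_injective_algebraMap (IsFractionRing.injective (CuspT ϖ u N) _)
  have hgen' : IntermediateField.adjoin (FractionRing (CuspT ϖ u N))
      {algebraMap F1 (CuspField u N) θ} = ⊤ :=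
    H70.adjoin_eq_top_of_compositum (L := L1) (F := F1) (F' := CuspField u N)
      (KY := FractionRing (CuspT ϖ u N)) hgen (adjoin_cuspTau u N) hτK' hjK'
  exact hV_cuspChart ϖ u N ρ hker hΦ hsep hju hroot hgen'

include L1 in
/-- `H13.isIntegrallyClosed_cuspChart` with (VERT) discharged: the remaining inputs are (HOR) and
the primality of `ϖ` in the integral closure of the `Y`-line local ring. -/
theorem isIntegrallyClosed_cuspChart_of_sep {j1 θ : F1} (hju : j1 * u = 1)
    (hgen : L1⟮j1⟯⟮θ⟯ = ⊤) (hθ : IsAlgebraic L1⟮j1⟯ θ)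
    {ζ : A₁} (hζ : IsPrimitiveRoot ζ N)
    {k : Type} [Field k] [IsAlgClosed k] (ρ : A₁ →+* k) (hρ : Function.Surjective ρ)
    (hker : RingHom.ker ρ = Ideal.span {ϖ})
    {Φ : ℤ[X][X]} (hΦ : Φ.Monic)
    (hsep : (Φ.map ((algebraMap k[X] (RatFunc k)).comp
      (mapRingHom (Int.castRingHom k)))).Separable)
    (hroot : eval₂ (eval₂RingHom (Int.castRingHom F1) j1) θ Φ = 0)
    (hH : H41.HorCond (CuspT ϖ u N) (FractionRing (CuspT ϖ u N)) (CuspField u N)
      (algebraMap A₁ (CuspT ϖ u N) ϖ))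
    (hprime : (Ideal.span {algebraMap (CuspY ϖ u) (integralClosure (CuspY ϖ u) F1)
      (algebraMap A₁ (CuspY ϖ u) ϖ)}).IsPrime) :
    IsIntegrallyClosed (integralClosure (CuspY ϖ u) F1 ⧸
      Ideal.span {algebraMap (CuspY ϖ u) (integralClosure (CuspY ϖ u) F1)
        (algebraMap A₁ (CuspY ϖ u) ϖ)}) :=
  isIntegrallyClosed_cuspChart ϖ L1 u N hju hgen hθ hζ ρ hρ hker
    (vertCond_cuspChart ϖ L1 u N hju hgen hθ ρ hker hΦ hsep hroot) hH hprime

end Main

end Fermat.Agent.S18.H42
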