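/-
S18 project, route Q of (GR), cusp chart (helper42): irreducibility companion of `H42_CuspVert`.
* `irreducible_scaleRoots` : scaling the roots by a unit preserves irreducibility;
* `irreducible_map_cuspPoly` : the cusp polynomial is irreducible wherever `Φ(·, j)` is;
* `cuspSigma k 1` (`J ↦ X⁻¹`) is an automorphism of `k(X)`, hence on the `Y`-line chart (`N = 1`)
  irreducibility of `Φ mod ρ` over `k(J)` gives irreducibility of the reduced cusp polynomial.
-/
import Mathlib
import Fermat.Agent.S18.H42_CuspVert

set_option autoImplicit false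
set_option linter.unusedSectionVars false
set_option linter.style.haveILetI false

open Polynomial

namespace Fermat.Agent.S18.H42

section ScaleIrred

variable {S : Type*} [CommRing S]

theorem irreducible_comp_C_mul_X {p : S[X]} (hp : Irreducible p) {s u : S} (hsu : s * u = 1) :
    Irreducible (p.comp (C u * X)) := by
  letI : Invertible u := ⟨s, hsu, by rw [mul_comm]; exact hsu⟩
  have h := (MulEquiv.irreducible_iff (algEquivCMulXAddC u 0 : S[X] ≃ₐ[S] S[X])).mpr hp
  rw [algEquivCMulXAddC_apply, C_0, add_zero] at h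
  have h2 : aeval (C u * X) p = p.comp (C u * X) := by
    simp [aeval_def, comp]
  rwa [h2] at h

/-- Scaling the roots by a unit preserves irreducibility. -/
theorem irreducible_scaleRoots {p : S[X]} (hp : Irreducible p) {s : S} (hs : IsUnit s) :
    Irreducible (scaleRoots p s) := by
  obtain ⟨u, hu⟩ := hs.exists_right_inv
  rw [scaleRoots_eq_C_mul_comp p hu]
  exact (irreducible_isUnit_mul ((hs.pow _).map C)).mpr (irreducible_comp_C_mul_X hp hu)

end ScaleIrred


section CuspPolyIrred

variable {A : Type*} [CommRing A] {S : Type*} [CommRing S]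

/-- The cusp polynomial is irreducible wherever `Φ(·, j)` is. -/
theorem irreducible_map_cuspPoly [Nontrivial S] {Φ : A[X][X]} (hΦ : Φ.Monic) {e : ℕ}
    (he : ∀ m, (Φ.coeff m).natDegree ≤ e) (G : A[X] →+* S) {j : S} (hj : j * G X = 1)
    (hirr : Irreducible (Φ.map (eval₂RingHom (G.comp C) j))) :
    Irreducible ((cuspPoly Φ e).map G) := by
  rw [map_cuspPoly hΦ he G hj]
  refine irreducible_scaleRoots hirr (IsUnit.pow _ ?_)
  exact IsUnit.of_mul_eq_one_right _ hj

end CuspPolyIrred

section SigmaOne

variable (k : Type*) [Field k]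

theorem cuspSigma_one_X : cuspSigma k 1 (RatFunc.X : RatFunc k) = (RatFunc.X : RatFunc k)⁻¹ := by
  conv_lhs => rw [← RatFunc.algebraMap_X, cuspSigma_algebraMap, eval₂_X, pow_one]

theorem cuspSigma_one_C (a : k) :
    cuspSigma k 1 (algebraMap k (RatFunc k) a) = algebraMap k (RatFunc k) a := by
  have : algebraMap k (RatFunc k) a = algebraMap k[X] (RatFunc k) (C a) := by
    rw [← algebraMap_eq, ← IsScalarTower.algebraMap_apply]
  rw [this, cuspSigma_algebraMap, eval₂_C, ← this]

/-- `J ↦ X⁻¹` is an involution of `k(X)`. -/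
theorem cuspSigma_one_cuspSigma_one (f : RatFunc k) : cuspSigma k 1 (cuspSigma k 1 f) = f := by
  have hcomp : ((cuspSigma k 1).comp (cuspSigma k 1)).comp (algebraMap k[X] (RatFunc k)) =
      algebraMap k[X] (RatFunc k) := by
    apply Polynomial.ringHom_ext
    · intro a
      simp only [RingHom.comp_apply]
      have : algebraMap k[X] (RatFunc k) (C a) = algebraMap k (RatFunc k) a := by
        rw [← algebraMap_eq, ← IsScalarTower.algebraMap_apply]
      rw [this, cuspSigma_one_C, cuspSigma_one_C]
    · simp only [RingHom.comp_apply]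
      rw [RatFunc.algebraMap_X, cuspSigma_one_X, map_inv₀, cuspSigma_one_X, inv_inv]
  have h := IsLocalization.ringHom_ext (nonZeroDivisors k[X])
    (j := (cuspSigma k 1).comp (cuspSigma k 1)) (k := RingHom.id (RatFunc k))
    (by rw [hcomp, RingHom.id_comp])
  exact congrFun (congrArg DFunLike.coe h) f

theorem cuspSigma_one_bijective : Function.Bijective (cuspSigma k 1) :=
  Function.Involutive.bijective (cuspSigma_one_cuspSigma_one k)

/-- Irreducibility is preserved by the automorphism `J ↦ X⁻¹` of `k(X)`. -/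
theorem irreducible_map_cuspSigma_one {p : (RatFunc k)[X]} (hp : Irreducible p) :
    Irreducible (p.map (cuspSigma k 1)) := by
  have h := (MulEquiv.irreducible_iff
    (Polynomial.mapEquiv (RingEquiv.ofBijective (cuspSigma k 1) (cuspSigma_one_bijective k)))).mpr hp
  rw [Polynomial.mapEquiv_apply] at h
  have h2 : ((RingEquiv.ofBijective (cuspSigma k 1) (cuspSigma_one_bijective k) :
      RatFunc k ≃+* RatFunc k) : RatFunc k →+* RatFunc k) = cuspSigma k 1 := by
    ext f
    rfl
  rwa [h2] at h

end SigmaOne


section InstanceOne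

variable {A : Type*} [CommRing A] [IsDomain A] {π : A}
variable (R : Type*) [CommRing R] [Algebra A[X] R]
variable [hP : (cuspIdeal π).IsPrime] [IsLocalization.AtPrime R (cuspIdeal π)]
variable {k : Type*} [Field k]

/-- **Irreducibility on the `Y`-line chart (`N = 1`).** If `Φ mod ρ` is irreducible over `k(J)`
then the reduced cusp polynomial is irreducible over `k(Y)`. -/
theorem irreducible_map_cuspVertPoly_one (ρ : A →+* k) (hρ : ∀ a, ρ a = 0 → π ∣ a)
    {Φ : ℤ[X][X]} (hΦ : Φ.Monic) {e : ℕ} (he : ∀ m, (Φ.coeff m).natDegree ≤ e)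
    (hirr : Irreducible (Φ.map ((algebraMap k[X] (RatFunc k)).comp
      (mapRingHom (Int.castRingHom k))))) :
    Irreducible ((cuspVertPoly (A := A) R 1 Φ e).map (cuspRes R ρ hρ)) := by
  set G : ℤ[X] →+* RatFunc k := (cuspRes R ρ hρ).comp (cuspY (A := A) R 1) with hG
  have hGX : G X = (RatFunc.X : RatFunc k) := by
    rw [hG, RingHom.comp_apply, cuspY_X, pow_one, cuspRes_X]
  have hj : (RatFunc.X : RatFunc k)⁻¹ * G X = 1 := by
    rw [hGX, inv_mul_cancel₀ RatFunc.X_ne_zero]
  rw [cuspVertPoly, map_map, ← hG]
  apply irreducible_map_cuspPoly hΦ he G hj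
  have h1 := irreducible_map_cuspSigma_one k hirr
  rw [map_map] at h1
  have hhom : eval₂RingHom (G.comp C) (RatFunc.X : RatFunc k)⁻¹ =
      (cuspSigma k 1).comp ((algebraMap k[X] (RatFunc k)).comp
        (mapRingHom (Int.castRingHom k))) := by
    apply Polynomial.ringHom_ext
    · intro a
      exact congrFun (congrArg DFunLike.coe (RingHom.ext_int
        ((eval₂RingHom (G.comp C) (RatFunc.X : RatFunc k)⁻¹).comp C)
        (((cuspSigma k 1).comp ((algebraMap k[X] (RatFunc k)).comp
          (mapRingHom (Int.castRingHom k)))).comp C))) a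
    · rw [coe_eval₂RingHom, eval₂_X, RingHom.comp_apply, RingHom.comp_apply, coe_mapRingHom,
        Polynomial.map_X, RatFunc.algebraMap_X, cuspSigma_one_X]
  rw [hhom]
  exact h1

end InstanceOne

end Fermat.Agent.S18.H42
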