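/-
S18 cluster, route Q of (GR), package (VERT) - abstract part (helper42). Mathlib only.

`R` an integrally closed domain with finite `π`-adic multiplicities (`WfDvdMonoid`, e.g. noetherian
or a UFD), `π` a prime element, `K = Frac R`, `F = K[θ]` with `θ` a root of a monic `Φ ∈ R[X]`
whose reduction modulo `π` is separable (over any field `κ` receiving `R/π`).  Then

* (V0) the minimal polynomial `m` of `θ` over `R` is monic, divides `Φ`, has separable reduction
  and is separable over `K`;
* (V1) every `z ∈ F` integral over `R` satisfies `s • z ∈ R[θ]` for some `s ∉ (π)`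
  (the integral closure of `R_(π)` in `F` is `R_(π)[θ]`);
* (V2) the discriminant of `1, θ, …, θ^(n-1)` is an element of `R` not divisible by `π`.
-/
import Mathlib

set_option autoImplicit false
set_option linter.unusedSectionVars false
set_option linter.style.haveILetI false

namespace Fermat.Agent.S18.H42

open Polynomial

noncomputable section

variable {R K F κ : Type*} [CommRing R] [IsDomain R] [IsIntegrallyClosed R]
  [Field K] [Algebra R K] [IsFractionRing R K] [Field F] [Algebra K F] [Algebra R F]
  [IsScalarTower R K F] [Field κ]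

/-- The hypotheses of (VERT): `π` prime, `φ : R → κ` with kernel `(π)`, `θ` a root of the monic
`Φ` whose reduction is separable. -/
structure VertData (π : R) (φ : R →+* κ) (θ : F) (Φ : R[X]) : Prop where
  prime : Prime π
  ker : RingHom.ker φ = Ideal.span {π}
  monic : Φ.Monic
  root : aeval θ Φ = 0
  sep : (Φ.map φ).Separable

namespace VertData

variable {π : R} {φ : R →+* κ} {θ : F} {Φ : R[X]}

omit [IsIntegrallyClosed R] [IsFractionRing R K] in
theorem faithful (K : Type*) [Field K] [Algebra R K] [IsFractionRing R K] [Algebra K F]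
    [IsScalarTower R K F] : FaithfulSMul R F :=
  FaithfulSMul.trans R K F

theorem isIntegral (h : VertData π φ θ Φ) : IsIntegral R θ := ⟨Φ, h.monic, h.root⟩

theorem map_pi (h : VertData π φ θ Φ) : φ π = 0 := by
  have : π ∈ RingHom.ker φ := by
    rw [h.ker]; exact Ideal.mem_span_singleton_self π
  exact this

theorem dvd_of_map_eq_zero (h : VertData π φ θ Φ) {r : R} (hr : φ r = 0) : π ∣ r := by
  have : r ∈ RingHom.ker φ := hr
  rw [h.ker] at this
  exact Ideal.mem_span_singleton.mp this

theorem map_eq_zero_iff (h : VertData π φ θ Φ) {r : R} : φ r = 0 ↔ π ∣ r :=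
  ⟨h.dvd_of_map_eq_zero, fun ⟨c, hc⟩ => by rw [hc, map_mul, h.map_pi, zero_mul]⟩

/-- A polynomial whose reduction vanishes is divisible by `π`. -/
theorem C_dvd_of_map_eq_zero (h : VertData π φ θ Φ) {g : R[X]} (hg : g.map φ = 0) :
    C π ∣ g := by
  rw [Polynomial.C_dvd_iff_dvd_coeff]
  intro i
  apply h.dvd_of_map_eq_zero
  have := congrArg (fun p => p.coeff i) hg
  simpa using this

section WithK

variable (K)

include K in
theorem minpoly_dvd (h : VertData π φ θ Φ) : minpoly R θ ∣ Φ := by
  haveI : FaithfulSMul R F := faithful K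
  exact minpoly.isIntegrallyClosed_dvd h.isIntegral h.root

include K in
theorem aeval_eq_zero_iff (h : VertData π φ θ Φ) (p : R[X]) :
    aeval θ p = 0 ↔ minpoly R θ ∣ p := by
  haveI : FaithfulSMul R F := faithful K
  exact minpoly.isIntegrallyClosed_dvd_iff h.isIntegral p

include K in
theorem map_minpoly_separable (h : VertData π φ θ Φ) : ((minpoly R θ).map φ).Separable :=
  h.sep.of_dvd (Polynomial.map_dvd φ (h.minpoly_dvd K))

theorem minpoly_field (h : VertData π φ θ Φ) :
    minpoly K θ = (minpoly R θ).map (algebraMap R K) :=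
  minpoly.isIntegrallyClosed_eq_field_fractions' K h.isIntegral

theorem natDegree_minpoly_field (h : VertData π φ θ Φ) :
    (minpoly K θ).natDegree = (minpoly R θ).natDegree := by
  rw [h.minpoly_field K, (minpoly.monic h.isIntegral).natDegree_map]

theorem natDegree_map_minpoly (h : VertData π φ θ Φ) :
    ((minpoly R θ).map φ).natDegree = (minpoly R θ).natDegree :=
  (minpoly.monic h.isIntegral).natDegree_map φ

include K in
/-- The minimal polynomial of `θ` over `K` is separable. -/
theorem separable_minpoly_field (h : VertData π φ θ Φ) : (minpoly K θ).Separable := by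
  have hint : IsIntegral K θ := h.isIntegral.tower_top
  rw [Polynomial.separable_iff_derivative_ne_zero (minpoly.irreducible hint)]
  intro hd
  rw [h.minpoly_field K, Polynomial.derivative_map] at hd
  have hd0 : derivative (minpoly R θ) = 0 :=
    (Polynomial.map_eq_zero_iff (IsFractionRing.injective R K)).mp hd
  have hsep := h.map_minpoly_separable K
  rw [Polynomial.Separable, Polynomial.derivative_map, hd0, Polynomial.map_zero,
    isCoprime_zero_right] at hsep
  have hmon : ((minpoly R θ).map φ).Monic := (minpoly.monic h.isIntegral).map φ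
  have h1 : (minpoly R θ).map φ = 1 := hmon.isUnit_iff.mp hsep
  have h2 := h.natDegree_map_minpoly
  rw [h1, natDegree_one] at h2
  exact (minpoly.natDegree_pos h.isIntegral).ne h2

include K in
/-- Reduction of polynomial identities: if `m̄ ∣ ḡ ^ k` and `deg g < deg m` then `π ∣ g`. -/
theorem C_dvd_of_map_dvd_pow (h : VertData π φ θ Φ) {g : R[X]} {k : ℕ}
    (hdeg : g.natDegree < (minpoly R θ).natDegree)
    (hdvd : (minpoly R θ).map φ ∣ (g.map φ) ^ k) : C π ∣ g := by
  apply h.C_dvd_of_map_eq_zero
  have hsq : Squarefree ((minpoly R θ).map φ) := (h.map_minpoly_separable K).squarefree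
  have hdvd1 : (minpoly R θ).map φ ∣ g.map φ := hsq.isRadical k _ hdvd
  refine Polynomial.eq_zero_of_dvd_of_natDegree_lt hdvd1 ?_
  rw [h.natDegree_map_minpoly]
  exact lt_of_le_of_lt (Polynomial.natDegree_map_le) hdeg

include K in
/-- **Key descent step.** If `g(θ) = π • c` with `c` integral over `R` and `deg g < deg m`, then
`π ∣ g`. -/
theorem C_dvd_of_aeval_eq_smul (h : VertData π φ θ Φ) {g : R[X]} {c : F}
    (hc : IsIntegral R c) (hdeg : g.natDegree < (minpoly R θ).natDegree)
    (hgc : aeval θ g = π • c) : C π ∣ g := by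
  obtain ⟨p, hp, hpc⟩ := hc
  -- `q := scaleRoots p π` kills `π • c` and reduces to `X ^ deg p`
  have hpc' : aeval c p = 0 := hpc
  have hq0 : aeval (π • c) (scaleRoots p π) = 0 := by
    have := Polynomial.scaleRoots_aeval_eq_zero (p := p) (a := c) (r := π) hpc'
    rwa [← Algebra.smul_def] at this
  have hQ : aeval θ ((scaleRoots p π).comp g) = 0 := by
    rw [Polynomial.aeval_comp, hgc, hq0]
  have hdvd : minpoly R θ ∣ (scaleRoots p π).comp g := (h.aeval_eq_zero_iff K _).mp hQ
  have hmap : ((scaleRoots p π).comp g).map φ = (g.map φ) ^ p.natDegree := by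
    rw [Polynomial.map_comp]
    have hlc : φ p.leadingCoeff ≠ 0 := by rw [hp.leadingCoeff, map_one]; exact one_ne_zero
    rw [Polynomial.map_scaleRoots p π φ hlc, h.map_pi, Polynomial.scaleRoots_zero,
      (hp.map φ).leadingCoeff, one_smul, hp.natDegree_map, Polynomial.X_pow_comp]
  apply h.C_dvd_of_map_dvd_pow K hdeg (k := p.natDegree)
  rw [← hmap]
  exact Polynomial.map_dvd φ hdvd

include K in
/-- Induction on the power of `π`. -/
theorem mem_adjoin_of_aeval_eq_pow_smul (h : VertData π φ θ Φ) :
    ∀ (e : ℕ) (g : R[X]) (c : F), IsIntegral R c →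
      g.natDegree < (minpoly R θ).natDegree → aeval θ g = (π ^ e) • c →
      c ∈ Algebra.adjoin R {θ} := by
  haveI : FaithfulSMul R F := faithful K
  intro e
  induction e with
  | zero =>
    intro g c _ _ hgc
    rw [pow_zero, one_smul] at hgc
    rw [← hgc]
    exact Polynomial.aeval_mem_adjoin_singleton R θ
  | succ e ih =>
    intro g c hc hdeg hgc
    have hc' : IsIntegral R ((π ^ e) • c) := by
      rw [Algebra.smul_def]
      exact IsIntegral.mul isIntegral_algebraMap hc
    have hgc' : aeval θ g = π • ((π ^ e) • c) := by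
      rw [hgc, smul_smul, pow_succ']
    obtain ⟨g1, rfl⟩ := h.C_dvd_of_aeval_eq_smul K hc' hdeg hgc'
    have hπ0 : π ≠ 0 := h.prime.ne_zero
    have hg1deg : g1.natDegree < (minpoly R θ).natDegree := by
      rwa [Polynomial.natDegree_C_mul hπ0] at hdeg
    refine ih g1 c hc hg1deg ?_
    have h3 : π • aeval θ g1 = π • ((π ^ e) • c) := by
      rw [← hgc', map_mul, Polynomial.aeval_C, Algebra.smul_def]
    have hinj : Function.Injective (fun x : F => π • x) := by
      intro x y hxy
      simp only [Algebra.smul_def] at hxy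
      have h0 : algebraMap R F π ≠ 0 := by
        rw [Ne, FaithfulSMul.algebraMap_eq_zero_iff]; exact hπ0
      exact mul_left_cancel₀ h0 hxy
    exact hinj h3

/-- **(V1)** Every element of `F = K[θ]` integral over `R` lies in `R[θ]` after multiplication by
an element of `R` not divisible by `π`. -/
theorem exists_smul_mem_adjoin [WfDvdMonoid R] (h : VertData π φ θ Φ)
    (hgen : Algebra.adjoin K {θ} = ⊤) {z : F} (hz : IsIntegral R z) :
    ∃ s : R, ¬ π ∣ s ∧ s • z ∈ Algebra.adjoin R {θ} := by
  haveI : FaithfulSMul R F := faithful K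
  -- write `z = G(θ)` with `G ∈ K[X]` of degree `< n`
  have hzmem : z ∈ Algebra.adjoin K {θ} := by rw [hgen]; exact Algebra.mem_top
  rw [Algebra.adjoin_singleton_eq_range_aeval] at hzmem
  obtain ⟨G0, hG0⟩ := hzmem
  have hintK : IsIntegral K θ := h.isIntegral.tower_top
  set G := G0 %ₘ minpoly K θ with hG
  have hGz : aeval θ G = z := by
    have hG0' : aeval θ G0 = z := hG0
    rw [hG, ← hG0']
    exact Polynomial.aeval_modByMonic_eq_self_of_root (minpoly.aeval K θ)
  have hGdeg : G.natDegree < (minpoly R θ).natDegree ∨ G = 0 := by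
    by_cases hG00 : G = 0
    · exact Or.inr hG00
    · left
      rw [← h.natDegree_minpoly_field K]
      exact Polynomial.natDegree_lt_natDegree hG00
        (Polynomial.degree_modByMonic_lt _ (minpoly.monic hintK))
  -- clear denominators
  obtain ⟨t, ht, hgt⟩ := IsLocalization.integerNormalization_spec (nonZeroDivisors R) G
  set g := IsLocalization.integerNormalization (nonZeroDivisors R) G with hg
  have ht0 : t ≠ 0 := nonZeroDivisors.ne_zero ht
  have hgz : aeval θ g = t • z := by
    have h1 : aeval θ (g.map (algebraMap R K)) = aeval θ g := Polynomial.aeval_map_algebraMap K θ g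
    rw [← h1, hgt]
    rw [show (t • G : K[X]) = C (algebraMap R K t) * G by
      rw [Algebra.smul_def]; rfl]
    rw [map_mul, Polynomial.aeval_C, hGz, Algebra.smul_def, IsScalarTower.algebraMap_apply R K F]
  have hgdeg : g.natDegree < (minpoly R θ).natDegree := by
    have hpos : 0 < (minpoly R θ).natDegree := minpoly.natDegree_pos h.isIntegral
    rcases hGdeg with hlt | h0
    · have hle : g.natDegree ≤ G.natDegree := by
        have h2 : (g.map (algebraMap R K)).natDegree = g.natDegree :=
          Polynomial.natDegree_map_eq_of_injective (IsFractionRing.injective R K) g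
        rw [← h2, hgt]
        exact Polynomial.natDegree_smul_le _ _
      exact lt_of_le_of_lt hle hlt
    · have hg0 : g.map (algebraMap R K) = 0 := by rw [hgt, h0, smul_zero]
      have : g = 0 := (Polynomial.map_eq_zero_iff (IsFractionRing.injective R K)).mp hg0
      rw [this, natDegree_zero]; exact hpos
  -- split off the power of `π` from `t`
  obtain ⟨e, s, hs, hts⟩ := WfDvdMonoid.max_power_factor ht0 h.prime.irreducible
  refine ⟨s, hs, ?_⟩
  have hsz : IsIntegral R (s • z) := by
    rw [Algebra.smul_def]; exact IsIntegral.mul isIntegral_algebraMap hz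
  refine h.mem_adjoin_of_aeval_eq_pow_smul K e g (s • z) hsz hgdeg ?_
  rw [hgz, hts, mul_smul]

/-! ### (V2) the discriminant -/

include K in
/-- Elements of `R[θ]` are integral over `R`. -/
theorem isIntegral_aeval (h : VertData π φ θ Φ) (W : R[X]) : IsIntegral R (aeval θ W) := by
  have hle : Algebra.adjoin R {θ} ≤ integralClosure R F :=
    Algebra.adjoin_le (by
      intro x hx
      rw [Set.mem_singleton_iff] at hx
      rw [hx]
      exact h.isIntegral)
  exact hle (Polynomial.aeval_mem_adjoin_singleton R θ)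

include K in
/-- Descent step for `y = m'(θ)`: from `y * w = π * r₁` (with `w` integral) to `y * w₁ = s * r₁`
with `s ∉ (π)`. -/
theorem exists_mul_eq_of_mul_eq_pi_mul [WfDvdMonoid R] (h : VertData π φ θ Φ)
    (hgen : Algebra.adjoin K {θ} = ⊤) {w : F} (hw : IsIntegral R w) {r₁ : R}
    (hyw : aeval θ (derivative (minpoly R θ)) * w = algebraMap R F (π * r₁)) :
    ∃ (w₁ : F) (s : R), IsIntegral R w₁ ∧ ¬ π ∣ s ∧
      aeval θ (derivative (minpoly R θ)) * w₁ = algebraMap R F (s * r₁) := by
  haveI : FaithfulSMul R F := faithful K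
  obtain ⟨s, hs, hsw⟩ := h.exists_smul_mem_adjoin K hgen hw
  rw [Algebra.adjoin_singleton_eq_range_aeval] at hsw
  obtain ⟨W0, hW0⟩ := hsw
  have hW0' : aeval θ W0 = s • w := hW0
  have hmon : (minpoly R θ).Monic := minpoly.monic h.isIntegral
  set W := W0 %ₘ minpoly R θ with hWdef
  have hW : aeval θ W = s • w := by
    rw [hWdef, ← hW0']
    exact Polynomial.aeval_modByMonic_eq_self_of_root (minpoly.aeval R θ)
  -- the polynomial identity
  have hzero : aeval θ (derivative (minpoly R θ) * W - C (π * (s * r₁))) = 0 := by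
    rw [map_sub, map_mul, hW, Polynomial.aeval_C, mul_smul_comm, hyw, Algebra.smul_def,
      ← map_mul, sub_eq_zero]
    congr 1
    ring
  have hdvd : minpoly R θ ∣ derivative (minpoly R θ) * W - C (π * (s * r₁)) :=
    (h.aeval_eq_zero_iff K _).mp hzero
  have hdvd' : (minpoly R θ).map φ ∣ derivative ((minpoly R θ).map φ) * W.map φ := by
    have := Polynomial.map_dvd φ hdvd
    rwa [Polynomial.map_sub, Polynomial.map_mul, Polynomial.map_C, map_mul, h.map_pi, zero_mul,
      map_zero, sub_zero, ← Polynomial.derivative_map] at this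
  have hcop : IsCoprime ((minpoly R θ).map φ) (derivative ((minpoly R θ).map φ)) :=
    h.map_minpoly_separable K
  have hdvdW : (minpoly R θ).map φ ∣ W.map φ := hcop.dvd_of_dvd_mul_left hdvd'
  have hW0map : W.map φ = 0 := by
    by_cases hW00 : W = 0
    · rw [hW00, Polynomial.map_zero]
    refine Polynomial.eq_zero_of_dvd_of_natDegree_lt hdvdW ?_
    rw [h.natDegree_map_minpoly]
    refine lt_of_le_of_lt Polynomial.natDegree_map_le ?_
    exact Polynomial.natDegree_lt_natDegree hW00 (Polynomial.degree_modByMonic_lt _ hmon)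
  obtain ⟨W₁, hW₁⟩ := h.C_dvd_of_map_eq_zero hW0map
  refine ⟨aeval θ W₁, s, h.isIntegral_aeval K W₁, hs, ?_⟩
  -- cancel `π`
  have hπ0 : algebraMap R F π ≠ 0 := by
    rw [Ne, FaithfulSMul.algebraMap_eq_zero_iff]; exact h.prime.ne_zero
  apply mul_left_cancel₀ hπ0
  have h1 : algebraMap R F π * aeval θ W₁ = s • w := by
    rw [← hW, hW₁, map_mul, Polynomial.aeval_C]
  calc algebraMap R F π * (aeval θ (derivative (minpoly R θ)) * aeval θ W₁)
      = aeval θ (derivative (minpoly R θ)) * (algebraMap R F π * aeval θ W₁) := by ring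
    _ = aeval θ (derivative (minpoly R θ)) * (s • w) := by rw [h1]
    _ = algebraMap R F s * (aeval θ (derivative (minpoly R θ)) * w) := by
        rw [Algebra.smul_def]; ring
    _ = algebraMap R F π * algebraMap R F (s * r₁) := by
        rw [hyw, ← map_mul, ← map_mul]; congr 1; ring

include K in
/-- Iterating the descent: all powers of `π` can be removed. -/
theorem exists_mul_eq_not_dvd [WfDvdMonoid R] (h : VertData π φ θ Φ)
    (hgen : Algebra.adjoin K {θ} = ⊤) :
    ∀ (k : ℕ) (w : F) (r₀ : R), IsIntegral R w → ¬ π ∣ r₀ →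
      aeval θ (derivative (minpoly R θ)) * w = algebraMap R F (π ^ k * r₀) →
      ∃ (w' : F) (r' : R), IsIntegral R w' ∧ ¬ π ∣ r' ∧
        aeval θ (derivative (minpoly R θ)) * w' = algebraMap R F r' := by
  intro k
  induction k with
  | zero =>
    intro w r₀ hw hr₀ hyw
    exact ⟨w, r₀, hw, hr₀, by rwa [pow_zero, one_mul] at hyw⟩
  | succ k ih =>
    intro w r₀ hw hr₀ hyw
    have hyw' : aeval θ (derivative (minpoly R θ)) * w = algebraMap R F (π * (π ^ k * r₀)) := by
      rw [hyw]; congr 1; ring
    obtain ⟨w₁, s, hw₁, hs, h1⟩ := h.exists_mul_eq_of_mul_eq_pi_mul K hgen hw hyw'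
    refine ih w₁ (s * r₀) hw₁ ?_ ?_
    · intro hdiv
      rcases h.prime.dvd_or_dvd hdiv with h2 | h2
      · exact hs h2
      · exact hr₀ h2
    · rw [h1]; congr 1; ring

include K in
/-- `F = K[θ]` is separable over `K`. -/
theorem isSeparable_field (h : VertData π φ θ Φ) (hgen : Algebra.adjoin K {θ} = ⊤) :
    Algebra.IsSeparable K F := by
  have hθ : θ ∈ separableClosure K F :=
    mem_separableClosure_iff.mpr (h.separable_minpoly_field K)
  have hle : Algebra.adjoin K {θ} ≤ (separableClosure K F).toSubalgebra :=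
    Algebra.adjoin_le (by
      intro x hx
      rw [Set.mem_singleton_iff] at hx
      rw [hx]; exact hθ)
  refine ⟨fun z => ?_⟩
  have hz : z ∈ Algebra.adjoin K {θ} := by rw [hgen]; exact Algebra.mem_top
  exact mem_separableClosure_iff.mp (hle hz)

include K in
/-- The norm of `m'(θ)` is an element of `R` not divisible by `π`. -/
theorem exists_norm_eq_not_dvd [WfDvdMonoid R] (h : VertData π φ θ Φ)
    (hgen : Algebra.adjoin K {θ} = ⊤) :
    ∃ r : R, ¬ π ∣ r ∧
      algebraMap R K r = Algebra.norm K (aeval θ (derivative (minpoly K θ))) := by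
  haveI : FaithfulSMul R F := faithful K
  have hintK : IsIntegral K θ := h.isIntegral.tower_top
  -- `y = m'(θ)`
  have hyK : aeval θ (derivative (minpoly K θ)) = aeval θ (derivative (minpoly R θ)) := by
    rw [h.minpoly_field K, Polynomial.derivative_map, Polynomial.aeval_map_algebraMap]
  set y := aeval θ (derivative (minpoly R θ)) with hy
  have hy0 : y ≠ 0 := by
    rw [← hyK]
    exact (h.separable_minpoly_field K).aeval_derivative_ne_zero (minpoly.aeval K θ)
  have hyint : IsIntegral R y := h.isIntegral_aeval K _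
  -- a first relation `y * w = r`, `r ≠ 0`
  set μ := minpoly R y with hμ
  have hμK : minpoly K y = μ.map (algebraMap R K) :=
    minpoly.isIntegrallyClosed_eq_field_fractions' K hyint
  have hr0 : μ.coeff 0 ≠ 0 := by
    intro h0
    have := minpoly.coeff_zero_ne_zero (A := K) hyint.tower_top hy0
    rw [hμK, Polynomial.coeff_map, h0, map_zero] at this
    exact this rfl
  have hrel : y * (- aeval y μ.divX) = algebraMap R F (μ.coeff 0) := by
    have h1 : aeval y μ = 0 := minpoly.aeval R y
    have h2 : aeval y (μ.divX * X + C (μ.coeff 0)) = 0 := by rw [Polynomial.divX_mul_X_add, h1]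
    rw [map_add, map_mul, Polynomial.aeval_X, Polynomial.aeval_C] at h2
    have h3 : algebraMap R F (μ.coeff 0) = - (aeval y μ.divX * y) := eq_neg_of_add_eq_zero_right h2
    rw [h3]; ring
  have hwint : IsIntegral R (- aeval y μ.divX) := by
    refine IsIntegral.neg ?_
    have hle : Algebra.adjoin R {y} ≤ integralClosure R F :=
      Algebra.adjoin_le (by
        intro x hx
        rw [Set.mem_singleton_iff] at hx
        rw [hx]; exact hyint)
    exact hle (Polynomial.aeval_mem_adjoin_singleton R y)
  obtain ⟨k, r₀, hr₀, hk⟩ := WfDvdMonoid.max_power_factor hr0 h.prime.irreducible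
  rw [hk] at hrel
  obtain ⟨w', r', hw', hr', hrel'⟩ := h.exists_mul_eq_not_dvd K hgen k _ r₀ hwint hr₀ hrel
  -- norms
  have hNy : IsIntegral R (Algebra.norm K y) := Algebra.isIntegral_norm K hyint
  have hNw : IsIntegral R (Algebra.norm K w') := Algebra.isIntegral_norm K hw'
  obtain ⟨ry, hry⟩ := IsIntegrallyClosed.isIntegral_iff.mp hNy
  obtain ⟨rw, hrw⟩ := IsIntegrallyClosed.isIntegral_iff.mp hNw
  refine ⟨ry, ?_, by rw [hry, hyK]⟩
  have hN : Algebra.norm K y * Algebra.norm K w' =
      (algebraMap R K r') ^ Module.finrank K F := by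
    rw [← map_mul, hrel', IsScalarTower.algebraMap_apply R K F, Algebra.norm_algebraMap]
  rw [← hry, ← hrw, ← map_mul, ← map_pow] at hN
  have hN' : ry * rw = r' ^ Module.finrank K F := IsFractionRing.injective R K hN
  intro hdiv
  have : π ∣ r' ^ Module.finrank K F := by
    rw [← hN']; exact Dvd.dvd.mul_right hdiv rw
  exact hr' (h.prime.dvd_of_dvd_pow this)

include K in
/-- **(V2)** The discriminant of `1, θ, …, θ^(n-1)` is (the image of) an element of `R` not
divisible by `π`. -/
theorem not_dvd_discr [WfDvdMonoid R] (h : VertData π φ θ Φ)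
    (hgen : Algebra.adjoin K {θ} = ⊤) :
    ∃ d₀ : R, ¬ π ∣ d₀ ∧
      algebraMap R K d₀ =
        Algebra.discr K (fun i : Fin (minpoly K θ).natDegree => θ ^ (i : ℕ)) := by
  have hintK : IsIntegral K θ := h.isIntegral.tower_top
  let pb : PowerBasis K F := PowerBasis.ofAdjoinEqTop' hintK hgen
  have hgenpb : pb.gen = θ := PowerBasis.ofAdjoinEqTop'_gen hintK hgen
  haveI : Module.Finite K F := pb.finite
  haveI : Algebra.IsSeparable K F := h.isSeparable_field K hgen
  obtain ⟨r, hr, hrN⟩ := h.exists_norm_eq_not_dvd K hgen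
  have hdisc := Algebra.discr_powerBasis_eq_norm K pb
  rw [hgenpb] at hdisc
  have hbasis : (⇑pb.basis : Fin pb.dim → F) =
      fun i : Fin (minpoly K θ).natDegree => θ ^ (i : ℕ) := by
    rw [PowerBasis.coe_basis, hgenpb]
    rfl
  refine ⟨(-1) ^ (Module.finrank K F * (Module.finrank K F - 1) / 2) * r, ?_, ?_⟩
  · intro hdiv
    rcases h.prime.dvd_or_dvd hdiv with h1 | h1
    · have hu : IsUnit ((-1 : R) ^ (Module.finrank K F * (Module.finrank K F - 1) / 2)) :=
        (isUnit_one.neg).pow _
      exact h.prime.not_isUnit (isUnit_of_dvd_unit h1 hu)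
    · exact hr h1
  · rw [map_mul, map_pow, map_neg, map_one, hrN]
    have : Algebra.discr K (fun i : Fin (minpoly K θ).natDegree => θ ^ (i : ℕ)) =
        Algebra.discr K ⇑pb.basis := by
      rw [hbasis]
      rfl
    rw [this, hdisc]

end WithK

end VertData

end

end Fermat.Agent.S18.H42
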