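/-
S18 / DVR foundation (helper45), part 13 (generic library): the decomposition-group action on the
charts `chartB (cutOver A E) J` of `F'' = modularFunctionFieldFullC ↥E N`, and the Frobenius
congruences for powers of a Frobenius lift.  Continuation of `H45_DecompBase`; the statements are in
the shape of the per-chart hypotheses `hΦ`, `hΦπ`, `hΦR`, `hFrobR` of `S35.H46.ChartFrob`.

* `galActCutOver_mul`, `galActFullC_mul` : multiplicativity in the Galois element;
* `residue_galActCutOver_pow_of_isFrobeniusAt`, `dvd_galActCutOver_pow_sub_pow` :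
  `φ ^ n` induces `x ↦ x ^ (ℓ ^ n)` on the residue field of `A'' = A ∩ E`;
* `associated_galActCutOver` : `φ π'' ~ π''`;
* `galActChartB` : the restriction of `galActFullC φ` to a chart `chartB A'' J` with `φ J = J`,
  with `galActChartB_algebraMap` (semilinearity), `algebraMap_galActChartB` (compatibility with
  `F''`), `dvd_galActChartB_algebraMap` (`π'' ∣ φ π''` in the chart).
-/
import Mathlib
import Fermat.Agent.S18.H45_DecompBase

set_option autoImplicit false
set_option linter.unusedSectionVars false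
set_option linter.style.haveILetI false
set_option synthInstance.maxHeartbeats 400000

namespace Fermat.Agent.S18.H45

open IsLocalRing ModularCurve HahnSeries
open scoped Pointwise

noncomputable section

local notation "Qbar" => AlgebraicClosure ℚ

variable {A : ValuationSubring Qbar} {ℓ : ℕ} (hℓ : ℓ.Prime) (hA : A.LiesOverPrime ℓ)
variable (E : IntermediateField (unrCyclo ℓ) Qbar)
variable (hE : ∀ (τ : Qbar ≃ₐ[ℚ] Qbar) (x : Qbar), x ∈ E → τ x ∈ E)

/-! ### multiplicativity -/

theorem galActCutOver_one (h1 : (1 : Qbar ≃ₐ[ℚ] Qbar) ∈ A.decompositionSubgroup ℚ)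
    (x : cutOver A E) : galActCutOver E hE 1 h1 x = x :=
  Subtype.ext (Subtype.ext rfl)

theorem galActCutOver_mul (φ ψ : Qbar ≃ₐ[ℚ] Qbar) (hφ : φ ∈ A.decompositionSubgroup ℚ)
    (hψ : ψ ∈ A.decompositionSubgroup ℚ) (hφψ : φ * ψ ∈ A.decompositionSubgroup ℚ)
    (x : cutOver A E) :
    galActCutOver E hE (φ * ψ) hφψ x = galActCutOver E hE φ hφ (galActCutOver E hE ψ hψ x) :=
  Subtype.ext (Subtype.ext rfl)

theorem galActCutOver_pow_succ (φ : Qbar ≃ₐ[ℚ] Qbar) (hφ : φ ∈ A.decompositionSubgroup ℚ)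
    (n : ℕ) (h1 : φ ^ (n + 1) ∈ A.decompositionSubgroup ℚ)
    (h2 : φ ^ n ∈ A.decompositionSubgroup ℚ) (x : cutOver A E) :
    galActCutOver E hE (φ ^ (n + 1)) h1 x =
      galActCutOver E hE φ hφ (galActCutOver E hE (φ ^ n) h2 x) := by
  apply Subtype.ext
  apply Subtype.ext
  rw [coe_galActCutOver, coe_galActCutOver, coe_galActCutOver, pow_succ']
  rfl

/-! ### powers of a Frobenius lift on the residue field -/

/-- `φ ^ n` induces `x ↦ x ^ (ℓ ^ n)` on the residue field of `A ∩ E`. -/
theorem residue_galActCutOver_pow_of_isFrobeniusAt {φ : Qbar ≃ₐ[ℚ] Qbar}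
    (hF : A.IsFrobeniusAt φ ℓ) (n : ℕ) (hn : φ ^ n ∈ A.decompositionSubgroup ℚ)
    (x : cutOver A E) :
    residue (cutOver A E) (galActCutOver E hE (φ ^ n) hn x) =
      residue (cutOver A E) x ^ (ℓ ^ n) := by
  induction n generalizing x with
  | zero =>
    have h : galActCutOver E hE (φ ^ 0) hn x = x := by
      apply Subtype.ext
      apply Subtype.ext
      rw [coe_galActCutOver, pow_zero]
      rfl
    rw [h, Nat.pow_zero, pow_one]
  | succ n ih =>
    rw [galActCutOver_pow_succ E hE φ hF.mem_decompositionSubgroup n hn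
      (pow_mem hF.mem_decompositionSubgroup n) x,
      residue_galActCutOver_of_isFrobeniusAt E hE hF, ih, ← pow_mul, pow_succ]

/-- The same modulo the maximal ideal. -/
theorem galActCutOver_pow_sub_pow_mem_of_isFrobeniusAt {φ : Qbar ≃ₐ[ℚ] Qbar}
    (hF : A.IsFrobeniusAt φ ℓ) (n : ℕ) (hn : φ ^ n ∈ A.decompositionSubgroup ℚ)
    (x : cutOver A E) :
    galActCutOver E hE (φ ^ n) hn x - x ^ (ℓ ^ n) ∈ maximalIdeal (cutOver A E) := by
  rw [← residue_eq_zero_iff, map_sub, map_pow,
    residue_galActCutOver_pow_of_isFrobeniusAt E hE hF n hn, sub_self]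

/-- `hFrobR` of `S35.H46.frobModel_of_chart(s)` for `Φ = φ ^ n`, `Q = ℓ ^ n`. -/
theorem dvd_galActCutOver_pow_sub_pow {φ : Qbar ≃ₐ[ℚ] Qbar}
    (hF : A.IsFrobeniusAt φ ℓ) (n : ℕ) (hn : φ ^ n ∈ A.decompositionSubgroup ℚ)
    {π : cutOver A E} (hπ : maximalIdeal (cutOver A E) = Ideal.span {π}) (r : cutOver A E) :
    π ∣ galActCutOver E hE (φ ^ n) hn r - r ^ (ℓ ^ n) := by
  rw [← Ideal.mem_span_singleton, ← hπ]
  exact galActCutOver_pow_sub_pow_mem_of_isFrobeniusAt E hE hF n hn r

/-- `hFrobR` for `Φ = φ`, `Q = ℓ`. -/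
theorem dvd_galActCutOver_sub_pow {φ : Qbar ≃ₐ[ℚ] Qbar} (hF : A.IsFrobeniusAt φ ℓ)
    {π : cutOver A E} (hπ : maximalIdeal (cutOver A E) = Ideal.span {π}) (r : cutOver A E) :
    π ∣ galActCutOver E hE φ hF.mem_decompositionSubgroup r - r ^ ℓ := by
  rw [← Ideal.mem_span_singleton, ← hπ]
  exact galActCutOver_sub_pow_mem_of_isFrobeniusAt E hE hF r

/-! ### `φ π'' ~ π''` -/

theorem galActCutOver_mem_span_iff (φ : Qbar ≃ₐ[ℚ] Qbar) (hφ : φ ∈ A.decompositionSubgroup ℚ)
    {π : cutOver A E} (hπ : maximalIdeal (cutOver A E) = Ideal.span {π}) (x : cutOver A E) :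
    galActCutOver E hE φ hφ x ∈ Ideal.span {π} ↔ x ∈ Ideal.span {π} := by
  rw [← hπ]
  exact galActCutOver_mem_maximalIdeal_iff E hE φ hφ x

/-- A decomposition-group element maps a uniformiser of `A ∩ E` to an associated element. -/
theorem associated_galActCutOver (φ : Qbar ≃ₐ[ℚ] Qbar) (hφ : φ ∈ A.decompositionSubgroup ℚ)
    {π : cutOver A E} (hπ : maximalIdeal (cutOver A E) = Ideal.span {π}) :
    Associated (galActCutOver E hE φ hφ π) π := by
  have h1 : π ∣ galActCutOver E hE φ hφ π := by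
    rw [← Ideal.mem_span_singleton, galActCutOver_mem_span_iff E hE φ hφ hπ]
    exact Ideal.mem_span_singleton_self π
  have h2 : galActCutOver E hE φ hφ π ∣ π := by
    have h3 : π ∣ (galActCutOver E hE φ hφ).symm π := by
      rw [← Ideal.mem_span_singleton, ← galActCutOver_mem_span_iff E hE φ hφ hπ,
        RingEquiv.apply_symm_apply]
      exact Ideal.mem_span_singleton_self π
    obtain ⟨c, hc⟩ := h3
    refine ⟨galActCutOver E hE φ hφ c, ?_⟩
    rw [← map_mul, ← hc, RingEquiv.apply_symm_apply]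
  exact associated_of_dvd_dvd h2 h1

/-! ### the action on `F''` : multiplicativity -/

variable (N : ℕ) [NeZero N]

theorem galActFullC_one (x : modularFunctionFieldFullC ↥E N) : galActFullC E hE N 1 x = x := by
  apply Subtype.ext
  rw [coe_galActFullC]
  have h : ((galActE E hE 1 : ↥E ≃+* ↥E) : ↥E →+* ↥E) = RingHom.id ↥E :=
    RingHom.ext fun c => galActE_one E hE c
  rw [h]
  exact coeffMap_id _

theorem galActFullC_mul (σ τ : Qbar ≃ₐ[ℚ] Qbar) (x : modularFunctionFieldFullC ↥E N) :
    galActFullC E hE N (σ * τ) x = galActFullC E hE N σ (galActFullC E hE N τ x) := by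
  apply Subtype.ext
  rw [coe_galActFullC, coe_galActFullC, coe_galActFullC, coeffMap_coeffMap]
  exact coeffMap_congr (RingHom.ext fun c => galActE_mul E hE σ τ c) _

/-! ### the action on a chart `chartB A'' J` with `φ J = J` -/

variable (φ : Qbar ≃ₐ[ℚ] Qbar) (hφ : φ ∈ A.decompositionSubgroup ℚ)
variable (J : modularFunctionFieldFullC ↥E N) (hJ : galActFullC E hE N φ J = J)

set_option maxHeartbeats 1600000 in
/-- The restriction of `galActFullC φ` to the chart `chartB A'' J` (`φ J = J`). -/
def galActChartB : ↥(H40.chartB (cutOver A E) J) ≃+* ↥(H40.chartB (cutOver A E) J) where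
  toFun x := ⟨galActFullC E hE N φ (x : modularFunctionFieldFullC ↥E N),
    (galActFullC_mem_chartB_iff_of_fixed E hE N φ hφ hJ _).mpr x.2⟩
  invFun x := ⟨(galActFullC E hE N φ).symm (x : modularFunctionFieldFullC ↥E N), by
    rw [← galActFullC_mem_chartB_iff_of_fixed E hE N φ hφ hJ, RingEquiv.apply_symm_apply]
    exact x.2⟩
  left_inv x := Subtype.ext ((galActFullC E hE N φ).symm_apply_apply _)
  right_inv x := Subtype.ext ((galActFullC E hE N φ).apply_symm_apply _)
  map_mul' x y := Subtype.ext (map_mul (galActFullC E hE N φ) _ _)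
  map_add' x y := Subtype.ext (map_add (galActFullC E hE N φ) _ _)

set_option maxHeartbeats 1600000 in
@[simp] theorem coe_galActChartB (x : ↥(H40.chartB (cutOver A E) J)) :
    ((galActChartB E hE N φ hφ J hJ x : ↥(H40.chartB (cutOver A E) J)) :
      modularFunctionFieldFullC ↥E N) = galActFullC E hE N φ (x : modularFunctionFieldFullC ↥E N) :=
  rfl

set_option maxHeartbeats 1600000 in
/-- `hΦ` of `S35.H46.ChartFrob`: `galActChartB` is the restriction of `galActFullC`. -/
theorem algebraMap_galActChartB (b : ↥(H40.chartB (cutOver A E) J)) :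
    galActFullC E hE N φ
        (algebraMap ↥(H40.chartB (cutOver A E) J) (modularFunctionFieldFullC ↥E N) b) =
      algebraMap ↥(H40.chartB (cutOver A E) J) (modularFunctionFieldFullC ↥E N)
        (galActChartB E hE N φ hφ J hJ b) := rfl

set_option maxHeartbeats 1600000 in
/-- `hΦR` of `S35.H46.ChartFrob`: `galActChartB` is `galActCutOver`-semilinear. -/
theorem galActChartB_algebraMap (r : cutOver A E) :
    galActChartB E hE N φ hφ J hJ (algebraMap (cutOver A E) ↥(H40.chartB (cutOver A E) J) r) =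
      algebraMap (cutOver A E) ↥(H40.chartB (cutOver A E) J) (galActCutOver E hE φ hφ r) := by
  apply Subtype.ext
  exact galActFullC_algebraMap_cutOver E hE N φ hφ r

set_option maxHeartbeats 1600000 in
/-- `hΦπ` of `S35.H46.ChartFrob`: `π'' ∣ φ π''` in the chart. -/
theorem dvd_galActChartB_algebraMap {π : cutOver A E}
    (hπ : maximalIdeal (cutOver A E) = Ideal.span {π}) :
    algebraMap (cutOver A E) ↥(H40.chartB (cutOver A E) J) π ∣
      galActChartB E hE N φ hφ J hJ (algebraMap (cutOver A E) ↥(H40.chartB (cutOver A E) J) π) := by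
  rw [galActChartB_algebraMap]
  exact map_dvd _ (associated_galActCutOver E hE φ hφ hπ).symm.dvd

end

end Fermat.Agent.S18.H45
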