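/-
S18 / DVR foundation (helper45), part 9 (generic library; prepared for the Stage-4 row (R-a3)):
enlarging a finite extension `E / K1` (`K1 = unrCyclo ℓ`) inside `Qbar` to a finite Galois one
containing a given finite set, and roots in `Qbar` of elements of `A ∩ E`.
-/
import Mathlib
import Fermat.Agent.S18.H45_InertiaBaseAlg

set_option autoImplicit false
set_option linter.unusedSectionVars false
set_option linter.style.haveILetI false

namespace Fermat.Agent.S18.H45

open IsLocalRing

noncomputable section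

local notation "Qbar" => AlgebraicClosure ℚ

variable {A : ValuationSubring Qbar} {ℓ : ℕ}

/-- Every finite extension `E / K1` inside `Qbar` and every finite subset of `Qbar` lie in a finite
Galois extension `E' / K1` inside `Qbar`. -/
theorem exists_finite_galois_ge_of_le (E : IntermediateField (unrCyclo ℓ) Qbar)
    [FiniteDimensional (unrCyclo ℓ) E] (S : Finset Qbar) :
    ∃ E' : IntermediateField (unrCyclo ℓ) Qbar, E ≤ E' ∧ FiniteDimensional (unrCyclo ℓ) E' ∧
      IsGalois (unrCyclo ℓ) E' ∧ ∀ x ∈ S, x ∈ E' := by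
  let E0 : IntermediateField (unrCyclo ℓ) Qbar :=
    E ⊔ IntermediateField.adjoin (unrCyclo ℓ) (S : Set Qbar)
  haveI : FiniteDimensional (unrCyclo ℓ)
      (IntermediateField.adjoin (unrCyclo ℓ) (S : Set Qbar)) :=
    IntermediateField.finiteDimensional_adjoin
      (fun x _ => (Algebra.IsAlgebraic.isAlgebraic x).isIntegral)
  haveI : FiniteDimensional (unrCyclo ℓ) E0 := IntermediateField.finiteDimensional_sup _ _
  haveI : Normal (unrCyclo ℓ) Qbar := IsAlgClosure.normal _ _
  refine ⟨IntermediateField.normalClosure (unrCyclo ℓ) E0 Qbar, ?_, inferInstance, ?_, ?_⟩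
  · exact le_trans le_sup_left (IntermediateField.le_normalClosure E0)
  · haveI : Normal (unrCyclo ℓ) (IntermediateField.normalClosure (unrCyclo ℓ) E0 Qbar) :=
      inferInstance
    exact ⟨⟩
  · intro x hx
    exact IntermediateField.le_normalClosure E0
      (le_sup_right (a := E)
        (IntermediateField.subset_adjoin _ _ (Finset.mem_coe.mpr hx)))

/-- An `n`-th root in `Qbar` of an element of `A` lies in `A` (`A` is integrally closed). -/
theorem mem_of_pow_mem {x : Qbar} {n : ℕ} (hn : n ≠ 0) (hx : x ^ n ∈ A) : x ∈ A := by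
  by_contra hxA
  have h1 : 1 < A.valuation x := by
    rw [← not_le, A.valuation_le_one_iff]
    exact hxA
  have h2 : 1 < A.valuation (x ^ n) := by
    rw [map_pow]
    exact one_lt_pow₀ h1 hn
  have h3 : A.valuation (x ^ n) ≤ 1 := (A.valuation_le_one_iff _).mpr hx
  exact absurd h3 (not_le.mpr h2)

/-- Adjoining an `n`-th root of an element `c` of `A ∩ E`: there is a finite Galois `E' ≥ E` and
`d ∈ A ∩ E'` with `d ^ n = c`. -/
theorem exists_root_cutOver (E : IntermediateField (unrCyclo ℓ) Qbar)
    [FiniteDimensional (unrCyclo ℓ) E] (c : cutOver A E) {n : ℕ} (hn : n ≠ 0) :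
    ∃ (E' : IntermediateField (unrCyclo ℓ) Qbar) (h : E ≤ E'),
      FiniteDimensional (unrCyclo ℓ) E' ∧ IsGalois (unrCyclo ℓ) E' ∧
      ∃ d : cutOver A E', d ^ n = inclCutOverLE h c := by
  obtain ⟨r, hr⟩ := IsAlgClosed.exists_pow_nat_eq (((c : E)) : Qbar) (Nat.pos_of_ne_zero hn)
  obtain ⟨E', hle, hfin, hgal, hS⟩ := exists_finite_galois_ge_of_le E ({r} : Finset Qbar)
  have hrE : r ∈ E' := hS r (Finset.mem_singleton_self r)
  have hrA : r ∈ A := mem_of_pow_mem hn (by rw [hr]; exact mem_cutOver.mp c.2)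
  refine ⟨E', hle, hfin, hgal, ⟨⟨r, hrE⟩, hrA⟩, ?_⟩
  apply Subtype.ext
  apply Subtype.ext
  show r ^ n = _
  rw [hr]
  rfl

end

end Fermat.Agent.S18.H45
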