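/-
S18 / R-EXIST, package R0a (helper50): unramified simple extensions of an ARBITRARY valuation
ring (no noetherian hypothesis).  Mathlib only.

`R` a valuation ring, `f : R[X]` monic whose reduction modulo the maximal ideal is irreducible
over the residue field.  Then `AdjoinRoot f = R[X]/(f)` is a local domain with maximal ideal
`𝔪_R · R[X]/(f)`, every nonzero element is (an element of `R`) times (a unit), and hence it is a
valuation ring with the same "value group" as `R` and residue field `κ[X]/(f̄)`.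

This is the non-noetherian analogue of `S28/H98_UnramDVR` (whose first lemmas are reproved here
for an arbitrary local ring).
-/
import Mathlib

set_option autoImplicit false

open Polynomial IsLocalRing

namespace Fermat.Agent.S18.H50

/-! ### Part 1: `R` an arbitrary local ring -/

section LocalRing

variable {R : Type*} [CommRing R] [IsLocalRing R]

/-- The extended maximal ideal is maximal in `R[X]/(f)`. -/
theorem isMaximal_map_maximalIdeal {f : R[X]}
    (hirr : Irreducible (f.map (residue R))) :
    ((maximalIdeal R).map (AdjoinRoot.of f)).IsMaximal := by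
  have hmax : (Ideal.span ({f.map (Ideal.Quotient.mk (maximalIdeal R))} :
      Set (R ⧸ maximalIdeal R)[X])).IsMaximal := by
    have hirr' : Irreducible (f.map (Ideal.Quotient.mk (maximalIdeal R))) := hirr
    let _ : Field (R ⧸ maximalIdeal R) := Ideal.Quotient.field _
    exact PrincipalIdealRing.isMaximal_of_irreducible hirr'
  have e := AdjoinRoot.quotAdjoinRootEquivQuotPolynomialQuot (maximalIdeal R) f
  rw [Ideal.Quotient.maximal_ideal_iff_isField_quotient] at hmax ⊢
  exact e.toMulEquiv.isField hmax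

/-- Every maximal ideal of `R[X]/(f)` is the extended maximal ideal. -/
theorem eq_map_maximalIdeal_of_isMaximal {f : R[X]} (hf : f.Monic)
    (hirr : Irreducible (f.map (residue R))) (M : Ideal (AdjoinRoot f)) (hM : M.IsMaximal) :
    M = (maximalIdeal R).map (AdjoinRoot.of f) := by
  have : Module.Finite R (AdjoinRoot f) := hf.finite_adjoinRoot
  have : Algebra.IsIntegral R (AdjoinRoot f) := inferInstance
  have h1 : (M.comap (algebraMap R (AdjoinRoot f))).IsMaximal :=
    Ideal.isMaximal_comap_of_isIntegral_of_isMaximal M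
  have h2 : M.comap (algebraMap R (AdjoinRoot f)) = maximalIdeal R :=
    IsLocalRing.eq_maximalIdeal h1
  have h3 : (maximalIdeal R).map (AdjoinRoot.of f) ≤ M := by
    rw [Ideal.map_le_iff_le_comap, ← h2]
    exact le_of_eq rfl
  exact ((isMaximal_map_maximalIdeal hirr).eq_of_le hM.ne_top h3).symm

theorem nontrivial_adjoinRoot {f : R[X]} (hirr : Irreducible (f.map (residue R))) :
    Nontrivial (AdjoinRoot f) := by
  have h := (isMaximal_map_maximalIdeal hirr).ne_top
  by_contra hn
  rw [not_nontrivial_iff_subsingleton] at hn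
  exact h (Subsingleton.elim _ _)

theorem isLocalRing_adjoinRoot {f : R[X]} (hf : f.Monic)
    (hirr : Irreducible (f.map (residue R))) : IsLocalRing (AdjoinRoot f) := by
  have := nontrivial_adjoinRoot hirr
  exact IsLocalRing.of_unique_max_ideal
    ⟨_, isMaximal_map_maximalIdeal hirr,
      fun M hM => eq_map_maximalIdeal_of_isMaximal hf hirr M hM⟩

theorem maximalIdeal_adjoinRoot {f : R[X]} (hf : f.Monic)
    (hirr : Irreducible (f.map (residue R))) :
    letI := isLocalRing_adjoinRoot hf hirr
    maximalIdeal (AdjoinRoot f) = (maximalIdeal R).map (AdjoinRoot.of f) := by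
  let _ := isLocalRing_adjoinRoot hf hirr
  exact eq_map_maximalIdeal_of_isMaximal hf hirr _ (maximalIdeal.isMaximal _)

/-- The reduction map `R[X]/(f) → κ[X]/(f̄)`. -/
noncomputable def redAdjoinRoot (f : R[X]) :
    AdjoinRoot f →+* AdjoinRoot (f.map (residue R)) :=
  AdjoinRoot.lift ((AdjoinRoot.of (f.map (residue R))).comp (residue R))
    (AdjoinRoot.root (f.map (residue R)))
    (by rw [← Polynomial.eval₂_map, AdjoinRoot.eval₂_root])

@[simp]
theorem redAdjoinRoot_mk (f p : R[X]) :
    redAdjoinRoot f (AdjoinRoot.mk f p) = AdjoinRoot.mk (f.map (residue R)) (p.map (residue R)) := by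
  rw [redAdjoinRoot, AdjoinRoot.lift_mk, ← Polynomial.eval₂_map, ← AdjoinRoot.aeval_eq]
  rfl

@[simp]
theorem redAdjoinRoot_of (f : R[X]) (r : R) :
    redAdjoinRoot f (AdjoinRoot.of f r) = AdjoinRoot.of (f.map (residue R)) (residue R r) := by
  rw [redAdjoinRoot, AdjoinRoot.lift_of]
  rfl

@[simp]
theorem redAdjoinRoot_root (f : R[X]) :
    redAdjoinRoot f (AdjoinRoot.root f) = AdjoinRoot.root (f.map (residue R)) := by
  rw [redAdjoinRoot, AdjoinRoot.lift_root]

theorem redAdjoinRoot_surjective (f : R[X]) : Function.Surjective (redAdjoinRoot f) := by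
  intro y
  obtain ⟨p, rfl⟩ := AdjoinRoot.mk_surjective y
  obtain ⟨p', rfl⟩ := Polynomial.map_surjective (residue R) IsLocalRing.residue_surjective p
  exact ⟨AdjoinRoot.mk f p', redAdjoinRoot_mk f p'⟩

theorem redAdjoinRoot_eq_zero_of_mem {f : R[X]} {s : AdjoinRoot f}
    (hs : s ∈ (maximalIdeal R).map (AdjoinRoot.of f)) : redAdjoinRoot f s = 0 := by
  have hle : (maximalIdeal R).map (AdjoinRoot.of f) ≤ RingHom.ker (redAdjoinRoot f) := by
    rw [Ideal.map_le_iff_le_comap]
    intro r hr
    rw [Ideal.mem_comap, RingHom.mem_ker, redAdjoinRoot_of]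
    have : residue R r = 0 := (IsLocalRing.residue_eq_zero_iff r).mpr hr
    rw [this, map_zero]
  exact hle hs

/-- The kernel of the reduction map is the extended maximal ideal. -/
theorem ker_redAdjoinRoot {f : R[X]} (hirr : Irreducible (f.map (residue R))) :
    RingHom.ker (redAdjoinRoot f) = (maximalIdeal R).map (AdjoinRoot.of f) := by
  have hle : (maximalIdeal R).map (AdjoinRoot.of f) ≤ RingHom.ker (redAdjoinRoot f) :=
    fun s hs => redAdjoinRoot_eq_zero_of_mem hs
  have hne : RingHom.ker (redAdjoinRoot f) ≠ ⊤ := by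
    have : Nontrivial (AdjoinRoot (f.map (residue R))) := by
      have hp : Fact (Irreducible (f.map (residue R))) := ⟨hirr⟩
      infer_instance
    exact RingHom.ker_ne_top _
  exact ((isMaximal_map_maximalIdeal hirr).eq_of_le hne hle).symm

/-- An element with nonzero reduction is a unit. -/
theorem isUnit_of_redAdjoinRoot_ne_zero {f : R[X]} (hf : f.Monic)
    (hirr : Irreducible (f.map (residue R))) {s : AdjoinRoot f}
    (hs : redAdjoinRoot f s ≠ 0) : IsUnit s := by
  letI := isLocalRing_adjoinRoot hf hirr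
  by_contra hn
  have hmem : s ∈ maximalIdeal (AdjoinRoot f) := (IsLocalRing.mem_maximalIdeal s).mpr hn
  rw [maximalIdeal_adjoinRoot hf hirr] at hmem
  exact hs (redAdjoinRoot_eq_zero_of_mem hmem)

theorem isUnit_iff_redAdjoinRoot_ne_zero {f : R[X]} (hf : f.Monic)
    (hirr : Irreducible (f.map (residue R))) {s : AdjoinRoot f} :
    IsUnit s ↔ redAdjoinRoot f s ≠ 0 := by
  refine ⟨fun h => ?_, isUnit_of_redAdjoinRoot_ne_zero hf hirr⟩
  have : Nontrivial (AdjoinRoot (f.map (residue R))) := by
    have hp : Fact (Irreducible (f.map (residue R))) := ⟨hirr⟩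
    infer_instance
  exact (h.map (redAdjoinRoot f)).ne_zero

/-- A polynomial of degree `< deg f` one of whose coefficients is a unit has nonzero reduction. -/
theorem redAdjoinRoot_mk_ne_zero {f : R[X]} (hf : f.Monic) {p : R[X]}
    (hdeg : p.degree < f.degree) {i : ℕ} (hi : IsUnit (p.coeff i)) :
    redAdjoinRoot f (AdjoinRoot.mk f p) ≠ 0 := by
  rw [redAdjoinRoot_mk]
  intro h0
  rw [AdjoinRoot.mk_eq_zero] at h0
  have hne : p.map (residue R) ≠ 0 := by
    intro h
    have h1 : (p.map (residue R)).coeff i = 0 := by rw [h, coeff_zero]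
    rw [coeff_map] at h1
    exact ((IsLocalRing.residue_eq_zero_iff _).mp h1) hi
  have hlt : (p.map (residue R)).degree < (f.map (residue R)).degree := by
    rw [hf.degree_map]
    exact lt_of_le_of_lt (degree_map_le) hdeg
  exact hne (Polynomial.eq_zero_of_dvd_of_degree_lt h0 hlt)

end LocalRing

/-! ### Part 2: `R` a valuation ring -/

section ValuationRing

variable {R : Type*} [CommRing R] [IsDomain R] [ValuationRing R]

/-- In a valuation ring, a finite nonempty family has a member dividing all the others. -/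
theorem exists_dvd_all {ι : Type*} (s : Finset ι) (hs : s.Nonempty) (g : ι → R) :
    ∃ i ∈ s, ∀ j ∈ s, g i ∣ g j := by
  classical
  induction hs using Finset.Nonempty.cons_induction with
  | singleton a => exact ⟨a, Finset.mem_singleton_self a, fun j hj => by
      rw [Finset.mem_singleton] at hj; rw [hj]⟩
  | cons a t ha _ ih =>
    obtain ⟨i, hi, hdiv⟩ := ih
    rcases ValuationRing.dvd_total (g a) (g i) with h | h
    · refine ⟨a, Finset.mem_cons_self a t, fun j hj => ?_⟩
      rcases Finset.mem_cons.mp hj with rfl | hj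
      · exact dvd_rfl
      · exact h.trans (hdiv j hj)
    · refine ⟨i, Finset.mem_cons.mpr (Or.inr hi), fun j hj => ?_⟩
      rcases Finset.mem_cons.mp hj with rfl | hj
      · exact h
      · exact hdiv j hj

/-- Content extraction over a valuation ring: a nonzero polynomial is a nonzero constant times a
polynomial one of whose coefficients is `1`. -/
theorem exists_eq_C_mul_of_ne_zero {p : R[X]} (hp : p ≠ 0) :
    ∃ (r : R) (p' : R[X]) (i : ℕ), r ≠ 0 ∧ p = C r * p' ∧ p'.coeff i = 1 := by
  have hs : p.support.Nonempty := Polynomial.support_nonempty.mpr hp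
  obtain ⟨i, hi, hdiv⟩ := exists_dvd_all p.support hs p.coeff
  have hr : p.coeff i ≠ 0 := Polynomial.mem_support_iff.mp hi
  have hall : ∀ j, p.coeff i ∣ p.coeff j := by
    intro j
    by_cases hj : j ∈ p.support
    · exact hdiv j hj
    · rw [Polynomial.notMem_support_iff.mp hj]; exact dvd_zero _
  obtain ⟨p', hp'⟩ := (Polynomial.C_dvd_iff_dvd_coeff _ _).mpr hall
  refine ⟨p.coeff i, p', i, hr, hp', ?_⟩
  have h1 : p.coeff i = p.coeff i * p'.coeff i := by
    conv_lhs => rw [hp', coeff_C_mul]
  exact (mul_right_cancel₀ hr (by rw [one_mul, mul_comm]; exact h1.symm))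

variable {f : R[X]}

theorem degree_ne_zero_of_irreducible_map (hf : f.Monic)
    (hirr : Irreducible (f.map (residue R))) : f.degree ≠ 0 := by
  intro h0
  have : (f.map (residue R)).degree = 0 := by rw [hf.degree_map]; exact h0
  exact hirr.not_isUnit (Polynomial.isUnit_iff_degree_eq_zero.mpr this)

theorem of_injective (hf : f.Monic) (hirr : Irreducible (f.map (residue R))) :
    Function.Injective (AdjoinRoot.of f) :=
  AdjoinRoot.of.injective_of_degree_ne_zero (degree_ne_zero_of_irreducible_map hf hirr)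

/-- **Key structure lemma**: every nonzero element of `R[X]/(f)` is an element of `R` times a
unit.  (So the value group does not grow: `e = 1`.) -/
theorem exists_eq_of_mul_unit (hf : f.Monic) (hirr : Irreducible (f.map (residue R)))
    {s : AdjoinRoot f} (hs : s ≠ 0) :
    ∃ (r : R) (u : (AdjoinRoot f)ˣ), r ≠ 0 ∧ s = AdjoinRoot.of f r * u := by
  set p := AdjoinRoot.modByMonicHom hf s with hpdef
  have hsp : AdjoinRoot.mk f p = s := AdjoinRoot.mk_leftInverse hf s
  have hp0 : p ≠ 0 := by
    intro h
    rw [h, map_zero] at hsp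
    exact hs hsp.symm
  have hdeg : p.degree < f.degree := by
    obtain ⟨q, rfl⟩ := AdjoinRoot.mk_surjective s
    rw [hpdef, AdjoinRoot.modByMonicHom_mk]
    exact degree_modByMonic_lt q hf
  obtain ⟨r, p', i, hr, hpp', hi⟩ := exists_eq_C_mul_of_ne_zero hp0
  have hdeg' : p'.degree < f.degree := by
    have : p.degree = p'.degree := by rw [hpp', degree_C_mul hr]
    rw [← this]; exact hdeg
  have hu : IsUnit (AdjoinRoot.mk f p') :=
    isUnit_of_redAdjoinRoot_ne_zero hf hirr
      (redAdjoinRoot_mk_ne_zero hf hdeg' (i := i) (by rw [hi]; exact isUnit_one))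
  refine ⟨r, hu.unit, hr, ?_⟩
  rw [IsUnit.unit_spec, ← hsp, hpp', map_mul, AdjoinRoot.mk_C]

theorem isDomain_adjoinRoot (hf : f.Monic) (hirr : Irreducible (f.map (residue R))) :
    IsDomain (AdjoinRoot f) := by
  have := nontrivial_adjoinRoot hirr
  have hinj := of_injective hf hirr
  refine @NoZeroDivisors.to_isDomain _ _ _ ⟨fun {a b} hab => ?_⟩
  by_contra hne
  rw [not_or] at hne
  obtain ⟨ra, ua, hra, rfl⟩ := exists_eq_of_mul_unit hf hirr hne.1
  obtain ⟨rb, ub, hrb, rfl⟩ := exists_eq_of_mul_unit hf hirr hne.2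
  have h1 : AdjoinRoot.of f (ra * rb) * ((ua * ub : (AdjoinRoot f)ˣ) : AdjoinRoot f) = 0 := by
    rw [map_mul, Units.val_mul]
    rw [← hab]; ring
  have h2 : AdjoinRoot.of f (ra * rb) = 0 := by
    have := congrArg (fun x => x * (((ua * ub)⁻¹ : (AdjoinRoot f)ˣ) : AdjoinRoot f)) h1
    simpa [mul_assoc] using this
  have h3 : ra * rb = 0 := hinj (by rw [h2, map_zero])
  exact (mul_ne_zero hra hrb) h3

/-- **`R[X]/(f)` is a valuation ring** when `R` is one and `f` is monic with irreducible
reduction. -/
theorem valuationRing_adjoinRoot (hf : f.Monic) (hirr : Irreducible (f.map (residue R))) :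
    letI := isDomain_adjoinRoot hf hirr
    ValuationRing (AdjoinRoot f) := by
  letI := isDomain_adjoinRoot hf hirr
  refine { cond' := fun a b => ?_ }
  by_cases ha : a = 0
  · exact ⟨0, Or.inr (by rw [ha, mul_zero])⟩
  by_cases hb : b = 0
  · exact ⟨0, Or.inl (by rw [hb, mul_zero])⟩
  obtain ⟨ra, ua, hra, rfl⟩ := exists_eq_of_mul_unit hf hirr ha
  obtain ⟨rb, ub, hrb, rfl⟩ := exists_eq_of_mul_unit hf hirr hb
  rcases ValuationRing.dvd_total ra rb with ⟨c, hc⟩ | ⟨c, hc⟩
  · refine ⟨AdjoinRoot.of f c * ((ua⁻¹ * ub : (AdjoinRoot f)ˣ) : AdjoinRoot f), Or.inl ?_⟩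
    rw [hc, map_mul, Units.val_mul]
    have : (ua : AdjoinRoot f) * ((ua⁻¹ : (AdjoinRoot f)ˣ) : AdjoinRoot f) = 1 := ua.mul_inv
    calc AdjoinRoot.of f ra * ua * (AdjoinRoot.of f c * ((ua⁻¹ : (AdjoinRoot f)ˣ) * ub))
        = AdjoinRoot.of f ra * AdjoinRoot.of f c
          * ((ua : AdjoinRoot f) * ((ua⁻¹ : (AdjoinRoot f)ˣ) : AdjoinRoot f)) * ub := by ring
      _ = AdjoinRoot.of f ra * AdjoinRoot.of f c * ub := by rw [this, mul_one]
  · refine ⟨AdjoinRoot.of f c * ((ub⁻¹ * ua : (AdjoinRoot f)ˣ) : AdjoinRoot f), Or.inr ?_⟩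
    rw [hc, map_mul, Units.val_mul]
    have : (ub : AdjoinRoot f) * ((ub⁻¹ : (AdjoinRoot f)ˣ) : AdjoinRoot f) = 1 := ub.mul_inv
    calc AdjoinRoot.of f rb * ub * (AdjoinRoot.of f c * ((ub⁻¹ : (AdjoinRoot f)ˣ) * ua))
        = AdjoinRoot.of f rb * AdjoinRoot.of f c
          * ((ub : AdjoinRoot f) * ((ub⁻¹ : (AdjoinRoot f)ˣ) : AdjoinRoot f)) * ua := by ring
      _ = AdjoinRoot.of f rb * AdjoinRoot.of f c * ua := by rw [this, mul_one]

/-- `of r` is a unit of `R[X]/(f)` iff `r` is a unit of `R`. -/
theorem isUnit_of_iff (hf : f.Monic) (hirr : Irreducible (f.map (residue R))) (r : R) :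
    IsUnit (AdjoinRoot.of f r) ↔ IsUnit r := by
  refine ⟨fun h => ?_, fun h => h.map _⟩
  rw [isUnit_iff_redAdjoinRoot_ne_zero hf hirr, redAdjoinRoot_of] at h
  by_contra hr
  have : residue R r = 0 := (IsLocalRing.residue_eq_zero_iff r).mpr hr
  exact h (by rw [this, map_zero])

end ValuationRing

end Fermat.Agent.S18.H50
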