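/-
S18 / R-EXIST, package R0a (helper50), field-level part: the unramified extension of an arbitrary
valuation subring `V` of `K` to `L = K[θ]`, where `θ` is a root of a monic `Φ ∈ V[X]` whose
reduction is irreducible over the residue field of `V`.

* `UnramData.valuationSubring : ValuationSubring L` with carrier `V[θ]`;
* `exists_scale` : every `x ≠ 0` of `L` is `c · (unit of V[θ])` with `c ∈ Kˣ` (so `e = 1`);
* `comap_eq` : `V[θ] ∩ K = V`;
* the residue map `res : V[θ] →+* κ[X]/(Φ̄)`, surjective, with kernel the nonunits;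
* `V[θ]` is the integral closure of `V` in `L`, and the UNIQUE valuation subring of `L` above `V`.
Mathlib only.
-/
import Mathlib
import Fermat.Agent.S18.H50_UnramVal

set_option autoImplicit false

open Polynomial IsLocalRing

namespace Fermat.Agent.S18.H50

section Field

variable {K L : Type*} [Field K] [Field L] [Algebra K L]

/-- The canonical map `V → L`. -/
def baseHom (V : ValuationSubring K) : ↥V →+* L := (algebraMap K L).comp V.subtype

theorem baseHom_apply (V : ValuationSubring K) (c : ↥V) :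
    baseHom (L := L) V c = algebraMap K L (c : K) := rfl

theorem baseHom_injective (V : ValuationSubring K) : Function.Injective (baseHom (L := L) V) :=
  (algebraMap K L).injective.comp Subtype.val_injective

/-- Hypotheses: `Φ ∈ V[X]` monic with irreducible reduction, `θ ∈ L` a root, `L = K[θ]`. -/
structure UnramData (V : ValuationSubring K) (Φ : (↥V)[X]) (θ : L) : Prop where
  monic : Φ.Monic
  irr : Irreducible (Φ.map (residue ↥V))
  root : Φ.eval₂ (baseHom V) θ = 0
  gen : ∀ x : L, ∃ p : K[X], aeval θ p = x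

namespace UnramData

variable {V : ValuationSubring K} {Φ : (↥V)[X]} {θ : L}

/-- evaluation `V[X]/(Φ) → L`, `X ↦ θ`. -/
noncomputable def evalθ (h : UnramData V Φ θ) : AdjoinRoot Φ →+* L :=
  AdjoinRoot.lift (baseHom V) θ h.root

@[simp]
theorem evalθ_mk (h : UnramData V Φ θ) (p : (↥V)[X]) :
    h.evalθ (AdjoinRoot.mk Φ p) = p.eval₂ (baseHom V) θ :=
  AdjoinRoot.lift_mk _ _

@[simp]
theorem evalθ_of (h : UnramData V Φ θ) (c : ↥V) :
    h.evalθ (AdjoinRoot.of Φ c) = algebraMap K L (c : K) :=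
  AdjoinRoot.lift_of _

@[simp]
theorem evalθ_root (h : UnramData V Φ θ) : h.evalθ (AdjoinRoot.root Φ) = θ :=
  AdjoinRoot.lift_root _

theorem evalθ_ne_zero (h : UnramData V Φ θ) {s : AdjoinRoot Φ} (hs : s ≠ 0) :
    h.evalθ s ≠ 0 := by
  obtain ⟨r, u, hr, rfl⟩ := exists_eq_of_mul_unit h.monic h.irr hs
  rw [map_mul, evalθ_of]
  refine mul_ne_zero ?_ ((u.isUnit.map h.evalθ).ne_zero)
  intro h0
  have : (r : K) = 0 := (algebraMap K L).injective (by rw [h0, map_zero])
  exact hr (Subtype.ext this)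

theorem evalθ_injective (h : UnramData V Φ θ) : Function.Injective h.evalθ := by
  rw [injective_iff_map_eq_zero]
  intro s hs
  by_contra hne
  exact h.evalθ_ne_zero hne hs

/-- Clearing denominators: every element of `L` is `evalθ s / b` with `b ∈ V`, `b ≠ 0`. -/
theorem exists_mul_eq_evalθ (h : UnramData V Φ θ) (x : L) :
    ∃ (b : ↥V) (s : AdjoinRoot Φ), b ≠ 0 ∧ algebraMap K L (b : K) * x = h.evalθ s := by
  obtain ⟨p, rfl⟩ := h.gen x
  obtain ⟨b, hbM, hb⟩ := IsLocalization.integerNormalization_spec (nonZeroDivisors ↥V) p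
  refine ⟨b, AdjoinRoot.mk Φ (IsLocalization.integerNormalization (nonZeroDivisors ↥V) p),
    nonZeroDivisors.ne_zero hbM, ?_⟩
  rw [evalθ_mk]
  have h1 : (IsLocalization.integerNormalization (nonZeroDivisors ↥V) p).eval₂ (baseHom V) θ
      = aeval θ ((IsLocalization.integerNormalization (nonZeroDivisors ↥V) p).map
          (algebraMap ↥V K)) := by
    rw [aeval_def, eval₂_map]
    rfl
  have hsm : (b • p : K[X]) = C ((b : ↥V) : K) * p := by
    ext i
    rw [coeff_smul, coeff_C_mul, Algebra.smul_def]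
    rfl
  rw [h1, hb, hsm, map_mul, aeval_C]

/-- **The unramified extension** `V[θ]` of `V` as a valuation subring of `L`. -/
noncomputable def valuationSubring (h : UnramData V Φ θ) : ValuationSubring L where
  toSubring := h.evalθ.range
  mem_or_inv_mem' x := by
    letI := isDomain_adjoinRoot h.monic h.irr
    haveI := valuationRing_adjoinRoot h.monic h.irr
    by_cases hx : x = 0
    · exact Or.inl ⟨0, by rw [hx, map_zero]⟩
    obtain ⟨b, s, hb, hbs⟩ := h.exists_mul_eq_evalθ x
    have hbL : algebraMap K L (b : K) ≠ 0 := by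
      intro h0
      have : (b : K) = 0 := (algebraMap K L).injective (by rw [h0, map_zero])
      exact hb (Subtype.ext this)
    rcases ValuationRing.dvd_total s (AdjoinRoot.of Φ b) with ⟨c, hc⟩ | ⟨c, hc⟩
    · -- `of b = s * c`, so `x⁻¹ = evalθ c`
      right
      refine ⟨c, ?_⟩
      have h1 : algebraMap K L (b : K) = algebraMap K L (b : K) * x * h.evalθ c := by
        rw [hbs, ← map_mul, ← hc, evalθ_of]
      have h2 : x * h.evalθ c = 1 := by
        have : algebraMap K L (b : K) * (x * h.evalθ c) = algebraMap K L (b : K) * 1 := by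
          rw [mul_one, ← mul_assoc]; exact h1.symm
        exact mul_left_cancel₀ hbL this
      exact (eq_inv_of_mul_eq_one_right h2)
    · -- `s = of b * c`, so `x = evalθ c`
      left
      refine ⟨c, ?_⟩
      have h1 : algebraMap K L (b : K) * x = algebraMap K L (b : K) * h.evalθ c := by
        rw [hbs, hc, map_mul, evalθ_of]
      exact (mul_left_cancel₀ hbL h1).symm

theorem mem_valuationSubring_iff (h : UnramData V Φ θ) {x : L} :
    x ∈ h.valuationSubring ↔ ∃ s, h.evalθ s = x := Iff.rfl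

theorem evalθ_mem (h : UnramData V Φ θ) (s : AdjoinRoot Φ) : h.evalθ s ∈ h.valuationSubring :=
  ⟨s, rfl⟩

theorem θ_mem (h : UnramData V Φ θ) : θ ∈ h.valuationSubring :=
  ⟨AdjoinRoot.root Φ, h.evalθ_root⟩

theorem algebraMap_mem (h : UnramData V Φ θ) (c : ↥V) :
    algebraMap K L (c : K) ∈ h.valuationSubring :=
  ⟨AdjoinRoot.of Φ c, h.evalθ_of c⟩

/-- `V[X]/(Φ) ≃ V[θ]`. -/
noncomputable def equiv (h : UnramData V Φ θ) : AdjoinRoot Φ ≃+* ↥h.valuationSubring :=
  RingEquiv.ofBijective (h.evalθ.codRestrict h.valuationSubring.toSubring h.evalθ_mem)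
    ⟨fun _ _ hab => h.evalθ_injective (congrArg Subtype.val hab),
      fun ⟨_, s, hs⟩ => ⟨s, Subtype.ext hs⟩⟩

@[simp]
theorem coe_equiv (h : UnramData V Φ θ) (s : AdjoinRoot Φ) :
    ((h.equiv s : ↥h.valuationSubring) : L) = h.evalθ s := rfl

theorem evalθ_equiv_symm (h : UnramData V Φ θ) (x : ↥h.valuationSubring) :
    h.evalθ (h.equiv.symm x) = (x : L) := by
  rw [← coe_equiv, RingEquiv.apply_symm_apply]

/-- `e = 1`: every nonzero element of `L` is an element of `Kˣ` times a unit of `V[θ]`. -/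
theorem exists_scale (h : UnramData V Φ θ) {x : L} (hx : x ≠ 0) :
    ∃ (c : K) (u : (AdjoinRoot Φ)ˣ), c ≠ 0 ∧ x = algebraMap K L c * h.evalθ u := by
  obtain ⟨b, s, hb, hbs⟩ := h.exists_mul_eq_evalθ x
  have hbK : (b : K) ≠ 0 := fun h0 => hb (Subtype.ext h0)
  have hbL : algebraMap K L (b : K) ≠ 0 := fun h0 =>
    hbK ((algebraMap K L).injective (by rw [h0, map_zero]))
  have hs : s ≠ 0 := by
    rintro rfl
    rw [map_zero] at hbs
    exact (mul_ne_zero hbL hx) hbs
  obtain ⟨r, u, hr, rfl⟩ := exists_eq_of_mul_unit h.monic h.irr hs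
  have hrK : (r : K) ≠ 0 := fun h0 => hr (Subtype.ext h0)
  refine ⟨(b : K)⁻¹ * (r : K), u, mul_ne_zero (inv_ne_zero hbK) hrK, ?_⟩
  rw [map_mul, evalθ_of] at hbs
  rw [map_mul, map_inv₀, mul_assoc, ← hbs, ← mul_assoc, inv_mul_cancel₀ hbL, one_mul]

/-- `V[θ] ∩ K = V`. -/
theorem comap_eq (h : UnramData V Φ θ) :
    h.valuationSubring.comap (algebraMap K L) = V := by
  ext c
  rw [ValuationSubring.mem_comap]
  refine ⟨fun hc => ?_, fun hc => h.algebraMap_mem ⟨c, hc⟩⟩
  by_contra hcV
  have hc0 : c ≠ 0 := fun h0 => hcV (by rw [h0]; exact V.zero_mem)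
  have hinv : c⁻¹ ∈ V := (V.mem_or_inv_mem c).resolve_left hcV
  obtain ⟨s, hs⟩ := hc
  have h1 : h.evalθ (AdjoinRoot.of Φ ⟨c⁻¹, hinv⟩ * s) = h.evalθ 1 := by
    rw [map_mul, evalθ_of, hs, map_one, ← map_mul, inv_mul_cancel₀ hc0, map_one]
  have h2 : AdjoinRoot.of Φ ⟨c⁻¹, hinv⟩ * s = 1 := h.evalθ_injective h1
  have h3 : IsUnit (AdjoinRoot.of Φ (⟨c⁻¹, hinv⟩ : ↥V)) := IsUnit.of_mul_eq_one _ h2
  rw [isUnit_of_iff h.monic h.irr] at h3
  obtain ⟨w, hw⟩ := h3
  have h4 : ((w⁻¹ : (↥V)ˣ) : K) = c := by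
    have h5 : ((w : ↥V) : K) * ((w⁻¹ : (↥V)ˣ) : K) = 1 :=
      congrArg Subtype.val w.mul_inv
    rw [hw] at h5
    have h6 : c⁻¹ * ((w⁻¹ : (↥V)ˣ) : K) = c⁻¹ * c := by rw [h5, inv_mul_cancel₀ hc0]
    exact mul_left_cancel₀ (inv_ne_zero hc0) h6
  exact hcV (h4 ▸ (w⁻¹ : (↥V)ˣ).val.2)

/-- The residue map `V[θ] → κ[X]/(Φ̄)`. -/
noncomputable def res (h : UnramData V Φ θ) :
    ↥h.valuationSubring →+* AdjoinRoot (Φ.map (residue ↥V)) :=
  (redAdjoinRoot Φ).comp (h.equiv.symm : ↥h.valuationSubring →+* AdjoinRoot Φ)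

theorem res_apply (h : UnramData V Φ θ) (x : ↥h.valuationSubring) :
    h.res x = redAdjoinRoot Φ (h.equiv.symm x) := rfl

@[simp]
theorem res_equiv (h : UnramData V Φ θ) (s : AdjoinRoot Φ) :
    h.res (h.equiv s) = redAdjoinRoot Φ s := by
  rw [res_apply, RingEquiv.symm_apply_apply]

theorem res_surjective (h : UnramData V Φ θ) : Function.Surjective h.res :=
  (redAdjoinRoot_surjective Φ).comp h.equiv.symm.surjective

/-- the kernel of the residue map consists of the nonunits. -/
theorem res_eq_zero_iff (h : UnramData V Φ θ) (x : ↥h.valuationSubring) :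
    h.res x = 0 ↔ x ∈ maximalIdeal ↥h.valuationSubring := by
  rw [IsLocalRing.mem_maximalIdeal, mem_nonunits_iff, res_apply,
    ← not_iff_not, not_not, ← ne_eq, ← isUnit_iff_redAdjoinRoot_ne_zero h.monic h.irr]
  exact ⟨fun hu => by simpa using hu.map h.equiv, fun hu => hu.map h.equiv.symm⟩

theorem res_eq_zero_iff_valuation_lt_one (h : UnramData V Φ θ) (x : ↥h.valuationSubring) :
    h.res x = 0 ↔ h.valuationSubring.valuation (x : L) < 1 := by
  rw [res_eq_zero_iff, ValuationSubring.valuation_lt_one_iff]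

/-- compatibility of the residue map with constants. -/
theorem res_algebraMap (h : UnramData V Φ θ) (c : ↥V) :
    h.res ⟨algebraMap K L (c : K), h.algebraMap_mem c⟩
      = AdjoinRoot.of (Φ.map (residue ↥V)) (residue ↥V c) := by
  have : (⟨algebraMap K L (c : K), h.algebraMap_mem c⟩ : ↥h.valuationSubring)
      = h.equiv (AdjoinRoot.of Φ c) := Subtype.ext (h.evalθ_of c).symm
  rw [this, res_equiv, redAdjoinRoot_of]

theorem res_θ (h : UnramData V Φ θ) :
    h.res ⟨θ, h.θ_mem⟩ = AdjoinRoot.root (Φ.map (residue ↥V)) := by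
  have : (⟨θ, h.θ_mem⟩ : ↥h.valuationSubring) = h.equiv (AdjoinRoot.root Φ) :=
    Subtype.ext h.evalθ_root.symm
  rw [this, res_equiv, redAdjoinRoot_root]

/-- `res` of a polynomial expression in `θ` with `V`-coefficients. -/
theorem res_eval₂ (h : UnramData V Φ θ) (p : (↥V)[X]) :
    h.res ⟨p.eval₂ (baseHom V) θ, ⟨AdjoinRoot.mk Φ p, h.evalθ_mk p⟩⟩
      = AdjoinRoot.mk (Φ.map (residue ↥V)) (p.map (residue ↥V)) := by
  have : (⟨p.eval₂ (baseHom V) θ, ⟨AdjoinRoot.mk Φ p, h.evalθ_mk p⟩⟩ : ↥h.valuationSubring)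
      = h.equiv (AdjoinRoot.mk Φ p) := Subtype.ext (h.evalθ_mk p).symm
  rw [this, res_equiv, redAdjoinRoot_mk]

/-- Coordinates: every element of `V[θ]` is `p(θ)` for a unique `p ∈ V[X]` of degree `< deg Φ`. -/
theorem exists_repr (h : UnramData V Φ θ) (x : ↥h.valuationSubring) :
    ∃ p : (↥V)[X], p.degree < Φ.degree ∧ p.eval₂ (baseHom V) θ = (x : L) := by
  refine ⟨AdjoinRoot.modByMonicHom h.monic (h.equiv.symm x), ?_, ?_⟩
  · obtain ⟨q, hq⟩ := AdjoinRoot.mk_surjective (h.equiv.symm x)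
    rw [← hq, AdjoinRoot.modByMonicHom_mk]
    exact degree_modByMonic_lt q h.monic
  · rw [← evalθ_mk, AdjoinRoot.mk_leftInverse h.monic, evalθ_equiv_symm]

/-- Orthonormality: a polynomial expression of degree `< deg Φ` in `θ` is a nonunit of `V[θ]`
iff all its coefficients are nonunits of `V`. -/
theorem eval₂_mem_maximalIdeal_iff (h : UnramData V Φ θ) {p : (↥V)[X]}
    (hdeg : p.degree < Φ.degree) :
    (⟨p.eval₂ (baseHom V) θ, ⟨AdjoinRoot.mk Φ p, h.evalθ_mk p⟩⟩ : ↥h.valuationSubring)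
        ∈ maximalIdeal ↥h.valuationSubring
      ↔ ∀ i, p.coeff i ∈ maximalIdeal ↥V := by
  rw [← res_eq_zero_iff, res_eval₂, AdjoinRoot.mk_eq_zero]
  constructor
  · intro hdvd i
    have hlt : (p.map (residue ↥V)).degree < (Φ.map (residue ↥V)).degree := by
      rw [h.monic.degree_map]
      exact lt_of_le_of_lt degree_map_le hdeg
    have h0 := Polynomial.eq_zero_of_dvd_of_degree_lt hdvd hlt
    have h1 : (p.map (residue ↥V)).coeff i = 0 := by rw [h0, coeff_zero]
    rw [coeff_map] at h1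
    exact (IsLocalRing.residue_eq_zero_iff _).mp h1
  · intro hall
    have : p.map (residue ↥V) = 0 := by
      ext i
      rw [coeff_map, coeff_zero]
      exact (IsLocalRing.residue_eq_zero_iff _).mpr (hall i)
    rw [this]
    exact dvd_zero _

end UnramData

/-! ### Integral closure and uniqueness -/

/-- A valuation subring of `L` containing the image of `V` contains every element of `L` that is
integral over `V`. -/
theorem mem_of_isIntegralElem {V : ValuationSubring K} (W : ValuationSubring L)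
    (hW : ∀ c : ↥V, algebraMap K L (c : K) ∈ W) {x : L}
    (hx : (baseHom (L := L) V).IsIntegralElem x) : x ∈ W := by
  obtain ⟨p, hp, hpx⟩ := hx
  let ι : ↥V →+* ↥W := (baseHom (L := L) V).codRestrict W.toSubring hW
  have hι : (algebraMap ↥W L).comp ι = baseHom V := RingHom.ext fun c => rfl
  have hint : IsIntegral ↥W x := by
    refine ⟨p.map ι, hp.map ι, ?_⟩
    rw [eval₂_map, hι]
    exact hpx
  obtain ⟨y, hy⟩ := IsIntegrallyClosed.isIntegral_iff.mp hint
  rw [← hy]
  exact y.2

theorem eval₂_mem {V : ValuationSubring K} (W : ValuationSubring L)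
    (hW : ∀ c : ↥V, algebraMap K L (c : K) ∈ W) {x : L} (hx : x ∈ W) (p : (↥V)[X]) :
    p.eval₂ (baseHom V) x ∈ W := by
  rw [eval₂_eq_sum_range]
  exact W.toSubring.sum_mem fun i _ => W.mul_mem _ _ (hW _) (W.toSubring.pow_mem hx i)

namespace UnramData

variable {V : ValuationSubring K} {Φ : (↥V)[X]} {θ : L}

theorem isIntegralElem_θ (h : UnramData V Φ θ) : (baseHom (L := L) V).IsIntegralElem θ :=
  ⟨Φ, h.monic, h.root⟩

/-- `V[θ]` is contained in every valuation subring of `L` containing the image of `V`. -/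
theorem le_of_forall_mem (h : UnramData V Φ θ) (W : ValuationSubring L)
    (hW : ∀ c : ↥V, algebraMap K L (c : K) ∈ W) : h.valuationSubring ≤ W := by
  rintro x ⟨s, rfl⟩
  obtain ⟨p, rfl⟩ := AdjoinRoot.mk_surjective s
  rw [evalθ_mk]
  exact eval₂_mem W hW (mem_of_isIntegralElem W hW h.isIntegralElem_θ) p

/-- **Uniqueness**: `V[θ]` is the only valuation subring of `L` lying over `V`. -/
theorem eq_of_comap_eq (h : UnramData V Φ θ) (W : ValuationSubring L)
    (hW : W.comap (algebraMap K L) = V) : W = h.valuationSubring := by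
  have hW' : ∀ c : ↥V, algebraMap K L (c : K) ∈ W := fun c => by
    have : (c : K) ∈ W.comap (algebraMap K L) := by rw [hW]; exact c.2
    exact this
  have hle := h.le_of_forall_mem W hW'
  refine le_antisymm (fun x hx => ?_) hle
  by_cases hx0 : x = 0
  · rw [hx0]; exact h.valuationSubring.zero_mem
  obtain ⟨c, u, _, rfl⟩ := h.exists_scale hx0
  have hu : h.evalθ ((u⁻¹ : (AdjoinRoot Φ)ˣ) : AdjoinRoot Φ) ∈ W := hle (h.evalθ_mem _)
  have hc : algebraMap K L c ∈ W := by
    have h1 : algebraMap K L c * h.evalθ u * h.evalθ ((u⁻¹ : (AdjoinRoot Φ)ˣ) : AdjoinRoot Φ)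
        = algebraMap K L c := by
      rw [mul_assoc, ← map_mul, Units.mul_inv, map_one, mul_one]
    rw [← h1]
    exact W.mul_mem _ _ hx hu
  have hcV : c ∈ V := by
    have : c ∈ W.comap (algebraMap K L) := hc
    rwa [hW] at this
  refine ⟨AdjoinRoot.of Φ ⟨c, hcV⟩ * u, ?_⟩
  rw [map_mul, evalθ_of]

/-- **`V[θ]` is the integral closure of `V` in `L`.** -/
theorem mem_iff_isIntegralElem (h : UnramData V Φ θ) (x : L) :
    x ∈ h.valuationSubring ↔ (baseHom (L := L) V).IsIntegralElem x := by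
  refine ⟨fun hx => ?_, fun hx => mem_of_isIntegralElem _ h.algebraMap_mem hx⟩
  obtain ⟨s, rfl⟩ := hx
  haveI : Module.Finite ↥V (AdjoinRoot Φ) := h.monic.finite_adjoinRoot
  obtain ⟨p, hp, hps⟩ := Algebra.IsIntegral.isIntegral (R := ↥V) s
  refine ⟨p, hp, ?_⟩
  have hcomp : h.evalθ.comp (algebraMap ↥V (AdjoinRoot Φ)) = baseHom V :=
    RingHom.ext fun c => h.evalθ_of c
  rw [← hcomp, ← Polynomial.hom_eval₂, hps, map_zero]

/-- Subring form, for a given `Algebra ↥V L` compatible with the tower. -/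
theorem integralClosure_eq (h : UnramData V Φ θ) [Algebra ↥V L] [IsScalarTower ↥V K L] :
    (integralClosure ↥V L).toSubring = h.valuationSubring.toSubring := by
  have halg : algebraMap ↥V L = baseHom V := by
    ext c
    rw [IsScalarTower.algebraMap_apply ↥V K L]
    rfl
  ext x
  rw [Subalgebra.mem_toSubring, mem_integralClosure_iff, ValuationSubring.mem_toSubring,
    h.mem_iff_isIntegralElem]
  show (algebraMap ↥V L).IsIntegralElem x ↔ _
  rw [halg]

end UnramData

end Field

end Fermat.Agent.S18.H50
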