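import Mathlib
import Fermat.Prelude.Def_ModularCurve_X0ModL
import Fermat.Agent.S28.Interface

/-!
# S18 / PLAN B (helper56): low-order coefficients of the basic `q`-series

* `etaProd = 1 - X - X² + O(X³)`, `dedekindEtaUnit = 1 - 24 X + 252 X² + O(X³)`,
  `dedekindEtaUnitInv = 1 + 24 X + O(X²)`, `jNum = 1 + 744 X + O(X²)`;
* a small calculus for bounded-below Laurent series: `x = single a 1 * ofPowerSeries p`,
  coefficients of products at the first three places.
-/

set_option autoImplicit false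

noncomputable section

namespace Fermat.Agent.S18.H56

open ModularCurve PowerSeries Filter
open scoped PowerSeries.WithPiTopology

/-! ### Partial products of `∏ (1 - X^(n+1))` -/

/-- The partial products. -/
def etaPartial (k : ℕ) : PowerSeries ℤ := ∏ n ∈ Finset.range k, (1 - PowerSeries.X ^ (n + 1))

theorem coeff_etaPartial_succ {d k : ℕ} (h : d ≤ k) :
    PowerSeries.coeff d (etaPartial (k + 1)) = PowerSeries.coeff d (etaPartial k) := by
  rw [etaPartial, Finset.prod_range_succ, ← etaPartial, mul_sub, mul_one, map_sub,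
    PowerSeries.coeff_mul_X_pow', if_neg (by omega), sub_zero]

theorem coeff_etaPartial_of_le {d k : ℕ} (h : d ≤ k) :
    PowerSeries.coeff d (etaPartial k) = PowerSeries.coeff d (etaPartial d) := by
  induction k, h using Nat.le_induction with
  | base => rfl
  | succ k hk ih => rw [coeff_etaPartial_succ hk, ih]

theorem coeff_etaProd (d : ℕ) :
    PowerSeries.coeff d etaProd = PowerSeries.coeff d (etaPartial d) := by
  have h1 : Tendsto (fun k => etaPartial k) atTop (nhds etaProd) :=
    (PowerSeries.WithPiTopology.multipliable_one_sub_X_pow ℤ).hasProd.tendsto_prod_nat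
  have h2 : Tendsto (fun k => PowerSeries.coeff d (etaPartial k)) atTop
      (nhds (PowerSeries.coeff d etaProd)) :=
    ((PowerSeries.WithPiTopology.continuous_coeff ℤ d).tendsto _).comp h1
  have h3 : Tendsto (fun k => PowerSeries.coeff d (etaPartial k)) atTop
      (nhds (PowerSeries.coeff d (etaPartial d))) := by
    refine tendsto_const_nhds.congr' ?_
    filter_upwards [eventually_ge_atTop d] with k hk
    exact (coeff_etaPartial_of_le hk).symm
  exact tendsto_nhds_unique h2 h3

theorem coeff_etaProd_one : PowerSeries.coeff 1 etaProd = -1 := by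
  rw [coeff_etaProd, etaPartial]
  simp [PowerSeries.coeff_one_X]

theorem coeff_etaProd_two : PowerSeries.coeff 2 etaProd = -1 := by
  rw [coeff_etaProd, etaPartial]
  simp [Finset.prod_range_succ, sub_mul, mul_sub, PowerSeries.coeff_X_pow, PowerSeries.coeff_X]

/-! ### First three coefficients of products, powers and inverses -/

section Low

variable {R : Type*} [CommRing R]

theorem coeff_one_mul' (f g : PowerSeries R) :
    PowerSeries.coeff 1 (f * g) =
      PowerSeries.coeff 0 f * PowerSeries.coeff 1 g + PowerSeries.coeff 1 f * PowerSeries.coeff 0 g := by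
  rw [PowerSeries.coeff_mul]
  simp [Finset.Nat.antidiagonal_succ]

theorem coeff_two_mul' (f g : PowerSeries R) :
    PowerSeries.coeff 2 (f * g) =
      PowerSeries.coeff 0 f * PowerSeries.coeff 2 g + PowerSeries.coeff 1 f * PowerSeries.coeff 1 g
        + PowerSeries.coeff 2 f * PowerSeries.coeff 0 g := by
  rw [PowerSeries.coeff_mul]
  simp [Finset.Nat.antidiagonal_succ]
  ring

theorem coeff_zero_pow' (f : PowerSeries R) (h0 : PowerSeries.coeff 0 f = 1) (n : ℕ) :
    PowerSeries.coeff 0 (f ^ n) = 1 := by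
  rw [PowerSeries.coeff_zero_eq_constantCoeff] at h0 ⊢
  rw [map_pow, h0, one_pow]

theorem coeff_one_pow' (f : PowerSeries R) (h0 : PowerSeries.coeff 0 f = 1) (n : ℕ) :
    PowerSeries.coeff 1 (f ^ n) = n * PowerSeries.coeff 1 f := by
  induction n with
  | zero => simp
  | succ n ih =>
    rw [pow_succ, coeff_one_mul', ih, coeff_zero_pow' f h0, h0]
    push_cast
    ring

theorem coeff_two_pow' (f : PowerSeries R) (h0 : PowerSeries.coeff 0 f = 1) (n : ℕ) :
    PowerSeries.coeff 2 (f ^ n) =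
      n * PowerSeries.coeff 2 f + (n.choose 2 : R) * PowerSeries.coeff 1 f ^ 2 := by
  induction n with
  | zero => simp
  | succ n ih =>
    rw [pow_succ, coeff_two_mul', ih, coeff_zero_pow' f h0, coeff_one_pow' f h0, h0,
      Nat.choose_succ_succ, Nat.choose_one_right]
    push_cast
    ring

end Low

/-! ### The basic series -/

theorem coeff_zero_etaProd : PowerSeries.coeff 0 etaProd = 1 := by
  rw [PowerSeries.coeff_zero_eq_constantCoeff]
  exact constantCoeff_etaProd

theorem coeff_dedekindEtaUnit_zero : PowerSeries.coeff 0 dedekindEtaUnit = 1 := by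
  rw [PowerSeries.coeff_zero_eq_constantCoeff]
  exact constantCoeff_dedekindEtaUnit

theorem coeff_dedekindEtaUnit_one : PowerSeries.coeff 1 dedekindEtaUnit = -24 := by
  rw [dedekindEtaUnit, coeff_one_pow' _ coeff_zero_etaProd, coeff_etaProd_one]
  norm_num

theorem coeff_dedekindEtaUnit_two : PowerSeries.coeff 2 dedekindEtaUnit = 252 := by
  rw [dedekindEtaUnit, coeff_two_pow' _ coeff_zero_etaProd, coeff_etaProd_one, coeff_etaProd_two]
  norm_num [Nat.choose]

theorem coeff_dedekindEtaUnitInv_zero : PowerSeries.coeff 0 dedekindEtaUnitInv = 1 := by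
  rw [PowerSeries.coeff_zero_eq_constantCoeff]
  exact constantCoeff_dedekindEtaUnitInv

theorem coeff_dedekindEtaUnitInv_one : PowerSeries.coeff 1 dedekindEtaUnitInv = 24 := by
  have h := congrArg (PowerSeries.coeff 1) dedekindEtaUnit_mul_inv
  rw [coeff_one_mul', coeff_dedekindEtaUnit_zero, coeff_dedekindEtaUnit_one,
    coeff_dedekindEtaUnitInv_zero, PowerSeries.coeff_one] at h
  simp at h
  linarith

theorem coeff_eisenstein4_zero : PowerSeries.coeff 0 eisenstein4 = 1 := by
  simp [eisenstein4]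

theorem coeff_eisenstein4_one : PowerSeries.coeff 1 eisenstein4 = 240 := by
  simp [eisenstein4]

theorem coeff_jNum_zero : PowerSeries.coeff 0 jNum = 1 := by
  rw [PowerSeries.coeff_zero_eq_constantCoeff]
  exact constantCoeff_jNum

theorem coeff_jNum_one : PowerSeries.coeff 1 jNum = 744 := by
  rw [jNum, coeff_one_mul', coeff_zero_pow' _ coeff_eisenstein4_zero,
    coeff_one_pow' _ coeff_eisenstein4_zero, coeff_eisenstein4_one,
    coeff_dedekindEtaUnitInv_zero, coeff_dedekindEtaUnitInv_one]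
  norm_num

/-! ### Bounded-below Laurent series -/

section Laurent

variable {R : Type*} [CommRing R]

theorem coeff_single_mul_ofPS_add (a : ℤ) (p : PowerSeries R) (i : ℕ) :
    (HahnSeries.single a (1 : R) * HahnSeries.ofPowerSeries ℤ R p).coeff (a + i) =
      PowerSeries.coeff i p := by
  rw [HahnSeries.coeff_single_mul, one_mul, show a + (i : ℤ) - a = (i : ℤ) by ring,
    HahnSeries.ofPowerSeries_apply_coeff]

theorem coeff_single_mul_ofPS_of_lt (a : ℤ) (p : PowerSeries R) {n : ℤ} (hn : n < a) :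
    (HahnSeries.single a (1 : R) * HahnSeries.ofPowerSeries ℤ R p).coeff n = 0 := by
  rw [HahnSeries.coeff_single_mul, one_mul]
  exact ofPowerSeries_coeff_of_neg _ (by omega)

/-- The shifted power series of a Laurent series. -/
def psAt (a : ℤ) (x : LaurentSeries R) : PowerSeries R := PowerSeries.mk fun i => x.coeff (a + i)

@[simp]
theorem coeff_psAt (a : ℤ) (x : LaurentSeries R) (i : ℕ) :
    PowerSeries.coeff i (psAt a x) = x.coeff (a + i) := by
  simp [psAt]

theorem eq_single_mul_psAt (x : LaurentSeries R) (a : ℤ) (hx : ∀ n : ℤ, n < a → x.coeff n = 0) :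
    x = HahnSeries.single a (1 : R) * HahnSeries.ofPowerSeries ℤ R (psAt a x) := by
  ext n
  by_cases hn : n < a
  · rw [hx n hn, coeff_single_mul_ofPS_of_lt a _ hn]
  · obtain ⟨i, hi⟩ := Int.eq_ofNat_of_zero_le (show 0 ≤ n - a by omega)
    have hni : n = a + i := by omega
    rw [hni, coeff_single_mul_ofPS_add, coeff_psAt]

theorem mul_eq_single_mul_psAt (x y : LaurentSeries R) (a b : ℤ)
    (hx : ∀ n : ℤ, n < a → x.coeff n = 0) (hy : ∀ n : ℤ, n < b → y.coeff n = 0) :
    x * y = HahnSeries.single (a + b) (1 : R) *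
      HahnSeries.ofPowerSeries ℤ R (psAt a x * psAt b y) := by
  conv_lhs => rw [eq_single_mul_psAt x a hx, eq_single_mul_psAt y b hy]
  rw [map_mul, mul_mul_mul_comm, HahnSeries.single_mul_single, one_mul]

theorem coeff_mul_of_lt (x y : LaurentSeries R) (a b : ℤ)
    (hx : ∀ n : ℤ, n < a → x.coeff n = 0) (hy : ∀ n : ℤ, n < b → y.coeff n = 0)
    {n : ℤ} (hn : n < a + b) : (x * y).coeff n = 0 := by
  rw [mul_eq_single_mul_psAt x y a b hx hy, coeff_single_mul_ofPS_of_lt _ _ hn]

theorem coeff_mul_zero (x y : LaurentSeries R) (a b : ℤ)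
    (hx : ∀ n : ℤ, n < a → x.coeff n = 0) (hy : ∀ n : ℤ, n < b → y.coeff n = 0) :
    (x * y).coeff (a + b) = x.coeff a * y.coeff b := by
  have h := coeff_single_mul_ofPS_add (a + b) (psAt a x * psAt b y) 0
  rw [← mul_eq_single_mul_psAt x y a b hx hy] at h
  simp only [Nat.cast_zero, add_zero] at h
  rw [h, PowerSeries.coeff_zero_eq_constantCoeff, map_mul,
    ← PowerSeries.coeff_zero_eq_constantCoeff]
  rw [coeff_psAt, coeff_psAt]
  simp

theorem coeff_mul_one (x y : LaurentSeries R) (a b : ℤ)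
    (hx : ∀ n : ℤ, n < a → x.coeff n = 0) (hy : ∀ n : ℤ, n < b → y.coeff n = 0) :
    (x * y).coeff (a + b + 1) = x.coeff a * y.coeff (b + 1) + x.coeff (a + 1) * y.coeff b := by
  have h := coeff_single_mul_ofPS_add (a + b) (psAt a x * psAt b y) 1
  rw [← mul_eq_single_mul_psAt x y a b hx hy] at h
  simp only [Nat.cast_one] at h
  rw [h, coeff_one_mul', coeff_psAt, coeff_psAt, coeff_psAt, coeff_psAt]
  simp

theorem coeff_mul_two (x y : LaurentSeries R) (a b : ℤ)
    (hx : ∀ n : ℤ, n < a → x.coeff n = 0) (hy : ∀ n : ℤ, n < b → y.coeff n = 0) :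
    (x * y).coeff (a + b + 2) = x.coeff a * y.coeff (b + 2) + x.coeff (a + 1) * y.coeff (b + 1)
      + x.coeff (a + 2) * y.coeff b := by
  have h := coeff_single_mul_ofPS_add (a + b) (psAt a x * psAt b y) 2
  rw [← mul_eq_single_mul_psAt x y a b hx hy] at h
  simp only [Nat.cast_ofNat] at h
  rw [h, coeff_two_mul', coeff_psAt, coeff_psAt, coeff_psAt, coeff_psAt, coeff_psAt, coeff_psAt]
  simp

end Laurent

/-! ### Coefficients of `Δ`, `1/Δ`, `j` over any ring -/

section Series

open Fermat.Agent.S28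

variable (R : Type*) [CommRing R]

theorem coeff_DeltaS_of_lt {n : ℤ} (hn : n < 1) : (DeltaS R).coeff n = 0 :=
  coeff_single_mul_ofPS_of_lt 1 _ hn

theorem coeff_DeltaS_one : (DeltaS R).coeff 1 = 1 := by
  have h := coeff_single_mul_ofPS_add (1 : ℤ) (dedekindEtaUnit.map (Int.castRingHom R)) 0
  rw [PowerSeries.coeff_map, coeff_dedekindEtaUnit_zero] at h
  simpa [DeltaS] using h

theorem coeff_DeltaS_two : (DeltaS R).coeff 2 = -24 := by
  have h := coeff_single_mul_ofPS_add (1 : ℤ) (dedekindEtaUnit.map (Int.castRingHom R)) 1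
  rw [PowerSeries.coeff_map, coeff_dedekindEtaUnit_one] at h
  simpa [DeltaS] using h

theorem coeff_DeltaS_three : (DeltaS R).coeff 3 = 252 := by
  have h := coeff_single_mul_ofPS_add (1 : ℤ) (dedekindEtaUnit.map (Int.castRingHom R)) 2
  rw [PowerSeries.coeff_map, coeff_dedekindEtaUnit_two] at h
  simpa [DeltaS] using h

theorem coeff_DeltaSInv_of_lt {n : ℤ} (hn : n < -1) : (DeltaSInv R).coeff n = 0 :=
  coeff_single_mul_ofPS_of_lt (-1) _ hn

theorem coeff_DeltaSInv_neg_one : (DeltaSInv R).coeff (-1) = 1 := by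
  have h := coeff_single_mul_ofPS_add (-1 : ℤ) (dedekindEtaUnitInv.map (Int.castRingHom R)) 0
  rw [PowerSeries.coeff_map, coeff_dedekindEtaUnitInv_zero] at h
  simpa [DeltaSInv] using h

theorem coeff_DeltaSInv_zero : (DeltaSInv R).coeff 0 = 24 := by
  have h := coeff_single_mul_ofPS_add (-1 : ℤ) (dedekindEtaUnitInv.map (Int.castRingHom R)) 1
  rw [PowerSeries.coeff_map, coeff_dedekindEtaUnitInv_one] at h
  simpa [DeltaSInv] using h

theorem coeff_jqModC_zero : (jqModC R).coeff 0 = 744 := by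
  have h := coeff_single_mul_ofPS_add (-1 : ℤ) (jNum.map (Int.castRingHom R)) 1
  rw [PowerSeries.coeff_map, coeff_jNum_one] at h
  simpa [jqModC] using h

theorem coeff_jqModC_neg_one' : (jqModC R).coeff (-1) = 1 := by
  have h := coeff_single_mul_ofPS_add (-1 : ℤ) (jNum.map (Int.castRingHom R)) 0
  rw [PowerSeries.coeff_map, coeff_jNum_zero] at h
  simpa [jqModC] using h

theorem coeff_jqModC_of_lt' {n : ℤ} (hn : n < -1) : (jqModC R).coeff n = 0 :=
  coeff_single_mul_ofPS_of_lt (-1) _ hn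

end Series

/-! ### `qExpand 2`, `twist (-1)` and the level-2 quotients -/

section Level2

open Fermat.Agent.S28

variable (R : Type*) [CommRing R]

variable {R} in
theorem coeff_qExpand_two_of_lt {f : LaurentSeries R} {a : ℤ} (hf : ∀ n : ℤ, n < a → f.coeff n = 0)
    {n : ℤ} (hn : n < 2 * a) : (qExpand R 2 f).coeff n = 0 := by
  by_cases h2 : ((2 : ℕ) : ℤ) ∣ n
  · obtain ⟨k, rfl⟩ := h2
    rw [qExpand_coeff_mul]
    apply hf
    push_cast at hn
    omega
  · exact qExpand_coeff_of_not_dvd 2 f h2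

variable {R} in
theorem coeff_qExpand_two_mul (f : LaurentSeries R) (k : ℤ) :
    (qExpand R 2 f).coeff (2 * k) = f.coeff k := by
  have h := qExpand_coeff_mul 2 f k
  simpa using h

variable {R} in
theorem coeff_qExpand_two_odd (f : LaurentSeries R) (k : ℤ) :
    (qExpand R 2 f).coeff (2 * k + 1) = 0 := by
  apply qExpand_coeff_of_not_dvd
  push_cast
  omega

variable {R} in
theorem twist_neg_one_qExpand_two (z : LaurentSeries R) :
    twist (-1 : Rˣ) (qExpand R 2 z) = qExpand R 2 z := by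
  ext n
  rw [twist_coeff]
  by_cases h2 : ((2 : ℕ) : ℤ) ∣ n
  · obtain ⟨k, rfl⟩ := h2
    have : ((-1 : Rˣ) ^ (((2 : ℕ) : ℤ) * k)) = 1 := by
      rw [zpow_mul]
      simp
    rw [this]
    simp
  · rw [qExpand_coeff_of_not_dvd 2 z h2, mul_zero]

/-- `h₂(q) = Δ(q)/Δ(q²)`. -/
def h2S : LaurentSeries R := DeltaS R * qExpand R 2 (DeltaSInv R)

theorem coeff_qDeltaSInv_of_lt {n : ℤ} (hn : n < -2) :
    (qExpand R 2 (DeltaSInv R)).coeff n = 0 :=
  coeff_qExpand_two_of_lt (a := -1) (fun _ h => coeff_DeltaSInv_of_lt R h) (by omega)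

theorem coeff_qDeltaSInv_neg_two : (qExpand R 2 (DeltaSInv R)).coeff (-2) = 1 := by
  have h := coeff_qExpand_two_mul (DeltaSInv R) (-1)
  rw [coeff_DeltaSInv_neg_one] at h
  simpa using h

theorem coeff_qDeltaSInv_neg_one : (qExpand R 2 (DeltaSInv R)).coeff (-1) = 0 := by
  have h := coeff_qExpand_two_odd (DeltaSInv R) (-1)
  simpa using h

theorem coeff_qDeltaSInv_zero : (qExpand R 2 (DeltaSInv R)).coeff 0 = 24 := by
  have h := coeff_qExpand_two_mul (DeltaSInv R) 0
  rw [coeff_DeltaSInv_zero] at h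
  simpa using h

theorem coeff_h2S_of_lt {n : ℤ} (hn : n < -1) : (h2S R).coeff n = 0 :=
  coeff_mul_of_lt _ _ 1 (-2) (fun _ h => coeff_DeltaS_of_lt R h)
    (fun _ h => coeff_qDeltaSInv_of_lt R h) (by omega)

theorem coeff_h2S_neg_one : (h2S R).coeff (-1) = 1 := by
  have h := coeff_mul_zero (DeltaS R) (qExpand R 2 (DeltaSInv R)) 1 (-2)
    (fun _ h => coeff_DeltaS_of_lt R h) (fun _ h => coeff_qDeltaSInv_of_lt R h)
  rw [coeff_DeltaS_one, coeff_qDeltaSInv_neg_two] at h
  simpa [h2S] using h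

theorem coeff_h2S_zero : (h2S R).coeff 0 = -24 := by
  have h := coeff_mul_one (DeltaS R) (qExpand R 2 (DeltaSInv R)) 1 (-2)
    (fun _ h => coeff_DeltaS_of_lt R h) (fun _ h => coeff_qDeltaSInv_of_lt R h)
  norm_num at h
  rw [coeff_DeltaS_one, coeff_qDeltaSInv_neg_two, coeff_DeltaS_two, coeff_qDeltaSInv_neg_one] at h
  simpa [h2S] using h

theorem coeff_h2S_one : (h2S R).coeff 1 = 276 := by
  have h := coeff_mul_two (DeltaS R) (qExpand R 2 (DeltaSInv R)) 1 (-2)
    (fun _ h => coeff_DeltaS_of_lt R h) (fun _ h => coeff_qDeltaSInv_of_lt R h)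
  norm_num at h
  rw [coeff_DeltaS_one, coeff_qDeltaSInv_neg_two, coeff_DeltaS_two, coeff_qDeltaSInv_neg_one,
    coeff_DeltaS_three, coeff_qDeltaSInv_zero] at h
  rw [h2S, h]
  norm_num

/-- `w(q) = 2¹² Δ(q²)/Δ(q)`. -/
def w2S : LaurentSeries R := ((2 : ℕ) : LaurentSeries R) ^ 12 * DeltaQuot R 2

theorem coeff_DeltaQuot_two_of_lt {n : ℤ} (hn : n < 1) : (DeltaQuot R 2).coeff n = 0 :=
  coeff_mul_of_lt _ _ 2 (-1)
    (fun _ h => coeff_qExpand_two_of_lt (a := 1) (fun _ h' => coeff_DeltaS_of_lt R h') (by omega))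
    (fun _ h => coeff_DeltaSInv_of_lt R h) (by omega)

theorem coeff_DeltaQuot_two_one : (DeltaQuot R 2).coeff 1 = 1 := by
  have h := coeff_mul_zero (qExpand R 2 (DeltaS R)) (DeltaSInv R) 2 (-1)
    (fun _ h => coeff_qExpand_two_of_lt (a := 1) (fun _ h' => coeff_DeltaS_of_lt R h') (by omega))
    (fun _ h => coeff_DeltaSInv_of_lt R h)
  have h2 := coeff_qExpand_two_mul (DeltaS R) 1
  norm_num at h h2
  rw [h2, coeff_DeltaS_one, coeff_DeltaSInv_neg_one] at h
  simpa [DeltaQuot] using h

theorem coeff_w2S (n : ℤ) : (w2S R).coeff n = 4096 * (DeltaQuot R 2).coeff n := by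
  have : ((2 : ℕ) : LaurentSeries R) ^ 12 = HahnSeries.C (4096 : R) := by
    rw [← Nat.cast_pow, ← map_natCast (HahnSeries.C : R →+* LaurentSeries R)]
    norm_num
  rw [w2S, this, HahnSeries.C_mul_eq_smul, HahnSeries.coeff_smul, smul_eq_mul]

theorem coeff_w2S_of_lt {n : ℤ} (hn : n < 1) : (w2S R).coeff n = 0 := by
  rw [coeff_w2S, coeff_DeltaQuot_two_of_lt R hn, mul_zero]

theorem coeff_w2S_one : (w2S R).coeff 1 = 4096 := by
  rw [coeff_w2S, coeff_DeltaQuot_two_one, mul_one]

end Level2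

end Fermat.Agent.S18.H56
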