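import Mathlib

/-!
# S18 / LEVEL-DESCENT (abstract part, helper78)

Mathlib-only.  `K` a field, `LaurentSeries K = K((q))`.

* `twist ζ : K((q)) →+* K((q))`, `∑ aᵢ qⁱ ↦ ∑ ζⁱ aᵢ qⁱ`.
* `IsDiv e x` : all exponents of `x` are divisible by `e` (i.e. `x ∈ K((q^e))`).
* `isDiv_of_pow` : `y^m ∈ K((q^e))`, `e ∣ ord y`, `m ≠ 0` in `K`, `ζ` a primitive `e`-th root of
  unity in `K`  ⟹  `y ∈ K((q^e))`.
* `mem_range_of_pow_mem` : the abstract Kummer descent along a "totally ramified enough" extension.
-/

set_option autoImplicit false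

noncomputable section

namespace Fermat.Agent.S18.H78

open HahnSeries

variable {K : Type*} [Field K]

/-- The coefficientwise twist `∑ aᵢ qⁱ ↦ ∑ ζⁱ aᵢ qⁱ` as a function. -/
def twistFun (ζ : Kˣ) (x : LaurentSeries K) : LaurentSeries K where
  coeff i := ((ζ ^ i : Kˣ) : K) * x.coeff i
  isPWO_support' := x.isPWO_support.mono (by
    intro i hi
    simp only [Function.mem_support, ne_eq] at hi
    simp only [mem_support, ne_eq]
    intro h
    exact hi (by rw [h, mul_zero]))

@[simp]
theorem coeff_twistFun (ζ : Kˣ) (x : LaurentSeries K) (i : ℤ) :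
    (twistFun ζ x).coeff i = ((ζ ^ i : Kˣ) : K) * x.coeff i := rfl

theorem support_twistFun (ζ : Kˣ) (x : LaurentSeries K) :
    (twistFun ζ x).support = x.support := by
  ext i
  simp only [mem_support, coeff_twistFun, ne_eq, mul_eq_zero, Units.ne_zero, false_or]

theorem twistFun_mul (ζ : Kˣ) (x y : LaurentSeries K) :
    twistFun ζ (x * y) = twistFun ζ x * twistFun ζ y := by
  ext a
  rw [coeff_twistFun, coeff_mul,
    coeff_mul_left' (x := twistFun ζ x) x.isPWO_support (support_twistFun ζ x).le]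
  have h2 : Finset.antidiagonal x.isPWO_support (twistFun ζ y).isPWO_support a =
      Finset.antidiagonal x.isPWO_support y.isPWO_support a := by
    ext ij
    simp only [Finset.mem_antidiagonal, support_twistFun]
  rw [h2, Finset.mul_sum]
  refine Finset.sum_congr rfl fun ij hij => ?_
  rw [Finset.mem_antidiagonal] at hij
  rw [coeff_twistFun, coeff_twistFun, ← hij.2.2, zpow_add, Units.val_mul]
  ring

/-- The coefficientwise twist as a ring homomorphism. -/
def twist (ζ : Kˣ) : LaurentSeries K →+* LaurentSeries K where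
  toFun := twistFun ζ
  map_one' := by
    ext i
    rw [coeff_twistFun, coeff_one]
    split_ifs with h
    · subst h; simp
    · simp
  map_mul' := twistFun_mul ζ
  map_zero' := by
    ext i
    simp
  map_add' x y := by
    ext i
    simp [mul_add]

@[simp]
theorem coeff_twist (ζ : Kˣ) (x : LaurentSeries K) (i : ℤ) :
    (twist ζ x).coeff i = ((ζ ^ i : Kˣ) : K) * x.coeff i := rfl


/-! ### Series in `q^e` -/

/-- All exponents of `x` are divisible by `e`, i.e. `x ∈ K((q^e))`. -/
def IsDiv (e : ℕ) (x : LaurentSeries K) : Prop := ∀ i, x.coeff i ≠ 0 → (e : ℤ) ∣ i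

theorem isDiv_zero (e : ℕ) : IsDiv e (0 : LaurentSeries K) := fun i hi => (hi (by simp)).elim

theorem twist_eq_self_iff {ζ : Kˣ} {e : ℕ} (hζ : IsPrimitiveRoot ζ e) (x : LaurentSeries K) :
    twist ζ x = x ↔ IsDiv e x := by
  constructor
  · intro h i hi
    have h1 := congrArg (fun y => y.coeff i) h
    simp only [coeff_twist] at h1
    have h2 : ((ζ ^ i : Kˣ) : K) = 1 := by
      have : (((ζ ^ i : Kˣ) : K) - 1) * x.coeff i = 0 := by rw [sub_mul, h1, one_mul, sub_self]
      rcases mul_eq_zero.mp this with h3 | h3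
      · exact sub_eq_zero.mp h3
      · exact (hi h3).elim
    have h3 : ζ ^ i = 1 := Units.ext (by rw [h2, Units.val_one])
    exact (hζ.zpow_eq_one_iff_dvd i).mp h3
  · intro h
    ext i
    rw [coeff_twist]
    by_cases hi : x.coeff i = 0
    · rw [hi, mul_zero]
    · have h3 : ζ ^ i = 1 := (hζ.zpow_eq_one_iff_dvd i).mpr (h i hi)
      rw [h3, Units.val_one, one_mul]

theorem IsDiv.dvd_order {e : ℕ} {x : LaurentSeries K} (h : IsDiv e x) (hx : x ≠ 0) :
    (e : ℤ) ∣ x.order :=
  h _ (fun h0 => hx (coeff_order_eq_zero.mp h0))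

theorem order_twist (ζ : Kˣ) (x : LaurentSeries K) : (twist ζ x).order = x.order := by
  by_cases hx : x = 0
  · rw [hx, map_zero]
  have hx' : twist ζ x ≠ 0 := by
    intro h
    apply hx
    ext i
    have := congrArg (fun y => y.coeff i) h
    simp only [coeff_twist, coeff_zero, mul_eq_zero, Units.ne_zero, false_or] at this
    simpa using this
  rw [order_of_ne hx, order_of_ne hx']
  congr 1
  exact support_twistFun ζ x

theorem leadingCoeff_pow' (x : LaurentSeries K) (n : ℕ) :
    (x ^ n).leadingCoeff = x.leadingCoeff ^ n := by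
  induction n with
  | zero => simp
  | succ n ih => rw [pow_succ, leadingCoeff_mul, ih, pow_succ]

/-- `y^m ∈ K((q^e))`, `e ∣ ord y`, `m` invertible in `K`, `ζ` a primitive `e`-th root of unity
`⟹ y ∈ K((q^e))`. -/
theorem isDiv_of_pow {ζ : Kˣ} {e : ℕ} (hζ : IsPrimitiveRoot ζ e) (m : ℕ) (hm : (m : K) ≠ 0)
    (y : LaurentSeries K) (hy : IsDiv e (y ^ m)) (hord : (e : ℤ) ∣ y.order) : IsDiv e y := by
  by_cases hy0 : y = 0
  · rw [hy0]; exact isDiv_zero e
  rw [← twist_eq_self_iff hζ]
  set z := twist ζ y with hz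
  have hzm : z ^ m = y ^ m := by
    rw [hz, ← map_pow]
    exact (twist_eq_self_iff hζ _).mpr hy
  have hz0 : z ≠ 0 := by
    intro h
    apply hy0
    have h1 : z ^ m = 0 := by
      rw [h]
      exact zero_pow (fun h0 => hm (by rw [h0, Nat.cast_zero]))
    rw [hzm] at h1
    exact pow_eq_zero_iff (fun h0 => hm (by rw [h0, Nat.cast_zero])) |>.mp h1
  have hzord : z.order = y.order := order_twist ζ y
  have hzlead : z.leadingCoeff = y.leadingCoeff := by
    rw [leadingCoeff_eq, leadingCoeff_eq, hzord, hz, coeff_twist]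
    have h3 : ζ ^ y.order = 1 := (hζ.zpow_eq_one_iff_dvd _).mpr hord
    rw [h3, Units.val_one, one_mul]
  have hgeom := Commute.geom_sum₂_mul (Commute.all z y) m
  rw [hzm, sub_self] at hgeom
  rcases mul_eq_zero.mp hgeom with hS | hzy
  · exfalso
    have hcoeff := congrArg (fun s => s.coeff ((m - 1 : ℕ) • y.order)) hS
    simp only [coeff_zero] at hcoeff
    rw [coeff_sum] at hcoeff
    have hterm : ∀ i ∈ Finset.range m,
        (z ^ i * y ^ (m - 1 - i)).coeff ((m - 1 : ℕ) • y.order) = y.leadingCoeff ^ (m - 1) := by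
      intro i hi
      rw [Finset.mem_range] at hi
      have hord' : (z ^ i * y ^ (m - 1 - i)).order = (m - 1 : ℕ) • y.order := by
        rw [order_mul (pow_ne_zero _ hz0) (pow_ne_zero _ hy0), order_pow, order_pow, hzord,
          ← add_smul]
        congr 1
        omega
      rw [← hord', ← leadingCoeff_eq, leadingCoeff_mul, leadingCoeff_pow', leadingCoeff_pow',
        hzlead, ← _root_.pow_add]
      congr 1
      omega
    rw [Finset.sum_congr rfl hterm, Finset.sum_const, Finset.card_range, nsmul_eq_mul] at hcoeff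
    rcases mul_eq_zero.mp hcoeff with h1 | h1
    · exact hm h1
    · exact leadingCoeff_ne_zero.mpr hy0 (pow_eq_zero_iff'.mp h1).1
  · exact sub_eq_zero.mp hzy

/-! ### Series with pairwise distinct orders -/

theorem sum_ne_zero_of_order_injOn {ι : Type*} (s : Finset ι) (hs : s.Nonempty)
    (f : ι → LaurentSeries K) (hne : ∀ i ∈ s, f i ≠ 0)
    (hinj : ∀ i ∈ s, ∀ j ∈ s, (f i).order = (f j).order → i = j) :
    ∑ i ∈ s, f i ≠ 0 := by
  classical
  obtain ⟨i₀, hi₀, hmin⟩ := Finset.exists_min_image s (fun i => (f i).order) hs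
  intro h0
  have hcoeff := congrArg (fun y => y.coeff (f i₀).order) h0
  simp only [coeff_zero] at hcoeff
  rw [coeff_sum, Finset.sum_eq_single i₀] at hcoeff
  · exact hne i₀ hi₀ (coeff_order_eq_zero.mp hcoeff)
  · intro j hj hji
    apply coeff_eq_zero_of_lt_order
    rcases lt_or_eq_of_le (hmin j hj) with h | h
    · exact h
    · exact (hji (hinj j hj i₀ hi₀ h.symm)).elim
  · intro h
    exact (h hi₀).elim


/-! ### The abstract descent -/

section Descent

variable {F0 F1 : Type*} [Field F0] [Field F1] [Algebra F0 F1]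

/-- The intermediate field of elements whose expansion lies in `K((q^e))`. -/
def fixedInter (σ : F1 →+* LaurentSeries K) (ζ : Kˣ)
    (hF0 : ∀ x : F0, twist ζ (σ (algebraMap F0 F1 x)) = σ (algebraMap F0 F1 x)) :
    IntermediateField F0 F1 where
  carrier := {z | twist ζ (σ z) = σ z}
  mul_mem' {a b} ha hb := by
    change twist ζ (σ a) = σ a at ha
    change twist ζ (σ b) = σ b at hb
    change twist ζ (σ (a * b)) = σ (a * b)
    rw [map_mul, map_mul, ha, hb]
  add_mem' {a b} ha hb := by
    change twist ζ (σ a) = σ a at ha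
    change twist ζ (σ b) = σ b at hb
    change twist ζ (σ (a + b)) = σ (a + b)
    rw [map_add, map_add, ha, hb]
  algebraMap_mem' x := hF0 x
  inv_mem' a ha := by
    change twist ζ (σ a) = σ a at ha
    change twist ζ (σ a⁻¹) = σ a⁻¹
    rw [map_inv₀, map_inv₀, ha]

theorem mem_fixedInter {σ : F1 →+* LaurentSeries K} {ζ : Kˣ}
    {hF0 : ∀ x : F0, twist ζ (σ (algebraMap F0 F1 x)) = σ (algebraMap F0 F1 x)} {z : F1} :
    z ∈ fixedInter σ ζ hF0 ↔ twist ζ (σ z) = σ z := Iff.rfl

/-- **Abstract Kummer descent.**  `F0 ⊆ F1` fields, `σ : F1 → K((q))` with `σ(F0) ⊆ K((q^e))`,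
`F1` contains an element of `q`-order `-1`, and `[F1 : F0] < 2e`.  If `g ∈ F1` has `g^m ∈ F0`
(`m` invertible in `K`, `K ∋` a primitive `e`-th root of unity) and `e ∣ ord_q g`, then `g ∈ F0`. -/
theorem exists_eq_algebraMap_of_pow [FiniteDimensional F0 F1]
    (σ : F1 →+* LaurentSeries K) (e m : ℕ) (ζ : Kˣ) (hζ : IsPrimitiveRoot ζ e)
    (hm : (m : K) ≠ 0)
    (hF0 : ∀ x : F0, IsDiv e (σ (algebraMap F0 F1 x)))
    (x : F1) (hx : (σ x).order = -1)
    (hdeg : Module.finrank F0 F1 < 2 * e)
    (g : F1) (h : F0) (hg : g ^ m = algebraMap F0 F1 h) (hord : (e : ℤ) ∣ (σ g).order) :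
    ∃ g0 : F0, algebraMap F0 F1 g0 = g := by
  classical
  have hF0' : ∀ x : F0, twist ζ (σ (algebraMap F0 F1 x)) = σ (algebraMap F0 F1 x) :=
    fun x => (twist_eq_self_iff hζ _).mpr (hF0 x)
  set L := fixedInter σ ζ hF0' with hL
  have hgL : g ∈ L := by
    rw [hL, mem_fixedInter, twist_eq_self_iff hζ]
    apply isDiv_of_pow hζ m hm _ _ hord
    rw [← map_pow, hg]
    exact hF0 h
  have hσinj : Function.Injective σ := σ.injective
  have hx0 : σ x ≠ 0 := by
    intro h0
    rw [h0, order_zero] at hx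
    exact absurd hx (by norm_num)
  -- linear independence of `1, x, …, x^(e-1)` over `L`
  have hli : LinearIndependent L (fun i : Fin e => x ^ (i : ℕ)) := by
    rw [Fintype.linearIndependent_iff]
    intro c hc
    by_contra hcon
    push Not at hcon
    obtain ⟨i₁, hi₁⟩ := hcon
    set s : Finset (Fin e) := Finset.univ.filter (fun i => c i ≠ 0) with hs
    have hsne : s.Nonempty := ⟨i₁, by rw [hs, Finset.mem_filter]; exact ⟨Finset.mem_univ _, hi₁⟩⟩
    set f : Fin e → LaurentSeries K := fun i => σ (c i : F1) * σ x ^ (i : ℕ) with hf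
    have hsum : ∑ i ∈ s, f i = 0 := by
      have h1 : ∑ i, f i = 0 := by
        have := congrArg σ hc
        rw [map_sum, map_zero] at this
        rw [← this]
        refine Finset.sum_congr rfl fun i _ => ?_
        rw [hf, IntermediateField.smul_def, smul_eq_mul, map_mul, map_pow]
      rw [← h1, hs]
      apply Finset.sum_filter_of_ne
      intro i _ hfi hci
      apply hfi
      rw [hf]
      simp only [hci, ZeroMemClass.coe_zero, map_zero, zero_mul]
    have hcne : ∀ i ∈ s, σ (c i : F1) ≠ 0 := by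
      intro i hi
      rw [hs, Finset.mem_filter] at hi
      intro h0
      apply hi.2
      have : (c i : F1) = 0 := hσinj (by rw [h0, map_zero])
      exact Subtype.ext this
    have hfne : ∀ i ∈ s, f i ≠ 0 := fun i hi =>
      mul_ne_zero (hcne i hi) (pow_ne_zero _ hx0)
    have hford : ∀ i ∈ s, ∃ k : ℤ, (f i).order = (e : ℤ) * k - (i : ℕ) := by
      intro i hi
      have hdiv : IsDiv e (σ (c i : F1)) := (twist_eq_self_iff hζ _).mp (c i).2
      obtain ⟨k, hk⟩ := hdiv.dvd_order (hcne i hi)
      refine ⟨k, ?_⟩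
      rw [hf]
      simp only
      rw [order_mul (hcne i hi) (pow_ne_zero _ hx0), order_pow, hx, hk]
      simp
      ring
    refine sum_ne_zero_of_order_injOn s hsne f hfne ?_ hsum
    intro i hi j hj hij
    obtain ⟨k, hk⟩ := hford i hi
    obtain ⟨l, hl⟩ := hford j hj
    rw [hk, hl] at hij
    have hi' := i.2
    have hj' := j.2
    apply Fin.ext
    have h1 : (e : ℤ) ∣ ((i : ℕ) : ℤ) - ((j : ℕ) : ℤ) := ⟨k - l, by linarith⟩
    have h2 : ((i : ℕ) : ℤ) - ((j : ℕ) : ℤ) = 0 := by
      apply Int.eq_zero_of_abs_lt_dvd h1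
      rw [abs_lt]
      constructor <;> omega
    omega
  have hcard : e ≤ Module.finrank L F1 := by
    have := hli.fintype_card_le_finrank
    simpa using this
  have hmul : Module.finrank F0 L * Module.finrank L F1 = Module.finrank F0 F1 :=
    Module.finrank_mul_finrank F0 L F1
  have hpos : 0 < Module.finrank F0 L := Module.finrank_pos
  have hone : Module.finrank F0 L = 1 := by
    by_contra hne
    have h2 : 2 ≤ Module.finrank F0 L := by omega
    have : 2 * e ≤ Module.finrank F0 L * Module.finrank L F1 := Nat.mul_le_mul h2 hcard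
    omega
  have hbot : L = ⊥ := IntermediateField.finrank_eq_one_iff.mp hone
  rw [hbot, IntermediateField.mem_bot] at hgL
  obtain ⟨g0, hg0⟩ := hgL
  exact ⟨g0, hg0⟩

end Descent

end Fermat.Agent.S18.H78

end
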