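import Mathlib
import Fermat.Agent.S18.H78_LevelDescentAbs
import Fermat.Agent.S28.H16_HasModPoly
import Fermat.Agent.S28.H39_Laurent
import Fermat.Agent.S28.H99_Degree
import Fermat.Agent.S24.H40_Generation
import Fermat.Agent.S20.H78_Index

/-!
# S18 / LEVEL-DESCENT (instance, helper78)

`ν_e := qExpand e` (`q ↦ q^e`).  For every `N`, `e` with `ψ(e) < 2e` (e.g. `e = 2,3,4,9`):

  `g ∈ Fbar (e*N)`, `g^m = ν_e h` with `h ∈ Fbar N`, `m ∣ ord_q h`  ⟹  `g = ν_e g₀`, `g₀ ∈ Fbar N`.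

Inputs: the abstract descent `H78.exists_eq_algebraMap_of_pow`, `S28.H16.hasModPoly e`
(the formal conjugate `J(t)` is a root of `Φ_e(J(t^e), X)`), `S28.H99.functionFieldGeneration`.
-/

set_option autoImplicit false

noncomputable section

namespace Fermat.Agent.S18.H78

open ModularCurve HahnSeries IntermediateField Polynomial
open Fermat.Agent.S24 (Qbar)

/-- `j(q)` with coefficients in `Qbar`. -/
abbrev jB : LaurentSeries Qbar := jqModC Qbar

theorem coeffEmb_jq : coeffEmb Qbar jq = jB := by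
  have h := coeffMap_jqModC (R := ℚ) (algebraMap ℚ Qbar)
  exact h

theorem coeffEmb_qExpand_jq (d : ℕ) [NeZero d] :
    coeffEmb Qbar (qExpand ℚ d jq) = qExpand Qbar d jB := by
  rw [coeffEmb, coeffMap_qExpand]
  congr 1
  exact coeffEmb_jq

/-- `Fbar N = Qbar(j(q^d) : d ∣ N)`. -/
theorem fbar_eq_adjoin (N : ℕ) [NeZero N] :
    modularFunctionFieldBar N =
      IntermediateField.adjoin Qbar (⇑(coeffEmb Qbar) '' divisorExpansions N) :=
  Fermat.Agent.S24.H40.laurentBaseChange_adjoin Qbar (divisorExpansions N)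

theorem qExpand_jB_mem (N : ℕ) [NeZero N] (d : ℕ) [NeZero d] (hd : d ∣ N) :
    qExpand Qbar d jB ∈ modularFunctionFieldBar N := by
  rw [← coeffEmb_qExpand_jq]
  exact coeffEmb_mem_laurentBaseChange Qbar (jqd_mem_full N hd)

theorem jB_mem (N : ℕ) [NeZero N] : jB ∈ modularFunctionFieldBar N := by
  have h := qExpand_jB_mem N 1 (one_dvd N)
  rwa [qExpand_one_apply] at h

/-- The twisted copy `ν_e(Fbar N)` of `Fbar N`. -/
def nuField (N e : ℕ) [NeZero N] [NeZero e] : IntermediateField Qbar (LaurentSeries Qbar) :=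
  (modularFunctionFieldBar N).map (qExpandAlgHomC Qbar e)

theorem mem_nuField {N e : ℕ} [NeZero N] [NeZero e] {x : LaurentSeries Qbar} :
    x ∈ nuField N e ↔ ∃ y ∈ modularFunctionFieldBar N, qExpand Qbar e y = x := by
  rw [nuField, IntermediateField.mem_map]
  rfl

theorem nuField_le (N e : ℕ) [NeZero N] [NeZero e] :
    nuField N e ≤ modularFunctionFieldBar (e * N) := by
  rw [nuField, fbar_eq_adjoin N, IntermediateField.adjoin_map, IntermediateField.adjoin_le_iff]
  rintro _ ⟨_, ⟨x, ⟨d, hd0, hd, rfl⟩, rfl⟩, rfl⟩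
  have := hd0
  show qExpand Qbar e (coeffEmb Qbar (qExpand ℚ d jq)) ∈ modularFunctionFieldBar (e * N)
  rw [coeffEmb_qExpand_jq, qExpand_qExpand]
  exact qExpand_jB_mem (e * N) (e * d) (Nat.mul_dvd_mul_left e hd)

theorem isDiv_of_mem_nuField {N e : ℕ} [NeZero N] [NeZero e] {x : LaurentSeries Qbar}
    (hx : x ∈ nuField N e) : IsDiv e x := by
  obtain ⟨y, -, rfl⟩ := mem_nuField.mp hx
  intro i hi
  by_contra hd
  exact hi (qExpand_coeff_of_not_dvd e y hd)


/-! ### `j` is integral of degree `≤ ψ(e)` over `ν_e(Fbar N)` -/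

section Main

variable (N e : ℕ) [NeZero N] [NeZero e]

/-- `j(q^e)` as an element of `ν_e(Fbar N)`. -/
def jE : nuField N e := ⟨qExpand Qbar e jB, mem_nuField.mpr ⟨jB, jB_mem N, rfl⟩⟩

/-- `ℤ[X] → ν_e(Fbar N)`, `X ↦ j(q^e)`. -/
def phiE : ℤ[X] →+* nuField N e := (Polynomial.aeval (jE N e)).toRingHom

theorem algebraMap_comp_phiE :
    (algebraMap (nuField N e) (LaurentSeries Qbar)).comp (phiE N e) =
      Fermat.Agent.S28.evalJ (qExpand Qbar e jB) := by
  apply Polynomial.ringHom_ext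
  · intro a
    simp [phiE, Fermat.Agent.S28.evalJ]
  · simp [phiE, Fermat.Agent.S28.evalJ, jE]

theorem exists_primitiveRoot_unit : ∃ ζ : Qbarˣ, IsPrimitiveRoot ζ e := by
  obtain ⟨ζ, hζ⟩ := HasEnoughRootsOfUnity.exists_primitiveRoot Qbar e
  refine ⟨(hζ.isUnit (NeZero.ne e)).unit, ?_⟩
  rw [← IsPrimitiveRoot.coe_units_iff]
  exact hζ

theorem exists_monic_root :
    ∃ P : Polynomial (nuField N e), P.Monic ∧ P.natDegree = dedekindPsi e ∧
      Polynomial.aeval (jB : LaurentSeries Qbar) P = 0 := by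
  obtain ⟨D, hD⟩ := Fermat.Agent.S28.H16.hasModPoly e
  obtain ⟨ζ, hζ⟩ := exists_primitiveRoot_unit e
  have hroot := hD Qbar ζ hζ 1 0 e ⟨one_mul e, NeZero.pos e, by simp⟩ ⟨by norm_num⟩
  have hJ : @Fermat.Agent.S28.Jconj Qbar _ (ζ ^ (1 * 0)) (1 * 1) ⟨by norm_num⟩ = jB := by
    rw [Fermat.Agent.S28.H39.Jconj_congr (ξ' := 1) (e' := 1) (by simp) (by norm_num),
      Fermat.Agent.S28.H39.Jconj_one_one]
  refine ⟨D.Φ.map (phiE N e), D.monic.map _, ?_, ?_⟩
  · rw [D.monic.natDegree_map, D.natDegree_eq]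
  · rw [Polynomial.aeval_def, Polynomial.eval₂_map, algebraMap_comp_phiE]
    rw [hJ] at hroot
    exact hroot

theorem isIntegral_jB : IsIntegral (nuField N e) (jB : LaurentSeries Qbar) := by
  obtain ⟨P, hPmonic, -, hProot⟩ := exists_monic_root N e
  exact ⟨P, hPmonic, hProot⟩

/-- `Fbar (e N) ⊆ ν_e(Fbar N)(j)`. -/
theorem fbar_le_adjoin_jB :
    modularFunctionFieldBar (e * N) ≤
      (IntermediateField.adjoin (nuField N e) {(jB : LaurentSeries Qbar)}).restrictScalars Qbar := by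
  set F1 : IntermediateField (nuField N e) (LaurentSeries Qbar) :=
    IntermediateField.adjoin (nuField N e) {(jB : LaurentSeries Qbar)} with hF1
  have hjF1 : (jB : LaurentSeries Qbar) ∈ F1 := IntermediateField.mem_adjoin_simple_self _ _
  have hF0F1 : ∀ x ∈ nuField N e, x ∈ F1 := fun x hx => F1.algebraMap_mem ⟨x, hx⟩
  rw [fbar_eq_adjoin (e * N), IntermediateField.adjoin_le_iff]
  rintro _ ⟨x, ⟨d, hd0, hd, rfl⟩, rfl⟩
  have := hd0
  have hgen := Fermat.Agent.S28.H99.functionFieldGeneration (e * N) d hd hd0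
  have h1 := Fermat.Agent.S24.H40.coeffEmb_mem_adjoin_image Qbar _ hgen
  have h2 : IntermediateField.adjoin Qbar
      (⇑(coeffEmb Qbar) '' {jq, qExpand ℚ (e * N) jq}) ≤ F1.restrictScalars Qbar := by
    rw [IntermediateField.adjoin_le_iff]
    rintro _ ⟨y, hy, rfl⟩
    rcases hy with rfl | rfl
    · show coeffEmb Qbar jq ∈ F1
      rw [coeffEmb_jq]
      exact hjF1
    · show coeffEmb Qbar (qExpand ℚ (e * N) jq) ∈ F1
      rw [coeffEmb_qExpand_jq, ← qExpand_qExpand]
      exact hF0F1 _ (mem_nuField.mpr ⟨_, qExpand_jB_mem N N dvd_rfl, rfl⟩)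
  exact h2 h1

/-- Every element of `Fbar (e N)` is integral over `ν_e(Fbar N)`. -/
theorem isIntegral_of_mem_fbar {x : LaurentSeries Qbar}
    (hx : x ∈ modularFunctionFieldBar (e * N)) : IsIntegral (nuField N e) x := by
  have hx' : x ∈ IntermediateField.adjoin (nuField N e) {(jB : LaurentSeries Qbar)} :=
    fbar_le_adjoin_jB N e hx
  have halg : Algebra.IsIntegral (nuField N e)
      (IntermediateField.adjoin (nuField N e) {(jB : LaurentSeries Qbar)}) :=
    (IntermediateField.isAlgebraic_adjoin_simple (isIntegral_jB N e)).isIntegral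
  have h1 := halg.isIntegral ⟨x, hx'⟩
  have h2 := h1.map (IntermediateField.val
    (IntermediateField.adjoin (nuField N e) {(jB : LaurentSeries Qbar)}))
  exact h2

/-- **Level descent, concrete form.**  If `g ∈ Fbar (e N)` satisfies `g^m = h(q^e)` with
`h ∈ Fbar N`, `m ∣ ord_q h`, and `ψ(e) < 2e`, then `g = g₀(q^e)` with `g₀ ∈ Fbar N`. -/
theorem exists_qExpand_eq_of_pow (hpsi : dedekindPsi e < 2 * e) (m : ℕ) (hm : m ≠ 0)
    (g : LaurentSeries Qbar) (hg : g ∈ modularFunctionFieldBar (e * N))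
    (h : LaurentSeries Qbar) (hh : h ∈ modularFunctionFieldBar N)
    (hgm : g ^ m = qExpand Qbar e h) (hord : (m : ℤ) ∣ h.order) :
    ∃ g0 ∈ modularFunctionFieldBar N, qExpand Qbar e g0 = g := by
  classical
  obtain ⟨P, hPmonic, hPdeg, hProot⟩ := exists_monic_root N e
  obtain ⟨ζ, hζ⟩ := exists_primitiveRoot_unit e
  have hint : IsIntegral (nuField N e) (jB : LaurentSeries Qbar) := ⟨P, hPmonic, hProot⟩
  set F1 : IntermediateField (nuField N e) (LaurentSeries Qbar) :=
    IntermediateField.adjoin (nuField N e) {(jB : LaurentSeries Qbar)} with hF1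
  have : FiniteDimensional (nuField N e) F1 := IntermediateField.adjoin.finiteDimensional hint
  have hfin : Module.finrank (nuField N e) F1 = (minpoly (nuField N e) (jB : LaurentSeries Qbar)).natDegree :=
    IntermediateField.adjoin.finrank hint
  have hdeg : Module.finrank (nuField N e) F1 < 2 * e := by
    rw [hfin]
    refine lt_of_le_of_lt ?_ hpsi
    rw [← hPdeg]
    exact Polynomial.natDegree_le_of_dvd (minpoly.dvd _ _ hProot) hPmonic.ne_zero
  have hjF1 : (jB : LaurentSeries Qbar) ∈ F1 := IntermediateField.mem_adjoin_simple_self _ _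
  have hgF1 : g ∈ F1 := fbar_le_adjoin_jB N e hg
  -- the order of `g`
  have hord' : (e : ℤ) ∣ g.order := by
    obtain ⟨k, hk⟩ := hord
    have h1 : (g ^ m).order = m • g.order := HahnSeries.order_pow g m
    rw [hgm, Fermat.Agent.S28.H39.order_qExpand, hk, nsmul_eq_mul] at h1
    have hm' : (m : ℤ) ≠ 0 := by exact_mod_cast hm
    refine ⟨k, ?_⟩
    have h2 : (m : ℤ) * g.order = (m : ℤ) * ((e : ℤ) * k) := by rw [← h1]; ring
    exact mul_left_cancel₀ hm' h2
  have hmQ : ((m : ℕ) : Qbar) ≠ 0 := by exact_mod_cast hm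
  obtain ⟨g0, hg0⟩ := exists_eq_algebraMap_of_pow (K := Qbar) (F0 := nuField N e) (F1 := F1)
    (algebraMap F1 (LaurentSeries Qbar)) e m ζ hζ hmQ
    (fun x => isDiv_of_mem_nuField (N := N) (e := e) x.2)
    ⟨jB, hjF1⟩ (Fermat.Agent.S28.H39.order_jqModC (R := Qbar)) hdeg
    ⟨g, hgF1⟩ ⟨qExpand Qbar e h, mem_nuField.mpr ⟨h, hh, rfl⟩⟩
    (Subtype.ext (by
      show (g ^ m : LaurentSeries Qbar) = qExpand Qbar e h
      exact hgm))
    hord'
  have hg0' : (g0 : LaurentSeries Qbar) = g := congrArg Subtype.val hg0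
  obtain ⟨y, hy, hyg⟩ := mem_nuField.mp g0.2
  exact ⟨y, hy, hyg.trans hg0'⟩

end Main

/-! ### The numerology `ψ(e) < 2e` for `e = 2, 3, 4, 9` -/

theorem dedekindPsi_two : dedekindPsi 2 = 3 := by
  have h := Fermat.Agent.S20.H78.dedekindPsi_prime_pow (p := 2) (k := 1) Nat.prime_two one_pos
  norm_num at h
  exact h

theorem dedekindPsi_three : dedekindPsi 3 = 4 := by
  have h := Fermat.Agent.S20.H78.dedekindPsi_prime_pow (p := 3) (k := 1) Nat.prime_three one_pos
  norm_num at h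
  exact h

theorem dedekindPsi_four : dedekindPsi 4 = 6 := by
  have h := Fermat.Agent.S20.H78.dedekindPsi_prime_pow (p := 2) (k := 2) Nat.prime_two two_pos
  norm_num at h
  exact h

theorem dedekindPsi_nine : dedekindPsi 9 = 12 := by
  have h := Fermat.Agent.S20.H78.dedekindPsi_prime_pow (p := 3) (k := 2) Nat.prime_three two_pos
  norm_num at h
  exact h

/-- Level descent `4N → N`. -/
theorem exists_qExpand_four_eq_of_pow (N : ℕ) [NeZero N] (m : ℕ) (hm : m ≠ 0)
    (g : LaurentSeries Qbar) (hg : g ∈ modularFunctionFieldBar (4 * N))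
    (h : LaurentSeries Qbar) (hh : h ∈ modularFunctionFieldBar N)
    (hgm : g ^ m = qExpand Qbar 4 h) (hord : (m : ℤ) ∣ h.order) :
    ∃ g0 ∈ modularFunctionFieldBar N, qExpand Qbar 4 g0 = g :=
  exists_qExpand_eq_of_pow N 4 (by rw [dedekindPsi_four]; norm_num) m hm g hg h hh hgm hord

/-- Level descent `9N → N`. -/
theorem exists_qExpand_nine_eq_of_pow (N : ℕ) [NeZero N] (m : ℕ) (hm : m ≠ 0)
    (g : LaurentSeries Qbar) (hg : g ∈ modularFunctionFieldBar (9 * N))
    (h : LaurentSeries Qbar) (hh : h ∈ modularFunctionFieldBar N)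
    (hgm : g ^ m = qExpand Qbar 9 h) (hord : (m : ℤ) ∣ h.order) :
    ∃ g0 ∈ modularFunctionFieldBar N, qExpand Qbar 9 g0 = g :=
  exists_qExpand_eq_of_pow N 9 (by rw [dedekindPsi_nine]; norm_num) m hm g hg h hh hgm hord

end Fermat.Agent.S18.H78

end
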