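import Mathlib
import Fermat.Agent.S28.H9_DeltaQuot
import Fermat.Agent.S24.H24_Comb
import Fermat.Agent.S18.H78_LevelDescentInst
import Fermat.Agent.S18.H56_QCoeff

/-!
# S18 / PLAN B (helper56): the level-2 Hauptmodul, formally

`h₂ = Δ(q)/Δ(q²)`.  From the analytic `Δ`-quotient polynomial of S28 (`H9.exists_analytic_poly 2`)
we identify the cubic `X³ + 48 X² + (768 - J) X + 4096` and obtain the two formal identities

* `j · w = (w + 16)³`, `w = 2¹² Δ(q²)/Δ(q)`;
* `j(q²) · h₂ = (h₂ + 16)³`, `h₂ = Δ(q)/Δ(q²)` (Fricke).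
-/

set_option autoImplicit false

noncomputable section

namespace Fermat.Agent.S18.H56

open UpperHalfPlane ModularForm ModularCurve Matrix.SpecialLinearGroup Polynomial
open Fermat.Agent.S28 Fermat.Agent.S28.H9
open Fermat.Agent.S24 Fermat.Agent.S24.H15 Fermat.Agent.S24.H17
open scoped MatrixGroups Manifold

local notation "𝕢" => Function.Periodic.qParam
local notation "Δ" => ModularForm.discriminant

/-! ### Analytic roots -/

/-- Every `Gabd a b d` linked to `Gp p` by a Hermite relation is a root of the analytic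
polynomial. -/
theorem eval_Gabd_eq_zero (p : ℕ) [NeZero p] (hp : 0 < p) (P : Polynomial (Polynomial ℂ))
    (hP : ∀ τ : ℍ, P.map (Polynomial.evalRingHom (H28.J τ)) =
        ∏ x : H24.XN p, (Polynomial.X - Polynomial.C (GX p hp x τ)))
    (γ γ' : SL(2, ℤ)) (a b d : ℕ) (ha : 0 < a) (hd : 0 < d) (had : a * d = p)
    (h : !![(p : ℤ), 0; 0, 1] * (γ : Matrix (Fin 2) (Fin 2) ℤ) =
        (γ' : Matrix (Fin 2) (Fin 2) ℤ) * !![(a : ℤ), (b : ℤ); 0, (d : ℤ)]) (τ : ℍ) :
    (P.map (Polynomial.evalRingHom (H28.J τ))).eval (Gabd a b d ha hd τ) = 0 := by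
  rw [hP τ, Polynomial.eval_prod]
  apply Finset.prod_eq_zero (Finset.mem_univ (QuotientGroup.mk (γ⁻¹ : SL(2, ℤ)) : H24.XN p))
  rw [Polynomial.eval_sub, Polynomial.eval_X, Polynomial.eval_C, GX_mk, inv_inv,
    ← Gabd_smul p hp γ γ' a b d ha hd had h τ]
  exact sub_self _

/-! ### Transfer to formal series in `t`, `q = t²` -/

/-- `J(t²)`. -/
def J2C : LaurentSeries ℂ := qExpand ℂ 2 (jqModC ℂ)

theorem isQSum_J2C : IsQSum J2C (fun τ => H28.J (aff 2 0 1 two_pos one_pos τ)) :=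
  IsQSum.comp_aff_mul H9.isQSum_J 2 two_pos

/-- If `G` is an analytic root of `P(J σ, ·)` for all `σ`, and `Xw` is the `q`-series of
`τ ↦ G (2τ)`, then `Xw` is a formal root of `P(J(t²), ·)`. -/
theorem formal_root (P : Polynomial (Polynomial ℂ)) {Xw : LaurentSeries ℂ} {G : ℍ → ℂ}
    (hw : IsQSum Xw (fun τ => G (aff 2 0 1 two_pos one_pos τ)))
    (hroot : ∀ σ : ℍ, (P.map (Polynomial.evalRingHom (H28.J σ))).eval (G σ) = 0) :
    P.eval₂ ((Polynomial.aeval J2C).toRingHom : Polynomial ℂ →+* LaurentSeries ℂ) Xw = 0 := by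
  have h := IsQSum.eval₂_aeval isQSum_J2C hw P
  have hfun : (fun τ => (P.map (Polynomial.evalRingHom
      (H28.J (aff 2 0 1 two_pos one_pos τ)))).eval (G (aff 2 0 1 two_pos one_pos τ))) = 0 := by
    funext τ
    exact hroot _
  rw [hfun] at h
  exact IsQSum.eq_zero h

/-- `A(t) = 2¹² Δ(t⁴)/Δ(t²)`. -/
def AC : LaurentSeries ℂ := qExpand ℂ 2 (((2 : ℕ) : LaurentSeries ℂ) ^ 12 * DeltaQuot ℂ 2)

/-- `B(t) = Δ(t)/Δ(t²)`. -/
def BC : LaurentSeries ℂ := DeltaS ℂ * qExpand ℂ 2 (DeltaSInv ℂ)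

/-- `C(t) = Δ(-t)/Δ(t²)`. -/
def CC : LaurentSeries ℂ := twist (-1 : ℂˣ) (DeltaS ℂ) * qExpand ℂ 2 (DeltaSInv ℂ)

theorem isQSum_AC : IsQSum AC (fun τ => Gp 2 two_pos (aff 2 0 1 two_pos one_pos τ)) := by
  exact IsQSum.comp_aff_mul (isQSum_Gp 2 two_pos) 2 two_pos

theorem aff_aff_102 (τ : ℍ) : aff 1 0 2 one_pos two_pos (aff 2 0 1 two_pos one_pos τ) = τ := by
  apply UpperHalfPlane.ext
  simp only [coe_aff]
  push_cast
  ring

theorem aff_aff_112 (τ : ℍ) :
    aff 1 1 2 one_pos two_pos (aff 2 0 1 two_pos one_pos τ) = ((1 / 2 : ℝ)) +ᵥ τ := by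
  apply UpperHalfPlane.ext
  simp only [coe_aff, UpperHalfPlane.coe_vadd]
  push_cast
  ring

theorem isQSum_BC :
    IsQSum BC (fun τ => Gabd 1 0 2 one_pos two_pos (aff 2 0 1 two_pos one_pos τ)) := by
  refine IsQSum.congr (IsQSum.mul isQSum_Delta (IsQSum.comp_aff_mul isQSum_DeltaInv 2 two_pos)) ?_
  funext τ
  simp only [Gabd, Pi.mul_apply, aff_aff_102]
  simp [div_eq_mul_inv]

theorem neg_one_eq_exp : ((-1 : ℂˣ) : ℂ) = Complex.exp (2 * Real.pi * Complex.I * ((1 / 2 : ℝ) : ℂ)) := by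
  have : (2 * Real.pi * Complex.I * ((1 / 2 : ℝ) : ℂ) : ℂ) = Real.pi * Complex.I := by
    push_cast
    ring
  rw [this, Complex.exp_pi_mul_I]
  simp

theorem isQSum_CC :
    IsQSum CC (fun τ => Gabd 1 1 2 one_pos two_pos (aff 2 0 1 two_pos one_pos τ)) := by
  refine IsQSum.congr (IsQSum.mul (IsQSum.comp_vadd isQSum_Delta (1 / 2 : ℝ) (-1 : ℂˣ) neg_one_eq_exp)
    (IsQSum.comp_aff_mul isQSum_DeltaInv 2 two_pos)) ?_
  funext τ
  simp only [Gabd, Pi.mul_apply, aff_aff_112]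
  simp [div_eq_mul_inv]

/-! ### The three formal roots -/

section Roots

variable (P : Polynomial (Polynomial ℂ))
  (hP : ∀ τ : ℍ, P.map (Polynomial.evalRingHom (H28.J τ)) =
        ∏ x : H24.XN 2, (Polynomial.X - Polynomial.C (GX 2 two_pos x τ)))

include hP

theorem AC_root :
    P.eval₂ ((Polynomial.aeval J2C).toRingHom : Polynomial ℂ →+* LaurentSeries ℂ) AC = 0 := by
  refine formal_root P isQSum_AC fun σ => ?_
  refine eval_Gabd_eq_zero 2 two_pos P hP 1 1 2 0 1 two_pos one_pos (by norm_num) ?_ σ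
  simp

/-- `γ = (1 0; 1 1)`. -/
def gam : SL(2, ℤ) := ⟨!![1, 0; 1, 1], by norm_num [Matrix.det_fin_two_of]⟩

/-- `γ' = (2 -1; 1 0)`. -/
def gam' : SL(2, ℤ) := ⟨!![2, -1; 1, 0], by norm_num [Matrix.det_fin_two_of]⟩

theorem BC_root :
    P.eval₂ ((Polynomial.aeval J2C).toRingHom : Polynomial ℂ →+* LaurentSeries ℂ) BC = 0 := by
  refine formal_root P isQSum_BC fun σ => ?_
  refine eval_Gabd_eq_zero 2 two_pos P hP ModularGroup.S ModularGroup.S 1 0 2 one_pos two_pos
    (by norm_num) ?_ σ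
  rw [ModularGroup.coe_S]
  ext i j
  fin_cases i <;> fin_cases j <;> simp [Matrix.mul_apply, Fin.sum_univ_two]

theorem CC_root :
    P.eval₂ ((Polynomial.aeval J2C).toRingHom : Polynomial ℂ →+* LaurentSeries ℂ) CC = 0 := by
  refine formal_root P isQSum_CC fun σ => ?_
  refine eval_Gabd_eq_zero 2 two_pos P hP gam gam' 1 1 2 one_pos two_pos
    (by norm_num) ?_ σ
  ext i j
  fin_cases i <;> fin_cases j <;> simp [gam, gam', Matrix.mul_apply, Fin.sum_univ_two]

end Roots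

/-! ### Generic algebra -/

theorem cubic_eq_prod {K : Type*} [Field K] (p : K[X]) (hm : p.Monic) (hd : p.natDegree = 3)
    {a b c : K} (ha : p.IsRoot a) (hb : p.IsRoot b) (hc : p.IsRoot c)
    (hab : a ≠ b) (hac : a ≠ c) (hbc : b ≠ c) :
    p = (X - C a) * (X - C b) * (X - C c) := by
  have h1 : (X - C a) ∣ p := dvd_iff_isRoot.mpr ha
  have h2 : (X - C b) ∣ p := dvd_iff_isRoot.mpr hb
  have h3 : (X - C c) ∣ p := dvd_iff_isRoot.mpr hc
  have c12 : IsCoprime (X - C a) (X - C b) :=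
    isCoprime_X_sub_C_of_isUnit_sub (sub_ne_zero.mpr hab).isUnit
  have c13 : IsCoprime (X - C a) (X - C c) :=
    isCoprime_X_sub_C_of_isUnit_sub (sub_ne_zero.mpr hac).isUnit
  have c23 : IsCoprime (X - C b) (X - C c) :=
    isCoprime_X_sub_C_of_isUnit_sub (sub_ne_zero.mpr hbc).isUnit
  have hdvd : (X - C a) * (X - C b) * (X - C c) ∣ p :=
    IsCoprime.mul_dvd (IsCoprime.mul_left c13 c23) (IsCoprime.mul_dvd c12 h1 h2) h3
  have hq : ((X - C a) * (X - C b) * (X - C c)).Monic :=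
    ((monic_X_sub_C a).mul (monic_X_sub_C b)).mul (monic_X_sub_C c)
  refine eq_of_monic_of_dvd_of_natDegree_le hq hm hdvd ?_
  rw [hd, Monic.natDegree_mul ((monic_X_sub_C a).mul (monic_X_sub_C b)) (monic_X_sub_C c),
    Monic.natDegree_mul (monic_X_sub_C a) (monic_X_sub_C b)]
  simp

theorem cubic_coeffs {K : Type*} [Field K] (a b c : K) :
    (X - C a) * (X - C b) * (X - C c) =
      X ^ 3 - C (a + b + c) * X ^ 2 + C (a * b + a * c + b * c) * X - C (a * b * c) := by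
  simp only [map_add, map_mul]
  ring

theorem coeff_cubic {K : Type*} [Field K] (s1 s2 s3 : K) :
    (X ^ 3 - C s1 * X ^ 2 + C s2 * X - C s3 : K[X]).coeff 2 = -s1 ∧
    (X ^ 3 - C s1 * X ^ 2 + C s2 * X - C s3 : K[X]).coeff 1 = s2 ∧
    (X ^ 3 - C s1 * X ^ 2 + C s2 * X - C s3 : K[X]).coeff 0 = -s3 := by
  refine ⟨?_, ?_, ?_⟩ <;>
  simp [coeff_X_pow, coeff_X, coeff_C]

/-! ### Polynomials in `J(t²)` without poles are constant -/

theorem coeff_aeval_j_neg_natDegree (c : ℂ[X]) :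
    (Polynomial.aeval (jqModC ℂ) c).coeff (-(c.natDegree : ℤ)) = c.leadingCoeff := by
  rw [Polynomial.aeval_eq_sum_range, HahnSeries.coeff_sum, Finset.sum_eq_single c.natDegree]
  · rw [Algebra.smul_def, algebraMap_laurentSeries_eq_single, HahnSeries.coeff_single_mul,
      sub_zero, coeff_jC_pow_self, mul_one, Polynomial.leadingCoeff]
  · intro b hb hbn
    rw [Algebra.smul_def, algebraMap_laurentSeries_eq_single, HahnSeries.coeff_single_mul,
      sub_zero, coeff_jC_pow_of_lt, mul_zero]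
    have : b < c.natDegree + 1 := Finset.mem_range.mp hb
    omega
  · intro h
    exact absurd (Finset.mem_range.mpr (Nat.lt_succ_self _)) h

theorem aeval_J2C (c : ℂ[X]) :
    Polynomial.aeval J2C c = qExpand ℂ 2 (Polynomial.aeval (jqModC ℂ) c) :=
  Polynomial.aeval_algHom_apply (qExpandAlgHomC ℂ 2) (jqModC ℂ) c

theorem eq_C_of_coeff_neg_eq_zero (c : ℂ[X])
    (h : ∀ n : ℤ, n < 0 → (Polynomial.aeval J2C c).coeff n = 0) :
    c = C ((Polynomial.aeval J2C c).coeff 0) := by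
  have hd : c.natDegree = 0 := by
    by_contra hd
    have h1 := h (2 * (-(c.natDegree : ℤ))) (by omega)
    rw [aeval_J2C, coeff_qExpand_two_mul, coeff_aeval_j_neg_natDegree] at h1
    rw [Polynomial.leadingCoeff_eq_zero] at h1
    rw [h1] at hd
    simp at hd
  have hc := Polynomial.eq_C_of_natDegree_eq_zero hd
  conv_rhs => rw [hc]
  rw [Polynomial.aeval_C, algebraMap_laurentSeries_eq_single, HahnSeries.coeff_single_same]
  exact hc

/-! ### Coefficients of the three roots -/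

theorem AC_eq : AC = qExpand ℂ 2 (w2S ℂ) := rfl

theorem BC_eq : BC = h2S ℂ := rfl

theorem CC_eq : CC = twist (-1 : ℂˣ) BC := by
  rw [CC, BC, map_mul, twist_neg_one_qExpand_two]

theorem coeff_AC_of_lt {n : ℤ} (hn : n < 2) : AC.coeff n = 0 :=
  coeff_qExpand_two_of_lt (a := 1) (fun _ h => coeff_w2S_of_lt ℂ h) (by omega)

theorem coeff_AC_two : AC.coeff 2 = 4096 := by
  have h := coeff_qExpand_two_mul (w2S ℂ) 1
  rw [coeff_w2S_one] at h
  rw [AC_eq]
  simpa using h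

theorem coeff_BC_of_lt {n : ℤ} (hn : n < -1) : BC.coeff n = 0 := coeff_h2S_of_lt ℂ hn

theorem coeff_BC_neg_one : BC.coeff (-1) = 1 := coeff_h2S_neg_one ℂ

theorem coeff_BC_zero : BC.coeff 0 = -24 := coeff_h2S_zero ℂ

theorem coeff_BC_one : BC.coeff 1 = 276 := coeff_h2S_one ℂ

theorem coeff_CC (n : ℤ) : CC.coeff n = (((-1 : ℂˣ) ^ n : ℂˣ) : ℂ) * BC.coeff n := by
  rw [CC_eq, twist_coeff]

theorem coeff_CC_of_lt {n : ℤ} (hn : n < -1) : CC.coeff n = 0 := by
  rw [coeff_CC, coeff_BC_of_lt hn, mul_zero]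

theorem coeff_CC_neg_one : CC.coeff (-1) = -1 := by
  rw [coeff_CC, coeff_BC_neg_one]
  simp

theorem coeff_CC_zero : CC.coeff 0 = -24 := by
  rw [coeff_CC, coeff_BC_zero]
  simp

theorem coeff_CC_one : CC.coeff 1 = -276 := by
  rw [coeff_CC, coeff_BC_one]
  simp

theorem coeff_J2C_of_lt {n : ℤ} (hn : n < -2) : J2C.coeff n = 0 :=
  coeff_qExpand_two_of_lt (a := -1) (fun _ h => coeff_jqModC_of_lt' ℂ h) (by omega)

theorem coeff_J2C_neg_two : J2C.coeff (-2) = 1 := by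
  have h := coeff_qExpand_two_mul (jqModC ℂ) (-1)
  rw [coeff_jqModC_neg_one'] at h
  rw [J2C]
  simpa using h

theorem coeff_J2C_neg_one : J2C.coeff (-1) = 0 := by
  have h := coeff_qExpand_two_odd (jqModC ℂ) (-1)
  rw [J2C]
  simpa using h

theorem coeff_J2C_zero : J2C.coeff 0 = 744 := by
  have h := coeff_qExpand_two_mul (jqModC ℂ) 0
  rw [coeff_jqModC_zero] at h
  rw [J2C]
  simpa using h

/-! ### The symmetric functions -/

theorem coeff_sum1_of_neg {n : ℤ} (hn : n < 0) : (AC + BC + CC).coeff n = 0 := by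
  rw [HahnSeries.coeff_add, HahnSeries.coeff_add, coeff_AC_of_lt (by omega)]
  rcases lt_or_eq_of_le (show n ≤ -1 by omega) with h | h
  · rw [coeff_BC_of_lt h, coeff_CC_of_lt h]
    simp
  · rw [h, coeff_BC_neg_one, coeff_CC_neg_one]
    simp

theorem coeff_sum1_zero : (AC + BC + CC).coeff 0 = -48 := by
  rw [HahnSeries.coeff_add, HahnSeries.coeff_add, coeff_AC_of_lt (by omega), coeff_BC_zero,
    coeff_CC_zero]
  norm_num

theorem coeff_BCCC_of_lt {n : ℤ} (hn : n < -2) : (BC * CC).coeff n = 0 :=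
  coeff_mul_of_lt _ _ (-1) (-1) (fun _ h => coeff_BC_of_lt h) (fun _ h => coeff_CC_of_lt h)
    (by omega)

theorem coeff_BCCC_neg_two : (BC * CC).coeff (-2) = -1 := by
  have h := coeff_mul_zero BC CC (-1) (-1) (fun _ h => coeff_BC_of_lt h)
    (fun _ h => coeff_CC_of_lt h)
  norm_num at h
  rw [h, coeff_BC_neg_one, coeff_CC_neg_one]
  norm_num

theorem coeff_BCCC_neg_one : (BC * CC).coeff (-1) = 0 := by
  have h := coeff_mul_one BC CC (-1) (-1) (fun _ h => coeff_BC_of_lt h)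
    (fun _ h => coeff_CC_of_lt h)
  norm_num at h
  rw [h, coeff_BC_neg_one, coeff_CC_neg_one, coeff_BC_zero, coeff_CC_zero]
  norm_num

theorem coeff_BCCC_zero : (BC * CC).coeff 0 = 24 := by
  have h := coeff_mul_two BC CC (-1) (-1) (fun _ h => coeff_BC_of_lt h)
    (fun _ h => coeff_CC_of_lt h)
  norm_num at h
  rw [h, coeff_BC_neg_one, coeff_CC_neg_one, coeff_BC_zero, coeff_CC_zero, coeff_BC_one,
    coeff_CC_one]
  norm_num

theorem coeff_BC_add_CC_of_neg {n : ℤ} (hn : n < 0) : (BC + CC).coeff n = 0 := by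
  rw [HahnSeries.coeff_add]
  rcases lt_or_eq_of_le (show n ≤ -1 by omega) with h | h
  · rw [coeff_BC_of_lt h, coeff_CC_of_lt h]
    simp
  · rw [h, coeff_BC_neg_one, coeff_CC_neg_one]
    simp

theorem coeff_A_mul_of_lt {n : ℤ} (hn : n < 2) : (AC * (BC + CC)).coeff n = 0 :=
  coeff_mul_of_lt _ _ 2 0 (fun _ h => coeff_AC_of_lt h) (fun _ h => coeff_BC_add_CC_of_neg h)
    (by omega)

theorem sum2_eq : AC * BC + AC * CC + BC * CC = AC * (BC + CC) + BC * CC := by ring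

theorem coeff_sum2_add_J_of_neg {n : ℤ} (hn : n < 0) :
    (AC * BC + AC * CC + BC * CC + J2C).coeff n = 0 := by
  rw [sum2_eq, HahnSeries.coeff_add, HahnSeries.coeff_add, coeff_A_mul_of_lt (by omega), zero_add]
  rcases lt_or_eq_of_le (show n ≤ -1 by omega) with h | h
  · rcases lt_or_eq_of_le (show n ≤ -2 by omega) with h' | h'
    · rw [coeff_BCCC_of_lt h', coeff_J2C_of_lt h']
      simp
    · rw [h', coeff_BCCC_neg_two, coeff_J2C_neg_two]
      simp
  · rw [h, coeff_BCCC_neg_one, coeff_J2C_neg_one]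
    simp

theorem coeff_sum2_add_J_zero : (AC * BC + AC * CC + BC * CC + J2C).coeff 0 = 768 := by
  rw [sum2_eq, HahnSeries.coeff_add, HahnSeries.coeff_add, coeff_A_mul_of_lt (by omega),
    coeff_BCCC_zero, coeff_J2C_zero]
  norm_num

theorem coeff_prod3_of_neg {n : ℤ} (hn : n < 0) : (AC * BC * CC).coeff n = 0 := by
  rw [mul_assoc]
  exact coeff_mul_of_lt _ _ 2 (-2) (fun _ h => coeff_AC_of_lt h) (fun _ h => coeff_BCCC_of_lt h)
    (by omega)

theorem coeff_prod3_zero : (AC * BC * CC).coeff 0 = -4096 := by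
  rw [mul_assoc]
  have h := coeff_mul_zero AC (BC * CC) 2 (-2) (fun _ h => coeff_AC_of_lt h)
    (fun _ h => coeff_BCCC_of_lt h)
  norm_num at h
  rw [h, coeff_AC_two, coeff_BCCC_neg_two]
  norm_num

/-! ### Identification of the analytic polynomial -/

/-- The cubic `X³ + 48 X² + (768 - J) X + 4096`. -/
def cubic2 : Polynomial (Polynomial ℂ) :=
  X ^ 3 + C (C 48) * X ^ 2 + C (C 768 - X) * X + C (C 4096)

theorem natDegree_analytic_poly (P : Polynomial (Polynomial ℂ)) (hP1 : P.Monic)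
    (hP : ∀ τ : ℍ, P.map (Polynomial.evalRingHom (H28.J τ)) =
        ∏ x : H24.XN 2, (Polynomial.X - Polynomial.C (GX 2 two_pos x τ))) :
    P.natDegree = 3 := by
  have h := congrArg Polynomial.natDegree (hP UpperHalfPlane.I)
  rw [hP1.natDegree_map, Polynomial.natDegree_prod_of_monic _ _ (fun x _ => monic_X_sub_C _)] at h
  simp only [natDegree_X_sub_C, Finset.sum_const, Finset.card_univ, smul_eq_mul, mul_one] at h
  rw [h, H24.card_XN_eq_dedekindPsi, H78.dedekindPsi_two]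

theorem analytic_poly_eq (P : Polynomial (Polynomial ℂ)) (hP1 : P.Monic)
    (hP : ∀ τ : ℍ, P.map (Polynomial.evalRingHom (H28.J τ)) =
        ∏ x : H24.XN 2, (Polynomial.X - Polynomial.C (GX 2 two_pos x τ))) :
    P = cubic2 := by
  have hdeg := natDegree_analytic_poly P hP1 hP
  set φ : Polynomial ℂ →+* LaurentSeries ℂ := (Polynomial.aeval J2C).toRingHom with hφ
  have hφapp : ∀ c : ℂ[X], φ c = Polynomial.aeval J2C c := fun c => rfl
  have hmon : (P.map φ).Monic := hP1.map φ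
  have hdeg' : (P.map φ).natDegree = 3 := by rw [hP1.natDegree_map, hdeg]
  have hA : (P.map φ).IsRoot AC := by
    rw [Polynomial.IsRoot, ← Polynomial.eval₂_eq_eval_map]; exact AC_root P hP
  have hB : (P.map φ).IsRoot BC := by
    rw [Polynomial.IsRoot, ← Polynomial.eval₂_eq_eval_map]; exact BC_root P hP
  have hC : (P.map φ).IsRoot CC := by
    rw [Polynomial.IsRoot, ← Polynomial.eval₂_eq_eval_map]; exact CC_root P hP
  have hAB : AC ≠ BC := by
    intro h
    have := congrArg (fun x : LaurentSeries ℂ => x.coeff (-1)) h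
    simp only [coeff_AC_of_lt (show (-1 : ℤ) < 2 by norm_num), coeff_BC_neg_one] at this
    exact zero_ne_one this
  have hAC : AC ≠ CC := by
    intro h
    have := congrArg (fun x : LaurentSeries ℂ => x.coeff (-1)) h
    simp only [coeff_AC_of_lt (show (-1 : ℤ) < 2 by norm_num), coeff_CC_neg_one] at this
    norm_num at this
  have hBC : BC ≠ CC := by
    intro h
    have := congrArg (fun x : LaurentSeries ℂ => x.coeff (-1)) h
    simp only [coeff_BC_neg_one, coeff_CC_neg_one] at this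
    norm_num at this
  have hprod := cubic_eq_prod (P.map φ) hmon hdeg' hA hB hC hAB hAC hBC
  rw [cubic_coeffs] at hprod
  -- the coefficients
  obtain ⟨k2, k1, k0⟩ := coeff_cubic (AC + BC + CC) (AC * BC + AC * CC + BC * CC) (AC * BC * CC)
  have h2 : φ (P.coeff 2) = -(AC + BC + CC) := by
    rw [← Polynomial.coeff_map, hprod, k2]
  have h1 : φ (P.coeff 1) = AC * BC + AC * CC + BC * CC := by
    rw [← Polynomial.coeff_map, hprod, k1]
  have h0 : φ (P.coeff 0) = -(AC * BC * CC) := by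
    rw [← Polynomial.coeff_map, hprod, k0]
  -- determination
  have e2 : P.coeff 2 = C 48 := by
    have h := eq_C_of_coeff_neg_eq_zero (P.coeff 2) (fun n hn => by
      rw [← hφapp, h2, HahnSeries.coeff_neg, coeff_sum1_of_neg hn, neg_zero])
    rw [← hφapp, h2, HahnSeries.coeff_neg, coeff_sum1_zero] at h
    rw [h]
    norm_num
  have e1 : P.coeff 1 = C 768 - X := by
    have hsum : Polynomial.aeval J2C (P.coeff 1 + X) = AC * BC + AC * CC + BC * CC + J2C := by
      rw [map_add, Polynomial.aeval_X, ← hφapp, h1]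
    have h := eq_C_of_coeff_neg_eq_zero (P.coeff 1 + X) (fun n hn => by
      rw [hsum, coeff_sum2_add_J_of_neg hn])
    rw [hsum, coeff_sum2_add_J_zero] at h
    rw [← h]
    ring
  have e0 : P.coeff 0 = C 4096 := by
    have h := eq_C_of_coeff_neg_eq_zero (P.coeff 0) (fun n hn => by
      rw [← hφapp, h0, HahnSeries.coeff_neg, coeff_prod3_of_neg hn, neg_zero])
    rw [← hφapp, h0, HahnSeries.coeff_neg, coeff_prod3_zero] at h
    rw [h]
    norm_num
  rw [hP1.as_sum, hdeg, cubic2, Finset.sum_range_succ, Finset.sum_range_succ,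
    Finset.sum_range_one, e2, e1, e0]
  simp
  ring

/-! ### The identities over `ℂ` -/

theorem eval₂_cubic2 (f : Polynomial ℂ →+* LaurentSeries ℂ) (x : LaurentSeries ℂ) :
    cubic2.eval₂ f x = x ^ 3 + f (C 48) * x ^ 2 + (f (C 768) - f X) * x + f (C 4096) := by
  simp [cubic2, Polynomial.eval₂_add, Polynomial.eval₂_mul, Polynomial.eval₂_pow]

theorem aeval_C_ofNat (y : LaurentSeries ℂ) (n : ℕ) [n.AtLeastTwo] :
    (Polynomial.aeval y).toRingHom (C (OfNat.ofNat n : ℂ)) = (OfNat.ofNat n : LaurentSeries ℂ) := by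
  show Polynomial.aeval y (C (OfNat.ofNat n : ℂ)) = _
  rw [Polynomial.aeval_C, map_ofNat]

/-- `j · w = (w + 16)³` over `ℂ`. -/
theorem jw_C : jqModC ℂ * w2S ℂ = (w2S ℂ + 16) ^ 3 := by
  obtain ⟨P, hP1, hP⟩ := exists_analytic_poly 2 two_pos
  have h := eval₂_analytic_poly_eq_zero 2 two_pos P hP
  rw [analytic_poly_eq P hP1 hP, eval₂_cubic2, aeval_C_ofNat, aeval_C_ofNat, aeval_C_ofNat] at h
  have hX : (Polynomial.aeval (jqModC ℂ)).toRingHom (X : ℂ[X]) = jqModC ℂ := by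
    show Polynomial.aeval (jqModC ℂ) (X : ℂ[X]) = _
    rw [Polynomial.aeval_X]
  rw [hX] at h
  change (w2S ℂ) ^ 3 + 48 * (w2S ℂ) ^ 2 + (768 - jqModC ℂ) * (w2S ℂ) + 4096 = 0 at h
  linear_combination (-1 : LaurentSeries ℂ) * h

/-- Fricke: `j(q²) · h₂ = (h₂ + 16)³` over `ℂ`. -/
theorem fricke_C : qExpand ℂ 2 (jqModC ℂ) * h2S ℂ = (h2S ℂ + 16) ^ 3 := by
  obtain ⟨P, hP1, hP⟩ := exists_analytic_poly 2 two_pos
  have h := BC_root P hP
  rw [analytic_poly_eq P hP1 hP, eval₂_cubic2, aeval_C_ofNat, aeval_C_ofNat, aeval_C_ofNat] at h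
  have hX : (Polynomial.aeval J2C).toRingHom (X : ℂ[X]) = J2C := by
    show Polynomial.aeval J2C (X : ℂ[X]) = _
    rw [Polynomial.aeval_X]
  rw [hX] at h
  change (h2S ℂ) ^ 3 + 48 * (h2S ℂ) ^ 2 + (768 - qExpand ℂ 2 (jqModC ℂ)) * (h2S ℂ) + 4096 = 0 at h
  linear_combination (-1 : LaurentSeries ℂ) * h

/-! ### Descent to `ℤ` and to every ring -/

theorem coeffMap_w2S {R S : Type*} [CommRing R] [CommRing S] (f : R →+* S) :
    coeffMap f (w2S R) = w2S S := by
  rw [w2S, map_mul, map_pow, map_natCast, coeffMap_DeltaQuot, w2S]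

theorem coeffMap_h2S {R S : Type*} [CommRing R] [CommRing S] (f : R →+* S) :
    coeffMap f (h2S R) = h2S S := by
  rw [h2S, map_mul, coeffMap_DeltaS, coeffMap_qExpand, coeffMap_DeltaSInv, h2S]

theorem jw_Z : jqModC ℤ * w2S ℤ = (w2S ℤ + 16) ^ 3 := by
  apply coeffMap_int_injective
  rw [map_mul, map_pow, map_add, coeffMap_jqModC, coeffMap_w2S, map_ofNat]
  exact jw_C

theorem fricke_Z : qExpand ℤ 2 (jqModC ℤ) * h2S ℤ = (h2S ℤ + 16) ^ 3 := by
  apply coeffMap_int_injective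
  rw [map_mul, map_pow, map_add, coeffMap_qExpand, coeffMap_jqModC, coeffMap_h2S, map_ofNat]
  exact fricke_C

/-- **(T2), first identity.**  `j · w = (w + 16)³`, `w = 2¹² Δ(q²)/Δ(q)`, over every ring. -/
theorem jw (R : Type*) [CommRing R] : jqModC R * w2S R = (w2S R + 16) ^ 3 := by
  have h := congrArg (coeffMap (Int.castRingHom R)) jw_Z
  rwa [map_mul, map_pow, map_add, coeffMap_jqModC, coeffMap_w2S, map_ofNat] at h

/-- **(T2), Fricke identity.**  `j(q²) · h₂ = (h₂ + 16)³`, `h₂ = Δ(q)/Δ(q²)`, over every ring. -/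
theorem fricke2 (R : Type*) [CommRing R] :
    qExpand R 2 (jqModC R) * h2S R = (h2S R + 16) ^ 3 := by
  have h := congrArg (coeffMap (Int.castRingHom R)) fricke_Z
  rwa [map_mul, map_pow, map_add, coeffMap_qExpand, coeffMap_jqModC, coeffMap_h2S, map_ofNat] at h

/-! ### The Hauptmodul equation `j h₂² = (h₂ + 256)³` -/

theorem DeltaS_mul_DeltaSInv' (R : Type*) [CommRing R] : DeltaS R * DeltaSInv R = 1 := by
  have h1 : (dedekindEtaUnit.map (Int.castRingHom R)) * (dedekindEtaUnitInv.map (Int.castRingHom R))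
      = 1 := by
    rw [← map_mul, dedekindEtaUnit_mul_inv, map_one]
  have e1 : HahnSeries.single (1 : ℤ) (1 : R) * HahnSeries.single (-1 : ℤ) (1 : R) = 1 := by
    rw [HahnSeries.single_mul_single, mul_one]
    rfl
  have e2 : HahnSeries.ofPowerSeries ℤ R (dedekindEtaUnit.map (Int.castRingHom R)) *
      HahnSeries.ofPowerSeries ℤ R (dedekindEtaUnitInv.map (Int.castRingHom R)) = 1 := by
    rw [← map_mul, h1, map_one]
  calc DeltaS R * DeltaSInv R
      = (HahnSeries.single (1 : ℤ) (1 : R) * HahnSeries.single (-1 : ℤ) (1 : R)) *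
          (HahnSeries.ofPowerSeries ℤ R (dedekindEtaUnit.map (Int.castRingHom R)) *
           HahnSeries.ofPowerSeries ℤ R (dedekindEtaUnitInv.map (Int.castRingHom R))) := by
        rw [DeltaS, DeltaSInv]; ring
    _ = 1 := by rw [e1, e2, mul_one]

/-- `h₂ · w = 2¹²`. -/
theorem h2S_mul_w2S (R : Type*) [CommRing R] : h2S R * w2S R = 4096 := by
  have h1 := DeltaS_mul_DeltaSInv' R
  have h2 : qExpand R 2 (DeltaSInv R) * qExpand R 2 (DeltaS R) = 1 := by
    rw [← map_mul, mul_comm, h1, map_one]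
  have h3 : ((2 : ℕ) : LaurentSeries R) ^ 12 = 4096 := by
    norm_num
  rw [h2S, w2S, DeltaQuot, h3]
  calc DeltaS R * qExpand R 2 (DeltaSInv R) * (4096 * (qExpand R 2 (DeltaS R) * DeltaSInv R))
      = 4096 * (DeltaS R * DeltaSInv R) * (qExpand R 2 (DeltaSInv R) * qExpand R 2 (DeltaS R)) := by
        ring
    _ = 4096 := by rw [h1, h2, mul_one, mul_one]

theorem j_mul_h2S_sq_Z : jqModC ℤ * h2S ℤ ^ 2 = (h2S ℤ + 256) ^ 3 := by
  have h1 := jw ℤ
  have h2 := h2S_mul_w2S ℤ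
  have h4 : (4096 : LaurentSeries ℤ) ≠ 0 := by
    have e : (4096 : LaurentSeries ℤ) = HahnSeries.C (4096 : ℤ) := by
      rw [map_ofNat]
    rw [e]
    intro h
    have h' : HahnSeries.C (4096 : ℤ) = (HahnSeries.C (0 : ℤ) : LaurentSeries ℤ) := by
      rw [h, map_zero]
    have := HahnSeries.C_injective h'
    norm_num at this
  apply mul_left_cancel₀ h4
  linear_combination (h2S ℤ) ^ 3 * h1 - (jqModC ℤ * h2S ℤ ^ 2 - ((h2S ℤ * w2S ℤ + 16 * h2S ℤ) ^ 2
    + (h2S ℤ * w2S ℤ + 16 * h2S ℤ) * (4096 + 16 * h2S ℤ) + (4096 + 16 * h2S ℤ) ^ 2)) * h2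

/-- **(T2), Hauptmodul equation.**  `j · h₂² = (h₂ + 256)³` over every ring. -/
theorem j_mul_h2S_sq (R : Type*) [CommRing R] : jqModC R * h2S R ^ 2 = (h2S R + 256) ^ 3 := by
  have h := congrArg (coeffMap (Int.castRingHom R)) j_mul_h2S_sq_Z
  rwa [map_mul, map_pow, map_pow, map_add, coeffMap_jqModC, coeffMap_h2S, map_ofNat] at h

end Fermat.Agent.S18.H56
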