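import Mathlib

/-!
# S18 / TRANSFER (helper56): descent of `m`-th roots along an extension in which a local
(valuation) ring stays local

Abstract form of the step `(E)_M ⟹ (E)_N` of the auxiliary-level route to S18:

`R` a local integrally closed domain (the Gauss valuation ring of `F_N`), `S` a **local** domain
integral over `R` with `R → S` injective (the integral closure of `R` in `F_M`; it is local
because the Gauss valuation extends uniquely, S28 at level `M`).  If `g ∈ S`, `g ^ m = h ∈ R`
and `X ^ m - h̄` is separable and splits over the residue field of `R`, then `g ∈ R`.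
-/

set_option autoImplicit false

open Polynomial IsLocalRing

namespace Fermat.Agent.S18.H56

section Abstract

variable {R S : Type*} [CommRing R] [IsDomain R] [IsLocalRing R] [IsIntegrallyClosed R]
  [CommRing S] [IsDomain S] [IsLocalRing S] [Algebra R S] [Algebra.IsIntegral R S]
  [FaithfulSMul R S]

/-- Polynomials whose reduction vanishes evaluate into the maximal ideal of `S`. -/
theorem aeval_mem_maximalIdeal_of_map_eq_zero (g : S) (P : R[X])
    (hP : P.map (residue R) = 0) : aeval g P ∈ maximalIdeal S := by
  rw [aeval_eq_sum_range]
  refine Ideal.sum_mem _ fun i _ => ?_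
  have hc : P.coeff i ∈ maximalIdeal R := by
    have h0 : (P.map (residue R)).coeff i = 0 := by rw [hP, coeff_zero]
    rw [coeff_map] at h0
    exact (residue_eq_zero_iff _).mp h0
  rw [Algebra.smul_def]
  exact Ideal.mul_mem_right _ _ (map_nonunit (algebraMap R S) _ hc)

/-- The evaluation map `R[X]/(minpoly) → S` at `g`. -/
noncomputable def evalHom (g : S) : AdjoinRoot (minpoly R g) →+* S :=
  AdjoinRoot.lift (algebraMap R S) g (by rw [← aeval_def]; exact minpoly.aeval R g)

theorem evalHom_mk (g : S) (P : R[X]) :
    evalHom g (AdjoinRoot.mk (minpoly R g) P) = aeval g P := by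
  rw [evalHom, AdjoinRoot.lift_mk, aeval_def]

theorem evalHom_injective (g : S) : Function.Injective (evalHom (R := R) g) := by
  rw [injective_iff_map_eq_zero]
  intro x hx
  obtain ⟨P, rfl⟩ := AdjoinRoot.mk_surjective x
  rw [evalHom_mk] at hx
  rw [AdjoinRoot.mk_eq_zero]
  exact minpoly.isIntegrallyClosed_dvd (Algebra.IsIntegral.isIntegral g) hx

theorem evalHom_comp_of (g : S) :
    (evalHom (R := R) g).comp (AdjoinRoot.of (minpoly R g)) = algebraMap R S := by
  ext r
  simp [evalHom]

theorem evalHom_isLocalHom (g : S) : IsLocalHom (evalHom (R := R) g) := by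
  refine RingHom.IsIntegral.isLocalHom ?_ (evalHom_injective g)
  refine RingHom.IsIntegral.tower_top (AdjoinRoot.of (minpoly R g)) (evalHom g) ?_
  rw [evalHom_comp_of]
  exact algebraMap_isIntegral_iff.mpr inferInstance

/-- Reduction `R[X]/(p) → κ[X]/(p̄)`. -/
noncomputable def redHom (p : R[X]) :
    AdjoinRoot p →+* AdjoinRoot (p.map (residue R)) :=
  AdjoinRoot.lift ((AdjoinRoot.of (p.map (residue R))).comp (residue R))
    (AdjoinRoot.root (p.map (residue R))) (by
      rw [← eval₂_map, AdjoinRoot.eval₂_root])

theorem redHom_mk (p P : R[X]) :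
    redHom p (AdjoinRoot.mk p P) = AdjoinRoot.mk (p.map (residue R)) (P.map (residue R)) := by
  rw [redHom, AdjoinRoot.lift_mk, ← eval₂_map, ← AdjoinRoot.aeval_eq, aeval_def,
    AdjoinRoot.algebraMap_eq]

/-- If `aeval g c̃` is a unit of `S` and the reduction of `c̃` divides the reduction of the
minimal polynomial, then that reduction is a unit. -/
theorem isUnit_map_of_isUnit_aeval (g : S) (c : R[X]) (hu : IsUnit (aeval g c))
    (hdvd : c.map (residue R) ∣ (minpoly R g).map (residue R)) :
    IsUnit (c.map (residue R)) := by
  haveI := evalHom_isLocalHom (R := R) g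
  have h1 : IsUnit (AdjoinRoot.mk (minpoly R g) c) := by
    apply isUnit_of_map_unit (evalHom (R := R) g)
    rwa [evalHom_mk]
  have h2 : IsUnit (AdjoinRoot.mk ((minpoly R g).map (residue R)) (c.map (residue R))) := by
    have := h1.map (redHom (minpoly R g))
    rwa [redHom_mk] at this
  obtain ⟨e, he⟩ := h2.exists_right_inv
  obtain ⟨E, rfl⟩ := AdjoinRoot.mk_surjective e
  rw [← map_mul, ← sub_eq_zero, ← map_one (AdjoinRoot.mk _), ← map_sub, AdjoinRoot.mk_eq_zero] at he
  have h3 : c.map (residue R) ∣ c.map (residue R) * E - 1 := hdvd.trans he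
  have h4 : c.map (residue R) ∣ 1 := by
    have := (dvd_sub_right (dvd_mul_right (c.map (residue R)) E)).mp h3
    exact this
  exact isUnit_of_dvd_one h4

/-- **Transfer lemma.** -/
theorem exists_algebraMap_eq_of_pow_eq (m : ℕ) (g : S) (h : R)
    (hg : g ^ m = algebraMap R S h)
    (hsep : (X ^ m - C (residue R h) : (ResidueField R)[X]).Separable)
    (hspl : (X ^ m - C (residue R h) : (ResidueField R)[X]).Splits) :
    ∃ r : R, algebraMap R S r = g := by
  have hint : IsIntegral R g := Algebra.IsIntegral.isIntegral g
  set p := minpoly R g with hp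
  have hmonic : p.Monic := minpoly.monic hint
  have hdvd : p ∣ X ^ m - C h := by
    apply minpoly.isIntegrallyClosed_dvd hint
    simp [hg]
  have hdvd' : p.map (residue R) ∣ X ^ m - C (residue R h) := by
    have := Polynomial.map_dvd (residue R) hdvd
    simpa using this
  have hsep' : (p.map (residue R)).Separable := hsep.of_dvd hdvd'
  have hspl' : (p.map (residue R)).Splits :=
    Splits.of_dvd hspl hsep.ne_zero hdvd'
  have hdeg : (p.map (residue R)).natDegree = p.natDegree := hmonic.natDegree_map _
  have hpos : 0 < p.natDegree := minpoly.natDegree_pos hint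
  by_cases h1 : p.natDegree = 1
  · -- degree one: g is in R
    have hpe := hmonic.eq_X_add_C h1
    refine ⟨-p.coeff 0, ?_⟩
    have h0 : aeval g p = 0 := minpoly.aeval R g
    rw [hpe] at h0
    simp only [map_add, aeval_X, aeval_C] at h0
    rw [map_neg]
    exact (eq_neg_of_add_eq_zero_left h0).symm
  · exfalso
    have h2 : 2 ≤ p.natDegree := by omega
    -- a root of the reduction
    have hne : (p.map (residue R)).degree ≠ 0 := by
      rw [degree_eq_natDegree (hmonic.map _).ne_zero, hdeg]
      exact_mod_cast (by omega : p.natDegree ≠ 0)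
    obtain ⟨α, hα⟩ := Splits.exists_eval_eq_zero hspl' hne
    set b := p.map (residue R) /ₘ (X - C α) with hb
    have hfac : (X - C α) * b = p.map (residue R) :=
      mul_divByMonic_eq_iff_isRoot.mpr hα
    have hcop : IsCoprime (X - C α) b := by
      have : ((X - C α) * b).Separable := by rw [hfac]; exact hsep'
      exact this.isCoprime
    obtain ⟨u, w, huw⟩ := hcop
    have hbdeg : b.natDegree = p.natDegree - 1 := by
      rw [hb, natDegree_divByMonic _ (monic_X_sub_C α), hdeg, natDegree_X_sub_C]
    -- lifts
    obtain ⟨α', rfl⟩ := residue_surjective α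
    obtain ⟨b', hb'⟩ := Polynomial.map_surjective _ (residue_surjective (R := R)) b
    obtain ⟨u', hu'⟩ := Polynomial.map_surjective _ (residue_surjective (R := R)) u
    obtain ⟨w', hw'⟩ := Polynomial.map_surjective _ (residue_surjective (R := R)) w
    have ha'map : (X - C α' : R[X]).map (residue R) = X - C (residue R α') := by simp
    -- the product lies in the maximal ideal
    have hprod : aeval g (X - C α') * aeval g b' ∈ maximalIdeal S := by
      have := aeval_mem_maximalIdeal_of_map_eq_zero g ((X - C α') * b' - p) (by
        rw [Polynomial.map_sub, Polynomial.map_mul, ha'map, hb', hfac, sub_self])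
      rw [map_sub, map_mul, hp, minpoly.aeval, sub_zero] at this
      exact this
    have hbez : aeval g u' * aeval g (X - C α') + aeval g w' * aeval g b' - 1 ∈ maximalIdeal S := by
      have := aeval_mem_maximalIdeal_of_map_eq_zero g (u' * (X - C α') + w' * b' - 1) (by
        rw [Polynomial.map_sub, Polynomial.map_add, Polynomial.map_mul, Polynomial.map_mul,
          ha'map, hb', hu', hw', Polynomial.map_one, huw, sub_self])
      simpa using this
    rcases (Ideal.IsPrime.mem_or_mem (Ideal.IsMaximal.isPrime' _) hprod) with ha | hbm
    · -- then `aeval g b'` is a unit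
      have hunit : IsUnit (aeval g w' * aeval g b') := by
        have h5 : aeval g w' * aeval g b' - 1 ∈ maximalIdeal S := by
          have := Ideal.sub_mem _ hbez (Ideal.mul_mem_left _ (aeval g u') ha)
          have e : aeval g u' * aeval g (X - C α') + aeval g w' * aeval g b' - 1 -
              aeval g u' * aeval g (X - C α') = aeval g w' * aeval g b' - 1 := by ring
          rwa [e] at this
        by_contra hnu
        have h6 : aeval g w' * aeval g b' ∈ maximalIdeal S := hnu
        have h7 : (1 : S) ∈ maximalIdeal S := by
          have := Ideal.sub_mem _ h6 h5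
          simpa using this
        exact (Ideal.ne_top_iff_one _).mp (Ideal.IsMaximal.ne_top inferInstance) h7
      have hub : IsUnit (aeval g b') := isUnit_of_mul_isUnit_right hunit
      have := isUnit_map_of_isUnit_aeval g b' hub (by rw [hb']; exact Dvd.intro_left _ hfac)
      rw [hb'] at this
      have hdeg0 := natDegree_eq_zero_of_isUnit this
      omega
    · -- then `aeval g (X - C α')` is a unit
      have hunit : IsUnit (aeval g u' * aeval g (X - C α')) := by
        have h5 : aeval g u' * aeval g (X - C α') - 1 ∈ maximalIdeal S := by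
          have := Ideal.sub_mem _ hbez (Ideal.mul_mem_left _ (aeval g w') hbm)
          have e : aeval g u' * aeval g (X - C α') + aeval g w' * aeval g b' - 1 -
              aeval g w' * aeval g b' = aeval g u' * aeval g (X - C α') - 1 := by ring
          rwa [e] at this
        by_contra hnu
        have h6 : aeval g u' * aeval g (X - C α') ∈ maximalIdeal S := hnu
        have h7 : (1 : S) ∈ maximalIdeal S := by
          have := Ideal.sub_mem _ h6 h5
          simpa using this
        exact (Ideal.ne_top_iff_one _).mp (Ideal.IsMaximal.ne_top inferInstance) h7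
      have hua : IsUnit (aeval g (X - C α')) := isUnit_of_mul_isUnit_right hunit
      have := isUnit_map_of_isUnit_aeval g (X - C α') hua (by
        rw [ha'map]; exact Dvd.intro _ hfac)
      rw [ha'map] at this
      have hdeg0 := natDegree_eq_zero_of_isUnit this
      rw [natDegree_X_sub_C] at hdeg0
      omega

/-- **Transfer lemma**, the form used for `(E)`: the residue of `h` is `1` (i.e. `v (h - 1) > 0`),
`m` is invertible in the residue field, and the residue field contains all `m`-th roots of
unity. -/
theorem exists_algebraMap_eq_of_pow_eq_of_residue_eq_one (m : ℕ) (g : S) (h : R)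
    (hg : g ^ m = algebraMap R S h) (h1 : residue R h = 1)
    (hm : (m : ResidueField R) ≠ 0)
    (hspl : (X ^ m - 1 : (ResidueField R)[X]).Splits) :
    ∃ r : R, algebraMap R S r = g := by
  refine exists_algebraMap_eq_of_pow_eq m g h hg ?_ ?_
  · rw [h1]
    exact separable_X_pow_sub_C 1 hm one_ne_zero
  · rw [h1, map_one]
    exact hspl

/-- Same, with the roots of unity supplied by an algebraically closed field `k` mapping to the
residue field (for `S18`: `k` is the algebraically closed constant field of characteristic
`ℓ`). -/
theorem exists_algebraMap_eq_of_pow_eq_of_isAlgClosed (k : Type*) [Field k] [IsAlgClosed k]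
    (φ : k →+* ResidueField R) (m : ℕ) (g : S) (h : R)
    (hg : g ^ m = algebraMap R S h) (h1 : residue R h = 1)
    (hm : (m : k) ≠ 0) :
    ∃ r : R, algebraMap R S r = g := by
  refine exists_algebraMap_eq_of_pow_eq_of_residue_eq_one m g h hg h1 ?_ ?_
  · intro h0
    apply hm
    apply φ.injective
    rw [map_natCast, h0, map_zero]
  · have := (IsAlgClosed.splits (X ^ m - 1 : k[X])).map φ
    simpa using this

end Abstract

end Fermat.Agent.S18.H56
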