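/-
  helper5 — S18 / package R4 (SEPARATION) of helper92's R-EXIST plan, ABSTRACT and Mathlib-only.

  Setting: `B` ("integral chart ring" in characteristic 0), `Bk` (its reduction, the coordinate ring of
  the special fibre), `res : B →+* Bk`, points `X` of the generic chart with valuations `vX P` and
  evaluations `evX P : B →ₐ[A] A`, points `Y` of the special chart with valuations `vY Q` and
  evaluations `evY Q : Bk →ₐ[k] k`, a map `r : X → Y` with
    (EV)  `evY (r P) (res b) = π (evX P b)`,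
    (FW)  fibrewise over the `j`-line: for every `a : k`,
          `∑_{Q over a} ord_Q (res b) = ∑_{P over a} ord_P b`,
    (INT) interpolation on the special fibre through `res` (CRT + surjectivity of `res`).
  Conclusion (`sum_vord_fibre_eq`): pointwise `∑_{r P = Q} ord_P b = ord_Q (res b)`.

  Orders are `vord v x := -(WithZero.log (v x))`, the same formula as the prelude's `Place.ord`.
-/
import Mathlib

set_option autoImplicit false

open WithZero

open scoped Classical

namespace Fermat.Agent.S18.H5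

section Ord

variable {R : Type*} [CommRing R]

/-- The order attached to a `ℤᵐ⁰`-valued valuation (same formula as the prelude's `Place.ord`). -/
def vord (v : Valuation R ℤᵐ⁰) (x : R) : ℤ := -(WithZero.log (v x))

theorem vord_def (v : Valuation R ℤᵐ⁰) (x : R) : vord v x = -(WithZero.log (v x)) := rfl

theorem vord_nonneg (v : Valuation R ℤᵐ⁰) (hv1 : ∀ x, v x ≤ 1) (x : R) : 0 ≤ vord v x := by
  unfold vord
  rcases eq_or_ne (v x) 0 with h | h
  · simp [h]
  · have h1 : log (v x) ≤ log (1 : ℤᵐ⁰) := (log_le_log h one_ne_zero).2 (hv1 x)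
    rw [log_one] at h1
    omega

theorem vord_eq_zero_of_eq_one (v : Valuation R ℤᵐ⁰) {x : R} (h : v x = 1) : vord v x = 0 := by
  unfold vord
  rw [h, log_one, neg_zero]

theorem vord_pos_of_lt_one (v : Valuation R ℤᵐ⁰) {x : R} (h0 : v x ≠ 0) (h : v x < 1) :
    0 < vord v x := by
  unfold vord
  have h1 : log (v x) < log (1 : ℤᵐ⁰) := (log_lt_log h0 one_ne_zero).2 h
  rw [log_one] at h1
  omega

theorem lt_one_of_vord_ne_zero (v : Valuation R ℤᵐ⁰) (hv1 : ∀ x, v x ≤ 1) {x : R}
    (h : vord v x ≠ 0) : v x < 1 := by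
  rcases (hv1 x).lt_or_eq with h1 | h1
  · exact h1
  · exact absurd (vord_eq_zero_of_eq_one v h1) h

theorem vord_mul (v : Valuation R ℤᵐ⁰) {x y : R} (hx : v x ≠ 0) (hy : v y ≠ 0) :
    vord v (x * y) = vord v x + vord v y := by
  unfold vord
  rw [map_mul, log_mul hx hy]
  ring

theorem vord_pow (v : Valuation R ℤᵐ⁰) (x : R) (n : ℕ) :
    vord v (x ^ n) = n * vord v x := by
  unfold vord
  rw [map_pow, log_pow]
  simp

theorem vord_le_vord_iff (v : Valuation R ℤᵐ⁰) {x y : R} (hx : v x ≠ 0) (hy : v y ≠ 0) :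
    vord v x ≤ vord v y ↔ v y ≤ v x := by
  unfold vord
  rw [neg_le_neg_iff, log_le_log hy hx]

theorem vord_lt_vord_iff (v : Valuation R ℤᵐ⁰) {x y : R} (hx : v x ≠ 0) (hy : v y ≠ 0) :
    vord v x < vord v y ↔ v y < v x := by
  unfold vord
  rw [neg_lt_neg_iff, log_lt_log hy hx]

/-- `v x ≤ exp (-n)` as soon as `n ≤ vord v x` (also for `v x = 0`). -/
theorem le_exp_neg_of_le_vord (v : Valuation R ℤᵐ⁰) {x : R} {n : ℤ} (h : n ≤ vord v x)
    (h0 : v x ≠ 0) : v x ≤ exp (-n) := by
  rw [← log_le_iff_le_exp h0]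
  unfold vord at h
  omega

theorem le_vord_of_le_exp_neg (v : Valuation R ℤᵐ⁰) {x : R} {n : ℤ} (h0 : v x ≠ 0)
    (h : v x ≤ exp (-n)) : n ≤ vord v x := by
  rw [← log_le_iff_le_exp h0] at h
  unfold vord
  omega

theorem eq_exp_neg_vord (v : Valuation R ℤᵐ⁰) {x : R} (h0 : v x ≠ 0) :
    v x = exp (-(vord v x)) := by
  unfold vord
  rw [neg_neg, exp_log h0]

/-- ultrametric inequality for sums, allowing the second summand to have valuation zero. -/
theorem le_vord_add (v : Valuation R ℤᵐ⁰) {x y : R} {n : ℤ}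
    (hxy : v (x + y) ≠ 0) (hx : v x = 0 ∨ n ≤ vord v x) (hy : v y = 0 ∨ n ≤ vord v y) :
    n ≤ vord v (x + y) := by
  apply le_vord_of_le_exp_neg v hxy
  apply v.map_add_le
  · rcases hx with hx | hx
    · rw [hx]; exact zero_le
    · rcases eq_or_ne (v x) 0 with h0 | h0
      · rw [h0]; exact zero_le
      · exact le_exp_neg_of_le_vord v hx h0
  · rcases hy with hy | hy
    · rw [hy]; exact zero_le
    · rcases eq_or_ne (v y) 0 with h0 | h0
      · rw [h0]; exact zero_le
      · exact le_exp_neg_of_le_vord v hy h0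

/-- ultrametric equality: a summand of strictly larger order (or zero valuation) does not change
the order. -/
theorem vord_add_eq_of_lt (v : Valuation R ℤᵐ⁰) {x y : R} (hx : v x ≠ 0)
    (hy : v y = 0 ∨ vord v x < vord v y) : vord v (x + y) = vord v x := by
  have hlt : v y < v x := by
    rcases hy with hy | hy
    · rw [hy]; exact zero_lt_iff.2 hx
    · rcases eq_or_ne (v y) 0 with h0 | h0
      · rw [h0]; exact zero_lt_iff.2 hx
      · exact (vord_lt_vord_iff v hx h0).1 hy
  unfold vord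
  rw [v.map_add_eq_of_lt_left hlt]

theorem vord_prod_pow_ge {ι : Type*} (v : Valuation R ℤᵐ⁰)
    (s : Finset ι) (t : ι → R) (μ : ι → ℕ) (hpos : ∀ i ∈ s, v (t i) < 1)
    (h0 : v (∏ i ∈ s, t i ^ μ i) ≠ 0) :
    (∑ i ∈ s, (μ i : ℤ)) ≤ vord v (∏ i ∈ s, t i ^ μ i) := by
  classical
  induction s using Finset.induction_on with
  | empty => simp [vord]
  | insert a s ha ih =>
    rw [Finset.prod_insert ha] at h0 ⊢
    rw [Finset.sum_insert ha]
    rw [map_mul] at h0
    have h1 := left_ne_zero_of_mul h0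
    have h2 := right_ne_zero_of_mul h0
    rw [vord_mul v h1 h2]
    have ih' := ih (fun i hi => hpos i (Finset.mem_insert_of_mem hi)) h2
    have hstep : (μ a : ℤ) ≤ vord v (t a ^ μ a) := by
      rcases Nat.eq_zero_or_pos (μ a) with hμ | hμ
      · rw [hμ, pow_zero]; simp [vord]
      · have hta : v (t a) ≠ 0 := by
          intro h
          apply h1
          rw [map_pow, h, zero_pow (Nat.pos_iff_ne_zero.1 hμ)]
        have hpa : 0 < vord v (t a) :=
          vord_pos_of_lt_one v hta (hpos a (Finset.mem_insert_self a s))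
        rw [vord_pow]
        exact le_mul_of_one_le_right (Int.natCast_nonneg _) hpa
    linarith

/-- at a point where only ONE factor is known to vanish. -/
theorem vord_prod_pow_ge_single {ι : Type*} (v : Valuation R ℤᵐ⁰) (hv1 : ∀ x, v x ≤ 1)
    (s : Finset ι) (t : ι → R) (μ : ι → ℕ) {a : ι} (ha : a ∈ s) (hpos : v (t a) < 1)
    (h0 : v (∏ i ∈ s, t i ^ μ i) ≠ 0) :
    (μ a : ℤ) ≤ vord v (∏ i ∈ s, t i ^ μ i) := by
  classical
  rw [← Finset.mul_prod_erase s _ ha] at h0 ⊢
  rw [map_mul] at h0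
  have h1 := left_ne_zero_of_mul h0
  have h2 := right_ne_zero_of_mul h0
  rw [vord_mul v h1 h2]
  have hrest : 0 ≤ vord v (∏ i ∈ s.erase a, t i ^ μ i) := vord_nonneg v hv1 _
  have hstep : (μ a : ℤ) ≤ vord v (t a ^ μ a) := by
    rcases Nat.eq_zero_or_pos (μ a) with hμ | hμ
    · rw [hμ, pow_zero]; simp [vord]
    · have hta : v (t a) ≠ 0 := by
        intro h
        apply h1
        rw [map_pow, h, zero_pow (Nat.pos_iff_ne_zero.1 hμ)]
      have hpa : 0 < vord v (t a) := vord_pos_of_lt_one v hta hpos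
      rw [vord_pow]
      exact le_mul_of_one_le_right (Int.natCast_nonneg _) hpa
  linarith

end Ord

section Separation

variable {A B Bk k X Y : Type*} [CommRing A] [CommRing B] [Algebra A B] [Field k] [CommRing Bk]
  [Algebra k Bk]

/-- The hypotheses of the separation lemma (helper92's R4), bundled.
`X`, `Y`: points of the generic / special chart; `vX`, `vY`: their valuations on the chart rings;
`evX`, `evY`: evaluation; `r`: the centre map; `j`: the coordinate defining the fibres. -/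
structure SepData (π : A →+* k) (res : B →+* Bk) (vX : X → Valuation B ℤᵐ⁰)
    (vY : Y → Valuation Bk ℤᵐ⁰) (evX : X → B →ₐ[A] A) (evY : Y → Bk →ₐ[k] k) (r : X → Y)
    (j : B) : Prop where
  res_algebraMap : ∀ a, res (algebraMap A B a) = algebraMap k Bk (π a)
  vX_le_one : ∀ P b, vX P b ≤ 1
  vX_eq_zero : ∀ P b, vX P b = 0 → b = 0
  vY_le_one : ∀ Q c, vY Q c ≤ 1
  vY_eq_zero : ∀ Q c, vY Q c = 0 → c = 0
  evX_iff : ∀ P b, vX P b < 1 ↔ evX P b = 0
  evY_iff : ∀ Q c, vY Q c < 1 ↔ evY Q c = 0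
  ev_comm : ∀ P b, evY (r P) (res b) = π (evX P b)
  finY : ∀ a : k, {Q | evY Q (res j) = a}.Finite
  finX : ∀ b, res b ≠ 0 → {P | vX P b < 1}.Finite
  fibrewise : ∀ b, res b ≠ 0 → ∀ a : k,
    ∑ᶠ Q ∈ {Q | evY Q (res j) = a}, vord (vY Q) (res b) =
      ∑ᶠ P ∈ {P | π (evX P j) = a}, vord (vX P) b
  interp : ∀ (S : Finset Y) (c : Y → k), ∃ u : B, ∀ Q ∈ S, evY Q (res u) = c Q

namespace SepData

variable {π : A →+* k} {res : B →+* Bk} {vX : X → Valuation B ℤᵐ⁰}
  {vY : Y → Valuation Bk ℤᵐ⁰} {evX : X → B →ₐ[A] A} {evY : Y → Bk →ₐ[k] k} {r : X → Y} {j : B}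

theorem ne_zero_of_res_ne_zero {b : B} (hb : res b ≠ 0) : b ≠ 0 := by
  rintro rfl
  exact hb (map_zero res)

theorem vX_ne_zero (h : SepData π res vX vY evX evY r j) {b : B} (hb : res b ≠ 0) (P : X) :
    vX P b ≠ 0 := fun h0 => ne_zero_of_res_ne_zero hb (h.vX_eq_zero P b h0)

theorem vY_ne_zero (h : SepData π res vX vY evX evY r j) {c : Bk} (hc : c ≠ 0) (Q : Y) :
    vY Q c ≠ 0 := fun h0 => hc (h.vY_eq_zero Q c h0)

/-- the finite set of zeros of `b` on the generic chart -/
noncomputable def zerosX (h : SepData π res vX vY evX evY r j) (b : B) (hb : res b ≠ 0) : Finset X :=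
  (h.finX b hb).toFinset

theorem mem_zerosX (h : SepData π res vX vY evX evY r j) {b : B} (hb : res b ≠ 0) (P : X) :
    P ∈ h.zerosX b hb ↔ vX P b < 1 := by
  simp [zerosX]

theorem vord_eq_zero_of_not_mem (h : SepData π res vX vY evX evY r j) {b : B} (hb : res b ≠ 0)
    {P : X} (hP : P ∉ h.zerosX b hb) : vord (vX P) b = 0 := by
  rw [mem_zerosX] at hP
  exact vord_eq_zero_of_eq_one _ (le_antisymm (h.vX_le_one P b) (not_lt.1 hP))

/-- the finite fibre of the special chart over `a` -/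
noncomputable def fibY (h : SepData π res vX vY evX evY r j) (a : k) : Finset Y :=
  (h.finY a).toFinset

theorem mem_fibY (h : SepData π res vX vY evX evY r j) (a : k) (Q : Y) :
    Q ∈ h.fibY a ↔ evY Q (res j) = a := by
  simp [fibY]

/-- `n_Q(b)`: the sum of the orders of `b` at the points reducing to `Q`. -/
noncomputable def nX (h : SepData π res vX vY evX evY r j) (b : B) (hb : res b ≠ 0) (Q : Y) : ℤ :=
  ∑ P ∈ (h.zerosX b hb).filter (fun P => r P = Q), vord (vX P) b

theorem finsum_mem_eq_sum_filter (h : SepData π res vX vY evX evY r j) {b : B} (hb : res b ≠ 0)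
    (T : Set X) :
    ∑ᶠ P ∈ T, vord (vX P) b = ∑ P ∈ (h.zerosX b hb).filter (fun P => P ∈ T), vord (vX P) b := by
  apply finsum_mem_eq_sum_of_inter_support_eq
  ext P
  simp only [Set.mem_inter_iff, Function.mem_support, Finset.coe_filter, Set.mem_ofPred_eq]
  constructor
  · rintro ⟨hT, hne⟩
    refine ⟨⟨?_, hT⟩, hne⟩
    by_contra hP
    exact hne (h.vord_eq_zero_of_not_mem hb hP)
  · rintro ⟨⟨_, hT⟩, hne⟩
    exact ⟨hT, hne⟩

theorem finsum_fibre_eq_nX (h : SepData π res vX vY evX evY r j) {b : B} (hb : res b ≠ 0) (Q : Y) :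
    ∑ᶠ P ∈ {P | r P = Q}, vord (vX P) b = h.nX b hb Q := by
  rw [h.finsum_mem_eq_sum_filter hb]
  rfl

/-- the fibrewise formula, in `Finset` form. -/
theorem fibrewise_fin (h : SepData π res vX vY evX evY r j) {b : B} (hb : res b ≠ 0) (a : k) :
    ∑ Q ∈ h.fibY a, vord (vY Q) (res b) = ∑ Q ∈ h.fibY a, h.nX b hb Q := by
  have h1 := h.fibrewise b hb a
  rw [finsum_mem_eq_finite_toFinset_sum _ (h.finY a), h.finsum_mem_eq_sum_filter hb] at h1
  rw [show (h.finY a).toFinset = h.fibY a from rfl] at h1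
  rw [h1]
  have hmaps : ∀ P ∈ (h.zerosX b hb).filter (fun P => P ∈ {P | π (evX P j) = a}),
      r P ∈ h.fibY a := by
    intro P hP
    rw [Finset.mem_filter] at hP
    rw [mem_fibY, h.ev_comm]
    exact hP.2
  rw [← Finset.sum_fiberwise_of_maps_to hmaps]
  apply Finset.sum_congr rfl
  intro Q hQ
  unfold nX
  apply Finset.sum_congr _ (fun _ _ => rfl)
  ext P
  simp only [Finset.mem_filter, Set.mem_ofPred_eq]
  constructor
  · rintro ⟨⟨hP, _⟩, hr⟩
    exact ⟨hP, hr⟩
  · rintro ⟨hP, hr⟩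
    refine ⟨⟨hP, ?_⟩, hr⟩
    rw [← h.ev_comm, hr]
    exact (h.mem_fibY a Q).1 hQ

theorem nX_nonneg (h : SepData π res vX vY evX evY r j) {b : B} (hb : res b ≠ 0) (Q : Y) :
    0 ≤ h.nX b hb Q :=
  Finset.sum_nonneg fun P _ => vord_nonneg _ (h.vX_le_one P) b

/-- a partial sum over points reducing to `Q` is bounded by `n_Q`. -/
theorem sum_le_nX (h : SepData π res vX vY evX evY r j) {b : B} (hb : res b ≠ 0) (Q : Y)
    (W : Finset X) (hW : ∀ P ∈ W, r P = Q) :
    ∑ P ∈ W, vord (vX P) b ≤ h.nX b hb Q := by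
  have h1 : ∑ P ∈ W, vord (vX P) b = ∑ P ∈ W.filter (fun P => P ∈ h.zerosX b hb), vord (vX P) b := by
    symm
    apply Finset.sum_filter_of_ne
    intro P _ hne
    by_contra hP
    exact hne (h.vord_eq_zero_of_not_mem hb hP)
  rw [h1]
  unfold nX
  apply Finset.sum_le_sum_of_subset_of_nonneg
  · intro P hP
    rw [Finset.mem_filter] at hP ⊢
    exact ⟨hP.2, hW P hP.1⟩
  · intro P _ _
    exact vord_nonneg _ (h.vX_le_one P) b

/-- if `res b` does not vanish at `Q` then no zero of `b` reduces to `Q`. -/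
theorem nX_eq_zero_of_evY_ne_zero (h : SepData π res vX vY evX evY r j) {b : B} (hb : res b ≠ 0)
    {Q : Y} (hQ : evY Q (res b) ≠ 0) : h.nX b hb Q = 0 := by
  unfold nX
  apply Finset.sum_eq_zero
  intro P hP
  rw [Finset.mem_filter, mem_zerosX] at hP
  exfalso
  apply hQ
  rw [← hP.2, h.ev_comm, (h.evX_iff P b).1 hP.1, map_zero]

theorem vordY_eq_zero_of_evY_ne_zero (h : SepData π res vX vY evX evY r j) {c : Bk}
    {Q : Y} (hQ : evY Q c ≠ 0) : vord (vY Q) c = 0 := by
  apply vord_eq_zero_of_eq_one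
  refine le_antisymm (h.vY_le_one Q c) (not_lt.1 fun hlt => hQ ((h.evY_iff Q c).1 hlt))

/-- **Key inequality** `n_Q(b) ≤ ord_Q(res b)` (helper92's R4 claim). -/
theorem nX_le_vord (h : SepData π res vX vY evX evY r j) (b : B) (hb : res b ≠ 0) (Q₁ : Y) :
    h.nX b hb Q₁ ≤ vord (vY Q₁) (res b) := by
  classical
  set a : k := evY Q₁ (res j) with ha
  have hQ₁ : Q₁ ∈ h.fibY a := (h.mem_fibY a Q₁).2 rfl
  by_cases hO : ∀ Q ∈ h.fibY a, Q = Q₁
  · -- the fibre is `{Q₁}`: the fibrewise formula is the claim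
    have hfib : h.fibY a = {Q₁} := by
      ext Q
      rw [Finset.mem_singleton]
      exact ⟨hO Q, fun hQ => hQ ▸ hQ₁⟩
    have h1 := h.fibrewise_fin hb a
    rw [hfib, Finset.sum_singleton, Finset.sum_singleton] at h1
    exact h1.ge
  push Not at hO
  obtain ⟨Q₂, hQ₂, hQ₂ne⟩ := hO
  -- the separating function `w`
  obtain ⟨w, hw⟩ := h.interp (h.fibY a) (fun Q => if Q = Q₁ then 0 else 1)
  have hw1 : evY Q₁ (res w) = 0 := by simpa using hw Q₁ hQ₁
  have hw2 : ∀ Q ∈ h.fibY a, Q ≠ Q₁ → evY Q (res w) = 1 := by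
    intro Q hQ hne
    simpa [hne] using hw Q hQ
  -- local equations `t P`
  set t : X → B := fun P =>
    (j - algebraMap A B (evX P j)) + (w - algebraMap A B (evX P w)) with ht
  have ht0 : ∀ P, evX P (t P) = 0 := by
    intro P
    simp only [ht, map_add, map_sub, AlgHom.commutes, Algebra.algebraMap_self, RingHom.id_apply,
      sub_self, add_zero]
  have htY : ∀ P, r P = Q₁ → ∀ Q ∈ h.fibY a, evY Q (res (t P)) = evY Q (res w) := by
    intro P hP Q hQ
    have e1 : π (evX P j) = a := by rw [← h.ev_comm, hP]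
    have e2 : π (evX P w) = 0 := by rw [← h.ev_comm, hP, hw1]
    have e3 : evY Q (res j) = a := (h.mem_fibY a Q).1 hQ
    simp only [ht, map_add, map_sub, h.res_algebraMap, AlgHom.commutes, e1, e2, e3,
      Algebra.algebraMap_self, RingHom.id_apply, sub_self, zero_add, sub_zero]
  set Z : Finset X := (h.zerosX b hb).filter (fun P => r P = Q₁) with hZ
  have hZr : ∀ P ∈ Z, r P = Q₁ := fun P hP => (Finset.mem_filter.1 hP).2
  set μ : X → ℕ := fun P => (vord (vX P) b).toNat with hμ
  have hμc : ∀ P, (μ P : ℤ) = vord (vX P) b := fun P =>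
    Int.toNat_of_nonneg (vord_nonneg _ (h.vX_le_one P) b)
  set g : B := ∏ P ∈ Z, t P ^ μ P with hg
  obtain ⟨u, hu⟩ := h.interp (h.fibY a) (fun Q => 1 - evY Q (res b))
  set b' : B := b + g * u with hb'def
  -- values of `res b'` at the other points of the fibre
  have hgY : ∀ Q ∈ h.fibY a, Q ≠ Q₁ → evY Q (res g) = 1 := by
    intro Q hQ hne
    rw [hg, map_prod, map_prod]
    apply Finset.prod_eq_one
    intro P hP
    rw [map_pow, map_pow, htY P (hZr P hP) Q hQ, hw2 Q hQ hne, one_pow]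
  have hb'Y : ∀ Q ∈ h.fibY a, Q ≠ Q₁ → evY Q (res b') = 1 := by
    intro Q hQ hne
    rw [hb'def, map_add, map_mul, map_add, map_mul, hgY Q hQ hne, hu Q hQ]
    ring
  have hb' : res b' ≠ 0 := by
    intro h0
    have := hb'Y Q₂ hQ₂ hQ₂ne
    rw [h0, map_zero] at this
    exact zero_ne_one this
  -- fibrewise formula for `b'` collapses to `Q₁`
  have hcollapse : vord (vY Q₁) (res b') = h.nX b' hb' Q₁ := by
    have h1 := h.fibrewise_fin hb' a
    rw [Finset.sum_eq_single_of_mem Q₁ hQ₁, Finset.sum_eq_single_of_mem Q₁ hQ₁] at h1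
    · exact h1
    · intro Q hQ hne
      exact h.nX_eq_zero_of_evY_ne_zero hb' (by rw [hb'Y Q hQ hne]; exact one_ne_zero)
    · intro Q hQ hne
      exact h.vordY_eq_zero_of_evY_ne_zero (by rw [hb'Y Q hQ hne]; exact one_ne_zero)
  -- `n_{Q₁}(b) ≤ n_{Q₁}(b')`
  have hgrow : h.nX b hb Q₁ ≤ h.nX b' hb' Q₁ := by
    refine le_trans ?_ (h.sum_le_nX hb' Q₁ Z hZr)
    show ∑ P ∈ Z, vord (vX P) b ≤ ∑ P ∈ Z, vord (vX P) b'
    apply Finset.sum_le_sum
    intro P hP
    apply le_vord_add (vX P) (h.vX_ne_zero hb' P) (Or.inr le_rfl)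
    rcases eq_or_ne (vX P (g * u)) 0 with h0 | h0
    · exact Or.inl h0
    · right
      rw [map_mul] at h0
      have hg0 := left_ne_zero_of_mul h0
      have hu0 := right_ne_zero_of_mul h0
      rw [vord_mul _ hg0 hu0, ← hμc P]
      have h1 : (μ P : ℤ) ≤ vord (vX P) g :=
        vord_prod_pow_ge_single (vX P) (h.vX_le_one P) Z t μ hP
          ((h.evX_iff P (t P)).2 (ht0 P)) hg0
      have h2 : 0 ≤ vord (vX P) u := vord_nonneg _ (h.vX_le_one P) u
      linarith
  -- contradiction if `n_{Q₁}(b) > ord_{Q₁}(res b)`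
  by_contra hlt
  push Not at hlt
  have hresb0 : vY Q₁ (res b) ≠ 0 := h.vY_ne_zero hb Q₁
  have hnXsum : h.nX b hb Q₁ = ∑ P ∈ Z, (μ P : ℤ) := by
    unfold nX
    exact Finset.sum_congr rfl fun P _ => (hμc P).symm
  have hkey : vord (vY Q₁) (res b') = vord (vY Q₁) (res b) := by
    rw [hb'def, map_add, map_mul]
    apply vord_add_eq_of_lt _ hresb0
    rcases eq_or_ne (vY Q₁ (res g * res u)) 0 with h0 | h0
    · exact Or.inl h0
    · right
      rw [map_mul] at h0
      have hg0 := left_ne_zero_of_mul h0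
      have hu0 := right_ne_zero_of_mul h0
      rw [vord_mul _ hg0 hu0]
      have h1 : (∑ P ∈ Z, (μ P : ℤ)) ≤ vord (vY Q₁) (res g) := by
        rw [hg, map_prod]
        simp only [map_pow]
        apply vord_prod_pow_ge (vY Q₁) Z (fun P => res (t P)) μ
        · intro P hP
          rw [h.evY_iff, ← hZr P hP, h.ev_comm, ht0 P, map_zero]
        · rw [hg, map_prod] at hg0
          simpa only [map_pow] using hg0
      have h2 : 0 ≤ vord (vY Q₁) (res u) := vord_nonneg _ (h.vY_le_one Q₁) _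
      linarith
  linarith

/-- **Separation lemma (R4).** Pointwise compatibility of the centre map with orders:
`∑_{r P = Q} ord_P b = ord_Q (res b)` for every chart function `b` with nonzero reduction. -/
theorem nX_eq_vord (h : SepData π res vX vY evX evY r j) (b : B) (hb : res b ≠ 0) (Q : Y) :
    h.nX b hb Q = vord (vY Q) (res b) := by
  classical
  set a : k := evY Q (res j) with ha
  have hQ : Q ∈ h.fibY a := (h.mem_fibY a Q).2 rfl
  have h1 := h.fibrewise_fin hb a
  have h2 : ∀ Q' ∈ h.fibY a, h.nX b hb Q' ≤ vord (vY Q') (res b) :=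
    fun Q' _ => h.nX_le_vord b hb Q'
  exact ((Finset.sum_eq_sum_iff_of_le h2).1 h1.symm) Q hQ

/-- **Separation lemma (R4), `finsum` form**, with the orders written as in the prelude's
`Place.ord`. -/
theorem sum_vord_fibre_eq (h : SepData π res vX vY evX evY r j) (b : B) (hb : res b ≠ 0) (Q : Y) :
    ∑ᶠ P ∈ {P | r P = Q}, -(WithZero.log (vX P b)) = -(WithZero.log (vY Q (res b))) := by
  have := h.nX_eq_vord b hb Q
  rw [← h.finsum_fibre_eq_nX hb Q] at this
  exact this

end SepData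

end Separation

end Fermat.Agent.S18.H5
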