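import Mathlib
import Fermat.Agent.RR.H76_Riemann

/-!
# S18 / ASSEMBLY glue (helper61): values at places of degree one, constants in `L(E)`

Abstract, prelude vocabulary (`Place`, `Divisor`, `riemannRochSpace`).

* `exists_value`        : at a place `P` of degree one every `f ∈ O_P` has a value `c : K`
                          (`f = c` or `ord_P (f - c) > 0`);
* `exists_value_ne_zero`: the shape `hval₀` of helper71's `isPrincipal_of_red_isPrincipal`;
* `eq_algebraMap_of_mem_of_ell_eq_one` : if `l(E) = 1` and `0 ≤ E` then `L(E)` consists of constants;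
* `const_of_ell_sum_single_eq_one`     : the shape `hNS` of helper71's theorem.
-/

set_option autoImplicit false

noncomputable section

open AlgebraicCurve

namespace Fermat.Agent.S18.H61

open Fermat.Agent.RR.H76

variable {K F : Type*} [Field K] [Field F] [Algebra K F]

/-- At a place of degree one the structure map `K → κ(P)` is surjective. -/
theorem algebraMap_residueField_surjective (P : Place K F) (hP : P.deg = 1) :
    Function.Surjective (algebraMap K P.ResidueField) := by
  have h1 : Module.finrank K P.ResidueField = 1 := hP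
  intro x
  obtain ⟨v, hv⟩ := finrank_eq_one_iff'.mp h1
  obtain ⟨-, hv⟩ := hv
  obtain ⟨a, ha⟩ := hv 1
  obtain ⟨b, hb⟩ := hv x
  have ha0 : a ≠ 0 := by
    rintro rfl
    rw [zero_smul] at ha
    exact zero_ne_one ha
  refine ⟨b * a⁻¹, ?_⟩
  have hv1 : v = a⁻¹ • (1 : P.ResidueField) := by
    rw [← ha, smul_smul, inv_mul_cancel₀ ha0, one_smul]
  rw [← hb, hv1, smul_smul, Algebra.smul_def, mul_one]

/-- At a place of degree one every element of the valuation ring has a value in `K`. -/
theorem exists_value (P : Place K F) (hP : P.deg = 1) {f : F} (hf : f ∈ P.toValuationSubring) :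
    ∃ c : K, f = algebraMap K F c ∨ 0 < P.ord (f - algebraMap K F c) := by
  obtain ⟨c, hc⟩ := algebraMap_residueField_surjective P hP (resTot P f)
  refine ⟨c, ?_⟩
  have hcmem : algebraMap K F c ∈ P.toValuationSubring := P.algebraMap_mem' c
  have hsub : f - algebraMap K F c ∈ P.toValuationSubring := sub_mem hf hcmem
  have h1 : resTot P (algebraMap K F c) = algebraMap K P.ResidueField c := by
    rw [resTot_of_mem P hcmem]
    rfl
  have h2 : resTot P (f - algebraMap K F c) = 0 := by
    have h3 : resTot P ((f - algebraMap K F c) + algebraMap K F c)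
        = resTot P (f - algebraMap K F c) + resTot P (algebraMap K F c) :=
      resTot_add P hsub hcmem
    rw [sub_add_cancel, h1, hc] at h3
    exact (add_eq_right.mp h3.symm)
  rcases (resTot_eq_zero_iff P hsub).mp h2 with h | h
  · left; exact sub_eq_zero.mp h
  · right; exact h

/-- The shape `hval₀` consumed by helper71's final step. -/
theorem exists_value_ne_zero (P : Place K F) (hP : P.deg = 1) (f : F) (hf : f ≠ 0)
    (hord : P.ord f = 0) :
    ∃ c : K, c ≠ 0 ∧ (f = algebraMap K F c ∨ 0 < P.ord (f - algebraMap K F c)) := by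
  have hmem : f ∈ P.toValuationSubring := by
    rw [mem_valSubring_iff]
    right; rw [hord]
  obtain ⟨c, hc⟩ := exists_value P hP hmem
  refine ⟨c, ?_, hc⟩
  rintro rfl
  rw [map_zero, sub_zero] at hc
  rcases hc with h | h
  · exact hf h
  · rw [hord] at h; exact lt_irrefl _ h

/-- Constants lie in `L(E)` for effective `E`. -/
theorem algebraMap_mem_riemannRochSpace {E : Divisor K F} (hE : 0 ≤ E) (c : K) :
    algebraMap K F c ∈ riemannRochSpace E := by
  rw [mem_riemannRochSpace_iff]
  intro v
  by_cases hc : c = 0
  · left; rw [hc, map_zero]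
  · right
    have h0 : v.ord (algebraMap K F c) = 0 := by
      have h1 : v.adicValuation (algebraMap K F c) = 1 := by
        have hle := v.adicValuation_algebraMap_le_one c
        have hle' := v.adicValuation_algebraMap_le_one c⁻¹
        rw [map_inv₀, map_inv₀] at hle'
        have hne : v.adicValuation (algebraMap K F c) ≠ 0 :=
          v.adicValuation_ne_zero (by simpa using hc)
        have : 1 ≤ v.adicValuation (algebraMap K F c) := by
          rwa [inv_le_one₀ (zero_lt_iff.mpr hne)] at hle'
        exact le_antisymm hle this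
      unfold Place.ord
      rw [h1]; simp
    rw [h0]
    have := Finsupp.le_def.mp hE v
    simpa using this

/-- If `l(E) = 1` and `E ≥ 0` then every element of `L(E)` is a constant. -/
theorem eq_algebraMap_of_mem_of_ell_eq_one {E : Divisor K F} (hE : 0 ≤ E) (h1 : ell E = 1)
    {ψ : F} (hψ : ψ ∈ riemannRochSpace E) : ∃ b : K, ψ = algebraMap K F b := by
  have hone : (1 : F) ∈ riemannRochSpace E := by
    simpa using algebraMap_mem_riemannRochSpace hE (1 : K)
  obtain ⟨v, hv⟩ := finrank_eq_one_iff'.mp h1
  obtain ⟨hv0, hv⟩ := hv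
  obtain ⟨a, ha⟩ := hv ⟨1, hone⟩
  obtain ⟨b, hb⟩ := hv ⟨ψ, hψ⟩
  have ha0 : a ≠ 0 := by
    rintro rfl
    rw [zero_smul] at ha
    have := congrArg Subtype.val ha
    simp at this
  refine ⟨b * a⁻¹, ?_⟩
  have hv1 : (v : F) = a⁻¹ • (1 : F) := by
    have := congrArg Subtype.val ha
    simp only [Submodule.coe_smul] at this
    rw [← this, smul_smul, inv_mul_cancel₀ ha0, one_smul]
  have := congrArg Subtype.val hb
  simp only [Submodule.coe_smul] at this
  rw [← this, hv1, smul_smul, Algebra.smul_def, mul_one]

/-- The shape `hNS` consumed by helper71's final step. -/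
theorem const_of_ell_sum_single_eq_one {g : ℕ} (Q : Fin g → Place K F)
    (hQ : Function.Injective Q)
    (h1 : ell (∑ i, Finsupp.single (Q i) (1 : ℤ)) = 1) (ψ : F)
    (hreg : ∀ Q', (∀ i, Q' ≠ Q i) → 0 ≤ Q'.ord ψ) (hpole : ∀ i, -1 ≤ (Q i).ord ψ) :
    ∃ b : K, ψ = algebraMap K F b := by
  classical
  set E : Divisor K F := ∑ i, Finsupp.single (Q i) (1 : ℤ) with hEdef
  have hEapp : ∀ Q' : Place K F, E Q' = if ∃ i, Q i = Q' then 1 else 0 := by
    intro Q'
    rw [hEdef, Finsupp.finsetSum_apply]
    split_ifs with hex
    · obtain ⟨i, rfl⟩ := hex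
      rw [Finset.sum_eq_single i]
      · simp
      · intro j _ hji
        rw [Finsupp.single_apply, if_neg]
        exact fun h => hji (hQ h)
      · intro h; exact absurd (Finset.mem_univ i) h
    · apply Finset.sum_eq_zero
      intro j _
      rw [Finsupp.single_apply, if_neg]
      exact fun h => hex ⟨j, h⟩
  have hE : 0 ≤ E := by
    rw [Finsupp.le_def]
    intro Q'
    rw [hEapp]
    split_ifs <;> simp
  refine eq_algebraMap_of_mem_of_ell_eq_one hE h1 ?_
  rw [mem_riemannRochSpace_iff]
  intro Q'
  by_cases hψ : ψ = 0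
  · left; exact hψ
  right
  rw [hEapp]
  split_ifs with hex
  · obtain ⟨i, rfl⟩ := hex
    exact hpole i
  · have := hreg Q' (fun i h => hex ⟨i, h.symm⟩)
    simpa using this

end Fermat.Agent.S18.H61
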