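import Fermat.Agent.S18.H71_Glue
import Fermat.Agent.S18.H61_GenusBridge
import Fermat.Agent.S18.H61_PlaceValues

/-!
# S18 assembly, abstract form (helper61)

Over an abstract reduction datum `G : H71.GaussRed K F k Fb Γ`:

* `GoodCoordAt G x Q` : the coordinate `x` is good on the residue disc of `Q`
  (`hx` + `hsurj` of helper71's theorem at one place).
* `isPrincipal_of_goodCoord` : helper71's `isPrincipal_of_red_isPrincipal` with (R), (NS), `hval₀`
  discharged from the RR bank (`FFBase` on both sides, `gR F ≤ gR Fb`, all degrees one, ...).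
* `isPrincipal_of_red_eq_one` : the normalised form consumed by `H11.CoreE`: `m D = div f₀`,
  `v f₀ = 1`, `red f₀ = 1` ⟹ `D` principal.
-/

set_option autoImplicit false

noncomputable section

namespace Fermat.Agent.S18.H61

open AlgebraicCurve
open Fermat.Agent.RR.H76 Fermat.Agent.S18.H71

variable {K F k Fb Γ : Type*} [Field K] [Field F] [Algebra K F] [Field k] [Field Fb]
  [Algebra k Fb] [LinearOrderedCommGroupWithZero Γ]

open scoped Classical in
/-- The coordinate `x` is good on the residue disc of `Q`. -/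
def GoodCoordAt (G : GaussRed K F k Fb Γ) (x : F) (Q : Place k Fb) : Prop :=
  (∃ P : Place K F, G.r P = Q) ∧
  ∀ P : Place K F, G.r P = Q → ∃ a : K, G.v (x - algebraMap K F a) = 1 ∧
    Q.ord (G.red (x - algebraMap K F a)) = 1 ∧
    ∀ R : Place K F, G.r R = Q → R.ord (x - algebraMap K F a) = if R = P then 1 else 0

open scoped Classical in
/-- helper71's final step with (R), (NS), `hval₀` discharged from the RR bank. -/
theorem isPrincipal_of_goodCoord (G : GaussRed K F k Fb Γ)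
    (hF : FFBase K F) (hFb : FFBase k Fb) (hgenus : hF.gR ≤ hFb.gR)
    (hdegF : ∀ P : Place K F, P.deg = 1) (hdegFb : ∀ Q : Place k Fb, Q.deg = 1)
    (h0b : ell (0 : Divisor k Fb) = 1)
    (hinf : (Set.univ : Set (Place k Fb)).Infinite)
    (m : ℕ) (hmk : (m : k) ≠ 0)
    (x : F) (S : Set (Place k Fb)) (hS : S.Finite) (hgood : ∀ Q, Q ∉ S → GoodCoordAt G x Q)
    (P₀ : Place K F) (hP₀ : G.r P₀ ∈ S)
    (D : Divisor K F) (hD0 : Divisor.degree D = 0)
    (f₀ : F) (hf₀ : f₀ ≠ 0) (hDf : ∀ P : Place K F, (m : ℤ) * D P = P.ord f₀)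
    (γ : Fb) (hγ : γ ≠ 0)
    (hDγ : ∀ Q' : Place k Fb, (∑ᶠ P : Place K F, if G.r P = Q' then D P else 0) = Q'.ord γ) :
    Divisor.IsPrincipal D := by
  -- the genus
  set g : ℕ := (hF.gR).toNat with hg
  have hgb0 : 0 ≤ hFb.gR := gR_nonneg hFb h0b.le
  have hgle : (g : ℤ) ≤ hFb.gR := by
    rw [hg, Int.toNat_eq_max]
    exact max_le hgenus hgb0
  have hgge : hF.gR ≤ (g : ℤ) := Int.self_le_toNat _
  -- (NS)
  obtain ⟨Q, hQinj, hQS, hQell⟩ :=
    exists_nonspecial_of_le_gR hFb g hgle hdegFb h0b hinf S hS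
  refine isPrincipal_of_red_isPrincipal G m hmk g hdegF ?_ Q hQinj
    (fun ψ h1 h2 => const_of_ell_sum_single_eq_one Q hQinj hQell ψ h1 h2)
    (fun _ => x) (fun i P hP => (hgood (Q i) (hQS i)).2 P hP)
    (fun i => (hgood (Q i) (hQS i)).1) P₀ (fun i h => hQS i (h ▸ hP₀))
    (fun f hf hord => exists_value_ne_zero P₀ (hdegF P₀) f hf hord)
    D hD0 f₀ hf₀ hDf γ hγ hDγ
  -- (R)
  intro E hE
  obtain ⟨ψ, hψ0, hψ⟩ := exists_ne_zero_mem_of_gR_le_degree hF E (by rw [hE]; exact hgge)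
  refine ⟨ψ, hψ0, fun P => ?_⟩
  rcases (mem_riemannRochSpace_iff.mp hψ) P with h | h
  · exact absurd h hψ0
  · linarith

open scoped Classical in
/-- The normalised form consumed by `H11.CoreE`. -/
theorem isPrincipal_of_red_eq_one (G : GaussRed K F k Fb Γ)
    (hF : FFBase K F) (hFb : FFBase k Fb) (hgenus : hF.gR ≤ hFb.gR)
    (hdegF : ∀ P : Place K F, P.deg = 1) (hdegFb : ∀ Q : Place k Fb, Q.deg = 1)
    (h0b : ell (0 : Divisor k Fb) = 1)
    (hinf : (Set.univ : Set (Place k Fb)).Infinite)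
    (m : ℕ) (hmk : (m : k) ≠ 0)
    (x : F) (S : Set (Place k Fb)) (hS : S.Finite) (hgood : ∀ Q, Q ∉ S → GoodCoordAt G x Q)
    (P₀ : Place K F) (hP₀ : G.r P₀ ∈ S)
    (D : Divisor K F)
    (f₀ : F) (hv : G.v f₀ = 1) (hred : G.red f₀ = 1)
    (hDf : ∀ P : Place K F, (m : ℤ) * D P = P.ord f₀) :
    Divisor.IsPrincipal D := by
  have hm0 : m ≠ 0 := by
    rintro rfl
    exact hmk (by simp)
  have hmZ : (m : ℤ) ≠ 0 := by exact_mod_cast hm0
  have hf₀ : f₀ ≠ 0 := G.ne_zero_of_v_eq_one hv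
  -- degree zero
  have hD0 : Divisor.degree D = 0 := by
    have := hF.pd
    obtain ⟨E, hE, hE0⟩ := HasPrincipalDivisors.exists_divisor (K := K) f₀ hf₀
    have hmD : m • D = E := by
      ext P
      rw [Finsupp.smul_apply, nsmul_eq_mul, hDf P, hE P]
    have h1 : Divisor.degree (m • D) = 0 := by rw [hmD, hE0]
    rw [map_nsmul, nsmul_eq_mul] at h1
    exact (mul_eq_zero.mp h1).resolve_left hmZ
  refine isPrincipal_of_goodCoord G hF hFb hgenus hdegF hdegFb h0b hinf m hmk x S hS hgood P₀ hP₀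
    D hD0 f₀ hf₀ hDf 1 one_ne_zero fun Q' => ?_
  -- `r_* D = 0`
  rw [Place.ord_one]
  have h1 := G.ord_red f₀ hv Q'
  rw [hred, Place.ord_one] at h1
  have h2 : (∑ᶠ P : Place K F, if G.r P = Q' then P.ord f₀ else 0) =
      (m : ℤ) * ∑ᶠ P : Place K F, if G.r P = Q' then D P else 0 := by
    rw [mul_finsum]
    refine finsum_congr fun P => ?_
    split_ifs
    · exact (hDf P).symm
    · exact (mul_zero _).symm
  rw [h2] at h1
  exact (mul_eq_zero.mp h1.symm).resolve_left hmZ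

end Fermat.Agent.S18.H61

end
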