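import Fermat.Agent.S18.H71_Coordinate
import Fermat.Agent.S18.H84_RedModel
import Fermat.Agent.S18.H11_IfaceInst
import Fermat.Agent.RR.H76_InstFN

/-!
# S18 assembly (helper61): the Gauss reduction datum from the frozen hypothesis

From `h : ReductionInputsModL A N` we build `gaussRed h : H71.GaussRed Qbar (FN N) k Fk _`
(helper84's Gauss ring and residue map, helper71's `GaussRed.ofValuationSubring`) and prove its
compatibility with helper11's integral elements:
`gaussRed_compat : G.v Y.gen = 1 ∧ G.red Y.gen = Y.red`.
-/

set_option autoImplicit false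
set_option linter.style.haveILetI false
set_option synthInstance.maxHeartbeats 400000

noncomputable section

namespace Fermat.Agent.S18.H61

open ModularCurve AlgebraicCurve HahnSeries IntermediateField
open Fermat.Agent.S24 Fermat.Agent.RR Fermat.Agent.S18.H71

section Char0

variable (N : ℕ) [NeZero N]

/-- On `F_N` a function without zeros and poles is a constant. -/
theorem hconst_FN : ∀ g : modularFunctionFieldBar N, g ≠ 0 →
    (∀ P : Place (AlgebraicClosure ℚ) (modularFunctionFieldBar N), P.ord g = 0) →
    ∃ c : AlgebraicClosure ℚ,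
      algebraMap (AlgebraicClosure ℚ) (modularFunctionFieldBar N) c = g := by
  intro g _ hg
  haveI : FiniteDimensional Qbar⟮jBar N⟯ (FN N) := H40.finiteDimensional_FN N
  obtain ⟨a, ha⟩ := H11.mem_range_of_isAlgebraic
    ((H43.forall_ord_eq_zero_iff_isAlgebraic (K := Qbar) (F := FN N) (jBar N)
      (H40.transcendental_jBar N)).mp hg)
  exact ⟨a, ha.symm⟩

theorem hdiv_FN' : ∀ f : modularFunctionFieldBar N, f ≠ 0 →
    ∃ D : Divisor (AlgebraicClosure ℚ) (modularFunctionFieldBar N), ∀ P, D P = P.ord f :=
  fun f _ => H11.hdiv_FN N f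

end Char0

variable {N : ℕ} [NeZero N] {A : ValuationSubring (AlgebraicClosure ℚ)}

/-- The Gauss valuation ring of `F_N` attached to `A`. -/
def gaussO (h : ReductionInputsModL A N) :
    ValuationSubring (modularFunctionFieldBar N) :=
  H84.gaussRing A (IsLocalRing.residue A) N h.choose_spec.2 (hconst_FN N) (hdiv_FN' N)

/-- The residue map of the Gauss ring, into the function field of the special fibre. -/
def gaussRes (h : ReductionInputsModL A N) :
    gaussO h →+* modularFunctionFieldFullC (IsLocalRing.ResidueField A) N :=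
  (H84.resL (A := A) (π := IsLocalRing.residue A) (N := N)).codRestrict
    (modularFunctionFieldFullC (IsLocalRing.ResidueField A) N)
    (fun f => H84.resL_mem IsLocalRing.residue_surjective h.choose_spec.2 (hconst_FN N)
      (hdiv_FN' N) f)

theorem coe_gaussRes (h : ReductionInputsModL A N) (f : gaussO h) :
    ((gaussRes h f : modularFunctionFieldFullC (IsLocalRing.ResidueField A) N) :
      LaurentSeries (IsLocalRing.ResidueField A)) =
      H84.resL (A := A) (π := IsLocalRing.residue A) (N := N) f := rfl

theorem gaussRes_eq_zero_iff (h : ReductionInputsModL A N) (f : gaussO h) :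
    gaussRes h f = 0 ↔ ¬ IsUnit f := by
  have h1 := H84.resL_eq_zero_iff (A := A) (π := IsLocalRing.residue A) (N := N)
    IsLocalRing.residue_surjective h.choose_spec.2 (hconst_FN N) (hdiv_FN' N) f
  refine Iff.trans ?_ h1
  constructor
  · intro h0
    have := congrArg Subtype.val h0
    exact this
  · intro h0
    exact Subtype.ext h0

theorem fin_ord_FN (N : ℕ) [NeZero N] (y : modularFunctionFieldBar N) (hy : y ≠ 0) :
    {P : Place (AlgebraicClosure ℚ) (modularFunctionFieldBar N) | P.ord y ≠ 0}.Finite :=
  (H76.ffBase_FN N).finOrd y hy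

/-- **The Gauss reduction datum** attached to the frozen hypothesis. -/
def gaussRed (h : ReductionInputsModL A N) :
    GaussRed (AlgebraicClosure ℚ) (modularFunctionFieldBar N) (IsLocalRing.ResidueField A)
      (modularFunctionFieldFullC (IsLocalRing.ResidueField A) N) (gaussO h).ValueGroup :=
  GaussRed.ofValuationSubring (gaussO h) (gaussRes h) (placeReductionModL h)
    (gaussRes_eq_zero_iff h)
    (fun y hy => by
      obtain ⟨c, hc, u, hu, hyu⟩ := H84.exists_const_mul_unit' (A := A)
        (π := IsLocalRing.residue A) (N := N) h.choose_spec.2 (hconst_FN N) (hdiv_FN' N) y hy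
      refine ⟨c⁻¹, inv_ne_zero hc, IsUnit.unit (show IsUnit (u : gaussO h) from hu), ?_⟩
      rw [hyu, ← mul_assoc, ← map_mul, inv_mul_cancel₀ hc, map_one, one_mul]
      rfl)
    (fin_ord_FN N)
    (fun f hf D hD Q => by
      have hf' : H84.resL (A := A) (π := IsLocalRing.residue A) (N := N) f ≠ 0 := by
        intro h0
        exact hf (Subtype.ext h0)
      exact H84.ord_resL IsLocalRing.residue_surjective h.choose_spec.2 (hconst_FN N)
        (isPlaceReductionModL_placeReductionModL h) f hf' _ D hD Q)

@[simp] theorem gaussRed_r (h : ReductionInputsModL A N) :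
    (gaussRed h).r = placeReductionModL h := rfl

theorem gaussRed_v (h : ReductionInputsModL A N) :
    (gaussRed h).v = (gaussO h).valuation := rfl

theorem gaussRed_red_of_mem (h : ReductionInputsModL A N) {y : modularFunctionFieldBar N}
    (hy : y ∈ gaussO h) : (gaussRed h).red y = gaussRes h ⟨y, hy⟩ :=
  extendRed_of_mem (gaussO h) (gaussRes h) hy

/-- A function with an `A`-integral `q`-expansion whose reduction is nonzero and lies in `Fk` is a
Gauss unit, and its reduction is the coefficientwise reduction. -/
theorem gaussRed_of_integral (h : ReductionInputsModL A N) (y : LaurentSeries A)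
    (hy : coeffMap A.subtype y ∈ modularFunctionFieldBar N)
    (hyk : coeffMap (IsLocalRing.residue A) y ∈
      modularFunctionFieldFullC (IsLocalRing.ResidueField A) N)
    (hne : coeffMap (IsLocalRing.residue A) y ≠ 0) :
    (gaussRed h).v ⟨coeffMap A.subtype y, hy⟩ = 1 ∧
      (gaussRed h).red ⟨coeffMap A.subtype y, hy⟩ = ⟨coeffMap (IsLocalRing.residue A) y, hyk⟩ := by
  have hmem : (⟨coeffMap A.subtype y, hy⟩ : modularFunctionFieldBar N) ∈ gaussO h := by
    refine ⟨y, 1, one_mem _, ?_⟩
    rw [map_one, mul_one]
  have hred : (gaussRed h).red ⟨coeffMap A.subtype y, hy⟩ =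
      ⟨coeffMap (IsLocalRing.residue A) y, hyk⟩ := by
    rw [gaussRed_red_of_mem h hmem]
    apply Subtype.ext
    rw [coe_gaussRes]
    have hmem' : (⟨coeffMap A.subtype y, hy⟩ : modularFunctionFieldBar N) ∈
        H84.gaussSubring A (IsLocalRing.residue A) N := hmem
    refine (H84.resL_eq (A := A) (π := IsLocalRing.residue A) (N := N) ⟨_, hmem'⟩ (n := y)
      (s := 1) (one_mem _) (by rw [map_one, mul_one])).trans ?_
    rw [map_one, div_one]
  refine ⟨?_, hred⟩
  refine (gaussRed h).v_eq_one_of_red_ne_zero ?_ ?_
  · rw [gaussRed_v]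
    exact ((gaussO h).valuation_le_one_iff _).mpr hmem
  · rw [hred]
    intro h0
    exact hne (congrArg Subtype.val h0)

/-- Compatibility with helper11's integral elements. -/
theorem gaussRed_compat (h : ReductionInputsModL A N) (Y : H11.IntElt A N) :
    (gaussRed h).v Y.gen = 1 ∧ (gaussRed h).red Y.gen = Y.red :=
  gaussRed_of_integral h Y.y Y.mem Y.memk Y.ne

end Fermat.Agent.S18.H61

end
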