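import Fermat.Agent.S18.H61_Assembly

/-!
# S18 assembly (helper61): from the lattice inequality (CECH-GENUS export) to S18

* `gR_le_of_eventually_ell_le` : `l(n B') ≤ l(n B)` for all large `n` (same positive degree)
  gives `gR(F/K) ≤ gR(F'/K')`.
* `genus_le_of_lattice` : the (GR) input of `s18_of_genus_le` from the output shape of
  `H33.exists_forall_finrank_riemannRochSpace_le` for the pole divisors of `j` and `j̄`.
* `s18_of_lattice` : the frozen statement of S18 from that lattice inequality.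
-/

set_option autoImplicit false
set_option linter.style.haveILetI false
set_option synthInstance.maxHeartbeats 400000

noncomputable section

namespace Fermat.Agent.S18.H61

open ModularCurve AlgebraicCurve HahnSeries IntermediateField
open Fermat.Agent.S24 Fermat.Agent.RR Fermat.Agent.RR.H76

section Two

variable {K F : Type*} [Field K] [Field F] [Algebra K F]
variable {K' F' : Type*} [Field K'] [Field F'] [Algebra K' F']

/-- **From lattices to genera**, eventual form. -/
theorem gR_le_of_eventually_ell_le (h : FFBase K F) (h' : FFBase K' F')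
    (B : Divisor K F) (B' : Divisor K' F')
    (hdeg : Divisor.degree B = Divisor.degree B') (hpos : 0 < Divisor.degree B)
    (hle : ∃ n0 : ℕ, ∀ n : ℕ, n0 ≤ n → ell (n • B') ≤ ell (n • B)) : h.gR ≤ h'.gR := by
  obtain ⟨n0, hle⟩ := hle
  obtain ⟨c, hc⟩ := h.exists_riemann_degree_bound
  obtain ⟨c', hc'⟩ := h'.exists_riemann_degree_bound
  obtain ⟨n, hn0, hn⟩ : ∃ n : ℕ, n0 ≤ n ∧ max c c' ≤ (n : ℤ) * Divisor.degree B := by
    refine ⟨max n0 (max c c').toNat, le_max_left _ _, ?_⟩
    have h1 : max c c' ≤ ((max c c').toNat : ℤ) := Int.self_le_toNat _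
    have h2 : ((max c c').toNat : ℤ) ≤ ((max n0 (max c c').toNat : ℕ) : ℤ) := by
      exact_mod_cast le_max_right _ _
    have h3 : (0 : ℤ) ≤ ((max n0 (max c c').toNat : ℕ) : ℤ) := Int.natCast_nonneg _
    nlinarith
  have hdn : Divisor.degree (n • B) = (n : ℤ) * Divisor.degree B := by
    rw [map_nsmul, nsmul_eq_mul]
  have hdn' : Divisor.degree (n • B') = (n : ℤ) * Divisor.degree B := by
    rw [map_nsmul, nsmul_eq_mul, hdeg]
  have e1 := hc (n • B) (by rw [hdn]; exact le_trans (le_max_left _ _) hn)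
  have e2 := hc' (n • B') (by rw [hdn']; exact le_trans (le_max_right _ _) hn)
  have e3 : (ell (n • B') : ℤ) ≤ ell (n • B) := by exact_mod_cast hle n hn0
  rw [hdn] at e1
  rw [hdn'] at e2
  linarith

end Two

variable {N : ℕ} [NeZero N] {A : ValuationSubring (AlgebraicClosure ℚ)}
variable {ℓ : ℕ} [hℓ : Fact ℓ.Prime]

set_option maxHeartbeats 3200000 in
/-- **(GR) from the lattice inequality** for the pole divisors of `j` and `j̄`
(the output shape of `H33.exists_forall_finrank_riemannRochSpace_le`). -/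
theorem genus_le_of_lattice (hℓN : ¬ ℓ ∣ N) (hA : A.LiesOverPrime ℓ)
    (B : Divisor (AlgebraicClosure ℚ) (modularFunctionFieldBar N))
    (hB : ∀ P, B P = max (-P.ord (jBar N)) 0)
    (B' : Divisor (IsLocalRing.ResidueField A)
      (modularFunctionFieldFullC (IsLocalRing.ResidueField A) N))
    (hB' : ∀ Q, B' Q = max (-Q.ord (H16.jk N A)) 0)
    (hle : ∃ n0 : ℕ, ∀ n : ℕ, n0 ≤ n →
      Module.finrank (IsLocalRing.ResidueField A) (riemannRochSpace (n • B')) ≤
        Module.finrank (AlgebraicClosure ℚ) (riemannRochSpace (n • B))) :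
    (H76.ffBase_FN N).gR ≤ (H16.ffBase_Fk N hℓN A hA).gR := by
  haveI : FiniteDimensional Qbar⟮jBar N⟯ (FN N) := H40.finiteDimensional_FN N
  have hdegB : Divisor.degree B = (dedekindPsi N : ℤ) := by
    rw [H43.degree_eq_finrank_of_forall_eq_pole (K := Qbar) (F := FN N) (jBar N)
      (H40.transcendental_jBar N) (H40.transcendental_jBar N) B hB, H95.finrank_eq_dedekindPsi]
  have hdegB' : Divisor.degree B' = (dedekindPsi N : ℤ) :=
    H16.degree_pole_jk N hℓN A hA B' hB'
  refine gR_le_of_eventually_ell_le (H76.ffBase_FN N) (H16.ffBase_Fk N hℓN A hA) B B'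
    (by rw [hdegB, hdegB']) ?_ hle
  rw [hdegB]
  exact_mod_cast H16.dedekindPsi_pos' N

set_option maxHeartbeats 3200000 in
/-- **S18 from the lattice inequality.** -/
theorem s18_of_lattice (hℓN : ¬ ℓ ∣ N) (hA : A.LiesOverPrime ℓ)
    (hlat : ∀ (B : Divisor (AlgebraicClosure ℚ) (modularFunctionFieldBar N))
      (B' : Divisor (IsLocalRing.ResidueField A)
        (modularFunctionFieldFullC (IsLocalRing.ResidueField A) N)),
      (∀ P, B P = max (-P.ord (jBar N)) 0) → (∀ Q, B' Q = max (-Q.ord (H16.jk N A)) 0) →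
      ∃ n0 : ℕ, ∀ n : ℕ, n0 ≤ n →
        Module.finrank (IsLocalRing.ResidueField A) (riemannRochSpace (n • B')) ≤
          Module.finrank (AlgebraicClosure ℚ) (riemannRochSpace (n • B)))
    (h : ReductionInputsModL A N) (m : ℕ) (hm : ¬ ℓ ∣ m) (z : JZero N)
    (hmz : m • z = 0) (hz : reductionModL A N z = 0) : z = 0 := by
  obtain ⟨hvx, hredx⟩ := gaussRed_jBar h
  have hx0 : jBar N ≠ 0 := (gaussRed h).ne_zero_of_v_eq_one hvx
  have hjk0 : H16.jk N A ≠ 0 := by
    rw [← hredx]; exact (gaussRed h).red_ne_zero hvx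
  obtain ⟨B, hB⟩ := exists_poleDivisor (jBar N) ((H76.ffBase_FN N).finOrd _ hx0)
  obtain ⟨B', hB'⟩ := exists_poleDivisor (H16.jk N A)
    ((H16.ffBase_Fk N hℓN A hA).finOrd _ hjk0)
  exact s18_of_genus_le hℓN hA (genus_le_of_lattice hℓN hA B hB B' hB' (hlat B B' hB hB'))
    h m hm z hmz hz

end Fermat.Agent.S18.H61

end
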