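import Fermat.Agent.S18.H61_GenusFinal
import Fermat.Agent.S18.H40_LatticeInstR0

/-!
# S18 assembly (helper61): top-level wiring `INST-7 ∘ ASSEMBLY`

`s18_of_chart` : the frozen statement of S18 from the hypotheses of helper40's
`H40.gR_FN_le_gR_Fk_of_chart` (INST-2 data `O1 …`, (S) `hsat`, (GR) `hGRfin`/`hGRinf`).
-/

set_option autoImplicit false
set_option linter.style.haveILetI false
set_option synthInstance.maxHeartbeats 400000

noncomputable section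

namespace Fermat.Agent.S18.H61

open ModularCurve AlgebraicCurve IntermediateField Polynomial
open Fermat.Agent.S24 Fermat.Agent.RR

variable (N : ℕ) [NeZero N] {ℓ : ℕ} [hℓ : Fact ℓ.Prime] (hℓN : ¬ ℓ ∣ N)
variable (A : ValuationSubring (AlgebraicClosure ℚ)) (hA : A.LiesOverPrime ℓ)

local notation "kA" => IsLocalRing.ResidueField A
local notation "A₁" => H45.A0 A ℓ
local notation "F₁" => modularFunctionFieldFullC (H45.unrCyclo ℓ) N
local notation "j₁" => H16.jK (H45.unrCyclo ℓ) N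

set_option maxHeartbeats 3200000 in
/-- **S18 from the chart data** (`INST-7 ∘ ASSEMBLY`). -/
theorem s18_of_chart
    (O1 : Subring F₁) (hO1 : ∀ y ∈ O1, H40.barEmb N y ∈ H92.stdO N hℓN A hA)
    (hker : ∀ (y : F₁) (hy : y ∈ O1),
      H92.stdRes N hℓN A hA ⟨H40.barEmb N y, hO1 y hy⟩ = 0 ↔
        ∃ z ∈ O1, y = algebraMap A₁ F₁ ((ℓ : ℕ) : A₁) * z)
    (hBO : ∀ b : F₁, IsIntegral (Algebra.adjoin A₁ {j₁}) b → b ∈ O1)
    (hBinfO : ∀ b : F₁, IsIntegral (Algebra.adjoin A₁ {j₁⁻¹}) b → b ∈ O1)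
    (hsat : ∀ y ∈ O1, IsIntegral (Algebra.adjoin A₁ {j₁}) (algebraMap A₁ F₁ ((ℓ : ℕ) : A₁) * y) →
      IsIntegral (Algebra.adjoin A₁ {j₁}) y)
    (hGRfin : ∀ γ : modularFunctionFieldFullC kA N,
      IsIntegral (Algebra.adjoin kA {H16.jK kA N}) γ →
      ∃ (b : F₁) (hb : IsIntegral (Algebra.adjoin A₁ {j₁}) b),
        H92.stdRes N hℓN A hA ⟨H40.barEmb N b, hO1 b (hBO b hb)⟩ = γ)
    (hGRinf : ∀ γ : modularFunctionFieldFullC kA N,
      IsIntegral (Algebra.adjoin kA {(H16.jK kA N)⁻¹}) γ →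
      ∃ (b : F₁) (hb : IsIntegral (Algebra.adjoin A₁ {j₁⁻¹}) b),
        H92.stdRes N hℓN A hA ⟨H40.barEmb N b, hO1 b (hBinfO b hb)⟩ = γ)
    (h : ReductionInputsModL A N) (m : ℕ) (hm : ¬ ℓ ∣ m) (z : JZero N)
    (hmz : m • z = 0) (hz : reductionModL A N z = 0) : z = 0 := by
  haveI := H16.charP_k A hA
  have hGR := H40.gR_FN_le_gR_Fk_of_chart N hℓN A hA O1 hO1 hker hBO hBinfO hsat hGRfin hGRinf
  exact s18_of_genus_le hℓN hA hGR h m hm z hmz hz

end Fermat.Agent.S18.H61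

end
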