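/-
S18 / route Q, item (IV) (helper64): the CONCRETE cusp chart.

`hGRinf_inst` : for every Gauss model `M` of `(A₁, F₁, j₁, jN₁)` (`A₁ = H45.A0 A ℓ`,
`F₁ = modularFunctionFieldFullC (H45.unrCyclo ℓ) N`), the lifting statement `hGRinf` of
`H33.s18_of_gaussModel` follows from `hGRfin`.  ONE application of helper67's
`H67.cuspChart_exists_lift_inf` with `u := j₁⁻¹`, `hV := H42.vertCond_cuspChart`,
`hH := H13.horCond_cuspT ∘ H69.hunr_cusp`, and helper3's `H3.inst_facts`.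
-/
import Fermat.Agent.S18.H33_S18OfGauss
import Fermat.Agent.S18.H67_CuspChartGR
import Fermat.Agent.S18.H42_CuspChartV
import Fermat.Agent.S18.H13_InstCuspHor
import Fermat.Agent.S18.H69_HorInstL1
import Fermat.Agent.S18.H3_ChartFinal

set_option autoImplicit false
set_option synthInstance.maxHeartbeats 400000
set_option linter.unusedSectionVars false
set_option linter.style.haveILetI false

noncomputable section

namespace Fermat.Agent.S18.H64

open AlgebraicCurve ModularCurve IntermediateField Polynomial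
open Fermat.Agent.S24 Fermat.Agent.S28

variable (N : ℕ) [NeZero N] {ℓ : ℕ} [hℓ : Fact ℓ.Prime] (hℓN : ¬ ℓ ∣ N)
variable (A : ValuationSubring (AlgebraicClosure ℚ)) (hA : A.LiesOverPrime ℓ)

local notation "kA" => IsLocalRing.ResidueField A
local notation "L₁" => H45.unrCyclo ℓ
local notation "A₁" => H45.A0 A ℓ
local notation "F₁" => modularFunctionFieldFullC (H45.unrCyclo ℓ) N
local notation "j₁" => H16.jK (H45.unrCyclo ℓ) N
local notation "jN₁" => H16.jNK (H45.unrCyclo ℓ) N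
local notation "FkA" => modularFunctionFieldFullC (IsLocalRing.ResidueField A) N

include hℓN hA in
set_option maxHeartbeats 4000000 in
/-- **(IV): `hGRinf` for the instance, from `hGRfin`.** -/
theorem hGRinf_inst
    (M : H3.GaussModel (R0 := A₁) (k := kA) (F1 := F₁) (Fk := FkA)
      (((ℓ : ℕ) : A₁)) (H45.resA0 A ℓ) j₁ jN₁ (H16.jK kA N) (H16.jNK kA N))
    (hGRfin : ∀ γ : FkA, IsIntegral (Algebra.adjoin kA {H16.jK kA N}) γ →
      ∃ (b : F₁) (hb : IsIntegral (Algebra.adjoin A₁ {j₁}) b), M.res1 ⟨b, M.hBO b hb⟩ = γ) :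
    ∀ γ : FkA, IsIntegral (Algebra.adjoin kA {(H16.jK kA N)⁻¹}) γ →
      ∃ (b : F₁) (hb : IsIntegral (Algebra.adjoin A₁ {j₁⁻¹}) b),
        M.res1 ⟨b, M.hBinfO (H33.jK_ne_zero_kA N A) b hb⟩ = γ := by
  classical
  haveI hdvr : IsDiscreteValuationRing A₁ := H45.isDiscreteValuationRing_A0 hℓ.out hA
  haveI hchar : CharP kA ℓ := H45.charP_residueField hℓ.out hA
  obtain ⟨hϖ, hπϖ, hx1tr, Φ, hΦ, hroot, hgen⟩ := H3.inst_facts N A hA
  haveI hFϖ : Fact (Prime (((ℓ : ℕ) : A₁))) := ⟨hϖ⟩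
  have hj0 : (j₁ : F₁) ≠ 0 := fun h0 => hx1tr (h0 ▸ isAlgebraic_zero)
  have hutr : Transcendental A₁ (j₁⁻¹ : F₁) := fun h => hx1tr (by simpa using h.inv)
  haveI hFu : Fact (Transcendental A₁ (j₁⁻¹ : F₁)) := ⟨hutr⟩
  obtain ⟨ζ, hζ⟩ := H45.exists_isPrimitiveRoot_A0 A (NeZero.ne N) hℓN
  have hNL : ((N : ℕ) : L₁) ≠ 0 := H16.natCast_ne_zero_of_charZero N L₁
  have hNk : ((N : ℕ) : kA) ≠ 0 := by
    rw [Ne, CharP.cast_eq_zero_iff kA ℓ]
    exact hℓN
  have hgenL : L₁⟮j₁⟯⟮jN₁⟯ = ⊤ := H16.adjoin_jNK_eq_top_gen N L₁ hNL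
  have hθalg : IsAlgebraic L₁⟮j₁⟯ jN₁ := (H16.isIntegral_jNK_gen N L₁ hNL).isAlgebraic
  have hju : (j₁ : F₁) * j₁⁻¹ = 1 := mul_inv_cancel₀ hj0
  have hsurj := H45.resA0_surjective (A := A) hℓ.out hA
  have hker := H45.ker_resA0_eq_span (A := A) hℓ.out hA
  -- (VERT)
  obtain ⟨D, hD, -⟩ := H16.exists_modPoly_gen N
  have hsep : (D.Φ.map ((algebraMap kA[X] (RatFunc kA)).comp
      (mapRingHom (Int.castRingHom kA)))).Separable := H16.separable_redModPoly_gen hNk D hD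
  have hrootZ : eval₂ (eval₂RingHom (Int.castRingHom F₁) j₁) jN₁ D.Φ = 0 :=
    H3.eval₂_jNK_eq_zero N L₁ D _ (eval₂_X _ _)
  have hV := H42.vertCond_cuspChart (((ℓ : ℕ) : A₁)) L₁ (j₁⁻¹ : F₁) N hju hgenL hθalg
    (H45.resA0 A ℓ) hker D.monic hsep hrootZ
  -- (HOR)
  have hH := H13.horCond_cuspT (((ℓ : ℕ) : A₁)) L₁ (j₁⁻¹ : F₁) N hju hgenL hθalg
    (fun w g₀ hirr hnd hw => H69.hunr_cusp (ℓ := ℓ) (N := N) w g₀ hirr hnd hw)
  -- the residue side
  have hxb : H16.jK kA N ≠ 0 := H33.jK_ne_zero_kA N A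
  have hxbtr : Transcendental kA (H16.jK kA N) := H16.transcendental_jK kA N
  have hgenk := H67.exists_repr_of_adjoin_eq_top (H16.jK kA N) (H16.jNK kA N)
    (H16.isIntegral_jNK_gen N kA hNk) (H16.adjoin_jNK_eq_top_gen N kA hNk)
  intro γ hγ
  exact H67.cuspChart_exists_lift_inf (((ℓ : ℕ) : A₁)) L₁ M (j₁⁻¹ : F₁) N hju hgenL hθalg hζ
    hsurj hker hV hH hx1tr Φ hΦ hroot hgen hxb hxbtr hgenk hGRfin γ hγ

end Fermat.Agent.S18.H64
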