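/-
S18 (helper64): the frozen statement of S18 from `hGRfin` alone.

`hGRinf` is `H64.hGRinf_inst` (item (IV), the cusp chart), `hsat` is helper3's `H3.hsat_inst`, the
model is helper3's `H3.nonempty_gaussModel_inst`; the wiring is helper33's
`H33.s18_of_gaussModel`.  What remains for S18 is `hGRfin` for ONE Gauss model (Hesse chart for
`ℓ = 2`, Legendre chart for `ℓ` odd).
-/
import Fermat.Agent.S18.H64_GRInfInst

set_option autoImplicit false
set_option synthInstance.maxHeartbeats 400000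
set_option linter.unusedSectionVars false
set_option linter.style.haveILetI false

noncomputable section

namespace Fermat.Agent.S18.H64

open AlgebraicCurve ModularCurve IntermediateField Polynomial
open Fermat.Agent.S24 Fermat.Agent.S28

variable (N : ℕ) [NeZero N] {ℓ : ℕ} [hℓ : Fact ℓ.Prime] (hℓN : ¬ ℓ ∣ N)
variable (A : ValuationSubring (AlgebraicClosure ℚ)) (hA : A.LiesOverPrime ℓ)

local notation "kA" => IsLocalRing.ResidueField A
local notation "L₁" => H45.unrCyclo ℓ
local notation "A₁" => H45.A0 A ℓ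
local notation "F₁" => modularFunctionFieldFullC (H45.unrCyclo ℓ) N
local notation "j₁" => H16.jK (H45.unrCyclo ℓ) N
local notation "jN₁" => H16.jNK (H45.unrCyclo ℓ) N
local notation "FkA" => modularFunctionFieldFullC (IsLocalRing.ResidueField A) N

include hℓN hA in
set_option maxHeartbeats 4000000 in
/-- **S18 from `hGRfin` for one given Gauss model.** -/
theorem s18_of_model_GRfin
    (M : H3.GaussModel (R0 := A₁) (k := kA) (F1 := F₁) (Fk := FkA)
      (((ℓ : ℕ) : A₁)) (H45.resA0 A ℓ) j₁ jN₁ (H16.jK kA N) (H16.jNK kA N))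
    (hGRfin : ∀ γ : FkA, IsIntegral (Algebra.adjoin kA {H16.jK kA N}) γ →
      ∃ (b : F₁) (hb : IsIntegral (Algebra.adjoin A₁ {j₁}) b), M.res1 ⟨b, M.hBO b hb⟩ = γ)
    (h : ReductionInputsModL A N) (m : ℕ) (hm : ¬ ℓ ∣ m) (z : JZero N)
    (hmz : m • z = 0) (hz : reductionModL A N z = 0) : z = 0 :=
  H33.s18_of_gaussModel N hℓN A hA M (H3.hsat_inst N A hA M) hGRfin
    (hGRinf_inst N hℓN A hA M hGRfin) h m hm z hmz hz

include hℓN hA in
set_option maxHeartbeats 4000000 in
/-- **S18 from `hGRfin` for every Gauss model of the instance.** -/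
theorem s18_of_GRfin
    (hfin : ∀ M : H3.GaussModel (R0 := A₁) (k := kA) (F1 := F₁) (Fk := FkA)
      (((ℓ : ℕ) : A₁)) (H45.resA0 A ℓ) j₁ jN₁ (H16.jK kA N) (H16.jNK kA N),
      ∀ γ : FkA, IsIntegral (Algebra.adjoin kA {H16.jK kA N}) γ →
        ∃ (b : F₁) (hb : IsIntegral (Algebra.adjoin A₁ {j₁}) b), M.res1 ⟨b, M.hBO b hb⟩ = γ)
    (h : ReductionInputsModL A N) (m : ℕ) (hm : ¬ ℓ ∣ m) (z : JZero N)
    (hmz : m • z = 0) (hz : reductionModL A N z = 0) : z = 0 := by
  obtain ⟨M⟩ := H3.nonempty_gaussModel_inst N hℓN A hA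
  exact s18_of_model_GRfin N hℓN A hA M (hfin M) h m hm z hmz hz

end Fermat.Agent.S18.H64
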