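/-
S18 project, route Q, package CHART-PKG (helper67): **the special fibre of a chart ring, from
helper1's saturation data**.

For a chart base ring `R` (`A₁[j]`, `A₁[1/j]`, or the LOCAL cusp ring `A₁[u]_(ℓ,u)`), the chart ring
is `B := integralClosure R L`.  Given the Gauss valuation ring `O ⊆ L` with its reduction
`red : O →+* Fk` (kernel `π O`), and helper1's saturation data (`θ`, `Φ` monic with `Φ mod π`
irreducible and separable), this file produces in ONE call everything the consumers ask about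
`B ⧸ (π)`:

* `hker`   : `red b = 0 → π ∣ b` in `B`;
* `hprime` : `(π)` is a prime ideal of `B`
             (hypothesis `hprime` of `H96.isIntegrallyClosed_specialFibre`);
* `hfrac`, `hS` : the remaining hypotheses of `H33.exists_lift_of_isIntegrallyClosed_quotient`;
* `exists_lift_of_isIntegrallyClosed` : hence, when `B ⧸ (π)` is integrally closed, every `γ ∈ Fk`
  integral over the image of `R` is the reduction of an element of `B`
  (`hGRfin` for `R = A₁[j]`; `hlift` of `H67.hloc_of_cover` for the local cusp ring).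
-/
import Mathlib
import Fermat.Agent.S18.H1_Sat

set_option autoImplicit false
set_option linter.unusedSectionVars false

namespace Fermat.Agent.S18.H67

open Polynomial Module

section Basic

variable {R L Fk : Type*} [CommRing R] [Field L] [Algebra R L] [Field Fk]

/-- The reduction map restricted to the chart ring `B = integralClosure R L ⊆ O`. -/
noncomputable def redChart (O : Subring L) (red : O →+* Fk)
    (hOint : ∀ b : L, IsIntegral R b → b ∈ O) : integralClosure R L →+* Fk :=
  red.comp ((integralClosure R L).val.toRingHom.codRestrict O (fun b => hOint b b.2))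

theorem redChart_apply (O : Subring L) (red : O →+* Fk)
    (hOint : ∀ b : L, IsIntegral R b → b ∈ O) (b : integralClosure R L) :
    redChart O red hOint b = red ⟨(b : L), hOint b b.2⟩ := rfl

theorem redChart_algebraMap (O : Subring L) (red : O →+* Fk)
    (hOint : ∀ b : L, IsIntegral R b → b ∈ O) (r : R) :
    redChart O red hOint (algebraMap R (integralClosure R L) r) =
      red ⟨algebraMap R L r, hOint _ isIntegral_algebraMap⟩ := rfl

/-- `hker` from saturation and `(K)`. -/
theorem redChart_eq_zero (π : R) (O : Subring L) (red : O →+* Fk)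
    (hOint : ∀ b : L, IsIntegral R b → b ∈ O)
    (hK : ∀ (y : L) (hy : y ∈ O), red ⟨y, hy⟩ = 0 → ∃ z ∈ O, y = algebraMap R L π * z)
    (hsat : ∀ y ∈ O, IsIntegral R (algebraMap R L π * y) → IsIntegral R y)
    (b : integralClosure R L) (hb : redChart O red hOint b = 0) :
    ∃ c : integralClosure R L, b = algebraMap R (integralClosure R L) π * c := by
  obtain ⟨z, hzO, hz⟩ := hK (b : L) (hOint b b.2) hb
  have hzint : IsIntegral R z := hsat z hzO (hz ▸ b.2)
  exact ⟨⟨z, hzint⟩, Subtype.ext hz⟩

/-- `hprime` from saturation and `(K)`. -/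
theorem span_isPrime_of_sat (π : R) (O : Subring L) (red : O →+* Fk)
    (hOint : ∀ b : L, IsIntegral R b → b ∈ O)
    (hπ : ∀ h : algebraMap R L π ∈ O, red ⟨algebraMap R L π, h⟩ = 0)
    (hK : ∀ (y : L) (hy : y ∈ O), red ⟨y, hy⟩ = 0 → ∃ z ∈ O, y = algebraMap R L π * z)
    (hsat : ∀ y ∈ O, IsIntegral R (algebraMap R L π * y) → IsIntegral R y) :
    (Ideal.span {algebraMap R (integralClosure R L) π}).IsPrime := by
  have hker : RingHom.ker (redChart O red hOint) =
      Ideal.span {algebraMap R (integralClosure R L) π} := by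
    apply le_antisymm
    · intro b hb
      obtain ⟨c, rfl⟩ := redChart_eq_zero π O red hOint hK hsat b hb
      exact Ideal.mul_mem_right _ _ (Ideal.subset_span rfl)
    · rw [Ideal.span_le, Set.singleton_subset_iff]
      change redChart O red hOint _ = 0
      rw [redChart_algebraMap]
      exact hπ _
  rw [← hker]
  exact RingHom.ker_isPrime _

end Basic

section Pkg

variable {R K L : Type*} [CommRing R] [IsDomain R] [IsIntegrallyClosed R] [Field K] [Algebra R K]
  [IsFractionRing R K] [Field L] [Algebra K L] [Algebra R L] [IsScalarTower R K L]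
  [FiniteDimensional K L] [Algebra.IsSeparable K L]

/-- **(CHART-PKG)**: the special fibre of the chart ring `B = integralClosure R L` from helper1's
saturation data and `(K)`.  Binder block = that of `H1.isIntegral_of_mem_of_isIntegral_smul_of_red`
plus `hOint`, `hK`, `hκ`, `hgenk`. -/
theorem chart_package (θ : L) (hgen : IntermediateField.adjoin K {θ} = ⊤)
    {Φ : R[X]} (hΦ : Φ.Monic) (hroot : aeval θ Φ = 0) (hdegΦ : Φ.natDegree = finrank K L)
    {π : R} (hπ : Prime π) (O : Subring L) (hRO : ∀ r : R, algebraMap R L r ∈ O) (hθO : θ ∈ O)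
    {κ Fk : Type*} [Field κ] [Field Fk] [Algebra κ Fk] (φ : R →+* κ) (red : O →+* Fk)
    (hcomp : ∀ r : R, red ⟨algebraMap R L r, hRO r⟩ = algebraMap κ Fk (φ r))
    (hφπ : φ π = 0) (hkerφ : ∀ r, φ r = 0 → π ∣ r)
    (hirr : Irreducible (Φ.map φ)) (hsep : (Φ.map φ).Separable)
    (hOint : ∀ b : L, IsIntegral R b → b ∈ O)
    (hK : ∀ (y : L) (hy : y ∈ O), red ⟨y, hy⟩ = 0 → ∃ z ∈ O, y = algebraMap R L π * z)
    (hκ : ∀ c : κ, ∃ a b : R, φ b ≠ 0 ∧ c * φ b = φ a)
    (hgenk : ∀ γ : Fk, ∃ p : κ[X], γ = aeval (red ⟨θ, hθO⟩) p) :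
    (∀ b : integralClosure R L, redChart O red hOint b = 0 →
        ∃ c : integralClosure R L, b = algebraMap R (integralClosure R L) π * c) ∧
    (Ideal.span {algebraMap R (integralClosure R L) π}).IsPrime ∧
    redChart O red hOint (algebraMap R (integralClosure R L) π) = 0 ∧
    (∀ γ : Fk, ∃ a b : integralClosure R L,
        redChart O red hOint b ≠ 0 ∧ γ * redChart O red hOint b = redChart O red hOint a) ∧
    (∀ r : R, redChart O red hOint (algebraMap R (integralClosure R L) r) =
        algebraMap κ Fk (φ r)) := by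
  classical
  have hsat : ∀ y ∈ O, IsIntegral R (algebraMap R L π * y) → IsIntegral R y := by
    intro y hy hπy
    have h1 : IsIntegral R (π • y) := by rw [Algebra.smul_def]; exact hπy
    exact H1.isIntegral_of_mem_of_isIntegral_smul_of_red (K := K) θ hgen hΦ hroot hdegΦ hπ O hRO
      hθO φ red hcomp hφπ hkerφ hirr hsep hy h1
  have hπred : ∀ h : algebraMap R L π ∈ O, red ⟨algebraMap R L π, h⟩ = 0 := by
    intro h
    have := hcomp π
    rw [hφπ, map_zero] at this
    exact this
  have hredR : ∀ r : R, redChart O red hOint (algebraMap R (integralClosure R L) r) =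
      algebraMap κ Fk (φ r) := fun r => by
    rw [redChart_algebraMap]
    exact hcomp r
  refine ⟨redChart_eq_zero π O red hOint hK hsat, span_isPrime_of_sat π O red hOint hπred hK hsat,
    ?_, ?_, hredR⟩
  · rw [hredR, hφπ, map_zero]
  · -- `hfrac`
    have hθint : IsIntegral R θ := ⟨Φ, hΦ, hroot⟩
    set θB : integralClosure R L := ⟨θ, hθint⟩ with hθB
    have hredθ : redChart O red hOint θB = red ⟨θ, hθO⟩ := rfl
    -- every `aeval θb p`, `p : κ[X]`, is a fraction
    have key : ∀ p : κ[X], ∃ a b : integralClosure R L, redChart O red hOint b ≠ 0 ∧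
        aeval (red ⟨θ, hθO⟩) p * redChart O red hOint b = redChart O red hOint a := by
      intro p
      induction p using Polynomial.induction_on' with
      | add p q hp hq =>
        obtain ⟨a₁, b₁, hb₁, h₁⟩ := hp
        obtain ⟨a₂, b₂, hb₂, h₂⟩ := hq
        refine ⟨a₁ * b₂ + a₂ * b₁, b₁ * b₂, ?_, ?_⟩
        · rw [map_mul]; exact mul_ne_zero hb₁ hb₂
        · rw [map_add, map_mul, map_add, map_mul, map_mul, ← h₁, ← h₂]
          ring
      | monomial n c =>
        obtain ⟨a, b, hb, hab⟩ := hκ c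
        refine ⟨algebraMap R _ a * θB ^ n, algebraMap R _ b, ?_, ?_⟩
        · rw [hredR]
          exact fun h => hb ((map_eq_zero_iff _ (algebraMap κ Fk).injective).mp h)
        · rw [aeval_monomial, map_mul, map_pow, hredR, hredR, hredθ, ← hab, map_mul]
          ring
    intro γ
    obtain ⟨p, rfl⟩ := hgenk γ
    exact key p

/-- **Lifting from the chart package**: if moreover `B ⧸ (π)` is integrally closed, every element of
`Fk` integral over the image of `R` is the reduction of an element of `B`. -/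
theorem exists_lift_of_isIntegrallyClosed (θ : L) (hgen : IntermediateField.adjoin K {θ} = ⊤)
    {Φ : R[X]} (hΦ : Φ.Monic) (hroot : aeval θ Φ = 0) (hdegΦ : Φ.natDegree = finrank K L)
    {π : R} (hπ : Prime π) (O : Subring L) (hRO : ∀ r : R, algebraMap R L r ∈ O) (hθO : θ ∈ O)
    {κ Fk : Type*} [Field κ] [Field Fk] [Algebra κ Fk] (φ : R →+* κ) (red : O →+* Fk)
    (hcomp : ∀ r : R, red ⟨algebraMap R L r, hRO r⟩ = algebraMap κ Fk (φ r))
    (hφπ : φ π = 0) (hkerφ : ∀ r, φ r = 0 → π ∣ r)
    (hirr : Irreducible (Φ.map φ)) (hsep : (Φ.map φ).Separable)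
    (hOint : ∀ b : L, IsIntegral R b → b ∈ O)
    (hK : ∀ (y : L) (hy : y ∈ O), red ⟨y, hy⟩ = 0 → ∃ z ∈ O, y = algebraMap R L π * z)
    (hκ : ∀ c : κ, ∃ a b : R, φ b ≠ 0 ∧ c * φ b = φ a)
    (hgenk : ∀ γ : Fk, ∃ p : κ[X], γ = aeval (red ⟨θ, hθO⟩) p)
    [hIC : IsIntegrallyClosed
      (integralClosure R L ⧸ Ideal.span {algebraMap R (integralClosure R L) π})]
    (S : Subring Fk) (hS : ∀ s ∈ S, ∃ r : R, algebraMap κ Fk (φ r) = s)
    {γ : Fk} (hγ : IsIntegral S γ) :
    ∃ (b : L) (hb : IsIntegral R b), red ⟨b, hOint b hb⟩ = γ := by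
  classical
  obtain ⟨hker, -, hπ0, hfrac, hredR⟩ := chart_package (K := K) θ hgen hΦ hroot hdegΦ hπ O hRO hθO
    φ red hcomp hφπ hkerφ hirr hsep hOint hK hκ hgenk
  -- the adapter (= `H33.exists_lift_of_isIntegrallyClosed_quotient`, inlined to keep imports small)
  set B := integralClosure R L with hB
  set ϖ : B := algebraMap R B π with hϖ
  set rd : B →+* Fk := redChart O red hOint with hrd
  let ψ : B ⧸ Ideal.span {ϖ} →+* Fk :=
    Ideal.Quotient.lift (Ideal.span {ϖ}) rd (fun a ha => by
      obtain ⟨c, rfl⟩ := Ideal.mem_span_singleton'.mp ha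
      rw [map_mul, hπ0, mul_zero])
  have hψmk : ∀ b : B, ψ (Ideal.Quotient.mk _ b) = rd b := fun b => rfl
  have hψinj : Function.Injective ψ := by
    rw [injective_iff_map_eq_zero]
    intro x hx
    obtain ⟨b, rfl⟩ := Ideal.Quotient.mk_surjective x
    rw [hψmk] at hx
    obtain ⟨c, rfl⟩ := hker b hx
    rw [Ideal.Quotient.eq_zero_iff_mem]
    exact Ideal.mem_span_singleton'.mpr ⟨c, mul_comm _ _⟩
  let _ : Algebra (B ⧸ Ideal.span {ϖ}) Fk := ψ.toAlgebra
  have halg : ∀ x : B ⧸ Ideal.span {ϖ}, algebraMap (B ⧸ Ideal.span {ϖ}) Fk x = ψ x := fun _ => rfl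
  have : FaithfulSMul (B ⧸ Ideal.span {ϖ}) Fk :=
    (faithfulSMul_iff_algebraMap_injective _ _).mpr hψinj
  have : IsFractionRing (B ⧸ Ideal.span {ϖ}) Fk := by
    apply IsFractionRing.of_field
    intro z
    obtain ⟨a, b, hb, hab⟩ := hfrac z
    refine ⟨Ideal.Quotient.mk _ a, Ideal.Quotient.mk _ b, ?_⟩
    rw [halg, halg, hψmk, hψmk, eq_div_iff hb, hab]
  have hint : IsIntegral (B ⧸ Ideal.span {ϖ}) γ := by
    obtain ⟨p, hpm, hp⟩ := hγ
    set P : Fk[X] := p.map (algebraMap S Fk) with hP
    have hPm : P.Monic := hpm.map _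
    have hlifts : P ∈ Polynomial.lifts (algebraMap (B ⧸ Ideal.span {ϖ}) Fk) := by
      rw [Polynomial.lifts_iff_coeff_lifts]
      intro i
      rw [hP, Polynomial.coeff_map]
      obtain ⟨r, hr⟩ := hS _ (p.coeff i).2
      exact ⟨Ideal.Quotient.mk _ (algebraMap R B r), by rw [halg, hψmk, hrd, hredR, hr]; rfl⟩
    obtain ⟨q, hq, -, hqm⟩ := Polynomial.lifts_and_natDegree_eq_and_monic hlifts hPm
    refine ⟨q, hqm, ?_⟩
    rw [← Polynomial.eval_map, hq, hP, Polynomial.eval_map]
    exact hp
  obtain ⟨y, hy⟩ := (IsIntegrallyClosed.isIntegral_iff (R := B ⧸ Ideal.span {ϖ}) (K := Fk)).mp hint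
  obtain ⟨b, rfl⟩ := Ideal.Quotient.mk_surjective y
  exact ⟨(b : L), b.2, by rw [← hy, halg, hψmk]; rfl⟩

end Pkg

end Fermat.Agent.S18.H67
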