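/-
S18 project, route Q (helper67): `scaleRoots` by a nonzero constant preserves irreducibility and
separability over a field.  Used for the cusp chart: `cuspPoly Φ e` reduces to
`scaleRoots (Φ_N(X, 1/ū) mod ℓ) (ū ^ e)` over `k(ū)`.
-/
import Mathlib

set_option autoImplicit false

namespace Fermat.Agent.S18.H67

open Polynomial

variable {κ : Type*} [Field κ]

theorem scaleRoots_scaleRoots_inv (q : κ[X]) {s : κ} (hs : s ≠ 0) :
    (q.scaleRoots s).scaleRoots s⁻¹ = q := by
  rw [← scaleRoots_mul, mul_inv_cancel₀ hs, scaleRoots_one]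

theorem isUnit_scaleRoots_iff (q : κ[X]) (s : κ) : IsUnit (q.scaleRoots s) ↔ IsUnit q := by
  rw [Polynomial.isUnit_iff_degree_eq_zero, Polynomial.isUnit_iff_degree_eq_zero,
    degree_scaleRoots]

/-- Scaling the roots by a nonzero constant preserves irreducibility. -/
theorem irreducible_scaleRoots {p : κ[X]} (hp : Irreducible p) {s : κ} (hs : s ≠ 0) :
    Irreducible (p.scaleRoots s) := by
  rw [irreducible_iff]
  refine ⟨fun hu => hp.not_isUnit ((isUnit_scaleRoots_iff p s).mp hu), fun a b hab => ?_⟩
  have h : p = a.scaleRoots s⁻¹ * b.scaleRoots s⁻¹ := by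
    rw [← mul_scaleRoots_of_noZeroDivisors, ← hab, scaleRoots_scaleRoots_inv p hs]
  rcases hp.isUnit_or_isUnit h with h1 | h1
  · exact Or.inl ((isUnit_scaleRoots_iff a s⁻¹).mp h1)
  · exact Or.inr ((isUnit_scaleRoots_iff b s⁻¹).mp h1)

theorem irreducible_scaleRoots_iff {p : κ[X]} {s : κ} (hs : s ≠ 0) :
    Irreducible (p.scaleRoots s) ↔ Irreducible p :=
  ⟨fun h => by
    have := irreducible_scaleRoots h (inv_ne_zero hs)
    rwa [scaleRoots_scaleRoots_inv p hs] at this, fun h => irreducible_scaleRoots h hs⟩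

/-- Scaling the roots by a nonzero constant preserves separability. -/
theorem separable_scaleRoots {p : κ[X]} (hp : p.Separable) {s : κ} (hs : s ≠ 0) :
    (p.scaleRoots s).Separable := by
  classical
  -- pass to an algebraic closure, where separable = squarefree = roots nodup
  by_cases hp0 : p = 0
  · subst hp0
    simpa using hp
  have hsp0 : p.scaleRoots s ≠ 0 := scaleRoots_ne_zero hp0 s
  let Ω := AlgebraicClosure κ
  have hinj : Function.Injective (algebraMap κ Ω) := (algebraMap κ Ω).injective
  rw [← Polynomial.separable_map (algebraMap κ Ω)] at hp ⊢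
  have hlc : (algebraMap κ Ω) p.leadingCoeff ≠ 0 := by
    rw [Ne, map_eq_zero_iff _ hinj]
    exact leadingCoeff_ne_zero.mpr hp0
  rw [map_scaleRoots p s (algebraMap κ Ω) hlc]
  set P := p.map (algebraMap κ Ω) with hP
  set t := algebraMap κ Ω s with ht
  have ht0 : t ≠ 0 := by rw [ht, Ne, map_eq_zero_iff _ hinj]; exact hs
  have hP0 : P ≠ 0 := by rw [hP, Ne, Polynomial.map_eq_zero]; exact hp0
  have hsplit : P.Splits := IsAlgClosed.splits P
  have hsplit' : (P.scaleRoots t).Splits := hsplit.scaleRoots t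
  rw [← Polynomial.nodup_roots_iff_of_splits hP0 hsplit] at hp
  rw [← Polynomial.nodup_roots_iff_of_splits (scaleRoots_ne_zero hP0 t) hsplit',
    roots_scaleRoots P ht0.isUnit]
  exact (Multiset.nodup_map_iff_of_injective (mul_right_injective₀ ht0)).mpr hp

end Fermat.Agent.S18.H67
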