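import Mathlib

/-!
helper69 — S18 / INST-2 input `hgen`: clearing denominators in `L(x)(θ)` down to a domain `R0`
with fraction field `L`.

If `F1 = L(x)(θ)` with `θ` algebraic over `L(x)`, every `y ∈ F1` is `g(x, θ) / s(x)` with
`s ∈ R0[X]`, `g ∈ R0[X][Y]`, `s(x) ≠ 0`: the hypothesis `hgen` of `H3.nonempty_gaussModel`.
-/

set_option autoImplicit false

noncomputable section

namespace Fermat.Agent.S18.H69

open Polynomial IntermediateField

variable {R0 L F1 : Type*} [CommRing R0] [IsDomain R0] [Field L] [Algebra R0 L]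
  [IsFractionRing R0 L] [Field F1] [Algebra L F1] [Algebra R0 F1] [IsScalarTower R0 L F1]

/-- a polynomial over `L`, evaluated at `x`, is an `R0`-polynomial value up to a nonzero
constant of `R0`. -/
theorem exists_smul_aeval_eq (x : F1) (a : L[X]) :
    ∃ (d : R0) (a' : R0[X]), d ≠ 0 ∧ algebraMap R0 F1 d * aeval x a = aeval x a' := by
  obtain ⟨b, hb, hb'⟩ := IsLocalization.integerNormalization_spec (nonZeroDivisors R0) a
  refine ⟨b, IsLocalization.integerNormalization (nonZeroDivisors R0) a,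
    nonZeroDivisors.ne_zero hb, ?_⟩
  have h1 := congrArg (aeval x) hb'
  rw [aeval_map_algebraMap] at h1
  rw [h1, Algebra.smul_def, Polynomial.algebraMap_apply, map_mul, aeval_C,
    ← IsScalarTower.algebraMap_apply]

/-- every element of `L⟮x⟯` is a fraction of `R0`-polynomial expressions in `x`. -/
theorem exists_aeval_mul_eq_of_mem_adjoin_simple_of_isFractionRing (x : F1) {c : F1}
    (hc : c ∈ L⟮x⟯) :
    ∃ s r : R0[X], aeval x s ≠ 0 ∧ aeval x s * c = aeval x r := by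
  have hinj : Function.Injective (algebraMap R0 F1) := by
    rw [IsScalarTower.algebraMap_eq R0 L F1]
    exact (algebraMap L F1).injective.comp (IsFractionRing.injective R0 L)
  obtain ⟨a, b, rfl⟩ := (IntermediateField.mem_adjoin_simple_iff L c).mp hc
  by_cases hb0 : aeval x b = 0
  · exact ⟨1, 0, by simp, by simp [hb0]⟩
  · obtain ⟨da, a', hda, ha⟩ := exists_smul_aeval_eq (R0 := R0) x a
    obtain ⟨db, b', hdb, hb⟩ := exists_smul_aeval_eq (R0 := R0) x b
    have hda' : algebraMap R0 F1 da ≠ 0 := fun h => hda (hinj (by rw [h, map_zero]))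
    have hdb' : algebraMap R0 F1 db ≠ 0 := fun h => hdb (hinj (by rw [h, map_zero]))
    refine ⟨C da * b', C db * a', ?_, ?_⟩
    · rw [map_mul, aeval_C, ← hb]
      exact mul_ne_zero hda' (mul_ne_zero hdb' hb0)
    · rw [map_mul, map_mul, aeval_C, aeval_C, ← ha, ← hb]
      field_simp

/-- **Clearing denominators over a domain**: `hgen` of `H3.nonempty_gaussModel`. -/
theorem exists_repr_of_adjoin_eq_top_of_isFractionRing (x θ : F1) (hθ : IsIntegral L⟮x⟯ θ)
    (htop : L⟮x⟯⟮θ⟯ = ⊤) (y : F1) :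
    ∃ s : R0[X], aeval x s ≠ 0 ∧ ∃ g : R0[X][X],
      aeval x s * y = g.eval₂ ((aeval x : R0[X] →ₐ[R0] F1) : R0[X] →+* F1) θ := by
  have key : ∀ P : (L⟮x⟯)[X], ∃ s : R0[X], aeval x s ≠ 0 ∧ ∃ g : R0[X][X],
      aeval x s * aeval θ P = g.eval₂ ((aeval x : R0[X] →ₐ[R0] F1) : R0[X] →+* F1) θ := by
    intro P
    induction P using Polynomial.induction_on' with
    | add p q hp hq =>
      obtain ⟨s₁, hs₁, g₁, h₁⟩ := hp
      obtain ⟨s₂, hs₂, g₂, h₂⟩ := hq
      refine ⟨s₁ * s₂, by rw [map_mul]; exact mul_ne_zero hs₁ hs₂, C s₂ * g₁ + C s₁ * g₂, ?_⟩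
      rw [eval₂_add, eval₂_mul, eval₂_mul, eval₂_C, eval₂_C, ← h₁, ← h₂, map_add, map_mul]
      simp only [RingHom.coe_coe]
      ring
    | monomial n c =>
      obtain ⟨s, r, hs, hsr⟩ :=
        exists_aeval_mul_eq_of_mem_adjoin_simple_of_isFractionRing (R0 := R0) (L := L) x c.2
      refine ⟨s, hs, monomial n r, ?_⟩
      rw [aeval_monomial, eval₂_monomial, IntermediateField.algebraMap_apply, ← mul_assoc, hsr]
      rfl
  have hy : y ∈ L⟮x⟯⟮θ⟯ := by rw [htop]; trivial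
  have hy' : y ∈ (L⟮x⟯⟮θ⟯).toSubalgebra := hy
  rw [IntermediateField.adjoin_simple_toSubalgebra_of_isAlgebraic hθ.isAlgebraic,
    Algebra.adjoin_singleton_eq_range_aeval] at hy'
  obtain ⟨P, rfl⟩ := hy'
  exact key P

/-- the same with `s ≠ 0` (the literal shape of `hgen`). -/
theorem exists_repr_of_adjoin_eq_top_of_isFractionRing' (x θ : F1) (hθ : IsIntegral L⟮x⟯ θ)
    (htop : L⟮x⟯⟮θ⟯ = ⊤) (y : F1) :
    ∃ s : R0[X], s ≠ 0 ∧ ∃ g : R0[X][X],
      aeval x s * y = g.eval₂ ((aeval x : R0[X] →ₐ[R0] F1) : R0[X] →+* F1) θ := by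
  obtain ⟨s, hs, g, hg⟩ := exists_repr_of_adjoin_eq_top_of_isFractionRing (R0 := R0) (L := L)
    x θ hθ htop y
  exact ⟨s, fun h => hs (by rw [h, map_zero]), g, hg⟩

end Fermat.Agent.S18.H69
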