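import Mathlib
import Fermat.Agent.S18.H69_ClearDenom
import Fermat.Agent.S18.H16_FKGen
import Fermat.Agent.S18.H45_A0Instances

/-!
helper69 — S18 / INST-2 input `hgen` for the concrete model
`(A₁, L₁, F₁, j₁, jN₁) = (H45.A0 A ℓ, H45.unrCyclo ℓ, modularFunctionFieldFullC L₁ N, jK, jNK)`.
-/

set_option autoImplicit false
set_option synthInstance.maxHeartbeats 400000
set_option maxHeartbeats 2000000

noncomputable section

namespace Fermat.Agent.S18.H69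

open Polynomial IntermediateField ModularCurve
open Fermat.Agent.S24

variable (N : ℕ) [NeZero N] (ℓ : ℕ) (A : ValuationSubring Qbar)

/-- `hgen` of `H3.nonempty_gaussModel` for the concrete model, with `s(j₁) ≠ 0`. -/
theorem hgen_model (y : modularFunctionFieldFullC ↥(H45.unrCyclo ℓ) N) :
    ∃ s : (↥(H45.A0 A ℓ))[X], aeval (H16.jK ↥(H45.unrCyclo ℓ) N) s ≠ 0 ∧
      ∃ g : (↥(H45.A0 A ℓ))[X][X],
        aeval (H16.jK ↥(H45.unrCyclo ℓ) N) s * y =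
          g.eval₂ ((aeval (H16.jK ↥(H45.unrCyclo ℓ) N) :
            (↥(H45.A0 A ℓ))[X] →ₐ[↥(H45.A0 A ℓ)] modularFunctionFieldFullC ↥(H45.unrCyclo ℓ) N) :
              (↥(H45.A0 A ℓ))[X] →+* modularFunctionFieldFullC ↥(H45.unrCyclo ℓ) N)
            (H16.jNK ↥(H45.unrCyclo ℓ) N) := by
  have hNK : ((N : ℕ) : ↥(H45.unrCyclo ℓ)) ≠ 0 :=
    H16.natCast_ne_zero_of_charZero N ↥(H45.unrCyclo ℓ)
  exact exists_repr_of_adjoin_eq_top_of_isFractionRing (R0 := ↥(H45.A0 A ℓ))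
    (L := ↥(H45.unrCyclo ℓ)) _ _ (H16.isIntegral_jNK_gen N _ hNK)
    (H16.adjoin_jNK_eq_top_gen N _ hNK) y

/-- the literal `hgen` shape (`s ≠ 0`). -/
theorem hgen_model' (y : modularFunctionFieldFullC ↥(H45.unrCyclo ℓ) N) :
    ∃ s : (↥(H45.A0 A ℓ))[X], s ≠ 0 ∧
      ∃ g : (↥(H45.A0 A ℓ))[X][X],
        aeval (H16.jK ↥(H45.unrCyclo ℓ) N) s * y =
          g.eval₂ ((aeval (H16.jK ↥(H45.unrCyclo ℓ) N) :
            (↥(H45.A0 A ℓ))[X] →ₐ[↥(H45.A0 A ℓ)] modularFunctionFieldFullC ↥(H45.unrCyclo ℓ) N) :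
              (↥(H45.A0 A ℓ))[X] →+* modularFunctionFieldFullC ↥(H45.unrCyclo ℓ) N)
            (H16.jNK ↥(H45.unrCyclo ℓ) N) := by
  obtain ⟨s, hs, g, hg⟩ := hgen_model N ℓ A y
  exact ⟨s, fun h => hs (by rw [h, map_zero]), g, hg⟩

end Fermat.Agent.S18.H69
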