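import Mathlib

/-!
# S18 / route Q: the chart ring `A₁[j]` as a type synonym of `A₁[X]`

`H96.isIntegrallyClosed_specialFibre` needs `[Algebra R0 R']` with `R0 = A₁[j]`, `R' = A₁[X][1/D]`
and `j ↦ J(X)` (e.g. `hesJ`).  Taking `R0 := A₁[X]` literally clashes with the localisation
algebra structure `A₁[X] → A₁[X][1/D]` (`X ↦ X`).  `ChartRing A₁` is a copy of `A₁[X]` carrying only
its ring structure and `A₁`-algebra structure; its algebra structures over other rings are chosen
by the user through `ChartRing.algebraOfCoord`.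
-/

set_option autoImplicit false
set_option linter.unusedSectionVars false

open Polynomial

namespace Fermat.Agent.S18.H70

/-- A copy of `A₁[X]`: the coordinate ring `A₁[j]` of the `j`-line. -/
def ChartRing (A₁ : Type*) [CommRing A₁] : Type _ := A₁[X]

namespace ChartRing

variable (A₁ : Type*) [CommRing A₁]

noncomputable instance : CommRing (ChartRing A₁) := inferInstanceAs (CommRing A₁[X])

noncomputable instance : Algebra A₁ (ChartRing A₁) := inferInstanceAs (Algebra A₁ A₁[X])

instance [IsDomain A₁] : IsDomain (ChartRing A₁) := inferInstanceAs (IsDomain A₁[X])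

instance [IsNoetherianRing A₁] : IsNoetherianRing (ChartRing A₁) :=
  inferInstanceAs (IsNoetherianRing A₁[X])

instance [IsDomain A₁] [UniqueFactorizationMonoid A₁] :
    UniqueFactorizationMonoid (ChartRing A₁) :=
  inferInstanceAs (UniqueFactorizationMonoid A₁[X])

instance [IsDomain A₁] [UniqueFactorizationMonoid A₁] : IsIntegrallyClosed (ChartRing A₁) :=
  inferInstance

/-- The identification with the polynomial ring. -/
noncomputable def toPoly : ChartRing A₁ ≃ₐ[A₁] A₁[X] := AlgEquiv.refl

/-- The coordinate `j`. -/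
noncomputable def coord : ChartRing A₁ := (toPoly A₁).symm X

variable {A₁} {E : Type*} [CommRing E] [Algebra A₁ E]

/-- Evaluation at `x : E`. -/
noncomputable def evalAt (x : E) : ChartRing A₁ →ₐ[A₁] E := (aeval x).comp (toPoly A₁).toAlgHom

@[simp] theorem evalAt_coord (x : E) : evalAt (A₁ := A₁) x (coord A₁) = x := by
  simp [evalAt, coord]

theorem evalAt_apply (x : E) (p : ChartRing A₁) : evalAt x p = aeval x (toPoly A₁ p) := rfl

/-- Two `A₁`-algebra homs out of the chart ring agreeing on the coordinate are equal. -/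
theorem algHom_ext {φ ψ : ChartRing A₁ →ₐ[A₁] E} (h : φ (coord A₁) = ψ (coord A₁)) : φ = ψ := by
  have : φ.comp (toPoly A₁).symm.toAlgHom = ψ.comp (toPoly A₁).symm.toAlgHom := by
    apply Polynomial.algHom_ext
    exact h
  ext p
  have := congrArg (fun χ : A₁[X] →ₐ[A₁] E => χ (toPoly A₁ p)) this
  simpa using this

/-- The `ChartRing A₁`-algebra structure on `E` with `j ↦ x` (install with `letI`). -/
@[reducible] noncomputable def algebraOfCoord (x : E) : Algebra (ChartRing A₁) E :=
  (evalAt x).toRingHom.toAlgebra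

theorem algebraMap_algebraOfCoord (x : E) (p : ChartRing A₁) :
    letI := algebraOfCoord (A₁ := A₁) x
    algebraMap (ChartRing A₁) E p = evalAt x p := rfl

theorem algebraMap_coord (x : E) :
    letI := algebraOfCoord (A₁ := A₁) x
    algebraMap (ChartRing A₁) E (coord A₁) = x := by
  letI := algebraOfCoord (A₁ := A₁) x
  rw [algebraMap_algebraOfCoord, evalAt_coord]

theorem isScalarTower_algebraOfCoord (x : E) :
    letI := algebraOfCoord (A₁ := A₁) x
    IsScalarTower A₁ (ChartRing A₁) E := by
  letI := algebraOfCoord (A₁ := A₁) x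
  exact IsScalarTower.of_algebraMap_eq fun a => ((evalAt (A₁ := A₁) x).commutes a).symm

/-- For ANY compatible algebra structure: `algebraMap = evalAt (image of the coordinate)`. -/
theorem algebraMap_eq_evalAt [Algebra (ChartRing A₁) E] [IsScalarTower A₁ (ChartRing A₁) E]
    (p : ChartRing A₁) :
    algebraMap (ChartRing A₁) E p = evalAt (algebraMap (ChartRing A₁) E (coord A₁)) p := by
  have : IsScalarTower.toAlgHom A₁ (ChartRing A₁) E =
      evalAt (algebraMap (ChartRing A₁) E (coord A₁)) := by
    apply algHom_ext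
    rw [evalAt_coord]
    rfl
  exact congrArg (fun φ : ChartRing A₁ →ₐ[A₁] E => φ p) this

/-- The image of the chart ring is `A₁[x]`. -/
theorem range_evalAt (x : E) : (evalAt (A₁ := A₁) x).range = Algebra.adjoin A₁ {x} := by
  rw [Algebra.adjoin_singleton_eq_range_aeval]
  ext y
  constructor
  · rintro ⟨p, rfl⟩
    exact ⟨toPoly A₁ p, rfl⟩
  · rintro ⟨p, rfl⟩
    exact ⟨(toPoly A₁).symm p, by simp [evalAt_apply]⟩

/-- Injectivity for a transcendental coordinate. -/
theorem evalAt_injective {x : E} (hx : Transcendental A₁ x) :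
    Function.Injective (evalAt (A₁ := A₁) x) := by
  intro p q hpq
  rw [evalAt_apply, evalAt_apply] at hpq
  exact (toPoly A₁).injective ((transcendental_iff_injective.mp hx) hpq)

/-- Integral over the chart ring (acting through `x`) ⟺ integral over `A₁[x]`. -/
theorem isIntegral_iff [Algebra (ChartRing A₁) E] [IsScalarTower A₁ (ChartRing A₁) E]
    {x : E} (hx : algebraMap (ChartRing A₁) E (coord A₁) = x) (y : E) :
    IsIntegral (ChartRing A₁) y ↔ IsIntegral (Algebra.adjoin A₁ {x}) y := by
  have hmem : ∀ p : ChartRing A₁, algebraMap (ChartRing A₁) E p ∈ Algebra.adjoin A₁ {x} := by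
    intro p
    rw [algebraMap_eq_evalAt, hx, ← range_evalAt]
    exact ⟨p, rfl⟩
  constructor
  · rintro ⟨q, hq, hqy⟩
    refine ⟨q.map ((algebraMap (ChartRing A₁) E).codRestrict
      (Algebra.adjoin A₁ {x}).toSubring hmem), hq.map _, ?_⟩
    rw [← hqy, Polynomial.eval₂_map]
    rfl
  · rintro ⟨q, hq, hqy⟩
    have hsurj : ∀ t : Algebra.adjoin A₁ {x}, ∃ p : ChartRing A₁,
        algebraMap (ChartRing A₁) E p = (t : E) := by
      intro t
      have h2 : (t : E) ∈ (evalAt (A₁ := A₁) x).range := by
        rw [range_evalAt]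
        exact t.2
      obtain ⟨p, hp⟩ := h2
      exact ⟨p, by rw [algebraMap_eq_evalAt, hx]; exact hp⟩
    let ι : ChartRing A₁ →+* Algebra.adjoin A₁ {x} :=
      (algebraMap (ChartRing A₁) E).codRestrict (Algebra.adjoin A₁ {x}).toSubring hmem
    have hι : Function.Surjective ι := by
      intro t
      obtain ⟨p, hp⟩ := hsurj t
      exact ⟨p, Subtype.ext hp⟩
    have hlift : q ∈ Polynomial.lifts ι := by
      rw [Polynomial.lifts_iff_coeff_lifts]
      intro n
      exact hι (q.coeff n)
    obtain ⟨q', hq', -, hq'm⟩ := Polynomial.lifts_and_natDegree_eq_and_monic hlift hq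
    refine ⟨q', hq'm, ?_⟩
    rw [← hqy, ← hq', Polynomial.eval₂_map]
    rfl

end ChartRing

end Fermat.Agent.S18.H70
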