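import Fermat.Agent.S18.H96_RouteQAbstract
import Fermat.Agent.S18.H26_BaseLineHes
import Fermat.Agent.S18.H79_BaseLineRing
import Fermat.Agent.S18.H70_AuxCompositum
import Fermat.Agent.S18.H70_LineModel
import Fermat.Agent.S18.H70_ChartRing
import Fermat.Agent.S18.H70_InstHesseAbs

/-!
# S18 / route Q: the Legendre chart (`ℓ` odd), abstract in `(A₁, L1, F1, j1)` (helper70, hedge)

Instantiates `H96.isIntegrallyClosed_specialFibre` with
`R0 := ChartRing A₁` (`coord ↦ j1`), `K0 := FractionRing R0`, `R' := H26.LegLine A₁ = A₁[X][1/(X(X-1))]`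
(`X ↦ μ`), `K' := FractionRing R'`, `F' := H70.LegField j1`.
Remaining named hypotheses: (VERT) `hV`, (HOR) `hH`, and `hprime` (INST-2).
-/

set_option autoImplicit false
set_option linter.unusedSectionVars false
set_option linter.style.haveILetI false

open Polynomial IntermediateField

namespace Fermat.Agent.S18.H70

open Fermat.Agent.S18

section LegendreChart

variable {A₁ L1 F1 : Type*} [CommRing A₁] [IsDomain A₁]
  [Field L1] [Algebra A₁ L1] [IsFractionRing A₁ L1]
  [Field F1] [CharZero F1] [Algebra L1 F1] [Algebra A₁ F1] [IsScalarTower A₁ L1 F1]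

/-- `λ (λ - 1)` is a unit of the Legendre field. -/
theorem isUnit_aeval_legMu (j1 : F1) :
    IsUnit (aeval (legMu j1) (H26.legLineF A₁)) := by
  rw [H26.aeval_legLineF]
  have h := legB_legMu_ne_zero j1
  unfold H26.legB at h
  exact IsUnit.mk0 _ (fun h0 => h (by
    have : legMu j1 ^ 2 * (legMu j1 - 1) ^ 2 = (legMu j1 * (legMu j1 - 1)) ^ 2 := by ring
    rw [this, h0]; ring))

variable (A₁) in
/-- The canonical `R_Y`-algebra structure on the Legendre field (`λ ↦ legMu j1`); install with
`letI`. -/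
@[reducible] noncomputable def legLineAlgebra (j1 : F1) :
    Algebra (H26.LegLine A₁) (LegField j1) :=
  H26.LineRing.algebraOfCoord (H26.legLineF A₁) (legMu j1) (isUnit_aeval_legMu j1)

theorem legLineAlgebra_mu (j1 : F1) :
    letI := legLineAlgebra A₁ j1
    algebraMap (H26.LegLine A₁) (LegField j1) (H26.LegLine.lam A₁) = legMu j1 := by
  letI := legLineAlgebra A₁ j1
  rw [H26.LineRing.algebraMap_algebraOfCoord]
  exact H26.LineRing.liftAlg_coord _ _ _

theorem legLineAlgebra_isScalarTower (j1 : F1) :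
    letI := legLineAlgebra A₁ j1
    IsScalarTower A₁ (H26.LegLine A₁) (LegField j1) :=
  H26.LineRing.isScalarTower_algebraOfCoord _ _ _

/-- **The Legendre chart.** -/
theorem isIntegrallyClosed_specialFibre_legendre
    [IsNoetherianRing A₁] [UniqueFactorizationMonoid A₁]
    {k : Type} [Field k] [IsAlgClosed k] (π : A₁ →+* k) (hπ : Function.Surjective π) (ϖ : A₁)
    (hϖ : RingHom.ker π = Ideal.span {ϖ}) (hϖ0 : ϖ ≠ 0) (h2 : IsUnit (2 : A₁))
    (j1 : F1) (hj1 : Transcendental L1 j1) [FiniteDimensional L1⟮j1⟯ F1]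
    [Algebra (ChartRing A₁) F1] [IsScalarTower A₁ (ChartRing A₁) F1]
    (hX : algebraMap (ChartRing A₁) F1 (ChartRing.coord A₁) = j1)
    [Algebra (H26.LegLine A₁) (LegField j1)] [IsScalarTower A₁ (H26.LegLine A₁) (LegField j1)]
    (hμ : algebraMap (H26.LegLine A₁) (LegField j1) (H26.LegLine.lam A₁) = legMu j1)
    {K' : Type*} [Field K'] [Algebra (H26.LegLine A₁) K'] [IsFractionRing (H26.LegLine A₁) K']
    [Algebra K' (LegField j1)] [IsScalarTower (H26.LegLine A₁) K' (LegField j1)]
    (hV : H41.VertCond (H26.LegLine A₁) K' (LegField j1) (algebraMap A₁ (H26.LegLine A₁) ϖ))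
    (hH : H41.HorCond (H26.LegLine A₁) K' (LegField j1) (algebraMap A₁ (H26.LegLine A₁) ϖ))
    (hprime : (Ideal.span {algebraMap (ChartRing A₁) (integralClosure (ChartRing A₁) F1)
      (algebraMap A₁ (ChartRing A₁) ϖ)}).IsPrime) :
    IsIntegrallyClosed (integralClosure (ChartRing A₁) F1 ⧸
      Ideal.span {algebraMap (ChartRing A₁) (integralClosure (ChartRing A₁) F1)
        (algebraMap A₁ (ChartRing A₁) ϖ)}) := by
  classical
  -- the special fibre of the Legendre line is non-degenerate
  have hf : (H26.legLineF A₁).map π ≠ 0 := H26.LegLine.map_ne_zero π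
  -- `R' = LegLine A₁`
  haveI : IsDomain (H26.LegLine A₁) := H79.Away.isDomain π (H26.legLineF A₁) hf
  haveI : IsNoetherianRing (H26.LegLine A₁) := H79.Away.isNoetherianRing (H26.legLineF A₁)
  haveI : IsIntegrallyClosed (H26.LegLine A₁) := H79.Away.isIntegrallyClosed π (H26.legLineF A₁) hf
  have hϖR' : Prime (algebraMap A₁ (H26.LegLine A₁) ϖ) :=
    H79.Away.prime_algebraMap π hπ ϖ hϖ (H26.legLineF A₁) hf hϖ0
  haveI hPID : IsPrincipalIdealRing
      (H26.LegLine A₁ ⧸ Ideal.span {algebraMap A₁ (H26.LegLine A₁) ϖ}) :=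
    H79.Away.isPrincipalIdealRing_quotient π hπ ϖ hϖ (H26.legLineF A₁)
  have hpt := H79.Away.hpt π hπ ϖ hϖ (H26.legLineF A₁) (R := H26.LegLine A₁)
  -- the chart ring `R0 = ChartRing A₁`, `coord ↦ j1`
  have htrA : Transcendental A₁ j1 := transcendental_of_fractionRing hj1
  have hae : ∀ p : ChartRing A₁, algebraMap (ChartRing A₁) F1 p = ChartRing.evalAt j1 p := by
    intro p
    rw [ChartRing.algebraMap_eq_evalAt, hX]
  haveI : FaithfulSMul (ChartRing A₁) F1 := by
    rw [faithfulSMul_iff_algebraMap_injective]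
    intro p q hpq
    rw [hae, hae] at hpq
    exact ChartRing.evalAt_injective htrA hpq
  letI algK0F1 : Algebra (FractionRing (ChartRing A₁)) F1 :=
    FractionRing.liftAlgebra (ChartRing A₁) F1
  haveI : IsScalarTower (ChartRing A₁) (FractionRing (ChartRing A₁)) F1 :=
    FractionRing.isScalarTower_liftAlgebra (ChartRing A₁) F1
  haveI : FiniteDimensional (FractionRing (ChartRing A₁)) F1 :=
    finiteDimensional_of_adjoin_simple A₁ (L := L1) (ChartRing A₁) (x := j1)
      ⟨ChartRing.coord A₁, hX⟩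
  haveI : CharZero (FractionRing (ChartRing A₁)) :=
    (algebraMap (FractionRing (ChartRing A₁)) F1).charZero
  -- the auxiliary line `R' = LegLine A₁`, `λ ↦ legMu j1`
  have hμtr : Transcendental L1 (legMu j1) := transcendental_legMu hj1
  have hμtrA : Transcendental A₁ (legMu j1) := transcendental_of_fractionRing hμtr
  have hunit := isUnit_aeval_legMu (A₁ := A₁) j1
  have hlift : ∀ r : H26.LegLine A₁, algebraMap (H26.LegLine A₁) (LegField j1) r =
      H26.LineRing.liftAlg (H26.legLineF A₁) (legMu j1) hunit r := by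
    intro r
    have : algebraMap (H26.LegLine A₁) (LegField j1) =
        (H26.LineRing.liftAlg (H26.legLineF A₁) (legMu j1) hunit).toRingHom := by
      apply H26.LineRing.ringHom_ext
      · intro a
        rw [← IsScalarTower.algebraMap_apply A₁ (H26.LegLine A₁) (LegField j1)]
        exact ((H26.LineRing.liftAlg (H26.legLineF A₁) (legMu j1) hunit).commutes a).symm
      · show algebraMap (H26.LegLine A₁) (LegField j1) (H26.LegLine.lam A₁) = _
        rw [hμ]
        exact (H26.LineRing.liftAlg_coord _ _ _).symm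
    exact congrArg (fun φ : H26.LegLine A₁ →+* LegField j1 => φ r) this
  have hR'inj : Function.Injective (algebraMap (H26.LegLine A₁) (LegField j1)) := by
    intro a b hab
    rw [hlift, hlift] at hab
    exact H26.LineRing.liftAlg_injective _ _ _ hμtrA hab
  have hjY : algebraMap (H26.LegLine A₁) (LegField j1) (H26.LegLine.jY A₁) =
      algebraMap F1 (LegField j1) j1 := by
    rw [H26.LegLine.map_jY, hμ, legJ_legMu]
  -- `F'` is finite over `K'`
  haveI : FiniteDimensional L1⟮j1⟯ (LegField j1) := Module.Finite.trans F1 (LegField j1)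
  have hrange1 : (algebraMap L1⟮j1⟯ (LegField j1)).range ≤
      (algebraMap L1⟮legMu j1⟯ (LegField j1)).range := by
    rintro _ ⟨c, rfl⟩
    have hle : L1⟮j1⟯ ≤ (L1⟮legMu j1⟯).comap (IsScalarTower.toAlgHom L1 F1 (LegField j1)) := by
      rw [IntermediateField.adjoin_simple_le_iff]
      show algebraMap F1 (LegField j1) j1 ∈ L1⟮legMu j1⟯
      rw [← legJ_legMu]
      exact legJ_mem_adjoin_simple _
    exact ⟨⟨_, hle c.2⟩, rfl⟩
  have hrange2 : (algebraMap L1⟮legMu j1⟯ (LegField j1)).range ≤
      (algebraMap K' (LegField j1)).range :=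
    range_adjoin_simple_le_range A₁ (H26.LegLine A₁) ⟨H26.LegLine.lam A₁, hμ⟩
  haveI : FiniteDimensional K' (LegField j1) :=
    finiteDimensional_of_range_le (K₁ := L1⟮j1⟯) (hrange1.trans hrange2)
  haveI : CharZero K' := (algebraMap K' (LegField j1)).charZero
  -- `F' / F1` Galois
  haveI : IsGalois F1 (LegField j1) := isGalois_legField j1
  -- `R0 → F'` through `F1`
  haveI : IsScalarTower (ChartRing A₁) F1 (LegField j1) := inferInstance
  -- `R0 → R'`, `coord ↦ jY`
  letI algR0R' : Algebra (ChartRing A₁) (H26.LegLine A₁) :=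
    ChartRing.algebraOfCoord (H26.LegLine.jY A₁)
  haveI : IsScalarTower A₁ (ChartRing A₁) (H26.LegLine A₁) :=
    ChartRing.isScalarTower_algebraOfCoord (H26.LegLine.jY A₁)
  have hR0R'c : algebraMap (ChartRing A₁) (H26.LegLine A₁) (ChartRing.coord A₁) =
      H26.LegLine.jY A₁ := ChartRing.algebraMap_coord (H26.LegLine.jY A₁)
  haveI : IsScalarTower (ChartRing A₁) (H26.LegLine A₁) (LegField j1) := by
    refine IsScalarTower.of_algebraMap_eq fun p => ?_
    have : (IsScalarTower.toAlgHom A₁ (ChartRing A₁) (LegField j1)) =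
        (IsScalarTower.toAlgHom A₁ (H26.LegLine A₁) (LegField j1)).comp
          (IsScalarTower.toAlgHom A₁ (ChartRing A₁) (H26.LegLine A₁)) := by
      apply ChartRing.algHom_ext
      show algebraMap (ChartRing A₁) (LegField j1) (ChartRing.coord A₁) =
        algebraMap (H26.LegLine A₁) (LegField j1)
          (algebraMap (ChartRing A₁) (H26.LegLine A₁) (ChartRing.coord A₁))
      rw [hR0R'c, hjY, IsScalarTower.algebraMap_apply (ChartRing A₁) F1 (LegField j1), hX]
    exact congrArg (fun φ : ChartRing A₁ →ₐ[A₁] LegField j1 => φ p) this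
  -- `R'` is integral over `R0`
  haveI : Algebra.IsIntegral (ChartRing A₁) (H26.LegLine A₁) := by
    refine ⟨fun r => ?_⟩
    rw [ChartRing.isIntegral_iff hR0R'c]
    exact H26.LegLine.isIntegral_adjoin_jY h2 r
  exact H96.isIntegrallyClosed_specialFibre (A₁ := A₁) (R0 := ChartRing A₁)
    (R' := H26.LegLine A₁) (FractionRing (ChartRing A₁)) (F1 := F1) K' (F' := LegField j1)
    ϖ hϖR' hV hH hpt hprime

end LegendreChart

end Fermat.Agent.S18.H70
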