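import Fermat.Agent.S18.H71_Glue

set_option autoImplicit false

noncomputable section

namespace Fermat.Agent.S18.H71

open AlgebraicCurve
open Fermat.Agent.S24.H24

variable {K F k Fb Γ : Type*} [Field K] [Field F] [Algebra K F] [Field k] [Field Fb]
  [Algebra k Fb] [LinearOrderedCommGroupWithZero Γ]

namespace GaussRed

variable (G : GaussRed K F k Fb Γ)

/-- A Gauss-integral element with nonzero reduction is a Gauss unit. -/
theorem v_eq_one_of_red_ne_zero {y : F} (hy : G.v y ≤ 1) (h : G.red y ≠ 0) : G.v y = 1 :=
  le_antisymm hy (not_lt.mp fun hlt => h ((G.red_eq_zero_iff y hy).mpr hlt))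

open scoped Classical in
/-- **Coordinate lemma.**  Let `x` be a Gauss unit whose poles reduce to poles of `red x`, and
`Q'` a place of the special fibre, not a pole of `red x`, at which `red x - c̄` is a uniformiser.
Then every `P` in the residue disc of `Q'` is the unique zero on that disc of `x - a`, `a = x(P)`,
and the disc is nonempty. -/
theorem coordinate (x : F) (hvx : G.v x = 1)
    (hpole : ∀ P : Place K F, P.ord x < 0 → (G.r P).ord (G.red x) < 0)
    (hvalK : ∀ (P : Place K F) (f : F), 0 ≤ P.ord f →
      ∃ c : K, f = algebraMap K F c ∨ 0 < P.ord (f - algebraMap K F c))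
    (Q' : Place k Fb) (hQ' : 0 ≤ Q'.ord (G.red x)) (a₀ : K) (ha₀ : G.v (algebraMap K F a₀) ≤ 1)
    (hunif : Q'.ord (G.red x - G.red (algebraMap K F a₀)) = 1) :
    (∃ P : Place K F, G.r P = Q') ∧
    ∀ P : Place K F, G.r P = Q' → ∃ a : K, G.v (x - algebraMap K F a) = 1 ∧
      Q'.ord (G.red (x - algebraMap K F a)) = 1 ∧
      ∀ R : Place K F, G.r R = Q' → R.ord (x - algebraMap K F a) = if R = P then 1 else 0 := by
  classical
  -- no pole of `x` on the disc
  have hnopole : ∀ R : Place K F, G.r R = Q' → 0 ≤ R.ord x := by
    intro R hR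
    by_contra hneg
    push Not at hneg
    have := hpole R hneg
    rw [hR] at this
    omega
  have hred_sub : ∀ a : K, G.v (algebraMap K F a) ≤ 1 →
      G.red (x - algebraMap K F a) = G.red x - G.red (algebraMap K F a) :=
    fun a ha => G.red_sub hvx.le ha
  have hv_sub_le : ∀ a : K, G.v (algebraMap K F a) ≤ 1 → G.v (x - algebraMap K F a) ≤ 1 := by
    intro a ha
    refine le_trans (G.v.map_sub _ _) (max_le hvx.le ha)
  have hne₀ : G.red x - G.red (algebraMap K F a₀) ≠ 0 := by
    intro h; rw [h] at hunif; simp at hunif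
  have hv₀ : G.v (x - algebraMap K F a₀) = 1 :=
    G.v_eq_one_of_red_ne_zero (hv_sub_le a₀ ha₀) (by rw [hred_sub a₀ ha₀]; exact hne₀)
  -- orders on the disc for `x - a`
  have hnopole_sub : ∀ (a : K) (R : Place K F), G.r R = Q' → 0 ≤ R.ord (x - algebraMap K F a) := by
    intro a R hR
    apply ord_sub_nonneg R (hnopole R hR)
    rw [PlaceLemmas.ord_algebraMap]
  constructor
  · -- nonempty disc
    by_contra hcon
    push Not at hcon
    have h1 := G.ord_red _ hv₀ Q'
    rw [hred_sub a₀ ha₀, hunif] at h1
    have : (fun P : Place K F => if G.r P = Q' then P.ord (x - algebraMap K F a₀) else 0)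
        = fun _ => 0 := by
      funext P; rw [if_neg (hcon P)]
    rw [this, finsum_zero] at h1
    exact one_ne_zero h1
  · intro P hP
    obtain ⟨a, ha⟩ := hvalK P x (hnopole P hP)
    -- `x` is not constant
    have hxa : x ≠ algebraMap K F a := by
      intro hxa
      -- then `red x - red a₀ = red (a - a₀)` is the reduction of a constant
      have h1 : G.v (algebraMap K F a) = 1 := by rw [← hxa]; exact hvx
      have h2 : G.red x - G.red (algebraMap K F a₀) = G.red (algebraMap K F (a - a₀)) := by
        rw [map_sub, G.red_sub h1.le ha₀, hxa]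
      have h3 : G.v (algebraMap K F (a - a₀)) ≤ 1 := by
        rw [map_sub]; exact le_trans (G.v.map_sub _ _) (max_le h1.le ha₀)
      rw [h2] at hunif hne₀
      have h4 := G.ord_red_algebraMap (G.v_eq_one_of_red_ne_zero h3 hne₀) Q'
      omega
    have hzero : 0 < P.ord (x - algebraMap K F a) := ha.resolve_left hxa
    have hy0 : x - algebraMap K F a ≠ 0 := sub_ne_zero.mpr hxa
    -- `v a ≤ 1`
    have hva : G.v (algebraMap K F a) ≤ 1 := by
      by_contra hcon
      push Not at hcon
      have ha0 : algebraMap K F a ≠ 0 := by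
        intro h0; rw [h0] at hcon; simp at hcon
      have ha0' : a ≠ 0 := by rintro rfl; simp at ha0
      have hxa_lt : G.v (x / algebraMap K F a) < 1 := by
        rw [map_div₀, hvx]
        rw [div_lt_one₀ (lt_trans zero_lt_one hcon)]
        exact hcon
      have hw : G.v (x / algebraMap K F a - 1) = 1 := by
        rw [G.v.map_sub_eq_of_lt_right (by rw [map_one]; exact hxa_lt), map_one]
      have hredw : G.red (x / algebraMap K F a - 1) = algebraMap k Fb (-1) := by
        rw [G.red_sub hxa_lt.le (by simp), (G.red_eq_zero_iff _ hxa_lt.le).mpr hxa_lt, G.red_one]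
        simp
      have heq : x / algebraMap K F a - 1 = (algebraMap K F a)⁻¹ * (x - algebraMap K F a) := by
        field_simp
      have hinv : (algebraMap K F a)⁻¹ = algebraMap K F a⁻¹ := (map_inv₀ _ _).symm
      have hord : ∀ R : Place K F, R.ord (x / algebraMap K F a - 1)
          = R.ord (x - algebraMap K F a) := by
        intro R
        rw [heq, hinv, ord_const_mul R a⁻¹ (inv_ne_zero ha0')]
      have h1 := G.le_ord_red hw Q' (fun R hR => by rw [hord]; exact hnopole_sub a R hR) P hP
      rw [hord, hredw, PlaceLemmas.ord_algebraMap] at h1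
      omega
    have hvy_le := hv_sub_le a hva
    -- `v (x - a) = 1`
    have hvy : G.v (x - algebraMap K F a) = 1 := by
      by_contra hcon
      have hlt : G.v (x - algebraMap K F a) < 1 := lt_of_le_of_ne hvy_le hcon
      have h0 : G.red (x - algebraMap K F a) = 0 := (G.red_eq_zero_iff _ hvy_le).mpr hlt
      rw [hred_sub a hva, sub_eq_zero] at h0
      have h2 : G.red x - G.red (algebraMap K F a₀) = G.red (algebraMap K F (a - a₀)) := by
        rw [map_sub, G.red_sub hva ha₀, h0]
      have h3 : G.v (algebraMap K F (a - a₀)) ≤ 1 := by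
        rw [map_sub]; exact le_trans (G.v.map_sub _ _) (max_le hva ha₀)
      rw [h2] at hunif hne₀
      have h4 := G.ord_red_algebraMap (G.v_eq_one_of_red_ne_zero h3 hne₀) Q'
      omega
    -- `red a = red a₀`
    have hpos : 0 < Q'.ord (G.red (x - algebraMap K F a)) :=
      lt_of_lt_of_le hzero (G.le_ord_red hvy Q' (hnopole_sub a) P hP)
    have hred_eq : G.red (algebraMap K F a) = G.red (algebraMap K F a₀) := by
      by_contra hne
      have h3 : G.v (algebraMap K F (a₀ - a)) ≤ 1 := by
        rw [map_sub]; exact le_trans (G.v.map_sub _ _) (max_le ha₀ hva)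
      have h2 : G.red (algebraMap K F (a₀ - a))
          = G.red (x - algebraMap K F a) - (G.red x - G.red (algebraMap K F a₀)) := by
        rw [map_sub, G.red_sub ha₀ hva, hred_sub a hva]; ring
      have hne' : G.red (algebraMap K F (a₀ - a)) ≠ 0 := by
        rw [map_sub, G.red_sub ha₀ hva]
        exact sub_ne_zero.mpr (Ne.symm hne)
      have h4 := G.ord_red_algebraMap (G.v_eq_one_of_red_ne_zero h3 hne') Q'
      have h5 : 0 < Q'.ord (G.red (x - algebraMap K F a) - (G.red x - G.red (algebraMap K F a₀))) := by
        have hA : G.red (x - algebraMap K F a) ≠ 0 := G.red_ne_zero hvy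
        have := PlaceLemmas.ord_sub_ge Q' hA hne₀ (by rw [← h2]; exact hne')
        rw [hunif] at this
        have h6 : 1 ≤ min (Q'.ord (G.red (x - algebraMap K F a))) 1 := le_min (by omega) le_rfl
        omega
      rw [← h2] at h5
      omega
    have hordQ : Q'.ord (G.red (x - algebraMap K F a)) = 1 := by
      rw [hred_sub a hva, hred_eq]; exact hunif
    refine ⟨a, hvy, hordQ, ?_⟩
    -- the fibre sum is `1`
    have hsum := G.ord_red _ hvy Q'
    rw [hordQ] at hsum
    have hfin := G.support_fiber_finite hy0 Q'
    have hnn : ∀ R : Place K F,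
        0 ≤ (if G.r R = Q' then R.ord (x - algebraMap K F a) else 0) := by
      intro R; split_ifs with hR
      · exact hnopole_sub a R hR
      · exact le_rfl
    obtain ⟨P₁, hP₁, hP₁'⟩ := exists_single_of_finsum_eq_one _ hfin hnn hsum.symm
    have hPP₁ : P = P₁ := by
      by_contra hne
      have := hP₁' P hne
      rw [if_pos hP] at this
      omega
    intro R hR
    by_cases hRP : R = P
    · rw [if_pos hRP, hRP, hPP₁]
      have := hP₁
      rw [← hPP₁, if_pos hP] at this
      rw [← hPP₁]; exact this
    · rw [if_neg hRP]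
      have := hP₁' R (by rw [← hPP₁]; exact hRP)
      rwa [if_pos hR] at this

end GaussRed

end Fermat.Agent.S18.H71
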