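import Fermat.Agent.S18.H71_UnitRatio
import Fermat.Agent.S18.H11_IfaceMain

/-!
# S18, frozen-side glue (helper71): `H11.CoreE A N m` from a `GaussRed` on the modular function fields

`coreE_of_gaussRed` turns the abstract final step (`isPrincipal_of_unit_ratio`) into helper11's
`CoreE A N m`, against NAMED hypotheses on `F = modularFunctionFieldBar N` and
`Fk = modularFunctionFieldFullC k N`, `k = ResidueField A`.  `s18_of_gaussRed` then closes S18 with
`H11.result_of_coreE`.
-/

set_option autoImplicit false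

noncomputable section

namespace Fermat.Agent.S18.H71

open AlgebraicCurve ModularCurve
open Fermat.Agent.S24.H24

/-- **`CoreE` from a Gauss reduction.**  `G` is a `GaussRed` between the two modular function
fields which is compatible with helper11's integral elements (`hcompat`); the rest are the named
hypotheses of `isPrincipal_of_unit_ratio`. -/
theorem coreE_of_gaussRed {Γ : Type*} [LinearOrderedCommGroupWithZero Γ]
    (A : ValuationSubring (AlgebraicClosure ℚ)) (N : ℕ) (m : ℕ)
    (G : GaussRed (AlgebraicClosure ℚ) (modularFunctionFieldBar N)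
      (IsLocalRing.ResidueField A) (modularFunctionFieldFullC (IsLocalRing.ResidueField A) N) Γ)
    (hcompat : ∀ Y : H11.IntElt A N, G.v Y.gen = 1 ∧ G.red Y.gen = Y.red)
    (hmk : (m : IsLocalRing.ResidueField A) ≠ 0) (g : ℕ)
    (hdeg1 : ∀ P : Place (AlgebraicClosure ℚ) (modularFunctionFieldBar N), P.deg = 1)
    (hRiemann : ∀ D : Divisor (AlgebraicClosure ℚ) (modularFunctionFieldBar N),
      Divisor.degree D = g →
      ∃ ψ : modularFunctionFieldBar N, ψ ≠ 0 ∧
        ∀ P : Place (AlgebraicClosure ℚ) (modularFunctionFieldBar N), 0 ≤ P.ord ψ + D P)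
    (hprod : ∀ f : modularFunctionFieldBar N, f ≠ 0 →
      ∀ D' : Divisor (AlgebraicClosure ℚ) (modularFunctionFieldBar N),
        (∀ P, D' P = P.ord f) → Divisor.degree D' = 0)
    (hvalK : ∀ (P : Place (AlgebraicClosure ℚ) (modularFunctionFieldBar N))
      (f : modularFunctionFieldBar N), 0 ≤ P.ord f →
      ∃ c : AlgebraicClosure ℚ, f = algebraMap _ (modularFunctionFieldBar N) c ∨
        0 < P.ord (f - algebraMap _ (modularFunctionFieldBar N) c))
    (Q : Fin g → Place (IsLocalRing.ResidueField A)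
      (modularFunctionFieldFullC (IsLocalRing.ResidueField A) N))
    (hQ : Function.Injective Q)
    (hNS : ∀ ψ : modularFunctionFieldFullC (IsLocalRing.ResidueField A) N,
      (∀ Q', (∀ i, Q' ≠ Q i) → 0 ≤ Q'.ord ψ) → (∀ i, -1 ≤ (Q i).ord ψ) →
      ∃ b : IsLocalRing.ResidueField A,
        ψ = algebraMap _ (modularFunctionFieldFullC (IsLocalRing.ResidueField A) N) b)
    (x : modularFunctionFieldBar N) (hvx : G.v x = 1)
    (hpole : ∀ P : Place (AlgebraicClosure ℚ) (modularFunctionFieldBar N),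
      P.ord x < 0 → (G.r P).ord (G.red x) < 0)
    (hQx : ∀ i, 0 ≤ (Q i).ord (G.red x))
    (a₀ : Fin g → AlgebraicClosure ℚ)
    (ha₀ : ∀ i, G.v (algebraMap _ (modularFunctionFieldBar N) (a₀ i)) ≤ 1)
    (hunif : ∀ i, (Q i).ord
      (G.red x - G.red (algebraMap _ (modularFunctionFieldBar N) (a₀ i))) = 1)
    (P₀ : Place (AlgebraicClosure ℚ) (modularFunctionFieldBar N)) (hP₀ : P₀.ord x < 0) :
    H11.CoreE A N m := by
  intro Y₁ Y₂ hred D hD
  rw [Divisor.mem_principal]
  obtain ⟨hv₁, hr₁⟩ := hcompat Y₁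
  obtain ⟨hv₂, hr₂⟩ := hcompat Y₂
  have hvinv : G.v (Y₂.gen)⁻¹ = 1 := G.v_inv_eq_one hv₂
  refine isPrincipal_of_unit_ratio G m hmk g hdeg1 hRiemann hprod hvalK Q hQ hNS x hvx hpole hQx
    a₀ ha₀ hunif P₀ hP₀ D (Y₁.gen * (Y₂.gen)⁻¹) ?_ ?_ ?_
  · rw [map_mul, hv₁, hvinv, one_mul]
  · rw [G.red_mul _ _ hv₁.le hvinv.le, G.red_inv hv₂, hr₁, hr₂, hred,
      mul_inv_cancel₀ Y₂.red_ne_zero]
  · intro P
    rw [hD P, P.ord_mul Y₁.gen_ne_zero (inv_ne_zero Y₂.gen_ne_zero), P.ord_inv]
    ring

/-- Divisors of functions exist, from `G.fin_ord`. -/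
theorem GaussRed.exists_divisor {K F k Fb Γ : Type*} [Field K] [Field F] [Algebra K F] [Field k]
    [Field Fb] [Algebra k Fb] [LinearOrderedCommGroupWithZero Γ] (G : GaussRed K F k Fb Γ)
    (f : F) : ∃ D : Divisor K F, ∀ v, D v = v.ord f := by
  by_cases hf : f = 0
  · refine ⟨0, fun v => ?_⟩
    rw [hf, Place.ord_zero]; rfl
  · refine ⟨Finsupp.ofSupportFinite (fun v : Place K F => v.ord f) ?_, fun v => rfl⟩
    exact (G.fin_ord f hf).subset (fun v hv => by simpa using hv)

/-- **S18 from a Gauss reduction** (`H11.result_of_coreE` + `coreE_of_gaussRed`). -/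
theorem s18_of_gaussRed {Γ : Type*} [LinearOrderedCommGroupWithZero Γ]
    (A : ValuationSubring (AlgebraicClosure ℚ)) (N : ℕ) (h : ReductionInputsModL A N) (m : ℕ)
    (G : GaussRed (AlgebraicClosure ℚ) (modularFunctionFieldBar N)
      (IsLocalRing.ResidueField A) (modularFunctionFieldFullC (IsLocalRing.ResidueField A) N) Γ)
    (hcompat : ∀ Y : H11.IntElt A N, G.v Y.gen = 1 ∧ G.red Y.gen = Y.red)
    (hmk : (m : IsLocalRing.ResidueField A) ≠ 0) (g : ℕ)
    (hdeg1 : ∀ P : Place (AlgebraicClosure ℚ) (modularFunctionFieldBar N), P.deg = 1)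
    (hRiemann : ∀ D : Divisor (AlgebraicClosure ℚ) (modularFunctionFieldBar N),
      Divisor.degree D = g →
      ∃ ψ : modularFunctionFieldBar N, ψ ≠ 0 ∧
        ∀ P : Place (AlgebraicClosure ℚ) (modularFunctionFieldBar N), 0 ≤ P.ord ψ + D P)
    (hprod : ∀ f : modularFunctionFieldBar N, f ≠ 0 →
      ∀ D' : Divisor (AlgebraicClosure ℚ) (modularFunctionFieldBar N),
        (∀ P, D' P = P.ord f) → Divisor.degree D' = 0)
    (hvalK : ∀ (P : Place (AlgebraicClosure ℚ) (modularFunctionFieldBar N))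
      (f : modularFunctionFieldBar N), 0 ≤ P.ord f →
      ∃ c : AlgebraicClosure ℚ, f = algebraMap _ (modularFunctionFieldBar N) c ∨
        0 < P.ord (f - algebraMap _ (modularFunctionFieldBar N) c))
    (Q : Fin g → Place (IsLocalRing.ResidueField A)
      (modularFunctionFieldFullC (IsLocalRing.ResidueField A) N))
    (hQ : Function.Injective Q)
    (hNS : ∀ ψ : modularFunctionFieldFullC (IsLocalRing.ResidueField A) N,
      (∀ Q', (∀ i, Q' ≠ Q i) → 0 ≤ Q'.ord ψ) → (∀ i, -1 ≤ (Q i).ord ψ) →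
      ∃ b : IsLocalRing.ResidueField A,
        ψ = algebraMap _ (modularFunctionFieldFullC (IsLocalRing.ResidueField A) N) b)
    (x : modularFunctionFieldBar N) (hvx : G.v x = 1)
    (hpole : ∀ P : Place (AlgebraicClosure ℚ) (modularFunctionFieldBar N),
      P.ord x < 0 → (G.r P).ord (G.red x) < 0)
    (hQx : ∀ i, 0 ≤ (Q i).ord (G.red x))
    (a₀ : Fin g → AlgebraicClosure ℚ)
    (ha₀ : ∀ i, G.v (algebraMap _ (modularFunctionFieldBar N) (a₀ i)) ≤ 1)
    (hunif : ∀ i, (Q i).ord
      (G.red x - G.red (algebraMap _ (modularFunctionFieldBar N) (a₀ i))) = 1)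
    (P₀ : Place (AlgebraicClosure ℚ) (modularFunctionFieldBar N)) (hP₀ : P₀.ord x < 0)
    (z : JZero N) (hmz : m • z = 0) (hz : reductionModL A N z = 0) : z = 0 := by
  have hm0 : m ≠ 0 := by rintro rfl; simp at hmk
  have hconst : ∀ c : modularFunctionFieldFullC (IsLocalRing.ResidueField A) N, c ≠ 0 →
      (∀ Q : Place (IsLocalRing.ResidueField A)
        (modularFunctionFieldFullC (IsLocalRing.ResidueField A) N), Q.ord c = 0) →
      ∃ a : IsLocalRing.ResidueField A,
        c = algebraMap _ (modularFunctionFieldFullC (IsLocalRing.ResidueField A) N) a := by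
    intro c _ hc
    exact hNS c (fun Q' _ => by rw [hc Q']) (fun i => by rw [hc (Q i)]; norm_num)
  exact H11.result_of_coreE h m hm0 (fun f => G.exists_divisor f) hconst
    (coreE_of_gaussRed A N m G hcompat hmk g hdeg1 hRiemann hprod hvalK Q hQ hNS x hvx hpole hQx
      a₀ ha₀ hunif P₀ hP₀) z hmz hz

end Fermat.Agent.S18.H71
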