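import Fermat.Agent.S18.H71_GaussRed

/-!
# S18, final step without Čech: the core lemma

If `m (∑ P_i - ∑ P'_i) = div f` with `r P_i = r P'_i = Q_i`, `L̄(∑ Q_i) = k` and `char k ∤ m`,
then `f` is constant (so `P_i = P'_i`).  See board post #1674.
-/

set_option autoImplicit false

noncomputable section

namespace Fermat.Agent.S18.H71

open AlgebraicCurve
open Fermat.Agent.S24.H24

variable {K F k Fb Γ : Type*} [Field K] [Field F] [Algebra K F] [Field k] [Field Fb]
  [Algebra k Fb] [LinearOrderedCommGroupWithZero Γ]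

section PlaceAux

variable (R : Place K F)

theorem ord_sub_nonneg {a b : F} (ha : 0 ≤ R.ord a) (hb : 0 ≤ R.ord b) : 0 ≤ R.ord (a - b) := by
  have ha' : a ∈ R.toValuationSubring := (PlaceLemmas.mem_iff R).mpr (Or.inr ha)
  have hb' : b ∈ R.toValuationSubring := (PlaceLemmas.mem_iff R).mpr (Or.inr hb)
  rcases (PlaceLemmas.mem_iff R).mp (sub_mem ha' hb') with h | h
  · rw [h]; simp
  · exact h

theorem ord_add_nonneg {a b : F} (ha : 0 ≤ R.ord a) (hb : 0 ≤ R.ord b) : 0 ≤ R.ord (a + b) := by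
  have ha' : a ∈ R.toValuationSubring := (PlaceLemmas.mem_iff R).mpr (Or.inr ha)
  have hb' : b ∈ R.toValuationSubring := (PlaceLemmas.mem_iff R).mpr (Or.inr hb)
  rcases (PlaceLemmas.mem_iff R).mp (add_mem ha' hb') with h | h
  · rw [h]; simp
  · exact h

theorem ord_const_mul (c : K) (hc : c ≠ 0) (a : F) :
    R.ord (algebraMap K F c * a) = R.ord a := by
  rcases eq_or_ne a 0 with rfl | ha
  · simp
  · rw [R.ord_mul (by simpa using hc) ha, PlaceLemmas.ord_algebraMap, zero_add]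

theorem ord_pow (a : F) (n : ℕ) : R.ord (a ^ n) = n * R.ord a := by
  have := R.ord_zpow a (n : ℤ)
  simpa using this

theorem ord_div {a b : F} (ha : a ≠ 0) (hb : b ≠ 0) : R.ord (a / b) = R.ord a - R.ord b := by
  rw [div_eq_mul_inv, R.ord_mul ha (inv_ne_zero hb), R.ord_inv]; ring

/-- `-1 ≤ ord (a + b)` when `-1 ≤ ord a` and `0 ≤ ord b` (with the convention `ord 0 = 0`). -/
theorem neg_one_le_ord_add {a b : F} (ha : -1 ≤ R.ord a) (hb : 0 ≤ R.ord b) :
    -1 ≤ R.ord (a + b) := by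
  rcases eq_or_ne a 0 with rfl | ha0
  · simpa using le_trans (by norm_num) hb
  rcases eq_or_ne b 0 with rfl | hb0
  · simpa using ha
  rcases eq_or_ne (a + b) 0 with h0 | h0
  · rw [h0]; simp
  have := PlaceLemmas.ord_add_ge R ha0 hb0 h0
  have h2 : -1 ≤ min (R.ord a) (R.ord b) := le_min ha (le_trans (by norm_num) hb)
  exact le_trans h2 this

end PlaceAux

open scoped Classical in
/-- The hypotheses of the core lemma. -/
structure CoreSetup (G : GaussRed K F k Fb Γ) (ι : Type*) where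
  m : ℕ
  hmk : (m : k) ≠ 0
  Q : ι → Place k Fb
  P : ι → Place K F
  P' : ι → Place K F
  hP : ∀ i, G.r (P i) = Q i
  hP' : ∀ i, G.r (P' i) = Q i
  s : ι → F
  τ : ι → K
  hs : ∀ i, G.v (s i) = 1
  hτ : ∀ i, G.v (algebraMap K F (τ i)) < 1
  hsQ : ∀ i, (Q i).ord (G.red (s i)) = 1
  hs_ord : ∀ i R, G.r R = Q i → R.ord (s i) = if R = P i then 1 else 0
  ht_ord : ∀ i R, G.r R = Q i →
    R.ord (s i + algebraMap K F (τ i)) = if R = P' i then 1 else 0
  f : F
  hf : f ≠ 0
  hf_out : ∀ R, (∀ i, G.r R ≠ Q i) → R.ord f = 0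
  hf_in : ∀ i R, G.r R = Q i →
    R.ord f = m * ((if R = P i then 1 else 0) - (if R = P' i then 1 else 0))
  hL : ∀ ψ : Fb, (∀ Q', (∀ i, Q' ≠ Q i) → 0 ≤ Q'.ord ψ) → (∀ i, -1 ≤ (Q i).ord ψ) →
    ∃ b : k, ψ = algebraMap k Fb b
  P₀ : Place K F
  hP₀ : ∀ i, G.r P₀ ≠ Q i

namespace CoreSetup

variable {G : GaussRed K F k Fb Γ} {ι : Type*} (S : CoreSetup G ι)

/-- `t_i = s_i + τ_i`. -/
def t (i : ι) : F := S.s i + algebraMap K F (S.τ i)

theorem v_t (i : ι) : G.v (S.t i) = 1 := by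
  unfold t
  rw [add_comm, G.v.map_add_eq_of_lt_right (by rw [S.hs i]; exact S.hτ i), S.hs i]

theorem red_t (i : ι) : G.red (S.t i) = G.red (S.s i) := by
  unfold t
  rw [G.red_add _ _ (S.hs i).le (S.hτ i).le, (G.red_eq_zero_iff _ (S.hτ i).le).mpr (S.hτ i),
    add_zero]

theorem m_ne_zero : S.m ≠ 0 := by
  intro h
  apply S.hmk
  rw [h]; simp

theorem s_ne_zero (i : ι) : S.s i ≠ 0 := G.ne_zero_of_v_eq_one (S.hs i)

theorem t_ne_zero (i : ι) : S.t i ≠ 0 := G.ne_zero_of_v_eq_one (S.v_t i)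

/-- On the residue disc of `Q_i`, `(s_i / t_i)^m` has divisor `m (P_i - P'_i)`. -/
theorem ord_st (i : ι) (R : Place K F) (hR : G.r R = S.Q i) :
    R.ord ((S.s i / S.t i) ^ S.m) = R.ord S.f := by
  classical
  rw [ord_pow, ord_div R (S.s_ne_zero i) (S.t_ne_zero i), S.hs_ord i R hR]
  have := S.ht_ord i R hR
  unfold t
  rw [this, S.hf_in i R hR]

theorem v_st (i : ι) : G.v ((S.s i / S.t i) ^ S.m) = 1 := by
  rw [map_pow, map_div₀, S.hs i, S.v_t i, div_one, one_pow]

theorem red_st (i : ι) : G.red ((S.s i / S.t i) ^ S.m) = 1 := by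
  have h1 : G.v (S.s i / S.t i) = 1 := by rw [map_div₀, S.hs i, S.v_t i, div_one]
  rw [G.red_pow h1.le, div_eq_mul_inv, G.red_mul _ _ (S.hs i).le (G.v_inv_eq_one (S.v_t i)).le,
    G.red_inv (S.v_t i), S.red_t i, mul_inv_cancel₀ (G.red_ne_zero (S.hs i)), one_pow]

/-- [N1] A Gauss unit with divisor `-div f` reduces to a nonzero constant. -/
theorem red_const_of_ord {ψ : F} (hψ : G.v ψ = 1) (hord : ∀ R : Place K F, R.ord ψ = -R.ord S.f) :
    ∃ b : k, b ≠ 0 ∧ G.red ψ = algebraMap k Fb b := by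
  have hψ0 := G.ne_zero_of_v_eq_one hψ
  have hA : ∀ Q', (∀ i, Q' ≠ S.Q i) → 0 ≤ Q'.ord (G.red ψ) := by
    intro Q' hQ'
    apply G.ord_red_nonneg hψ
    intro R hR
    rw [hord R, S.hf_out R (fun i h => hQ' i (hR ▸ h))]; simp
  have hB : ∀ i, -1 ≤ (S.Q i).ord (G.red ψ) := by
    intro i
    have h1 : G.v (ψ * (S.s i / S.t i) ^ S.m) = 1 := by rw [map_mul, hψ, S.v_st i, one_mul]
    have h2 : G.red (ψ * (S.s i / S.t i) ^ S.m) = G.red ψ := by
      rw [G.red_mul _ _ hψ.le (S.v_st i).le, S.red_st i, mul_one]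
    have h3 := G.ord_red_nonneg h1 (S.Q i) (fun R hR => by
      rw [R.ord_mul hψ0 (pow_ne_zero _ (div_ne_zero (S.s_ne_zero i) (S.t_ne_zero i))),
        hord R, S.ord_st i R hR]; simp)
    rw [h2] at h3
    exact le_trans (by norm_num) h3
  obtain ⟨b, hb⟩ := S.hL (G.red ψ) hA hB
  refine ⟨b, ?_, hb⟩
  rintro rfl
  exact G.red_ne_zero hψ (by simpa using hb)


/-! ### Normalisation: `φ = c₀ / f` with `f(P₀) = c₀` -/

/-- `φ = c₀ / f`. -/
def phi (c₀ : K) : F := algebraMap K F c₀ * S.f⁻¹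

theorem phi_ne_zero {c₀ : K} (hc₀ : c₀ ≠ 0) : S.phi c₀ ≠ 0 :=
  mul_ne_zero (by simpa using hc₀) (inv_ne_zero S.hf)

theorem ord_phi {c₀ : K} (hc₀ : c₀ ≠ 0) (R : Place K F) : R.ord (S.phi c₀) = -R.ord S.f := by
  unfold phi
  rw [ord_const_mul R c₀ hc₀, R.ord_inv]

theorem ord_f_eq_zero_of_fiber_P₀ (R : Place K F) (hR : G.r R = G.r S.P₀) : R.ord S.f = 0 :=
  S.hf_out R (fun i h => S.hP₀ i (hR ▸ h))

theorem ord_phi_sub_one_nonneg_out {c₀ : K} (hc₀ : c₀ ≠ 0) (R : Place K F)
    (hR : ∀ i, G.r R ≠ S.Q i) : 0 ≤ R.ord (S.phi c₀ - 1) := by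
  apply ord_sub_nonneg
  · rw [S.ord_phi hc₀, S.hf_out R hR]; simp
  · simp

theorem ord_P₀_phi_sub_one {c₀ : K} (hc₀ : c₀ ≠ 0)
    (hval : 0 < S.P₀.ord (S.f - algebraMap K F c₀)) : 0 < S.P₀.ord (S.phi c₀ - 1) := by
  have hne : S.f - algebraMap K F c₀ ≠ 0 := by
    intro h; rw [h] at hval; simp at hval
  have h1 : S.phi c₀ - 1 = -(S.f - algebraMap K F c₀) * S.f⁻¹ := by
    unfold phi; field_simp [S.hf]; ring
  rw [h1, S.P₀.ord_mul (neg_ne_zero.mpr hne) (inv_ne_zero S.hf), PlaceLemmas.ord_neg,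
    S.P₀.ord_inv, S.ord_f_eq_zero_of_fiber_P₀ S.P₀ rfl]
  simpa using hval

/-- A function that is regular on the residue disc of `P₀` and vanishes at `P₀` cannot reduce to
a constant unless its Gauss norm is `< 1`. -/
theorem not_red_const_of_zero_at_P₀ {y : F} (hy : G.v y = 1)
    (hreg : ∀ R : Place K F, G.r R = G.r S.P₀ → 0 ≤ R.ord y) (hzero : 0 < S.P₀.ord y)
    (b : k) (hb : G.red y = algebraMap k Fb b) : False := by
  have h1 := G.le_ord_red hy (G.r S.P₀) hreg S.P₀ rfl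
  rw [hb, PlaceLemmas.ord_algebraMap] at h1
  omega

/-- [N2] `φ` is a Gauss unit. -/
theorem v_phi {c₀ : K} (hc₀ : c₀ ≠ 0) (hval : 0 < S.P₀.ord (S.f - algebraMap K F c₀)) :
    G.v (S.phi c₀) = 1 := by
  obtain ⟨c₁, hc₁, hv⟩ := G.scale (S.phi c₀) (S.phi_ne_zero hc₀)
  set ψ := algebraMap K F c₁ * S.phi c₀ with hψ
  have hordψ : ∀ R : Place K F, R.ord ψ = -R.ord S.f := by
    intro R; rw [hψ, ord_const_mul R c₁ hc₁, S.ord_phi hc₀]
  obtain ⟨b, hb0, hb⟩ := S.red_const_of_ord hv hordψ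
  have hz := S.ord_P₀_phi_sub_one hc₀ hval
  have hc₁F : algebraMap K F c₁ ≠ 0 := by simpa using hc₁
  rcases lt_trichotomy (G.v (algebraMap K F c₁)) 1 with h | h | h
  · -- `ψ - c₁ = c₁ (φ - 1)`
    exfalso
    have hy : G.v (ψ - algebraMap K F c₁) = 1 := by
      rw [G.v.map_sub_eq_of_lt_left (by rw [hv]; exact h), hv]
    have heq : ψ - algebraMap K F c₁ = algebraMap K F c₁ * (S.phi c₀ - 1) := by
      rw [hψ]; ring
    refine S.not_red_const_of_zero_at_P₀ hy ?_ ?_ b ?_
    · intro R hR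
      rw [heq, ord_const_mul R c₁ hc₁]
      exact S.ord_phi_sub_one_nonneg_out hc₀ R (fun i h' => S.hP₀ i (hR ▸ h'))
    · rw [heq, ord_const_mul _ c₁ hc₁]; exact hz
    · rw [G.red_sub hv.le h.le, (G.red_eq_zero_iff _ h.le).mpr h, sub_zero, hb]
  · rw [hψ, map_mul, h, one_mul] at hv; exact hv
  · exfalso
    have hφ : G.v (S.phi c₀) < 1 := by
      have h1 : G.v (algebraMap K F c₁) * G.v (S.phi c₀) = 1 := by rw [← map_mul]; exact hv
      rw [eq_inv_of_mul_eq_one_right h1]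
      exact inv_lt_one_of_one_lt₀ h
    have hy : G.v (S.phi c₀ - 1) = 1 := by
      rw [G.v.map_sub_eq_of_lt_right (by rw [map_one]; exact hφ), map_one]
    refine S.not_red_const_of_zero_at_P₀ hy ?_ hz (-1) ?_
    · intro R hR
      exact S.ord_phi_sub_one_nonneg_out hc₀ R (fun i h' => S.hP₀ i (hR ▸ h'))
    · rw [G.red_sub hφ.le (by simp), (G.red_eq_zero_iff _ hφ.le).mpr hφ, G.red_one]; simp


/-- [N4] `φ ≡ 1` modulo the maximal ideal of the Gauss valuation. -/
theorem v_phi_sub_one_lt {c₀ : K} (hc₀ : c₀ ≠ 0)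
    (hval : 0 < S.P₀.ord (S.f - algebraMap K F c₀)) : G.v (S.phi c₀ - 1) < 1 := by
  have hφ := S.v_phi hc₀ hval
  have hle : G.v (S.phi c₀ - 1) ≤ 1 := by
    refine le_trans (G.v.map_sub _ _) ?_
    rw [hφ, map_one, max_self]
  by_contra hcon
  have hy : G.v (S.phi c₀ - 1) = 1 := le_antisymm hle (not_lt.mp hcon)
  obtain ⟨b, -, hb⟩ := S.red_const_of_ord hφ (S.ord_phi hc₀)
  refine S.not_red_const_of_zero_at_P₀ hy ?_ (S.ord_P₀_phi_sub_one hc₀ hval) (b - 1) ?_
  · intro R hR
    exact S.ord_phi_sub_one_nonneg_out hc₀ R (fun i h' => S.hP₀ i (hR ▸ h'))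
  · rw [G.red_sub hφ.le (by simp), G.red_one, hb]; simp

theorem red_phi {c₀ : K} (hc₀ : c₀ ≠ 0)
    (hval : 0 < S.P₀.ord (S.f - algebraMap K F c₀)) : G.red (S.phi c₀) = 1 := by
  have h1 := S.v_phi_sub_one_lt hc₀ hval
  have h2 : S.phi c₀ = (S.phi c₀ - 1) + 1 := by ring
  rw [h2, G.red_add _ _ h1.le (by simp), (G.red_eq_zero_iff _ h1.le).mpr h1, G.red_one, zero_add]


/-! ### The local estimate -/

theorem tau_ne_zero (i : ι) (hPP : S.P i ≠ S.P' i) : S.τ i ≠ 0 := by
  classical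
  intro h0
  have h1 := S.ht_ord i (S.P i) (S.hP i)
  have h2 := S.hs_ord i (S.P i) (S.hP i)
  rw [h0, map_zero, add_zero, h2] at h1
  simp [hPP] at h1

/-- [M2] If `u = l (φ - 1)` is a Gauss unit then its reduction has at most a simple pole at
each `Q_i`. -/
theorem neg_one_le_ord_red_u {c₀ : K} (hc₀ : c₀ ≠ 0)
    (hval : 0 < S.P₀.ord (S.f - algebraMap K F c₀)) (l : K) (hl : l ≠ 0)
    (hu : G.v (algebraMap K F l * (S.phi c₀ - 1)) = 1) (i : ι) :
    -1 ≤ (S.Q i).ord (G.red (algebraMap K F l * (S.phi c₀ - 1))) := by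
  classical
  have hφ0 := S.phi_ne_zero hc₀
  by_cases hPP : S.P i = S.P' i
  · have hf0 : ∀ R : Place K F, G.r R = S.Q i → R.ord S.f = 0 := by
      intro R hR; rw [S.hf_in i R hR, hPP]; simp
    have := G.ord_red_nonneg hu (S.Q i) (fun R hR => by
      rw [ord_const_mul R l hl]
      apply ord_sub_nonneg
      · rw [S.ord_phi hc₀, hf0 R hR]; simp
      · simp)
    exact le_trans (by norm_num) this
  · -- the main case
    have hτ0 := S.tau_ne_zero i hPP
    set s := S.s i with hs_def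
    set t := S.t i with ht_def
    set τF := algebraMap K F (S.τ i) with hτF_def
    set φ := S.phi c₀ with hφ_def
    have hτF0 : τF ≠ 0 := by simpa [hτF_def] using hτ0
    have hs0 : s ≠ 0 := S.s_ne_zero i
    have ht0 : t ≠ 0 := S.t_ne_zero i
    have hvs : G.v s = 1 := S.hs i
    have hvt : G.v t = 1 := S.v_t i
    have hts : t = s + τF := rfl
    -- `x = t / s`
    set x := t / s with hx_def
    have hvx : G.v x = 1 := by rw [hx_def, map_div₀, hvs, hvt, div_one]
    have hredx : G.red x = 1 := by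
      rw [hx_def, div_eq_mul_inv, G.red_mul _ _ hvt.le (G.v_inv_eq_one hvs).le, G.red_inv hvs,
        S.red_t i, mul_inv_cancel₀ (G.red_ne_zero hvs)]
    -- `V = φ (s/t)^m`
    set V := φ * (s / t) ^ S.m with hV_def
    have hvφ : G.v φ = 1 := S.v_phi hc₀ hval
    have hvV : G.v V = 1 := by rw [hV_def, map_mul, hvφ, S.v_st i, one_mul]
    have hredV : G.red V = 1 := by
      rw [hV_def, G.red_mul _ _ hvφ.le (S.v_st i).le, S.red_phi hc₀ hval, S.red_st i, one_mul]
    have hordV : ∀ R : Place K F, G.r R = S.Q i → R.ord V = 0 := by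
      intro R hR
      rw [hV_def, R.ord_mul hφ0 (pow_ne_zero _ (div_ne_zero hs0 ht0)), S.ord_phi hc₀,
        S.ord_st i R hR]; simp
    -- `y = V - 1`
    set y := V - 1 with hy_def
    have hvy_le : G.v y ≤ 1 := by
      refine le_trans (G.v.map_sub _ _) ?_
      rw [hvV, map_one, max_self]
    have hvy : G.v y < 1 := by
      rw [← G.red_eq_zero_iff _ hvy_le, hy_def, G.red_sub hvV.le (by simp), hredV, G.red_one,
        sub_self]
    have hordy : ∀ R : Place K F, G.r R = S.Q i → 0 ≤ R.ord y := by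
      intro R hR
      apply ord_sub_nonneg
      · rw [hordV R hR]
      · simp
    -- the geometric sum
    set Sg := ∑ a ∈ Finset.range S.m, x ^ a with hSg_def
    have hSg := G.red_sum (Finset.range S.m) (fun a => x ^ a)
      (fun a _ => by rw [map_pow, hvx, one_pow])
    have hredSg : G.red Sg = algebraMap k Fb (S.m : k) := by
      rw [hSg_def, hSg.1]
      have : ∀ a ∈ Finset.range S.m, G.red (x ^ a) = 1 := by
        intro a _; rw [G.red_pow hvx.le, hredx, one_pow]
      rw [Finset.sum_congr rfl this]; simp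
    set B := s⁻¹ * Sg with hB_def
    have hvB_le : G.v B ≤ 1 := by
      rw [hB_def, map_mul, G.v_inv_eq_one hvs, one_mul]; exact hSg.2
    have hredB : G.red B = (G.red s)⁻¹ * algebraMap k Fb (S.m : k) := by
      rw [hB_def, G.red_mul _ _ (G.v_inv_eq_one hvs).le hSg.2, G.red_inv hvs, hredSg]
    have hmF : algebraMap k Fb (S.m : k) ≠ 0 := (map_ne_zero (algebraMap k Fb)).mpr S.hmk
    have hredB0 : G.red B ≠ 0 := by
      rw [hredB]; exact mul_ne_zero (inv_ne_zero (G.red_ne_zero hvs)) hmF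
    have hordB : (S.Q i).ord (G.red B) = -1 := by
      rw [hredB, (S.Q i).ord_mul (inv_ne_zero (G.red_ne_zero hvs)) hmF, (S.Q i).ord_inv,
        S.hsQ i, PlaceLemmas.ord_algebraMap]; norm_num
    have hvB : G.v B = 1 := by
      refine le_antisymm hvB_le (not_lt.mp fun h => hredB0 ?_)
      exact (G.red_eq_zero_iff _ hvB_le).mpr h
    -- the identity `φ - 1 = τF (V B) + y`
    have hid : φ - 1 = τF * (V * B) + y := by
      have hx1 : x - 1 = τF * s⁻¹ := by
        rw [hx_def, hts]; field_simp; ring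
      have h1 : x ^ S.m - 1 = τF * B := by
        rw [← mul_geom_sum x S.m, hx1, hB_def, mul_assoc]
      have h2 : φ = V * x ^ S.m := by
        rw [hV_def, hx_def, mul_assoc, ← mul_pow]
        have : s / t * (t / s) = 1 := by field_simp
        rw [this, one_pow, mul_one]
      have h3 : φ - 1 = V * (x ^ S.m - 1) + (V - 1) := by
        nth_rewrite 1 [h2]; ring
      rw [h3, h1, hy_def]; ring
    set w := φ - 1 with hw_def
    have hvVB : G.v (V * B) = 1 := by rw [map_mul, hvV, hvB, one_mul]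
    have hva : G.v (τF * (V * B)) = G.v τF := by rw [map_mul, hvVB, mul_one]
    have hredVB : G.red (V * B) = G.red B := by
      rw [G.red_mul _ _ hvV.le hvB.le, hredV, one_mul]
    -- no cancellation
    have key : G.v τF ≤ G.v w ∧ G.v y ≤ G.v w := by
      rcases lt_trichotomy (G.v (τF * (V * B))) (G.v y) with h | h | h
      · have : G.v w = G.v y := by rw [hid]; exact G.v.map_add_eq_of_lt_right h
        rw [this]; exact ⟨by rw [← hva]; exact h.le, le_rfl⟩
      · by_contra hcon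
        have hlt : G.v w < G.v τF := by
          by_contra h'
          push Not at h'
          exact hcon ⟨h', by rw [← h, hva]; exact h'⟩
        -- divide by `τF`
        have hvτF0 : G.v τF ≠ 0 := (Valuation.ne_zero_iff _).mpr hτF0
        have hvyτ : G.v (y / τF) = 1 := by
          rw [map_div₀, ← h, hva]; exact div_self hvτF0
        have hz : w / τF = V * B + y / τF := by
          rw [hid]; field_simp
        have hvz : G.v (w / τF) < 1 := by
          rw [map_div₀]; exact (div_lt_one₀ (zero_lt_iff.mpr hvτF0)).mpr hlt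
        have hred0 : G.red (V * B + y / τF) = 0 := by
          rw [← hz]; exact (G.red_eq_zero_iff _ hvz.le).mpr hvz
        rw [G.red_add _ _ hvVB.le hvyτ.le, hredVB] at hred0
        have hyτ : G.red (y / τF) = -G.red B := eq_neg_of_add_eq_zero_right hred0
        have hnn := G.ord_red_nonneg hvyτ (S.Q i) (fun R hR => by
          have hy0 : y ≠ 0 := by
            intro hy0; rw [hy0] at hvyτ; simp at hvyτ
          rw [ord_div R hy0 hτF0, hτF_def, PlaceLemmas.ord_algebraMap, sub_zero]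
          exact hordy R hR)
        rw [hyτ, PlaceLemmas.ord_neg, hordB] at hnn
        omega
      · have : G.v w = G.v (τF * (V * B)) := by rw [hid]; exact G.v.map_add_eq_of_lt_left h
        rw [this, hva]; exact ⟨le_rfl, by rw [← hva]; exact h.le⟩
    -- assemble
    set lF := algebraMap K F l with hlF_def
    have hlF0 : lF ≠ 0 := by simpa [hlF_def] using hl
    have hvl : G.v lF * G.v w = 1 := by rw [← map_mul]; exact hu
    have hvlτ : G.v (lF * τF) ≤ 1 := by
      rw [map_mul, ← hvl]; exact mul_le_mul_right key.1 _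
    have hvly : G.v (lF * y) ≤ 1 := by
      rw [map_mul, ← hvl]; exact mul_le_mul_right key.2 _
    have hu_eq : lF * w = (lF * τF) * (V * B) + lF * y := by rw [hid]; ring
    rw [hu_eq, G.red_add _ _ (by rw [map_mul, hvVB, mul_one]; exact hvlτ) hvly,
      G.red_mul _ _ hvlτ hvVB.le, hredVB]
    apply neg_one_le_ord_add
    · by_cases h0 : G.red (lF * τF) = 0
      · rw [h0, zero_mul]; simp
      · have hv1 : G.v (lF * τF) = 1 := by
          refine le_antisymm hvlτ (not_lt.mp fun h => h0 ?_)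
          exact (G.red_eq_zero_iff _ hvlτ).mpr h
        have hconst : lF * τF = algebraMap K F (l * S.τ i) := by
          rw [hlF_def, hτF_def, map_mul]
        rw [(S.Q i).ord_mul h0 hredB0, hordB]
        rw [hconst] at hv1 ⊢
        rw [G.ord_red_algebraMap hv1]; norm_num
    · by_cases h0 : G.red (lF * y) = 0
      · rw [h0]; simp
      · have hv1 : G.v (lF * y) = 1 := by
          refine le_antisymm hvly (not_lt.mp fun h => h0 ?_)
          exact (G.red_eq_zero_iff _ hvly).mpr h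
        apply G.ord_red_nonneg hv1
        intro R hR
        rw [hlF_def, ord_const_mul R l hl]
        exact hordy R hR


/-! ### The core lemma -/

theorem false_of_val {c₀ : K} (hc₀ : c₀ ≠ 0)
    (hval : 0 < S.P₀.ord (S.f - algebraMap K F c₀)) : False := by
  have hz := S.ord_P₀_phi_sub_one hc₀ hval
  have hw0 : S.phi c₀ - 1 ≠ 0 := by
    intro h; rw [h] at hz; simp at hz
  obtain ⟨l, hl, hu⟩ := G.scale (S.phi c₀ - 1) hw0
  have hA : ∀ Q', (∀ i, Q' ≠ S.Q i) →
      0 ≤ Q'.ord (G.red (algebraMap K F l * (S.phi c₀ - 1))) := by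
    intro Q' hQ'
    apply G.ord_red_nonneg hu
    intro R hR
    rw [ord_const_mul R l hl]
    exact S.ord_phi_sub_one_nonneg_out hc₀ R (fun i h => hQ' i (hR ▸ h))
  have hB := fun i => S.neg_one_le_ord_red_u hc₀ hval l hl hu i
  obtain ⟨b, hb⟩ := S.hL _ hA hB
  refine S.not_red_const_of_zero_at_P₀ hu ?_ ?_ b hb
  · intro R hR
    rw [ord_const_mul R l hl]
    exact S.ord_phi_sub_one_nonneg_out hc₀ R (fun i h' => S.hP₀ i (hR ▸ h'))
  · rw [ord_const_mul _ l hl]; exact hz

/-- **Core lemma.**  If `m (∑ P_i - ∑ P'_i) = div f`, `r P_i = r P'_i = Q_i`, `L̄(∑ Q_i) = k`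
and `char k ∤ m`, then `P_i = P'_i` for all `i`.  (`c₀` is the value of `f` at the auxiliary
place `P₀`.) -/
theorem eq_of_val (c₀ : K) (hc₀ : c₀ ≠ 0)
    (hval : S.f = algebraMap K F c₀ ∨ 0 < S.P₀.ord (S.f - algebraMap K F c₀)) :
    ∀ i, S.P i = S.P' i := by
  classical
  rcases hval with h | h
  · intro i
    by_contra hPP
    have h1 := S.hf_in i (S.P i) (S.hP i)
    rw [h, PlaceLemmas.ord_algebraMap] at h1
    simp only [if_true, if_neg hPP, sub_zero, mul_one] at h1
    exact S.m_ne_zero (by exact_mod_cast h1.symm)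
  · exact (S.false_of_val hc₀ h).elim

end CoreSetup

end Fermat.Agent.S18.H71
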