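import Fermat.Agent.S18.H71_CoreLemma

/-!
# S18, final step without Čech: normal form + core lemma

`isPrincipal_of_red_isPrincipal`: on an abstract reduction datum `GaussRed`, a degree-`0` divisor
`D` with `m D` principal (`char k ∤ m`) and principal reduction is principal, given Riemann's
inequality on `F` (genus `g`) and `g` distinct places `Q_i` of the special fibre with
`L̄(∑ Q_i) = k` carrying good coordinates.  See board posts #1674, #1782.
-/

set_option autoImplicit false

noncomputable section

namespace Fermat.Agent.S18.H71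

open AlgebraicCurve
open Fermat.Agent.S24.H24

section FinsumAux

variable {α : Type*}

/-- A finitely supported nonnegative integer function with total `1` is an indicator. -/
theorem exists_single_of_finsum_eq_one (h : α → ℤ) (hfin : (Function.support h).Finite)
    (hnn : ∀ a, 0 ≤ h a) (hsum : ∑ᶠ a, h a = 1) :
    ∃ a₁, h a₁ = 1 ∧ ∀ a, a ≠ a₁ → h a = 0 := by
  classical
  have hne : ∃ a₁, h a₁ ≠ 0 := by
    by_contra hcon
    push Not at hcon
    rw [finsum_congr hcon, finsum_zero] at hsum
    exact zero_ne_one hsum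
  obtain ⟨a₁, ha₁⟩ := hne
  have ha₁s : a₁ ∈ hfin.toFinset := by simpa using ha₁
  rw [finsum_eq_sum_of_support_subset h (s := hfin.toFinset) (by simp),
    ← Finset.add_sum_erase _ _ ha₁s] at hsum
  have h1 : 1 ≤ h a₁ := by have := hnn a₁; omega
  have h2 : 0 ≤ ∑ a ∈ hfin.toFinset.erase a₁, h a := Finset.sum_nonneg fun a _ => hnn a
  have h3 : h a₁ = 1 := by omega
  have h4 : ∑ a ∈ hfin.toFinset.erase a₁, h a = 0 := by omega
  refine ⟨a₁, h3, fun a ha => ?_⟩
  by_cases has : a ∈ hfin.toFinset
  · exact (Finset.sum_eq_zero_iff_of_nonneg fun a _ => hnn a).mp h4 a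
      (Finset.mem_erase.mpr ⟨ha, has⟩)
  · simpa using has

/-- A finitely supported nonnegative integer function with total `0` vanishes. -/
theorem eq_zero_of_finsum_eq_zero (h : α → ℤ) (hfin : (Function.support h).Finite)
    (hnn : ∀ a, 0 ≤ h a) (hsum : ∑ᶠ a, h a = 0) : ∀ a, h a = 0 := by
  classical
  intro a
  rw [finsum_eq_sum_of_support_subset h (s := hfin.toFinset) (by simp)] at hsum
  by_cases has : a ∈ hfin.toFinset
  · exact (Finset.sum_eq_zero_iff_of_nonneg fun a _ => hnn a).mp hsum a has
  · simpa using has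

end FinsumAux

variable {K F k Fb Γ : Type*} [Field K] [Field F] [Algebra K F] [Field k] [Field Fb]
  [Algebra k Fb] [LinearOrderedCommGroupWithZero Γ]

open scoped Classical in
/-- The divisor `∑ i, P' i` evaluated at a place (for injective `P'`). -/
theorem sum_single_apply {ι : Type*} [Fintype ι] (P' : ι → Place K F)
    (hinj : Function.Injective P') (R : Place K F) :
    (∑ i, Finsupp.single (P' i) (1 : ℤ)) R = if ∃ i, P' i = R then 1 else 0 := by
  classical
  rw [Finsupp.finsetSum_apply]
  simp only [Finsupp.single_apply]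
  split_ifs with h
  · obtain ⟨i, rfl⟩ := h
    rw [Finset.sum_eq_single i]
    · simp
    · intro j _ hji
      rw [if_neg (fun h' => hji (hinj h'))]
    · simp
  · push Not at h
    exact Finset.sum_eq_zero fun i _ => if_neg (h i)


open scoped Classical in
/-- **Final step of S18, abstract form.**  A divisor `D` of degree `0` on `F` with `m D`
principal, `char k ∤ m`, whose reduction `r_* D` is principal, is itself principal — provided
Riemann's inequality holds on `F` with genus `g` and there are `g` distinct places `Q_i` of `Fb`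
with `L̄(∑ Q_i) = k`, each carrying a good coordinate. -/
theorem isPrincipal_of_red_isPrincipal (G : GaussRed K F k Fb Γ)
    (m : ℕ) (hmk : (m : k) ≠ 0) (g : ℕ)
    (hdeg1 : ∀ P : Place K F, P.deg = 1)
    (hRiemann : ∀ D : Divisor K F, Divisor.degree D = g →
      ∃ ψ : F, ψ ≠ 0 ∧ ∀ P : Place K F, 0 ≤ P.ord ψ + D P)
    (Q : Fin g → Place k Fb) (hQ : Function.Injective Q)
    (hNS : ∀ ψ : Fb, (∀ Q', (∀ i, Q' ≠ Q i) → 0 ≤ Q'.ord ψ) → (∀ i, -1 ≤ (Q i).ord ψ) →
      ∃ b : k, ψ = algebraMap k Fb b)
    (x : Fin g → F)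
    (hx : ∀ i, ∀ P : Place K F, G.r P = Q i → ∃ a : K, G.v (x i - algebraMap K F a) = 1 ∧
      (Q i).ord (G.red (x i - algebraMap K F a)) = 1 ∧
      ∀ R : Place K F, G.r R = Q i → R.ord (x i - algebraMap K F a) = if R = P then 1 else 0)
    (hsurj : ∀ i, ∃ P : Place K F, G.r P = Q i)
    (P₀ : Place K F) (hP₀ : ∀ i, G.r P₀ ≠ Q i)
    (hval₀ : ∀ f : F, f ≠ 0 → P₀.ord f = 0 →
      ∃ c : K, c ≠ 0 ∧ (f = algebraMap K F c ∨ 0 < P₀.ord (f - algebraMap K F c)))
    (D : Divisor K F) (hD0 : Divisor.degree D = 0)
    (f₀ : F) (hf₀ : f₀ ≠ 0) (hDf : ∀ P : Place K F, (m : ℤ) * D P = P.ord f₀)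
    (γ : Fb) (hγ : γ ≠ 0)
    (hDγ : ∀ Q' : Place k Fb, (∑ᶠ P : Place K F, if G.r P = Q' then D P else 0) = Q'.ord γ) :
    Divisor.IsPrincipal D := by
  classical
  choose P' hP' using hsurj
  have hP'inj : Function.Injective P' := by
    intro i j hij
    apply hQ
    rw [← hP' i, ← hP' j, hij]
  set E' : Divisor K F := ∑ i, Finsupp.single (P' i) (1 : ℤ) with hE'
  have hE'app : ∀ R : Place K F, E' R = if ∃ i, P' i = R then 1 else 0 := by
    intro R
    rw [hE']
    convert sum_single_apply P' hP'inj R
  have hdegE' : Divisor.degree E' = g := by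
    rw [hE', map_sum]
    simp [Divisor.degree_single, hdeg1]
  -- Riemann
  obtain ⟨ψ₁, hψ₁0, hψ₁⟩ := hRiemann (D + E') (by rw [map_add, hD0, hdegE', zero_add])
  obtain ⟨c, hc, hvψ⟩ := G.scale ψ₁ hψ₁0
  set ψ := algebraMap K F c * ψ₁ with hψdef
  have hψ0 : ψ ≠ 0 := G.ne_zero_of_v_eq_one hvψ
  have hordψ : ∀ R : Place K F, R.ord ψ = R.ord ψ₁ := fun R => ord_const_mul R c hc ψ₁
  -- the effective divisor `E = div ψ + D + E'`
  set E : Place K F → ℤ := fun R => R.ord ψ + D R + E' R with hEdef
  have hEnn : ∀ R, 0 ≤ E R := by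
    intro R
    have := hψ₁ R
    rw [Finsupp.add_apply] at this
    rw [hEdef]; simp only; rw [hordψ]; linarith
  -- supports
  have hsupp1 : ∀ Q' : Place k Fb,
      (Function.support fun P : Place K F => if G.r P = Q' then P.ord ψ else 0).Finite :=
    fun Q' => G.support_fiber_finite hψ0 Q'
  have hsupp2 : ∀ Q' : Place k Fb,
      (Function.support fun P : Place K F => if G.r P = Q' then D P else 0).Finite := by
    intro Q'
    refine D.support.finite_toSet.subset ?_
    intro P hP
    simp only [Function.mem_support, ne_eq] at hP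
    simp only [Finset.mem_coe, Finsupp.mem_support_iff]
    intro h0; apply hP; rw [h0]; simp
  have hsupp3 : ∀ Q' : Place k Fb,
      (Function.support fun P : Place K F => if G.r P = Q' then E' P else 0).Finite := by
    intro Q'
    refine E'.support.finite_toSet.subset ?_
    intro P hP
    simp only [Function.mem_support, ne_eq] at hP
    simp only [Finset.mem_coe, Finsupp.mem_support_iff]
    intro h0; apply hP; rw [h0]; simp
  -- the `E'`-part of the fibre sums
  have hE'out : ∀ Q' : Place k Fb, (∀ i, Q' ≠ Q i) →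
      (∑ᶠ P : Place K F, if G.r P = Q' then E' P else 0) = 0 := by
    intro Q' hQ'
    apply finsum_eq_zero_of_forall_eq_zero
    intro P
    split_ifs with h
    · rw [hE'app P, if_neg]
      rintro ⟨i, rfl⟩
      exact hQ' i (by rw [← h, hP' i])
    · rfl
  have hE'in : ∀ i, (∑ᶠ P : Place K F, if G.r P = Q i then E' P else 0) = 1 := by
    intro i
    have : (fun P : Place K F => if G.r P = Q i then E' P else 0)
        = fun P => if P = P' i then 1 else 0 := by
      funext P
      by_cases hP : P = P' i
      · rw [if_pos hP, hP, if_pos (hP' i), hE'app, if_pos ⟨i, rfl⟩]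
      · rw [if_neg hP]
        split_ifs with h
        · rw [hE'app P, if_neg]
          rintro ⟨j, rfl⟩
          have : j = i := hQ (by rw [← hP' j, h])
          exact hP (by rw [this])
        · rfl
    rw [this, finsum_eq_single _ (P' i) (fun P hP => if_neg hP)]
    simp
  -- fibre sums of `E`
  have hEsum : ∀ Q' : Place k Fb, (∑ᶠ P : Place K F, if G.r P = Q' then E P else 0)
      = Q'.ord (G.red ψ * γ) + ∑ᶠ P : Place K F, if G.r P = Q' then E' P else 0 := by
    intro Q'
    have h1 : (fun P : Place K F => if G.r P = Q' then E P else 0)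
        = fun P => ((if G.r P = Q' then P.ord ψ else 0) + (if G.r P = Q' then D P else 0))
            + (if G.r P = Q' then E' P else 0) := by
      funext P
      split_ifs <;> simp [hEdef]
    rw [h1, finsum_add_distrib ((hsupp1 Q').union (hsupp2 Q') |>.subset
        (Function.support_add _ _)) (hsupp3 Q'),
      finsum_add_distrib (hsupp1 Q') (hsupp2 Q'), ← G.ord_red ψ hvψ Q', hDγ Q',
      Q'.ord_mul (G.red_ne_zero hvψ) hγ]
  -- `red ψ * γ` is constant
  have hsumnn : ∀ Q' : Place k Fb, 0 ≤ ∑ᶠ P : Place K F, if G.r P = Q' then E P else 0 := by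
    intro Q'
    apply finsum_nonneg
    intro P
    split_ifs
    · exact hEnn P
    · exact le_rfl
  obtain ⟨b, hb⟩ := hNS (G.red ψ * γ)
    (fun Q' hQ' => by
      have := hsumnn Q'
      rw [hEsum Q', hE'out Q' hQ', add_zero] at this
      exact this)
    (fun i => by
      have := hsumnn (Q i)
      rw [hEsum (Q i), hE'in i] at this
      linarith)
  have hb0 : b ≠ 0 := by
    rintro rfl
    rw [map_zero] at hb
    exact mul_ne_zero (G.red_ne_zero hvψ) hγ hb
  have hordconst : ∀ Q' : Place k Fb, Q'.ord (G.red ψ * γ) = 0 := by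
    intro Q'; rw [hb, PlaceLemmas.ord_algebraMap]
  -- supports of the fibre functions of `E`
  have hsuppE : ∀ Q' : Place k Fb,
      (Function.support fun P : Place K F => if G.r P = Q' then E P else 0).Finite := by
    intro Q'
    refine (((hsupp1 Q').union (hsupp2 Q')).union (hsupp3 Q')).subset ?_
    intro P hP
    simp only [Function.mem_support, ne_eq] at hP
    by_contra hcon
    simp only [Set.mem_union, Function.mem_support, ne_eq, not_or, not_not] at hcon
    apply hP
    by_cases h : G.r P = Q'
    · simp only [if_pos h] at hcon ⊢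
      simp only [hEdef]
      rw [hcon.1.1, hcon.1.2, hcon.2]; simp
    · rw [if_neg h]
  have hnnE : ∀ Q' : Place k Fb, ∀ P : Place K F, 0 ≤ (if G.r P = Q' then E P else 0) := by
    intro Q' P
    split_ifs
    · exact hEnn P
    · exact le_rfl
  -- outside the discs, `E = 0`
  have hEout : ∀ R : Place K F, (∀ i, G.r R ≠ Q i) → E R = 0 := by
    intro R hR
    have hs : (∑ᶠ P : Place K F, if G.r P = G.r R then E P else 0) = 0 := by
      rw [hEsum, hordconst, hE'out _ (fun i h => hR i h), add_zero]
    have := eq_zero_of_finsum_eq_zero _ (hsuppE (G.r R)) (hnnE (G.r R)) hs R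
    simpa using this
  -- on the disc of `Q i`, `E` is the indicator of one point `P i`
  have hEin : ∀ i, ∃ Pi : Place K F, G.r Pi = Q i ∧
      ∀ R : Place K F, G.r R = Q i → E R = if R = Pi then 1 else 0 := by
    intro i
    have hs : (∑ᶠ P : Place K F, if G.r P = Q i then E P else 0) = 1 := by
      rw [hEsum, hordconst, hE'in i, zero_add]
    obtain ⟨Pi, hPi1, hPi2⟩ :=
      exists_single_of_finsum_eq_one _ (hsuppE (Q i)) (hnnE (Q i)) hs
    have hrPi : G.r Pi = Q i := by
      by_contra h
      rw [if_neg h] at hPi1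
      exact zero_ne_one hPi1
    refine ⟨Pi, hrPi, fun R hR => ?_⟩
    by_cases hRP : R = Pi
    · rw [if_pos hRP, hRP]
      simpa [hrPi] using hPi1
    · rw [if_neg hRP]
      have := hPi2 R hRP
      simpa [hR] using this
  choose P hP hEP using hEin
  -- the function `f = ψ^m f₀` with divisor `m (E - E')`
  set f := ψ ^ m * f₀ with hfdef
  have hf0 : f ≠ 0 := mul_ne_zero (pow_ne_zero _ hψ0) hf₀
  have hordf : ∀ R : Place K F, R.ord f = m * (E R - E' R) := by
    intro R
    rw [hfdef, R.ord_mul (pow_ne_zero _ hψ0) hf₀, ord_pow, ← hDf R]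
    simp only [hEdef]; ring
  have hE'fib : ∀ i, ∀ R : Place K F, G.r R = Q i → E' R = if R = P' i then 1 else 0 := by
    intro i R hR
    rw [hE'app R]
    by_cases hRP : R = P' i
    · rw [if_pos hRP, if_pos ⟨i, hRP.symm⟩]
    · rw [if_neg hRP, if_neg]
      rintro ⟨j, rfl⟩
      have : j = i := hQ (by rw [← hP' j, hR])
      exact hRP (by rw [this])
  have hE'outR : ∀ R : Place K F, (∀ i, G.r R ≠ Q i) → E' R = 0 := by
    intro R hR
    rw [hE'app R, if_neg]
    rintro ⟨j, rfl⟩
    exact hR j (hP' j)
  -- coordinates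
  choose a ha using fun i => hx i (P i) (hP i)
  choose a' ha' using fun i => hx i (P' i) (hP' i)
  have hτ : ∀ i, G.v (algebraMap K F (a i - a' i)) < 1 := by
    intro i
    have hs := (ha i).1
    have ht := (ha' i).1
    have heq : x i - algebraMap K F (a' i) = (x i - algebraMap K F (a i))
        + algebraMap K F (a i - a' i) := by rw [map_sub]; ring
    by_contra hcon
    push Not at hcon
    rcases hcon.lt_or_eq with h | h
    · -- `v τ > 1` forces `v t > 1`
      rw [heq, G.v.map_add_eq_of_lt_right (by rw [hs]; exact h)] at ht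
      rw [ht] at h; exact lt_irrefl _ h
    · -- `v τ = 1`: then `red τ = red t - red s` vanishes at `Q i`
      have h1 : G.red (algebraMap K F (a i - a' i))
          = G.red (x i - algebraMap K F (a' i)) - G.red (x i - algebraMap K F (a i)) := by
        rw [heq, G.red_add _ _ hs.le h.symm.le]; ring
      have h2 := G.ord_red_algebraMap h.symm (Q i)
      have hτne := G.red_ne_zero h.symm
      have h4 : G.red (x i - algebraMap K F (a' i)) / G.red (algebraMap K F (a i - a' i))
          - G.red (x i - algebraMap K F (a i)) / G.red (algebraMap K F (a i - a' i)) = 1 := by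
        rw [← sub_div, ← h1, div_self hτne]
      -- `1 = u₁ - u₂` with `ord u₁ = ord u₂ = 1`: impossible
      have h5 : 1 ≤ (Q i).ord (G.red (x i - algebraMap K F (a' i)) / G.red (algebraMap K F (a i - a' i))
          - G.red (x i - algebraMap K F (a i)) / G.red (algebraMap K F (a i - a' i))) := by
        have hu1 : (Q i).ord (G.red (x i - algebraMap K F (a' i))
            / G.red (algebraMap K F (a i - a' i))) = 1 := by
          rw [ord_div _ (G.red_ne_zero ht) hτne, (ha' i).2.1, h2]; norm_num
        have hu2 : (Q i).ord (G.red (x i - algebraMap K F (a i))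
            / G.red (algebraMap K F (a i - a' i))) = 1 := by
          rw [ord_div _ (G.red_ne_zero hs) hτne, (ha i).2.1, h2]; norm_num
        have hne1 : G.red (x i - algebraMap K F (a' i)) / G.red (algebraMap K F (a i - a' i)) ≠ 0 :=
          div_ne_zero (G.red_ne_zero ht) hτne
        have hne2 : G.red (x i - algebraMap K F (a i)) / G.red (algebraMap K F (a i - a' i)) ≠ 0 :=
          div_ne_zero (G.red_ne_zero hs) hτne
        have := PlaceLemmas.ord_sub_ge (Q i) hne1 hne2 (by rw [h4]; exact one_ne_zero)
        rw [hu1, hu2, min_self] at this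
        exact this
      rw [h4] at h5
      simp at h5
  -- the core lemma
  let S : CoreSetup G (Fin g) :=
    { m := m
      hmk := hmk
      Q := Q
      P := P
      P' := P'
      hP := hP
      hP' := hP'
      s := fun i => x i - algebraMap K F (a i)
      τ := fun i => a i - a' i
      hs := fun i => (ha i).1
      hτ := hτ
      hsQ := fun i => (ha i).2.1
      hs_ord := fun i R hR => (ha i).2.2 R hR
      ht_ord := fun i R hR => by
        have : x i - algebraMap K F (a i) + algebraMap K F (a i - a' i)
            = x i - algebraMap K F (a' i) := by rw [map_sub]; ring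
        rw [this]; exact (ha' i).2.2 R hR
      f := f
      hf := hf0
      hf_out := fun R hR => by rw [hordf R, hEout R hR, hE'outR R hR]; simp
      hf_in := fun i R hR => by rw [hordf R, hEP i R hR, hE'fib i R hR]
      hL := hNS
      P₀ := P₀
      hP₀ := hP₀ }
  have hfP₀ : P₀.ord f = 0 := S.hf_out P₀ hP₀
  obtain ⟨c₀, hc₀, hval⟩ := hval₀ f hf0 hfP₀
  have hPP : ∀ i, P i = P' i := S.eq_of_val c₀ hc₀ hval
  -- conclusion: `E = E'`, so `D = div ψ⁻¹`
  refine ⟨ψ⁻¹, inv_ne_zero hψ0, fun R => ?_⟩
  rw [R.ord_inv]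
  have hEE' : E R = E' R := by
    by_cases hR : ∃ i, G.r R = Q i
    · obtain ⟨i, hi⟩ := hR
      rw [hEP i R hi, hE'fib i R hi, hPP i]
    · push Not at hR
      rw [hEout R hR, hE'outR R hR]
  simp only [hEdef] at hEE'
  linarith

end Fermat.Agent.S18.H71
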