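import Mathlib
import Fermat.Prelude.Def_AlgebraicCurve_DivisorClassGroup
import Fermat.Agent.S24.H24_Basic

/-!
# S18, final step without Čech: abstract reduction datum

`GaussRed K F k Fb Γ`: a function field `F/K` with a "Gauss" valuation `v`, a reduction map
`red : F → Fb` (a ring homomorphism on `{v ≤ 1}` with kernel `{v < 1}`), and a map of places
`r : Place K F → Place k Fb` such that `ord_Q (red y) = ∑_{r P = Q} ord_P y` for `v y = 1`.
This is exactly what the frozen hypothesis `ReductionInputsModL` of S18 provides.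
-/

set_option autoImplicit false

noncomputable section

namespace Fermat.Agent.S18.H71

open AlgebraicCurve
open Fermat.Agent.S24.H24

open scoped Classical in
/-- Abstract reduction datum. -/
structure GaussRed (K F k Fb Γ : Type*) [Field K] [Field F] [Algebra K F] [Field k] [Field Fb]
    [Algebra k Fb] [LinearOrderedCommGroupWithZero Γ] where
  /-- the Gauss valuation (multiplicative notation: `v y ≤ 1` is "integral") -/
  v : Valuation F Γ
  /-- reduction of integral elements -/
  red : F → Fb
  /-- reduction of places -/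
  r : Place K F → Place k Fb
  red_one : red 1 = 1
  red_add : ∀ a b, v a ≤ 1 → v b ≤ 1 → red (a + b) = red a + red b
  red_mul : ∀ a b, v a ≤ 1 → v b ≤ 1 → red (a * b) = red a * red b
  red_eq_zero_iff : ∀ a, v a ≤ 1 → (red a = 0 ↔ v a < 1)
  /-- the value group of `F` is that of `K` -/
  scale : ∀ y : F, y ≠ 0 → ∃ c : K, c ≠ 0 ∧ v (algebraMap K F c * y) = 1
  /-- zeros and poles are finite in number -/
  fin_ord : ∀ y : F, y ≠ 0 → {P : Place K F | P.ord y ≠ 0}.Finite
  /-- compatibility of `r` with divisors of Gauss units -/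
  ord_red : ∀ y, v y = 1 → ∀ Q : Place k Fb,
    Q.ord (red y) = ∑ᶠ P : Place K F, (if r P = Q then P.ord y else 0)

namespace GaussRed

variable {K F k Fb Γ : Type*} [Field K] [Field F] [Algebra K F] [Field k] [Field Fb]
  [Algebra k Fb] [LinearOrderedCommGroupWithZero Γ] (G : GaussRed K F k Fb Γ)

theorem ne_zero_of_v_eq_one {y : F} (hy : G.v y = 1) : y ≠ 0 := by
  rintro rfl; simp at hy

theorem red_ne_zero {y : F} (hy : G.v y = 1) : G.red y ≠ 0 := by
  intro h
  have := (G.red_eq_zero_iff y hy.le).mp h
  rw [hy] at this; exact lt_irrefl _ this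

theorem red_zero : G.red 0 = 0 := by
  rw [G.red_eq_zero_iff 0 (by simp)]; simp

open scoped Classical in
theorem support_fiber_finite {y : F} (hy : y ≠ 0) (Q : Place k Fb) :
    (Function.support fun P : Place K F => if G.r P = Q then P.ord y else 0).Finite := by
  refine (G.fin_ord y hy).subset ?_
  intro P hP
  simp only [Function.mem_support, ne_eq] at hP
  simp only [Set.mem_ofPred_eq]
  intro h0
  apply hP
  rw [h0]; simp

/-- (a) no pole on the residue disc ⇒ the reduction is regular. -/
theorem ord_red_nonneg {y : F} (hy : G.v y = 1) (Q : Place k Fb)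
    (h : ∀ R : Place K F, G.r R = Q → 0 ≤ R.ord y) : 0 ≤ Q.ord (G.red y) := by
  classical
  rw [G.ord_red y hy Q]
  apply finsum_nonneg
  intro P
  split_ifs with hP
  · exact h P hP
  · exact le_rfl

/-- (b) no pole on the residue disc and a zero at `R₀` ⇒ the reduction vanishes at `Q`. -/
theorem le_ord_red {y : F} (hy : G.v y = 1) (Q : Place k Fb)
    (h : ∀ R : Place K F, G.r R = Q → 0 ≤ R.ord y) (R₀ : Place K F) (hR₀ : G.r R₀ = Q) :
    R₀.ord y ≤ Q.ord (G.red y) := by
  classical
  rw [G.ord_red y hy Q]
  have hsupp := G.support_fiber_finite (G.ne_zero_of_v_eq_one hy) Q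
  have hnn : ∀ P : Place K F, 0 ≤ (if G.r P = Q then P.ord y else 0) := by
    intro P; split_ifs with hP
    · exact h P hP
    · exact le_rfl
  have := single_le_finsum R₀ hsupp hnn
  simpa [hR₀] using this

theorem red_neg {a : F} (ha : G.v a ≤ 1) : G.red (-a) = -G.red a := by
  have h := G.red_add a (-a) ha (by simpa using ha)
  rw [add_neg_cancel, G.red_zero] at h
  exact (neg_eq_of_add_eq_zero_right h.symm).symm

theorem red_sub {a b : F} (ha : G.v a ≤ 1) (hb : G.v b ≤ 1) :
    G.red (a - b) = G.red a - G.red b := by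
  rw [sub_eq_add_neg, G.red_add a (-b) ha (by simpa using hb), G.red_neg hb, sub_eq_add_neg]

theorem v_inv_eq_one {a : F} (ha : G.v a = 1) : G.v a⁻¹ = 1 := by
  rw [map_inv₀, ha, inv_one]

theorem red_inv {a : F} (ha : G.v a = 1) : G.red a⁻¹ = (G.red a)⁻¹ := by
  have h := G.red_mul a a⁻¹ ha.le (G.v_inv_eq_one ha).le
  rw [mul_inv_cancel₀ (G.ne_zero_of_v_eq_one ha), G.red_one] at h
  exact eq_inv_of_mul_eq_one_right h.symm

theorem red_pow {a : F} (ha : G.v a ≤ 1) (n : ℕ) : G.red (a ^ n) = G.red a ^ n := by
  induction n with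
  | zero => simp [G.red_one]
  | succ n ih =>
    rw [pow_succ, G.red_mul _ _ (by rw [map_pow]; exact pow_le_one₀ zero_le ha) ha, ih, pow_succ]

theorem red_sum {ι : Type*} (s : Finset ι) (f : ι → F) (hf : ∀ i ∈ s, G.v (f i) ≤ 1) :
    G.red (∑ i ∈ s, f i) = ∑ i ∈ s, G.red (f i) ∧ G.v (∑ i ∈ s, f i) ≤ 1 := by
  classical
  induction s using Finset.induction_on with
  | empty => simp [G.red_zero]
  | insert a s ha ih =>
    have h1 := ih (fun i hi => hf i (Finset.mem_insert_of_mem hi))
    have h2 := hf a (Finset.mem_insert_self a s)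
    rw [Finset.sum_insert ha, Finset.sum_insert ha]
    refine ⟨?_, ?_⟩
    · rw [G.red_add _ _ h2 h1.2, h1.1]
    · exact le_trans (G.v.map_add _ _) (max_le h2 h1.2)

/-- A constant of Gauss norm one reduces to a function without zeros and poles. -/
theorem ord_red_algebraMap {c : K} (hc : G.v (algebraMap K F c) = 1) (Q : Place k Fb) :
    Q.ord (G.red (algebraMap K F c)) = 0 := by
  classical
  rw [G.ord_red _ hc Q]
  have : (fun P : Place K F => if G.r P = Q then P.ord (algebraMap K F c) else 0) = fun _ => 0 := by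
    funext P
    rw [PlaceLemmas.ord_algebraMap]; simp
  rw [this]; simp

end GaussRed

end Fermat.Agent.S18.H71
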