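import Fermat.Agent.S18.H71_Glue
import Fermat.Agent.S18.H84_RedModelFinal

/-!
# S18 (helper71): `GaussRed` from helper84's `RedModel`

`GaussRed.ofRedModel M hdiv` + the dictionary lemmas (`v ≤ 1 ↔ ∈ O`, `red = res`, constants).
-/

set_option autoImplicit false

noncomputable section

namespace Fermat.Agent.S18.H71

open AlgebraicCurve
open Fermat.Agent.S24.H24

variable {K F k Fb : Type*} [Field K] [Field F] [Algebra K F] [Field k] [Field Fb]
  [Algebra k Fb] {A : ValuationSubring K} {π : A →+* k} {r : Place K F → Place k Fb}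

/-- The abstract reduction datum of a `RedModel` (given that every function has a divisor). -/
def GaussRed.ofRedModel (M : H84.RedModel A π r)
    (hdiv : ∀ f : F, f ≠ 0 → ∃ D : Divisor K F, ∀ P, D P = P.ord f) :
    GaussRed K F k Fb M.O.ValueGroup :=
  GaussRed.ofValuationSubring M.O M.res r M.res_eq_zero_iff
    (fun y hy => by
      obtain ⟨c, hc, u, hu, hyu⟩ := M.exists_const_mul_unit y hy
      refine ⟨c⁻¹, inv_ne_zero hc, hu.unit, ?_⟩
      rw [hyu, IsUnit.unit_spec, ← mul_assoc, ← map_mul, inv_mul_cancel₀ hc, map_one, one_mul])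
    (fun y hy => by
      obtain ⟨D, hD⟩ := hdiv y hy
      refine D.support.finite_toSet.subset ?_
      intro P hP
      simp only [Set.mem_ofPred_eq] at hP
      simp only [Finset.mem_coe, Finsupp.mem_support_iff]
      rw [hD]; exact hP)
    M.ord_res

section Dict

variable (M : H84.RedModel A π r)
  (hdiv : ∀ f : F, f ≠ 0 → ∃ D : Divisor K F, ∀ P, D P = P.ord f)

@[simp] theorem GaussRed.ofRedModel_v : (GaussRed.ofRedModel M hdiv).v = M.O.valuation := rfl

@[simp] theorem GaussRed.ofRedModel_r : (GaussRed.ofRedModel M hdiv).r = r := rfl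

theorem GaussRed.ofRedModel_v_le_one_iff {y : F} :
    (GaussRed.ofRedModel M hdiv).v y ≤ 1 ↔ y ∈ M.O :=
  M.O.valuation_le_one_iff y

theorem GaussRed.ofRedModel_red_of_mem {y : F} (hy : y ∈ M.O) :
    (GaussRed.ofRedModel M hdiv).red y = M.res ⟨y, hy⟩ :=
  extendRed_of_mem M.O M.res hy

theorem GaussRed.ofRedModel_v_eq_one_iff {y : F} (hy : y ∈ M.O) :
    (GaussRed.ofRedModel M hdiv).v y = 1 ↔ M.res ⟨y, hy⟩ ≠ 0 := by
  rw [GaussRed.ofRedModel_v, ← M.O.valuation_eq_one_iff ⟨y, hy⟩, Ne, M.res_eq_zero_iff, not_not]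

theorem GaussRed.ofRedModel_v_algebraMap_le_one_iff {c : K} :
    (GaussRed.ofRedModel M hdiv).v (algebraMap K F c) ≤ 1 ↔ c ∈ A :=
  (GaussRed.ofRedModel_v_le_one_iff M hdiv).trans (M.const_mem_iff c)

theorem GaussRed.ofRedModel_red_algebraMap (a : A) :
    (GaussRed.ofRedModel M hdiv).red (algebraMap K F (a : K)) = algebraMap k Fb (π a) := by
  rw [GaussRed.ofRedModel_red_of_mem M hdiv ((M.const_mem_iff _).mpr a.2)]
  exact M.res_const a _

/-- constants of the special fibre lift (`hlift` of helper61's coordinate lemma) -/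
theorem GaussRed.ofRedModel_hlift (hπ : Function.Surjective π) (c : k) :
    ∃ a : K, (GaussRed.ofRedModel M hdiv).v (algebraMap K F a) ≤ 1 ∧
      (GaussRed.ofRedModel M hdiv).red (algebraMap K F a) = algebraMap k Fb c := by
  obtain ⟨a, rfl⟩ := hπ c
  exact ⟨a, (GaussRed.ofRedModel_v_algebraMap_le_one_iff M hdiv).mpr a.2,
    GaussRed.ofRedModel_red_algebraMap M hdiv a⟩

/-- integral constants reduce to constants (`hconstred` of helper61's coordinate lemma) -/
theorem GaussRed.ofRedModel_hconstred (a : K)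
    (ha : (GaussRed.ofRedModel M hdiv).v (algebraMap K F a) ≤ 1) :
    ∃ c : k, (GaussRed.ofRedModel M hdiv).red (algebraMap K F a) = algebraMap k Fb c :=
  ⟨π ⟨a, (GaussRed.ofRedModel_v_algebraMap_le_one_iff M hdiv).mp ha⟩,
    GaussRed.ofRedModel_red_algebraMap M hdiv ⟨a, _⟩⟩

end Dict

end Fermat.Agent.S18.H71
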