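import Fermat.Agent.S18.H71_Glue

/-!
# S18 (helper71): poles reduce to poles when the pole degrees agree

`GaussRed.hpole_of_degree_le`: if `x` is a Gauss unit, all places on both fibres have degree one
and `deg (x)_∞ ≤ deg (red x)_∞`, then every pole of `x` reduces to a pole of `red x`
(the hypothesis `hpole` of `GaussRed.coordinate` / `isPrincipal_of_unit_ratio`).
-/

set_option autoImplicit false

noncomputable section

namespace Fermat.Agent.S18.H71

open AlgebraicCurve
open Fermat.Agent.S24.H24

/-- A nonnegative finitely supported function is dominated by its push-forward. -/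
theorem le_mapDomain_apply {α β : Type*} (r : α → β) (D : α →₀ ℤ) (hD : ∀ a, 0 ≤ D a) (a : α) :
    D a ≤ Finsupp.mapDomain r D (r a) := by
  classical
  rw [Finsupp.mapDomain, Finsupp.sum_apply, Finsupp.sum]
  have hnn : ∀ a' ∈ D.support, 0 ≤ (Finsupp.single (r a') (D a')) (r a) := by
    intro a' _
    rw [Finsupp.single_apply]
    split_ifs
    · exact hD a'
    · exact le_rfl
  by_cases ha : a ∈ D.support
  · calc D a = (Finsupp.single (r a) (D a)) (r a) := by simp
      _ ≤ _ := Finset.single_le_sum (f := fun a' => (Finsupp.single (r a') (D a')) (r a)) hnn ha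
  · rw [Finsupp.notMem_support_iff.mp ha]
    exact Finset.sum_nonneg hnn

variable {K F k Fb Γ : Type*} [Field K] [Field F] [Algebra K F] [Field k] [Field Fb]
  [Algebra k Fb] [LinearOrderedCommGroupWithZero Γ]

theorem degree_eq_sum_of_deg_one (hdeg : ∀ v : Place K F, v.deg = 1) (D : Divisor K F) :
    Divisor.degree D = ∑ v ∈ D.support, D v := by
  simp [Divisor.degree, Finsupp.sum, hdeg]

theorem le_degree_of_nonneg (hdeg : ∀ v : Place K F, v.deg = 1) (D : Divisor K F)
    (hD : ∀ v, 0 ≤ D v) (v : Place K F) : D v ≤ Divisor.degree D := by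
  rw [degree_eq_sum_of_deg_one hdeg]
  by_cases hv : v ∈ D.support
  · exact Finset.single_le_sum (f := fun v => D v) (fun w _ => hD w) hv
  · rw [Finsupp.notMem_support_iff.mp hv]
    exact Finset.sum_nonneg fun w _ => hD w

theorem degree_mapDomain_of_deg_one (hdegF : ∀ v : Place K F, v.deg = 1)
    (hdegk : ∀ v : Place k Fb, v.deg = 1) (r : Place K F → Place k Fb) (D : Divisor K F) :
    Divisor.degree (Finsupp.mapDomain r D) = Divisor.degree D := by
  induction D using Finsupp.induction_linear with
  | zero => simp
  | add f g hf hg => rw [Finsupp.mapDomain_add, map_add, map_add, hf, hg]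
  | single a b => rw [Finsupp.mapDomain_single, Divisor.degree_single, Divisor.degree_single,
      hdegF, hdegk]

namespace GaussRed

variable (G : GaussRed K F k Fb Γ)

open scoped Classical in
/-- **Poles reduce to poles** when `deg (x)_∞ ≤ deg (red x)_∞` (all places of degree one). -/
theorem hpole_of_degree_le (x : F) (hvx : G.v x = 1)
    (hdegF : ∀ P : Place K F, P.deg = 1) (hdegk : ∀ Q' : Place k Fb, Q'.deg = 1)
    (DF : Divisor K F) (hDF : ∀ P, DF P = max (-P.ord x) 0)
    (Dk : Divisor k Fb) (hDk : ∀ Q', Dk Q' = max (-Q'.ord (G.red x)) 0)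
    (hdeg : Divisor.degree DF ≤ Divisor.degree Dk) :
    ∀ P : Place K F, P.ord x < 0 → (G.r P).ord (G.red x) < 0 := by
  classical
  have hx0 : x ≠ 0 := G.ne_zero_of_v_eq_one hvx
  have hDFnn : ∀ P, 0 ≤ DF P := fun P => by rw [hDF]; exact le_max_right _ _
  set E : Divisor k Fb := Finsupp.mapDomain G.r DF with hE
  -- pointwise `Dk ≤ E`
  have hEnn : ∀ Q', 0 ≤ E Q' := by
    intro Q'
    rw [hE, mapDomain_apply_eq_finsum]
    apply finsum_nonneg
    intro P; split_ifs
    · exact hDFnn P
    · exact le_rfl
  have hEord : ∀ Q' : Place k Fb, -Q'.ord (G.red x) ≤ E Q' := by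
    intro Q'
    have h1 := G.ord_red x hvx Q'
    have hs1 : (Function.support fun P : Place K F => if G.r P = Q' then DF P else 0).Finite := by
      refine DF.support.finite_toSet.subset ?_
      intro P hP
      simp only [Function.mem_support, ne_eq] at hP
      simp only [Finset.mem_coe, Finsupp.mem_support_iff]
      intro h0; apply hP; rw [h0]; simp
    have hs2 := G.support_fiber_finite hx0 Q'
    have h2 : 0 ≤ E Q' + Q'.ord (G.red x) := by
      rw [hE, mapDomain_apply_eq_finsum, h1, ← finsum_add_distrib hs1 hs2]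
      apply finsum_nonneg
      intro P; split_ifs
      · rw [hDF]
        have := le_max_left (-P.ord x) 0
        omega
      · simp
    omega
  have hle : ∀ Q', Dk Q' ≤ E Q' := by
    intro Q'
    rw [hDk]
    exact max_le (hEord Q') (hEnn Q')
  intro P hP
  by_contra hcon
  push Not at hcon
  -- at `Q₁ = r P` the difference is at least one
  have h1 : 1 ≤ (E - Dk) (G.r P) := by
    have h2 : Dk (G.r P) = 0 := by
      rw [hDk]; exact max_eq_right (by omega)
    have h3 : DF P ≤ E (G.r P) := le_mapDomain_apply G.r DF hDFnn P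
    have h4 : 1 ≤ DF P := by
      rw [hDF]
      have := le_max_left (-P.ord x) 0
      omega
    rw [Finsupp.sub_apply, h2]
    omega
  have h5 : (E - Dk) (G.r P) ≤ Divisor.degree (E - Dk) :=
    le_degree_of_nonneg hdegk (E - Dk) (fun Q' => by
      rw [Finsupp.sub_apply]; have := hle Q'; omega) (G.r P)
  have h6 : Divisor.degree (E - Dk) = Divisor.degree DF - Divisor.degree Dk := by
    rw [map_sub, hE, degree_mapDomain_of_deg_one hdegF hdegk]
  omega

end GaussRed

end Fermat.Agent.S18.H71
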