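import Fermat.Agent.S18.H84_RedCompat
import Fermat.Agent.S18.H33_LatticeInst
import Fermat.Agent.S18.H11_IfaceInst

/-!
# S18 (helper71): R0 for S18 comes FOR FREE from the hypothesis `h : ReductionInputsModL A N`

INST-7 (`H33.gR_FN_le_gR_Fk_of_model`) consumes a valuation ring `O` of `FN N` over `A` with a
residue map `res : O →+* Fk` compatible with constants ("R0").  Inside S18 the hypothesis
`h : ReductionInputsModL A N` is available, and helper84's `redModelModL h` IS such a pair:
`O = {f | ∃ n s : A((q)), red s ≠ 0 (in Fk), f * ι s = ι n}`, `res f = red n / red s`.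
So for S18 no construction of the Gauss valuation over the non-noetherian `A` is needed.
-/

set_option autoImplicit false

noncomputable section

namespace Fermat.Agent.S18.H71

open AlgebraicCurve ModularCurve HahnSeries
open Fermat.Agent.S24 Fermat.Agent.RR

variable (N : ℕ) [NeZero N]

/-- functions without zeros and poles on `FN N` are constant (shape of `H84.redModel`) -/
theorem hconst_FN (g : modularFunctionFieldBar N) (_hg : g ≠ 0)
    (hord : ∀ P : Place (AlgebraicClosure ℚ) (modularFunctionFieldBar N), P.ord g = 0) :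
    ∃ c : AlgebraicClosure ℚ,
      algebraMap (AlgebraicClosure ℚ) (modularFunctionFieldBar N) c = g := by
  have := S24.H40.finiteDimensional_FN N
  have halg : IsAlgebraic (AlgebraicClosure ℚ) g :=
    (H43.forall_ord_eq_zero_iff_isAlgebraic (K := AlgebraicClosure ℚ) (jBar N)
      (S24.H40.transcendental_jBar N)).mp hord
  obtain ⟨a, ha⟩ := H11.mem_range_of_isAlgebraic halg
  exact ⟨a, ha.symm⟩

/-- every nonzero function on `FN N` has a divisor (shape of `H84.redModel`) -/
theorem hdiv_FN' (f : modularFunctionFieldBar N) (_hf : f ≠ 0) :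
    ∃ D : Divisor (AlgebraicClosure ℚ) (modularFunctionFieldBar N), ∀ P, D P = P.ord f :=
  H11.hdiv_FN N f

variable {N}
variable {A : ValuationSubring (AlgebraicClosure ℚ)} (h : ReductionInputsModL A N)

/-- The reduction model of S18, with its two inputs discharged from the RR bank. -/
def r0Model : H84.RedModel A (IsLocalRing.residue A) (placeReductionModL h) :=
  H84.redModelModL h (hconst_FN N) (hdiv_FN' N)

/-- R0: the Gauss valuation ring of `FN N` over `A`, as a subring. -/
def r0O : Subring (modularFunctionFieldBar N) := (r0Model h).O.toSubring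

/-- R0: the residue map. -/
def r0res : r0O h →+* modularFunctionFieldFullC (IsLocalRing.ResidueField A) N := (r0Model h).res

theorem mem_r0O_iff {f : modularFunctionFieldBar N} :
    f ∈ r0O h ↔ ∃ (n s : LaurentSeries A), s ∈ H84.intUnits A (IsLocalRing.residue A) N ∧
      (f : LaurentSeries (AlgebraicClosure ℚ)) * H84.ι A s = H84.ι A n :=
  Iff.rfl

/-- `res (n / s) = red n / red s`. -/
theorem coe_r0res (f : r0O h) {n s : LaurentSeries A}
    (hs : s ∈ H84.intUnits A (IsLocalRing.residue A) N)
    (hf : ((f : modularFunctionFieldBar N) : LaurentSeries (AlgebraicClosure ℚ)) * H84.ι A s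
      = H84.ι A n) :
    ((r0res h f : modularFunctionFieldFullC (IsLocalRing.ResidueField A) N) :
      LaurentSeries (IsLocalRing.ResidueField A)) =
      H84.red A (IsLocalRing.residue A) n / H84.red A (IsLocalRing.residue A) s :=
  H84.coe_redModel_res IsLocalRing.residue_surjective h (hconst_FN N) (hdiv_FN' N) f hs hf

/-- every `q`-integral element of `FN N` lies in `O`, with residue its coefficientwise reduction -/
theorem integral_mem_r0O {y : LaurentSeries A}
    (hy : H84.ι A y ∈ modularFunctionFieldBar N) :
    (⟨H84.ι A y, hy⟩ : modularFunctionFieldBar N) ∈ r0O h :=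
  H84.integral_mem_redModel_O IsLocalRing.residue_surjective h (hconst_FN N) (hdiv_FN' N) hy

theorem coe_r0res_integral {y : LaurentSeries A}
    (hy : H84.ι A y ∈ modularFunctionFieldBar N) :
    ((r0res h ⟨_, integral_mem_r0O h hy⟩ :
      modularFunctionFieldFullC (IsLocalRing.ResidueField A) N) :
      LaurentSeries (IsLocalRing.ResidueField A)) = H84.red A (IsLocalRing.residue A) y :=
  H84.coe_redModel_res_integral IsLocalRing.residue_surjective h (hconst_FN N) (hdiv_FN' N) hy

/-- `hAO` of INST-7 -/
theorem r0_hAO (a : A) :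
    algebraMap (AlgebraicClosure ℚ) (modularFunctionFieldBar N) (a : AlgebraicClosure ℚ) ∈ r0O h :=
  ((r0Model h).const_mem_iff _).mpr a.2

/-- `hcompat` of INST-7 -/
theorem r0_hcompat (a : A) :
    r0res h ⟨algebraMap (AlgebraicClosure ℚ) (modularFunctionFieldBar N) (a : AlgebraicClosure ℚ),
      r0_hAO h a⟩ = algebraMap (IsLocalRing.ResidueField A)
        (modularFunctionFieldFullC (IsLocalRing.ResidueField A) N) (IsLocalRing.residue A a) :=
  (r0Model h).res_const a _

theorem r0res_eq_zero_iff (f : r0O h) : r0res h f = 0 ↔ ¬ IsUnit f :=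
  (r0Model h).res_eq_zero_iff f

theorem r0res_surjective : Function.Surjective (r0res h) := (r0Model h).res_surjective

theorem jBar_eq_jF : jBar N = H84.jF (AlgebraicClosure ℚ) N := by
  apply Subtype.ext
  show coeffEmb Qbar jq = jqModC (AlgebraicClosure ℚ)
  rw [coeffEmb, ← jqModC_rat, coeffMap_jqModC]

theorem jBar_mem_r0O : jBar N ∈ r0O h := by
  rw [jBar_eq_jF]
  exact H84.jF_mem_redModel_O IsLocalRing.residue_surjective h (hconst_FN N) (hdiv_FN' N)

/-- `hresx` of INST-7 (with `ι x1 = jBar N`) -/
theorem r0res_jBar (hm : jBar N ∈ r0O h) :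
    r0res h ⟨jBar N, hm⟩ = H16.jK (IsLocalRing.ResidueField A) N := by
  have h1 := H84.redModel_res_jF IsLocalRing.residue_surjective h (hconst_FN N) (hdiv_FN' N)
  have h2 : (⟨jBar N, hm⟩ : r0O h) = ⟨H84.jF (AlgebraicClosure ℚ) N,
      H84.jF_mem_redModel_O IsLocalRing.residue_surjective h (hconst_FN N) (hdiv_FN' N)⟩ :=
    Subtype.ext jBar_eq_jF
  rw [h2]
  exact h1

end Fermat.Agent.S18.H71
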