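import Fermat.Agent.S18.H71_Coordinate

set_option autoImplicit false

noncomputable section

namespace Fermat.Agent.S18.H71

open AlgebraicCurve
open Fermat.Agent.S24.H24

variable {K F k Fb Γ : Type*} [Field K] [Field F] [Algebra K F] [Field k] [Field Fb]
  [Algebra k Fb] [LinearOrderedCommGroupWithZero Γ]

/-- **Final step of S18, coordinate form.**  Same as `isPrincipal_of_red_isPrincipal`, with the
good coordinates produced from ONE function `x` (think `x = j`) by the coordinate lemma, the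
auxiliary place `P₀` a pole of `x`, and `D` given by a Gauss unit `f₀` with `red f₀ = 1`
(so that `r_* D = 0`). -/
theorem isPrincipal_of_unit_ratio (G : GaussRed K F k Fb Γ)
    (m : ℕ) (hmk : (m : k) ≠ 0) (g : ℕ)
    (hdeg1 : ∀ P : Place K F, P.deg = 1)
    (hRiemann : ∀ D : Divisor K F, Divisor.degree D = g →
      ∃ ψ : F, ψ ≠ 0 ∧ ∀ P : Place K F, 0 ≤ P.ord ψ + D P)
    (hprod : ∀ f : F, f ≠ 0 → ∀ D' : Divisor K F, (∀ P, D' P = P.ord f) → Divisor.degree D' = 0)
    (hvalK : ∀ (P : Place K F) (f : F), 0 ≤ P.ord f →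
      ∃ c : K, f = algebraMap K F c ∨ 0 < P.ord (f - algebraMap K F c))
    (Q : Fin g → Place k Fb) (hQ : Function.Injective Q)
    (hNS : ∀ ψ : Fb, (∀ Q', (∀ i, Q' ≠ Q i) → 0 ≤ Q'.ord ψ) → (∀ i, -1 ≤ (Q i).ord ψ) →
      ∃ b : k, ψ = algebraMap k Fb b)
    (x : F) (hvx : G.v x = 1)
    (hpole : ∀ P : Place K F, P.ord x < 0 → (G.r P).ord (G.red x) < 0)
    (hQx : ∀ i, 0 ≤ (Q i).ord (G.red x))
    (a₀ : Fin g → K) (ha₀ : ∀ i, G.v (algebraMap K F (a₀ i)) ≤ 1)
    (hunif : ∀ i, (Q i).ord (G.red x - G.red (algebraMap K F (a₀ i))) = 1)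
    (P₀ : Place K F) (hP₀ : P₀.ord x < 0)
    (D : Divisor K F) (f₀ : F) (hvf : G.v f₀ = 1) (hredf : G.red f₀ = 1)
    (hDf : ∀ P : Place K F, (m : ℤ) * D P = P.ord f₀) :
    Divisor.IsPrincipal D := by
  classical
  have hm0 : m ≠ 0 := by rintro rfl; simp at hmk
  have hmZ : (m : ℤ) ≠ 0 := by exact_mod_cast hm0
  have hf₀ : f₀ ≠ 0 := G.ne_zero_of_v_eq_one hvf
  -- degree
  have hD0 : Divisor.degree D = 0 := by
    have h1 := hprod f₀ hf₀ (m • D) (fun P => by
      rw [Finsupp.smul_apply, nsmul_eq_mul]; exact hDf P)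
    rw [map_nsmul, nsmul_eq_mul] at h1
    exact (mul_eq_zero.mp h1).resolve_left hmZ
  -- reduction of `D` is zero
  have hDγ : ∀ Q' : Place k Fb,
      (∑ᶠ P : Place K F, if G.r P = Q' then D P else 0) = Q'.ord (1 : Fb) := by
    intro Q'
    have h1 := G.ord_red f₀ hvf Q'
    rw [hredf] at h1
    have h2 : (fun P : Place K F => if G.r P = Q' then P.ord f₀ else 0)
        = fun P => (m : ℤ) * (if G.r P = Q' then D P else 0) := by
      funext P
      split_ifs
      · exact (hDf P).symm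
      · simp
    rw [h2, ← mul_finsum] at h1
    simp only [Place.ord_one] at h1 ⊢
    exact (mul_eq_zero.mp h1.symm).resolve_left hmZ
  -- coordinates
  have hcoord := fun i => G.coordinate x hvx hpole hvalK (Q i) (hQx i) (a₀ i) (ha₀ i) (hunif i)
  refine isPrincipal_of_red_isPrincipal G m hmk g hdeg1 hRiemann Q hQ hNS (fun _ => x)
    (fun i => (hcoord i).2) (fun i => (hcoord i).1) P₀ ?_ ?_ D hD0 f₀ hf₀ hDf 1 one_ne_zero hDγ
  · intro i h
    have h1 := hpole P₀ hP₀
    rw [h] at h1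
    have := hQx i
    omega
  · intro f hf hord
    obtain ⟨c, hc⟩ := hvalK P₀ f hord.ge
    refine ⟨c, ?_, hc⟩
    rintro rfl
    rcases hc with hc | hc
    · rw [map_zero] at hc; exact hf hc
    · rw [map_zero, sub_zero, hord] at hc; exact lt_irrefl _ hc

end Fermat.Agent.S18.H71
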