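import Mathlib
import Fermat.Agent.S18.H78_LevelDescentInst
import Fermat.Agent.S18.H11_IfaceDefs
import Fermat.Agent.S18.H11_IfaceLift
import Fermat.Agent.S18.H95_PlaceExt
import Fermat.Agent.RR.H76_InstFN

/-!
# S18 / LEVEL-DESCENT of the core statement (helper78)

`CoreE A (e * N) m → CoreE A N m` whenever `ψ(e) < 2e` (`e = 2, 3, 4, 9`), unconditionally.

The twist is `ν_e = qExpand e` (`q ↦ q^e`): it maps `Fbar N` into `Fbar (e N)`, integral series to
integral series, and commutes with reduction.  The field-theoretic heart is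
`H78.exists_qExpand_eq_of_pow`.
-/

set_option autoImplicit false
set_option synthInstance.maxHeartbeats 400000

noncomputable section

namespace Fermat.Agent.S18.H78

open ModularCurve HahnSeries IntermediateField AlgebraicCurve
open Fermat.Agent.S24 (Qbar)

/-! ### The twist on the special fibre and on integral elements -/

theorem map_qExpand_fullC_le (k : Type*) [Field k] (N e : ℕ) [NeZero e] :
    (modularFunctionFieldFullC k N).map (qExpandAlgHomC k e) ≤
      modularFunctionFieldFullC k (e * N) := by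
  rw [modularFunctionFieldFullC, IntermediateField.adjoin_map, IntermediateField.adjoin_le_iff]
  rintro _ ⟨x, ⟨d, hd0, hd, rfl⟩, rfl⟩
  have := hd0
  show qExpand k e (qExpand k d (jqModC k)) ∈ modularFunctionFieldFullC k (e * N)
  rw [qExpand_qExpand]
  exact IntermediateField.subset_adjoin k _
    (mem_divisorExpansionsC k (e * N) (Nat.mul_dvd_mul_left e hd))

variable {A : ValuationSubring (AlgebraicClosure ℚ)} {N : ℕ} [NeZero N]

/-- The twist `Y(q) ↦ Y(q^e)` of an integral element. -/
def nuIntElt (e : ℕ) [NeZero e] (Y : H11.IntElt A N) : H11.IntElt A (e * N) where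
  y := qExpand A e Y.y
  mem := by
    rw [coeffMap_qExpand]
    exact nuField_le N e (mem_nuField.mpr ⟨_, Y.mem, rfl⟩)
  memk := by
    rw [coeffMap_qExpand]
    exact map_qExpand_fullC_le _ N e
      ((IntermediateField.mem_map _).mpr ⟨_, Y.memk, rfl⟩)
  ne := by
    rw [coeffMap_qExpand]
    intro h
    exact Y.ne (qExpand_injective e (by rw [h, map_zero]))

theorem coe_gen_nuIntElt (e : ℕ) [NeZero e] (Y : H11.IntElt A N) :
    ((nuIntElt e Y).gen : LaurentSeries Qbar) = qExpand Qbar e (Y.gen : LaurentSeries Qbar) := by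
  show coeffMap A.subtype (qExpand A e Y.y) = _
  rw [coeffMap_qExpand]
  rfl

theorem red_nuIntElt_eq (e : ℕ) [NeZero e] {Y₁ Y₂ : H11.IntElt A N} (h : Y₁.red = Y₂.red) :
    (nuIntElt e Y₁).red = (nuIntElt e Y₂).red := by
  apply Subtype.ext
  show coeffMap (IsLocalRing.residue A) (qExpand A e Y₁.y) =
    coeffMap (IsLocalRing.residue A) (qExpand A e Y₂.y)
  rw [coeffMap_qExpand, coeffMap_qExpand]
  congr 1
  exact congrArg Subtype.val h


/-! ### `ν_e` as an algebra structure, restriction of places -/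

section Places

variable (N) (e : ℕ) [NeZero e]

/-- `ν_e : Fbar N →ₐ Fbar (e N)`. -/
def nuHom : modularFunctionFieldBar N →ₐ[Qbar] modularFunctionFieldBar (e * N) :=
  ((qExpandAlgHomC Qbar e).comp (modularFunctionFieldBar N).val).codRestrict
    (modularFunctionFieldBar (e * N)).toSubalgebra
    (fun x => nuField_le N e (mem_nuField.mpr ⟨x, x.2, rfl⟩))

theorem coe_nuHom (x : modularFunctionFieldBar N) :
    ((nuHom N e x : modularFunctionFieldBar (e * N)) : LaurentSeries Qbar) =
      qExpand Qbar e (x : LaurentSeries Qbar) := rfl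

theorem nuHom_injective : Function.Injective (nuHom N e) := (nuHom N e).toRingHom.injective

/-- every nonzero element of `ν_e(Fbar N)` in the valuation ring ⟹ contradiction: a place of
`Fbar (e N)` is nontrivial on `ν_e(Fbar N)`. -/
theorem exists_ord_nuHom_ne_zero (P' : Place Qbar (modularFunctionFieldBar (e * N))) :
    ∃ f : modularFunctionFieldBar N, f ≠ 0 ∧ P'.ord (nuHom N e f) ≠ 0 := by
  classical
  by_contra hcon
  push Not at hcon
  set V := P'.toValuationSubring with hV
  have h0 : ∀ f : modularFunctionFieldBar N, nuHom N e f ∈ V := by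
    intro f
    rcases eq_or_ne f 0 with rfl | hf
    · rw [map_zero]; exact V.zero_mem
    · have hf' : nuHom N e f ≠ 0 := (map_ne_zero_iff _ (nuHom_injective N e)).mpr hf
      rw [hV, Fermat.Agent.S24.H27.mem_toValuationSubring_of_ne_zero P' hf', hcon f hf]
  -- the ring hom `ν_e(Fbar N) → V`
  have hmemV : ∀ c : nuField N e,
      (⟨(c : LaurentSeries Qbar), nuField_le N e c.2⟩ : modularFunctionFieldBar (e * N)) ∈ V := by
    intro c
    obtain ⟨y, hy, hyc⟩ := mem_nuField.mp c.2
    have := h0 ⟨y, hy⟩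
    have heq : nuHom N e ⟨y, hy⟩ =
        (⟨(c : LaurentSeries Qbar), nuField_le N e c.2⟩ : modularFunctionFieldBar (e * N)) :=
      Subtype.ext (by rw [coe_nuHom]; exact hyc)
    rwa [heq] at this
  let φ : nuField N e →+* V :=
    { toFun := fun c => ⟨⟨(c : LaurentSeries Qbar), nuField_le N e c.2⟩, hmemV c⟩
      map_one' := rfl
      map_mul' := fun _ _ => rfl
      map_zero' := rfl
      map_add' := fun _ _ => rfl }
  apply P'.ne_top'
  rw [eq_top_iff]
  intro x _
  obtain ⟨p, hpmonic, hp⟩ := isIntegral_of_mem_fbar N e x.2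
  have hint : IsIntegral V x := by
    refine ⟨p.map φ, hpmonic.map φ, ?_⟩
    rw [Polynomial.eval₂_map]
    apply Subtype.val_injective
    have h1 := Polynomial.hom_eval₂ p ((algebraMap V (modularFunctionFieldBar (e * N))).comp φ)
      (modularFunctionFieldBar (e * N)).val.toRingHom x
    rw [show ((modularFunctionFieldBar (e * N)).val.toRingHom
        (Polynomial.eval₂ ((algebraMap V (modularFunctionFieldBar (e * N))).comp φ) x p)) =
        ((Polynomial.eval₂ ((algebraMap V (modularFunctionFieldBar (e * N))).comp φ) x p :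
          modularFunctionFieldBar (e * N)) : LaurentSeries Qbar) from rfl] at h1
    rw [h1]
    exact hp
  obtain ⟨y, hy⟩ := (IsIntegrallyClosed.isIntegral_iff (R := V)
    (K := modularFunctionFieldBar (e * N))).mp hint
  rw [← hy]
  exact y.2


/-- Restriction of a place of `Fbar (e N)` along `ν_e`. -/
theorem exists_restrict (P' : Place Qbar (modularFunctionFieldBar (e * N))) :
    ∃ (P : Place Qbar (modularFunctionFieldBar N)) (r : ℕ), 0 < r ∧
      ∀ f : modularFunctionFieldBar N, P'.ord (nuHom N e f) = r * P.ord f := by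
  let _ : Algebra (modularFunctionFieldBar N) (modularFunctionFieldBar (e * N)) :=
    (nuHom N e).toRingHom.toAlgebra
  have : IsScalarTower Qbar (modularFunctionFieldBar N) (modularFunctionFieldBar (e * N)) :=
    IsScalarTower.of_algebraMap_eq (fun x => ((nuHom N e).commutes x).symm)
  have hnt : ∃ f : modularFunctionFieldBar N, f ≠ 0 ∧
      P'.ord (algebraMap (modularFunctionFieldBar N) (modularFunctionFieldBar (e * N)) f) ≠ 0 :=
    exists_ord_nuHom_ne_zero N e P'
  exact ⟨H95.restrictPlace (K := Qbar) P' hnt, H95.ramIdx (K := Qbar) P' hnt,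
    H95.ramIdx_pos (K := Qbar) P' hnt, fun f => H95.ord_algebraMap_eq (K := Qbar) P' hnt f⟩

end Places

/-! ### The place of `ord_q` -/

theorem isOrdFunction_order (N : ℕ) [NeZero N] :
    Fermat.Agent.S24.H27.IsOrdFunction Qbar
      (fun f : modularFunctionFieldBar N => (f : LaurentSeries Qbar).order) where
  map_mul f g hf hg := by
    show ((f * g : modularFunctionFieldBar N) : LaurentSeries Qbar).order = _
    rw [MulMemClass.coe_mul]
    exact HahnSeries.order_mul (fun h => hf (Subtype.ext h)) (fun h => hg (Subtype.ext h))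
  map_add f g _ _ hfg := by
    show _ ≤ ((f + g : modularFunctionFieldBar N) : LaurentSeries Qbar).order
    rw [AddMemClass.coe_add]
    exact HahnSeries.min_order_le_order_add (fun h => hfg (Subtype.ext h))
  map_algebraMap a _ := by
    show ((algebraMap Qbar (modularFunctionFieldBar N) a : modularFunctionFieldBar N) :
      LaurentSeries Qbar).order = 0
    have e1 : ((algebraMap Qbar (modularFunctionFieldBar N) a : modularFunctionFieldBar N) :
        LaurentSeries Qbar) = algebraMap Qbar (LaurentSeries Qbar) a := rfl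
    rw [e1, algebraMap_laurentSeries_eq_single]
    by_cases ha : a = 0
    · rw [ha, HahnSeries.single_eq_zero, HahnSeries.order_zero]
    · exact HahnSeries.order_single ha
  nontrivial := by
    refine ⟨⟨jB, jB_mem N⟩, ?_, ?_⟩
    · intro h
      have h1 : (jqModC Qbar : LaurentSeries Qbar) = 0 := congrArg Subtype.val h
      have h2 := Fermat.Agent.S28.H39.order_jqModC (R := Qbar)
      rw [h1, HahnSeries.order_zero] at h2
      exact absurd h2 (by norm_num)
    · show (jB : LaurentSeries Qbar).order ≠ 0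
      rw [Fermat.Agent.S28.H39.order_jqModC (R := Qbar)]
      norm_num

theorem exists_place_order (N : ℕ) [NeZero N] :
    ∃ (P : Place Qbar (modularFunctionFieldBar N)) (r : ℕ), 0 < r ∧
      ∀ f : modularFunctionFieldBar N, f ≠ 0 →
        (f : LaurentSeries Qbar).order = r * P.ord f :=
  ⟨(isOrdFunction_order N).place, (isOrdFunction_order N).mult, (isOrdFunction_order N).mult_pos,
    fun _ hf => (isOrdFunction_order N).eq_mult_mul_ord hf⟩


/-! ### The descent of `CoreE` -/

section Main

variable (N) (e : ℕ) [NeZero e]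

theorem gen_nuIntElt (Y : H11.IntElt A N) : (nuIntElt e Y).gen = nuHom N e Y.gen :=
  Subtype.ext (by rw [coe_gen_nuIntElt, coe_nuHom])

/-- no zeros and no poles ⟹ constant (characteristic `0`, any level). -/
theorem exists_const_of_ord_eq_zero (M : ℕ) [NeZero M] (c : modularFunctionFieldBar M)
    (hc : ∀ P : Place Qbar (modularFunctionFieldBar M), P.ord c = 0) :
    ∃ a : Qbar, algebraMap Qbar (modularFunctionFieldBar M) a = c := by
  have hmem : c ∈ riemannRochSpace (0 : Divisor Qbar (modularFunctionFieldBar M)) := by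
    rw [mem_riemannRochSpace_iff]
    intro v
    right
    rw [hc v]
    simp
  obtain ⟨a, ha⟩ := (Fermat.Agent.RR.H76.mem_L0_iff_of_isAlgClosed
    (Fermat.Agent.RR.H76.ffInputs_FN M)).mp hmem
  exact ⟨a, ha⟩

/-- **Level descent of the S18 core.**  `CoreE` at the level `e N` implies `CoreE` at the level
`N`, for every `e` with `ψ(e) < 2e` (in particular `e = 4` and `e = 9`, where `Γ₀(e N)` is
torsion free modulo `±1`). -/
theorem coreE_descent (hpsi : dedekindPsi e < 2 * e) (A : ValuationSubring (AlgebraicClosure ℚ))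
    (m : ℕ) (hm : m ≠ 0) (core : H11.CoreE A (e * N) m) : H11.CoreE A N m := by
  intro Y₁ Y₂ hred D hD
  have hm' : (m : ℤ) ≠ 0 := by exact_mod_cast hm
  set Z₁ := nuIntElt e Y₁ with hZ₁
  set Z₂ := nuIntElt e Y₂ with hZ₂
  have hZ₁g : Z₁.gen = nuHom N e Y₁.gen := gen_nuIntElt N e Y₁
  have hZ₂g : Z₂.gen = nuHom N e Y₂.gen := gen_nuIntElt N e Y₂
  -- divisibility at the level `e N`
  have hdvd : ∀ P' : Place Qbar (modularFunctionFieldBar (e * N)),
      (m : ℤ) ∣ P'.ord Z₁.gen - P'.ord Z₂.gen := by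
    intro P'
    obtain ⟨P, r, -, hr⟩ := exists_restrict N e P'
    rw [hZ₁g, hZ₂g, hr, hr, ← mul_sub, ← hD P]
    exact ⟨r * D P, by ring⟩
  -- the divisor at the level `e N`
  have hpd := Fermat.Agent.RR.H76.hasPrincipalDivisors_FN (e * N)
  obtain ⟨D₁, hD₁, -⟩ := hpd.exists_divisor Z₁.gen Z₁.gen_ne_zero
  obtain ⟨D₂, hD₂, -⟩ := hpd.exists_divisor Z₂.gen Z₂.gen_ne_zero
  set D' : Divisor Qbar (modularFunctionFieldBar (e * N)) :=
    (D₁ - D₂).mapRange (fun z => z / (m : ℤ)) (by simp) with hD'
  have hD'eq : ∀ P', (m : ℤ) * D' P' = P'.ord Z₁.gen - P'.ord Z₂.gen := by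
    intro P'
    rw [hD', Finsupp.mapRange_apply, Finsupp.sub_apply, hD₁, hD₂]
    exact Int.mul_ediv_cancel' (hdvd P')
  have hprin := core Z₁ Z₂ (red_nuIntElt_eq e hred) D' hD'eq
  obtain ⟨g, hg0, hg⟩ := Divisor.mem_principal.mp hprin
  -- the constant
  have hgm0 : g ^ m ≠ 0 := pow_ne_zero _ hg0
  set c : modularFunctionFieldBar (e * N) := Z₁.gen / (Z₂.gen * g ^ m) with hc
  have hcne : c ≠ 0 := div_ne_zero Z₁.gen_ne_zero (mul_ne_zero Z₂.gen_ne_zero hgm0)
  have hc0 : ∀ P' : Place Qbar (modularFunctionFieldBar (e * N)), P'.ord c = 0 := by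
    intro P'
    rw [hc, div_eq_mul_inv, P'.ord_mul Z₁.gen_ne_zero (inv_ne_zero (mul_ne_zero Z₂.gen_ne_zero hgm0)),
      P'.ord_inv, P'.ord_mul Z₂.gen_ne_zero hgm0, ← zpow_natCast, P'.ord_zpow, ← hg P']
    have := hD'eq P'
    linarith
  obtain ⟨a, ha⟩ := exists_const_of_ord_eq_zero (e * N) c hc0
  have ha0 : a ≠ 0 := by
    rintro rfl
    rw [map_zero] at ha
    exact hcne ha.symm
  obtain ⟨b, hb⟩ := IsAlgClosed.exists_pow_nat_eq a (Nat.pos_of_ne_zero hm)
  set g' : modularFunctionFieldBar (e * N) :=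
    algebraMap Qbar (modularFunctionFieldBar (e * N)) b * g with hg'
  have hg'm : g' ^ m = Z₁.gen / Z₂.gen := by
    rw [hg', mul_pow, ← map_pow, hb, ha, hc]
    field_simp
  -- `h := Y₁ / Y₂`
  set h : modularFunctionFieldBar N := Y₁.gen / Y₂.gen with hh
  have hh0 : h ≠ 0 := div_ne_zero Y₁.gen_ne_zero Y₂.gen_ne_zero
  have hνh : nuHom N e h = Z₁.gen / Z₂.gen := by rw [hh, map_div₀, hZ₁g, hZ₂g]
  have hordP : ∀ P : Place Qbar (modularFunctionFieldBar N),
      P.ord h = P.ord Y₁.gen - P.ord Y₂.gen := by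
    intro P
    rw [hh, div_eq_mul_inv, P.ord_mul Y₁.gen_ne_zero (inv_ne_zero Y₂.gen_ne_zero), P.ord_inv,
      sub_eq_add_neg]
  -- `m ∣ ord_q h`
  have hordh : (m : ℤ) ∣ (h : LaurentSeries Qbar).order := by
    obtain ⟨P, r, -, hr⟩ := exists_place_order N
    rw [hr h hh0, hordP P, ← hD P]
    exact ⟨r * D P, by ring⟩
  obtain ⟨g0, hg0mem, hg0eq⟩ := exists_qExpand_eq_of_pow N e hpsi m hm
    (g' : LaurentSeries Qbar) g'.2 (h : LaurentSeries Qbar) h.2 (by
      have h1 := congrArg Subtype.val (hg'm.trans hνh.symm)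
      rw [coe_nuHom] at h1
      rw [← h1]
      rfl) hordh
  set G0 : modularFunctionFieldBar N := ⟨g0, hg0mem⟩ with hG0def
  have hG0 : nuHom N e G0 = g' := Subtype.ext (by rw [coe_nuHom]; exact hg0eq)
  have hG0m : G0 ^ m = h := nuHom_injective N e (by rw [map_pow, hG0, hg'm, hνh])
  have hG0ne : G0 ≠ 0 := by
    intro h0
    rw [h0, zero_pow hm] at hG0m
    exact hh0 hG0m.symm
  refine Divisor.mem_principal.mpr ⟨G0, hG0ne, fun P => ?_⟩
  have h1 : P.ord h = m * P.ord G0 := by rw [← hG0m, ← zpow_natCast, P.ord_zpow]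
  have h3 : (m : ℤ) * D P = m * P.ord G0 := by rw [hD P, ← hordP P, h1]
  exact mul_left_cancel₀ hm' h3

/-- `CoreE` descends from the level `4 N`. -/
theorem coreE_of_four (A : ValuationSubring (AlgebraicClosure ℚ)) (m : ℕ) (hm : m ≠ 0)
    (core : H11.CoreE A (4 * N) m) : H11.CoreE A N m :=
  coreE_descent N 4 (by rw [dedekindPsi_four]; norm_num) A m hm core

/-- `CoreE` descends from the level `9 N`. -/
theorem coreE_of_nine (A : ValuationSubring (AlgebraicClosure ℚ)) (m : ℕ) (hm : m ≠ 0)
    (core : H11.CoreE A (9 * N) m) : H11.CoreE A N m :=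
  coreE_descent N 9 (by rw [dedekindPsi_nine]; norm_num) A m hm core

end Main

end Fermat.Agent.S18.H78

end
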