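import Mathlib

/-!
# Counting roots of an integral polynomial by their reductions (helper79, S18 / R3a)

`A` a valuation subring of an algebraically closed field `L`, `π : A →+* k` a surjection onto a
field, `p : A[X]` with `p.map π ≠ 0`.  Then the roots of `p` in `L` which lie in `A` reduce onto the
roots of `p.map π` with the right multiplicities, and the roots outside `A` "go to infinity".

Main exports (all with arbitrary decidability instances in the statements):
* `exists_unit_factorisation` : `p = C u * ∏_{α root} locFactor α`, `u` a unit of `A`;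
* `exists_map_pi_eq`, `roots_map_pi` : the reduction and its roots;
* `rootMultiplicity_map_eq_card`, `rootMultiplicity_map_eq_sum`, `rootMultiplicity_map_eq_finsum`;
* `natDegree_map_eq_card`.
-/

namespace Fermat.Agent.S18.H79

open Polynomial

variable {L : Type*} [Field L] (A : ValuationSubring L) {k : Type*} [Field k] (π : A →+* k)

theorem inv_mem_of_not_mem {c : L} (h : c ∉ A) : c⁻¹ ∈ A :=
  (A.mem_or_inv_mem c).resolve_left h

open Classical in
/-- the normalised linear factor attached to `α : L`: `X - α` if `α ∈ A`, `1 - α⁻¹ X` otherwise. -/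
noncomputable def locFactor (α : L) : A[X] :=
  if h : α ∈ A then X - C ⟨α, h⟩ else 1 - C ⟨α⁻¹, inv_mem_of_not_mem A h⟩ * X

open Classical in
/-- the reduction of `α`, with junk value `0` outside `A`. -/
noncomputable def redOf (α : L) : k := if h : α ∈ A then π ⟨α, h⟩ else 0

theorem redOf_of_mem {α : L} (h : α ∈ A) : redOf A π α = π ⟨α, h⟩ := by
  unfold redOf; rw [dif_pos h]

theorem redOf_of_not_mem {α : L} (h : α ∉ A) : redOf A π α = 0 := by
  unfold redOf; rw [dif_neg h]

open Classical in
/-- the scalar by which `locFactor` differs from `X - α`. -/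
noncomputable def locScalar (α : L) : L := if α ∈ A then 1 else -α⁻¹

theorem locScalar_ne_zero (α : L) : locScalar A α ≠ 0 := by
  unfold locScalar
  split_ifs with h
  · exact one_ne_zero
  · have : α ≠ 0 := fun h0 => h (h0 ▸ A.zero_mem)
    exact neg_ne_zero.mpr (inv_ne_zero this)

theorem map_subtype_locFactor (α : L) :
    (locFactor A α).map A.subtype = C (locScalar A α) * (X - C α) := by
  unfold locFactor locScalar
  split_ifs with h
  · simp
  · have hα : α ≠ 0 := fun h0 => h (h0 ▸ A.zero_mem)
    simp only [Polynomial.map_sub, Polynomial.map_one, Polynomial.map_mul, map_C, map_X,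
      ValuationSubring.subtype_apply]
    rw [mul_sub, ← C_mul, neg_mul, inv_mul_cancel₀ hα]
    simp only [C_neg, C_1, neg_mul]
    ring

variable {π}

theorem map_eq_zero_of_not_isUnit (hπ : Function.Surjective π) {x : A} (hx : ¬ IsUnit x) :
    π x = 0 := by
  have hmax : (RingHom.ker π).IsMaximal := RingHom.ker_isMaximal_of_surjective π hπ
  have hker : RingHom.ker π = IsLocalRing.maximalIdeal A := IsLocalRing.eq_maximalIdeal hmax
  have : x ∈ IsLocalRing.maximalIdeal A := (IsLocalRing.mem_maximalIdeal x).mpr hx
  rw [← hker] at this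
  exact this

theorem map_ne_zero_of_isUnit {x : A} (hx : IsUnit x) : π x ≠ 0 :=
  (hx.map π).ne_zero

theorem not_isUnit_inv_of_not_mem {c : L} (h : c ∉ A) :
    ¬ IsUnit (⟨c⁻¹, inv_mem_of_not_mem A h⟩ : A) := by
  have hc : c ≠ 0 := fun h0 => h (h0 ▸ A.zero_mem)
  intro hu
  obtain ⟨u, hu⟩ := hu
  apply h
  have h1 : ((u⁻¹ : Aˣ) : A) * (⟨c⁻¹, inv_mem_of_not_mem A h⟩ : A) = 1 := by
    rw [← hu]; simp
  have h2 : (((u⁻¹ : Aˣ) : A) : L) * c⁻¹ = 1 := by
    have := congrArg (fun z : A => (z : L)) h1
    simpa using this
  have h3 : (((u⁻¹ : Aˣ) : A) : L) = c := by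
    field_simp at h2
    exact h2
  rw [← h3]
  exact ((u⁻¹ : Aˣ) : A).2

theorem map_pi_locFactor (hπ : Function.Surjective π) (α : L) [Decidable (α ∈ A)] :
    (locFactor A α).map π = if α ∈ A then X - C (redOf A π α) else 1 := by
  unfold locFactor
  split_ifs with h
  · rw [redOf_of_mem A π h]; simp
  · simp [map_eq_zero_of_not_isUnit A hπ (not_isUnit_inv_of_not_mem A h)]

theorem prod_map_ite_one {M ι : Type*} [CommMonoid M] (s : Multiset ι) (q : ι → Prop)
    [DecidablePred q] (f : ι → M) :
    (s.map fun i => if q i then f i else 1).prod = ((s.filter q).map f).prod := by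
  induction s using Multiset.induction_on with
  | empty => simp
  | cons a s ih =>
    by_cases h : q a
    · simp [h, ih]
    · simp [h, ih]

variable [IsAlgClosed L]

/-- **Factorisation.** `p = u * ∏_α locFactor α` with `u` a unit of `A`, the product over the roots
of `p` in `L`. -/
theorem exists_unit_factorisation (hπ : Function.Surjective π) (p : A[X]) (hp : p.map π ≠ 0) :
    ∃ u : A, IsUnit u ∧ p = C u * ((p.map A.subtype).roots.map (locFactor A)).prod := by
  classical
  set P := p.map A.subtype with hP
  set R := P.roots with hR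
  set Q : A[X] := (R.map (locFactor A)).prod with hQ
  have hp0 : p ≠ 0 := fun h => hp (by simp [h])
  have hinj : Function.Injective (Polynomial.map A.subtype) :=
    Polynomial.map_injective _ A.subtype_injective
  have hP0 : P ≠ 0 := fun h => hp0 (hinj (by simpa [hP] using h))
  have hsplit : P = C P.leadingCoeff * (R.map (X - C ·)).prod :=
    (IsAlgClosed.splits P).eq_prod_roots
  set s : L := (R.map (locScalar A)).prod with hs
  have hs0 : s ≠ 0 := by
    apply Multiset.prod_ne_zero
    intro h
    obtain ⟨α, -, hα⟩ := Multiset.mem_map.mp h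
    exact locScalar_ne_zero A α hα
  have hQmap : Q.map A.subtype = C s * (R.map (X - C ·)).prod := by
    rw [hQ, Polynomial.map_multiset_prod, Multiset.map_map]
    have : (fun α => (locFactor A α).map A.subtype) =
        fun α => C (locScalar A α) * (X - C α) := funext (map_subtype_locFactor A)
    rw [Function.comp_def, this, Multiset.prod_map_mul, hs]
    congr 1
    rw [map_multiset_prod, Multiset.map_map]
    rfl
  have hQpi : (Q.map π).Monic := by
    rw [hQ, Polynomial.map_multiset_prod, Multiset.map_map]
    apply monic_multiset_prod_of_monic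
    intro α _
    rw [Function.comp_apply, map_pi_locFactor A hπ]
    split_ifs
    · exact monic_X_sub_C _
    · exact monic_one
  set c : L := P.leadingCoeff / s with hc
  have hc0 : c ≠ 0 := div_ne_zero (leadingCoeff_ne_zero.mpr hP0) hs0
  have hPQ : P = C c * Q.map A.subtype := by
    rw [hQmap, ← mul_assoc, ← C_mul, hc, div_mul_cancel₀ _ hs0]
    exact hsplit
  by_cases hcA : c ∈ A
  · have hpQ : p = C ⟨c, hcA⟩ * Q := by
      apply hinj
      rw [Polynomial.map_mul, map_C]
      exact hPQ
    refine ⟨⟨c, hcA⟩, ?_, hpQ⟩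
    by_contra hnu
    apply hp
    rw [hpQ, Polynomial.map_mul, map_C, map_eq_zero_of_not_isUnit A hπ hnu]
    simp
  · exfalso
    have hQp : Q = C ⟨c⁻¹, inv_mem_of_not_mem A hcA⟩ * p := by
      apply hinj
      rw [Polynomial.map_mul, map_C]
      change Q.map A.subtype = C c⁻¹ * P
      rw [hPQ, ← mul_assoc, ← C_mul, inv_mul_cancel₀ hc0]
      simp
    have hzero : Q.map π = 0 := by
      rw [hQp, Polynomial.map_mul, map_C,
        map_eq_zero_of_not_isUnit A hπ (not_isUnit_inv_of_not_mem A hcA)]
      simp
    exact hQpi.ne_zero hzero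

/-- the reduction of `p` is `π u` times the product of `X - ᾱ` over the roots `α ∈ A`. -/
theorem exists_map_pi_eq (hπ : Function.Surjective π) (p : A[X]) (hp : p.map π ≠ 0)
    [DecidablePred fun x : L => x ∈ A] :
    ∃ u : A, IsUnit u ∧ p.map π = C (π u) *
      ((((p.map A.subtype).roots.filter (fun x : L => x ∈ A)).map (redOf A π)).map
        (X - C ·)).prod := by
  obtain ⟨u, hu, hpu⟩ := exists_unit_factorisation A hπ p hp
  refine ⟨u, hu, ?_⟩
  conv_lhs => rw [hpu]
  rw [Polynomial.map_mul, map_C, Polynomial.map_multiset_prod, Multiset.map_map]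
  congr 1
  have : ((fun q : A[X] => q.map π) ∘ locFactor A) =
      fun α => if α ∈ A then X - C (redOf A π α) else 1 :=
    funext fun α => by rw [Function.comp_apply, map_pi_locFactor A hπ]
  rw [this, prod_map_ite_one, Multiset.map_map]
  rfl

theorem roots_map_pi (hπ : Function.Surjective π) (p : A[X]) (hp : p.map π ≠ 0)
    [DecidablePred fun x : L => x ∈ A] :
    (p.map π).roots = ((p.map A.subtype).roots.filter (fun x : L => x ∈ A)).map (redOf A π) := by
  obtain ⟨u, hu, h⟩ := exists_map_pi_eq A hπ p hp
  rw [h, roots_C_mul _ (map_ne_zero_of_isUnit A hu), roots_multiset_prod_X_sub_C]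

/-- **Root count.** The multiplicity of `a` as a root of the reduction of `p` is the number (with
multiplicity) of roots of `p` in `L` that lie in `A` and reduce to `a`. -/
theorem rootMultiplicity_map_eq_card (hπ : Function.Surjective π) (p : A[X]) (hp : p.map π ≠ 0)
    (a : k) [DecidablePred fun x : L => ∃ hx : x ∈ A, π ⟨x, hx⟩ = a] :
    (p.map π).rootMultiplicity a =
      ((p.map A.subtype).roots.filter (fun x : L => ∃ hx : x ∈ A, π ⟨x, hx⟩ = a)).card := by
  classical
  rw [← count_roots, roots_map_pi A hπ p hp, Multiset.count_map, Multiset.filter_filter]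
  congr 1
  apply Multiset.filter_congr
  intro x _
  constructor
  · rintro ⟨h1, h2⟩
    rw [redOf_of_mem A π h2] at h1
    exact ⟨h2, h1.symm⟩
  · rintro ⟨hx, h⟩
    rw [redOf_of_mem A π hx]
    exact ⟨h.symm, hx⟩

/-- **Degree count.** The degree of the reduction is the number of roots in `A`: the roots
outside `A` go to infinity. -/
theorem natDegree_map_eq_card (hπ : Function.Surjective π) (p : A[X]) (hp : p.map π ≠ 0)
    [DecidablePred fun x : L => x ∈ A] :
    (p.map π).natDegree = ((p.map A.subtype).roots.filter (fun x : L => x ∈ A)).card := by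
  obtain ⟨u, hu, h⟩ := exists_map_pi_eq A hπ p hp
  rw [h, natDegree_C_mul (map_ne_zero_of_isUnit A hu), natDegree_multiset_prod_X_sub_C_eq_card,
    Multiset.card_map]

omit [IsAlgClosed L] in
/-- the card of a filtered root multiset as a sum of root multiplicities. -/
theorem card_filter_roots_eq_sum {K : Type*} [Field K] [DecidableEq K] (P : K[X]) (S : K → Prop)
    [DecidablePred S] :
    (P.roots.filter S).card = ∑ x ∈ P.roots.toFinset.filter S, P.rootMultiplicity x := by
  rw [← Multiset.toFinset_sum_count_eq (P.roots.filter S)]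
  have hsub : (P.roots.filter S).toFinset = P.roots.toFinset.filter S := by
    ext x; simp [and_comm]
  rw [hsub]
  apply Finset.sum_congr rfl
  intro x hx
  rw [Finset.mem_filter] at hx
  rw [Multiset.count_filter_of_pos hx.2, count_roots]

/-- **Root count, sum form.** -/
theorem rootMultiplicity_map_eq_sum (hπ : Function.Surjective π) (p : A[X]) (hp : p.map π ≠ 0)
    (a : k) [DecidableEq L] [DecidablePred fun x : L => ∃ hx : x ∈ A, π ⟨x, hx⟩ = a] :
    (p.map π).rootMultiplicity a =
      ∑ x ∈ (p.map A.subtype).roots.toFinset.filter (fun x : L => ∃ hx : x ∈ A, π ⟨x, hx⟩ = a),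
        (p.map A.subtype).rootMultiplicity x :=
  (rootMultiplicity_map_eq_card A hπ p hp a).trans (card_filter_roots_eq_sum _ _)

/-- **Root count, `finsum` form over the elements of `A` reducing to `a`.** -/
theorem rootMultiplicity_map_eq_finsum (hπ : Function.Surjective π) (p : A[X])
    (hp : p.map π ≠ 0) (a : k) :
    (p.map π).rootMultiplicity a =
      ∑ᶠ x : {x : A // π x = a}, (p.map A.subtype).rootMultiplicity ((x : A) : L) := by
  classical
  rw [rootMultiplicity_map_eq_sum A hπ p hp a]
  have hp0 : p.map A.subtype ≠ 0 := by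
    intro h
    apply hp
    have : p = 0 := Polynomial.map_injective _ A.subtype_injective (by simpa using h)
    simp [this]
  symm
  set T := (p.map A.subtype).roots.toFinset.filter
    (fun x : L => ∃ hx : x ∈ A, π ⟨x, hx⟩ = a) with hT
  have hmem : ∀ x ∈ T, ∃ hx : x ∈ A, π ⟨x, hx⟩ = a := fun x hx => (Finset.mem_filter.mp hx).2
  let g : {x : A // π x = a} → L := fun x => ((x : A) : L)
  have hg : Function.Injective g := fun x y h => Subtype.ext (Subtype.ext h)
  have hsupp : (Function.support fun x : {x : A // π x = a} =>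
      (p.map A.subtype).rootMultiplicity ((x : A) : L)) ⊆
      ((T.preimage g hg.injOn : Finset _) : Set _) := by
    intro x hx
    rw [Function.mem_support] at hx
    rw [Finset.coe_preimage, Set.mem_preimage, Finset.mem_coe, hT, Finset.mem_filter,
      Multiset.mem_toFinset, mem_roots hp0]
    refine ⟨?_, (x : A).2, x.2⟩
    by_contra hroot
    exact hx (rootMultiplicity_eq_zero hroot)
  rw [finsum_eq_sum_of_support_subset _ hsupp]
  rw [← Finset.sum_preimage g T hg.injOn (fun x => (p.map A.subtype).rootMultiplicity x)]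
  intro x hx hx'
  exfalso
  apply hx'
  obtain ⟨h1, h2⟩ := hmem x hx
  exact ⟨⟨⟨x, h1⟩, h2⟩, rfl⟩

end Fermat.Agent.S18.H79
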