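import Mathlib
import Fermat.Agent.S18.H84_RedCompat

/-!
# S18: the coordinate hypotheses of the coordinate lemma, from a `RedModel` (helper84)

For `M : RedModel A π r` and `G := gaussRedOfRedModel M fin_ord` we discharge, for an element
`x ∈ M.O` whose residue is not a constant, the hypotheses `hvx`, `hvxa`, `hlift`, `hconstred`,
`hxb` of helper61's `H61.goodCoordAt_of_poleDegree`, and then specialise to `x = j` in the frozen
vocabulary of S18.
-/

set_option autoImplicit false

noncomputable section

open HahnSeries IntermediateField AlgebraicCurve ModularCurve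

namespace Fermat.Agent.S18.H84

section Abstract

variable {K F k Fk : Type*} [Field K] [Field F] [Algebra K F] [Field k] [Field Fk]
  [Algebra k Fk] {A : ValuationSubring K} {π : A →+* k} {r : Place K F → Place k Fk}

variable (M : RedModel A π r)
  (fin_ord : ∀ y : F, y ≠ 0 → {P : Place K F | P.ord y ≠ 0}.Finite)

/-- a constant of Gauss norm at most one is an integral constant -/
theorem gaussRed_const_mem {a : K}
    (ha : (gaussRedOfRedModel M fin_ord).v (algebraMap K F a) ≤ 1) : a ∈ A :=
  (M.const_mem_iff a).mp ((M.O.valuation_le_one_iff _).mp ha)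

/-- `hconstred` -/
theorem gaussRed_hconstred (a : K)
    (ha : (gaussRedOfRedModel M fin_ord).v (algebraMap K F a) ≤ 1) :
    ∃ c : k, (gaussRedOfRedModel M fin_ord).red (algebraMap K F a) = algebraMap k Fk c :=
  ⟨π ⟨a, gaussRed_const_mem M fin_ord ha⟩,
    gaussRedOfRedModel_red_algebraMap M fin_ord ⟨a, gaussRed_const_mem M fin_ord ha⟩⟩

/-- `hlift` -/
theorem gaussRed_hlift (hπ : Function.Surjective π) (c : k) :
    ∃ a : K, (gaussRedOfRedModel M fin_ord).v (algebraMap K F a) ≤ 1 ∧
      (gaussRedOfRedModel M fin_ord).red (algebraMap K F a) = algebraMap k Fk c := by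
  obtain ⟨a, rfl⟩ := hπ c
  exact ⟨a, gaussRedOfRedModel_v_algebraMap_le M fin_ord a,
    gaussRedOfRedModel_red_algebraMap M fin_ord a⟩

variable {x : F} (hx : x ∈ M.O)

/-- `red x = res x` -/
theorem gaussRed_red_eq : (gaussRedOfRedModel M fin_ord).red x = M.res ⟨x, hx⟩ :=
  gaussRedOfRedModel_red_of_mem M fin_ord hx

/-- `hvx` -/
theorem gaussRed_hvx (hne : M.res ⟨x, hx⟩ ≠ 0) : (gaussRedOfRedModel M fin_ord).v x = 1 :=
  (M.valuation_eq_one_iff ⟨x, hx⟩).mpr hne

/-- `hxb` -/
theorem gaussRed_hxb (hxc : ∀ c : k, M.res ⟨x, hx⟩ ≠ algebraMap k Fk c) (c : k) :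
    (gaussRedOfRedModel M fin_ord).red x ≠ algebraMap k Fk c := by
  rw [gaussRed_red_eq M fin_ord hx]
  exact hxc c

/-- `hvxa` -/
theorem gaussRed_hvxa (hxc : ∀ c : k, M.res ⟨x, hx⟩ ≠ algebraMap k Fk c) (a : K)
    (ha : (gaussRedOfRedModel M fin_ord).v (algebraMap K F a) ≤ 1) :
    (gaussRedOfRedModel M fin_ord).v (x - algebraMap K F a) = 1 := by
  have haA : a ∈ A := gaussRed_const_mem M fin_ord ha
  have haO : algebraMap K F a ∈ M.O := (M.const_mem_iff a).mpr haA
  have hmem : x - algebraMap K F a ∈ M.O := sub_mem hx haO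
  refine (M.valuation_eq_one_iff ⟨_, hmem⟩).mpr ?_
  have hsub : (⟨x - algebraMap K F a, hmem⟩ : M.O) = ⟨x, hx⟩ - ⟨algebraMap K F a, haO⟩ := rfl
  rw [hsub, map_sub, M.res_const ⟨a, haA⟩ haO, sub_ne_zero]
  exact hxc _

end Abstract

section Frozen

variable {A : ValuationSubring (AlgebraicClosure ℚ)} {N : ℕ}
variable (h : ReductionInputsModL A N)
variable (hconst : ∀ g : modularFunctionFieldBar N, g ≠ 0 →
  (∀ P : Place (AlgebraicClosure ℚ) (modularFunctionFieldBar N), P.ord g = 0) →
    ∃ c : AlgebraicClosure ℚ, algebraMap (AlgebraicClosure ℚ) (modularFunctionFieldBar N) c = g)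
variable (hdiv : ∀ f : modularFunctionFieldBar N, f ≠ 0 →
  ∃ D : Divisor (AlgebraicClosure ℚ) (modularFunctionFieldBar N), ∀ P, D P = P.ord f)
variable (fin_ord : ∀ y : modularFunctionFieldBar N, y ≠ 0 →
  {P : Place (AlgebraicClosure ℚ) (modularFunctionFieldBar N) | P.ord y ≠ 0}.Finite)

/-- the abstract reduction datum of helper71 in the frozen vocabulary -/
def gaussRedModL :
    H71.GaussRed (AlgebraicClosure ℚ) (modularFunctionFieldBar N) (IsLocalRing.ResidueField A)
      (modularFunctionFieldFullC (IsLocalRing.ResidueField A) N)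
      (redModelModL h hconst hdiv).O.ValueGroup :=
  gaussRedOfRedModel (redModelModL h hconst hdiv) fin_ord

theorem gaussRedModL_r : (gaussRedModL h hconst hdiv fin_ord).r = placeReductionModL h := rfl

theorem jF_mem_redModelModL : jF (AlgebraicClosure ℚ) N ∈ (redModelModL h hconst hdiv).O :=
  jF_mem_redModel_O IsLocalRing.residue_surjective h hconst hdiv

theorem redModelModL_res_jF :
    (redModelModL h hconst hdiv).res ⟨jF (AlgebraicClosure ℚ) N, jF_mem_redModelModL h hconst hdiv⟩
      = jFk (IsLocalRing.ResidueField A) N :=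
  redModel_res_jF IsLocalRing.residue_surjective h hconst hdiv

/-- `red j = j̄` -/
theorem gaussRedModL_red_jF :
    (gaussRedModL h hconst hdiv fin_ord).red (jF (AlgebraicClosure ℚ) N) =
      jFk (IsLocalRing.ResidueField A) N := by
  rw [gaussRedModL, gaussRed_red_eq _ fin_ord (jF_mem_redModelModL h hconst hdiv),
    redModelModL_res_jF]

/-- `hcompat` for the frozen datum -/
theorem gaussRedModL_hcompat (Y : H11.IntElt A N) :
    (gaussRedModL h hconst hdiv fin_ord).v Y.gen = 1 ∧
      (gaussRedModL h hconst hdiv fin_ord).red Y.gen = Y.red :=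
  hcompat_gaussRed h hconst hdiv fin_ord Y

variable (hjk : ∀ c : IsLocalRing.ResidueField A,
  jFk (IsLocalRing.ResidueField A) N ≠
    algebraMap (IsLocalRing.ResidueField A)
      (modularFunctionFieldFullC (IsLocalRing.ResidueField A) N) c)

include hjk in
theorem res_jF_ne_const (c : IsLocalRing.ResidueField A) :
    (redModelModL h hconst hdiv).res
      ⟨jF (AlgebraicClosure ℚ) N, jF_mem_redModelModL h hconst hdiv⟩ ≠
        algebraMap (IsLocalRing.ResidueField A)
          (modularFunctionFieldFullC (IsLocalRing.ResidueField A) N) c := by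
  rw [redModelModL_res_jF]
  exact hjk c

include hjk in
/-- `hvx` for `x = j` -/
theorem gaussRedModL_hvx :
    (gaussRedModL h hconst hdiv fin_ord).v (jF (AlgebraicClosure ℚ) N) = 1 := by
  refine gaussRed_hvx _ fin_ord (jF_mem_redModelModL h hconst hdiv) ?_
  have := res_jF_ne_const h hconst hdiv hjk 0
  rwa [map_zero] at this

include hjk in
/-- `hvxa` for `x = j` -/
theorem gaussRedModL_hvxa (a : AlgebraicClosure ℚ)
    (ha : (gaussRedModL h hconst hdiv fin_ord).v
      (algebraMap (AlgebraicClosure ℚ) (modularFunctionFieldBar N) a) ≤ 1) :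
    (gaussRedModL h hconst hdiv fin_ord).v
      (jF (AlgebraicClosure ℚ) N -
        algebraMap (AlgebraicClosure ℚ) (modularFunctionFieldBar N) a) = 1 :=
  gaussRed_hvxa _ fin_ord (jF_mem_redModelModL h hconst hdiv)
    (res_jF_ne_const h hconst hdiv hjk) a ha

/-- `hlift` -/
theorem gaussRedModL_hlift (c : IsLocalRing.ResidueField A) :
    ∃ a : AlgebraicClosure ℚ,
      (gaussRedModL h hconst hdiv fin_ord).v
        (algebraMap (AlgebraicClosure ℚ) (modularFunctionFieldBar N) a) ≤ 1 ∧
      (gaussRedModL h hconst hdiv fin_ord).red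
        (algebraMap (AlgebraicClosure ℚ) (modularFunctionFieldBar N) a) =
        algebraMap (IsLocalRing.ResidueField A)
          (modularFunctionFieldFullC (IsLocalRing.ResidueField A) N) c :=
  gaussRed_hlift _ fin_ord IsLocalRing.residue_surjective c

/-- `hconstred` -/
theorem gaussRedModL_hconstred (a : AlgebraicClosure ℚ)
    (ha : (gaussRedModL h hconst hdiv fin_ord).v
      (algebraMap (AlgebraicClosure ℚ) (modularFunctionFieldBar N) a) ≤ 1) :
    ∃ c : IsLocalRing.ResidueField A,
      (gaussRedModL h hconst hdiv fin_ord).red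
        (algebraMap (AlgebraicClosure ℚ) (modularFunctionFieldBar N) a) =
        algebraMap (IsLocalRing.ResidueField A)
          (modularFunctionFieldFullC (IsLocalRing.ResidueField A) N) c :=
  gaussRed_hconstred _ fin_ord a ha

include hjk in
/-- `hxb` for `x = j` -/
theorem gaussRedModL_hxb (c : IsLocalRing.ResidueField A) :
    (gaussRedModL h hconst hdiv fin_ord).red (jF (AlgebraicClosure ℚ) N) ≠
      algebraMap (IsLocalRing.ResidueField A)
        (modularFunctionFieldFullC (IsLocalRing.ResidueField A) N) c := by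
  rw [gaussRedModL_red_jF]
  exact hjk c

end Frozen

end Fermat.Agent.S18.H84
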