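import Mathlib
import Fermat.Agent.S18.H84_JCoord
import Fermat.Agent.S18.H61_Coordinate
import Fermat.Agent.S18.H16_FkInst
import Fermat.Agent.S18.H11_IfaceInst
import Fermat.Agent.S18.H15_UnrFinite
import Fermat.Agent.S18.H95_BranchData
import Fermat.Agent.RR.H76_InstFN

/-!
# S18 from the genus inequality (helper84; concrete form of the (B8) assembly)

`s18_of_genus_le` : the frozen statement of S18 for `N`, `ℓ`, `A`, from the single hypothesis
`gR (F_N / ℚ̄) ≤ gR (F_{N,k} / k)` (Riemann genera of the RR bank), `k = ResidueField A`.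
Everything else (reduction model, coordinate `j`, pole degrees `ψ(N)` on both fibres, finiteness
of the ramification locus of `j̄`, non-special divisors, Riemann's inequality) is discharged here
from the landed packages.
-/

set_option autoImplicit false
set_option linter.unusedSectionVars false
set_option linter.style.haveILetI false
set_option synthInstance.maxHeartbeats 400000

noncomputable section

open HahnSeries IntermediateField AlgebraicCurve ModularCurve

namespace Fermat.Agent.S18.H84

open Fermat.Agent.RR Fermat.Agent.S24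

section FColumn

variable (N : ℕ) [NeZero N]

/-- the `j`-function of `H84_RedModelFinal` is S24's `jBar` -/
theorem jF_eq_jBar : jF (AlgebraicClosure ℚ) N = jBar N := by
  apply Subtype.ext
  show jqModC (AlgebraicClosure ℚ) = coeffEmb (AlgebraicClosure ℚ) jq
  rw [coeffEmb, ← jqModC_rat, coeffMap_jqModC]

theorem transcendental_jF : Transcendental (AlgebraicClosure ℚ) (jF (AlgebraicClosure ℚ) N) := by
  rw [jF_eq_jBar]
  exact H40.transcendental_jBar N

/-- no zeros and poles ⇒ constant, on the generic fibre (the `hconst` input of `redModel`) -/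
theorem hconst_FN (g : modularFunctionFieldBar N) (_hg : g ≠ 0)
    (hord : ∀ P : Place (AlgebraicClosure ℚ) (modularFunctionFieldBar N), P.ord g = 0) :
    ∃ c : AlgebraicClosure ℚ,
      algebraMap (AlgebraicClosure ℚ) (modularFunctionFieldBar N) c = g := by
  haveI : FiniteDimensional Qbar⟮jBar N⟯ (FN N) := H40.finiteDimensional_FN N
  obtain ⟨a, ha⟩ := H52.exists_eq_algebraMap_of_forall_ord_eq_zero (K := Qbar) (F := FN N)
    (jBar N) (H40.transcendental_jBar N) hord
  exact ⟨a, ha.symm⟩

/-- every nonzero function has a divisor (the `hdiv` input of `redModel`) -/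
theorem hdiv_FN' (f : modularFunctionFieldBar N) (_hf : f ≠ 0) :
    ∃ D : Divisor (AlgebraicClosure ℚ) (modularFunctionFieldBar N), ∀ P, D P = P.ord f :=
  H11.hdiv_FN N f

/-- zeros and poles are finite in number -/
theorem fin_ord_FN (y : modularFunctionFieldBar N) (hy : y ≠ 0) :
    {P : Place (AlgebraicClosure ℚ) (modularFunctionFieldBar N) | P.ord y ≠ 0}.Finite :=
  (H76.ffInputs_FN N).finOrd y hy

theorem deg_eq_one_FN' (P : Place (AlgebraicClosure ℚ) (modularFunctionFieldBar N)) :
    P.deg = 1 := H95.place_deg_eq_one N P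

/-- the pole divisor of `j` on the generic fibre has degree `ψ(N)` -/
theorem degree_pole_jF
    (B : Divisor (AlgebraicClosure ℚ) (modularFunctionFieldBar N))
    (hB : ∀ v, B v = max (-v.ord (jF (AlgebraicClosure ℚ) N)) 0) :
    Divisor.degree B = (dedekindPsi N : ℤ) := by
  haveI : FiniteDimensional Qbar⟮jBar N⟯ (FN N) := H40.finiteDimensional_FN N
  rw [jF_eq_jBar] at hB
  rw [H43.degree_eq_finrank_of_forall_eq_pole (K := Qbar) (F := FN N) (jBar N)
    (H40.transcendental_jBar N) (H40.transcendental_jBar N) B hB, H95.finrank_eq_dedekindPsi N]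

theorem exists_pole_jF :
    ∃ P₀ : Place (AlgebraicClosure ℚ) (modularFunctionFieldBar N),
      P₀.ord (jF (AlgebraicClosure ℚ) N) < 0 :=
  (H76.ffInputs_FN N).existsPole _ (transcendental_jF N)

end FColumn

section Main

variable (N : ℕ) [NeZero N] {ℓ : ℕ} [hℓ : Fact ℓ.Prime] (hℓN : ¬ ℓ ∣ N)
  (A : ValuationSubring (AlgebraicClosure ℚ)) (hA : A.LiesOverPrime ℓ)

/-- `j̄` is not a constant -/
theorem jFk_ne_const (c : IsLocalRing.ResidueField A) :
    jFk (IsLocalRing.ResidueField A) N ≠
      algebraMap (IsLocalRing.ResidueField A)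
        (modularFunctionFieldFullC (IsLocalRing.ResidueField A) N) c := by
  intro hc
  have ht : Transcendental (IsLocalRing.ResidueField A) (jFk (IsLocalRing.ResidueField A) N) :=
    H16.transcendental_jk N A
  apply ht
  rw [hc]
  exact isAlgebraic_algebraMap c

include hℓN hA in
/-- **S18 from the genus inequality.** -/
theorem s18_of_genus_le
    (hgenus : (H76.ffBase_FN N).gR ≤ (H16.ffBase_Fk N hℓN A hA).gR)
    (h : ModularCurve.ReductionInputsModL A N) (m : ℕ) (hm : ¬ ℓ ∣ m)
    (z : ModularCurve.JZero N) (hmz : m • z = 0)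
    (hz : ModularCurve.reductionModL A N z = 0) : z = 0 := by
  classical
  -- instances on the special fibre
  haveI hfd := H16.finiteDimensional_Fk N hℓN A hA
  haveI hsep := H16.isSeparable_Fk N hℓN A hA
  haveI hchar := H16.charP_k A hA
  have hm0 : m ≠ 0 := by
    rintro rfl
    exact hm (dvd_zero ℓ)
  have hmk : (m : IsLocalRing.ResidueField A) ≠ 0 := by
    rw [Ne, CharP.cast_eq_zero_iff (IsLocalRing.ResidueField A) ℓ m]
    exact hm
  -- the reduction datum
  set G := gaussRedModL h (hconst_FN N) (hdiv_FN' N) (fin_ord_FN N) with hG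
  have hjk := jFk_ne_const N A
  have hredx : G.red (jF (AlgebraicClosure ℚ) N) = jFk (IsLocalRing.ResidueField A) N :=
    gaussRedModL_red_jF h (hconst_FN N) (hdiv_FN' N) (fin_ord_FN N)
  have hvx : G.v (jF (AlgebraicClosure ℚ) N) = 1 :=
    gaussRedModL_hvx h (hconst_FN N) (hdiv_FN' N) (fin_ord_FN N) hjk
  -- pole divisors
  set B : Divisor (AlgebraicClosure ℚ) (modularFunctionFieldBar N) :=
    (H76.ffInputs_FN N).divPole (jF (AlgebraicClosure ℚ) N) with hBdef
  have hB : ∀ P, B P = max (-P.ord (jF (AlgebraicClosure ℚ) N)) 0 := fun P =>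
    H43.FFInputs.divPole_apply _ _ P
  have hIk : H43.FFInputs (IsLocalRing.ResidueField A)
      (modularFunctionFieldFullC (IsLocalRing.ResidueField A) N) :=
    H43.ffInputs (H16.jk N A) (H16.transcendental_jk N A)
  set B' : Divisor (IsLocalRing.ResidueField A)
      (modularFunctionFieldFullC (IsLocalRing.ResidueField A) N) :=
    hIk.divPole (H16.jk N A) with hB'def
  have hB'0 : ∀ Q, B' Q = max (-Q.ord (H16.jk N A)) 0 := fun Q =>
    H43.FFInputs.divPole_apply _ _ Q
  have hB' : ∀ Q, B' Q = max (-Q.ord (G.red (jF (AlgebraicClosure ℚ) N))) 0 := by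
    intro Q
    rw [hredx]
    exact hB'0 Q
  have hdeg : Divisor.degree B = Divisor.degree B' := by
    rw [degree_pole_jF N B hB, H16.degree_pole_jk N hℓN A hA B' hB'0]
  -- the bad set
  set S : Set (Place (IsLocalRing.ResidueField A)
      (modularFunctionFieldFullC (IsLocalRing.ResidueField A) N)) :=
    {Q | Q.ord (H16.jk N A) < 0} ∪
      {Q | ∃ c : IsLocalRing.ResidueField A, 2 ≤ Q.ord (H16.jk N A - algebraMap _ _ c)} with hSdef
  have hjk0 : H16.jk N A ≠ 0 := by
    intro h0
    exact (H16.transcendental_jk N A) (h0 ▸ isAlgebraic_zero)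
  have hS : S.Finite := by
    refine Set.Finite.union ?_ (H15.finite_ramified (H16.jk N A) (H16.transcendental_jk N A))
    refine (hIk.finOrd (H16.jk N A) hjk0).subset ?_
    intro Q hQ
    simp only [Set.mem_ofPred_eq] at hQ ⊢
    omega
  have hdegF := deg_eq_one_FN' N
  have hdegFb := H16.deg_eq_one_Fk N hℓN A hA
  have hgood : ∀ Q, Q ∉ S → H61.GoodCoordAt G (jF (AlgebraicClosure ℚ) N) Q := by
    intro Q hQ
    rw [hSdef, Set.mem_union, not_or] at hQ
    obtain ⟨hQ1, hQ2⟩ := hQ
    refine H61.goodCoordAt_of_poleDegree G hdegF hdegFb (jF (AlgebraicClosure ℚ) N) hvx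
      (gaussRedModL_hvxa h (hconst_FN N) (hdiv_FN' N) (fin_ord_FN N) hjk)
      (gaussRedModL_hlift h (hconst_FN N) (hdiv_FN' N) (fin_ord_FN N))
      (gaussRedModL_hconstred h (hconst_FN N) (hdiv_FN' N) (fin_ord_FN N))
      B hB B' hB' hdeg
      (gaussRedModL_hxb h (hconst_FN N) (hdiv_FN' N) (fin_ord_FN N) hjk) Q ?_ ?_
    · rw [hredx]
      simp only [Set.mem_ofPred_eq, not_lt] at hQ1
      exact hQ1
    · intro c
      rw [hredx]
      simp only [Set.mem_ofPred_eq, not_exists, not_le] at hQ2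
      exact hQ2 c
  -- a pole of `j`
  obtain ⟨P₀, hP₀⟩ := exists_pole_jF N
  have hP₀S : G.r P₀ ∈ S := by
    have := H61.ord_red_neg_of_pole G hdegF hdegFb (jF (AlgebraicClosure ℚ) N) hvx B hB B' hB' hdeg
      P₀ hP₀
    rw [hredx] at this
    exact Or.inl this
  -- the core
  have hcompat := gaussRedModL_hcompat h (hconst_FN N) (hdiv_FN' N) (fin_ord_FN N)
  have core : H11.CoreE A N m := by
    intro Y₁ Y₂ hred D hD
    rw [Divisor.mem_principal]
    obtain ⟨hv₁, hr₁⟩ := hcompat Y₁
    obtain ⟨hv₂, hr₂⟩ := hcompat Y₂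
    have hvinv : G.v (Y₂.gen)⁻¹ = 1 := G.v_inv_eq_one hv₂
    refine H61.isPrincipal_of_red_eq_one G (H76.ffBase_FN N) (H16.ffBase_Fk N hℓN A hA) hgenus
      hdegF hdegFb (H16.ell_zero_Fk N hℓN A hA) (H16.infinite_places_Fk N hℓN A hA) m hmk
      (jF (AlgebraicClosure ℚ) N) S hS hgood P₀ hP₀S D (Y₁.gen * (Y₂.gen)⁻¹) ?_ ?_ ?_
    · rw [map_mul, hv₁, hvinv, one_mul]
    · rw [G.red_mul _ _ hv₁.le hvinv.le, G.red_inv hv₂, hr₁, hr₂, hred,
        mul_inv_cancel₀ Y₂.red_ne_zero]
    · intro P
      rw [hD P, P.ord_mul Y₁.gen_ne_zero (inv_ne_zero Y₂.gen_ne_zero), P.ord_inv]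
      ring
  exact H11.result_of_coreE h m hm0 (H11.hdiv_FN N) (H16.constK N hℓN A hA) core z hmz hz


include hℓN hA in
/-- **S18 from the lattice inequality (GR)** `ℓ(n (j̄)_∞) ≤ ℓ(n (j)_∞)` (the export shape of the
Čech-genus package: pole divisors in parameter form). -/
theorem s18_of_lattice_le
    (B : Divisor (AlgebraicClosure ℚ) (modularFunctionFieldBar N))
    (hB : ∀ v, B v = max (-v.ord (jBar N)) 0)
    (B' : Divisor (IsLocalRing.ResidueField A)
      (modularFunctionFieldFullC (IsLocalRing.ResidueField A) N))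
    (hB' : ∀ v, B' v = max (-v.ord (H16.jk N A)) 0)
    (hle : ∀ n : ℕ, H76.ell (n • B') ≤ H76.ell (n • B))
    (h : ModularCurve.ReductionInputsModL A N) (m : ℕ) (hm : ¬ ℓ ∣ m)
    (z : ModularCurve.JZero N) (hmz : m • z = 0)
    (hz : ModularCurve.reductionModL A N z = 0) : z = 0 := by
  haveI : FiniteDimensional Qbar⟮jBar N⟯ (FN N) := H40.finiteDimensional_FN N
  have hB1 : ∀ v, B v = max (-v.ord (jF (AlgebraicClosure ℚ) N)) 0 := by
    intro v
    rw [jF_eq_jBar]
    exact hB v
  have hdegB : Divisor.degree B = (dedekindPsi N : ℤ) := degree_pole_jF N B hB1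
  have hdegB' : Divisor.degree B' = (dedekindPsi N : ℤ) := H16.degree_pole_jk N hℓN A hA B' hB'
  have hpos : 0 < Divisor.degree B := by
    rw [hdegB, ← H95.finrank_eq_dedekindPsi N]
    exact_mod_cast Module.finrank_pos
  exact s18_of_genus_le N hℓN A hA
    (H61.gR_le_of_forall_ell_le (H76.ffBase_FN N) (H16.ffBase_Fk N hℓN A hA) B B'
      (by rw [hdegB, hdegB']) hpos hle) h m hm z hmz hz

end Main

end Fermat.Agent.S18.H84
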