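/-
helper89, project S18, package R5 (ASSEMBLY) of the R-EXIST plan: abstract gluing of charts.

Given a "unit ball" `O ⊆ F` with reduction `res : O →+* Fk`, a place map `r`, and a family of
charts `B c ⊆ O`, `Y c ⊆ Place k Fk` such that
* every place `Q` of the special fibre lies in some `Y c`,
* every `f ∈ O` with `res f ≠ 0` is a fraction `b₁ / b₂` of elements of `B c` with nonzero
  reduction,
* pointwise conservation of number holds for the elements of `B c` at the points of `Y c`,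
then `Finsupp.mapDomain r (div f) Q = Q.ord (res f)` for every `f ∈ O` with `res f ≠ 0`:
the key clause of `IsPlaceReductionAlong`.
-/
import Mathlib
import Fermat.Prelude.Def_AlgebraicCurve_DivisorClassGroup
import Fermat.Agent.S18.H89_AssemblyCore

set_option autoImplicit false

namespace Fermat.Agent.S18.H89

open AlgebraicCurve

variable {K F k Fk : Type*} [Field K] [Field F] [Algebra K F] [Field k] [Field Fk] [Algebra k Fk]

/-- Chart data for gluing. -/
structure ChartGlue (O : Subring F) (res : O →+* Fk) (r : Place K F → Place k Fk)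
    {ι : Type*} (B : ι → Subring F) (Y : ι → Set (Place k Fk)) : Prop where
  le : ∀ c, B c ≤ O
  cover : ∀ Q : Place k Fk, ∃ c, Q ∈ Y c
  frac : ∀ (c : ι) (f : F) (hf : f ∈ O), res ⟨f, hf⟩ ≠ 0 →
    ∃ (b₁ b₂ : F) (h₁ : b₁ ∈ B c) (h₂ : b₂ ∈ B c),
      res ⟨b₁, le c h₁⟩ ≠ 0 ∧ res ⟨b₂, le c h₂⟩ ≠ 0 ∧ f * b₂ = b₁
  cons : ∀ (c : ι) (b : F) (hb : b ∈ B c), res ⟨b, le c hb⟩ ≠ 0 → ∀ Q ∈ Y c,
    ConservesAt r Q b (res ⟨b, le c hb⟩)

namespace ChartGlue

variable {O : Subring F} {res : O →+* Fk} {r : Place K F → Place k Fk}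
  {ι : Type*} {B : ι → Subring F} {Y : ι → Set (Place k Fk)}

theorem ne_zero_of_res_ne_zero {f : F} (hf : f ∈ O) (h : res ⟨f, hf⟩ ≠ 0) : f ≠ 0 := by
  rintro rfl
  exact h (by
    have : (⟨0, hf⟩ : O) = 0 := rfl
    rw [this, map_zero])

theorem conservesAt (G : ChartGlue O res r B Y) {f : F} (hf : f ∈ O) (h : res ⟨f, hf⟩ ≠ 0)
    (Q : Place k Fk) : ConservesAt r Q f (res ⟨f, hf⟩) := by
  obtain ⟨c, hQ⟩ := G.cover Q
  obtain ⟨b₁, b₂, h₁, h₂, hr₁, hr₂, hfb⟩ := G.frac c f hf h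
  have hb₁ : b₁ ≠ 0 := ne_zero_of_res_ne_zero (G.le c h₁) hr₁
  have hb₂ : b₂ ≠ 0 := ne_zero_of_res_ne_zero (G.le c h₂) hr₂
  have hfeq : f = b₁ / b₂ := by
    rw [eq_div_iff hb₂, hfb]
  have hres : res ⟨f, hf⟩ = res ⟨b₁, G.le c h₁⟩ / res ⟨b₂, G.le c h₂⟩ := by
    rw [eq_div_iff hr₂, ← map_mul]
    congr 1
    exact Subtype.ext hfb
  have := ConservesAt.div hb₁ hb₂ hr₁ hr₂ (G.cons c b₁ h₁ hr₁ Q hQ) (G.cons c b₂ h₂ hr₂ Q hQ)
  rw [hres]
  rw [← hfeq] at this
  exact this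

/-- The key clause of `IsPlaceReductionAlong`, from chart data. -/
theorem mapDomain_eq (G : ChartGlue O res r B Y) {f : F} (hf : f ∈ O) (h : res ⟨f, hf⟩ ≠ 0)
    (D : Divisor K F) (hD : ∀ P, D P = P.ord f) (Q : Place k Fk) :
    Finsupp.mapDomain r D Q = Q.ord (res ⟨f, hf⟩) :=
  (G.conservesAt hf h Q).mapDomain_eq D hD

end ChartGlue

end Fermat.Agent.S18.H89

namespace Fermat.Agent.S18.H89

open AlgebraicCurve

variable {K F k Fk : Type*} [Field K] [Field F] [Algebra K F] [Field k] [Field Fk] [Algebra k Fk]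

/-- Passage from a chart (subtypes `X`, `Y` of places, restricted centre map `rc`) to the global
statement `ConservesAt`: if every place whose centre lies in `Y` belongs to `X`, a fibre sum over
the subtype is the fibre sum over all places. -/
theorem conservesAt_of_subtype (r : Place K F → Place k Fk) (X : Set (Place K F))
    (Y : Set (Place k Fk)) (hX : ∀ P, r P ∈ Y → P ∈ X) (rc : X → Y)
    (hrc : ∀ P : X, (rc P : Place k Fk) = r P) (Q : Place k Fk) (hQ : Q ∈ Y) (b : F) (c : Fk)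
    (hfin : {P : Place K F | P.ord b ≠ 0}.Finite)
    (hsum : ∑ᶠ P ∈ {P : X | rc P = ⟨Q, hQ⟩}, (P : Place K F).ord b = Q.ord c) :
    ConservesAt r Q b c := by
  refine ⟨hfin.subset fun P hP => hP.2, ?_⟩
  rw [← hsum]
  symm
  refine finsum_mem_eq_of_bijOn (fun P : X => (P : Place K F)) ⟨?_, ?_, ?_⟩ fun P _ => rfl
  · intro P hP
    have h1 : rc P = ⟨Q, hQ⟩ := hP
    show r (P : Place K F) = Q
    rw [← hrc P, h1]
  · intro P _ P' _ h
    exact Subtype.ext h
  · intro P hP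
    have h1 : r P = Q := hP
    have hPX : P ∈ X := hX P (by rw [h1]; exact hQ)
    refine ⟨⟨P, hPX⟩, ?_, rfl⟩
    show rc ⟨P, hPX⟩ = ⟨Q, hQ⟩
    apply Subtype.ext
    rw [hrc ⟨P, hPX⟩]
    exact h1

end Fermat.Agent.S18.H89
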