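/-
helper89, project S18, R-EXIST, FINAL ASSEMBLY:

  `ReductionInputsModL A N` from good reduction in the lifting form `GRFin` / `GRInf`.

Everything else is on main: R0 (helper92: `H92.stdTwoGen`, `stdO`, `stdRes`, (V3), PGI),
ORTHO-INT + CenterInst (helper27: the two `ChartHyp`, the orthonormal family), R1+R2 + FibreInst
(helper97: `center`, `fibreHyp_intRing`), R3 (helper35: `sepHyp_fw`), R4+R5 (this seat).
-/
import Mathlib
import Fermat.Agent.S18.H92_IndepK
import Fermat.Agent.S18.H27_CenterInst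
import Fermat.Agent.S18.H97_FibreInst
import Fermat.Agent.S18.H35_SepHypFW
import Fermat.Agent.S18.H16_FkInst
import Fermat.Agent.S18.H89_ReductionInputsModL

set_option autoImplicit false
set_option linter.unusedSectionVars false
set_option linter.style.haveILetI false
set_option synthInstance.maxHeartbeats 400000
set_option maxHeartbeats 1000000

noncomputable section

namespace Fermat.Agent.S18.H89

open AlgebraicCurve ModularCurve IsDedekindDomain Fermat.Agent.S18.H97 Fermat.Agent.S24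
open Fermat.Agent.RR
open scoped IntermediateField

section Abstract

variable {L FL k Fk : Type*} [Field L] [Field FL] [Algebra L FL] [Field k] [Field Fk]
  [Algebra k Fk]
variable {A : ValuationSubring L} {π : A →+* k} {O : ValuationSubring FL} {res : O →+* Fk}
  {t : FL}

/-- `SepHyp` for the chart model `Bk := intRing k (res t)` of helper97's `fibreHyp_intRing`. -/
theorem sepHyp_intRing (H : ChartHyp A π O res t)
    [IsDedekindDomain (Fermat.Agent.S24.H97.intRing k (res ⟨t, H.tO⟩))]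
    [IsFractionRing (Fermat.Agent.S24.H97.intRing k (res ⟨t, H.tO⟩)) Fk]
    (G : FibreHyp L k res t (Fermat.Agent.S24.H97.intRing k (res ⟨t, H.tO⟩)))
    (resk : ∀ Q : Place k Fk, Function.Surjective (algebraMap k Q.ResidueField))
    (finOrd : ∀ f : FL, f ≠ 0 → {P : Place L FL | P.ord f ≠ 0}.Finite)
    (fw : ∀ b : BA L O t, resBA L res t b ≠ 0 → ∀ abar : k,
      ∑ᶠ Q ∈ H35.fibreAt (resBA L res t (tBA H)) abar, Q.ord (resBA L res t b) =
        ∑ᶠ P ∈ discAtπ A π t abar, P.ord (b : FL)) :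
    SepHyp H G :=
  SepHyp.mk' H G resk finOrd (fun β => β.2) fw

/-- Abstract R-EXIST for the chart models `intRing k (res t)`, `intRing k (res t⁻¹)`: the
existential form hides the chart models. -/
theorem exists_reduction_of_intRing (H₁ : ChartHyp A π O res t) (H₂ : ChartHyp A π O res t⁻¹)
    [IsDedekindDomain (Fermat.Agent.S24.H97.intRing k (res ⟨t, H₁.tO⟩))]
    [IsFractionRing (Fermat.Agent.S24.H97.intRing k (res ⟨t, H₁.tO⟩)) Fk]
    [IsDedekindDomain (Fermat.Agent.S24.H97.intRing k (res ⟨t⁻¹, H₂.tO⟩))]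
    [IsFractionRing (Fermat.Agent.S24.H97.intRing k (res ⟨t⁻¹, H₂.tO⟩)) Fk]
    (htr₁ : Transcendental k (res ⟨t, H₁.tO⟩)) (htr₂ : Transcendental k (res ⟨t⁻¹, H₂.tO⟩))
    (hGR₁ : ∀ γ : Fk, IsIntegral (Algebra.adjoin k {res ⟨t, H₁.tO⟩}) γ →
      ∃ b : BA L O t, resBA L res t b = γ)
    (hGR₂ : ∀ γ : Fk, IsIntegral (Algebra.adjoin k {res ⟨t⁻¹, H₂.tO⟩}) γ →
      ∃ b : BA L O t⁻¹, resBA L res t⁻¹ b = γ)
    (resk : ∀ Q : Place k Fk, Function.Surjective (algebraMap k Q.ResidueField))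
    (finOrd : ∀ f : FL, f ≠ 0 → {P : Place L FL | P.ord f ≠ 0}.Finite)
    (fw₁ : ∀ b : BA L O t, resBA L res t b ≠ 0 → ∀ abar : k,
      ∑ᶠ Q ∈ H35.fibreAt (resBA L res t (tBA H₁)) abar, Q.ord (resBA L res t b) =
        ∑ᶠ P ∈ discAtπ A π t abar, P.ord (b : FL))
    (fw₂ : ∀ b : BA L O t⁻¹, resBA L res t⁻¹ b ≠ 0 → ∀ abar : k,
      ∑ᶠ Q ∈ H35.fibreAt (resBA L res t⁻¹ (tBA H₂)) abar, Q.ord (resBA L res t⁻¹ b) =
        ∑ᶠ P ∈ discAtπ A π t⁻¹ abar, P.ord (b : FL))
    (halg₁ : Algebra.IsAlgebraic (Algebra.adjoin L {t}) FL)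
    (halg₂ : Algebra.IsAlgebraic (Algebra.adjoin L {t⁻¹}) FL)
    (hdeg : ∀ P : Place L FL, P.deg = 1) :
    ∃ r : Place L FL → Place k Fk, (∀ P, (r P).deg = P.deg) ∧
      ∀ (f : FL) (hf : f ∈ O), res ⟨f, hf⟩ ≠ 0 → ∀ D : Divisor L FL,
        (∀ P, D P = P.ord f) → ∀ Q : Place k Fk,
          Finsupp.mapDomain r D Q = Q.ord (res ⟨f, hf⟩) := by
  have G₁ := H97.fibreHyp_intRing H₁ htr₁ hGR₁
  have G₂ := H97.fibreHyp_intRing H₂ htr₂ hGR₂
  have S₁ : SepHyp H₁ G₁ := sepHyp_intRing H₁ G₁ resk finOrd fw₁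
  have S₂ : SepHyp H₂ G₂ := sepHyp_intRing H₂ G₂ resk finOrd fw₂
  exact ⟨globalCenter H₁ G₁ H₂ G₂, globalCenter_spec S₁ S₂ halg₁ halg₂ hdeg⟩

end Abstract

section RExist

variable (N : ℕ) [NeZero N] {ℓ : ℕ} [Fact ℓ.Prime] (hℓN : ¬ ℓ ∣ N)
  (A : ValuationSubring (AlgebraicClosure ℚ)) (hA : A.LiesOverPrime ℓ)

/-- The Gauss valuation ring of `F_N ℚ̄` at `A` (reducible form of `H92.stdO`). -/
abbrev gO : ValuationSubring (modularFunctionFieldBar N) :=
  (H92.stdTwoGen N hℓN A hA).unitBall (modularFunctionFieldBar N) (H92.stdTwoGen_FL N hℓN A hA)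

/-- The reduction map (reducible form of `H92.stdRes`). -/
abbrev gRes : gO N hℓN A hA →+* modularFunctionFieldFullC (IsLocalRing.ResidueField A) N :=
  (H92.stdTwoGen N hℓN A hA).resHom (modularFunctionFieldBar N) (H92.stdTwoGen_FL N hℓN A hA)
    (modularFunctionFieldFullC (IsLocalRing.ResidueField A) N) (H92.stdTwoGen_Fk N hℓN A hA)

theorem gO_eq_stdO : gO N hℓN A hA = H92.stdO N hℓN A hA := rfl

/-- `j` as an element of `F_N ℚ̄`, in the form used by the Gauss model (`= S24.jBar N`). -/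
abbrev jF : modularFunctionFieldBar N :=
  H27.xF (H92.stdTwoGen N hℓN A hA) (modularFunctionFieldBar N) (H92.stdTwoGen_FL N hℓN A hA)

theorem jF_mem : jF N hℓN A hA ∈ gO N hℓN A hA :=
  H27.xF_mem (H92.stdTwoGen N hℓN A hA) (modularFunctionFieldBar N) (H92.stdTwoGen_FL N hℓN A hA)

theorem jF_inv_mem : (jF N hℓN A hA)⁻¹ ∈ gO N hℓN A hA :=
  H27.xF_inv_mem (H92.stdTwoGen N hℓN A hA) (modularFunctionFieldBar N)
    (H92.stdTwoGen_FL N hℓN A hA)

/-- The reduction of `j` is `j mod ℓ`. -/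
theorem gRes_jF : gRes N hℓN A hA ⟨jF N hℓN A hA, jF_mem N hℓN A hA⟩ = H16.jk N A := by
  apply Subtype.ext
  have h := H27.coe_resHom_xF (H92.stdTwoGen N hℓN A hA) (modularFunctionFieldBar N)
    (H92.stdTwoGen_FL N hℓN A hA) (modularFunctionFieldFullC (IsLocalRing.ResidueField A) N)
    (H92.stdTwoGen_Fk N hℓN A hA)
  exact h.trans (H92.twoGen_xk A N _ _)

/-- Good reduction on the finite chart, lifting form. -/
def GRFin : Prop :=
  ∀ γ : modularFunctionFieldFullC (IsLocalRing.ResidueField A) N,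
    IsIntegral (Algebra.adjoin (IsLocalRing.ResidueField A)
      {gRes N hℓN A hA ⟨jF N hℓN A hA, jF_mem N hℓN A hA⟩}) γ →
    ∃ b : BA (AlgebraicClosure ℚ) (gO N hℓN A hA) (jF N hℓN A hA),
      resBA (AlgebraicClosure ℚ) (gRes N hℓN A hA) (jF N hℓN A hA) b = γ

/-- Good reduction on the chart at infinity, lifting form. -/
def GRInf : Prop :=
  ∀ γ : modularFunctionFieldFullC (IsLocalRing.ResidueField A) N,
    IsIntegral (Algebra.adjoin (IsLocalRing.ResidueField A)
      {gRes N hℓN A hA ⟨(jF N hℓN A hA)⁻¹, jF_inv_mem N hℓN A hA⟩}) γ →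
    ∃ b : BA (AlgebraicClosure ℚ) (gO N hℓN A hA) (jF N hℓN A hA)⁻¹,
      resBA (AlgebraicClosure ℚ) (gRes N hℓN A hA) (jF N hℓN A hA)⁻¹ b = γ


include hℓN hA in
/-- `F_N ℚ̄` is finite over `ℚ̄(j)` (from the orthonormal basis `1, j_N, …`). -/
theorem finiteDimensional_jF :
    FiniteDimensional (AlgebraicClosure ℚ)⟮jF N hℓN A hA⟯ (modularFunctionFieldBar N) :=
  Module.Finite.of_basis (Module.Basis.mk
    (H27.linearIndependent_powFam (H92.stdTwoGen N hℓN A hA) (modularFunctionFieldBar N)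
      (H92.stdTwoGen_FL N hℓN A hA))
    (H27.GaussData.span_eq_top_of_hspan _
      (H27.exists_sum_powFam (H92.stdTwoGen N hℓN A hA) (modularFunctionFieldBar N)
        (H92.stdTwoGen_FL N hℓN A hA))))

/-- **R-EXIST**: the reduction inputs exist, given good reduction in the lifting form. -/
theorem reductionInputsModL_of_GR (hfin : GRFin N hℓN A hA) (hinf : GRInf N hℓN A hA) :
    ReductionInputsModL A N := by
  haveI : CharP (IsLocalRing.ResidueField A) ℓ := H16.charP_k A hA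
  haveI : IsAlgClosed (IsLocalRing.ResidueField A) := H16.isAlgClosed_k A
  -- the two charts
  have H₁ := H27.chartHyp_x (H92.stdTwoGen N hℓN A hA) (modularFunctionFieldBar N)
    (H92.stdTwoGen_FL N hℓN A hA) (modularFunctionFieldFullC (IsLocalRing.ResidueField A) N)
    (H92.stdTwoGen_Fk N hℓN A hA) (resL_FN N)
  have H₂ := H27.chartHyp_xinv (H92.stdTwoGen N hℓN A hA) (modularFunctionFieldBar N)
    (H92.stdTwoGen_FL N hℓN A hA) (modularFunctionFieldFullC (IsLocalRing.ResidueField A) N)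
    (H92.stdTwoGen_Fk N hℓN A hA) (resL_FN N)
  have GD₁ := H27.gaussData_x (H92.stdTwoGen N hℓN A hA) (modularFunctionFieldBar N)
    (H92.stdTwoGen_FL N hℓN A hA) (modularFunctionFieldFullC (IsLocalRing.ResidueField A) N)
    (H92.stdTwoGen_Fk N hℓN A hA)
  have GD₂ := H27.gaussData_xinv (H92.stdTwoGen N hℓN A hA) (modularFunctionFieldBar N)
    (H92.stdTwoGen_FL N hℓN A hA) (modularFunctionFieldFullC (IsLocalRing.ResidueField A) N)
    (H92.stdTwoGen_Fk N hℓN A hA)
  -- the reductions of the two coordinates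
  have htk₁ : gRes N hℓN A hA ⟨jF N hℓN A hA, jF_mem N hℓN A hA⟩ = H16.jk N A :=
    gRes_jF N hℓN A hA
  have htk₂ : gRes N hℓN A hA ⟨(jF N hℓN A hA)⁻¹, jF_inv_mem N hℓN A hA⟩ =
      (H16.jk N A)⁻¹ := by
    have h := H27.tk_xinv (H92.stdTwoGen N hℓN A hA) (modularFunctionFieldBar N)
      (H92.stdTwoGen_FL N hℓN A hA) (modularFunctionFieldFullC (IsLocalRing.ResidueField A) N)
      (H92.stdTwoGen_Fk N hℓN A hA)
    exact h.trans (congrArg _ htk₁)
  have htr₁ : Transcendental (IsLocalRing.ResidueField A)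
      (gRes N hℓN A hA ⟨jF N hℓN A hA, jF_mem N hℓN A hA⟩) := by
    rw [htk₁]; exact H16.transcendental_jk N A
  have htr₂ : Transcendental (IsLocalRing.ResidueField A)
      (gRes N hℓN A hA ⟨(jF N hℓN A hA)⁻¹, jF_inv_mem N hℓN A hA⟩) := by
    rw [htk₂]; exact H97.transcendental_inv (H16.transcendental_jk N A)
  -- instances on the special fibre
  haveI hfd₁ : FiniteDimensional (IsLocalRing.ResidueField A)⟮gRes N hℓN A hA
      ⟨jF N hℓN A hA, jF_mem N hℓN A hA⟩⟯
      (modularFunctionFieldFullC (IsLocalRing.ResidueField A) N) := by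
    rw [htk₁]; exact H16.finiteDimensional_Fk N hℓN A hA
  haveI hsep₁ : Algebra.IsSeparable (IsLocalRing.ResidueField A)⟮gRes N hℓN A hA
      ⟨jF N hℓN A hA, jF_mem N hℓN A hA⟩⟯
      (modularFunctionFieldFullC (IsLocalRing.ResidueField A) N) := by
    rw [htk₁]; exact H16.isSeparable_Fk N hℓN A hA
  haveI hfd₂ : FiniteDimensional (IsLocalRing.ResidueField A)⟮gRes N hℓN A hA
      ⟨(jF N hℓN A hA)⁻¹, jF_inv_mem N hℓN A hA⟩⟯
      (modularFunctionFieldFullC (IsLocalRing.ResidueField A) N) := by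
    rw [htk₂]
    haveI := H16.finiteDimensional_Fk N hℓN A hA
    exact H97.finiteDimensional_adjoin_inv (H16.jk N A)
  haveI hsep₂ : Algebra.IsSeparable (IsLocalRing.ResidueField A)⟮gRes N hℓN A hA
      ⟨(jF N hℓN A hA)⁻¹, jF_inv_mem N hℓN A hA⟩⟯
      (modularFunctionFieldFullC (IsLocalRing.ResidueField A) N) := by
    rw [htk₂]
    haveI := H16.isSeparable_Fk N hℓN A hA
    exact H97.isSeparable_adjoin_inv (H16.jk N A)
  haveI hded₁ : IsDedekindDomain (Fermat.Agent.S24.H97.intRing (IsLocalRing.ResidueField A)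
      (gRes N hℓN A hA ⟨jF N hℓN A hA, jF_mem N hℓN A hA⟩)) :=
    H97.isDedekindDomain_intRing_of_isSeparable _ htr₁
  haveI hfr₁ : IsFractionRing (Fermat.Agent.S24.H97.intRing (IsLocalRing.ResidueField A)
      (gRes N hℓN A hA ⟨jF N hℓN A hA, jF_mem N hℓN A hA⟩))
      (modularFunctionFieldFullC (IsLocalRing.ResidueField A) N) :=
    H97.isFractionRing_intRing' _
  haveI hded₂ : IsDedekindDomain (Fermat.Agent.S24.H97.intRing (IsLocalRing.ResidueField A)
      (gRes N hℓN A hA ⟨(jF N hℓN A hA)⁻¹, jF_inv_mem N hℓN A hA⟩)) :=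
    H97.isDedekindDomain_intRing_of_isSeparable _ htr₂
  haveI hfr₂ : IsFractionRing (Fermat.Agent.S24.H97.intRing (IsLocalRing.ResidueField A)
      (gRes N hℓN A hA ⟨(jF N hℓN A hA)⁻¹, jF_inv_mem N hℓN A hA⟩))
      (modularFunctionFieldFullC (IsLocalRing.ResidueField A) N) :=
    H97.isFractionRing_intRing' _
  -- instances on the generic fibre
  haveI hfdL₁ : FiniteDimensional (AlgebraicClosure ℚ)⟮jF N hℓN A hA⟯ (modularFunctionFieldBar N) :=
    finiteDimensional_jF N hℓN A hA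
  haveI hfdL₂ : FiniteDimensional (AlgebraicClosure ℚ)⟮(jF N hℓN A hA)⁻¹⟯
      (modularFunctionFieldBar N) := finiteDimensional_adjoin_inv (jF N hℓN A hA)
  haveI hsepL₁ : Algebra.IsSeparable (AlgebraicClosure ℚ)⟮jF N hℓN A hA⟯
      (modularFunctionFieldBar N) := inferInstance
  haveI hsepL₂ : Algebra.IsSeparable (AlgebraicClosure ℚ)⟮(jF N hℓN A hA)⁻¹⟯
      (modularFunctionFieldBar N) := inferInstance
  haveI hpdL : HasPrincipalDivisors (AlgebraicClosure ℚ) (modularFunctionFieldBar N) :=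
    H76.hasPrincipalDivisors_FN N
  haveI hpdk : HasPrincipalDivisors (IsLocalRing.ResidueField A)
      (modularFunctionFieldFullC (IsLocalRing.ResidueField A) N) :=
    H16.hasPrincipalDivisors_Fk N hℓN A hA
  haveI hsepk₁ : Algebra.IsSeparable (IsLocalRing.ResidueField A)⟮GD₁.tk⟯
      (modularFunctionFieldFullC (IsLocalRing.ResidueField A) N) := hsep₁
  haveI hsepk₂ : Algebra.IsSeparable (IsLocalRing.ResidueField A)⟮GD₂.tk⟯
      (modularFunctionFieldFullC (IsLocalRing.ResidueField A) N) := hsep₂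
  have hdegL := deg_eq_one_FN' N
  have hdegk := H16.deg_eq_one_Fk N hℓN A hA
  -- (R3) fibrewise conservation of number in both charts
  have fw₁ := H35.sepHyp_fw H₁ GD₁
    (H27.powFam (H92.stdTwoGen N hℓN A hA) (modularFunctionFieldBar N)
      (H92.stdTwoGen_FL N hℓN A hA))
    (H27.powFam_mem (H92.stdTwoGen N hℓN A hA) (modularFunctionFieldBar N)
      (H92.stdTwoGen_FL N hℓN A hA))
    (H27.linearIndependent_res_powFam (H92.stdTwoGen N hℓN A hA) (modularFunctionFieldBar N)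
      (H92.stdTwoGen_FL N hℓN A hA) (modularFunctionFieldFullC (IsLocalRing.ResidueField A) N)
      (H92.stdTwoGen_Fk N hℓN A hA))
    (H27.exists_sum_powFam (H92.stdTwoGen N hℓN A hA) (modularFunctionFieldBar N)
      (H92.stdTwoGen_FL N hℓN A hA))
    (H27.linearIndependent_powFam (H92.stdTwoGen N hℓN A hA) (modularFunctionFieldBar N)
      (H92.stdTwoGen_FL N hℓN A hA)) hdegL hdegk
  have fw₂ := H35.sepHyp_fw H₂ GD₂
    (H27.powFam (H92.stdTwoGen N hℓN A hA) (modularFunctionFieldBar N)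
      (H92.stdTwoGen_FL N hℓN A hA))
    (H27.powFam_mem (H92.stdTwoGen N hℓN A hA) (modularFunctionFieldBar N)
      (H92.stdTwoGen_FL N hℓN A hA))
    (H27.linearIndependent_res_powFam_inv (H92.stdTwoGen N hℓN A hA) (modularFunctionFieldBar N)
      (H92.stdTwoGen_FL N hℓN A hA) (modularFunctionFieldFullC (IsLocalRing.ResidueField A) N)
      (H92.stdTwoGen_Fk N hℓN A hA))
    (H27.exists_sum_powFam_inv (H92.stdTwoGen N hℓN A hA) (modularFunctionFieldBar N)
      (H92.stdTwoGen_FL N hℓN A hA))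
    (H27.linearIndependent_powFam_inv (H92.stdTwoGen N hℓN A hA) (modularFunctionFieldBar N)
      (H92.stdTwoGen_FL N hℓN A hA)) hdegL hdegk
  -- abstract R-EXIST
  obtain ⟨r, hr1, hr2⟩ := exists_reduction_of_intRing H₁ H₂ htr₁ htr₂ hfin hinf
    (resk_fullC N hℓN A hA) (finOrd_FN N) fw₁ fw₂
    (isAlgebraic_adjoin_of_finiteDimensional (jF N hℓN A hA))
    (isAlgebraic_adjoin_inv_of_finiteDimensional (jF N hℓN A hA)) (deg_eq_one_FN' N)
  have hV3 : IntegralCompat A (IsLocalRing.residue A) N (gO N hℓN A hA) (gRes N hℓN A hA) :=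
    fun y hy _ => (H92.stdTwoGen N hℓN A hA).up_mem_unitBall (modularFunctionFieldBar N)
      (H92.stdTwoGen_FL N hℓN A hA) (modularFunctionFieldFullC (IsLocalRing.ResidueField A) N)
      (H92.stdTwoGen_Fk N hℓN A hA) hy
  exact ⟨r, isPlaceReductionAlong_of_spec hV3 hr1 hr2,
    H92.principalGeneratedByIntegral_modL N hℓN A hA⟩

end RExist

end Fermat.Agent.S18.H89
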