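/-
helper89, project S18: GR-BRIDGE.  The good reduction input `(GR)` of R-EXIST (`H89.GRFin`,
`H89.GRInf`) from the SAME lifting hypotheses `hGRfin` / `hGRinf` over the DVR model
`(A₁, F₁, barEmb)` that CECH-GENUS consumes in `H40.gR_FN_le_gR_Fk_of_chart`.  So one `(GR)`
export of INST closes both `genus_le` and `ReductionInputsModL`.
-/
import Mathlib
import Fermat.Agent.S18.H89_RExist
import Fermat.Agent.S18.H40_LatticeInstR0

set_option autoImplicit false
set_option linter.unusedSectionVars false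
set_option linter.style.haveILetI false
set_option synthInstance.maxHeartbeats 400000
set_option maxHeartbeats 1000000

noncomputable section

namespace Fermat.Agent.S18.H89

open AlgebraicCurve ModularCurve Fermat.Agent.S18.H97 Fermat.Agent.S24
open scoped IntermediateField

section Bridge

variable (N : ℕ) [NeZero N] {ℓ : ℕ} [Fact ℓ.Prime] (hℓN : ¬ ℓ ∣ N)
  (A : ValuationSubring (AlgebraicClosure ℚ)) (hA : A.LiesOverPrime ℓ)

local notation "kA" => IsLocalRing.ResidueField A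
local notation "A₁" => H45.A0 A ℓ
local notation "F₁" => modularFunctionFieldFullC (H45.unrCyclo ℓ) N
local notation "j₁" => H16.jK (H45.unrCyclo ℓ) N

/-- The coordinate of the Gauss model is `S24.jBar N`. -/
theorem jF_eq_jBar : jF N hℓN A hA = jBar N := by
  apply Subtype.ext
  show (H92.stdTwoGen N hℓN A hA).xL = coeffEmb Qbar jq
  rw [H92.stdTwoGen, H92.twoGen_xL, coeffEmb, ← jqModC_rat, coeffMap_jqModC]

theorem barEmb_j₁ : H40.barEmb N j₁ = jF N hℓN A hA := by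
  rw [jF_eq_jBar]; exact H40.barEmb_jK N

/-- The reduction of `j⁻¹` is `(j mod ℓ)⁻¹`. -/
theorem gRes_jF_inv :
    gRes N hℓN A hA ⟨(jF N hℓN A hA)⁻¹, jF_inv_mem N hℓN A hA⟩ = (H16.jk N A)⁻¹ := by
  have h := H27.tk_xinv (H92.stdTwoGen N hℓN A hA) (modularFunctionFieldBar N)
    (H92.stdTwoGen_FL N hℓN A hA) (modularFunctionFieldFullC (IsLocalRing.ResidueField A) N)
    (H92.stdTwoGen_Fk N hℓN A hA)
  exact h.trans (congrArg _ (gRes_jF N hℓN A hA))

/-- `GRFin` from the lifting form over the DVR model. -/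
theorem grFin_of_model (O1 : Subring F₁)
    (hO1 : ∀ y ∈ O1, H40.barEmb N y ∈ H92.stdO N hℓN A hA)
    (hBO : ∀ b : F₁, IsIntegral (Algebra.adjoin A₁ {j₁}) b → b ∈ O1)
    (hGRfin : ∀ γ : modularFunctionFieldFullC kA N,
      IsIntegral (Algebra.adjoin kA {H16.jK kA N}) γ →
      ∃ (b : F₁) (hb : IsIntegral (Algebra.adjoin A₁ {j₁}) b),
        H92.stdRes N hℓN A hA ⟨H40.barEmb N b, hO1 b (hBO b hb)⟩ = γ) :
    GRFin N hℓN A hA := by
  intro γ hγ
  rw [gRes_jF] at hγ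
  obtain ⟨b, hb, e⟩ := hGRfin γ hγ
  have hint : IsIntegral (Algebra.adjoin (AlgebraicClosure ℚ) {jF N hℓN A hA})
      (H40.barEmb N b) := by
    have h := H34.isIntegral_map_adjoin (K := AlgebraicClosure ℚ) (H40.barEmb N)
      (H40.hRK_model A N) j₁ hb
    rwa [barEmb_j₁ N hℓN A hA] at h
  exact ⟨⟨H40.barEmb N b, hO1 b (hBO b hb), hint⟩, e⟩

/-- `GRInf` from the lifting form over the DVR model. -/
theorem grInf_of_model (O1 : Subring F₁)
    (hO1 : ∀ y ∈ O1, H40.barEmb N y ∈ H92.stdO N hℓN A hA)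
    (hBinfO : ∀ b : F₁, IsIntegral (Algebra.adjoin A₁ {j₁⁻¹}) b → b ∈ O1)
    (hGRinf : ∀ γ : modularFunctionFieldFullC kA N,
      IsIntegral (Algebra.adjoin kA {(H16.jK kA N)⁻¹}) γ →
      ∃ (b : F₁) (hb : IsIntegral (Algebra.adjoin A₁ {j₁⁻¹}) b),
        H92.stdRes N hℓN A hA ⟨H40.barEmb N b, hO1 b (hBinfO b hb)⟩ = γ) :
    GRInf N hℓN A hA := by
  intro γ hγ
  rw [gRes_jF_inv] at hγ
  obtain ⟨b, hb, e⟩ := hGRinf γ hγ
  have hint : IsIntegral (Algebra.adjoin (AlgebraicClosure ℚ) {(jF N hℓN A hA)⁻¹})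
      (H40.barEmb N b) := by
    have h := H34.isIntegral_map_adjoin (K := AlgebraicClosure ℚ) (H40.barEmb N)
      (H40.hRK_model A N) j₁⁻¹ hb
    rwa [map_inv₀, barEmb_j₁ N hℓN A hA] at h
  exact ⟨⟨H40.barEmb N b, hO1 b (hBinfO b hb), hint⟩, e⟩

/-- **R-EXIST from INST's `(GR)`**, in the hypothesis shape of `H40.gR_FN_le_gR_Fk_of_chart`. -/
theorem reductionInputsModL_of_model (O1 : Subring F₁)
    (hO1 : ∀ y ∈ O1, H40.barEmb N y ∈ H92.stdO N hℓN A hA)
    (hBO : ∀ b : F₁, IsIntegral (Algebra.adjoin A₁ {j₁}) b → b ∈ O1)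
    (hBinfO : ∀ b : F₁, IsIntegral (Algebra.adjoin A₁ {j₁⁻¹}) b → b ∈ O1)
    (hGRfin : ∀ γ : modularFunctionFieldFullC kA N,
      IsIntegral (Algebra.adjoin kA {H16.jK kA N}) γ →
      ∃ (b : F₁) (hb : IsIntegral (Algebra.adjoin A₁ {j₁}) b),
        H92.stdRes N hℓN A hA ⟨H40.barEmb N b, hO1 b (hBO b hb)⟩ = γ)
    (hGRinf : ∀ γ : modularFunctionFieldFullC kA N,
      IsIntegral (Algebra.adjoin kA {(H16.jK kA N)⁻¹}) γ →
      ∃ (b : F₁) (hb : IsIntegral (Algebra.adjoin A₁ {j₁⁻¹}) b),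
        H92.stdRes N hℓN A hA ⟨H40.barEmb N b, hO1 b (hBinfO b hb)⟩ = γ) :
    ReductionInputsModL A N :=
  reductionInputsModL_of_GR N hℓN A hA (grFin_of_model N hℓN A hA O1 hO1 hBO hGRfin)
    (grInf_of_model N hℓN A hA O1 hO1 hBinfO hGRinf)

end Bridge

end Fermat.Agent.S18.H89
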