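/-
helper92, project S18 / R-EXIST: the UNCONDITIONAL existence of the reduction data,
`ReductionInputsModL A N` for every prime `ℓ ∤ N` and every valuation subring `A` of `ℚ̄` over `ℓ`.

`H92.reductionInputsModL_of_GR_gaussModel` (R0 + charts + separation, `H92_RExist`) fed with the
route-Q outputs at the concrete model: `H13.hGRfin_A0` (Hesse chart `ℓ = 2`, Legendre chart `ℓ` odd)
and `H13.hGRinf_of_hGRfin_A0` (cusp chart).  `reductionInputsModL_all` is literally the hypothesis
`hR` of Stage 2 (`S37.H82.specializationExists_of_stage1`).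
-/
import Mathlib
import Fermat.Agent.S18.H92_RExist
import Fermat.Agent.S18.H13_GRFinA0
import Fermat.Agent.S18.H13_GRInfA0

set_option autoImplicit false
set_option synthInstance.maxHeartbeats 400000
set_option maxHeartbeats 4000000
set_option linter.unusedSectionVars false

noncomputable section

namespace Fermat.Agent.S18.H92

open ModularCurve

/-- **R-EXIST, unconditional** (`ℓ` as an instance). -/
theorem reductionInputsModL_std (N : ℕ) [NeZero N] {ℓ : ℕ} [Fact ℓ.Prime] (hℓN : ¬ ℓ ∣ N)
    (A : ValuationSubring (AlgebraicClosure ℚ)) (hA : A.LiesOverPrime ℓ) :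
    ReductionInputsModL A N :=
  reductionInputsModL_of_GR_gaussModel N hℓN A hA fun M =>
    ⟨fun γ hγ => H13.hGRfin_A0 N hℓN A hA M γ hγ,
     fun γ hγ => H13.hGRinf_of_hGRfin_A0 N hℓN A hA M
       (fun h0 => H16.transcendental_jK (IsLocalRing.ResidueField A) N (h0 ▸ isAlgebraic_zero))
       (fun γ' hγ' => H13.hGRfin_A0 N hℓN A hA M γ' hγ') γ hγ⟩

/-- **R-EXIST in the shape of `hR` of Stage 2.** -/
theorem reductionInputsModL_all (N : ℕ) [NeZero N] :
    ∀ (ℓ : ℕ), ℓ.Prime → ¬ ℓ ∣ N →
      ∀ A : ValuationSubring (AlgebraicClosure ℚ), A.LiesOverPrime ℓ →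
        ReductionInputsModL A N :=
  fun _ hℓ hℓN A hA => haveI := Fact.mk hℓ; reductionInputsModL_std N hℓN A hA

end Fermat.Agent.S18.H92
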