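/-
S18 project, route Q (helper96): **the Hesse chart instance** (`3` invertible, in particular
`ℓ = 2`), generic in the DVR `A₁` and its fraction field `L1` (so that instance search stays cheap;
instantiate with `A₁ = H45.A0 A ℓ`, `L1 = H45.unrCyclo ℓ` at the very end).

`F1 = modularFunctionFieldFullC L1 N`, `j1 = H16.jK L1 N`, `θ = H16.jNK L1 N`,
`F' = H70.HesField j1`, `μ = H70.hesMu j1`, line `f = X³ - 1`.
One application of `H96.isIntegrallyClosed_specialFibre_of_auxLine'`.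
Remaining named inputs: (HOR) `hunr` (helper55/helper69: `H69.ord_aeval_eq_one_of_hesse_cover`)
and (INST-2) `hprime` (helper3/helper67).
-/
import Fermat.Agent.S18.H96_AuxChartDed
import Fermat.Agent.S18.H26_BaseLineHes
import Fermat.Agent.S18.H16_VertSep

set_option autoImplicit false
set_option linter.unusedSectionVars false
set_option linter.style.haveILetI false

namespace Fermat.Agent.S18.H96

open Polynomial IntermediateField AlgebraicCurve ModularCurve Fermat.Agent.S18

noncomputable section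

variable {A₁ L1 : Type} [CommRing A₁] [IsDomain A₁] [IsDiscreteValuationRing A₁]
  [Field L1] [Algebra A₁ L1] [IsFractionRing A₁ L1] [CharZero L1] (N : ℕ) [NeZero N]
  [Algebra A₁ ↥(modularFunctionFieldFullC L1 N)]
  [IsScalarTower A₁ L1 ↥(modularFunctionFieldFullC L1 N)]

set_option maxHeartbeats 1600000 in
set_option synthInstance.maxHeartbeats 400000 in
/-- **Hesse chart** (`3` invertible): the special fibre of the integral closure of `A₁[j1]` in `F1`
is integrally closed. -/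
theorem isIntegrallyClosed_specialFibre_hesse {ϖ : A₁} (hϖ : Irreducible ϖ)
    {k : Type} [Field k] [IsAlgClosed k] (res : A₁ →+* k) (hres : Function.Surjective res)
    (hker : RingHom.ker res = Ideal.span {ϖ})
    (h3 : IsUnit (3 : A₁)) (hNk : ((N : ℕ) : k) ≠ 0) (w : L1) (hw : w ^ 2 + w + 1 = 0)
    (hunr : ∀ (v : Place L1 (H70.HesField (H16.jK L1 N)))
      (g₀ : L1[X]), Irreducible g₀ → ¬ g₀ ∣ (X ^ 3 - 1 : L1[X]) →
      0 < v.ord (aeval (H70.hesMu (H16.jK L1 N)) g₀) →
      v.ord (aeval (H70.hesMu (H16.jK L1 N)) g₀) = 1)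
    (hprime : (Ideal.span {algebraMap ↥(Algebra.adjoin A₁ {H16.jK L1 N})
      (integralClosure ↥(Algebra.adjoin A₁ {H16.jK L1 N}) (modularFunctionFieldFullC L1 N))
      (algebraMap A₁ ↥(Algebra.adjoin A₁ {H16.jK L1 N}) ϖ)}).IsPrime) :
    IsIntegrallyClosed
      (integralClosure ↥(Algebra.adjoin A₁ {H16.jK L1 N}) (modularFunctionFieldFullC L1 N) ⧸
        Ideal.span {algebraMap ↥(Algebra.adjoin A₁ {H16.jK L1 N})
          (integralClosure ↥(Algebra.adjoin A₁ {H16.jK L1 N}) (modularFunctionFieldFullC L1 N))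
          (algebraMap A₁ ↥(Algebra.adjoin A₁ {H16.jK L1 N}) ϖ)}) := by
  classical
  have hNL : ((N : ℕ) : L1) ≠ 0 := Nat.cast_ne_zero.mpr (NeZero.ne N)
  haveI hfin1 : FiniteDimensional L1⟮H16.jK L1 N⟯ (modularFunctionFieldFullC L1 N) :=
    H16.finiteDimensional_fullC_gen N L1 hNL
  have hj1 : Transcendental L1 (H16.jK L1 N) := H16.transcendental_jK L1 N
  have hgen : L1⟮H16.jK L1 N⟯⟮H16.jNK L1 N⟯ = ⊤ := H16.adjoin_jNK_eq_top_gen N L1 hNL
  have hθalg : IsAlgebraic L1⟮H16.jK L1 N⟯ (H16.jNK L1 N) := Algebra.IsAlgebraic.isAlgebraic _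
  haveI hczF1 : CharZero ↥(modularFunctionFieldFullC L1 N) :=
    charZero_of_injective_algebraMap (algebraMap L1 _).injective
  -- the Hesse field
  have hw' : (algebraMap L1 ↥(modularFunctionFieldFullC L1 N) w) ^ 2 +
      algebraMap L1 ↥(modularFunctionFieldFullC L1 N) w + 1 = 0 := by
    rw [← map_pow, ← map_add, ← map_one (algebraMap L1 ↥(modularFunctionFieldFullC L1 N)),
      ← map_add, hw, map_zero]
  haveI hgal : IsGalois ↥(modularFunctionFieldFullC L1 N) (H70.HesField (H16.jK L1 N)) :=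
    H70.isGalois_hesField (H16.jK L1 N) _ hw'
  have hμ : Transcendental L1 (H70.hesMu (H16.jK L1 N)) := H70.transcendental_hesMu (L := L1) hj1
  have hμtop : (↥(modularFunctionFieldFullC L1 N))⟮H70.hesMu (H16.jK L1 N)⟯ = ⊤ :=
    H70.adjoin_hesMu (H16.jK L1 N)
  haveI hfinμ : FiniteDimensional L1⟮H70.hesMu (H16.jK L1 N)⟯ (H70.HesField (H16.jK L1 N)) :=
    H70.finiteDimensional_hesField_over (L := L1) (KY := L1⟮H70.hesMu (H16.jK L1 N)⟯) hgen hθalg
      (AdjoinSimple.gen L1 (H70.hesMu (H16.jK L1 N)))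
      (AdjoinSimple.algebraMap_gen L1 (H70.hesMu (H16.jK L1 N)))
  -- the Hesse line
  have hfμ : IsUnit (aeval (H70.hesMu (H16.jK L1 N)) (H26.hesLineF A₁)) := by
    rw [H26.aeval_hesLineF]
    refine IsUnit.mk0 _ fun h0 => H70.hesB_hesMu_ne_zero (H16.jK L1 N) ?_
    unfold H26.hesB
    rw [h0]; ring
  have hJ : H26.hesJ (H70.hesMu (H16.jK L1 N)) =
      algebraMap ↥(modularFunctionFieldFullC L1 N) (H70.HesField (H16.jK L1 N)) (H16.jK L1 N) :=
    H70.hesJ_hesMu (H16.jK L1 N)
  have hjY : H26.LineRing.liftAlg (H26.hesLineF A₁) (H70.hesMu (H16.jK L1 N)) hfμ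
      (H26.HesLine.jY A₁) =
      algebraMap ↥(modularFunctionFieldFullC L1 N) (H70.HesField (H16.jK L1 N)) (H16.jK L1 N) := by
    rw [H26.HesLine.liftAlg_jY, hJ]
  have hint : ∀ r : H26.HesLine A₁, IsIntegral (Algebra.adjoin A₁
      {algebraMap ↥(modularFunctionFieldFullC L1 N) (H70.HesField (H16.jK L1 N)) (H16.jK L1 N)})
      (H26.LineRing.liftAlg (H26.hesLineF A₁) (H70.hesMu (H16.jK L1 N)) hfμ r) := by
    intro r
    rw [← hJ]
    exact H26.HesLine.isIntegral_liftAlg_adjoin_hesJ h3 _ hfμ r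
  have hintμ := hint (H26.LineRing.coord (H26.hesLineF A₁))
  rw [H26.LineRing.liftAlg_coord] at hintμ
  -- (VERT)
  obtain ⟨D, hD, -⟩ := H16.exists_modPoly_gen N
  have h3k : (3 : k) ≠ 0 := by
    have := h3.map res
    rw [map_ofNat] at this
    exact this.ne_zero
  have hsep : ((H16.modPolyAt D (H26.HesLine.jY A₁)).map
      (H26.LineRing.toRatFunc (H26.hesLineF A₁) res (H26.HesLine.map_ne_zero res))).Separable := by
    refine H16.separable_map_modPolyAt (K := k) hNk D hD _ _ ?_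
    rw [H26.HesLine.toRatFunc_jY]
    exact H26.transcendental_hesJ RatFunc.transcendental_X h3k
  have hroot : (H16.modPolyAt D (H26.HesLine.jY A₁)).eval₂
      (H26.LineRing.liftAlg (H26.hesLineF A₁) (H70.hesMu (H16.jK L1 N)) hfμ).toRingHom
      (algebraMap ↥(modularFunctionFieldFullC L1 N) (H70.HesField (H16.jK L1 N))
        (H16.jNK L1 N)) = 0 := by
    rw [← Polynomial.eval_map, H16.modPolyAt_map]
    have : (H26.LineRing.liftAlg (H26.hesLineF A₁) (H70.hesMu (H16.jK L1 N)) hfμ).toRingHom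
        (H26.HesLine.jY A₁) = algebraMap ↥(modularFunctionFieldFullC L1 N)
          (H70.HesField (H16.jK L1 N)) (H16.jK L1 N) := hjY
    rw [this]
    exact H16.eval_modPolyAt_of_hom N D L1
      (algebraMap ↥(modularFunctionFieldFullC L1 N) (H70.HesField (H16.jK L1 N)))
  -- assembly
  refine isIntegrallyClosed_specialFibre_of_auxLine' (L1 := L1) hϖ res hres hker
    (H16.jK L1 N) (H16.jNK L1 N) hj1 hgen (H70.hesMu (H16.jK L1 N)) hμ hμtop
    (H26.hesLineF A₁) (H26.HesLine.map_ne_zero res) hfμ (H26.HesLine.jY A₁) hjY hintμ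
    (hint (H26.LineRing.inv (H26.hesLineF A₁)))
    (H16.modPolyAt D (H26.HesLine.jY A₁)) (H16.modPolyAt_monic D _) hroot hsep ?_ hprime
  intro v g₀ hirr hnd
  rw [H26.hesLineF_map] at hnd
  exact hunr v g₀ hirr hnd

end

end Fermat.Agent.S18.H96
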