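import Fermat.Agent.S18.H97_ChartSep

set_option autoImplicit false
set_option linter.unusedSectionVars false

/-!
# S18 / R-EXIST: the fibrewise hypothesis `FW` of `chart_conservation` in place form

`chart_conservation` (H97_ChartSep) consumes the fibrewise conservation of number `FW` indexed
by the primes of `Bk` and by the subtype of places of the chart.  Here we derive it from the
statement indexed by PLACES (the output shape of helper35's `H35.fibrewise`):
for every `ā : k`,
`∑ᶠ Q ∈ {Q | 0 < Q.ord (tk - ā)}, Q.ord (res b) = ∑ᶠ P ∈ {P | ∃ a : A, π a = ā ∧ 0 < P.ord (t - a)}, P.ord b`.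
-/

noncomputable section

open AlgebraicCurve IsDedekindDomain

namespace Fermat.Agent.S18.H97

variable {L FL k Fk : Type*} [Field L] [Field FL] [Algebra L FL] [Field k] [Field Fk]
  [Algebra k Fk]
variable {A : ValuationSubring L} {π : A →+* k} {O : ValuationSubring FL} {res : O →+* Fk}
  {t : FL}
variable {Bk : Type*} [CommRing Bk] [IsDedekindDomain Bk] [Algebra Bk Fk] [IsFractionRing Bk Fk]
  [Algebra k Bk] [IsScalarTower k Bk Fk]

namespace ChartHyp

variable (H : ChartHyp A π O res t) (G : FibreHyp L k res t Bk)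
  (RESK : ∀ w : HeightOneSpectrum Bk, Function.Surjective (algebraMap k (Bk ⧸ w.asIdeal)))

/-- The coordinate of the chart, as an element of the chart ring. -/
def tBA : BA L O t := ⟨t, H.self_mem_BA⟩

/-- The reduction of the coordinate. -/
def tk : Fk := resBA L res t H.tBA

theorem algebraMap_tB : algebraMap Bk Fk (H.tB G) = H.tk := algebraMap_resB G _

include G in
theorem tk_sub_ne_zero (a : k) : H.tk - algebraMap k Fk a ≠ 0 := by
  intro h
  exact G.nonconst H.tBA rfl a (sub_eq_zero.mp h)

include H G in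
theorem t_sub_ne_zero (a : A) : t - algebraMap L FL (a : L) ≠ 0 := by
  intro h
  apply G.nonconst H.tBA rfl (π a)
  have : H.tBA = H.constBA a := Subtype.ext (sub_eq_zero.mp h)
  rw [this, H.resBA_constBA]

/-- The coordinate of a prime of `Bk` in terms of the attached place. -/
theorem fChart_eq_iff (w : HeightOneSpectrum Bk) (a : k) :
    H.fChart G RESK w = a ↔
      0 < (Fermat.Agent.S24.H42.placeOf (K := k) w).ord (H.tk - algebraMap k Fk a) := by
  rw [fChart_eq, evW_eq_iff, ord_placeOf_pos_iff _ (H.tk_sub_ne_zero G a), ← H.algebraMap_tB G,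
    IsScalarTower.algebraMap_apply k Bk Fk, ← map_sub,
    HeightOneSpectrum.valuation_lt_one_iff_mem]

/-- The coordinate of the centre of a place of the chart. -/
theorem fChart_rChart (P : H.XChart) :
    H.fChart G RESK (H.rChart G P) = π (H.evA P.2 H.tBA) := by
  show eChart G RESK (H.rChart G P) H.tBA = _
  rw [eChart_rChart, phi_apply]

theorem coe_evA_tBA {P : Place L FL} (hP : H.InDom P) :
    ((H.evA hP H.tBA : A) : L) = ev P (H.resL P) ⟨t, hP.1⟩ := rfl

/-- A place lies in the residue disc of `ā` iff it is a place of the chart whose centre has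
coordinate `ā`. -/
theorem mem_disc_iff (P : Place L FL) (abar : k) :
    (∃ a : A, π a = abar ∧ 0 < P.ord (t - algebraMap L FL (a : L))) ↔
      ∃ hP : H.InDom P, H.fChart G RESK (H.rChart G ⟨P, hP⟩) = abar := by
  constructor
  · rintro ⟨a, ha, hpos⟩
    have hne := H.t_sub_ne_zero G a
    -- `t - a` is regular at `P`, hence so is `t`
    have hmem : t - algebraMap L FL (a : L) ∈ P.toValuationSubring :=
      (Fermat.Agent.S24.H27.mem_toValuationSubring_of_ne_zero P hne).mpr hpos.le
    have htP : t ∈ P.toValuationSubring := by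
      have := P.toValuationSubring.add_mem _ _ hmem (P.algebraMap_mem' (a : L))
      simpa using this
    have hmax : (⟨t, htP⟩ - algebraMap L P.toValuationSubring (a : L) : P.toValuationSubring) ∈
        IsLocalRing.maximalIdeal P.toValuationSubring := by
      have hne' : (⟨t, htP⟩ - algebraMap L P.toValuationSubring (a : L) :
          P.toValuationSubring) ≠ 0 := by
        intro h0
        exact hne (congrArg Subtype.val h0)
      exact (Fermat.Agent.S24.H27.ord_pos_iff_mem_maximalIdeal P _ hne').mp hpos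
    have hev : ev P (H.resL P) ⟨t, htP⟩ = (a : L) := (ev_eq_iff P (H.resL P) _ _).mpr hmax
    have hP : H.InDom P := ⟨htP, by rw [hev]; exact a.2⟩
    refine ⟨hP, ?_⟩
    rw [fChart_rChart]
    have : H.evA hP H.tBA = a := Subtype.ext (by rw [coe_evA_tBA]; exact hev)
    rw [this, ha]
  · rintro ⟨hP, hf⟩
    rw [fChart_rChart] at hf
    refine ⟨H.evA hP H.tBA, hf, ?_⟩
    have hne := H.t_sub_ne_zero G (H.evA hP H.tBA)
    have hmax := sub_algebraMap_ev_mem P (H.resL P) ⟨t, hP.1⟩
    have hne' : (⟨t, hP.1⟩ - algebraMap L P.toValuationSubring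
        (ev P (H.resL P) ⟨t, hP.1⟩) : P.toValuationSubring) ≠ 0 := by
      intro h0
      exact hne (congrArg Subtype.val h0)
    exact (Fermat.Agent.S24.H27.ord_pos_iff_mem_maximalIdeal P _ hne').mpr hmax

/-- `FW` in the shape consumed by `chart_conservation`, from the place-indexed fibrewise
conservation of number. -/
theorem fw_of_places
    (hBk : ∀ (Q : Place k Fk), H.tk ∈ Q.toValuationSubring →
      ∀ β : Bk, algebraMap Bk Fk β ∈ Q.toValuationSubring)
    (b : BA L O t) (abar : k)
    (hFW : ∑ᶠ Q ∈ {Q : Place k Fk | 0 < Q.ord (H.tk - algebraMap k Fk abar)},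
        Q.ord (resBA L res t b) =
      ∑ᶠ P ∈ {P : Place L FL | ∃ a : A, π a = abar ∧ 0 < P.ord (t - algebraMap L FL (a : L))},
        P.ord (b : FL)) :
    ∑ᶠ w ∈ {w : HeightOneSpectrum Bk | H.fChart G RESK w = abar}, mChart L k res t w b =
      ∑ᶠ P ∈ {P : H.XChart | H.fChart G RESK (H.rChart G P) = abar}, H.nChart P b := by
  have h1 : ∑ᶠ w ∈ {w : HeightOneSpectrum Bk | H.fChart G RESK w = abar}, mChart L k res t w b =
      ∑ᶠ Q ∈ {Q : Place k Fk | 0 < Q.ord (H.tk - algebraMap k Fk abar)},
        Q.ord (resBA L res t b) := by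
    refine finsum_mem_eq_of_bijOn (fun w => Fermat.Agent.S24.H42.placeOf (K := k) w)
      ⟨?_, ?_, ?_⟩ fun w _ => rfl
    · intro w hw
      exact (H.fChart_eq_iff G RESK w abar).mp hw
    · intro w _ w' _ h
      exact Fermat.Agent.S24.H42.placeOf_injective h
    · intro Q hQ
      have hpos : 0 < Q.ord (H.tk - algebraMap k Fk abar) := hQ
      have hmem : H.tk - algebraMap k Fk abar ∈ Q.toValuationSubring :=
        (Fermat.Agent.S24.H27.mem_toValuationSubring_of_ne_zero Q
          (H.tk_sub_ne_zero G abar)).mpr hpos.le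
      have htk : H.tk ∈ Q.toValuationSubring := by
        have := Q.toValuationSubring.add_mem _ _ hmem (Q.algebraMap_mem' abar)
        simpa using this
      obtain ⟨w, rfl⟩ := Fermat.Agent.S24.H42.exists_placeOf_eq (K := k) Q (hBk Q htk)
      exact ⟨w, (H.fChart_eq_iff G RESK w abar).mpr hpos, rfl⟩
  have h2 : ∑ᶠ P ∈ {P : H.XChart | H.fChart G RESK (H.rChart G P) = abar}, H.nChart P b =
      ∑ᶠ P ∈ {P : Place L FL | ∃ a : A, π a = abar ∧
        0 < P.ord (t - algebraMap L FL (a : L))}, P.ord (b : FL) := by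
    refine finsum_mem_eq_of_bijOn (fun P : H.XChart => (P : Place L FL))
      ⟨?_, ?_, ?_⟩ fun P _ => rfl
    · intro P hP
      exact (H.mem_disc_iff G RESK P.1 abar).mpr ⟨P.2, hP⟩
    · intro P _ P' _ h
      exact Subtype.ext h
    · intro P hP
      obtain ⟨hP', hf⟩ := (H.mem_disc_iff G RESK P abar).mp hP
      exact ⟨⟨P, hP'⟩, hf, rfl⟩
  rw [h1, h2, hFW]

end ChartHyp

end Fermat.Agent.S18.H97
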