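import Fermat.Agent.S18.H97_Center
import Fermat.Agent.S18.H89_Separation
import Fermat.Agent.S24.H24_Basic

set_option autoImplicit false
set_option linter.unusedSectionVars false

/-!
# S18 / R-EXIST: per-chart instantiation of the separation lemma (R4) with the centre map (R2)

For a chart `(H : ChartHyp, G : FibreHyp)` we instantiate helper89's `H89.SepData` with
`X = places of the chart`, `Y = HeightOneSpectrum Bk`, `r = centre`, and deduce pointwise
conservation of number from the fibrewise one (`FW`, a hypothesis here).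
-/

noncomputable section

open AlgebraicCurve IsDedekindDomain

namespace Fermat.Agent.S18.H97

/-! ### Evaluation at a rational prime of `Bk` -/

section EvW

variable {k Bk : Type*} [Field k] [CommRing Bk] [Algebra k Bk]

/-- Evaluation `Bk → k` at a prime with residue field `k`. -/
def evW (w : Ideal Bk) [w.IsPrime] (hw : Function.Surjective (algebraMap k (Bk ⧸ w))) :
    Bk →+* k :=
  ((RingEquiv.ofBijective (algebraMap k (Bk ⧸ w))
      ⟨(algebraMap k (Bk ⧸ w)).injective, hw⟩).symm : (Bk ⧸ w) →+* k).comp
    (Ideal.Quotient.mk w)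

variable (w : Ideal Bk) [w.IsPrime] (hw : Function.Surjective (algebraMap k (Bk ⧸ w)))

theorem algebraMap_evW (β : Bk) :
    algebraMap k (Bk ⧸ w) (evW w hw β) = Ideal.Quotient.mk w β := by
  unfold evW
  simp only [RingHom.coe_comp, RingHom.coe_coe, Function.comp_apply]
  exact (RingEquiv.ofBijective (algebraMap k (Bk ⧸ w))
    ⟨(algebraMap k (Bk ⧸ w)).injective, hw⟩).apply_symm_apply _

theorem evW_algebraMap (c : k) : evW w hw (algebraMap k Bk c) = c := by
  apply (algebraMap k (Bk ⧸ w)).injective
  rw [algebraMap_evW]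
  rfl

theorem evW_eq_iff (β : Bk) (c : k) : evW w hw β = c ↔ β - algebraMap k Bk c ∈ w := by
  rw [← Ideal.Quotient.eq, ← algebraMap_evW w hw β]
  constructor
  · intro h; rw [h]; rfl
  · intro h
    exact (algebraMap k (Bk ⧸ w)).injective h

theorem evW_eq_zero_iff (β : Bk) : evW w hw β = 0 ↔ β ∈ w := by
  rw [evW_eq_iff, map_zero, sub_zero]

theorem sub_evW_mem (β : Bk) : β - algebraMap k Bk (evW w hw β) ∈ w :=
  (evW_eq_iff w hw β _).mp rfl

end EvW

section Sep

variable {L FL k Fk : Type*} [Field L] [Field FL] [Algebra L FL] [Field k] [Field Fk]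
  [Algebra k Fk]
variable {A : ValuationSubring L} {π : A →+* k} {O : ValuationSubring FL} {res : O →+* Fk}
  {t : FL}
variable {Bk : Type*} [CommRing Bk] [IsDedekindDomain Bk] [Algebra Bk Fk] [IsFractionRing Bk Fk]
  [Algebra k Bk] [IsScalarTower k Bk Fk]

/-- Evaluation of the chart ring at a prime of the special fibre chart. -/
def eChart (G : FibreHyp L k res t Bk)
    (RESK : ∀ w : HeightOneSpectrum Bk, Function.Surjective (algebraMap k (Bk ⧸ w.asIdeal)))
    (w : HeightOneSpectrum Bk) : BA L O t →+* k :=
  (evW w.asIdeal (RESK w)).comp (ChartHyp.resB G)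

variable (L k res t) in
/-- Orders of the reduction on the special fibre. -/
def mChart (w : HeightOneSpectrum Bk) (b : BA L O t) : ℤ :=
  (Fermat.Agent.S24.H42.placeOf (K := k) w).ord (resBA L res t b)

variable (L res t) in
/-- Elements of the chart ring with nonzero reduction. -/
def goodChart : Submonoid (BA L O t) where
  carrier := {b | resBA L res t b ≠ 0}
  one_mem' := by
    show resBA L res t 1 ≠ 0
    rw [map_one]; exact one_ne_zero
  mul_mem' := by
    intro b c hb hc
    show resBA L res t (b * c) ≠ 0
    rw [map_mul]; exact mul_ne_zero hb hc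

theorem mem_goodChart {b : BA L O t} : b ∈ goodChart L res t ↔ resBA L res t b ≠ 0 := Iff.rfl

namespace ChartHyp

variable (H : ChartHyp A π O res t) (G : FibreHyp L k res t Bk)
  (RESK : ∀ w : HeightOneSpectrum Bk, Function.Surjective (algebraMap k (Bk ⧸ w.asIdeal)))

/-- The places of the chart. -/
abbrev XChart : Type _ := {P : Place L FL // H.InDom P}

/-- The centre map on the chart. -/
def rChart (P : H.XChart) : HeightOneSpectrum Bk := H.centerPrime G P.2

/-- The coordinate of a prime of the special fibre chart. -/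
def fChart (w : HeightOneSpectrum Bk) : k := eChart G RESK w ⟨t, H.self_mem_BA⟩

/-- Orders on the generic fibre. -/
def nChart (P : H.XChart) (b : BA L O t) : ℤ := P.1.ord (b : FL)

omit [IsDedekindDomain Bk] [Algebra k Bk] [IsScalarTower k Bk Fk] in
theorem resB_ne_zero {b : BA L O t} (hb : b ∈ goodChart L res t) : resB G b ≠ 0 := by
  intro h
  apply hb
  rw [← algebraMap_resB G, h, map_zero]

theorem evW_centerPrime {P : Place L FL} (hP : H.InDom P) (β : Bk) :
    evW (H.centerPrime G hP).asIdeal (RESK _) β = H.psi G hP β := by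
  rw [evW_eq_iff]
  exact H.sub_psi_mem_ker G hP β

theorem eChart_rChart (P : H.XChart) (b : BA L O t) :
    eChart G RESK (H.rChart G P) b = H.phi P.2 b := by
  unfold eChart rChart
  rw [RingHom.comp_apply, evW_centerPrime, psi_resB]

include G in
theorem mChart_nonneg (w : HeightOneSpectrum Bk) {b : BA L O t} (hb : b ∈ goodChart L res t) :
    0 ≤ mChart L k res t w b := by
  unfold mChart
  have hmem : resBA L res t b ∈
      (Fermat.Agent.S24.H42.placeOf (K := k) w).toValuationSubring := by
    rw [← algebraMap_resB G]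
    exact Fermat.Agent.S24.H42.algebraMap_mem_placeOf _ _
  exact (Fermat.Agent.S24.H27.mem_toValuationSubring_of_ne_zero _ hb).mp hmem

include G in
theorem mChart_pos_iff (w : HeightOneSpectrum Bk) {b : BA L O t}
    (hb : b ∈ goodChart L res t) :
    0 < mChart L k res t w b ↔ resB G b ∈ w.asIdeal := by
  unfold mChart
  rw [ord_placeOf_pos_iff _ hb, ← algebraMap_resB G,
    HeightOneSpectrum.valuation_lt_one_iff_mem]

theorem mChart_eq_zero_iff (w : HeightOneSpectrum Bk) {b : BA L O t}
    (hb : b ∈ goodChart L res t) :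
    mChart L k res t w b = 0 ↔ eChart G RESK w b ≠ 0 := by
  have h0 := mChart_nonneg G w hb
  have hpos := mChart_pos_iff G w hb
  unfold eChart
  rw [RingHom.comp_apply, ne_eq, evW_eq_zero_iff, ← hpos]
  omega

/-- The reduction of the coordinate, in `Bk`. -/
def tB : Bk := resB G ⟨t, H.self_mem_BA⟩

theorem fChart_eq (w : HeightOneSpectrum Bk) :
    H.fChart G RESK w = evW w.asIdeal (RESK w) (H.tB G) := rfl

theorem tB_sub_ne_zero (a : k) : H.tB G - algebraMap k Bk a ≠ 0 := by
  intro h
  rw [sub_eq_zero] at h
  apply G.nonconst ⟨t, H.self_mem_BA⟩ rfl a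
  rw [← algebraMap_resB G]
  change algebraMap Bk Fk (H.tB G) = _
  rw [h, ← IsScalarTower.algebraMap_apply]

theorem fin_fibre (a : k) : {w : HeightOneSpectrum Bk | H.fChart G RESK w = a}.Finite := by
  have hx := H.tB_sub_ne_zero G a
  have hI : (Ideal.span {H.tB G - algebraMap k Bk a} : Ideal Bk) ≠ 0 := by
    rw [Ne, Ideal.zero_eq_bot, Ideal.span_singleton_eq_bot]
    exact hx
  refine (Ideal.finite_factors hI).subset ?_
  intro w hw
  rw [Set.mem_ofPred_eq, fChart_eq, evW_eq_iff] at hw
  rw [Set.mem_ofPred_eq, Ideal.dvd_span_singleton]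
  exact hw

/-- Chinese remainder theorem on a fibre of the special fibre chart. -/
theorem exists_crt (S : Finset (HeightOneSpectrum Bk)) (x : HeightOneSpectrum Bk → Bk) :
    ∃ y : Bk, ∀ w ∈ S, y - x w ∈ w.asIdeal := by
  classical
  obtain ⟨y, hy⟩ := IsDedekindDomain.exists_forall_sub_mem_ideal (s := S)
    (fun w : HeightOneSpectrum Bk => w.asIdeal) (fun _ => 1) (fun w _ => w.prime)
    (fun w _ w' _ h => fun h' => h (HeightOneSpectrum.ext h')) (fun w => x w.1)
  refine ⟨y, fun w hw => ?_⟩
  have := hy w hw
  rwa [pow_one] at this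

theorem int2 (a : k) (c : HeightOneSpectrum Bk → k) :
    ∃ u : BA L O t, ∀ w : HeightOneSpectrum Bk, H.fChart G RESK w = a →
      eChart G RESK w u = c w := by
  classical
  obtain ⟨y, hy⟩ := exists_crt (H.fin_fibre G RESK a).toFinset
    (fun w => algebraMap k Bk (c w))
  obtain ⟨u, rfl⟩ := resB_surjective G y
  refine ⟨u, fun w hw => ?_⟩
  unfold eChart
  rw [RingHom.comp_apply, evW_eq_iff]
  exact hy w ((H.fin_fibre G RESK a).mem_toFinset.mpr hw)

theorem coe_ne_zero {b : BA L O t} (hb : b ≠ 0) : (b : FL) ≠ 0 := fun h => hb (Subtype.ext h)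

theorem nChart_pos_iff (P : H.XChart) {b : BA L O t} (hb : b ≠ 0) :
    0 < H.nChart P b ↔ H.evA P.2 b = 0 := by
  unfold nChart
  have hne : H.inclBA P.2 b ≠ 0 := fun h =>
    hb (Subtype.ext (by simpa using congrArg Subtype.val h))
  have h1 := Fermat.Agent.S24.H27.ord_pos_iff_mem_maximalIdeal P.1 (H.inclBA P.2 b) hne
  rw [coe_inclBA] at h1
  rw [h1, ← ev_eq_zero_iff P.1 (H.resL P.1)]
  constructor
  · intro h
    apply Subtype.ext
    rw [coe_evA, h]; rfl
  · intro h
    rw [← coe_evA, h]; rfl

theorem ev_field (P : H.XChart) (b : BA L O t) (hb : b ∈ goodChart L res t)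
    (hpos : 0 < H.nChart P b) : eChart G RESK (H.rChart G P) b = 0 := by
  have hb0 : b ≠ 0 := by
    rintro rfl
    exact hb (map_zero _)
  rw [eChart_rChart, phi_apply, (H.nChart_pos_iff P hb0).mp hpos, map_zero]

theorem int1 (P : H.XChart) :
    ∃ tt : BA L O t, tt ≠ 0 ∧ 0 < H.nChart P tt ∧
      ∀ w : HeightOneSpectrum Bk, H.fChart G RESK w = H.fChart G RESK (H.rChart G P) →
        w ≠ H.rChart G P → eChart G RESK w tt = 1 := by
  classical
  set tb : BA L O t := ⟨t, H.self_mem_BA⟩ with htb
  set a : A := H.evA P.2 tb with ha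
  set w₁ := H.rChart G P with hw₁
  have hfw₁ : H.fChart G RESK w₁ = π a := by
    show eChart G RESK (H.rChart G P) tb = π a
    rw [eChart_rChart, phi_apply]
  by_cases hex : ∃ w : HeightOneSpectrum Bk, H.fChart G RESK w = π a ∧ w ≠ w₁
  · -- CRT: `β ∈ w₁`, `β ≡ 1` at the other points of the fibre
    obtain ⟨β, hβ⟩ := exists_crt (H.fin_fibre G RESK (π a)).toFinset
      (fun w => if w = w₁ then (0 : Bk) else 1)
    obtain ⟨wl, rfl⟩ := resB_surjective G β
    set c : A := H.evA P.2 wl with hc
    set tt : BA L O t := (tb - H.constBA a) + (wl - H.constBA c) with htt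
    have hevtt : H.evA P.2 tt = 0 := by
      rw [htt, map_add, map_sub, map_sub, evA_constBA, evA_constBA, ← ha, ← hc, sub_self,
        sub_self, add_zero]
    -- `π c = 0`
    have hπc : π c = 0 := by
      have h1 := hβ w₁ ((H.fin_fibre G RESK (π a)).mem_toFinset.mpr hfw₁)
      rw [if_pos rfl, sub_zero] at h1
      have h2 : eChart G RESK w₁ wl = 0 := by
        unfold eChart
        rw [RingHom.comp_apply, evW_eq_zero_iff]
        exact h1
      rw [hw₁, eChart_rChart, phi_apply] at h2
      exact h2
    have hval : ∀ w : HeightOneSpectrum Bk, H.fChart G RESK w = π a → w ≠ w₁ →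
        eChart G RESK w tt = 1 := by
      intro w hw hne
      have h1 := hβ w ((H.fin_fibre G RESK (π a)).mem_toFinset.mpr hw)
      rw [if_neg hne] at h1
      have h2 : eChart G RESK w wl = 1 := by
        unfold eChart
        rw [RingHom.comp_apply, evW_eq_iff, map_one]
        exact h1
      have h3 : eChart G RESK w (H.constBA a) = π a := by
        unfold eChart
        rw [RingHom.comp_apply, H.resB_constBA G, evW_algebraMap]
      have h4 : eChart G RESK w (H.constBA c) = π c := by
        unfold eChart
        rw [RingHom.comp_apply, H.resB_constBA G, evW_algebraMap]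
      have h5 : eChart G RESK w tb = π a := hw
      rw [htt, map_add, map_sub, map_sub, h5, h3, h2, h4, hπc, sub_self, sub_zero, zero_add]
    obtain ⟨w, hw, hne⟩ := hex
    have htt0 : tt ≠ 0 := by
      intro h0
      have := hval w hw hne
      rw [h0, map_zero] at this
      exact zero_ne_one this
    refine ⟨tt, htt0, (H.nChart_pos_iff P htt0).mpr hevtt, fun w hw hne => ?_⟩
    rw [hfw₁] at hw
    exact hval w hw hne
  · -- the fibre is `{w₁}`: take `t - a`
    push Not at hex
    set tt : BA L O t := tb - H.constBA a with htt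
    have hevtt : H.evA P.2 tt = 0 := by
      rw [htt, map_sub, evA_constBA, ← ha, sub_self]
    have htt0 : tt ≠ 0 := by
      intro h0
      apply G.nonconst tb rfl (π a)
      have : tb = H.constBA a := sub_eq_zero.mp h0
      rw [this, H.resBA_constBA]
    refine ⟨tt, htt0, (H.nChart_pos_iff P htt0).mpr hevtt, fun w hw hne => ?_⟩
    rw [hfw₁] at hw
    exact absurd (hex w hw) hne

/-- The separation data of a chart: everything except the fibrewise conservation `FW` and the
finiteness of zeros `FINX` is proved here. -/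
theorem sepData
    (FINX : ∀ f : FL, f ≠ 0 → {P : Place L FL | P.ord f ≠ 0}.Finite)
    (FW : ∀ b : BA L O t, b ∈ goodChart L res t → ∀ a : k,
      ∑ᶠ w ∈ {w : HeightOneSpectrum Bk | H.fChart G RESK w = a}, mChart L k res t w b =
        ∑ᶠ P ∈ {P : H.XChart | H.fChart G RESK (H.rChart G P) = a}, H.nChart P b) :
    Fermat.Agent.S18.H89.SepData (H.rChart G) (H.fChart G RESK) H.nChart (mChart L k res t)
      (eChart G RESK) (goodChart L res t) where
  zero_notMem := fun h => h (map_zero _)
  of_mul := by
    intro b c hbc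
    have h : resBA L res t b * resBA L res t c ≠ 0 := by
      rw [← map_mul]; exact hbc
    exact ⟨left_ne_zero_of_mul h, right_ne_zero_of_mul h⟩
  of_e_ne := by
    intro w b hb h0
    apply hb
    have : resB G b = 0 := by
      apply IsFractionRing.injective Bk Fk
      rw [algebraMap_resB, h0, map_zero]
    unfold eChart
    rw [RingHom.comp_apply, this, map_zero]
  n_nonneg := by
    intro P b hb
    exact (Fermat.Agent.S24.H27.mem_toValuationSubring_of_ne_zero _ (coe_ne_zero hb)).mp
      (H.mem_place_of_mem_BA P.2 b.2)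
  n_mul := by
    intro P b c hb hc
    exact P.1.ord_mul (coe_ne_zero hb) (coe_ne_zero hc)
  n_add := by
    intro P b c _ _ hbc
    exact Fermat.Agent.S24.H27.min_ord_le_ord_add P.1 (coe_ne_zero hbc)
  m_nonneg := fun w b hb => mChart_nonneg G w hb
  m_mul := by
    intro w b c hb hc
    unfold mChart
    rw [map_mul]
    exact Place.ord_mul _ hb hc
  m_eq_zero_iff := fun w b hb => mChart_eq_zero_iff G RESK w hb
  m_add := by
    intro w b c hb hlt
    by_cases hc : c ∈ goodChart L res t
    · have h := hlt hc
      unfold mChart at h ⊢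
      have hsum := Fermat.Agent.S24.H24.PlaceLemmas.ord_add_eq_of_lt
        (Fermat.Agent.S24.H42.placeOf (K := k) w) hb hc h
      refine ⟨?_, ?_⟩
      · show resBA L res t (b + c) ≠ 0
        rw [map_add]
        intro h0
        have : resBA L res t b = -resBA L res t c := eq_neg_of_add_eq_zero_left h0
        rw [this, Fermat.Agent.S24.H24.PlaceLemmas.ord_neg] at h
        exact lt_irrefl _ h
      · rw [map_add]; exact hsum
    · have hc0 : resBA L res t c = 0 := by
        by_contra h; exact hc h
      refine ⟨?_, ?_⟩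
      · show resBA L res t (b + c) ≠ 0
        rw [map_add, hc0, add_zero]; exact hb
      · unfold mChart
        rw [map_add, hc0, add_zero]
  ev := fun P b hb hpos => H.ev_field G RESK P b hb hpos
  fin_fibre := H.fin_fibre G RESK
  fin_zeros := by
    intro b hb
    have hb0 : (b : FL) ≠ 0 := by
      intro h
      apply hb
      have : b = 0 := Subtype.ext h
      rw [this, map_zero]
    exact (FINX (b : FL) hb0).preimage (Set.injOn_of_injective Subtype.val_injective)
  fw := FW
  int1 := H.int1 G RESK
  int2 := H.int2 G RESK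

/-- **Pointwise conservation of number on a chart**: the zeros of `b` (with multiplicities)
whose centre is `w` add up to the order of `res b` at `w`. -/
theorem chart_conservation
    (FINX : ∀ f : FL, f ≠ 0 → {P : Place L FL | P.ord f ≠ 0}.Finite)
    (FW : ∀ b : BA L O t, b ∈ goodChart L res t → ∀ a : k,
      ∑ᶠ w ∈ {w : HeightOneSpectrum Bk | H.fChart G RESK w = a}, mChart L k res t w b =
        ∑ᶠ P ∈ {P : H.XChart | H.fChart G RESK (H.rChart G P) = a}, H.nChart P b)
    (b : BA L O t) (hb : resBA L res t b ≠ 0) (w : HeightOneSpectrum Bk) :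
    ∑ᶠ P ∈ {P : H.XChart | H.rChart G P = w}, (P : Place L FL).ord (b : FL) =
      (Fermat.Agent.S24.H42.placeOf (K := k) w).ord (resBA L res t b) :=
  (H.sepData G RESK FINX FW).sum_eq hb w

end ChartHyp

end Sep

end Fermat.Agent.S18.H97
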