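import Fermat.Agent.S18.H97_ChartFW
import Fermat.Agent.S18.H89_ChartGlue

set_option autoImplicit false
set_option linter.unusedSectionVars false

/-!
# S18 / R-EXIST: the global reduction map from the two charts `t` and `t⁻¹`

Given the chart data for the coordinate `t` (finite chart) and for `t⁻¹` (chart at infinity) we
define `rGlobal : Place L FL → Place k Fk` (centre in the finite chart if `P` belongs to it, else
centre in the chart at infinity), prove `deg = 1`, and turn the per-chart pointwise conservation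
of number (`chart_conservation`) into helper89's `H89.ConservesAt rGlobal`.
-/

noncomputable section

open AlgebraicCurve IsDedekindDomain

namespace Fermat.Agent.S18.H97

variable {L FL k Fk : Type*} [Field L] [Field FL] [Algebra L FL] [Field k] [Field Fk]
  [Algebra k Fk]
variable {A : ValuationSubring L} {π : A →+* k} {O : ValuationSubring FL} {res : O →+* Fk}
  {t : FL}
variable {Bk₀ : Type*} [CommRing Bk₀] [IsDedekindDomain Bk₀] [Algebra Bk₀ Fk]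
  [IsFractionRing Bk₀ Fk] [Algebra k Bk₀] [IsScalarTower k Bk₀ Fk]
variable {Bk₁ : Type*} [CommRing Bk₁] [IsDedekindDomain Bk₁] [Algebra Bk₁ Fk]
  [IsFractionRing Bk₁ Fk] [Algebra k Bk₁] [IsScalarTower k Bk₁ Fk]

section TwoCharts

variable (H₀ : ChartHyp A π O res t) (H₁ : ChartHyp A π O res t⁻¹)
  (G₀ : FibreHyp L k res t Bk₀) (G₁ : FibreHyp L k res t⁻¹ Bk₁)

include H₀ in
/-- A place outside the finite chart lies in the chart at infinity, and `t⁻¹` takes a value in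
the maximal ideal of `A` there. -/
theorem inDom_inf_of_not {P : Place L FL} (h : ¬ H₀.InDom P) :
    ∃ hP : H₁.InDom P, π (H₁.evA hP H₁.tBA) = 0 := by
  rcases inDom_or_inv P (H₀.resL P) A t with h1 | ⟨h2, hA, hmax⟩
  · exact absurd h1 h
  · refine ⟨⟨h2, hA⟩, ?_⟩
    rw [H₁.π_eq_zero_iff]
    exact hmax

/-- The global reduction map. -/
def rGlobal (P : Place L FL) : Place k Fk :=
  open scoped Classical in
  if h : H₀.InDom P then H₀.center G₀ h else H₁.center G₁ (inDom_inf_of_not H₀ H₁ h).1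

include H₀ H₁ G₀ G₁

theorem rGlobal_of_inDom {P : Place L FL} (h : H₀.InDom P) :
    rGlobal H₀ H₁ G₀ G₁ P = H₀.center G₀ h := by
  unfold rGlobal
  rw [dif_pos h]

theorem rGlobal_of_not {P : Place L FL} (h : ¬ H₀.InDom P) :
    rGlobal H₀ H₁ G₀ G₁ P = H₁.center G₁ (inDom_inf_of_not H₀ H₁ h).1 := by
  unfold rGlobal
  rw [dif_neg h]

theorem deg_rGlobal (P : Place L FL) : (rGlobal H₀ H₁ G₀ G₁ P).deg = 1 := by
  by_cases h : H₀.InDom P
  · rw [rGlobal_of_inDom H₀ H₁ G₀ G₁ h]; exact H₀.deg_center G₀ h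
  · rw [rGlobal_of_not H₀ H₁ G₀ G₁ h]; exact H₁.deg_center G₁ _

/-- The two reduced coordinates are inverse to each other. -/
theorem tk_mul_tk : H₀.tk * H₁.tk = 1 := by
  have ht0 : t ≠ 0 := by
    intro h0
    have h1 : H₀.tBA = 0 := Subtype.ext h0
    have h2 := G₀.nonconst H₀.tBA rfl 0
    rw [h1, map_zero, map_zero] at h2
    exact h2 rfl
  show res ⟨t, _⟩ * res ⟨t⁻¹, _⟩ = 1
  rw [← map_mul]
  have : (⟨t, H₀.tBA.2.1⟩ * ⟨t⁻¹, H₁.tBA.2.1⟩ : O) = 1 :=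
    Subtype.ext (mul_inv_cancel₀ ht0)
  rw [this, map_one]

theorem tk₁_ne_zero : H₁.tk ≠ 0 := by
  intro h
  have := tk_mul_tk H₀ H₁ G₀ G₁
  rw [h, mul_zero] at this
  exact zero_ne_one this

theorem tk₀_ne_zero : H₀.tk ≠ 0 := by
  intro h
  have := tk_mul_tk H₀ H₁ G₀ G₁
  rw [h, zero_mul] at this
  exact zero_ne_one this

theorem ord_tk₀_eq_neg (Q : Place k Fk) : Q.ord H₀.tk = -Q.ord H₁.tk := by
  have h := Q.ord_mul (tk₀_ne_zero H₀ H₁ G₀ G₁) (tk₁_ne_zero H₀ H₁ G₀ G₁)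
  rw [tk_mul_tk H₀ H₁ G₀ G₁, Place.ord_one] at h
  omega

/-- Outside the finite chart the global reduction is a pole of the coordinate. -/
theorem ord_tk₁_pos_of_not {P : Place L FL} (h : ¬ H₀.InDom P) :
    0 < (rGlobal H₀ H₁ G₀ G₁ P).ord H₁.tk := by
  rw [rGlobal_of_not H₀ H₁ G₀ G₁ h]
  obtain ⟨hP, hπ⟩ := inDom_inf_of_not H₀ H₁ h
  have hne : resBA L res t⁻¹ H₁.tBA - algebraMap k Fk (H₁.phi hP H₁.tBA) ≠ 0 := by
    rw [ChartHyp.phi_apply, hπ, map_zero, sub_zero]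
    exact tk₁_ne_zero H₀ H₁ G₀ G₁
  have := H₁.center_spec G₁ hP H₁.tBA hne
  rw [ChartHyp.phi_apply, hπ, map_zero, sub_zero] at this
  exact this

/-- The reduced coordinate is regular at the global reduction of `P` iff `P` belongs to the
finite chart. -/
theorem tk_mem_rGlobal_iff (P : Place L FL) :
    H₀.tk ∈ (rGlobal H₀ H₁ G₀ G₁ P).toValuationSubring ↔ H₀.InDom P := by
  constructor
  · intro hmem
    by_contra h
    have h1 := ord_tk₁_pos_of_not H₀ H₁ G₀ G₁ h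
    have h2 := (Fermat.Agent.S24.H27.mem_toValuationSubring_of_ne_zero _
      (tk₀_ne_zero H₀ H₁ G₀ G₁)).mp hmem
    rw [ord_tk₀_eq_neg H₀ H₁ G₀ G₁] at h2
    omega
  · intro h
    rw [rGlobal_of_inDom H₀ H₁ G₀ G₁ h]
    exact H₀.resBA_mem_center G₀ h H₀.tBA

variable (RESK₀ : ∀ w : HeightOneSpectrum Bk₀, Function.Surjective (algebraMap k (Bk₀ ⧸ w.asIdeal)))
  (RESK₁ : ∀ w : HeightOneSpectrum Bk₁, Function.Surjective (algebraMap k (Bk₁ ⧸ w.asIdeal)))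

/-- Pointwise conservation of number for the global reduction map, finite chart. -/
theorem conservesAt_fin
    (FINX : ∀ f : FL, f ≠ 0 → {P : Place L FL | P.ord f ≠ 0}.Finite)
    (FW : ∀ b : BA L O t, b ∈ goodChart L res t → ∀ a : k,
      ∑ᶠ w ∈ {w : HeightOneSpectrum Bk₀ | H₀.fChart G₀ RESK₀ w = a}, mChart L k res t w b =
        ∑ᶠ P ∈ {P : H₀.XChart | H₀.fChart G₀ RESK₀ (H₀.rChart G₀ P) = a}, H₀.nChart P b)
    (b : BA L O t) (hb : resBA L res t b ≠ 0) (w : HeightOneSpectrum Bk₀) :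
    Fermat.Agent.S18.H89.ConservesAt (rGlobal H₀ H₁ G₀ G₁)
      (Fermat.Agent.S24.H42.placeOf (K := k) w) (b : FL) (resBA L res t b) := by
  have hb0 : (b : FL) ≠ 0 := by
    intro h
    apply hb
    have : b = 0 := Subtype.ext h
    rw [this, map_zero]
  refine ⟨(FINX _ hb0).subset fun P hP => hP.2, ?_⟩
  rw [← H₀.chart_conservation G₀ RESK₀ FINX FW b hb w]
  symm
  refine finsum_mem_eq_of_bijOn (fun P : H₀.XChart => (P : Place L FL)) ⟨?_, ?_, ?_⟩
    fun _ _ => rfl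
  · intro P hP
    have h1 : H₀.rChart G₀ P = w := hP
    show rGlobal H₀ H₁ G₀ G₁ P.1 = _
    rw [rGlobal_of_inDom H₀ H₁ G₀ G₁ P.2, ← h1]
    rfl
  · intro P _ P' _ h
    exact Subtype.ext h
  · intro P hP
    have h1 : rGlobal H₀ H₁ G₀ G₁ P = Fermat.Agent.S24.H42.placeOf (K := k) w := hP
    have hdom : H₀.InDom P := by
      rw [← tk_mem_rGlobal_iff H₀ H₁ G₀ G₁, h1, ← H₀.algebraMap_tB G₀]
      exact Fermat.Agent.S24.H42.algebraMap_mem_placeOf _ _
    refine ⟨⟨P, hdom⟩, ?_, rfl⟩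
    show H₀.rChart G₀ ⟨P, hdom⟩ = w
    rw [rGlobal_of_inDom H₀ H₁ G₀ G₁ hdom] at h1
    exact Fermat.Agent.S24.H42.placeOf_injective h1

/-- Pointwise conservation of number for the global reduction map, chart at infinity, at the
poles of the coordinate. -/
theorem conservesAt_inf
    (FINX : ∀ f : FL, f ≠ 0 → {P : Place L FL | P.ord f ≠ 0}.Finite)
    (FW : ∀ b : BA L O t⁻¹, b ∈ goodChart L res t⁻¹ → ∀ a : k,
      ∑ᶠ w ∈ {w : HeightOneSpectrum Bk₁ | H₁.fChart G₁ RESK₁ w = a}, mChart L k res t⁻¹ w b =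
        ∑ᶠ P ∈ {P : H₁.XChart | H₁.fChart G₁ RESK₁ (H₁.rChart G₁ P) = a}, H₁.nChart P b)
    (b : BA L O t⁻¹) (hb : resBA L res t⁻¹ b ≠ 0) (w : HeightOneSpectrum Bk₁)
    (hw : H₁.fChart G₁ RESK₁ w = 0) :
    Fermat.Agent.S18.H89.ConservesAt (rGlobal H₀ H₁ G₀ G₁)
      (Fermat.Agent.S24.H42.placeOf (K := k) w) (b : FL) (resBA L res t⁻¹ b) := by
  have hb0 : (b : FL) ≠ 0 := by
    intro h
    apply hb
    have : b = 0 := Subtype.ext h
    rw [this, map_zero]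
  -- the coordinate has a pole at `w`
  have hpole : 0 < (Fermat.Agent.S24.H42.placeOf (K := k) w).ord H₁.tk := by
    have := (H₁.fChart_eq_iff G₁ RESK₁ w 0).mp hw
    rwa [map_zero, sub_zero] at this
  refine ⟨(FINX _ hb0).subset fun P hP => hP.2, ?_⟩
  rw [← H₁.chart_conservation G₁ RESK₁ FINX FW b hb w]
  symm
  refine finsum_mem_eq_of_bijOn (fun P : H₁.XChart => (P : Place L FL)) ⟨?_, ?_, ?_⟩
    fun _ _ => rfl
  · intro P hP
    have h1 : H₁.rChart G₁ P = w := hP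
    show rGlobal H₀ H₁ G₀ G₁ P.1 = _
    -- `P` is not in the finite chart
    have hnot : ¬ H₀.InDom P.1 := by
      intro hdom
      have h2 := H₁.fChart_rChart G₁ RESK₁ P
      rw [h1, hw] at h2
      -- `ev t * ev t⁻¹ = 1` with both values in `A`
      have ht0 : t ≠ 0 := by
        intro h0
        have h3 : H₀.tBA = 0 := Subtype.ext h0
        have h4 := G₀.nonconst H₀.tBA rfl 0
        rw [h3, map_zero, map_zero] at h4
        exact h4 rfl
      have hmul : H₀.evA hdom H₀.tBA * H₁.evA P.2 H₁.tBA = 1 := by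
        apply Subtype.ext
        rw [MulMemClass.coe_mul, H₀.coe_evA_tBA, H₁.coe_evA_tBA, ← map_mul]
        have : (⟨t, hdom.1⟩ * ⟨t⁻¹, P.2.1⟩ : P.1.toValuationSubring) = 1 :=
          Subtype.ext (mul_inv_cancel₀ ht0)
        rw [this, map_one]
        rfl
      have := congrArg π hmul
      rw [map_mul, ← h2, mul_zero, map_one] at this
      exact zero_ne_one this
    rw [rGlobal_of_not H₀ H₁ G₀ G₁ hnot, ← h1]
    rfl
  · intro P _ P' _ h
    exact Subtype.ext h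
  · intro P hP
    have h1 : rGlobal H₀ H₁ G₀ G₁ P = Fermat.Agent.S24.H42.placeOf (K := k) w := hP
    have hnot : ¬ H₀.InDom P := by
      rw [← tk_mem_rGlobal_iff H₀ H₁ G₀ G₁, h1]
      intro hmem
      have h2 := (Fermat.Agent.S24.H27.mem_toValuationSubring_of_ne_zero _
        (tk₀_ne_zero H₀ H₁ G₀ G₁)).mp hmem
      rw [ord_tk₀_eq_neg H₀ H₁ G₀ G₁] at h2
      omega
    have hdom := (inDom_inf_of_not H₀ H₁ hnot).1
    refine ⟨⟨P, hdom⟩, ?_, rfl⟩
    show H₁.rChart G₁ ⟨P, hdom⟩ = w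
    rw [rGlobal_of_not H₀ H₁ G₀ G₁ hnot] at h1
    exact Fermat.Agent.S24.H42.placeOf_injective h1

/-- (COVER) every place of the special fibre comes from a prime of the finite chart, or from a
prime of the chart at infinity at which the coordinate `t⁻¹` vanishes. -/
theorem cover_special
    (hBk₀ : ∀ (Q : Place k Fk), H₀.tk ∈ Q.toValuationSubring →
      ∀ β : Bk₀, algebraMap Bk₀ Fk β ∈ Q.toValuationSubring)
    (hBk₁ : ∀ (Q : Place k Fk), H₁.tk ∈ Q.toValuationSubring →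
      ∀ β : Bk₁, algebraMap Bk₁ Fk β ∈ Q.toValuationSubring)
    (Q : Place k Fk) :
    (H₀.tk ∈ Q.toValuationSubring ∧
        ∃ w : HeightOneSpectrum Bk₀, Fermat.Agent.S24.H42.placeOf (K := k) w = Q) ∨
      (H₀.tk ∉ Q.toValuationSubring ∧ ∃ w : HeightOneSpectrum Bk₁,
        H₁.fChart G₁ RESK₁ w = 0 ∧ Fermat.Agent.S24.H42.placeOf (K := k) w = Q) := by
  by_cases h : H₀.tk ∈ Q.toValuationSubring
  · exact Or.inl ⟨h, Fermat.Agent.S24.H42.exists_placeOf_eq (K := k) Q (hBk₀ Q h)⟩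
  · right
    refine ⟨h, ?_⟩
    have h0 : Q.ord H₀.tk < 0 := by
      have := (Fermat.Agent.S24.H27.mem_toValuationSubring_of_ne_zero Q
        (tk₀_ne_zero H₀ H₁ G₀ G₁)).not.mp h
      omega
    have h1 : 0 < Q.ord H₁.tk := by
      rw [ord_tk₀_eq_neg H₀ H₁ G₀ G₁] at h0
      omega
    have hmem : H₁.tk ∈ Q.toValuationSubring :=
      (Fermat.Agent.S24.H27.mem_toValuationSubring_of_ne_zero Q
        (tk₁_ne_zero H₀ H₁ G₀ G₁)).mpr h1.le
    obtain ⟨w, rfl⟩ := Fermat.Agent.S24.H42.exists_placeOf_eq (K := k) Q (hBk₁ Q hmem)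
    refine ⟨w, ?_, rfl⟩
    rw [H₁.fChart_eq_iff G₁ RESK₁ w 0, map_zero, sub_zero]
    exact h1

variable (L O t) in
/-- The two chart rings, indexed by `Bool` (`true` = finite chart). -/
def chartRing (c : Bool) : Subring FL := cond c (BA L O t) (BA L O t⁻¹)

/-- The two chart domains on the special fibre, indexed by `Bool`. -/
def chartSet (c : Bool) : Set (Place k Fk) :=
  cond c {Q | H₀.tk ∈ Q.toValuationSubring} {Q | H₀.tk ∉ Q.toValuationSubring}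

omit H₀ H₁ G₀ G₁ in
theorem chartRing_le (c : Bool) : chartRing L O t c ≤ O.toSubring := by
  cases c
  · exact inf_le_left
  · exact inf_le_left

/-- **Chart gluing data** for helper89's `H89.ChartGlue`: everything except `frac`. -/
theorem chartGlue
    (FINX : ∀ f : FL, f ≠ 0 → {P : Place L FL | P.ord f ≠ 0}.Finite)
    (FW₀ : ∀ b : BA L O t, b ∈ goodChart L res t → ∀ a : k,
      ∑ᶠ w ∈ {w : HeightOneSpectrum Bk₀ | H₀.fChart G₀ RESK₀ w = a}, mChart L k res t w b =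
        ∑ᶠ P ∈ {P : H₀.XChart | H₀.fChart G₀ RESK₀ (H₀.rChart G₀ P) = a}, H₀.nChart P b)
    (FW₁ : ∀ b : BA L O t⁻¹, b ∈ goodChart L res t⁻¹ → ∀ a : k,
      ∑ᶠ w ∈ {w : HeightOneSpectrum Bk₁ | H₁.fChart G₁ RESK₁ w = a}, mChart L k res t⁻¹ w b =
        ∑ᶠ P ∈ {P : H₁.XChart | H₁.fChart G₁ RESK₁ (H₁.rChart G₁ P) = a}, H₁.nChart P b)
    (hBk₀ : ∀ (Q : Place k Fk), H₀.tk ∈ Q.toValuationSubring →
      ∀ β : Bk₀, algebraMap Bk₀ Fk β ∈ Q.toValuationSubring)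
    (hBk₁ : ∀ (Q : Place k Fk), H₁.tk ∈ Q.toValuationSubring →
      ∀ β : Bk₁, algebraMap Bk₁ Fk β ∈ Q.toValuationSubring)
    (frac : ∀ (c : Bool) (f : FL) (hf : f ∈ O.toSubring), res ⟨f, hf⟩ ≠ 0 →
      ∃ (b₁ b₂ : FL) (h₁ : b₁ ∈ chartRing L O t c) (h₂ : b₂ ∈ chartRing L O t c),
        res ⟨b₁, chartRing_le c h₁⟩ ≠ 0 ∧ res ⟨b₂, chartRing_le c h₂⟩ ≠ 0 ∧ f * b₂ = b₁) :
    Fermat.Agent.S18.H89.ChartGlue (K := L) (k := k) O.toSubring res (rGlobal H₀ H₁ G₀ G₁)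
      (chartRing L O t) (chartSet H₀) where
  le := chartRing_le
  cover := by
    intro Q
    by_cases h : H₀.tk ∈ Q.toValuationSubring
    · exact ⟨true, h⟩
    · exact ⟨false, h⟩
  frac := frac
  cons := by
    intro c b hb hres Q hQ
    cases c
    · -- chart at infinity
      have hQ' : H₀.tk ∉ Q.toValuationSubring := hQ
      rcases cover_special H₀ H₁ G₀ G₁ RESK₁ hBk₀ hBk₁ Q with ⟨h, -⟩ | ⟨-, w, hw, rfl⟩
      · exact absurd h hQ'
      · exact conservesAt_inf H₀ H₁ G₀ G₁ RESK₁ FINX FW₁ ⟨b, hb⟩ hres w hw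
    · -- finite chart
      have hQ' : H₀.tk ∈ Q.toValuationSubring := hQ
      obtain ⟨w, rfl⟩ := Fermat.Agent.S24.H42.exists_placeOf_eq (K := k) Q (hBk₀ Q hQ')
      exact conservesAt_fin H₀ H₁ G₀ G₁ RESK₀ FINX FW₀ ⟨b, hb⟩ hres w

/-- **The key clause of `IsPlaceReductionAlong`** for the global reduction map: for every `f` in
the Gauss unit ball with nonzero reduction, `r_* (div f) = div (res f)`. -/
theorem mapDomain_rGlobal
    (FINX : ∀ f : FL, f ≠ 0 → {P : Place L FL | P.ord f ≠ 0}.Finite)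
    (FW₀ : ∀ b : BA L O t, b ∈ goodChart L res t → ∀ a : k,
      ∑ᶠ w ∈ {w : HeightOneSpectrum Bk₀ | H₀.fChart G₀ RESK₀ w = a}, mChart L k res t w b =
        ∑ᶠ P ∈ {P : H₀.XChart | H₀.fChart G₀ RESK₀ (H₀.rChart G₀ P) = a}, H₀.nChart P b)
    (FW₁ : ∀ b : BA L O t⁻¹, b ∈ goodChart L res t⁻¹ → ∀ a : k,
      ∑ᶠ w ∈ {w : HeightOneSpectrum Bk₁ | H₁.fChart G₁ RESK₁ w = a}, mChart L k res t⁻¹ w b =
        ∑ᶠ P ∈ {P : H₁.XChart | H₁.fChart G₁ RESK₁ (H₁.rChart G₁ P) = a}, H₁.nChart P b)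
    (hBk₀ : ∀ (Q : Place k Fk), H₀.tk ∈ Q.toValuationSubring →
      ∀ β : Bk₀, algebraMap Bk₀ Fk β ∈ Q.toValuationSubring)
    (hBk₁ : ∀ (Q : Place k Fk), H₁.tk ∈ Q.toValuationSubring →
      ∀ β : Bk₁, algebraMap Bk₁ Fk β ∈ Q.toValuationSubring)
    (frac : ∀ (c : Bool) (f : FL) (hf : f ∈ O.toSubring), res ⟨f, hf⟩ ≠ 0 →
      ∃ (b₁ b₂ : FL) (h₁ : b₁ ∈ chartRing L O t c) (h₂ : b₂ ∈ chartRing L O t c),
        res ⟨b₁, chartRing_le c h₁⟩ ≠ 0 ∧ res ⟨b₂, chartRing_le c h₂⟩ ≠ 0 ∧ f * b₂ = b₁)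
    {f : FL} (hf : f ∈ O) (h : res ⟨f, hf⟩ ≠ 0) (D : Divisor L FL) (hD : ∀ P, D P = P.ord f)
    (Q : Place k Fk) :
    Finsupp.mapDomain (rGlobal H₀ H₁ G₀ G₁) D Q = Q.ord (res ⟨f, hf⟩) :=
  (chartGlue H₀ H₁ G₀ G₁ RESK₀ RESK₁ FINX FW₀ FW₁ hBk₀ hBk₁ frac).mapDomain_eq
    (O := O.toSubring) hf h D hD Q

end TwoCharts

end Fermat.Agent.S18.H97
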